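/-
M59 / Sink B, leaf 4 [TOR-SURJ]: THE LOCAL RATIO CALCULUS (helper15).  Prefix `m59tl_`.

`R` a domain with fraction field `F` (in use `R = ssl_locSub F0 𝔫`, the local ring of a chart at a
closed point of the special fibre), `𝔪` an ideal (in use `𝔫 R`), `𝔮₁ 𝔮₂` two primes (two branches of
the special fibre through the point), `m` the exponent.  In the vocabulary of `S36/Glue/Local.lean`
(`s36g_local_data`: `f = ω · g ^ m`, `g` a unit along the branches, branch values `a j`):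

* `m59tl_Ratio 𝔪 𝔮₁ 𝔮₂ m f c` : SOME local datum `(ω, g, a₁, a₂)` of `f` has `a₁ ≡ c · a₂ mod 𝔪`
  (`a₁ a₂ c` units of `R`): "the toric datum of `f` between the two branches at the point is `c`";
* `m59tl_ratio_all`  : then EVERY local datum of `f` has `a₁' ≡ c · a₂' mod 𝔪` (independence of the
  choices: `s36g_root_unique` + `s36g_branch_value_unique`; `R` integrally closed, `𝔮ᵢ ≤ 𝔪`);
* `m59tl_ratio_mul`, `m59tl_ratio_inv`, `m59tl_ratio_div` : multiplicativity;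
* `m59tl_ratio_of_pow` : [POW-CONST], local form: `f = h ^ m`, `h ≡ bᵢ` along `𝔮ᵢ` ⟹ ratio `b₁ / b₂`;
* `m59tl_ratio_congr` : the ratio only matters modulo `𝔪`.
-/
import Mathlib
import Fermat.Agent.S36.Glue.Local

set_option autoImplicit false
set_option linter.unusedSectionVars false
set_option linter.unusedVariables false

namespace Fermat.Agent.M59

open Fermat.Agent.SS Fermat.Agent.S36

section Ratio

variable {R : Type*} [CommRing R] [IsDomain R] {F : Type*} [Field F] [Algebra R F]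
  [IsFractionRing R F]

/-- **the toric datum of `f` between two branches at a point is `c`**: some local datum
`f = ω · g ^ m` (`g` a unit along both branches, with unit branch values `a₁`, `a₂`) has
`a₁ ≡ c · a₂` modulo the point. -/
def m59tl_Ratio (𝔪 𝔮₁ 𝔮₂ : Ideal R) (m : ℕ) (f : F) (c : Rˣ) : Prop :=
  ∃ (ω : Rˣ) (g : F) (a₁ a₂ : Rˣ), f = algebraMap R F (ω : R) * g ^ m ∧
    ssl_UnitAt F 𝔮₁ g ∧ ssl_UnitAt F 𝔮₂ g ∧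
    s36g_MemM 𝔮₁ (g - algebraMap R F (a₁ : R)) ∧ s36g_MemM 𝔮₂ (g - algebraMap R F (a₂ : R)) ∧
    (a₁ : R) - (c : R) * (a₂ : R) ∈ 𝔪

variable (𝔪 𝔮₁ 𝔮₂ : Ideal R) [h1 : 𝔮₁.IsPrime] [h2 : 𝔮₂.IsPrime]

/-- the ratio only matters modulo the point -/
theorem m59tl_ratio_congr {m : ℕ} {f : F} {c c' : Rˣ} (h : m59tl_Ratio 𝔪 𝔮₁ 𝔮₂ m f c)
    (hcc : (c : R) - (c' : R) ∈ 𝔪) : m59tl_Ratio 𝔪 𝔮₁ 𝔮₂ m f c' := by
  obtain ⟨ω, g, a₁, a₂, hf, hu1, hu2, hm1, hm2, hr⟩ := h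
  refine ⟨ω, g, a₁, a₂, hf, hu1, hu2, hm1, hm2, ?_⟩
  have : (a₁ : R) - (c' : R) * (a₂ : R) =
      ((a₁ : R) - (c : R) * (a₂ : R)) + ((c : R) - (c' : R)) * (a₂ : R) := by ring
  rw [this]
  exact 𝔪.add_mem hr (𝔪.mul_mem_right _ hcc)

/-- **independence of the choices**: every local datum of `f` has the same ratio. -/
theorem m59tl_ratio_all [IsIntegrallyClosed R] (hq1 : 𝔮₁ ≤ 𝔪) (hq2 : 𝔮₂ ≤ 𝔪) {m : ℕ}
    (hm : 0 < m) {f : F} {c : Rˣ} (h : m59tl_Ratio 𝔪 𝔮₁ 𝔮₂ m f c)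
    (ω' : Rˣ) (g' : F) (a₁' a₂' : R) (hf' : f = algebraMap R F (ω' : R) * g' ^ m)
    (hm1' : s36g_MemM 𝔮₁ (g' - algebraMap R F a₁'))
    (hm2' : s36g_MemM 𝔮₂ (g' - algebraMap R F a₂')) :
    a₁' - (c : R) * a₂' ∈ 𝔪 := by
  obtain ⟨ω, g, a₁, a₂, hf, hu1, hu2, hm1, hm2, hr⟩ := h
  have hg0 : g ≠ 0 := ssl_unitAt_ne_zero 𝔮₁ hu1
  obtain ⟨t, ht⟩ := s36g_root_unique hm hg0 ω ω' (hf ▸ hf')
  -- `g' = t g ≡ t aᵢ` along `𝔮ᵢ`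
  have e1 : s36g_MemM 𝔮₁ (g' - algebraMap R F ((t : R) * (a₁ : R))) := by
    have : g' - algebraMap R F ((t : R) * (a₁ : R)) =
        (g - algebraMap R F (a₁ : R)) * algebraMap R F (t : R) := by
      rw [ht, map_mul]; ring
    rw [this]
    exact s36g_memM_mul_memAt 𝔮₁ hm1 (ssl_memAt_algebraMap 𝔮₁ _)
  have e2 : s36g_MemM 𝔮₂ (g' - algebraMap R F ((t : R) * (a₂ : R))) := by
    have : g' - algebraMap R F ((t : R) * (a₂ : R)) =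
        (g - algebraMap R F (a₂ : R)) * algebraMap R F (t : R) := by
      rw [ht, map_mul]; ring
    rw [this]
    exact s36g_memM_mul_memAt 𝔮₂ hm2 (ssl_memAt_algebraMap 𝔮₂ _)
  have d1 : a₁' - (t : R) * (a₁ : R) ∈ 𝔪 := hq1 (s36g_branch_value_unique 𝔮₁ hm1' e1)
  have d2 : a₂' - (t : R) * (a₂ : R) ∈ 𝔪 := hq2 (s36g_branch_value_unique 𝔮₂ hm2' e2)
  have : a₁' - (c : R) * a₂' =
      (a₁' - (t : R) * (a₁ : R)) - (c : R) * (a₂' - (t : R) * (a₂ : R)) +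
        (t : R) * ((a₁ : R) - (c : R) * (a₂ : R)) := by ring
  rw [this]
  exact 𝔪.add_mem (𝔪.sub_mem d1 (𝔪.mul_mem_left _ d2)) (𝔪.mul_mem_left _ hr)

/-- multiplicativity -/
theorem m59tl_ratio_mul {m : ℕ} {f f' : F} {c c' : Rˣ} (h : m59tl_Ratio 𝔪 𝔮₁ 𝔮₂ m f c)
    (h' : m59tl_Ratio 𝔪 𝔮₁ 𝔮₂ m f' c') : m59tl_Ratio 𝔪 𝔮₁ 𝔮₂ m (f * f') (c * c') := by
  obtain ⟨ω, g, a₁, a₂, hf, hu1, hu2, hm1, hm2, hr⟩ := h
  obtain ⟨ω', g', a₁', a₂', hf', hu1', hu2', hm1', hm2', hr'⟩ := h'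
  refine ⟨ω * ω', g * g', a₁ * a₁', a₂ * a₂', ?_, ssl_unitAt_mul 𝔮₁ hu1 hu1',
    ssl_unitAt_mul 𝔮₂ hu2 hu2', ?_, ?_, ?_⟩
  · rw [hf, hf', Units.val_mul, map_mul, mul_pow]; ring
  · rw [Units.val_mul, map_mul]
    exact s36g_memM_mul_sub 𝔮₁ hm1 hm1' (ssl_memAt_algebraMap 𝔮₁ _) (ssl_memAt_algebraMap 𝔮₁ _)
  · rw [Units.val_mul, map_mul]
    exact s36g_memM_mul_sub 𝔮₂ hm2 hm2' (ssl_memAt_algebraMap 𝔮₂ _) (ssl_memAt_algebraMap 𝔮₂ _)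
  · have : ((a₁ * a₁' : Rˣ) : R) - ((c * c' : Rˣ) : R) * ((a₂ * a₂' : Rˣ) : R) =
        ((a₁ : R) - (c : R) * (a₂ : R)) * (a₁' : R) +
          (c : R) * (a₂ : R) * ((a₁' : R) - (c' : R) * (a₂' : R)) := by
      simp only [Units.val_mul]; ring
    rw [this]
    exact 𝔪.add_mem (𝔪.mul_mem_right _ hr) (𝔪.mul_mem_left _ hr')

/-- a branch value of the inverse -/
theorem m59tl_memM_inv (𝔮 : Ideal R) [h𝔮 : 𝔮.IsPrime] {g : F} {a : Rˣ} (hu : ssl_UnitAt F 𝔮 g)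
    (h : s36g_MemM 𝔮 (g - algebraMap R F (a : R))) :
    s36g_MemM 𝔮 (g⁻¹ - algebraMap R F ((a⁻¹ : Rˣ) : R)) := by
  have hg0 : g ≠ 0 := ssl_unitAt_ne_zero 𝔮 hu
  have hainv : algebraMap R F (a : R) * algebraMap R F ((a⁻¹ : Rˣ) : R) = 1 := by
    rw [← map_mul, ← Units.val_mul, mul_inv_cancel, Units.val_one, map_one]
  have e : g⁻¹ - algebraMap R F ((a⁻¹ : Rˣ) : R) =
      (g - algebraMap R F (a : R)) * (-(g⁻¹ * algebraMap R F ((a⁻¹ : Rˣ) : R))) := by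
    have h3 : (g - algebraMap R F (a : R)) * (-(g⁻¹ * algebraMap R F ((a⁻¹ : Rˣ) : R))) =
        -(g * g⁻¹) * algebraMap R F ((a⁻¹ : Rˣ) : R) +
          g⁻¹ * (algebraMap R F (a : R) * algebraMap R F ((a⁻¹ : Rˣ) : R)) := by ring
    rw [h3, hainv, mul_inv_cancel₀ hg0]; ring
  rw [e]
  refine s36g_memM_mul_memAt 𝔮 h ?_
  have h4 : ssl_MemAt F 𝔮 (g⁻¹ * algebraMap R F ((a⁻¹ : Rˣ) : R)) :=
    ssl_memAt_mul 𝔮 (ssl_memAt_of_unitAt 𝔮 (ssl_unitAt_inv 𝔮 hu)) (ssl_memAt_algebraMap 𝔮 _)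
  obtain ⟨x, s, hs, hxs⟩ := h4
  exact ⟨-x, s, hs, by rw [neg_mul, hxs, map_neg]⟩

/-- inverses -/
theorem m59tl_ratio_inv {m : ℕ} {f : F} {c : Rˣ} (h : m59tl_Ratio 𝔪 𝔮₁ 𝔮₂ m f c) :
    m59tl_Ratio 𝔪 𝔮₁ 𝔮₂ m f⁻¹ c⁻¹ := by
  obtain ⟨ω, g, a₁, a₂, hf, hu1, hu2, hm1, hm2, hr⟩ := h
  have hωinv : algebraMap R F ((ω⁻¹ : Rˣ) : R) = (algebraMap R F (ω : R))⁻¹ := by
    have h1 : algebraMap R F (ω : R) * algebraMap R F ((ω⁻¹ : Rˣ) : R) = 1 := by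
      rw [← map_mul, ← Units.val_mul, mul_inv_cancel, Units.val_one, map_one]
    exact eq_inv_of_mul_eq_one_right h1
  refine ⟨ω⁻¹, g⁻¹, a₁⁻¹, a₂⁻¹, ?_, ssl_unitAt_inv 𝔮₁ hu1, ssl_unitAt_inv 𝔮₂ hu2,
    m59tl_memM_inv 𝔮₁ hu1 hm1, m59tl_memM_inv 𝔮₂ hu2 hm2, ?_⟩
  · rw [hf, hωinv, mul_inv, inv_pow]
  · have : ((a₁⁻¹ : Rˣ) : R) - ((c⁻¹ : Rˣ) : R) * ((a₂⁻¹ : Rˣ) : R) =
        -(((a₁⁻¹ : Rˣ) : R) * ((c⁻¹ : Rˣ) : R) * ((a₂⁻¹ : Rˣ) : R)) *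
          ((a₁ : R) - (c : R) * (a₂ : R)) := by
      have e1 : ((a₁⁻¹ : Rˣ) : R) * (a₁ : R) = 1 := by
        rw [← Units.val_mul, inv_mul_cancel, Units.val_one]
      have e2 : ((a₂⁻¹ : Rˣ) : R) * (a₂ : R) = 1 := by
        rw [← Units.val_mul, inv_mul_cancel, Units.val_one]
      have e3 : ((c⁻¹ : Rˣ) : R) * (c : R) = 1 := by
        rw [← Units.val_mul, inv_mul_cancel, Units.val_one]
      have : -(((a₁⁻¹ : Rˣ) : R) * ((c⁻¹ : Rˣ) : R) * ((a₂⁻¹ : Rˣ) : R)) *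
          ((a₁ : R) - (c : R) * (a₂ : R)) =
          -((((a₁⁻¹ : Rˣ) : R) * (a₁ : R)) * ((c⁻¹ : Rˣ) : R) * ((a₂⁻¹ : Rˣ) : R)) +
            ((a₁⁻¹ : Rˣ) : R) * (((c⁻¹ : Rˣ) : R) * (c : R)) *
              (((a₂⁻¹ : Rˣ) : R) * (a₂ : R)) := by ring
      rw [this, e1, e2, e3]; ring
    rw [this]
    exact 𝔪.mul_mem_left _ hr

/-- quotients -/
theorem m59tl_ratio_div {m : ℕ} {f f' : F} {c c' : Rˣ} (h : m59tl_Ratio 𝔪 𝔮₁ 𝔮₂ m f c)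
    (h' : m59tl_Ratio 𝔪 𝔮₁ 𝔮₂ m f' c') : m59tl_Ratio 𝔪 𝔮₁ 𝔮₂ m (f / f') (c * c'⁻¹) := by
  rw [div_eq_mul_inv]
  exact m59tl_ratio_mul 𝔪 𝔮₁ 𝔮₂ h (m59tl_ratio_inv 𝔪 𝔮₁ 𝔮₂ h')

/-- **[POW-CONST], local form**: an `m`-th power `h ^ m`, `h ≡ bᵢ` along `𝔮ᵢ`, has ratio `b₁ / b₂`. -/
theorem m59tl_ratio_of_pow {m : ℕ} {h : F} {b₁ b₂ : Rˣ} (hu1 : ssl_UnitAt F 𝔮₁ h)
    (hu2 : ssl_UnitAt F 𝔮₂ h) (hb1 : s36g_MemM 𝔮₁ (h - algebraMap R F (b₁ : R)))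
    (hb2 : s36g_MemM 𝔮₂ (h - algebraMap R F (b₂ : R))) :
    m59tl_Ratio 𝔪 𝔮₁ 𝔮₂ m (h ^ m) (b₁ * b₂⁻¹) := by
  refine ⟨1, h, b₁, b₂, by rw [Units.val_one, map_one, one_mul], hu1, hu2, hb1, hb2, ?_⟩
  have : (b₁ : R) - ((b₁ * b₂⁻¹ : Rˣ) : R) * (b₂ : R) = 0 := by
    rw [Units.val_mul, mul_assoc, ← Units.val_mul, inv_mul_cancel, Units.val_one, mul_one,
      sub_self]
  rw [this]
  exact 𝔪.zero_mem

end Ratio

end Fermat.Agent.M59
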