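/-
M59 / Sink B, leaf 4 [TOR-SURJ], cell (pull), LOCAL PART (helper15).  Prefix `m59tl_`.

TRANSFER OF THE LOCAL RATIO ALONG A MAP OF LOCAL RINGS.  `ψ : R₁ →+* R₂` a ring homomorphism of
domains, `φ : F₁ →+* F₂` the induced map of fraction fields (`φ ∘ algebraMap = algebraMap ∘ ψ`),
`𝔮 ⊆ R₁`, `𝔮' ⊆ R₂` ideals with `ψ x ∈ 𝔮' ↔ x ∈ 𝔮` ("the branch `𝔮'` lies over the branch `𝔮`").

* `m59tl_unitAt_map`, `m59tl_memM_map` : units and congruences along the branch transfer;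
* `m59tl_ratio_map`  : `m59tl_Ratio 𝔪 𝔮₁ 𝔮₂ m f c → m59tl_Ratio 𝔪' 𝔮₁' 𝔮₂' m (φ f) (ψ c)`
  (in use: `ψ` = the inclusion `(B₁)_{𝔫 ∩ B₁} ⊆ (B₂)_𝔫` for `α`, resp. the substitution `X ↦ X^q` for
  `β`; `(𝔮₁', 𝔮₂') = (P_C, P_B)` over `(P₁, P₂)` for `α`, `(P_A, P_C)` over `(P₁, P₂)` for `β`);
* `m59tl_ratio_same` : two branches over the SAME branch have ratio one
  (`(P_A, P_C)` over `P₁` for `α`; `(P_C, P_B)` over `P₂` for `β`).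
-/
import Mathlib
import Fermat.Agent.M59.SinkB.Tor.Local

set_option autoImplicit false
set_option linter.unusedSectionVars false
set_option linter.unusedVariables false

namespace Fermat.Agent.M59

open Fermat.Agent.SS Fermat.Agent.S36

section Xfer

variable {R₁ : Type*} [CommRing R₁] [IsDomain R₁] {F₁ : Type*} [Field F₁] [Algebra R₁ F₁]
  [IsFractionRing R₁ F₁]
variable {R₂ : Type*} [CommRing R₂] [IsDomain R₂] {F₂ : Type*} [Field F₂] [Algebra R₂ F₂]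
  [IsFractionRing R₂ F₂]
variable (ψ : R₁ →+* R₂) (φ : F₁ →+* F₂)
  (hφψ : ∀ x : R₁, φ (algebraMap R₁ F₁ x) = algebraMap R₂ F₂ (ψ x))

include hφψ in
/-- units along a branch transfer to a branch over it. -/
theorem m59tl_unitAt_map {𝔮 : Ideal R₁} {𝔮' : Ideal R₂} (h𝔮 : ∀ x : R₁, ψ x ∈ 𝔮' → x ∈ 𝔮)
    {g : F₁} (hg : ssl_UnitAt F₁ 𝔮 g) : ssl_UnitAt F₂ 𝔮' (φ g) := by
  obtain ⟨a, s, ha, hs, h⟩ := hg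
  refine ⟨ψ a, ψ s, fun hm => ha (h𝔮 a hm), fun hm => hs (h𝔮 s hm), ?_⟩
  rw [← hφψ, ← hφψ, ← map_mul, h]

include hφψ in
/-- congruences along a branch transfer to a branch over it. -/
theorem m59tl_memM_map {𝔮 : Ideal R₁} {𝔮' : Ideal R₂} (h𝔮 : ∀ x : R₁, ψ x ∈ 𝔮' → x ∈ 𝔮)
    (h𝔮' : ∀ x : R₁, x ∈ 𝔮 → ψ x ∈ 𝔮') {z : F₁} (hz : s36g_MemM 𝔮 z) :
    s36g_MemM 𝔮' (φ z) := by
  obtain ⟨b, s, hb, hs, h⟩ := hz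
  refine ⟨ψ b, ψ s, h𝔮' b hb, fun hm => hs (h𝔮 s hm), ?_⟩
  rw [← hφψ, ← hφψ, ← map_mul, h]

include hφψ in
/-- **the ratio transfers along a map of local rings.** -/
theorem m59tl_ratio_map {𝔪 𝔮₁ 𝔮₂ : Ideal R₁} {𝔪' 𝔮₁' 𝔮₂' : Ideal R₂}
    (h𝔪 : ∀ x : R₁, x ∈ 𝔪 → ψ x ∈ 𝔪')
    (h1 : ∀ x : R₁, ψ x ∈ 𝔮₁' → x ∈ 𝔮₁) (h1' : ∀ x : R₁, x ∈ 𝔮₁ → ψ x ∈ 𝔮₁')
    (h2 : ∀ x : R₁, ψ x ∈ 𝔮₂' → x ∈ 𝔮₂) (h2' : ∀ x : R₁, x ∈ 𝔮₂ → ψ x ∈ 𝔮₂')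
    {m : ℕ} {f : F₁} {c : R₁ˣ} (h : m59tl_Ratio 𝔪 𝔮₁ 𝔮₂ m f c) :
    m59tl_Ratio 𝔪' 𝔮₁' 𝔮₂' m (φ f) (Units.map (ψ : R₁ →* R₂) c) := by
  obtain ⟨ω, g, a₁, a₂, hf, hu1, hu2, hm1, hm2, hr⟩ := h
  refine ⟨Units.map (ψ : R₁ →* R₂) ω, φ g, Units.map (ψ : R₁ →* R₂) a₁,
    Units.map (ψ : R₁ →* R₂) a₂, ?_, m59tl_unitAt_map ψ φ hφψ h1 hu1,
    m59tl_unitAt_map ψ φ hφψ h2 hu2, ?_, ?_, ?_⟩
  · rw [hf, map_mul, map_pow, hφψ]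
    rfl
  · have := m59tl_memM_map ψ φ hφψ h1 h1' hm1
    rw [map_sub, hφψ] at this
    exact this
  · have := m59tl_memM_map ψ φ hφψ h2 h2' hm2
    rw [map_sub, hφψ] at this
    exact this
  · have := h𝔪 _ hr
    rw [map_sub, map_mul] at this
    exact this

/-- **two branches over the same branch have ratio one.** -/
theorem m59tl_ratio_same {𝔪 𝔮₁ 𝔮₂ : Ideal R₁} {𝔪' 𝔮₁' 𝔮₂' : Ideal R₂}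
    (h1 : ∀ x : R₁, ψ x ∈ 𝔮₁' → x ∈ 𝔮₁) (h1' : ∀ x : R₁, x ∈ 𝔮₁ → ψ x ∈ 𝔮₁')
    (h2 : ∀ x : R₁, ψ x ∈ 𝔮₂' → x ∈ 𝔮₁) (h2' : ∀ x : R₁, x ∈ 𝔮₁ → ψ x ∈ 𝔮₂')
    (hφψ : ∀ x : R₁, φ (algebraMap R₁ F₁ x) = algebraMap R₂ F₂ (ψ x))
    {m : ℕ} {f : F₁} {c : R₁ˣ} (h : m59tl_Ratio 𝔪 𝔮₁ 𝔮₂ m f c) :
    m59tl_Ratio 𝔪' 𝔮₁' 𝔮₂' m (φ f) 1 := by
  obtain ⟨ω, g, a₁, a₂, hf, hu1, hu2, hm1, hm2, hr⟩ := h
  refine ⟨Units.map (ψ : R₁ →* R₂) ω, φ g, Units.map (ψ : R₁ →* R₂) a₁,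
    Units.map (ψ : R₁ →* R₂) a₁, ?_, m59tl_unitAt_map ψ φ hφψ h1 hu1,
    m59tl_unitAt_map ψ φ hφψ h2 hu1, ?_, ?_, ?_⟩
  · rw [hf, map_mul, map_pow, hφψ]
    rfl
  · have := m59tl_memM_map ψ φ hφψ h1 h1' hm1
    rw [map_sub, hφψ] at this
    exact this
  · have := m59tl_memM_map ψ φ hφψ h2 h2' hm1
    rw [map_sub, hφψ] at this
    exact this
  · rw [Units.val_one, one_mul, sub_self]
    exact 𝔪'.zero_mem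

end Xfer

end Fermat.Agent.M59
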