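/-
M59 / Sink B, leaf 4 [TOR-SURJ], LEVEL `N' q`: THE DEFINITIONS OF THE TORIC DATUM `T1` (helper7, after
the ruling #5591 (3) of helper15).  Prefix `m59t1_`.  DEFINITIONS ONLY (the cells are proved
elsewhere).

Context: `A` a valuation subring of `ℚ̄` over `q` odd, `q ∤ N'`; `L ⊆ ℚ̄` a number field (THE big
level `L*`), `O = A ∩ L` a discrete valuation ring with uniformiser `q`; `E = lg_E L (N' q)` the
Legendre cover, `B1 = fc_chart O {λ}` its `λ`-chart, `P1`, `P2` the centres on `B1` of the two Gauss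
valuations `V₁`, `V₂ = W V₁`; `p` the exponent, `ζ ∈ Oˣ` (in use: a primitive `p`-th root of `1`);
`Sg` the supersingular places of `FF_A(N')`, `Q0 ∈ Sg` a base point.

* `m59t1_Lab 𝔫 Q`      : the point `𝔫` of `B1` is the centre `s44ndl_n 𝒲` of an extension `𝒲` to the
                          Legendre cover of the rank-2 valuation of the place `Q` (`s44ndl_Ext`);
* `m59t1_RatioAt 𝔫 f c`: `m59tl_Ratio (𝔫 R) (P1 R) (P2 R) p f c` in the local ring `R = (B1)_𝔫`,
                          `c ∈ Oˣ`;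
* `m59t1_RatioAll f c` : at every crossing point `𝔫 ⊇ P1 + P2` labelled by `Q ∈ Sg` the toric datum of
                          `f` is `c Q`;
* `m59t1_B`             : the finite set of data, `{Q // Q ≠ Q0} → ZMod p`; `m59t1_ext` its extension
                          by `0` at `Q0`;
* `m59t1_NF u x0 c R g'`: the normal form of `u` over `L` (the conclusion of `m59to_nf_at`);
* **`m59t1_T1 u a`**    : `u` has a normal form whose toric datum at the points over `Q` is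
                          `ζ ^ (a Q) · ε` for ONE unit `ε` of `O`.
-/
import Mathlib
import Fermat.Agent.M59.SinkB.Tor.Local
import Fermat.Agent.S44.Mono.NodeDictLeg
import Fermat.Agent.S35.Seams
import Fermat.Agent.S44.Frame

set_option autoImplicit false
set_option linter.unusedSectionVars false
set_option linter.unusedVariables false
set_option linter.style.haveILetI false
set_option synthInstance.maxHeartbeats 400000
set_option maxHeartbeats 1000000

noncomputable section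

namespace Fermat.Agent.M59

open Polynomial ModularCurve AlgebraicCurve IntermediateField IsLocalRing
open Fermat.Agent.JT3 Fermat.Agent.SS Fermat.Agent.S35 Fermat.Agent.S24 Fermat.Agent.S44
  Fermat.Agent.S36

local notation "Qb" => AlgebraicClosure ℚ

section Chart

variable (A : ValuationSubring Qb) (N' q : ℕ) [NeZero N'] [NeZero q] [NeZero (N' * q)]
  (L : IntermediateField ℚ Qb)

/-- the `λ`-chart of the Legendre model over `O = A ∩ L`. -/
abbrev m59t1_B1 : Subalgebra ↥(A.comap (algebraMap ↥L Qb)) ↥(lg_E ↥L (N' * q)) :=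
  fc_chart ↥(A.comap (algebraMap ↥L Qb)) ({lg_lamE (N' * q)} : Set ↥(lg_E ↥L (N' * q)))

end Chart

section Defs

variable (A : ValuationSubring Qb) {q : ℕ} [hq : Fact q.Prime] (hA : A.LiesOverPrime q)
  (N' : ℕ) [NeZero N'] [NeZero q] [NeZero (N' * q)] (hq2 : ¬ 2 ∣ q) (hqN' : ¬ q ∣ N')
  (L : IntermediateField ℚ Qb) [NumberField ↥L]
  [IsDiscreteValuationRing ↥(A.comap (algebraMap ↥L Qb))]
  [CharP (ResidueField ↥(A.comap (algebraMap ↥L Qb))) q]
  {π : ↥(A.comap (algebraMap ↥L Qb))} (hπ : Irreducible π)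

/-- the first component of the special fibre of the chart. -/
abbrev m59t1_P1 : Ideal ↥(m59t1_B1 A N' q L) :=
  ssm_tp_P (m59t1_B1 A N' q L) (ssm_gl_V1 (A.comap (algebraMap ↥L Qb)) hπ N' q)

/-- the second component of the special fibre of the chart. -/
abbrev m59t1_P2 : Ideal ↥(m59t1_B1 A N' q L) :=
  ssm_tp_P (m59t1_B1 A N' q L) (ssm_gl_V2 (A.comap (algebraMap ↥L Qb)) hπ N' q hq2 hqN')

/-- **the label**: the point `𝔫` of the chart lies over the place `Q` of `FF_A(N')`. -/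
def m59t1_Lab (𝔫 : Ideal ↥(m59t1_B1 A N' q L)) (Q : Place (s44e_kA A) ↥(s44e_FF A N')) : Prop :=
  ∃ 𝒲 : ValuationSubring ↥(lg_E (ResidueField ↥(A.comap (algebraMap ↥L Qb))) N'),
    s44ndl_Ext A hA N' hq2 hqN' L hπ Q 𝒲 ∧
      s44ndl_n ↥L (A.comap (algebraMap ↥L Qb)) hπ N' q hq2 hqN' 𝒲 = 𝔫

/-- **the toric datum of `f` at the point `𝔫` of the chart is the constant `c`** (`m59tl_Ratio` in
the local ring of the chart at `𝔫`, between the branches `P1`, `P2`, exponent `m`). -/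
def m59t1_RatioAt (m : ℕ) (𝔫 : Ideal ↥(m59t1_B1 A N' q L)) (h𝔫 : 𝔫.IsPrime)
    (f : ↥(lg_E ↥L (N' * q))) (c : (↥(A.comap (algebraMap ↥L Qb)))ˣ) : Prop :=
  haveI := (s44ndl_chart_inst (A.comap (algebraMap ↥L Qb)) N' q (L := ↥L)).1
  haveI := h𝔫
  m59tl_Ratio
    (Ideal.map (algebraMap ↥(m59t1_B1 A N' q L) ↥(ssl_locSub ↥(lg_E ↥L (N' * q)) 𝔫)) 𝔫)
    (Ideal.map (algebraMap ↥(m59t1_B1 A N' q L) ↥(ssl_locSub ↥(lg_E ↥L (N' * q)) 𝔫))
      (m59t1_P1 A N' L hπ))
    (Ideal.map (algebraMap ↥(m59t1_B1 A N' q L) ↥(ssl_locSub ↥(lg_E ↥L (N' * q)) 𝔫))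
      (m59t1_P2 A N' hq2 hqN' L hπ))
    m f
    (Units.map ((algebraMap ↥(m59t1_B1 A N' q L) ↥(ssl_locSub ↥(lg_E ↥L (N' * q)) 𝔫)).comp
      (algebraMap ↥(A.comap (algebraMap ↥L Qb)) ↥(m59t1_B1 A N' q L))).toMonoidHom c)

/-- at every crossing point labelled by a supersingular place `Q` the toric datum of `f` is
`c Q`. -/
def m59t1_RatioAll (m : ℕ) (f : ↥(lg_E ↥L (N' * q)))
    (c : s44e_Sg A N' q hq.out hqN' → (↥(A.comap (algebraMap ↥L Qb)))ˣ) : Prop :=
  ∀ (𝔫 : Ideal ↥(m59t1_B1 A N' q L)) (h𝔫 : 𝔫.IsMaximal),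
    m59t1_P1 A N' L hπ ≤ 𝔫 → m59t1_P2 A N' hq2 hqN' L hπ ≤ 𝔫 →
    ∀ Q : s44e_Sg A N' q hq.out hqN', m59t1_Lab A hA N' hq2 hqN' L hπ 𝔫 Q.1 →
      m59t1_RatioAt A N' hq2 hqN' L hπ m 𝔫 h𝔫.isPrime f (c Q)

/-- **the data at level `N' q`**: functions on the supersingular places other than the base point. -/
abbrev m59t1_B (p : ℕ) (Q0 : s44e_Sg A N' q hq.out hqN') : Type :=
  {Q : s44e_Sg A N' q hq.out hqN' // Q ≠ Q0} → ZMod p

open Classical in
/-- extension of a datum by `0` at the base point. -/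
def m59t1_ext {p : ℕ} {Q0 : s44e_Sg A N' q hq.out hqN'} (a : m59t1_B A N' hqN' p Q0)
    (Q : s44e_Sg A N' q hq.out hqN') : ZMod p :=
  if h : Q = Q0 then 0 else a ⟨Q, h⟩

/-- **the normal form of `u` over `L`** at the exponent `m` (the conclusion of `m59to_nf_at`). -/
def m59t1_NF (hπq : Irreducible ((q : ℕ) : ↥(A.comap (algebraMap ↥L Qb)))) (m : ℕ)
    (u : JZero (N' * q)) (x0 : ↥(lg_F ↥L (N' * q))) (c : ↥L)
    (R g' : ↥(lg_E ↥L (N' * q))) : Prop :=
  c ≠ 0 ∧ R ≠ 0 ∧ g' ≠ 0 ∧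
    s44f_Rep (N' * q) m u (ssm_al_iotaF ↥L (N' * q) x0) ∧
    lg_phiE (L := ↥L) (N := N' * q) x0 = algebraMap ↥L ↥(lg_E ↥L (N' * q)) c * R ^ m * g' ∧
    (∀ v : Place ↥L ↥(lg_E ↥L (N' * q)), (m : ℤ) ∣ v.ord g') ∧
    s35_ConstRed (A.comap (algebraMap ↥L Qb)) hπq N' q hq2 hqN' g'

/-- **"`a` is a toric datum of `u`"**, level `N' q`, exponent `p`, over the level `L`: `u` has a
normal form `ι x0 = c · R ^ p · g'` over `L` such that the toric datum of `g'` at the crossing points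
over `Q ∈ Sg` is `ζ ^ (a Q) · ε` for one unit `ε` of `O` (`a Q0 = 0`). -/
def m59t1_T1 (hπq : Irreducible ((q : ℕ) : ↥(A.comap (algebraMap ↥L Qb)))) (p : ℕ)
    (ζ : (↥(A.comap (algebraMap ↥L Qb)))ˣ) (Q0 : s44e_Sg A N' q hq.out hqN')
    (u : JZero (N' * q)) (a : m59t1_B A N' hqN' p Q0) : Prop :=
  ∃ (x0 : ↥(lg_F ↥L (N' * q))) (c : ↥L) (R g' : ↥(lg_E ↥L (N' * q))),
    m59t1_NF A N' hq2 hqN' L hπq p u x0 c R g' ∧
    ∃ ε : (↥(A.comap (algebraMap ↥L Qb)))ˣ,
      m59t1_RatioAll A hA N' hq2 hqN' L hπq p g'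
        (fun Q => ζ ^ (m59t1_ext A N' hqN' a Q).val * ε)

end Defs

end Fermat.Agent.M59
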