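/-
M59 / Sink B, leaf 4 [TOR-SURJ], cell [APPROX] (helper15).  Prefix `m59ta_`.

Weak approximation for two and three pairwise incomparable valuation rings of a field, in the form
used by (inj1)/(inj2): for constants `r i` lying in all the rings there is ONE element `R'` with
`R' ≡ r i` at `V i`.  (It repairs the "common constant" hypothesis of `s36c_glue_global` and the
"ratio one" hypothesis of `s36g_hloc`: multiply by `R' ^ p`.)

* `m59ta_sep`       : `V1, V2` incomparable ⟹ `∃ t, v1 t < 1 < v2 t`;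
* `m59ta_sep3`      : three pairwise incomparable ⟹ `∃ t, vA t < 1`, `1 < vB t`, `1 < vC t`;
* `m59ta_idem`      : from such a `t`, `e := (1 + t)⁻¹` is `≡ 1` where `v t < 1` and `≡ 0` where
  `1 < v t`;
* `m59ta_two`, `m59ta_three` : the interpolation.
-/
import Mathlib

set_option autoImplicit false

namespace Fermat.Agent.M59

section Approx

variable {E : Type*} [Field E]

/-- two incomparable valuation rings are separated by an element. -/
theorem m59ta_sep (V1 V2 : ValuationSubring E) (h12 : ¬ V1 ≤ V2) (h21 : ¬ V2 ≤ V1) :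
    ∃ t : E, V1.valuation t < 1 ∧ 1 < V2.valuation t := by
  obtain ⟨a, ha1, ha2⟩ := SetLike.not_le_iff_exists.1 h12
  obtain ⟨b, hb2, hb1⟩ := SetLike.not_le_iff_exists.1 h21
  have ha1' : V1.valuation a ≤ 1 := (V1.valuation_le_one_iff a).2 ha1
  have ha2' : 1 < V2.valuation a := by
    rw [← not_le, V2.valuation_le_one_iff]; exact ha2
  have hb2' : V2.valuation b ≤ 1 := (V2.valuation_le_one_iff b).2 hb2
  have hb1' : 1 < V1.valuation b := by
    rw [← not_le, V1.valuation_le_one_iff]; exact hb1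
  have hb0 : b ≠ 0 := by
    rintro rfl
    exact hb1 V1.zero_mem
  refine ⟨a * b⁻¹, ?_, ?_⟩
  · rw [map_mul, map_inv₀]
    have hb1pos : 0 < V1.valuation b := lt_trans zero_lt_one hb1'
    have : V1.valuation a * (V1.valuation b)⁻¹ < 1 := by
      rw [mul_inv_lt_iff₀ hb1pos, one_mul]
      exact lt_of_le_of_lt ha1' hb1'
    exact this
  · rw [map_mul, map_inv₀]
    have hb2pos : 0 < V2.valuation b := by
      rw [Valuation.pos_iff]; exact hb0
    rw [lt_mul_inv_iff₀ hb2pos, one_mul]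
    exact lt_of_le_of_lt hb2' ha2'

/-- three pairwise incomparable valuation rings: an element small at the first and large at the two
others. -/
theorem m59ta_sep3 (VA VB VC : ValuationSubring E) (hAB : ¬ VA ≤ VB) (hBA : ¬ VB ≤ VA)
    (hAC : ¬ VA ≤ VC) (hCA : ¬ VC ≤ VA) :
    ∃ t : E, VA.valuation t < 1 ∧ 1 < VB.valuation t ∧ 1 < VC.valuation t := by
  obtain ⟨t1, h1A, h1B⟩ := m59ta_sep VA VB hAB hBA
  obtain ⟨t2, h2A, h2C⟩ := m59ta_sep VA VC hAC hCA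
  by_cases hc : 1 < VC.valuation t1
  · exact ⟨t1, h1A, h1B, hc⟩
  by_cases hb : 1 < VB.valuation t2
  · exact ⟨t2, h2A, hb, h2C⟩
  rw [not_lt] at hc hb
  refine ⟨t1 + t2, ?_, ?_, ?_⟩
  · exact lt_of_le_of_lt (Valuation.map_add _ _ _) (max_lt h1A h2A)
  · rw [Valuation.map_add_eq_of_lt_left _ (lt_of_le_of_lt hb h1B)]
    exact h1B
  · rw [Valuation.map_add_eq_of_lt_right _ (lt_of_le_of_lt hc h2C)]
    exact h2C

/-- `e = (1 + t)⁻¹` is `≡ 1` where `t` is small. -/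
theorem m59ta_idem_one (V : ValuationSubring E) {t : E} (ht : V.valuation t < 1) :
    (1 + t)⁻¹ - 1 ∈ V.nonunits := by
  have h1 : V.valuation (1 + t) = 1 := V.valuation.map_one_add_of_lt ht
  have h0 : (1 + t) ≠ 0 := by
    intro h
    rw [h, map_zero] at h1
    exact zero_ne_one h1
  have e : (1 + t)⁻¹ - 1 = -t * (1 + t)⁻¹ := by
    field_simp
    ring
  rw [ValuationSubring.mem_nonunits_iff, e, map_mul, map_inv₀, h1, inv_one, mul_one,
    Valuation.map_neg]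
  exact ht

/-- `e = (1 + t)⁻¹` is `≡ 0` where `t` is large. -/
theorem m59ta_idem_zero (V : ValuationSubring E) {t : E} (ht : 1 < V.valuation t) :
    (1 + t)⁻¹ ∈ V.nonunits := by
  have h1 : V.valuation (1 + t) = V.valuation t := by
    have : V.valuation (1 : E) < V.valuation t := by rw [map_one]; exact ht
    exact Valuation.map_add_eq_of_lt_right _ this
  rw [ValuationSubring.mem_nonunits_iff, map_inv₀, h1]
  exact inv_lt_one_of_one_lt₀ ht

/-- an element of `V` times a non-unit is a non-unit. -/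
theorem m59ta_mul_mem (V : ValuationSubring E) {x y : E} (hx : x ∈ V) (hy : y ∈ V.nonunits) :
    x * y ∈ V.nonunits := by
  rw [ValuationSubring.mem_nonunits_iff] at hy ⊢
  rw [map_mul]
  have hx' : V.valuation x ≤ 1 := (V.valuation_le_one_iff x).2 hx
  calc V.valuation x * V.valuation y ≤ 1 * V.valuation y := mul_le_mul_left hx' _
    _ = V.valuation y := one_mul _
    _ < 1 := hy

/-- **[APPROX], two valuations.** -/
theorem m59ta_two (V1 V2 : ValuationSubring E) (h12 : ¬ V1 ≤ V2) (h21 : ¬ V2 ≤ V1)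
    (r1 r2 : E) (h11 : r1 ∈ V1) (h12' : r1 ∈ V2) (h21' : r2 ∈ V1) (h22 : r2 ∈ V2) :
    ∃ R' : E, R' - r1 ∈ V1.nonunits ∧ R' - r2 ∈ V2.nonunits := by
  obtain ⟨t, ht1, ht2⟩ := m59ta_sep V1 V2 h12 h21
  have he1 := m59ta_idem_one V1 ht1
  have he2 := m59ta_idem_zero V2 ht2
  refine ⟨r2 + (r1 - r2) * (1 + t)⁻¹, ?_, ?_⟩
  · have e1 : r2 + (r1 - r2) * (1 + t)⁻¹ - r1 = (r1 - r2) * ((1 + t)⁻¹ - 1) := by ring
    rw [e1]
    exact m59ta_mul_mem V1 (sub_mem h11 h21') he1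
  · have e2 : r2 + (r1 - r2) * (1 + t)⁻¹ - r2 = (r1 - r2) * (1 + t)⁻¹ := by ring
    rw [e2]
    exact m59ta_mul_mem V2 (sub_mem h12' h22) he2

/-- **[APPROX], three valuations.** -/
theorem m59ta_three (VA VB VC : ValuationSubring E) (hAB : ¬ VA ≤ VB) (hBA : ¬ VB ≤ VA)
    (hAC : ¬ VA ≤ VC) (hCA : ¬ VC ≤ VA) (hBC : ¬ VB ≤ VC) (hCB : ¬ VC ≤ VB)
    (rA rB rC : E) (hA : rA ∈ VA ∧ rA ∈ VB ∧ rA ∈ VC) (hB : rB ∈ VA ∧ rB ∈ VB ∧ rB ∈ VC)
    (hC : rC ∈ VA ∧ rC ∈ VB ∧ rC ∈ VC) :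
    ∃ R' : E, R' - rA ∈ VA.nonunits ∧ R' - rB ∈ VB.nonunits ∧ R' - rC ∈ VC.nonunits := by
  obtain ⟨tA, hAA, hAB', hAC'⟩ := m59ta_sep3 VA VB VC hAB hBA hAC hCA
  obtain ⟨tB, hBB, hBA', hBC'⟩ := m59ta_sep3 VB VA VC hBA hAB hBC hCB
  -- `eA ≡ (1, 0, 0)`, `eB ≡ (0, 1, 0)`
  have eA1 := m59ta_idem_one VA hAA
  have eA2 := m59ta_idem_zero VB hAB'
  have eA3 := m59ta_idem_zero VC hAC'
  have eB1 := m59ta_idem_zero VA hBA'
  have eB2 := m59ta_idem_one VB hBB
  have eB3 := m59ta_idem_zero VC hBC'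
  refine ⟨rC + (rA - rC) * (1 + tA)⁻¹ + (rB - rC) * (1 + tB)⁻¹, ?_, ?_, ?_⟩
  · have e : rC + (rA - rC) * (1 + tA)⁻¹ + (rB - rC) * (1 + tB)⁻¹ - rA =
        (rA - rC) * ((1 + tA)⁻¹ - 1) + (rB - rC) * (1 + tB)⁻¹ := by ring
    rw [e]
    exact VA.nonunits.add_mem (m59ta_mul_mem VA (sub_mem hA.1 hC.1) eA1)
      (m59ta_mul_mem VA (sub_mem hB.1 hC.1) eB1)
  · have e : rC + (rA - rC) * (1 + tA)⁻¹ + (rB - rC) * (1 + tB)⁻¹ - rB =
        (rA - rC) * (1 + tA)⁻¹ + (rB - rC) * ((1 + tB)⁻¹ - 1) := by ring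
    rw [e]
    exact VB.nonunits.add_mem (m59ta_mul_mem VB (sub_mem hA.2.1 hC.2.1) eA2)
      (m59ta_mul_mem VB (sub_mem hB.2.1 hC.2.1) eB2)
  · have e : rC + (rA - rC) * (1 + tA)⁻¹ + (rB - rC) * (1 + tB)⁻¹ - rC =
        (rA - rC) * (1 + tA)⁻¹ + (rB - rC) * (1 + tB)⁻¹ := by ring
    rw [e]
    exact VC.nonunits.add_mem (m59ta_mul_mem VC (sub_mem hA.2.2 hC.2.2) eA3)
      (m59ta_mul_mem VC (sub_mem hB.2.2 hC.2.2) eB3)

end Approx

end Fermat.Agent.M59
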