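/-
M59 / Sink B, leaf 4 [TOR-SURJ], cell [GLUE1] (helper15).  Prefix `m59tgl_`.

THE GLOBAL GLUING AT LEVEL `N' q` IN TERMS OF `m59tl_Ratio`: a function `f` with all orders divisible
by `m`, `f ≡ 1` at the two vertical valuations, and RATIO ONE at every crossing point of the chart,
is a constant times an `m`-th power.

* `m59tgl_locAt_node` : the local hypothesis of `sfc_main` at a regular node (clauses of
  `s35l_NodeAt`, ring form `s35l_node_ring`) from `m59tl_Ratio … f 1`: helper3's `s36g_hloc` with two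
  branches of multiplicity one (`k = 0`, no `q`-power needed);
* `m59tgl_glue`       : the generic global statement (setting of `s35ti_locProvider_of` +
  `ss_Model`): smooth points by `s35ti_locAt_of_smooth`, nodes by `m59tgl_locAt_node`, the chart at
  infinity by `s35ti_locAt_chart2`, then `sfc_main`.
-/
import Mathlib
import Fermat.Agent.M59.SinkB.Tor.Local
import Fermat.Agent.S36.Glue.Hloc
import Fermat.Agent.S35.ToricInst.Generic
import Fermat.Agent.S35.LocalPhi.NodeRing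
import Fermat.Agent.S24.Hurwitz.Places
import Fermat.Agent.M59.SinkB.Tor.Approx

set_option autoImplicit false
set_option linter.unusedSectionVars false
set_option linter.unusedVariables false
set_option linter.style.haveILetI false

namespace Fermat.Agent.M59

open Fermat.Agent.SS Fermat.Agent.JT3 Fermat.Agent.S35 Fermat.Agent.S36 IsLocalRing AlgebraicCurve
  IntermediateField

universe v

section Cst

variable {A0 : Type*} [CommRing A0] {F0 : Type v} [Field F0] [Algebra A0 F0]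
variable {B : Subalgebra A0 F0} [IsFractionRing B F0]

/-- the image of a unit of the base ring in the local ring of a chart at a point (the constants
`ζ ^ a · ε` of the toric data are of this form). -/
noncomputable def m59tl_cst (𝔫 : Ideal B) [𝔫.IsPrime] : A0ˣ →* (ssl_locSub F0 𝔫)ˣ :=
  Units.map (((algebraMap B (ssl_locSub F0 𝔫)).comp (algebraMap A0 B) :
    A0 →+* ssl_locSub F0 𝔫) : A0 →* ssl_locSub F0 𝔫)

theorem m59tl_cst_coe (𝔫 : Ideal B) [𝔫.IsPrime] (c : A0ˣ) :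
    (((m59tl_cst (F0 := F0) 𝔫 c : (ssl_locSub F0 𝔫)ˣ) : ssl_locSub F0 𝔫) : F0) =
      algebraMap A0 F0 (c : A0) := rfl

end Cst

section Node

variable {A0 : Type*} [CommRing A0] {F0 : Type v} [Field F0] [Algebra A0 F0]
variable {B : Subalgebra A0 F0} [IsFractionRing B F0] [IsNoetherianRing B] [IsIntegrallyClosed B]
variable {π : A0} (𝔫 : Ideal B) [h𝔫 : 𝔫.IsMaximal]
variable {P1 P2 : Ideal B} [hP1 : P1.IsPrime] [hP2 : P2.IsPrime]

/-- **the local hypothesis of `sfc_main` at a regular node, from ratio one.** -/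
theorem m59tgl_locAt_node (hϖ0 : algebraMap A0 F0 π ≠ 0) (hπ𝔫 : algebraMap A0 B π ∈ 𝔫)
    (hrad : Ideal.span {algebraMap A0 B π} = P1 ⊓ P2) (h12 : ¬ P1 ≤ P2) (h21 : ¬ P2 ≤ P1)
    (hP1𝔫 : P1 ≤ 𝔫) (hP2𝔫 : P2 ≤ 𝔫) {u v e : F0}
    (huv : u * v = algebraMap A0 F0 π * e)
    (he : ∃ s t : B, s ∉ 𝔫 ∧ t ∉ 𝔫 ∧ (s : F0) * e = t)
    (hu : ∃ s t : B, s ∉ 𝔫 ∧ t ∈ 𝔫 ∧ (s : F0) * u = t)
    (hv : ∃ s t : B, s ∉ 𝔫 ∧ t ∈ 𝔫 ∧ (s : F0) * v = t)
    (hgen : ∀ z ∈ 𝔫, ∃ s c1 c2 c3 : B, s ∉ 𝔫 ∧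
      (s : F0) * (z : F0) = algebraMap A0 F0 π * c1 + u * c2 + v * c3)
    (hu1 : ∃ s t : B, s ∉ P1 ∧ t ∉ P1 ∧ (s : F0) * u = t)
    (hv2 : ∃ s t : B, s ∉ P2 ∧ t ∉ P2 ∧ (s : F0) * v = t)
    {q : ℕ} (hq : q.Prime)
    (hqπ : haveI : 𝔫.IsPrime := h𝔫.isPrime
      algebraMap B (ssl_locSub F0 𝔫) (algebraMap A0 B π) ∣ (q : ssl_locSub F0 𝔫))
    {m : ℕ} (hm : m ≠ 0) {f : F0}
    (hrat : haveI : 𝔫.IsPrime := h𝔫.isPrime
      m59tl_Ratio (𝔫.map (algebraMap B (ssl_locSub F0 𝔫)))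
        (P1.map (algebraMap B (ssl_locSub F0 𝔫))) (P2.map (algebraMap B (ssl_locSub F0 𝔫)))
        m f 1) :
    ∃ (b1 : B) (h : F0), b1 ∉ 𝔫 ∧ h ^ m * f ∈ B ∧
      h - (b1 : F0) ∈ sfc_piO B.toSubring (algebraMap A0 F0 π) := by
  haveI h𝔫p : 𝔫.IsPrime := h𝔫.isPrime
  haveI := ssl_loc_isNoetherianRing (F0 := F0) 𝔫
  haveI := ssl_loc_isIntegrallyClosed (F0 := F0) 𝔫
  haveI := ssl_loc_isLocalRing (F0 := F0) 𝔫
  obtain ⟨uR, vR, eR, huR, hvR, heR, huvR, hpu, hpv, hmax, hspanu, hspanv⟩ :=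
    s35l_node_ring 𝔫 hϖ0 hrad h12 h21 hP1𝔫 hP2𝔫 huv he hu hv hgen hu1 hv2
  haveI : UniqueFactorizationMonoid (ssl_locSub F0 𝔫) := fc_ufd hpu hmax
  obtain ⟨ω, g, a₁, a₂, hfg, hg1, hg2, hm1, hm2, hr⟩ := hrat
  -- `v ∉ (u)`
  have hvu : vR ∉ (Ideal.span {uR} : Ideal (ssl_locSub F0 𝔫)) := by
    rw [hspanu]
    obtain ⟨s, t, hs, ht, h⟩ := hv2
    exact s35l_not_mem_of_unitAt 𝔫 _ ((s35l_unitAt_map_iff 𝔫 P2 hP2𝔫).2
      ⟨t, s, ht, hs, by rw [hvR, mul_comm]; exact h⟩)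
  have hmap : 𝔫.map (algebraMap B (ssl_locSub F0 𝔫)) = maximalIdeal (ssl_locSub F0 𝔫) :=
    IsLocalization.AtPrime.map_eq_maximalIdeal 𝔫 (ssl_locSub F0 𝔫)
  -- the two branches
  let br : Fin 2 → ssl_locSub F0 𝔫 := ![vR, uR]
  let ee : Fin 2 → ℕ := fun _ => 1
  let aa : Fin 2 → ssl_locSub F0 𝔫 := ![(a₁ : ssl_locSub F0 𝔫), (a₂ : ssl_locSub F0 𝔫)]
  have hbr : ∀ j, Prime (br j) := by
    intro j
    fin_cases j
    · exact hpv
    · exact hpu
  have hna : ∀ i j, i ≠ j → ¬ Associated (br i) (br j) := by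
    have key : ¬ Associated vR uR := by
      intro h
      apply hvu
      rw [Ideal.mem_span_singleton]
      exact h.symm.dvd
    intro i j hij
    fin_cases i <;> fin_cases j
    · exact absurd rfl hij
    · exact key
    · exact fun h => key h.symm
    · exact absurd rfl hij
  have hπa : Associated (algebraMap B (ssl_locSub F0 𝔫) (algebraMap A0 B π))
      (∏ j, br j ^ ee j) := by
    have h1 : ∏ j, br j ^ ee j = vR * uR := by
      rw [Fin.prod_univ_two]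
      show vR ^ 1 * uR ^ 1 = vR * uR
      rw [pow_one, pow_one]
    rw [h1]
    refine ⟨eR, ?_⟩
    rw [← huvR, mul_comm]
  have htr : ∀ i j, i ≠ j → 𝔫.map (algebraMap B (ssl_locSub F0 𝔫)) ≤
      Ideal.span {br i} ⊔ Ideal.span {br j} := by
    have key1 : 𝔫.map (algebraMap B (ssl_locSub F0 𝔫)) ≤ Ideal.span {vR} ⊔ Ideal.span {uR} := by
      rw [hmap, hmax, Ideal.span_insert]
      exact le_of_eq (sup_comm _ _)
    intro i j hij
    fin_cases i <;> fin_cases j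
    · exact absurd rfl hij
    · exact key1
    · exact le_trans key1 (le_of_eq (sup_comm _ _))
    · exact absurd rfl hij
  have hgU : ∀ j, ssl_UnitAt F0 (Ideal.span {br j}) g := by
    intro j
    fin_cases j
    · show ssl_UnitAt F0 (Ideal.span {vR}) g
      rw [hspanv]; exact hg1
    · show ssl_UnitAt F0 (Ideal.span {uR}) g
      rw [hspanu]; exact hg2
  have hga : ∀ j, s36g_MemM (Ideal.span {br j}) (g - ((aa j : ssl_locSub F0 𝔫) : F0)) := by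
    intro j
    fin_cases j
    · show s36g_MemM (Ideal.span {vR}) (g - (((a₁ : ssl_locSub F0 𝔫)) : F0))
      rw [hspanv]; exact hm1
    · show s36g_MemM (Ideal.span {uR}) (g - (((a₂ : ssl_locSub F0 𝔫)) : F0))
      rw [hspanu]; exact hm2
  have haa : ∀ j, aa j - (a₂ : ssl_locSub F0 𝔫) ∈ 𝔫.map (algebraMap B (ssl_locSub F0 𝔫)) := by
    intro j
    fin_cases j
    · show (a₁ : ssl_locSub F0 𝔫) - (a₂ : ssl_locSub F0 𝔫) ∈ _
      have : (a₁ : ssl_locSub F0 𝔫) - (a₂ : ssl_locSub F0 𝔫) =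
          (a₁ : ssl_locSub F0 𝔫) - ((1 : (ssl_locSub F0 𝔫)ˣ) : ssl_locSub F0 𝔫) *
            (a₂ : ssl_locSub F0 𝔫) := by
        rw [Units.val_one, one_mul]
      rw [this]
      exact hr
    · show (a₂ : ssl_locSub F0 𝔫) - (a₂ : ssl_locSub F0 𝔫) ∈ _
      rw [sub_self]
      exact Ideal.zero_mem _
  have hK : ∀ j, ee j * ∑ i ∈ (Finset.univ : Finset (Fin 2)).erase j, ee i ≤ q ^ 0 := by
    intro j
    fin_cases j <;> simp [ee]
  have he' : ∀ j, ee j ≤ q ^ 0 := by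
    intro j
    simp [ee]
  have := s36g_hloc (B := B) π hϖ0 𝔫 hπ𝔫 hq hqπ br ee hbr hna hπa htr m hm ω hfg hgU aa
    (a₂ : ssl_locSub F0 𝔫) hga haa 0 hK he'
  rwa [pow_zero, pow_one] at this

end Node

section Main

variable {A0 L : Type*} {F0 : Type v} [CommRing A0] [IsDomain A0] [IsDiscreteValuationRing A0]
  [Field L] [Field F0] [Algebra A0 L] [IsFractionRing A0 L] [CharZero L] [Algebra L F0]
  [Algebra A0 F0] [IsScalarTower A0 L F0]

set_option synthInstance.maxHeartbeats 200000 in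
set_option maxHeartbeats 1600000 in
/-- **[GLUE1], generic form**: on a two-component model whose closed points are smooth points or
regular nodes (and smooth at infinity), a function `f ≡ 1` at both vertical valuations, with all
orders divisible by `m` and RATIO ONE at every crossing point, is a constant times an `m`-th
power. -/
theorem m59tgl_glue {π : A0} (hπ : Irreducible π) {x : F0} (hx : Transcendental L x)
    [FiniteDimensional L⟮x⟯ F0] {V1 V2 : ValuationSubring F0}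
    (H : ssm_tp_Hyp (algebraMap A0 (Algebra.adjoin A0 ({x} : Set F0)) π) V1 V2)
    {σ : F0 ≃+* F0} {σ0 : A0 ≃+* A0}
    (M : ss_Model π x σ σ0 (ssm_tp_P (fc_chart A0 ({x, x⁻¹} : Set F0)) V1)
      (ssm_tp_P (fc_chart A0 ({x, x⁻¹} : Set F0)) V2))
    (τ : F0 ≃+* F0) (Q : ℕ)
    (hpts : ∀ 𝔫 : Ideal (fc_chart A0 ({x} : Set F0)), 𝔫.IsMaximal →
      algebraMap A0 (fc_chart A0 ({x} : Set F0)) π ∈ 𝔫 →
      ss_SmoothAt π (fc_chart A0 ({x} : Set F0)) 𝔫 ∨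
        s35l_NodeAt π τ Q (ssm_tp_P (fc_chart A0 ({x} : Set F0)) V1)
          (ssm_tp_P (fc_chart A0 ({x} : Set F0)) V2) 𝔫)
    (hinf : ∀ 𝔫 : Ideal (fc_chart A0 ({x⁻¹} : Set F0)), 𝔫.IsMaximal →
      algebraMap A0 (fc_chart A0 ({x⁻¹} : Set F0)) π ∈ 𝔫 →
      (⟨x⁻¹, fc_x_mem_chart x⁻¹⟩ : fc_chart A0 ({x⁻¹} : Set F0)) ∈ 𝔫 →
      ss_SmoothAt π (fc_chart A0 ({x⁻¹} : Set F0)) 𝔫)
    {q : ℕ} (hq : q.Prime) (hqA : π ∣ (q : A0))
    {m : ℕ} (hm : IsUnit (m : A0)) {f : F0} (hf0 : f ≠ 0)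
    (hord : ∀ P : Place L F0, (m : ℤ) ∣ P.ord f)
    (hf1 : f - 1 ∈ V1.nonunits) (hf2 : f - 1 ∈ V2.nonunits)
    (hrat : ∀ (𝔫 : Ideal (fc_chart A0 ({x} : Set F0))) (h𝔫 : 𝔫.IsMaximal),
      ssm_tp_P (fc_chart A0 ({x} : Set F0)) V1 ≤ 𝔫 →
      ssm_tp_P (fc_chart A0 ({x} : Set F0)) V2 ≤ 𝔫 →
      haveI := ssm_ths_chart_isFractionRing (A0 := A0) (L := L) x
      haveI : 𝔫.IsPrime := h𝔫.isPrime
      m59tl_Ratio (𝔫.map (algebraMap (fc_chart A0 ({x} : Set F0)) (ssl_locSub F0 𝔫)))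
        ((ssm_tp_P (fc_chart A0 ({x} : Set F0)) V1).map
          (algebraMap (fc_chart A0 ({x} : Set F0)) (ssl_locSub F0 𝔫)))
        ((ssm_tp_P (fc_chart A0 ({x} : Set F0)) V2).map
          (algebraMap (fc_chart A0 ({x} : Set F0)) (ssl_locSub F0 𝔫))) m f 1) :
    ∃ (c : A0) (g : F0), g ≠ 0 ∧ f = algebraMap A0 F0 c * g ^ m := by
  have hm0 : m ≠ 0 := by
    rintro rfl
    rw [Nat.cast_zero] at hm
    exact not_isUnit_zero hm
  have hx0 : x ≠ 0 := by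
    rintro rfl
    exact hx isAlgebraic_zero
  have hxi : Transcendental L x⁻¹ := fun h => hx (IsAlgebraic.inv_iff.mp h)
  have hxA : Transcendental A0 x := fc_ff_transcendental (L := L) hx
  have hxiA : Transcendental A0 x⁻¹ := fc_ff_transcendental (L := L) hxi
  haveI hfd2 : FiniteDimensional L⟮x⁻¹⟯ F0 := by
    rw [rt_adjoin_inv]; infer_instance
  haveI : IsIntegrallyClosed (Algebra.adjoin A0 ({x} : Set F0)) := fc_ff_isIntegrallyClosed hxA
  haveI : FaithfulSMul (Algebra.adjoin A0 ({x} : Set F0)) F0 :=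
    (faithfulSMul_iff_algebraMap_injective _ _).2 Subtype.val_injective
  haveI : IsIntegrallyClosed (Algebra.adjoin A0 ({x⁻¹} : Set F0)) := fc_ff_isIntegrallyClosed hxiA
  haveI : FaithfulSMul (Algebra.adjoin A0 ({x⁻¹} : Set F0)) F0 :=
    (faithfulSMul_iff_algebraMap_injective _ _).2 Subtype.val_injective
  have H' := ssm_tp_ff_hyp_inv (L := L) hπ hx H
  have hC12 := ssm_tp_ff_chart12 (L := L) hπ hx
  have hC1 := ssm_tp_ff_chart (L := L) hπ hx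
  have hC2 := ssm_tp_ff_chart (L := L) hπ hxi
  have hϖ0 : algebraMap A0 F0 π ≠ 0 := H.algebraMap_ne_zero
  -- the congruence on the three charts
  have h4a : f - 1 ∈
      sfc_piO (fc_chart A0 ({x, x⁻¹} : Set F0)).toSubring (algebraMap A0 F0 π) :=
    (H.mem_piO_iff hC12).2 ⟨hf1, hf2⟩
  have h4a1 : f - 1 ∈
      sfc_piO (fc_chart A0 ({x} : Set F0)).toSubring (algebraMap A0 F0 π) :=
    (H.mem_piO_iff hC1).2 ⟨hf1, hf2⟩
  have h4a2 : f - 1 ∈
      sfc_piO (fc_chart A0 ({x⁻¹} : Set F0)).toSubring (algebraMap A0 F0 π) :=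
    (H'.mem_piO_iff hC2).2 ⟨hf1, hf2⟩
  -- the chart `B₁`
  have hloc1 : tori_LocAt π m f (fc_chart A0 ({x} : Set F0)) := by
    haveI := ssm_ths_chart_isFractionRing (A0 := A0) (L := L) x
    haveI := ssm_ths_chart_isNoetherianRing (A0 := A0) (L := L) hx
    haveI := ssm_ths_chart_isIntegrallyClosed (A0 := A0) (L := L) x
    haveI := H.P1_isPrime hC1
    haveI := H.P2_isPrime hC1
    intro 𝔫 h𝔫 hπ𝔫
    rcases hpts 𝔫 h𝔫 hπ𝔫 with hsm | hnode
    · exact s35ti_locAt_of_smooth (K := L) hπ hϖ0 (H.P_inf hC1 _ rfl) (H.P_not_le12 hC1)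
        (H.P_not_le21 hC1) hm0 hf0 h4a1 hord 𝔫 h𝔫 hπ𝔫 hsm
    · obtain ⟨hP1𝔫, hP2𝔫, -, u, v, e, huv, he, hu, hv, hgen, hu1, hv2⟩ := hnode
      haveI := h𝔫
      haveI h𝔫p : 𝔫.IsPrime := h𝔫.isPrime
      have hqπ : algebraMap (fc_chart A0 ({x} : Set F0)) (ssl_locSub F0 𝔫)
          (algebraMap A0 (fc_chart A0 ({x} : Set F0)) π) ∣ (q : ssl_locSub F0 𝔫) := by
        obtain ⟨d, hd⟩ := hqA
        refine ⟨algebraMap (fc_chart A0 ({x} : Set F0)) (ssl_locSub F0 𝔫)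
          (algebraMap A0 (fc_chart A0 ({x} : Set F0)) d), ?_⟩
        rw [← map_mul, ← map_mul, ← hd, map_natCast, map_natCast]
      exact m59tgl_locAt_node 𝔫 hϖ0 hπ𝔫 (H.P_inf hC1 _ rfl) (H.P_not_le12 hC1)
        (H.P_not_le21 hC1) hP1𝔫 hP2𝔫 huv he hu hv hgen hu1 hv2 hq hqπ hm0
        (hrat 𝔫 h𝔫 hP1𝔫 hP2𝔫)
  -- the chart at infinity
  have hxS1 : x ∈ sfc_S (fc_chart A0 ({x} : Set F0)).toSubring (algebraMap A0 F0 π) :=
    (H.mem_S_iff hC1).2 ⟨fc_x_mem_chart x,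
      H.over1.not_mem_nonunits (sfc_ff_prime_pi hπ hxA).2,
      H.over2.not_mem_nonunits (sfc_ff_prime_pi hπ hxA).2⟩
  have hxS2 : x⁻¹ ∈ sfc_S (fc_chart A0 ({x⁻¹} : Set F0)).toSubring (algebraMap A0 F0 π) :=
    (H'.mem_S_iff hC2).2 ⟨fc_x_mem_chart x⁻¹,
      H'.over1.not_mem_nonunits (sfc_ff_prime_pi hπ hxiA).2,
      H'.over2.not_mem_nonunits (sfc_ff_prime_pi hπ hxiA).2⟩
  have hloc2 : tori_LocAt π m f (fc_chart A0 ({x⁻¹} : Set F0)) := by
    refine s35ti_locAt_chart2 π hx0 hxS1 hxS2 m hm0 _ hloc1 ?_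
    intro 𝔫 h𝔫 hπ𝔫 hy
    haveI := ssm_ths_chart_isFractionRing (A0 := A0) (L := L) x⁻¹
    haveI := ssm_ths_chart_isNoetherianRing (A0 := A0) (L := L) hxi
    haveI := ssm_ths_chart_isIntegrallyClosed (A0 := A0) (L := L) x⁻¹
    haveI := H'.P1_isPrime hC2
    haveI := H'.P2_isPrime hC2
    exact s35ti_locAt_of_smooth (K := L) hπ hϖ0 (H'.P_inf hC2 _ rfl) (H'.P_not_le12 hC2)
      (H'.P_not_le21 hC2) hm0 hf0 h4a2 hord 𝔫 h𝔫 hπ𝔫 (hinf 𝔫 h𝔫 hπ𝔫 hy)
  have := M.isAlg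
  exact sfc_main π hx0 m hm f M.hfin1 M.hnu M.hxS1 M.hxS2 hloc1 hloc2 h4a M.hH0

/-- congruences multiply. -/
theorem m59tgl_congr_mul (V : ValuationSubring F0) {x y a b : F0} (hx : x - a ∈ V.nonunits)
    (hy : y - b ∈ V.nonunits) (ha : a ∈ V) (hyV : y ∈ V) : x * y - a * b ∈ V.nonunits := by
  have e : x * y - a * b = y * (x - a) + a * (y - b) := by ring
  rw [e]
  exact V.nonunits.add_mem (m59ta_mul_mem V hyV hx) (m59ta_mul_mem V ha hy)

/-- congruences pass to powers. -/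
theorem m59tgl_congr_pow (V : ValuationSubring F0) {x a : F0} (hx : x - a ∈ V.nonunits)
    (ha : a ∈ V) (n : ℕ) : x ^ n - a ^ n ∈ V.nonunits := by
  have hxV : x ∈ V := by
    have : x = (x - a) + a := by ring
    rw [this]
    exact V.add_mem _ _ (ValuationSubring.nonunits_subset hx) ha
  induction n with
  | zero =>
    rw [pow_zero, pow_zero, sub_self]
    exact V.nonunits.zero_mem
  | succ n ih =>
    rw [pow_succ, pow_succ]
    exact m59tgl_congr_mul V ih hx (V.pow_mem ha n) hxV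

/-- the bridge `V.nonunits → s36g_MemM (P R)` at a point of a chart. -/
theorem m59tgl_memM_of_nonunits {R₀ : Type*} [CommRing R₀] [IsDomain R₀] [IsIntegrallyClosed R₀]
    [Algebra R₀ F0] [FaithfulSMul R₀ F0] {π' : R₀} {V1 V2 : ValuationSubring F0}
    (H : ssm_tp_Hyp π' V1 V2) {B : Subalgebra A0 F0} [IsFractionRing B F0]
    (hC : ssm_tp_Chart π' B) (𝔫 : Ideal B) [𝔫.IsPrime] (hP𝔫 : ssm_tp_P B V1 ≤ 𝔫) {z : F0}
    (hz : z ∈ V1.nonunits) :
    s36g_MemM ((ssm_tp_P B V1).map (algebraMap B (ssl_locSub F0 𝔫))) z := by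
  haveI := H.P1_isPrime hC
  obtain ⟨s, t, hs, ht, hst⟩ := (tori_tp_memM1_iff H hC).1 hz
  refine ⟨algebraMap B _ t, algebraMap B _ s, Ideal.mem_map_of_mem _ ht,
    fun hm => hs ((s35l_mem_map_iff 𝔫 _ hP𝔫 s).1 hm), ?_⟩
  show z * (s : F0) = (t : F0)
  rw [mul_comm]
  exact hst

/-- the bridge `V-unit → ssl_UnitAt (P R)` at a point of a chart. -/
theorem m59tgl_unitAt_of_unit {R₀ : Type*} [CommRing R₀] [IsDomain R₀] [IsIntegrallyClosed R₀]
    [Algebra R₀ F0] [FaithfulSMul R₀ F0] {π' : R₀} {V1 V2 : ValuationSubring F0}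
    (H : ssm_tp_Hyp π' V1 V2) {B : Subalgebra A0 F0} [IsFractionRing B F0]
    (hC : ssm_tp_Chart π' B) (𝔫 : Ideal B) [𝔫.IsPrime] (hP𝔫 : ssm_tp_P B V1 ≤ 𝔫) {z : F0}
    (hz : z ∈ V1) (hzn : z ∉ V1.nonunits) :
    ssl_UnitAt F0 ((ssm_tp_P B V1).map (algebraMap B (ssl_locSub F0 𝔫))) z := by
  haveI := H.P1_isPrime hC
  exact (s35l_unitAt_map_iff 𝔫 _ hP𝔫).2
    (s35ti_unitAt_of_unitV ((tori_tp_unitV1_iff H hC).1 ⟨hz, hzn⟩))

set_option synthInstance.maxHeartbeats 200000 in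
set_option maxHeartbeats 1600000 in
/-- **[GLUE1], generic form with a constant ratio**: `f ≡ k₁` at `V1`, `f ≡ k₂` at `V2`, all orders
divisible by `m`, and the SAME ratio `c₀` (a unit of the base, `k₁ ≡ k₂ c₀ᵐ`) at every crossing
point: then `f` is a constant times an `m`-th power.  (Normalisation by [APPROX], then
`m59tgl_glue`.) -/
theorem m59tgl_glue_ratio {π : A0} (hπ : Irreducible π) {x : F0} (hx : Transcendental L x)
    [FiniteDimensional L⟮x⟯ F0] {V1 V2 : ValuationSubring F0}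
    (H : ssm_tp_Hyp (algebraMap A0 (Algebra.adjoin A0 ({x} : Set F0)) π) V1 V2)
    {σ : F0 ≃+* F0} {σ0 : A0 ≃+* A0}
    (M : ss_Model π x σ σ0 (ssm_tp_P (fc_chart A0 ({x, x⁻¹} : Set F0)) V1)
      (ssm_tp_P (fc_chart A0 ({x, x⁻¹} : Set F0)) V2))
    (τ : F0 ≃+* F0) (Q : ℕ)
    (hpts : ∀ 𝔫 : Ideal (fc_chart A0 ({x} : Set F0)), 𝔫.IsMaximal →
      algebraMap A0 (fc_chart A0 ({x} : Set F0)) π ∈ 𝔫 →
      ss_SmoothAt π (fc_chart A0 ({x} : Set F0)) 𝔫 ∨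
        s35l_NodeAt π τ Q (ssm_tp_P (fc_chart A0 ({x} : Set F0)) V1)
          (ssm_tp_P (fc_chart A0 ({x} : Set F0)) V2) 𝔫)
    (hinf : ∀ 𝔫 : Ideal (fc_chart A0 ({x⁻¹} : Set F0)), 𝔫.IsMaximal →
      algebraMap A0 (fc_chart A0 ({x⁻¹} : Set F0)) π ∈ 𝔫 →
      (⟨x⁻¹, fc_x_mem_chart x⁻¹⟩ : fc_chart A0 ({x⁻¹} : Set F0)) ∈ 𝔫 →
      ss_SmoothAt π (fc_chart A0 ({x⁻¹} : Set F0)) 𝔫)
    {q : ℕ} (hq : q.Prime) (hqA : π ∣ (q : A0))
    {m : ℕ} (hm : IsUnit (m : A0)) {f : F0} (hf0 : f ≠ 0)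
    (hord : ∀ P : Place L F0, (m : ℤ) ∣ P.ord f)
    (k1 k2 : A0ˣ) (c0 : A0ˣ) (hK : π ∣ (k1 : A0) - (k2 : A0) * (c0 : A0) ^ m)
    (hf1 : f - algebraMap A0 F0 (k1 : A0) ∈ V1.nonunits)
    (hf2 : f - algebraMap A0 F0 (k2 : A0) ∈ V2.nonunits)
    (hrat : ∀ (𝔫 : Ideal (fc_chart A0 ({x} : Set F0))) (h𝔫 : 𝔫.IsMaximal),
      ssm_tp_P (fc_chart A0 ({x} : Set F0)) V1 ≤ 𝔫 →
      ssm_tp_P (fc_chart A0 ({x} : Set F0)) V2 ≤ 𝔫 →
      haveI := ssm_ths_chart_isFractionRing (A0 := A0) (L := L) x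
      haveI : 𝔫.IsPrime := h𝔫.isPrime
      m59tl_Ratio (𝔫.map (algebraMap (fc_chart A0 ({x} : Set F0)) (ssl_locSub F0 𝔫)))
        ((ssm_tp_P (fc_chart A0 ({x} : Set F0)) V1).map
          (algebraMap (fc_chart A0 ({x} : Set F0)) (ssl_locSub F0 𝔫)))
        ((ssm_tp_P (fc_chart A0 ({x} : Set F0)) V2).map
          (algebraMap (fc_chart A0 ({x} : Set F0)) (ssl_locSub F0 𝔫))) m f
        (m59tl_cst (F0 := F0) 𝔫 c0)) :
    ∃ (c : A0) (g : F0), g ≠ 0 ∧ f = algebraMap A0 F0 c * g ^ m := by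
  have hxA : Transcendental A0 x := fc_ff_transcendental (L := L) hx
  haveI : IsIntegrallyClosed (Algebra.adjoin A0 ({x} : Set F0)) := fc_ff_isIntegrallyClosed hxA
  haveI : FaithfulSMul (Algebra.adjoin A0 ({x} : Set F0)) F0 :=
    (faithfulSMul_iff_algebraMap_injective _ _).2 Subtype.val_injective
  have hC1 := ssm_tp_ff_chart (L := L) (A0 := A0) (F0 := F0) hπ hx
  -- constants lie in the valuation rings
  have hcst1 : ∀ a : A0, algebraMap A0 F0 a ∈ V1 := fun a =>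
    hC1.le H.over1 (Subalgebra.algebraMap_mem _ a)
  have hcst2 : ∀ a : A0, algebraMap A0 F0 a ∈ V2 := fun a =>
    hC1.le H.over2 (Subalgebra.algebraMap_mem _ a)
  have hπ1 : algebraMap A0 F0 π ∈ V1.nonunits := H.over1.pi_mem
  have hπ2 : algebraMap A0 F0 π ∈ V2.nonunits := H.over2.pi_mem
  -- incomparability
  have h12 : ¬ V1 ≤ V2 := by
    intro hle
    obtain ⟨t, -, ht1, ht2⟩ := H.chart_sep12 hC1
    exact ht1 ((ValuationSubring.nonunits_le_nonunits.2 hle) ht2)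
  have h21 : ¬ V2 ≤ V1 := by
    intro hle
    obtain ⟨t, -, ht2, ht1⟩ := H.chart_sep21 hC1
    exact ht2 ((ValuationSubring.nonunits_le_nonunits.2 hle) ht1)
  -- the normalising function
  obtain ⟨R', hR1, hR2⟩ := m59ta_two V1 V2 h12 h21 1 (algebraMap A0 F0 (c0 : A0))
    V1.one_mem V2.one_mem (hcst1 _) (hcst2 _)
  have hc0inv : algebraMap A0 F0 (c0 : A0) * algebraMap A0 F0 ((c0⁻¹ : A0ˣ) : A0) = 1 := by
    rw [← map_mul, ← Units.val_mul, mul_inv_cancel, Units.val_one, map_one]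
  have hk1inv : algebraMap A0 F0 (k1 : A0) * algebraMap A0 F0 ((k1⁻¹ : A0ˣ) : A0) = 1 := by
    rw [← map_mul, ← Units.val_mul, mul_inv_cancel, Units.val_one, map_one]
  have hR'V1 : R' ∈ V1 := by
    have : R' = (R' - 1) + 1 := by ring
    rw [this]
    exact V1.add_mem _ _ (ValuationSubring.nonunits_subset hR1) V1.one_mem
  have hR'V2 : R' ∈ V2 := by
    have : R' = (R' - algebraMap A0 F0 (c0 : A0)) + algebraMap A0 F0 (c0 : A0) := by ring
    rw [this]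
    exact V2.add_mem _ _ (ValuationSubring.nonunits_subset hR2) (hcst2 _)
  have hR'n1 : R' ∉ V1.nonunits := by
    intro h
    have h1 : (1 : F0) ∈ V1.nonunits := by
      have : (1 : F0) = R' - (R' - 1) := by ring
      rw [this]
      exact V1.nonunits.sub_mem h hR1
    rw [ValuationSubring.mem_nonunits_iff, map_one] at h1
    exact lt_irrefl _ h1
  have hR'n2 : R' ∉ V2.nonunits := by
    intro h
    have h1 : algebraMap A0 F0 (c0 : A0) ∈ V2.nonunits := by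
      have : algebraMap A0 F0 (c0 : A0) = R' - (R' - algebraMap A0 F0 (c0 : A0)) := by ring
      rw [this]
      exact V2.nonunits.sub_mem h hR2
    have h2 := m59ta_mul_mem V2 (hcst2 ((c0⁻¹ : A0ˣ) : A0)) h1
    rw [mul_comm, hc0inv, ValuationSubring.mem_nonunits_iff, map_one] at h2
    exact lt_irrefl _ h2
  have hR'0 : R' ≠ 0 := by
    rintro rfl
    exact hR'n1 V1.nonunits.zero_mem
  -- the normalised function
  set f' : F0 := f * R' ^ m * algebraMap A0 F0 ((k1⁻¹ : A0ˣ) : A0) with hf'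
  have hk1inv0 : algebraMap A0 F0 ((k1⁻¹ : A0ˣ) : A0) ≠ 0 := right_ne_zero_of_mul_eq_one hk1inv
  have hf'0 : f' ≠ 0 := mul_ne_zero (mul_ne_zero hf0 (pow_ne_zero m hR'0)) hk1inv0
  have hfV2 : f ∈ V2 := by
    have : f = (f - algebraMap A0 F0 (k2 : A0)) + algebraMap A0 F0 (k2 : A0) := by ring
    rw [this]
    exact V2.add_mem _ _ (ValuationSubring.nonunits_subset hf2) (hcst2 _)
  have hf'1 : f' - 1 ∈ V1.nonunits := by
    have h1 : R' ^ m - 1 ^ m ∈ V1.nonunits := m59tgl_congr_pow V1 hR1 V1.one_mem m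
    have h2 : f * R' ^ m - algebraMap A0 F0 (k1 : A0) * 1 ^ m ∈ V1.nonunits :=
      m59tgl_congr_mul V1 hf1 h1 (hcst1 _) (V1.pow_mem hR'V1 m)
    have h3 := m59ta_mul_mem V1 (hcst1 ((k1⁻¹ : A0ˣ) : A0)) h2
    have e : f' - 1 = algebraMap A0 F0 ((k1⁻¹ : A0ˣ) : A0) *
        (f * R' ^ m - algebraMap A0 F0 (k1 : A0) * 1 ^ m) := by
      rw [hf', one_pow, mul_one, mul_sub, mul_comm (algebraMap A0 F0 ((k1⁻¹ : A0ˣ) : A0))
        (algebraMap A0 F0 (k1 : A0)), hk1inv]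
      ring
    rw [e]
    exact h3
  have hf'2 : f' - 1 ∈ V2.nonunits := by
    have h1 : R' ^ m - algebraMap A0 F0 (c0 : A0) ^ m ∈ V2.nonunits :=
      m59tgl_congr_pow V2 hR2 (hcst2 _) m
    have h2 : f * R' ^ m - algebraMap A0 F0 (k2 : A0) * algebraMap A0 F0 (c0 : A0) ^ m ∈
        V2.nonunits := m59tgl_congr_mul V2 hf2 h1 (hcst2 _) (V2.pow_mem hR'V2 m)
    obtain ⟨d, hd⟩ := hK
    have h3 : algebraMap A0 F0 (k2 : A0) * algebraMap A0 F0 (c0 : A0) ^ m -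
        algebraMap A0 F0 (k1 : A0) ∈ V2.nonunits := by
      have e3 : algebraMap A0 F0 (k2 : A0) * algebraMap A0 F0 (c0 : A0) ^ m -
          algebraMap A0 F0 (k1 : A0) = algebraMap A0 F0 (-d) * algebraMap A0 F0 π := by
        rw [← map_pow, ← map_mul, ← map_sub, ← map_mul]
        congr 1
        have : (k2 : A0) * (c0 : A0) ^ m - (k1 : A0) =
            -((k1 : A0) - (k2 : A0) * (c0 : A0) ^ m) := by ring
        rw [this, hd]
        ring
      rw [e3]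
      exact m59ta_mul_mem V2 (hcst2 _) hπ2
    have h4 : f * R' ^ m - algebraMap A0 F0 (k1 : A0) ∈ V2.nonunits := by
      have : f * R' ^ m - algebraMap A0 F0 (k1 : A0) =
          (f * R' ^ m - algebraMap A0 F0 (k2 : A0) * algebraMap A0 F0 (c0 : A0) ^ m) +
            (algebraMap A0 F0 (k2 : A0) * algebraMap A0 F0 (c0 : A0) ^ m -
              algebraMap A0 F0 (k1 : A0)) := by ring
      rw [this]
      exact V2.nonunits.add_mem h2 h3
    have h5 := m59ta_mul_mem V2 (hcst2 ((k1⁻¹ : A0ˣ) : A0)) h4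
    have e : f' - 1 = algebraMap A0 F0 ((k1⁻¹ : A0ˣ) : A0) *
        (f * R' ^ m - algebraMap A0 F0 (k1 : A0)) := by
      rw [hf', mul_sub, mul_comm (algebraMap A0 F0 ((k1⁻¹ : A0ˣ) : A0))
        (algebraMap A0 F0 (k1 : A0)), hk1inv]
      ring
    rw [e]
    exact h5
  -- the orders
  have hord' : ∀ P : Place L F0, (m : ℤ) ∣ P.ord f' := by
    intro P
    have hcst : algebraMap A0 F0 ((k1⁻¹ : A0ˣ) : A0) =
        algebraMap L F0 (algebraMap A0 L ((k1⁻¹ : A0ˣ) : A0)) :=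
      IsScalarTower.algebraMap_apply A0 L F0 _
    rw [hf', P.ord_mul (mul_ne_zero hf0 (pow_ne_zero m hR'0)) hk1inv0,
      P.ord_mul hf0 (pow_ne_zero m hR'0), hcst, Fermat.Agent.S24.hw_ord_algebraMap, add_zero]
    have h1 : P.ord (R' ^ m) = (m : ℤ) * P.ord R' := by
      have := P.ord_zpow R' (m : ℤ)
      rwa [zpow_natCast] at this
    rw [h1]
    exact dvd_add (hord P) (dvd_mul_right _ _)
  -- the ratios
  have hrat' : ∀ (𝔫 : Ideal (fc_chart A0 ({x} : Set F0))) (h𝔫 : 𝔫.IsMaximal),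
      ssm_tp_P (fc_chart A0 ({x} : Set F0)) V1 ≤ 𝔫 →
      ssm_tp_P (fc_chart A0 ({x} : Set F0)) V2 ≤ 𝔫 →
      haveI := ssm_ths_chart_isFractionRing (A0 := A0) (L := L) x
      haveI : 𝔫.IsPrime := h𝔫.isPrime
      m59tl_Ratio (𝔫.map (algebraMap (fc_chart A0 ({x} : Set F0)) (ssl_locSub F0 𝔫)))
        ((ssm_tp_P (fc_chart A0 ({x} : Set F0)) V1).map
          (algebraMap (fc_chart A0 ({x} : Set F0)) (ssl_locSub F0 𝔫)))
        ((ssm_tp_P (fc_chart A0 ({x} : Set F0)) V2).map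
          (algebraMap (fc_chart A0 ({x} : Set F0)) (ssl_locSub F0 𝔫))) m f' 1 := by
    intro 𝔫 h𝔫 hP1𝔫 hP2𝔫
    haveI := ssm_ths_chart_isFractionRing (A0 := A0) (L := L) x
    haveI h𝔫p : 𝔫.IsPrime := h𝔫.isPrime
    haveI := H.P1_isPrime hC1
    haveI := H.P2_isPrime hC1
    haveI := s35l_map_isPrime (F0 := F0) 𝔫 _ hP1𝔫
    haveI := s35l_map_isPrime (F0 := F0) 𝔫 _ hP2𝔫
    have r1 := hrat 𝔫 h𝔫 hP1𝔫 hP2𝔫
    -- the ratio of `R' ^ m`
    have r2 : m59tl_Ratio (𝔫.map (algebraMap (fc_chart A0 ({x} : Set F0)) (ssl_locSub F0 𝔫)))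
        ((ssm_tp_P (fc_chart A0 ({x} : Set F0)) V1).map
          (algebraMap (fc_chart A0 ({x} : Set F0)) (ssl_locSub F0 𝔫)))
        ((ssm_tp_P (fc_chart A0 ({x} : Set F0)) V2).map
          (algebraMap (fc_chart A0 ({x} : Set F0)) (ssl_locSub F0 𝔫))) m (R' ^ m)
        (1 * (m59tl_cst (F0 := F0) 𝔫 c0)⁻¹) := by
      refine m59tl_ratio_of_pow _ _ _
        (m59tgl_unitAt_of_unit H hC1 𝔫 hP1𝔫 hR'V1 hR'n1)
        (m59tgl_unitAt_of_unit H.symm hC1 𝔫 hP2𝔫 hR'V2 hR'n2) ?_ ?_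
      · have := m59tgl_memM_of_nonunits H hC1 𝔫 hP1𝔫 hR1
        simpa using this
      · exact m59tgl_memM_of_nonunits H.symm hC1 𝔫 hP2𝔫 hR2
    -- the ratio of the constant
    have r3 : m59tl_Ratio (𝔫.map (algebraMap (fc_chart A0 ({x} : Set F0)) (ssl_locSub F0 𝔫)))
        ((ssm_tp_P (fc_chart A0 ({x} : Set F0)) V1).map
          (algebraMap (fc_chart A0 ({x} : Set F0)) (ssl_locSub F0 𝔫)))
        ((ssm_tp_P (fc_chart A0 ({x} : Set F0)) V2).map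
          (algebraMap (fc_chart A0 ({x} : Set F0)) (ssl_locSub F0 𝔫))) m
        (algebraMap A0 F0 ((k1⁻¹ : A0ˣ) : A0)) 1 := by
      refine ⟨m59tl_cst (F0 := F0) 𝔫 k1⁻¹, 1, 1, 1, ?_, ssl_unitAt_one _, ssl_unitAt_one _, ?_, ?_,
        ?_⟩
      · rw [one_pow, mul_one]
        rfl
      · rw [Units.val_one, map_one, sub_self]
        exact s36g_memM_zero _
      · rw [Units.val_one, map_one, sub_self]
        exact s36g_memM_zero _
      · rw [Units.val_one, one_mul, sub_self]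
        exact Ideal.zero_mem _
    have r4 := m59tl_ratio_mul _ _ _ (m59tl_ratio_mul _ _ _ r1 r2) r3
    have e : (m59tl_cst (F0 := F0) 𝔫 c0) * (1 * (m59tl_cst (F0 := F0) 𝔫 c0)⁻¹) * 1 = 1 := by
      rw [one_mul, mul_one, mul_inv_cancel]
    rw [e] at r4
    exact r4
  obtain ⟨c, g, hg0, hfg⟩ := m59tgl_glue (L := L) hπ hx H M τ Q hpts hinf hq hqA hm hf'0 hord'
    hf'1 hf'2 hrat'
  refine ⟨c * (k1 : A0), g / R', div_ne_zero hg0 hR'0, ?_⟩
  have h1 : f = f' * algebraMap A0 F0 (k1 : A0) / R' ^ m := by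
    rw [hf']
    have hRm : R' ^ m ≠ 0 := pow_ne_zero m hR'0
    field_simp
    rw [mul_comm, hk1inv]
  rw [h1, hfg, map_mul, div_pow]
  have hRm : R' ^ m ≠ 0 := pow_ne_zero m hR'0
  field_simp

end Main

end Fermat.Agent.M59
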