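/-
M59 / Sink B, leaf 4 [TOR-SURJ], LEVEL `N' q q`: THE DEFINITIONS OF THE TORIC DATUM `T2` (helper3,
after the rulings #5695 (7), #5710 of helper15).  Prefix `m59t2_`.  DEFINITIONS + unpacking lemmas.

Context = the context of `Tor/Defs1.lean` (helper7): `A` a valuation subring of `ℚ̄` over `q` odd,
`q ∤ N'`; `L ⊆ ℚ̄` a number field (THE big level `L*`), `O = A ∩ L` a discrete valuation ring with
uniformiser `q`; `E2 = lg_E L (N' q q)`, `B2 = fc_chart O {λ}` its `λ`-chart, `PA`, `PB`, `PC` the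
centres on `B2` of the three vertical valuations `VA`, `VB`, `VC` (`VC` ANY valuation subring with
`s36asm_Third`, as in `m59sb_ConstRed3`); `aB bB : B1 →+* B2` the two chart maps (PARAMETERS here; in
use the restrictions of the inclusion `E1 ⊆ E2` and of `X ↦ X^q`).

* `m59t2_RatioCB VC m 𝔫 f c`, `m59t2_RatioAC VC m 𝔫 f c` : `m59tl_Ratio (𝔫 R) (PC R) (PB R) m f c`,
  resp. `m59tl_Ratio (𝔫 R) (PA R) (PC R) m f c`, in `R = (B2)_𝔫`, `c ∈ Oˣ` (via `m59tl_cst`);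
* `m59t2_RatioAll aB bB m f cA cB` : at every triple point `𝔫 ⊇ PA + PB + PC` of `B2`, for every
  `Q ∈ Sg`: if `𝔫 ∩ B1` (along `aB`) is labelled by `Q` then the `(C, B)`-datum of `f` is `cA Q`; if
  `𝔫 ∩ B1` (along `bB`) is labelled by `Q` then the `(A, C)`-datum of `f` is `cB Q`;
* `m59t2_NF m z f g1 c₀ r₀ k R g'` : the normal form of `z` over `L` (body of `m59g12u_NFOver`);
* **`m59t2_T2 aB bB p ζ Q0 z (a, b)`** : `z` has a normal form whose toric data are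
  `ζ ^ (a Q) · ε₁`, `ζ ^ (b Q) · ε₂` for TWO units `ε₁ ε₂` of `O`;
* `m59t2_nf_of_NFOver`, `m59t2_NFOver_of_nf` : `m59t2_NF` ⟷ `m59g12u_NFOver` (+ `s44f_Rep`).
-/
import Mathlib
import Fermat.Agent.M59.SinkB.Tor.Defs1
import Fermat.Agent.M59.SinkB.Tor.Glue1
import Fermat.Agent.M59.SinkB.G12.AsmU

set_option autoImplicit false
set_option linter.unusedSectionVars false
set_option linter.unusedVariables false
set_option linter.style.haveILetI false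
set_option synthInstance.maxHeartbeats 400000
set_option maxHeartbeats 1000000

noncomputable section

namespace Fermat.Agent.M59

open Polynomial ModularCurve AlgebraicCurve IntermediateField IsLocalRing
open Fermat.Agent.JT3 Fermat.Agent.SS Fermat.Agent.S35 Fermat.Agent.S24 Fermat.Agent.S44
  Fermat.Agent.S36 Fermat.Agent.SS2

local notation "Qb" => AlgebraicClosure ℚ

section Chart

variable (A : ValuationSubring Qb) (N' q : ℕ) [NeZero N'] [NeZero q] [NeZero (N' * q * q)]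
  (L : IntermediateField ℚ Qb)

/-- the `λ`-chart of the Legendre model of level `N' q q` over `O = A ∩ L`. -/
abbrev m59t2_B2 : Subalgebra ↥(A.comap (algebraMap ↥L Qb)) ↥(lg_E ↥L (N' * q * q)) :=
  fc_chart ↥(A.comap (algebraMap ↥L Qb)) ({lg_lamE (N' * q * q)} : Set ↥(lg_E ↥L (N' * q * q)))

end Chart

section Defs

variable (A : ValuationSubring Qb) {q : ℕ} [hq : Fact q.Prime] (hA : A.LiesOverPrime q)
  (N' : ℕ) [NeZero N'] [NeZero q] [NeZero (N' * q)] [NeZero (N' * q * q)]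
  (hq2 : ¬ 2 ∣ q) (hqN' : ¬ q ∣ N')
  (L : IntermediateField ℚ Qb) [NumberField ↥L]
  [IsDiscreteValuationRing ↥(A.comap (algebraMap ↥L Qb))]
  [CharP (ResidueField ↥(A.comap (algebraMap ↥L Qb))) q]
  (hπq : Irreducible ((q : ℕ) : ↥(A.comap (algebraMap ↥L Qb))))

/-- the component `A` of the special fibre of the chart. -/
abbrev m59t2_PA : Ideal ↥(m59t2_B2 A N' q L) :=
  ssm_tp_P (m59t2_B2 A N' q L) (s36i_VA (A.comap (algebraMap ↥L Qb)) hπq (N' * q) q)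

/-- the component `B` of the special fibre of the chart. -/
abbrev m59t2_PB : Ideal ↥(m59t2_B2 A N' q L) :=
  ssm_tp_P (m59t2_B2 A N' q L) (s36i_VB (A.comap (algebraMap ↥L Qb)) hπq N' q hq2 hqN')

/-- the component `C` of the special fibre of the chart. -/
abbrev m59t2_PC (VC : ValuationSubring ↥(lg_E ↥L (N' * q * q))) : Ideal ↥(m59t2_B2 A N' q L) :=
  ssm_tp_P (m59t2_B2 A N' q L) VC

/-- **the `(C, B)`-toric datum of `f` at the point `𝔫` of the chart is the constant `c`.** -/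
def m59t2_RatioCB (VC : ValuationSubring ↥(lg_E ↥L (N' * q * q))) (m : ℕ)
    (𝔫 : Ideal ↥(m59t2_B2 A N' q L)) (h𝔫 : 𝔫.IsPrime)
    (f : ↥(lg_E ↥L (N' * q * q))) (c : (↥(A.comap (algebraMap ↥L Qb)))ˣ) : Prop :=
  haveI := s36cp_chart_isFractionRing (A.comap (algebraMap ↥L Qb)) (L := ↥L) (N' * q * q)
  haveI := h𝔫
  m59tl_Ratio
    (Ideal.map (algebraMap ↥(m59t2_B2 A N' q L) ↥(ssl_locSub ↥(lg_E ↥L (N' * q * q)) 𝔫)) 𝔫)
    (Ideal.map (algebraMap ↥(m59t2_B2 A N' q L) ↥(ssl_locSub ↥(lg_E ↥L (N' * q * q)) 𝔫))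
      (m59t2_PC A N' L VC))
    (Ideal.map (algebraMap ↥(m59t2_B2 A N' q L) ↥(ssl_locSub ↥(lg_E ↥L (N' * q * q)) 𝔫))
      (m59t2_PB A N' hq2 hqN' L hπq))
    m f (m59tl_cst (F0 := ↥(lg_E ↥L (N' * q * q))) 𝔫 c)

/-- **the `(A, C)`-toric datum of `f` at the point `𝔫` of the chart is the constant `c`.** -/
def m59t2_RatioAC (VC : ValuationSubring ↥(lg_E ↥L (N' * q * q))) (m : ℕ)
    (𝔫 : Ideal ↥(m59t2_B2 A N' q L)) (h𝔫 : 𝔫.IsPrime)
    (f : ↥(lg_E ↥L (N' * q * q))) (c : (↥(A.comap (algebraMap ↥L Qb)))ˣ) : Prop :=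
  haveI := s36cp_chart_isFractionRing (A.comap (algebraMap ↥L Qb)) (L := ↥L) (N' * q * q)
  haveI := h𝔫
  m59tl_Ratio
    (Ideal.map (algebraMap ↥(m59t2_B2 A N' q L) ↥(ssl_locSub ↥(lg_E ↥L (N' * q * q)) 𝔫)) 𝔫)
    (Ideal.map (algebraMap ↥(m59t2_B2 A N' q L) ↥(ssl_locSub ↥(lg_E ↥L (N' * q * q)) 𝔫))
      (m59t2_PA A N' L hπq))
    (Ideal.map (algebraMap ↥(m59t2_B2 A N' q L) ↥(ssl_locSub ↥(lg_E ↥L (N' * q * q)) 𝔫))
      (m59t2_PC A N' L VC))
    m f (m59tl_cst (F0 := ↥(lg_E ↥L (N' * q * q))) 𝔫 c)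

/-- at every triple point of the chart `B2`: if its image in `B1` along `aB` is labelled by
`Q ∈ Sg` the `(C, B)`-datum of `f` is `cA Q`, and if its image along `bB` is labelled by `Q` the
`(A, C)`-datum of `f` is `cB Q`. -/
def m59t2_RatioAll (aB bB : ↥(m59t1_B1 A N' q L) →+* ↥(m59t2_B2 A N' q L)) (m : ℕ)
    (f : ↥(lg_E ↥L (N' * q * q)))
    (cA cB : s44e_Sg A N' q hq.out hqN' → (↥(A.comap (algebraMap ↥L Qb)))ˣ) : Prop :=
  ∀ (VC : ValuationSubring ↥(lg_E ↥L (N' * q * q))),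
    s36asm_Third (A.comap (algebraMap ↥L Qb)) hπq N' q hq2 hqN' VC →
    ∀ (𝔫 : Ideal ↥(m59t2_B2 A N' q L)) (h𝔫 : 𝔫.IsMaximal),
      m59t2_PA A N' L hπq ≤ 𝔫 → m59t2_PB A N' hq2 hqN' L hπq ≤ 𝔫 → m59t2_PC A N' L VC ≤ 𝔫 →
      ∀ Q : s44e_Sg A N' q hq.out hqN',
        (m59t1_Lab A hA N' hq2 hqN' L hπq (𝔫.comap aB) Q.1 →
          m59t2_RatioCB A N' hq2 hqN' L hπq VC m 𝔫 h𝔫.isPrime f (cA Q)) ∧
        (m59t1_Lab A hA N' hq2 hqN' L hπq (𝔫.comap bB) Q.1 →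
          m59t2_RatioAC A N' L hπq VC m 𝔫 h𝔫.isPrime f (cB Q))

/-- **the normal form of `z` over `L`** at the exponent `m` (the body of `m59g12u_NFOver`, with the
representing function `f`). -/
def m59t2_NF (m : ℕ) (z : JZero (N' * q * q)) (f : modularFunctionFieldBar (N' * q * q))
    (g1 : laurentBaseChange L (modularFunctionFieldFull (N' * q * q))) (c₀ : Qb)
    (r₀ : modularFunctionFieldBar (N' * q * q)) (k : ↥L)
    (R g' : ↥(lg_E ↥L (N' * q * q))) : Prop :=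
  g1 ≠ 0 ∧ c₀ ≠ 0 ∧ r₀ ≠ 0 ∧ s44f_Rep (N' * q * q) m z f ∧
    f = algebraMap Qb (modularFunctionFieldBar (N' * q * q)) c₀ * r₀ ^ m *
      dsc_bcHom L Qb (modularFunctionFieldFull (N' * q * q)) g1 ∧
    k ≠ 0 ∧ R ≠ 0 ∧ g' ≠ 0 ∧
    ss2_dp_iota ↥L (N' * q * q) g1 =
      algebraMap ↥L ↥(lg_E ↥L (N' * q * q)) k * R ^ m * g' ∧
    (∀ v : Place ↥L ↥(lg_E ↥L (N' * q * q)), (m : ℤ) ∣ v.ord g') ∧
    m59sb_ConstRed3 (A.comap (algebraMap ↥L Qb)) hπq N' q hq2 hqN' g'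

/-- **"`(a, b)` is a toric datum of `z`"**, level `N' q q`, exponent `p`, over the level `L`: `z` has
a normal form over `L` whose `(C, B)`-datum at the triple points over `Q ∈ Sg` (along `aB`) is
`ζ ^ (a Q) · ε₁` and whose `(A, C)`-datum at the triple points over `Q` (along `bB`) is
`ζ ^ (b Q) · ε₂`, for two units `ε₁ ε₂` of `O` (`a Q0 = b Q0 = 0`). -/
def m59t2_T2 (aB bB : ↥(m59t1_B1 A N' q L) →+* ↥(m59t2_B2 A N' q L)) (p : ℕ)
    (ζ : (↥(A.comap (algebraMap ↥L Qb)))ˣ) (Q0 : s44e_Sg A N' q hq.out hqN')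
    (z : JZero (N' * q * q)) (ab : m59t1_B A N' hqN' p Q0 × m59t1_B A N' hqN' p Q0) : Prop :=
  ∃ (f : modularFunctionFieldBar (N' * q * q))
    (g1 : laurentBaseChange L (modularFunctionFieldFull (N' * q * q))) (c₀ : Qb)
    (r₀ : modularFunctionFieldBar (N' * q * q)) (k : ↥L) (R g' : ↥(lg_E ↥L (N' * q * q))),
    m59t2_NF A N' hq2 hqN' L hπq p z f g1 c₀ r₀ k R g' ∧
    ∃ ε1 ε2 : (↥(A.comap (algebraMap ↥L Qb)))ˣ,
      m59t2_RatioAll A hA N' hq2 hqN' L hπq aB bB p g'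
        (fun Q => ζ ^ (m59t1_ext A N' hqN' ab.1 Q).val * ε1)
        (fun Q => ζ ^ (m59t1_ext A N' hqN' ab.2 Q).val * ε2)

/-- a class with a normal form over `L` in the sense of `m59g12u_NFOver` has an `m59t2_NF`. -/
theorem m59t2_nf_of_NFOver {m : ℕ} {z : JZero (N' * q * q)}
    {f : modularFunctionFieldBar (N' * q * q)} (hrep : s44f_Rep (N' * q * q) m z f)
    (h : m59g12u_NFOver A N' q hq2 hqN' m f L) :
    ∃ (g1 : laurentBaseChange L (modularFunctionFieldFull (N' * q * q))) (c₀ : Qb)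
      (r₀ : modularFunctionFieldBar (N' * q * q)) (k : ↥L) (R g' : ↥(lg_E ↥L (N' * q * q))),
      m59t2_NF A N' hq2 hqN' L hπq m z f g1 c₀ r₀ k R g' := by
  obtain ⟨g1, c₀, r₀, hg1, hc₀, hr₀, hf, hall⟩ := h
  obtain ⟨k, R, g', hk, hR, hg', hι, hord, hred⟩ := hall hπq
  exact ⟨g1, c₀, r₀, k, R, g', hg1, hc₀, hr₀, hrep, hf, hk, hR, hg', hι, hord, hred⟩

/-- conversely an `m59t2_NF` is a normal form over `L` in the sense of `m59g12u_NFOver`. -/
theorem m59t2_NFOver_of_nf {m : ℕ} {z : JZero (N' * q * q)}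
    {f : modularFunctionFieldBar (N' * q * q)}
    {g1 : laurentBaseChange L (modularFunctionFieldFull (N' * q * q))} {c₀ : Qb}
    {r₀ : modularFunctionFieldBar (N' * q * q)} {k : ↥L} {R g' : ↥(lg_E ↥L (N' * q * q))}
    (h : m59t2_NF A N' hq2 hqN' L hπq m z f g1 c₀ r₀ k R g') :
    s44f_Rep (N' * q * q) m z f ∧ m59g12u_NFOver A N' q hq2 hqN' m f L := by
  obtain ⟨hg1, hc₀, hr₀, hrep, hf, hk, hR, hg', hι, hord, hred⟩ := h
  refine ⟨hrep, g1, c₀, r₀, hg1, hc₀, hr₀, hf, ?_⟩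
  intro _ _ hπ
  exact ⟨k, R, g', hk, hR, hg', hι, hord, hred⟩

end Defs

end Fermat.Agent.M59
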