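/-
M59 / Sink B, leaf 4 [TOR-SURJ], cell [TAU-INV] (helper24; prefix `m59tt_`), part 1:
THE DECK INVOLUTION OF THE LEGENDRE COVER.

`E = lg_E L N = φ(F_N)(λ) ⊆ L((q))`, `φ = (q ↦ q²)`.  The substitution `τ₀ = (q ↦ -q)`
(`fs_twist (-1)`) fixes `L((q²)) ⊇ φ(F_N)` and maps `λ` into `L(λ)`
(`t₄ (t₄ + 16) = t₂(q²)` is `τ₀`-fixed, so `τ₀ t₄ ∈ {t₄, -16 - t₄}`, and `λ (t₄ + 16) = 16`), hence
restricts to an `L`-algebra involution `m59tt_tau` of `E` fixing `φ(F_N)` pointwise, with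
`τ λ = λ / (λ - 1)`, `τ t₄ = -16 - t₄`.
-/
import Mathlib
import Fermat.Agent.SS.Model.F4K
import Fermat.Agent.JT3.Inst.Key0

set_option autoImplicit false
set_option linter.unusedSectionVars false
set_option linter.unusedVariables false
set_option linter.style.haveILetI false

noncomputable section

namespace Fermat.Agent.M59

open ModularCurve IntermediateField
open Fermat.Agent.S28 Fermat.Agent.JT3 Fermat.Agent.SS

section Series

variable (L : Type*) [Field L]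

/-- the substitution `q ↦ -q` on Laurent series. -/
def m59tt_tau0 : LaurentSeries L →+* LaurentSeries L := fs_twist (-1 : Lˣ)

theorem m59tt_tau0_coeff (f : LaurentSeries L) (n : ℤ) :
    (m59tt_tau0 L f).coeff n = (((-1 : Lˣ) ^ n : Lˣ) : L) * f.coeff n := rfl

theorem m59tt_tau0_tau0 (f : LaurentSeries L) : m59tt_tau0 L (m59tt_tau0 L f) = f := by
  unfold m59tt_tau0
  rw [← fs_twist_mul, neg_mul_neg, one_mul, fs_twist_one]

theorem m59tt_tau0_C (r : L) : m59tt_tau0 L (HahnSeries.C r) = HahnSeries.C r := fs_twist_C _ r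

theorem m59tt_tau0_algebraMap (r : L) :
    m59tt_tau0 L (algebraMap L (LaurentSeries L) r) = algebraMap L (LaurentSeries L) r := by
  have h1 : algebraMap L (LaurentSeries L) r = HahnSeries.C r := by
    have h0 : algebraMap L (PowerSeries L) r = PowerSeries.C r := by simp
    rw [HahnSeries.algebraMap_apply', h0, HahnSeries.ofPowerSeries_C]
  rw [h1]
  exact m59tt_tau0_C L r

/-- `τ₀` fixes the series in `q²`. -/
theorem m59tt_tau0_expand_two (x : LaurentSeries L) :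
    m59tt_tau0 L (qExpand L 2 x) = qExpand L 2 x := by
  ext n
  rw [m59tt_tau0_coeff]
  by_cases hn : ((2 : ℕ) : ℤ) ∣ n
  · obtain ⟨k, rfl⟩ := hn
    have : ((-1 : Lˣ) ^ (((2 : ℕ) : ℤ) * k) : Lˣ) = 1 := by
      rw [zpow_mul]
      norm_num
    rw [this, Units.val_one, one_mul]
  · rw [qExpand_coeff_of_not_dvd 2 x hn, mul_zero]

/-- `τ₀` as an `L`-algebra homomorphism. -/
def m59tt_tau0Alg : LaurentSeries L →ₐ[L] LaurentSeries L :=
  { m59tt_tau0 L with commutes' := m59tt_tau0_algebraMap L }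

theorem m59tt_tau0Alg_apply (f : LaurentSeries L) : m59tt_tau0Alg L f = m59tt_tau0 L f := rfl

/-- `τ₀ t₄ = t₄` or `τ₀ t₄ = -16 - t₄`. -/
theorem m59tt_tau0_t4 :
    m59tt_tau0 L (hm_t4 L) = hm_t4 L ∨ m59tt_tau0 L (hm_t4 L) = -16 - hm_t4 L := by
  have h1 : m59tt_tau0 L (hm_t2two L) = hm_t2two L := m59tt_tau0_expand_two L (hm_t2 L)
  rw [hm_t4_id_b, map_mul, map_add, map_ofNat] at h1
  have h2 : (m59tt_tau0 L (hm_t4 L) - hm_t4 L) * (m59tt_tau0 L (hm_t4 L) + hm_t4 L + 16) = 0 := by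
    have : (m59tt_tau0 L (hm_t4 L) - hm_t4 L) * (m59tt_tau0 L (hm_t4 L) + hm_t4 L + 16) =
        m59tt_tau0 L (hm_t4 L) * (m59tt_tau0 L (hm_t4 L) + 16) - hm_t4 L * (hm_t4 L + 16) := by
      ring
    rw [this, h1, sub_self]
  rcases mul_eq_zero.1 h2 with h | h
  · exact Or.inl (sub_eq_zero.1 h)
  · refine Or.inr ?_
    have := eq_neg_of_add_eq_zero_left h
    rw [← sub_eq_zero]
    rw [← h]
    ring

variable {L}

/-- `τ₀ λ ∈ L(λ)`. -/
theorem m59tt_tau0_lam_mem (h2 : (2 : L) ≠ 0) : m59tt_tau0 L (lg_lam L) ∈ lg_K L := by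
  have h := hm_lam_mul L
  have h' := congrArg (m59tt_tau0 L) h
  rw [map_mul, map_add, map_ofNat] at h'
  have h16 : (16 : LaurentSeries L) ∈ lg_K L := by
    exact_mod_cast _root_.natCast_mem (lg_K L) 16
  have h160 := ssm_f4_sixteen_ne_zero h2
  have hne : m59tt_tau0 L (hm_t4 L) + 16 ≠ 0 := by
    intro h0
    rw [h0, mul_zero] at h'
    exact h160 h'.symm
  have e : m59tt_tau0 L (lg_lam L) = 16 / (m59tt_tau0 L (hm_t4 L) + 16) := by
    rw [eq_div_iff hne]
    exact h'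
  rw [e]
  refine div_mem h16 (add_mem ?_ h16)
  rcases m59tt_tau0_t4 L with h4 | h4
  · rw [h4]
    exact ssm_f4_t4_mem_K h2
  · rw [h4]
    exact sub_mem (neg_mem h16) (ssm_f4_t4_mem_K h2)

end Series

section Field

variable (L : Type*) [Field L] (N : ℕ) [NeZero N]

/-- `τ₀` maps `E` into `E`. -/
theorem m59tt_tau0_mem_E (h2 : (2 : L) ≠ 0) {x : LaurentSeries L} (hx : x ∈ lg_E L N) :
    m59tt_tau0 L x ∈ lg_E L N := by
  have hmap : (lg_E L N).map (m59tt_tau0Alg L) ≤ lg_E L N := by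
    rw [lg_E, IntermediateField.map_sup]
    refine sup_le ?_ ?_
    · refine le_trans ?_ (lg_F2_le_E L N)
      rintro _ ⟨y, hy, rfl⟩
      obtain ⟨z, hz, rfl⟩ := hy
      have : m59tt_tau0Alg L (lg_phi L z) = lg_phi L z := m59tt_tau0_expand_two L z
      show m59tt_tau0Alg L (lg_phi L z) ∈ lg_F2 L N
      rw [this]
      exact ⟨z, hz, rfl⟩
    · refine le_trans ?_ (lg_K_le_E L N)
      rw [lg_K, IntermediateField.adjoin_map, IntermediateField.adjoin_le_iff]
      rintro _ ⟨y, hy, rfl⟩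
      rw [Set.mem_singleton_iff] at hy
      subst hy
      exact m59tt_tau0_lam_mem h2
  exact hmap ⟨x, hx, rfl⟩

/-- **the deck involution of `E = φ(F_N)(λ)`**. -/
def m59tt_tau (h2 : (2 : L) ≠ 0) : lg_E L N ≃ₐ[L] lg_E L N :=
  AlgEquiv.ofAlgHom
    (((m59tt_tau0Alg L).comp (lg_E L N).val).codRestrict (lg_E L N).toSubalgebra
      (fun x => m59tt_tau0_mem_E L N h2 x.2))
    (((m59tt_tau0Alg L).comp (lg_E L N).val).codRestrict (lg_E L N).toSubalgebra
      (fun x => m59tt_tau0_mem_E L N h2 x.2))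
    (AlgHom.ext fun x => Subtype.ext (m59tt_tau0_tau0 L (x : LaurentSeries L)))
    (AlgHom.ext fun x => Subtype.ext (m59tt_tau0_tau0 L (x : LaurentSeries L)))

variable {L N}

theorem m59tt_tau_coe (h2 : (2 : L) ≠ 0) (x : lg_E L N) :
    ((m59tt_tau L N h2 x : lg_E L N) : LaurentSeries L) = m59tt_tau0 L (x : LaurentSeries L) :=
  rfl

theorem m59tt_tau_tau (h2 : (2 : L) ≠ 0) (x : lg_E L N) :
    m59tt_tau L N h2 (m59tt_tau L N h2 x) = x :=
  Subtype.ext (m59tt_tau0_tau0 L (x : LaurentSeries L))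

theorem m59tt_tau_symm (h2 : (2 : L) ≠ 0) : (m59tt_tau L N h2).symm = m59tt_tau L N h2 := by
  refine AlgEquiv.ext fun x => ?_
  rw [AlgEquiv.symm_apply_eq, m59tt_tau_tau]

/-- `τ` fixes `φ(F_N)` pointwise. -/
theorem m59tt_tau_phiE (h2 : (2 : L) ≠ 0) (x : lg_F L N) :
    m59tt_tau L N h2 (lg_phiE (L := L) (N := N) x) = lg_phiE (L := L) (N := N) x :=
  Subtype.ext (m59tt_tau0_expand_two L (x : LaurentSeries L))

/-- `τ λ ≠ λ` (`2 ≠ 0`, so `16 ≠ -16`). -/
theorem m59tt_tau_lam_ne (h2 : (2 : L) ≠ 0) :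
    m59tt_tau L N h2 (lg_lamE N) ≠ lg_lamE N := by
  intro h
  have h1 := congrArg (fun z : lg_E L N => (z : LaurentSeries L).coeff 1) h
  simp only [m59tt_tau_coe] at h1
  rw [m59tt_tau0_coeff] at h1
  have h3 : ((lg_lamE N : lg_E L N) : LaurentSeries L).coeff 1 = 16 := hm_lam_coeff_one L
  rw [h3, zpow_one, Units.val_neg, Units.val_one, neg_one_mul] at h1
  have h4 : (32 : L) = 0 := by
    have : (16 : L) + 16 = 0 := by
      nth_rewrite 1 [← h1]
      ring
    rw [← this]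
    norm_num
  have h5 : (32 : L) = 2 ^ 5 := by norm_num
  rw [h5] at h4
  exact h2 (pow_eq_zero_iff (by norm_num) |>.1 h4)

end Field

end Fermat.Agent.M59

end
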