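/-
M59 / Sink B, leaf 3 [TOR-SURJ], cell [TAU-INV], part (3) [TAU-VAL] (helper4; prefix `m59tv_`; file TauGauss.lean):
THE DECK INVOLUTION `τ = (q ↦ -q)` OF THE LEGENDRE COVER PRESERVES THE TWO GAUSS VALUATIONS.

`E = lg_E L (N' q)`, `τ = m59tt_tau L (N' q) h2` (helper24, `TauDef.lean`), `W = ssm_gl_W` the
Atkin–Lehner involution, `V₁ = ssm_gl_V1` (Gauss), `V₂ = ssm_gl_V2 = W⁻¹ V₁`.

* `m59tv_tau_mem_gauss` / `m59tv_tau_mem_V1` : `τ z ∈ V₁ ↔ z ∈ V₁` (coefficientwise, `-1` is a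
  unit of `O`), with the `comap` and `nonunits` forms;
* `m59tv_tau_W` : `τ (W z) = W (τ z)` (`q` odd, `E = E' ⊔ β_q E'`);
* `m59tv_tau_mem_V2` : `τ z ∈ V₂ ↔ z ∈ V₂`, with the `comap` and `nonunits` forms.
-/
import Mathlib
import Fermat.Agent.M59.SinkB.Tor.TauDef
import Fermat.Agent.SS.Model.TwoPrimesLeg
import Fermat.Agent.M59.SinkB.Eis.Gauss

set_option autoImplicit false
set_option linter.unusedSectionVars false
set_option linter.unusedVariables false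
set_option linter.style.haveILetI false

noncomputable section

namespace Fermat.Agent.M59

open ModularCurve IntermediateField IsLocalRing
open Fermat.Agent.S28 Fermat.Agent.JT3 Fermat.Agent.SS

/-! ### generic lemmas -/

section Generic

/-- membership in the non-units of a valuation subring in terms of membership only. -/
theorem m59tv_mem_nonunits_iff {K : Type*} [Field K] (A : ValuationSubring K) (a : K) :
    a ∈ A.nonunits ↔ a = 0 ∨ a⁻¹ ∉ A := by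
  rw [ValuationSubring.mem_nonunits_iff]
  by_cases ha : a = 0
  · subst ha
    simp
  · rw [← ValuationSubring.valuation_le_one_iff, map_inv₀]
    have hv : A.valuation a ≠ 0 := (Valuation.ne_zero_iff _).2 ha
    constructor
    · intro h
      refine Or.inr ?_
      rw [not_le]
      exact (one_lt_inv₀ (zero_lt_iff.2 hv)).2 h
    · rintro (h | h)
      · exact absurd h ha
      · rw [not_le] at h
        exact (one_lt_inv₀ (zero_lt_iff.2 hv)).1 h

/-- a field automorphism preserving membership in a valuation subring preserves its non-units. -/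
theorem m59tv_nonunits_of_mem {K : Type*} [Field K] (A : ValuationSubring K) (σ : K ≃+* K)
    (h : ∀ z, σ z ∈ A ↔ z ∈ A) (z : K) : σ z ∈ A.nonunits ↔ z ∈ A.nonunits := by
  rw [m59tv_mem_nonunits_iff, m59tv_mem_nonunits_iff, ← map_inv₀, h, map_eq_zero_iff σ σ.injective]

/-- a field automorphism preserving membership in a valuation subring: `comap` form. -/
theorem m59tv_comap_of_mem {K : Type*} [Field K] (A : ValuationSubring K) (σ : K ≃+* K)
    (h : ∀ z, σ z ∈ A ↔ z ∈ A) : A.comap (σ : K →+* K) = A :=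
  ValuationSubring.ext _ _ fun z => by
    rw [ValuationSubring.mem_comap]
    exact h z

end Generic

/-! ### `τ₀` on series -/

section Series

variable {L : Type*} [Field L]

/-- `τ₀ = (q ↦ -q)` commutes with `q ↦ q^ℓ` for `ℓ` odd. -/
theorem m59tv_tau0_qExpand (ℓ : ℕ) [NeZero ℓ] (hℓ2 : ¬ 2 ∣ ℓ) (x : LaurentSeries L) :
    m59tt_tau0 L (qExpand L ℓ x) = qExpand L ℓ (m59tt_tau0 L x) := by
  have hodd : Odd ℓ := Nat.odd_iff.2 (by omega)
  have h1 : ((-1 : Lˣ)) ^ ℓ = -1 := hodd.neg_one_pow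
  unfold m59tt_tau0
  rw [← fs_qExpand_twist, h1]

/-- `τ₀` preserves Gauss-boundedness (`-1` is a unit of `O`). -/
theorem m59tv_isBdd_tau0 (O : ValuationSubring L) {z : LaurentSeries L}
    (h : gq_IsBdd ↥O L z) : gq_IsBdd ↥O L (m59tt_tau0 L z) := by
  have h1 := m59ei_isBdd_twist (O := ↥O) (K := L) (-1 : (↥O)ˣ) h
  have e : Units.map ((algebraMap ↥O L : ↥O →+* L) : ↥O →* L) (-1 : (↥O)ˣ) = -1 := by
    ext
    simp
  rw [e] at h1
  exact h1

theorem m59tv_isBdd_tau0_iff (O : ValuationSubring L) (z : LaurentSeries L) :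
    gq_IsBdd ↥O L (m59tt_tau0 L z) ↔ gq_IsBdd ↥O L z := by
  constructor
  · intro h
    have := m59tv_isBdd_tau0 O h
    rwa [m59tt_tau0_tau0] at this
  · exact m59tv_isBdd_tau0 O

end Series

/-! ### `τ` and the Gauss valuation -/

section Gauss

variable {L : Type*} [Field L] (O : ValuationSubring L) [IsDiscreteValuationRing O] {π : O}
  (hπ : Irreducible π) (N : ℕ) [NeZero N]

/-- **`τ` preserves the Gauss valuation subring of `E = lg_E L N`** (any level). -/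
theorem m59tv_tau_mem_gauss (h2 : (2 : L) ≠ 0) (hE : lg_E L N ≤ gq_quotField ↥O L)
    (z : lg_E L N) :
    m59tt_tau L N h2 z ∈ gq_valSubOf π hπ.ne_zero hπ.maximalIdeal_eq (lg_E L N) hE ↔
      z ∈ gq_valSubOf π hπ.ne_zero hπ.maximalIdeal_eq (lg_E L N) hE := by
  rw [gq_mem_valSubOf, gq_mem_valSubOf, m59tt_tau_coe]
  exact m59tv_isBdd_tau0_iff O _

end Gauss

/-! ### the Legendre tower `E' ≤ E = lg_E L (N' q)` -/

section Tower

variable {L : Type*} [Field L] [CharZero L] [Algebra L (AlgebraicClosure ℚ)]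
  (O : ValuationSubring L) [IsDiscreteValuationRing O] {π : O} (hπ : Irreducible π)
variable (N' q : ℕ) [NeZero N'] [NeZero q] [hq : Fact q.Prime]
  (hq2 : ¬ 2 ∣ q) (hqN' : ¬ q ∣ N') (h2 : (2 : L) ≠ 0)

/-- (V1) `τ z ∈ V₁ ↔ z ∈ V₁`. -/
theorem m59tv_tau_mem_V1 (z : lg_E L (N' * q)) :
    m59tt_tau L (N' * q) h2 z ∈ ssm_gl_V1 O hπ N' q ↔ z ∈ ssm_gl_V1 O hπ N' q :=
  m59tv_tau_mem_gauss O hπ (N' * q) h2 _ z

/-- (V1), `comap` form. -/
theorem m59tv_tau_comap_V1 :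
    (ssm_gl_V1 O hπ N' q).comap
        ((m59tt_tau L (N' * q) h2).toRingEquiv : lg_E L (N' * q) →+* lg_E L (N' * q)) =
      ssm_gl_V1 O hπ N' q :=
  m59tv_comap_of_mem _ (m59tt_tau L (N' * q) h2).toRingEquiv (m59tv_tau_mem_V1 O hπ N' q h2)

/-- (V1), non-units form. -/
theorem m59tv_tau_mem_nonunits_V1 (z : lg_E L (N' * q)) :
    m59tt_tau L (N' * q) h2 z ∈ (ssm_gl_V1 O hπ N' q).nonunits ↔
      z ∈ (ssm_gl_V1 O hπ N' q).nonunits :=
  m59tv_nonunits_of_mem _ (m59tt_tau L (N' * q) h2).toRingEquiv (m59tv_tau_mem_V1 O hπ N' q h2) z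

/-- the locus where `τ W = W τ`, as an intermediate field of `E / L`. -/
def m59tv_eqLocus : IntermediateField L (lg_E L (N' * q)) :=
  Subfield.toIntermediateField
    (RingHom.eqLocusField
      (((m59tt_tau L (N' * q) h2).toRingEquiv : lg_E L (N' * q) →+* lg_E L (N' * q)).comp
        (ssm_gl_W L N' q hq2 hqN' : lg_E L (N' * q) →+* lg_E L (N' * q)))
      ((ssm_gl_W L N' q hq2 hqN' : lg_E L (N' * q) →+* lg_E L (N' * q)).comp
        ((m59tt_tau L (N' * q) h2).toRingEquiv : lg_E L (N' * q) →+* lg_E L (N' * q))))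
    (fun c => by
      show m59tt_tau L (N' * q) h2 (ssm_al_WE L N' q hq.out hq2 hqN' (algebraMap L _ c)) =
        ssm_al_WE L N' q hq.out hq2 hqN' (m59tt_tau L (N' * q) h2 (algebraMap L _ c))
      rw [AlgEquiv.commutes, AlgEquiv.commutes, AlgEquiv.commutes])

theorem m59tv_mem_eqLocus (z : lg_E L (N' * q)) :
    z ∈ m59tv_eqLocus N' q hq2 hqN' h2 ↔
      m59tt_tau L (N' * q) h2 (ssm_gl_W L N' q hq2 hqN' z) =
        ssm_gl_W L N' q hq2 hqN' (m59tt_tau L (N' * q) h2 z) := Iff.rfl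

/-- `τ W = W τ` on `E' = lg_E L N'`. -/
theorem m59tv_comm_of_mem {x : LaurentSeries L} (hx : x ∈ lg_E L N')
    (h : x ∈ lg_E L (N' * q)) :
    m59tt_tau L (N' * q) h2 (ssm_gl_W L N' q hq2 hqN' ⟨x, h⟩) =
      ssm_gl_W L N' q hq2 hqN' (m59tt_tau L (N' * q) h2 ⟨x, h⟩) := by
  apply Subtype.ext
  have hτ : m59tt_tau0 L x ∈ lg_E L N' := m59tt_tau0_mem_E L N' h2 hx
  have e : m59tt_tau L (N' * q) h2 ⟨x, h⟩ =
      ⟨m59tt_tau0 L x, ssm_al_E_le L N' q hτ⟩ := rfl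
  rw [m59tt_tau_coe, ssm_gl_W_apply, ssm_gl_W_apply,
    ssm_al_coe_WE_of_mem L N' q hq.out hq2 hqN' hx h, e,
    ssm_al_coe_WE_of_mem L N' q hq.out hq2 hqN' hτ, m59tv_tau0_qExpand q hq2]

/-- `τ W = W τ` on `β_q E'`. -/
theorem m59tv_comm_expand_of_mem {x : LaurentSeries L} (hx : x ∈ lg_E L N')
    (h : qExpand L q x ∈ lg_E L (N' * q)) :
    m59tt_tau L (N' * q) h2 (ssm_gl_W L N' q hq2 hqN' ⟨qExpand L q x, h⟩) =
      ssm_gl_W L N' q hq2 hqN' (m59tt_tau L (N' * q) h2 ⟨qExpand L q x, h⟩) := by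
  apply Subtype.ext
  have hτ : m59tt_tau0 L x ∈ lg_E L N' := m59tt_tau0_mem_E L N' h2 hx
  have hτ' : qExpand L q (m59tt_tau0 L x) ∈ lg_E L (N' * q) :=
    ssm_al_E_beta_le L N' q hq2 ⟨m59tt_tau0 L x, hτ, rfl⟩
  have e : m59tt_tau L (N' * q) h2 ⟨qExpand L q x, h⟩ =
      ⟨qExpand L q (m59tt_tau0 L x), hτ'⟩ := Subtype.ext (m59tv_tau0_qExpand q hq2 x)
  rw [m59tt_tau_coe, ssm_gl_W_apply, ssm_gl_W_apply,
    ssm_al_coe_WE_expand_of_mem L N' q hq.out hq2 hqN' hx h, e,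
    ssm_al_coe_WE_expand_of_mem L N' q hq.out hq2 hqN' hτ]

/-- (C) **`τ` commutes with the Atkin–Lehner involution `W`** (`q` odd). -/
theorem m59tv_tau_W (z : lg_E L (N' * q)) :
    m59tt_tau L (N' * q) h2 (ssm_gl_W L N' q hq2 hqN' z) =
      ssm_gl_W L N' q hq2 hqN' (m59tt_tau L (N' * q) h2 z) := by
  rw [← m59tv_mem_eqLocus]
  have hle : lg_E L (N' * q) ≤
      (m59tv_eqLocus N' q hq2 hqN' h2).map (lg_E L (N' * q)).val := by
    conv_lhs => rw [ssm_f4_E_eq_sup L N' q hq.out hq2]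
    refine sup_le ?_ ?_
    · intro x hx
      have h : x ∈ lg_E L (N' * q) := ssm_al_E_le L N' q hx
      exact ⟨⟨x, h⟩, m59tv_comm_of_mem N' q hq2 hqN' h2 hx h, rfl⟩
    · rintro _ ⟨x, hx, rfl⟩
      have h : qExpand L q x ∈ lg_E L (N' * q) := ssm_al_E_beta_le L N' q hq2 ⟨x, hx, rfl⟩
      exact ⟨⟨qExpand L q x, h⟩, m59tv_comm_expand_of_mem N' q hq2 hqN' h2 hx h, rfl⟩
  obtain ⟨y, hy, hyz⟩ := hle z.2
  have : y = z := Subtype.ext hyz
  rw [← this]
  exact hy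

/-- (V2) `τ z ∈ V₂ ↔ z ∈ V₂`. -/
theorem m59tv_tau_mem_V2 (z : lg_E L (N' * q)) :
    m59tt_tau L (N' * q) h2 z ∈ ssm_gl_V2 O hπ N' q hq2 hqN' ↔
      z ∈ ssm_gl_V2 O hπ N' q hq2 hqN' := by
  rw [ValuationSubring.mem_comap, ValuationSubring.mem_comap]
  show ssm_gl_W L N' q hq2 hqN' (m59tt_tau L (N' * q) h2 z) ∈ ssm_gl_V1 O hπ N' q ↔
    ssm_gl_W L N' q hq2 hqN' z ∈ ssm_gl_V1 O hπ N' q
  rw [← m59tv_tau_W, m59tv_tau_mem_V1]

/-- (V2), `comap` form. -/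
theorem m59tv_tau_comap_V2 :
    (ssm_gl_V2 O hπ N' q hq2 hqN').comap
        ((m59tt_tau L (N' * q) h2).toRingEquiv : lg_E L (N' * q) →+* lg_E L (N' * q)) =
      ssm_gl_V2 O hπ N' q hq2 hqN' :=
  m59tv_comap_of_mem _ (m59tt_tau L (N' * q) h2).toRingEquiv
    (m59tv_tau_mem_V2 O hπ N' q hq2 hqN' h2)

/-- (V2), non-units form. -/
theorem m59tv_tau_mem_nonunits_V2 (z : lg_E L (N' * q)) :
    m59tt_tau L (N' * q) h2 z ∈ (ssm_gl_V2 O hπ N' q hq2 hqN').nonunits ↔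
      z ∈ (ssm_gl_V2 O hπ N' q hq2 hqN').nonunits :=
  m59tv_nonunits_of_mem _ (m59tt_tau L (N' * q) h2).toRingEquiv
    (m59tv_tau_mem_V2 O hπ N' q hq2 hqN' h2) z

end Tower

end Fermat.Agent.M59

end
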