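/-
M59 / Sink B, leaf 3 [TOR-SURJ], cell [TAU-INV2], valuation part (helper4; prefix `m59tv2_`):
THE DECK INVOLUTION `τ = (q ↦ -q)` AT THE TRIPLE LEVEL `N' q q` PRESERVES `VA`, `VB`, `VC`.

`E₂ = lg_E L (N' q q)`, `τ₂ = m59tt_tau L (N' q q) h2`, `W₂ = s36i_W2` the Atkin–Lehner involution
`W_{q²}`, `VA = s36i_VA` (Gauss), `VB = s36i_VB = W₂⁻¹ VA`, `VC` the third valuation
(`s36asm_Third`).

* `m59tv2_tau_mem_VA` : `τ₂ z ∈ VA ↔ z ∈ VA`;
* `m59tv2_tau_W2` : `τ₂ (W₂ z) = W₂ (τ₂ z)` (`E₂ = E₁ ⊔ β_q E₁`, `W₂ y = (W₁ y)(X^q)`,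
  `W₂ (y(X^q)) = W₁ y`, and `τ₁ W₁ = W₁ τ₁` from `TauGauss.lean`);
* `m59tv2_tau_mem_VB` : `τ₂ z ∈ VB ↔ z ∈ VB`;
* `m59tv2_tau_mem_VC` : `τ₂ z ∈ VC ↔ z ∈ VC` (`VC.comap τ₂` lies over `V₁(N' q)`, so it is `VA` or
  `VC` by `s36t3_Third.only`, and it is not `VA = τ₂ VA`);
each with its `comap` and `nonunits` forms.
-/
import Mathlib
import Fermat.Agent.M59.SinkB.Tor.TauGauss
import Fermat.Agent.S36.Model.AsmLegFinal

set_option autoImplicit false
set_option linter.unusedSectionVars false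
set_option linter.unusedVariables false
set_option linter.style.haveILetI false

noncomputable section

namespace Fermat.Agent.M59

open ModularCurve IntermediateField IsLocalRing
open Fermat.Agent.S28 Fermat.Agent.JT3 Fermat.Agent.SS Fermat.Agent.S36

section Tower2

variable {L : Type*} [Field L] [CharZero L] [Algebra L (AlgebraicClosure ℚ)]
  (O : ValuationSubring L) [IsDiscreteValuationRing O] {π : O} (hπ : Irreducible π)
variable (N' q : ℕ) [NeZero N'] [NeZero q] [hq : Fact q.Prime]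
  (hq2 : ¬ 2 ∣ q) (hqN' : ¬ q ∣ N') (h2 : (2 : L) ≠ 0)

/-- (VA) `τ₂ z ∈ VA ↔ z ∈ VA`. -/
theorem m59tv2_tau_mem_VA (z : lg_E L (N' * q * q)) :
    m59tt_tau L (N' * q * q) h2 z ∈ s36i_VA O hπ (N' * q) q ↔ z ∈ s36i_VA O hπ (N' * q) q :=
  m59tv_tau_mem_gauss O hπ (N' * q * q) h2 _ z

/-- (VA), `comap` form. -/
theorem m59tv2_tau_comap_VA :
    (s36i_VA O hπ (N' * q) q).comap
        ((m59tt_tau L (N' * q * q) h2).toRingEquiv :
          lg_E L (N' * q * q) →+* lg_E L (N' * q * q)) =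
      s36i_VA O hπ (N' * q) q :=
  m59tv_comap_of_mem _ (m59tt_tau L (N' * q * q) h2).toRingEquiv
    (m59tv2_tau_mem_VA O hπ N' q h2)

/-- (VA), non-units form. -/
theorem m59tv2_tau_mem_nonunits_VA (z : lg_E L (N' * q * q)) :
    m59tt_tau L (N' * q * q) h2 z ∈ (s36i_VA O hπ (N' * q) q).nonunits ↔
      z ∈ (s36i_VA O hπ (N' * q) q).nonunits :=
  m59tv_nonunits_of_mem _ (m59tt_tau L (N' * q * q) h2).toRingEquiv
    (m59tv2_tau_mem_VA O hπ N' q h2) z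

/-- `τ₂` restricts to `τ₁` on `E₁ = lg_E L (N' q)`. -/
theorem m59tv2_tau_incl (y : lg_E L (N' * q)) (h : (y : LaurentSeries L) ∈ lg_E L (N' * q * q)) :
    m59tt_tau L (N' * q * q) h2 ⟨(y : LaurentSeries L), h⟩ =
      ⟨((m59tt_tau L (N' * q) h2 y : lg_E L (N' * q)) : LaurentSeries L),
        ssm_al_E_le L (N' * q) q (Subtype.mem _)⟩ := rfl

/-- the locus where `τ₂ W₂ = W₂ τ₂`, as an intermediate field of `E₂ / L`. -/
def m59tv2_eqLocus : IntermediateField L (lg_E L (N' * q * q)) :=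
  Subfield.toIntermediateField
    (RingHom.eqLocusField
      (((m59tt_tau L (N' * q * q) h2).toRingEquiv :
          lg_E L (N' * q * q) →+* lg_E L (N' * q * q)).comp
        (s36i_W2 L N' q hq2 hqN' : lg_E L (N' * q * q) →+* lg_E L (N' * q * q)))
      ((s36i_W2 L N' q hq2 hqN' : lg_E L (N' * q * q) →+* lg_E L (N' * q * q)).comp
        ((m59tt_tau L (N' * q * q) h2).toRingEquiv :
          lg_E L (N' * q * q) →+* lg_E L (N' * q * q))))
    (fun c => by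
      show m59tt_tau L (N' * q * q) h2 (s36w_WE L N' q hq.out hq2 hqN' (algebraMap L _ c)) =
        s36w_WE L N' q hq.out hq2 hqN' (m59tt_tau L (N' * q * q) h2 (algebraMap L _ c))
      rw [AlgEquiv.commutes, AlgEquiv.commutes, AlgEquiv.commutes])

theorem m59tv2_mem_eqLocus (z : lg_E L (N' * q * q)) :
    z ∈ m59tv2_eqLocus N' q hq2 hqN' h2 ↔
      m59tt_tau L (N' * q * q) h2 (s36i_W2 L N' q hq2 hqN' z) =
        s36i_W2 L N' q hq2 hqN' (m59tt_tau L (N' * q * q) h2 z) := Iff.rfl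

/-- `τ₂ W₂ = W₂ τ₂` on `E₁ = lg_E L (N' q)`. -/
theorem m59tv2_comm_alpha (y : lg_E L (N' * q))
    (h : (y : LaurentSeries L) ∈ lg_E L (N' * q * q)) :
    m59tt_tau L (N' * q * q) h2 (s36i_W2 L N' q hq2 hqN' ⟨(y : LaurentSeries L), h⟩) =
      s36i_W2 L N' q hq2 hqN' (m59tt_tau L (N' * q * q) h2 ⟨(y : LaurentSeries L), h⟩) := by
  apply Subtype.ext
  rw [m59tv2_tau_incl, m59tt_tau_coe]
  show m59tt_tau0 L ((s36w_WE L N' q hq.out hq2 hqN' ⟨(y : LaurentSeries L), h⟩ :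
      lg_E L (N' * q * q)) : LaurentSeries L) =
    ((s36w_WE L N' q hq.out hq2 hqN' ⟨((m59tt_tau L (N' * q) h2 y : lg_E L (N' * q)) :
      LaurentSeries L), _⟩ : lg_E L (N' * q * q)) : LaurentSeries L)
  rw [s36w_coe_WE_alpha L N' q hq.out hq2 hqN' y h,
    s36w_coe_WE_alpha L N' q hq.out hq2 hqN' (m59tt_tau L (N' * q) h2 y),
    m59tv_tau0_qExpand q hq2, ← m59tt_tau_coe h2]
  congr 2
  exact m59tv_tau_W N' q hq2 hqN' h2 y

/-- `τ₂ W₂ = W₂ τ₂` on `β_q E₁`. -/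
theorem m59tv2_comm_beta (y : lg_E L (N' * q))
    (h : qExpand L q (y : LaurentSeries L) ∈ lg_E L (N' * q * q)) :
    m59tt_tau L (N' * q * q) h2
        (s36i_W2 L N' q hq2 hqN' ⟨qExpand L q (y : LaurentSeries L), h⟩) =
      s36i_W2 L N' q hq2 hqN'
        (m59tt_tau L (N' * q * q) h2 ⟨qExpand L q (y : LaurentSeries L), h⟩) := by
  apply Subtype.ext
  have hτ' : qExpand L q ((m59tt_tau L (N' * q) h2 y : lg_E L (N' * q)) : LaurentSeries L) ∈
      lg_E L (N' * q * q) :=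
    ssm_al_E_beta_le L (N' * q) q hq2 ⟨_, Subtype.mem _, rfl⟩
  have e : m59tt_tau L (N' * q * q) h2 ⟨qExpand L q (y : LaurentSeries L), h⟩ =
      ⟨qExpand L q ((m59tt_tau L (N' * q) h2 y : lg_E L (N' * q)) : LaurentSeries L), hτ'⟩ :=
    Subtype.ext (m59tv_tau0_qExpand q hq2 (y : LaurentSeries L))
  rw [e, m59tt_tau_coe]
  show m59tt_tau0 L ((s36w_WE L N' q hq.out hq2 hqN' ⟨qExpand L q (y : LaurentSeries L), h⟩ :
      lg_E L (N' * q * q)) : LaurentSeries L) =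
    ((s36w_WE L N' q hq.out hq2 hqN' ⟨qExpand L q ((m59tt_tau L (N' * q) h2 y :
      lg_E L (N' * q)) : LaurentSeries L), hτ'⟩ : lg_E L (N' * q * q)) : LaurentSeries L)
  rw [s36w_coe_WE_beta L N' q hq.out hq2 hqN' y h,
    s36w_coe_WE_beta L N' q hq.out hq2 hqN' (m59tt_tau L (N' * q) h2 y) hτ',
    ← m59tt_tau_coe h2]
  congr 1
  exact m59tv_tau_W N' q hq2 hqN' h2 y

/-- (C2) **`τ₂` commutes with the Atkin–Lehner involution `W₂ = W_{q²}`** (`q` odd). -/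
theorem m59tv2_tau_W2 (z : lg_E L (N' * q * q)) :
    m59tt_tau L (N' * q * q) h2 (s36i_W2 L N' q hq2 hqN' z) =
      s36i_W2 L N' q hq2 hqN' (m59tt_tau L (N' * q * q) h2 z) := by
  rw [← m59tv2_mem_eqLocus]
  have hle : lg_E L (N' * q * q) ≤
      (m59tv2_eqLocus N' q hq2 hqN' h2).map (lg_E L (N' * q * q)).val := by
    conv_lhs => rw [ssm_f4_E_eq_sup L (N' * q) q hq.out hq2]
    refine sup_le ?_ ?_
    · intro x hx
      have h : x ∈ lg_E L (N' * q * q) := ssm_al_E_le L (N' * q) q hx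
      exact ⟨⟨x, h⟩, m59tv2_comm_alpha N' q hq2 hqN' h2 ⟨x, hx⟩ h, rfl⟩
    · rintro _ ⟨x, hx, rfl⟩
      have h : qExpand L q x ∈ lg_E L (N' * q * q) :=
        ssm_al_E_beta_le L (N' * q) q hq2 ⟨x, hx, rfl⟩
      exact ⟨⟨qExpand L q x, h⟩, m59tv2_comm_beta N' q hq2 hqN' h2 ⟨x, hx⟩ h, rfl⟩
  obtain ⟨y, hy, hyz⟩ := hle z.2
  have : y = z := Subtype.ext hyz
  rw [← this]
  exact hy

/-- (VB) `τ₂ z ∈ VB ↔ z ∈ VB`. -/
theorem m59tv2_tau_mem_VB (z : lg_E L (N' * q * q)) :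
    m59tt_tau L (N' * q * q) h2 z ∈ s36i_VB O hπ N' q hq2 hqN' ↔
      z ∈ s36i_VB O hπ N' q hq2 hqN' := by
  rw [ValuationSubring.mem_comap, ValuationSubring.mem_comap]
  show s36i_W2 L N' q hq2 hqN' (m59tt_tau L (N' * q * q) h2 z) ∈ s36i_VA O hπ (N' * q) q ↔
    s36i_W2 L N' q hq2 hqN' z ∈ s36i_VA O hπ (N' * q) q
  rw [← m59tv2_tau_W2, m59tv2_tau_mem_VA]

/-- (VB), `comap` form. -/
theorem m59tv2_tau_comap_VB :
    (s36i_VB O hπ N' q hq2 hqN').comap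
        ((m59tt_tau L (N' * q * q) h2).toRingEquiv :
          lg_E L (N' * q * q) →+* lg_E L (N' * q * q)) =
      s36i_VB O hπ N' q hq2 hqN' :=
  m59tv_comap_of_mem _ (m59tt_tau L (N' * q * q) h2).toRingEquiv
    (m59tv2_tau_mem_VB O hπ N' q hq2 hqN' h2)

/-- (VB), non-units form. -/
theorem m59tv2_tau_mem_nonunits_VB (z : lg_E L (N' * q * q)) :
    m59tt_tau L (N' * q * q) h2 z ∈ (s36i_VB O hπ N' q hq2 hqN').nonunits ↔
      z ∈ (s36i_VB O hπ N' q hq2 hqN').nonunits :=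
  m59tv_nonunits_of_mem _ (m59tt_tau L (N' * q * q) h2).toRingEquiv
    (m59tv2_tau_mem_VB O hπ N' q hq2 hqN' h2) z

/-- (VC) `VC.comap τ₂ = VC` for the third valuation. -/
theorem m59tv2_tau_comap_VC {VC : ValuationSubring ↥(lg_E L (N' * q * q))}
    (T3 : s36asm_Third O hπ N' q hq2 hqN' VC) :
    VC.comap ((m59tt_tau L (N' * q * q) h2).toRingEquiv :
        lg_E L (N' * q * q) →+* lg_E L (N' * q * q)) = VC := by
  letI := ssm_gi_algebra (ssm_al_E_le L (N' * q) q)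
  letI := ssm_gi_algebraV (ssm_al_E_le L (N' * q) q) (ssm_gl_V1 O hπ N' q)
  haveI := ssm_gi_isScalarTower (ssm_al_E_le L (N' * q) q) (ssm_gl_V1 O hπ N' q)
  have T : s36t3_Third ↥(lg_E L (N' * q)) ↥(ssm_gl_V1 O hπ N' q) q (s36at_leg_piF O hπ N' q)
      (s36asm_z (L := L) N' q hq2 hqN') (s36i_VA O hπ (N' * q) q) VC := T3
  -- `VC.comap τ₂` lies over `V₁(N' q)`
  have hover : ssm_tw_Over ↥(lg_E L (N' * q)) ↥(ssm_gl_V1 O hπ N' q)
      (VC.comap ((m59tt_tau L (N' * q * q) h2).toRingEquiv :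
        lg_E L (N' * q * q) →+* lg_E L (N' * q * q))) := by
    intro y
    rw [ssm_gi_mem_range, ValuationSubring.mem_comap]
    have e : ((m59tt_tau L (N' * q * q) h2).toRingEquiv :
        lg_E L (N' * q * q) →+* lg_E L (N' * q * q))
          (algebraMap ↥(lg_E L (N' * q)) ↥(lg_E L (N' * q * q)) y) =
        algebraMap ↥(lg_E L (N' * q)) ↥(lg_E L (N' * q * q)) (m59tt_tau L (N' * q) h2 y) :=
      Subtype.ext ((m59tt_tau_coe h2 _).trans
        ((congrArg (m59tt_tau0 L) (ssm_gi_coe_algebraMap (ssm_al_E_le L (N' * q) q) y)).trans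
          ((m59tt_tau_coe h2 y).symm.trans
            (ssm_gi_coe_algebraMap (ssm_al_E_le L (N' * q) q) (m59tt_tau L (N' * q) h2 y)).symm)))
    rw [e, T.overC (m59tt_tau L (N' * q) h2 y), ssm_gi_mem_range]
    exact m59tv_tau_mem_V1 O hπ N' q h2 y
  rcases T.only _ hover with hA | hC
  · exfalso
    apply T.ne
    -- `VC = (VC.comap τ₂).comap τ₂ = VA.comap τ₂ = VA`
    have h1 : (VC.comap ((m59tt_tau L (N' * q * q) h2).toRingEquiv :
        lg_E L (N' * q * q) →+* lg_E L (N' * q * q))).comap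
        ((m59tt_tau L (N' * q * q) h2).toRingEquiv :
          lg_E L (N' * q * q) →+* lg_E L (N' * q * q)) = VC := by
      refine ValuationSubring.ext _ _ fun z => ?_
      rw [ValuationSubring.mem_comap, ValuationSubring.mem_comap]
      have h3 : ((m59tt_tau L (N' * q * q) h2).toRingEquiv :
          lg_E L (N' * q * q) →+* lg_E L (N' * q * q))
          (((m59tt_tau L (N' * q * q) h2).toRingEquiv :
            lg_E L (N' * q * q) →+* lg_E L (N' * q * q)) z) = z :=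
        m59tt_tau_tau h2 z
      rw [h3]
    rw [← h1, hA]
    exact m59tv2_tau_comap_VA O hπ N' q h2
  · exact hC

/-- (VC) `τ₂ z ∈ VC ↔ z ∈ VC`. -/
theorem m59tv2_tau_mem_VC {VC : ValuationSubring ↥(lg_E L (N' * q * q))}
    (T3 : s36asm_Third O hπ N' q hq2 hqN' VC) (z : lg_E L (N' * q * q)) :
    m59tt_tau L (N' * q * q) h2 z ∈ VC ↔ z ∈ VC := by
  have h := m59tv2_tau_comap_VC O hπ N' q hq2 hqN' h2 T3
  have h1 : z ∈ VC.comap ((m59tt_tau L (N' * q * q) h2).toRingEquiv :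
      lg_E L (N' * q * q) →+* lg_E L (N' * q * q)) ↔ z ∈ VC := by rw [h]
  rw [ValuationSubring.mem_comap] at h1
  exact h1

/-- (VC), non-units form. -/
theorem m59tv2_tau_mem_nonunits_VC {VC : ValuationSubring ↥(lg_E L (N' * q * q))}
    (T3 : s36asm_Third O hπ N' q hq2 hqN' VC) (z : lg_E L (N' * q * q)) :
    m59tt_tau L (N' * q * q) h2 z ∈ VC.nonunits ↔ z ∈ VC.nonunits :=
  m59tv_nonunits_of_mem _ (m59tt_tau L (N' * q * q) h2).toRingEquiv
    (m59tv2_tau_mem_VC O hπ N' q hq2 hqN' h2 T3) z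

end Tower2

end Fermat.Agent.M59

end
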