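/-
M59 / Sink B, [TOR-SURJ] BY COUNTING AT EXPONENT `p` (helper15).  Prefix `m59tc_`.

A cheaper cut of [TOR-SURJ] than LEVEL 3 of `SinkB/Frame.lean`: NO Tate modules of toric data, NO
additivity, NO well-definedness of the toric datum, only exponent `p`.

* `m59tc_surj`      : the counting lemma.  `Y ⊆ J₁`, `Tor ⊆ J₂`, `Φ : J₁ → J₁ → J₂`, a finite set `B`
  of data with an injection `B ↪ Y`, RELATIONS `T1 ⊆ J₁ × B`, `T2 ⊆ J₂ × (B × B)` such that every
  `u ∈ Y` has a datum, a datum determines `u ∈ Y`; `T1 u a ∧ T1 v b ⟹ Φ u v ∈ Tor ∧ T2 (Φ u v) (a, b)`;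
  every `z ∈ Tor` has a datum and a datum determines `z ∈ Tor`.  Then `Tor ⊆ Φ (Y × Y)`.
* `m59tc_D1 N' q p A` : the classes `y.1 1`, `y ∈ T_p J₀(N' q)` a compatible system of `I_A`-fixed
  classes killed by both push-forwards (ISSUE 2: the data cells are only asked on `D1`, not on all of
  `m59sb_Y1 … 1`: for `p ∣ q - 1` the latter contains component-group classes, which have no toric
  normal form; the classes of `D1` are infinitely `p`-divisible among such classes, so their image in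
  the component group vanishes).
* `m59tc_exists_inj` : THE GALOIS SIDE (closed): if `2 r + 2 rk T_p J₀(N') ≤ rk T_p J₀(N' q)` then
  `(Fin r → ZMod p)` injects into `m59tc_D1 N' q p A`: unipotent monodromy (`mzf3_unip`), the tame
  generator (`m59tg_tate`), `tj_unram` at level `N'`, and the rank lemma `m59sb_rank_Y`.
* `m59tc_Data`, `m59tc_Data_stmt` : the relational toric data at exponent `p` as ONE structure/seam;
  **`m59tc_torSurjPl_of_data : m59tc_Data_stmt → m59sb_TorSurjPl_stmt`**.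
-/
import Mathlib
import Fermat.Agent.M59.SinkB.WireC
import Fermat.Agent.M59.SinkB.TameGen.Main

set_option autoImplicit false
set_option linter.unusedSectionVars false
set_option linter.unusedVariables false
set_option linter.style.haveILetI false
set_option synthInstance.maxHeartbeats 400000
set_option maxHeartbeats 1000000

noncomputable section

namespace Fermat.Agent.M59

open Fermat.Agent.JT3 Fermat.Agent.S35 Fermat.Agent.MZ ModularCurve Module

local notation "Qb" => AlgebraicClosure ℚ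
local notation "GQ" => (AlgebraicClosure ℚ ≃ₐ[ℚ] AlgebraicClosure ℚ)

/-! ### the counting lemma -/

/-- **counting**: relational data, injective both ways, and `|B| ≤ |Y|` force `Tor ⊆ Φ (Y × Y)`. -/
theorem m59tc_surj {J1 J2 B : Type*} [Finite B] (Y : Set J1) (Tor : Set J2) (Φ : J1 → J1 → J2)
    (T1 : J1 → B → Prop) (T2 : J2 → B × B → Prop)
    (e : B → J1) (he : Function.Injective e) (heY : ∀ b, e b ∈ Y)
    (hex1 : ∀ u ∈ Y, ∃ a, T1 u a)
    (hinj1 : ∀ u ∈ Y, ∀ u' ∈ Y, ∀ a, T1 u a → T1 u' a → u = u')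
    (hpull : ∀ u ∈ Y, ∀ v ∈ Y, ∀ a b, T1 u a → T1 v b → Φ u v ∈ Tor ∧ T2 (Φ u v) (a, b))
    (hex2 : ∀ z ∈ Tor, ∃ c, T2 z c)
    (hinj2 : ∀ z ∈ Tor, ∀ z' ∈ Tor, ∀ c, T2 z c → T2 z' c → z = z') :
    ∀ z ∈ Tor, ∃ u ∈ Y, ∃ v ∈ Y, z = Φ u v := by
  classical
  choose a ha using fun b => hex1 (e b) (heY b)
  have hainj : Function.Injective a := by
    intro b b' hbb'
    apply he
    exact hinj1 _ (heY b) _ (heY b') (a b) (ha b) (hbb' ▸ ha b')
  have hasurj : Function.Surjective a := Finite.surjective_of_injective hainj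
  intro z hz
  obtain ⟨⟨c1, c2⟩, hc⟩ := hex2 z hz
  obtain ⟨b1, rfl⟩ := hasurj c1
  obtain ⟨b2, rfl⟩ := hasurj c2
  obtain ⟨hT, hT2⟩ := hpull _ (heY b1) _ (heY b2) _ _ (ha b1) (ha b2)
  exact ⟨e b1, heY b1, e b2, heY b2, hinj2 z hz _ hT _ hc hT2⟩

/-! ### the Galois side -/

section Galois

variable (N' q p : ℕ) [NeZero N'] [NeZero q] [hp : Fact p.Prime] (A : ValuationSubring Qb)

/-- the first layers of the compatible systems of `I_A`-fixed classes of `p`-power order of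
`J₀(N' q)` killed by both push-forwards to `J₀(N')`. -/
def m59tc_D1 : Set (JZero (N' * q)) :=
  {u | ∃ y : tj_T (N' * q) p, (∀ n, y.1 n ∈ m59sb_Y1 N' q p A n) ∧ y.1 1 = u}

theorem m59tc_D1_subset {u : JZero (N' * q)} (hu : u ∈ m59tc_D1 N' q p A) :
    u ∈ m59sb_Y1 N' q p A 1 := by
  obtain ⟨y, hy, rfl⟩ := hu
  exact hy 1

/-- **the Galois side of the count**: `p ^ r ≤ #D1` as an injection, for every `r` with
`2 r + 2 rk T_p J₀(N') ≤ rk T_p J₀(N' q)`. -/
theorem m59tc_exists_inj (hq : q.Prime) (hqp : q ≠ p) (hqN' : ¬ q ∣ N')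
    (hA : A.LiesOverPrime q) (r : ℕ)
    (hmass : 2 * r + 2 * finrank ℤ_[p] (tj_T N' p) ≤ finrank ℤ_[p] (tj_T (N' * q) p)) :
    ∃ ψ : (Fin r → ZMod p) → JZero (N' * q), Function.Injective ψ ∧
      ∀ c, ψ c ∈ m59tc_D1 N' q p A := by
  classical
  have hqNq : q ∣ N' * q := dvd_mul_left q N'
  have hq2Nq : ¬ q ^ 2 ∣ N' * q := by
    rintro ⟨c, hc⟩
    apply hqN'
    refine ⟨c, ?_⟩
    have : q * N' = q * (q * c) := by rw [mul_comm q N', hc]; ring
    exact Nat.eq_of_mul_eq_mul_left hq.pos this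
  obtain ⟨σ₀, hσ₀, hgen⟩ := m59tg_tate (N' * q) q hq hqNq hq2Nq A hA p (Ne.symm hqp)
  -- the linear maps
  set a : tj_T (N' * q) p →ₗ[ℤ_[p]] tj_T N' p := s35p_P1 N' q p with ha
  set b : tj_T (N' * q) p →ₗ[ℤ_[p]] tj_T N' p := s35p_P2 N' q p with hb
  set Nl : tj_T (N' * q) p →ₗ[ℤ_[p]] tj_T (N' * q) p := tj_rho (N' * q) p σ₀ - 1 with hNl
  have hNl_apply : ∀ x : tj_T (N' * q) p, ∀ n, (Nl x).1 n = σ₀ • x.1 n - x.1 n := by
    intro x n
    rfl
  have hNN : ∀ x, Nl (Nl x) = 0 := by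
    intro x
    refine tm_ext fun n => ?_
    rw [hNl_apply, hNl_apply, tm_zero_apply]
    have h := mzf3_unip (N' * q) q hq hqNq hq2Nq A hA σ₀ hσ₀ p hp.out (Ne.symm hqp) n (x.1 n)
      (tm_tor x n)
    rw [smul_sub, two_nsmul] at *
    rw [← h]
    abel
  have hunr : tj_rho N' p σ₀ = 1 :=
    tj_unram N' p (tji_nodeE N') (tji_S18 N') q hq hqN' hqp A hA σ₀ hσ₀
  have haN : ∀ x, a (Nl x) = 0 := by
    intro x
    rw [hNl, LinearMap.sub_apply, map_sub, ha, s35p_P1_rho, hunr]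
    show s35p_P1 N' q p x - s35p_P1 N' q p x = 0
    exact sub_self _
  have hbN : ∀ x, b (Nl x) = 0 := by
    intro x
    rw [hNl, LinearMap.sub_apply, map_sub, hb, s35p_P2_rho, hunr]
    show s35p_P2 N' q p x - s35p_P2 N' q p x = 0
    exact sub_self _
  set Y : Submodule ℤ_[p] (tj_T (N' * q) p) :=
    LinearMap.ker a ⊓ LinearMap.ker b ⊓ LinearMap.ker Nl with hYdef
  have hY : ∀ y ∈ Y, ∀ n, y.1 n ∈ m59sb_Y1 N' q p A n := by
    intro y hy n
    obtain ⟨⟨hya, hyb⟩, hyN⟩ := hy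
    refine ⟨tm_tor y n, fun σ hσ => ?_, ?_, ?_⟩
    · have h1 : tj_rho (N' * q) p σ₀ y = y := by
        have h2 : Nl y = 0 := hyN
        rw [hNl, LinearMap.sub_apply] at h2
        exact sub_eq_zero.mp h2
      have h3 := hgen y h1 σ hσ
      exact congrArg (fun w : tj_T (N' * q) p => w.1 n) h3
    · have h1 : a y = 0 := hya
      exact congrArg (fun w : tj_T N' p => w.1 n) h1
    · have h1 : b y = 0 := hyb
      exact congrArg (fun w : tj_T N' p => w.1 n) h1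
  -- `Y` is saturated
  have hsat : ∀ w : tj_T (N' * q) p, (p : ℤ_[p]) • w ∈ Y → w ∈ Y := by
    intro w hw
    obtain ⟨⟨hwa, hwb⟩, hwN⟩ := hw
    have hp0 : (p : ℤ_[p]) ≠ 0 := by exact_mod_cast hp.out.ne_zero
    refine ⟨⟨?_, ?_⟩, ?_⟩
    · have h1 : a ((p : ℤ_[p]) • w) = 0 := hwa
      rw [map_smul] at h1
      exact (smul_eq_zero.mp h1).resolve_left hp0
    · have h1 : b ((p : ℤ_[p]) • w) = 0 := hwb
      rw [map_smul] at h1
      exact (smul_eq_zero.mp h1).resolve_left hp0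
    · have h1 : Nl ((p : ℤ_[p]) • w) = 0 := hwN
      rw [map_smul] at h1
      exact (smul_eq_zero.mp h1).resolve_left hp0
  -- the rank of `Y`
  have hrank : finrank ℤ_[p] (tj_T (N' * q) p) ≤
      2 * finrank ℤ_[p] ↥Y + 2 * finrank ℤ_[p] (tj_T N' p) := m59sb_rank_Y a b Nl hNN haN hbN
  have hr : r ≤ finrank ℤ_[p] ↥Y := by omega
  -- a basis of `Y`
  set n := finrank ℤ_[p] ↥Y with hn
  let bY : Basis (Fin n) ℤ_[p] ↥Y := Module.finBasis ℤ_[p] ↥Y
  -- the coefficient vectors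
  let f : (Fin r → ZMod p) → (Fin n → ℤ_[p]) := fun c j =>
    if h : j.1 < r then (((c ⟨j.1, h⟩).val : ℕ) : ℤ_[p]) else 0
  let y : (Fin r → ZMod p) → ↥Y := fun c => bY.equivFun.symm (f c)
  refine ⟨fun c => (y c).1.1 1, ?_, fun c => ⟨(y c).1, hY (y c).1 (y c).2, rfl⟩⟩
  intro c c' hcc'
  -- the difference is divisible by `p` in `Y`
  have hw1 : ((y c - y c' : ↥Y) : tj_T (N' * q) p).1 1 = 0 := by
    show (y c).1.1 1 - (y c').1.1 1 = 0
    exact sub_eq_zero.mpr hcc'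
  obtain ⟨w', hw'⟩ := tm_exists_eq_smul ((y c - y c' : ↥Y) : tj_T (N' * q) p) 1 hw1
  rw [pow_one] at hw'
  have hw'Y : w' ∈ Y := hsat w' (hw' ▸ (y c - y c' : ↥Y).2)
  have hYeq : y c - y c' = (p : ℤ_[p]) • (⟨w', hw'Y⟩ : ↥Y) := Subtype.ext hw'
  have hcoord := congrArg bY.equivFun hYeq
  rw [map_sub, map_smul] at hcoord
  have h1 : bY.equivFun (y c) = f c := bY.equivFun.apply_symm_apply (f c)
  have h2 : bY.equivFun (y c') = f c' := bY.equivFun.apply_symm_apply (f c')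
  rw [h1, h2] at hcoord
  funext i
  have hi := congrFun hcoord (Fin.castLE hr i)
  have hlt : (Fin.castLE hr i).1 < r := i.2
  simp only [Pi.sub_apply, Pi.smul_apply, smul_eq_mul] at hi
  have hfi : f c (Fin.castLE hr i) = (((c i).val : ℕ) : ℤ_[p]) := by
    show (if h : (Fin.castLE hr i).1 < r then (((c ⟨(Fin.castLE hr i).1, h⟩).val : ℕ) : ℤ_[p])
      else 0) = _
    rw [dif_pos hlt]
    rfl
  have hfi' : f c' (Fin.castLE hr i) = (((c' i).val : ℕ) : ℤ_[p]) := by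
    show (if h : (Fin.castLE hr i).1 < r then (((c' ⟨(Fin.castLE hr i).1, h⟩).val : ℕ) : ℤ_[p])
      else 0) = _
    rw [dif_pos hlt]
    rfl
  rw [hfi, hfi'] at hi
  have h3 := congrArg (PadicInt.toZMod (p := p)) hi
  rw [map_sub, map_mul, map_natCast, map_natCast, map_natCast, ZMod.natCast_self, zero_mul,
    ZMod.natCast_zmod_val, ZMod.natCast_zmod_val] at h3
  exact sub_eq_zero.mp h3

end Galois

/-! ### the relational toric data at exponent `p`, and [TOR-SURJ] -/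

section Data

/-- **relational toric data at exponent `p`** at `(N', q, p, A)`: a finite set `B` of data with
`#B ≤ p ^ r`, `2 r + 2 rk T_p J₀(N') ≤ rk T_p J₀(N' q)` (in the application `#B = p ^ (s - 1)`,
`s = #Sg`, and the inequality is the mass formula), and two relations "`a` is a toric datum of `u`"
at the levels `N' q` (on `m59tc_D1`) and `N' q q` (on `Tor 1`, with values in `B × B`). -/
structure m59tc_Data (N' q p : ℕ) [NeZero N'] [NeZero q] [hqF : Fact q.Prime] [NeZero (N' * q)]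
    [NeZero (N' * q * q)] [Fact p.Prime] (A : ValuationSubring Qb) (hq2 : ¬ 2 ∣ q)
    (hqN' : ¬ q ∣ N') where
  /-- the data -/
  B : Type
  finB : Finite B
  /-- the toric rank -/
  r : ℕ
  hcard : Nat.card B ≤ p ^ r
  hmass : 2 * r + 2 * finrank ℤ_[p] (tj_T N' p) ≤ finrank ℤ_[p] (tj_T (N' * q) p)
  /-- "`a` is a toric datum of `u`", level `N' q` -/
  T1 : JZero (N' * q) → B → Prop
  /-- "`c` is a toric datum of `z`", level `N' q q` -/
  T2 : JZero (N' * q * q) → B × B → Prop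
  ex1 : ∀ u ∈ m59tc_D1 N' q p A, ∃ a, T1 u a
  inj1 : ∀ u ∈ m59tc_D1 N' q p A, ∀ u' ∈ m59tc_D1 N' q p A, ∀ a, T1 u a → T1 u' a → u = u'
  pull : ∀ u ∈ m59tc_D1 N' q p A, ∀ v ∈ m59tc_D1 N' q p A, ∀ a b, T1 u a → T1 v b →
    m59pl_pa (N' * q) q u + m59pl_pb (N' * q) q v ∈ m59sb_Tor A N' q hq2 hqN' p 1 ∧
      T2 (m59pl_pa (N' * q) q u + m59pl_pb (N' * q) q v) (a, b)
  ex2 : ∀ z ∈ m59sb_Tor A N' q hq2 hqN' p 1, ∃ c, T2 z c
  inj2 : ∀ z ∈ m59sb_Tor A N' q hq2 hqN' p 1, ∀ z' ∈ m59sb_Tor A N' q hq2 hqN' p 1, ∀ c,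
    T2 z c → T2 z' c → z = z'

/-- **the geometric leaf of [TOR-SURJ]**: relational toric data at exponent `p` exist. -/
def m59tc_Data_stmt : Prop :=
  ∀ (N' q p : ℕ) [NeZero N'] [NeZero q] [Fact q.Prime] [NeZero (N' * q)] [NeZero (N' * q * q)]
    [Fact p.Prime],
    p ≠ 2 → q ≠ p → ∀ (hq2 : ¬ 2 ∣ q) (hqN' : ¬ q ∣ N'), 4 ∣ N' →
    ∀ A : ValuationSubring Qb, A.LiesOverPrime q → Nonempty (m59tc_Data N' q p A hq2 hqN')

/-- **[TOR-SURJ] from relational toric data at exponent `p`** (`k = 1`). -/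
theorem m59tc_torSurjPl_of_data (h : m59tc_Data_stmt) : m59sb_TorSurjPl_stmt := by
  intro N' q p _ _ hqF _ _ hpF hp2 hqp hq2 hqN' h4 A hA z hz
  obtain ⟨D⟩ := h N' q p hp2 hqp hq2 hqN' h4 A hA
  haveI := D.finB
  -- `B ↪ Y1 1`
  obtain ⟨ψ, hψ, hψY⟩ := m59tc_exists_inj N' q p A hqF.out hqp hqN' hA D.r D.hmass
  haveI : NeZero p := ⟨hpF.out.ne_zero⟩
  haveI : Fintype D.B := Fintype.ofFinite D.B
  obtain ⟨ι, hι⟩ : ∃ ι : D.B → (Fin D.r → ZMod p), Function.Injective ι := by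
    have h1 : Fintype.card D.B ≤ Fintype.card (Fin D.r → ZMod p) := by
      rw [Fintype.card_fun, ZMod.card, Fintype.card_fin, ← Nat.card_eq_fintype_card]
      exact D.hcard
    exact (Function.Embedding.nonempty_of_card_le h1).elim fun e => ⟨e, e.injective⟩
  obtain ⟨u, hu, v, hv, hzuv⟩ := m59tc_surj (J1 := JZero (N' * q)) (J2 := JZero (N' * q * q))
    (m59tc_D1 N' q p A) (m59sb_Tor A N' q hq2 hqN' p 1)
    (fun u v => m59pl_pa (N' * q) q u + m59pl_pb (N' * q) q v) D.T1 D.T2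
    (ψ ∘ ι) (hψ.comp hι) (fun b => hψY (ι b)) D.ex1 D.inj1 D.pull D.ex2 D.inj2 z hz
  refine ⟨1, u, v, ?_, ?_, hzuv⟩
  · exact (m59tc_D1_subset N' q p A hu).1
  · exact (m59tc_D1_subset N' q p A hv).1

end Data

end Fermat.Agent.M59
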