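/-
M59 / Sink B, leaf 4 ([TOR-SURJ] by counting), the cells `hcard` / `hmass` of `m59tc_Data`
(helper6, chief's ruling #5660).  Tag `m59tcm_`.  Namespace `Fermat.Agent.M59`.

`A` a valuation subring of `ℚ̄` over an odd prime `q ∤ N'`, `4 ∣ N'`, `Sg = s44e_Sg A N' q` the
supersingular places of the special fibre function field of level `N'`, `Q0 : Sg` a base point.
The data set of the count is `B := ({Q : Sg // Q ≠ Q0} → ZMod p)` and the toric rank is
`r := #Sg - 1`.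

* `m59tcm_finite_Sg`, `m59tcm_nonempty_Sg` : `Sg` is finite and nonempty;
* `m59tcm_finite_B`  : `B` is finite;
* `m59tcm_card_B`    : `#B = p ^ (#Sg - 1)`                                  (**hcard**, an equality);
* `m59tcm_mass`      : `2 (#Sg - 1) + 2 rk T_p J₀(N') ≤ rk T_p J₀(N' q)`      (**hmass**);
* `m59tcm_card_of_equiv`, `m59tcm_finite_of_equiv` : the same for any `B' ≃ B`;
* `m59tcm_data_of`   : the relations `T1`, `T2` on this `B` with the five fields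
  `ex1 / inj1 / pull / ex2 / inj2` give `m59tc_Data N' q p A hq2 hqN'`;
* `m59tcm_data_stmt_of` : the seam `m59tc_Data_stmt` from the five fields, uniformly.

Everything is an assembly of `m59rt_finrank_tj`, `m59rt_mass_four`, `m59rt_nonempty_Sg`
(`RigidT/Adapter.lean`) and `m59ms_finite_Sg` (`Mass/Count.lean`).
-/
import Mathlib
import Fermat.Agent.M59.SinkB.Tor.Count
import Fermat.Agent.M59.SinkB.RigidT.Adapter

set_option autoImplicit false
set_option linter.unusedSectionVars false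
set_option linter.unusedVariables false
set_option linter.style.haveILetI false
set_option synthInstance.maxHeartbeats 400000
set_option maxHeartbeats 1000000

noncomputable section

namespace Fermat.Agent.M59

open Fermat.Agent.JT3 Fermat.Agent.S35 Fermat.Agent.S44 Fermat.Agent.MZ ModularCurve Module
  AlgebraicCurve

local notation "Qb" => AlgebraicClosure ℚ

section CardMass

variable (A : ValuationSubring Qb) {q : ℕ} [hq : Fact q.Prime] (hA : A.LiesOverPrime q)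
  (N' : ℕ) [NeZero N'] [NeZero q] [NeZero (N' * q)] (hqN' : ¬ q ∣ N') (hq2 : ¬ 2 ∣ q)

include hA hq2 in
/-- the supersingular places are finitely many. -/
theorem m59tcm_finite_Sg : Finite (s44e_Sg A N' q hq.out hqN') :=
  m59ms_finite_Sg A hA N' hqN' hq2

include hA hq2 in
/-- for `4 ∣ N'` there is a supersingular place. -/
theorem m59tcm_nonempty_Sg (h4 : 4 ∣ N') : Nonempty (s44e_Sg A N' q hq.out hqN') :=
  m59rt_nonempty_Sg A hA N' hqN' hq2 h4

include hA hq2 in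
/-- the data set `B` is finite. -/
theorem m59tcm_finite_B (p : ℕ) [hp : Fact p.Prime] (Q0 : s44e_Sg A N' q hq.out hqN') :
    Finite ({Q : s44e_Sg A N' q hq.out hqN' // Q ≠ Q0} → ZMod p) := by
  haveI := m59tcm_finite_Sg A hA N' hqN' hq2
  haveI : NeZero p := ⟨hp.out.ne_zero⟩
  infer_instance

include hA hq2 in
/-- **hcard**: `#B = p ^ (#Sg - 1)`. -/
theorem m59tcm_card_B (p : ℕ) [hp : Fact p.Prime] (Q0 : s44e_Sg A N' q hq.out hqN') :
    Nat.card ({Q : s44e_Sg A N' q hq.out hqN' // Q ≠ Q0} → ZMod p) =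
      p ^ (Nat.card (s44e_Sg A N' q hq.out hqN') - 1) := by
  classical
  haveI := m59tcm_finite_Sg A hA N' hqN' hq2
  haveI : NeZero p := ⟨hp.out.ne_zero⟩
  haveI : Fintype (s44e_Sg A N' q hq.out hqN') := Fintype.ofFinite _
  rw [Nat.card_eq_fintype_card, Fintype.card_fun, ZMod.card, Fintype.card_subtype_compl,
    Fintype.card_subtype_eq, Nat.card_eq_fintype_card]

include hA hq2 in
/-- **hmass**: `2 (#Sg - 1) + 2 rk T_p J₀(N') ≤ rk T_p J₀(N' q)` for `4 ∣ N'`, `q` odd, `q ∤ N'`. -/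
theorem m59tcm_mass (h4 : 4 ∣ N') (p : ℕ) [hp : Fact p.Prime] :
    2 * (Nat.card (s44e_Sg A N' q hq.out hqN') - 1) + 2 * finrank ℤ_[p] (tj_T N' p) ≤
      finrank ℤ_[p] (tj_T (N' * q) p) := by
  have h1 := m59rt_mass_four A hA N' hqN' hq2 h4
  have h2 := m59rt_finrank_tj N' p
  have h3 := m59rt_finrank_tj (N' * q) p
  haveI : Nonempty (s44e_Sg A N' q hq.out hqN') := m59tcm_nonempty_Sg A hA N' hqN' hq2 h4
  haveI := m59tcm_finite_Sg A hA N' hqN' hq2
  have hpos : 1 ≤ Nat.card (s44e_Sg A N' q hq.out hqN') := Nat.card_pos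
  have h5 : ((2 * (Nat.card (s44e_Sg A N' q hq.out hqN') - 1) +
      2 * finrank ℤ_[p] (tj_T N' p) : ℕ) : ℚ) ≤ ((finrank ℤ_[p] (tj_T (N' * q) p) : ℕ) : ℚ) := by
    push_cast [Nat.cast_sub hpos]
    rw [h2, h3]
    linarith
  exact_mod_cast h5

end CardMass

/-! ### transport along an equivalence -/

theorem m59tcm_finite_of_equiv {B B' : Type*} (e : B' ≃ B) [Finite B] : Finite B' :=
  Finite.of_equiv B e.symm

theorem m59tcm_card_of_equiv {B B' : Type*} (e : B' ≃ B) (n : ℕ) (h : Nat.card B = n) :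
    Nat.card B' ≤ n := by
  rw [Nat.card_congr e, h]

/-! ### the constructor of `m59tc_Data` -/

section Data

variable (N' q p : ℕ) [NeZero N'] [NeZero q] [hqF : Fact q.Prime] [NeZero (N' * q)]
  [NeZero (N' * q * q)] [hpF : Fact p.Prime] (A : ValuationSubring Qb) (hA : A.LiesOverPrime q)
  (hq2 : ¬ 2 ∣ q) (hqN' : ¬ q ∣ N')

/-- **`m59tc_Data` from the two relations on `B = ({Q ≠ Q0} → ZMod p)`**: `hcard` and `hmass` are
supplied here, the caller supplies `T1`, `T2` and the five fields. -/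
def m59tcm_data_of (h4 : 4 ∣ N') (Q0 : s44e_Sg A N' q hqF.out hqN')
    (T1 : JZero (N' * q) → ({Q : s44e_Sg A N' q hqF.out hqN' // Q ≠ Q0} → ZMod p) → Prop)
    (T2 : JZero (N' * q * q) → ({Q : s44e_Sg A N' q hqF.out hqN' // Q ≠ Q0} → ZMod p) ×
      ({Q : s44e_Sg A N' q hqF.out hqN' // Q ≠ Q0} → ZMod p) → Prop)
    (ex1 : ∀ u ∈ m59tc_D1 N' q p A, ∃ a, T1 u a)
    (inj1 : ∀ u ∈ m59tc_D1 N' q p A, ∀ u' ∈ m59tc_D1 N' q p A, ∀ a, T1 u a → T1 u' a → u = u')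
    (pull : ∀ u ∈ m59tc_D1 N' q p A, ∀ v ∈ m59tc_D1 N' q p A, ∀ a b, T1 u a → T1 v b →
      m59pl_pa (N' * q) q u + m59pl_pb (N' * q) q v ∈ m59sb_Tor A N' q hq2 hqN' p 1 ∧
        T2 (m59pl_pa (N' * q) q u + m59pl_pb (N' * q) q v) (a, b))
    (ex2 : ∀ z ∈ m59sb_Tor A N' q hq2 hqN' p 1, ∃ c, T2 z c)
    (inj2 : ∀ z ∈ m59sb_Tor A N' q hq2 hqN' p 1, ∀ z' ∈ m59sb_Tor A N' q hq2 hqN' p 1, ∀ c,
      T2 z c → T2 z' c → z = z') :
    m59tc_Data N' q p A hq2 hqN' where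
  B := {Q : s44e_Sg A N' q hqF.out hqN' // Q ≠ Q0} → ZMod p
  finB := m59tcm_finite_B A hA N' hqN' hq2 p Q0
  r := Nat.card (s44e_Sg A N' q hqF.out hqN') - 1
  hcard := (m59tcm_card_B A hA N' hqN' hq2 p Q0).le
  hmass := m59tcm_mass A hA N' hqN' hq2 h4 p
  T1 := T1
  T2 := T2
  ex1 := ex1
  inj1 := inj1
  pull := pull
  ex2 := ex2
  inj2 := inj2

/-- **the seam form**: the relations as ONE existential statement at `(N', q, p, A)`. -/
def m59tcm_Rel : Prop :=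
  ∀ Q0 : s44e_Sg A N' q hqF.out hqN',
    ∃ (T1 : JZero (N' * q) → ({Q : s44e_Sg A N' q hqF.out hqN' // Q ≠ Q0} → ZMod p) → Prop)
      (T2 : JZero (N' * q * q) → ({Q : s44e_Sg A N' q hqF.out hqN' // Q ≠ Q0} → ZMod p) ×
        ({Q : s44e_Sg A N' q hqF.out hqN' // Q ≠ Q0} → ZMod p) → Prop),
      (∀ u ∈ m59tc_D1 N' q p A, ∃ a, T1 u a) ∧
      (∀ u ∈ m59tc_D1 N' q p A, ∀ u' ∈ m59tc_D1 N' q p A, ∀ a, T1 u a → T1 u' a → u = u') ∧
      (∀ u ∈ m59tc_D1 N' q p A, ∀ v ∈ m59tc_D1 N' q p A, ∀ a b, T1 u a → T1 v b →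
        m59pl_pa (N' * q) q u + m59pl_pb (N' * q) q v ∈ m59sb_Tor A N' q hq2 hqN' p 1 ∧
          T2 (m59pl_pa (N' * q) q u + m59pl_pb (N' * q) q v) (a, b)) ∧
      (∀ z ∈ m59sb_Tor A N' q hq2 hqN' p 1, ∃ c, T2 z c) ∧
      (∀ z ∈ m59sb_Tor A N' q hq2 hqN' p 1, ∀ z' ∈ m59sb_Tor A N' q hq2 hqN' p 1, ∀ c,
        T2 z c → T2 z' c → z = z')

include hA in
/-- `m59tcm_Rel` at `(N', q, p, A)` gives `m59tc_Data` there. -/
theorem m59tcm_nonempty_data (h4 : 4 ∣ N') (h : m59tcm_Rel N' q p A hq2 hqN') :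
    Nonempty (m59tc_Data N' q p A hq2 hqN') := by
  obtain ⟨Q0⟩ := m59tcm_nonempty_Sg A hA N' hqN' hq2 h4
  obtain ⟨T1, T2, ex1, inj1, pull, ex2, inj2⟩ := h Q0
  exact ⟨m59tcm_data_of N' q p A hA hq2 hqN' h4 Q0 T1 T2 ex1 inj1 pull ex2 inj2⟩

end Data

/-- **the relational leaf**: at every `(N', q, p, A)` of the seam, the relations exist. -/
def m59tcm_Rel_stmt : Prop :=
  ∀ (N' q p : ℕ) [NeZero N'] [NeZero q] [Fact q.Prime] [NeZero (N' * q)] [NeZero (N' * q * q)]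
    [Fact p.Prime],
    p ≠ 2 → q ≠ p → ∀ (hq2 : ¬ 2 ∣ q) (hqN' : ¬ q ∣ N'), 4 ∣ N' →
    ∀ A : ValuationSubring Qb, A.LiesOverPrime q → m59tcm_Rel N' q p A hq2 hqN'

/-- **`m59tc_Data_stmt` from the relational leaf** (`hcard`, `hmass` discharged). -/
theorem m59tcm_data_stmt_of (h : m59tcm_Rel_stmt) : m59tc_Data_stmt := by
  intro N' q p _ _ _ _ _ _ hp2 hqp hq2 hqN' h4 A hA
  exact m59tcm_nonempty_data N' q p A hA hq2 hqN' h4 (h N' q p hp2 hqp hq2 hqN' h4 A hA)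

/-- **[TOR-SURJ] from the relational leaf.** -/
theorem m59tcm_torSurjPl_of_rel (h : m59tcm_Rel_stmt) : m59sb_TorSurjPl_stmt :=
  m59tc_torSurjPl_of_data (m59tcm_data_stmt_of h)

end Fermat.Agent.M59
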