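/-
M59 / Sink B, leaf 4 [TOR-SURJ] (helper15).  Prefix `m59tc_`.

THE COUNT WITH A COMMON LEVEL.  `m59tc_Data` (Tor/Count.lean) asks for the relational toric data on
`m59sb_Tor … p 1`, whose classes have their normal forms over SOME level each.  The relations `T2`
are defined over ONE level `L*`, so here the data are asked on an arbitrary set `TorS ⊇ TorU`
(in the application `TorU` = the classes with the UNIFORM normal form of helper29's G12/AsmU.lean and
`TorS` = the classes with a normal form over `L*`).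

* `m59tc_DataU N' q p A hq2 hqN' TorU` : the structure (`m59tc_Data` + `TorS`, `hTorS`);
* `m59tc_surjU_of_data` : every `z ∈ TorU` is `α^* u + β^* v` with `u, v ∈ D1` (`p`-torsion).
-/
import Mathlib
import Fermat.Agent.M59.SinkB.Tor.Count

set_option autoImplicit false
set_option linter.unusedSectionVars false
set_option linter.unusedVariables false
set_option linter.style.haveILetI false
set_option synthInstance.maxHeartbeats 400000
set_option maxHeartbeats 1000000

noncomputable section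

namespace Fermat.Agent.M59

open Fermat.Agent.JT3 Fermat.Agent.S35 Fermat.Agent.MZ ModularCurve Module

local notation "Qb" => AlgebraicClosure ℚ

/-- **relational toric data at exponent `p` over a common level**: as `m59tc_Data`, with the
level-`N' q q` relations on a set `TorS ⊇ TorU`. -/
structure m59tc_DataU (N' q p : ℕ) [NeZero N'] [NeZero q] [hqF : Fact q.Prime] [NeZero (N' * q)]
    [NeZero (N' * q * q)] [Fact p.Prime] (A : ValuationSubring Qb)
    (TorU : Set (JZero (N' * q * q))) where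
  /-- the data -/
  B : Type
  finB : Finite B
  /-- the toric rank -/
  r : ℕ
  hcard : Nat.card B ≤ p ^ r
  hmass : 2 * r + 2 * finrank ℤ_[p] (tj_T N' p) ≤ finrank ℤ_[p] (tj_T (N' * q) p)
  /-- "`a` is a toric datum of `u`", level `N' q` -/
  T1 : JZero (N' * q) → B → Prop
  /-- "`c` is a toric datum of `z`", level `N' q q` -/
  T2 : JZero (N' * q * q) → B × B → Prop
  /-- the classes with a normal form over the common level -/
  TorS : Set (JZero (N' * q * q))
  hTorS : TorU ⊆ TorS
  ex1 : ∀ u ∈ m59tc_D1 N' q p A, ∃ a, T1 u a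
  inj1 : ∀ u ∈ m59tc_D1 N' q p A, ∀ u' ∈ m59tc_D1 N' q p A, ∀ a, T1 u a → T1 u' a → u = u'
  pull : ∀ u ∈ m59tc_D1 N' q p A, ∀ v ∈ m59tc_D1 N' q p A, ∀ a b, T1 u a → T1 v b →
    m59pl_pa (N' * q) q u + m59pl_pb (N' * q) q v ∈ TorS ∧
      T2 (m59pl_pa (N' * q) q u + m59pl_pb (N' * q) q v) (a, b)
  ex2 : ∀ z ∈ TorS, ∃ c, T2 z c
  inj2 : ∀ z ∈ TorS, ∀ z' ∈ TorS, ∀ c, T2 z c → T2 z' c → z = z'

/-- **[TOR-SURJ] on `TorU` from relational toric data over a common level.** -/
theorem m59tc_surjU_of_data (N' q p : ℕ) [NeZero N'] [NeZero q] [hqF : Fact q.Prime]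
    [NeZero (N' * q)] [NeZero (N' * q * q)] [hpF : Fact p.Prime] (hqp : q ≠ p) (hqN' : ¬ q ∣ N')
    (A : ValuationSubring Qb) (hA : A.LiesOverPrime q) (TorU : Set (JZero (N' * q * q)))
    (D : m59tc_DataU N' q p A TorU) :
    ∀ z ∈ TorU, ∃ (k : ℕ) (u v : JZero (N' * q)), (p ^ k) • u = 0 ∧ (p ^ k) • v = 0 ∧
      z = m59pl_pa (N' * q) q u + m59pl_pb (N' * q) q v := by
  intro z hz
  haveI := D.finB
  obtain ⟨ψ, hψ, hψY⟩ := m59tc_exists_inj N' q p A hqF.out hqp hqN' hA D.r D.hmass
  haveI : NeZero p := ⟨hpF.out.ne_zero⟩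
  haveI : Fintype D.B := Fintype.ofFinite D.B
  obtain ⟨ι, hι⟩ : ∃ ι : D.B → (Fin D.r → ZMod p), Function.Injective ι := by
    have h1 : Fintype.card D.B ≤ Fintype.card (Fin D.r → ZMod p) := by
      rw [Fintype.card_fun, ZMod.card, Fintype.card_fin, ← Nat.card_eq_fintype_card]
      exact D.hcard
    exact (Function.Embedding.nonempty_of_card_le h1).elim fun e => ⟨e, e.injective⟩
  obtain ⟨u, hu, v, hv, hzuv⟩ := m59tc_surj (J1 := JZero (N' * q)) (J2 := JZero (N' * q * q))
    (m59tc_D1 N' q p A) D.TorS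
    (fun u v => m59pl_pa (N' * q) q u + m59pl_pb (N' * q) q v) D.T1 D.T2
    (ψ ∘ ι) (hψ.comp hι) (fun b => hψY (ι b)) D.ex1 D.inj1 D.pull D.ex2 D.inj2 z (D.hTorS hz)
  refine ⟨1, u, v, ?_, ?_, hzuv⟩
  · exact (m59tc_D1_subset N' q p A hu).1
  · exact (m59tc_D1_subset N' q p A hv).1

end Fermat.Agent.M59
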