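/-
M59 / Sink B, leaf 4 ([TOR-SURJ] by counting), `hcard` / `hmass` for the COMMON-LEVEL structure
`m59tc_DataU` of `Tor/CountU.lean` (helper6, asked by helper15 #5695 (1)).  Tag `m59tcm_`.

* `m59tcm_dataU_of` : the relations `T1`, `T2` on `B = ({Q : Sg // Q ≠ Q0} → ZMod p)`
  (`= m59t1_B A N' hqN' p Q0` of `Tor/Defs1.lean`, an abbreviation of the same type), the set `TorS ⊇
  TorU` and the five fields give `m59tc_DataU N' q p A TorU` (`hcard`, `hmass` supplied here by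
  `m59tcm_card_B`, `m59tcm_mass`);
* `m59tcm_surjU_of_rel` : hence [TOR-SURJ] on `TorU` (`m59tc_surjU_of_data`).
-/
import Mathlib
import Fermat.Agent.M59.SinkB.Tor.CardMass
import Fermat.Agent.M59.SinkB.Tor.CountU

set_option autoImplicit false
set_option linter.unusedSectionVars false
set_option linter.unusedVariables false
set_option linter.style.haveILetI false
set_option synthInstance.maxHeartbeats 400000
set_option maxHeartbeats 1000000

noncomputable section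

namespace Fermat.Agent.M59

open Fermat.Agent.JT3 Fermat.Agent.S35 Fermat.Agent.S44 Fermat.Agent.MZ ModularCurve Module
  AlgebraicCurve

local notation "Qb" => AlgebraicClosure ℚ

section DataU

variable (N' q p : ℕ) [NeZero N'] [NeZero q] [hqF : Fact q.Prime] [NeZero (N' * q)]
  [NeZero (N' * q * q)] [hpF : Fact p.Prime] (A : ValuationSubring Qb) (hA : A.LiesOverPrime q)
  (hq2 : ¬ 2 ∣ q) (hqN' : ¬ q ∣ N')

/-- **`m59tc_DataU` from the two relations on `B = ({Q ≠ Q0} → ZMod p)`**: `hcard` and `hmass` are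
supplied here, the caller supplies `T1`, `T2`, `TorS ⊇ TorU` and the five fields. -/
def m59tcm_dataU_of (h4 : 4 ∣ N') (TorU : Set (JZero (N' * q * q)))
    (Q0 : s44e_Sg A N' q hqF.out hqN')
    (T1 : JZero (N' * q) → ({Q : s44e_Sg A N' q hqF.out hqN' // Q ≠ Q0} → ZMod p) → Prop)
    (T2 : JZero (N' * q * q) → ({Q : s44e_Sg A N' q hqF.out hqN' // Q ≠ Q0} → ZMod p) ×
      ({Q : s44e_Sg A N' q hqF.out hqN' // Q ≠ Q0} → ZMod p) → Prop)
    (TorS : Set (JZero (N' * q * q))) (hTorS : TorU ⊆ TorS)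
    (ex1 : ∀ u ∈ m59tc_D1 N' q p A, ∃ a, T1 u a)
    (inj1 : ∀ u ∈ m59tc_D1 N' q p A, ∀ u' ∈ m59tc_D1 N' q p A, ∀ a, T1 u a → T1 u' a → u = u')
    (pull : ∀ u ∈ m59tc_D1 N' q p A, ∀ v ∈ m59tc_D1 N' q p A, ∀ a b, T1 u a → T1 v b →
      m59pl_pa (N' * q) q u + m59pl_pb (N' * q) q v ∈ TorS ∧
        T2 (m59pl_pa (N' * q) q u + m59pl_pb (N' * q) q v) (a, b))
    (ex2 : ∀ z ∈ TorS, ∃ c, T2 z c)
    (inj2 : ∀ z ∈ TorS, ∀ z' ∈ TorS, ∀ c, T2 z c → T2 z' c → z = z') :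
    m59tc_DataU N' q p A TorU where
  B := {Q : s44e_Sg A N' q hqF.out hqN' // Q ≠ Q0} → ZMod p
  finB := m59tcm_finite_B A hA N' hqN' hq2 p Q0
  r := Nat.card (s44e_Sg A N' q hqF.out hqN') - 1
  hcard := (m59tcm_card_B A hA N' hqN' hq2 p Q0).le
  hmass := m59tcm_mass A hA N' hqN' hq2 h4 p
  T1 := T1
  T2 := T2
  TorS := TorS
  hTorS := hTorS
  ex1 := ex1
  inj1 := inj1
  pull := pull
  ex2 := ex2
  inj2 := inj2

/-- the relations over a common level as ONE existential statement at `(N', q, p, A, TorU)`. -/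
def m59tcm_RelU (TorU : Set (JZero (N' * q * q))) : Prop :=
  ∀ Q0 : s44e_Sg A N' q hqF.out hqN',
    ∃ (T1 : JZero (N' * q) → ({Q : s44e_Sg A N' q hqF.out hqN' // Q ≠ Q0} → ZMod p) → Prop)
      (T2 : JZero (N' * q * q) → ({Q : s44e_Sg A N' q hqF.out hqN' // Q ≠ Q0} → ZMod p) ×
        ({Q : s44e_Sg A N' q hqF.out hqN' // Q ≠ Q0} → ZMod p) → Prop)
      (TorS : Set (JZero (N' * q * q))), TorU ⊆ TorS ∧
      (∀ u ∈ m59tc_D1 N' q p A, ∃ a, T1 u a) ∧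
      (∀ u ∈ m59tc_D1 N' q p A, ∀ u' ∈ m59tc_D1 N' q p A, ∀ a, T1 u a → T1 u' a → u = u') ∧
      (∀ u ∈ m59tc_D1 N' q p A, ∀ v ∈ m59tc_D1 N' q p A, ∀ a b, T1 u a → T1 v b →
        m59pl_pa (N' * q) q u + m59pl_pb (N' * q) q v ∈ TorS ∧
          T2 (m59pl_pa (N' * q) q u + m59pl_pb (N' * q) q v) (a, b)) ∧
      (∀ z ∈ TorS, ∃ c, T2 z c) ∧
      (∀ z ∈ TorS, ∀ z' ∈ TorS, ∀ c, T2 z c → T2 z' c → z = z')

include hA hq2 in
/-- `m59tcm_RelU` gives `m59tc_DataU`. -/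
theorem m59tcm_nonempty_dataU (h4 : 4 ∣ N') (TorU : Set (JZero (N' * q * q)))
    (h : m59tcm_RelU N' q p A hqN' TorU) : Nonempty (m59tc_DataU N' q p A TorU) := by
  obtain ⟨Q0⟩ := m59tcm_nonempty_Sg A hA N' hqN' hq2 h4
  obtain ⟨T1, T2, TorS, hTorS, ex1, inj1, pull, ex2, inj2⟩ := h Q0
  exact ⟨m59tcm_dataU_of N' q p A hA hq2 hqN' h4 TorU Q0 T1 T2 TorS hTorS ex1 inj1 pull ex2 inj2⟩

include hA hq2 in
/-- **[TOR-SURJ] on `TorU` from the relations over a common level.** -/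
theorem m59tcm_surjU_of_rel (hqp : q ≠ p) (h4 : 4 ∣ N') (TorU : Set (JZero (N' * q * q)))
    (h : m59tcm_RelU N' q p A hqN' TorU) :
    ∀ z ∈ TorU, ∃ (k : ℕ) (u v : JZero (N' * q)), (p ^ k) • u = 0 ∧ (p ^ k) • v = 0 ∧
      z = m59pl_pa (N' * q) q u + m59pl_pb (N' * q) q v := by
  obtain ⟨D⟩ := m59tcm_nonempty_dataU N' q p A hA hq2 hqN' h4 TorU h
  exact m59tc_surjU_of_data N' q p hqp hqN' A hA TorU D

end DataU

end Fermat.Agent.M59
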