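/-
M59 / Sink B, leaf 4 [TOR-SURJ], LEVEL `N' q`: cell **[DICT1]**, THE CONVERSE NODE DICTIONARY
(helper2; ruling #5661 of the chief, literal shape of helper7 #5692).  Prefix `m59td_`.

Context (`section Inst` of `S44/Mono/NodeDictLeg`): `A` a valuation subring of `ℚ̄` over the odd prime
`p ∤ M`; `L1 ⊆ ℚ̄` a number field containing a primitive `M`-th root of unity and a model `U1` of the
modular unit `Δ(τ)/Δ(pτ)`; `O1 = A ∩ L1` a discrete valuation ring, `π` a uniformiser;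
`E = lg_E L1 (M p)` the Legendre cover, `B1 = fc_chart O1 {λ}` its `λ`-chart, `P1`, `P2` the centres
on `B1` of the two Gauss valuations `V₁`, `V₂ = W V₁`.

The dictionary `S44/Mono/NodeDictLeg` goes FORWARD: a supersingular place `Q` of `FF_A(M)` and an
extension `𝒲` of its rank-2 valuation to the Legendre cover (`s44ndl_Ext`) give a crossing point
`s44ndl_n 𝒲 ⊇ P1 + P2` of `B1`.  Here is the CONVERSE:

* **`m59td_dict1`** : every maximal ideal `𝔫 ⊇ P1 + P2` of `B1` is `s44ndl_n 𝒲` for some supersingular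
  place `Q` and some `𝒲` with `s44ndl_Ext … Q 𝒲`;
* **`m59td_dict1_lab`** : the same statement in the vocabulary of `Tor/Defs1`:
  `∃ Q : s44e_Sg A N' q _ _, m59t1_Lab A hA N' hq2 hqN' L hπ 𝔫 Q.1`;
* `m59td_dict1_T` : a finite set `T ⊆ ℚ̄` such that the model `U1` exists over every `L ⊇ T`.

Proof.  (1) Chevalley (`m59td_exists_W`): the ring `B1 / P1 ⊆ κ(V₁) = lg_E k M` is dominated at
`𝔫 / P1` by a valuation ring `𝒲`; the composite `𝒱' = {z ∈ V₁ | r z ∈ 𝒲}` has centre `𝔫` on `B1`.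
(2) Restriction (`m59td_exists_W0`): `𝒱' ∩ F` is a composite `{x ∈ W₁ | red x ∈ W0}`, `W0` a valuation
ring of `FF_A(M)`.  (3) The modular unit `G = φ U1` is a unit of `V₁`, a non-unit of `V₂` (`p¹²`
divides it there) and has no horizontal divisor through `𝔫` (`s44un_hor`), so by Krull
(`m59td_node_mem`) `G ∈ (B1)_𝔫`, and `G ∈ 𝔫 (B1)_𝔫 ⊆ 𝔪(𝒱')`; hence `ū = red U1` is a nonzero
non-unit of `W0`: `W0 ≠ ⊤` is the ring of a place `Q` (`rpf_exists_place`), `j̄` is finite at `Q`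
(`s44un_j_mem_loc`), and `ord_Q ū > 0` forces `Q` supersingular by (U-DIV) (`s44udm_udiv`).
-/
import Mathlib
import Fermat.Agent.S44.Res.UDivMain
import Fermat.Agent.S44.Mono.NodeDictLeg
import Fermat.Agent.S44.Mono.UnitNodeInst
import Fermat.Agent.S44.Mono.NodeDictCfe
import Fermat.Agent.JT3.PlaceMap.FunField
import Fermat.Agent.M59.SinkB.Tor.Defs1

set_option autoImplicit false
set_option linter.unusedSectionVars false
set_option linter.unusedVariables false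
set_option linter.style.haveILetI false

noncomputable section

namespace Fermat.Agent.M59

open Polynomial ModularCurve AlgebraicCurve IntermediateField IsLocalRing
open Fermat.Agent.JT3 Fermat.Agent.SS Fermat.Agent.S35 Fermat.Agent.S24 Fermat.Agent.MZ
  Fermat.Agent.S44

local notation "Qb" => AlgebraicClosure ℚ


section Abs

variable {E' : Type*} [Field E'] (V1 : ValuationSubring E') {κ : Type*} [Field κ]
  (r : ↥V1 →+* κ) (hker : ∀ z : ↥V1, (z : E') ∈ V1.nonunits → r z = 0)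

/-- `r` does not vanish on the units of `V1`. -/
theorem m59td_r_ne_zero {z : E'} (hz : z ∈ V1) (hnu : z ∉ V1.nonunits) : r ⟨z, hz⟩ ≠ 0 := by
  have hz0 : z ≠ 0 := fun h => hnu ((ValuationSubring.mem_nonunits_iff_or V1).2 (Or.inl h))
  have hzi : z⁻¹ ∈ V1 := by
    by_contra h
    exact hnu (tori_comp_inv_aux V1 hz h)
  intro h0
  have h1 : r ⟨z, hz⟩ * r ⟨z⁻¹, hzi⟩ = 1 := by
    rw [← map_mul]
    have : (⟨z, hz⟩ * ⟨z⁻¹, hzi⟩ : ↥V1) = 1 := Subtype.ext (mul_inv_cancel₀ hz0)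
    rw [this, map_one]
  rw [h0, zero_mul] at h1
  exact zero_ne_one h1

variable {B : Type*} [CommRing B] (ι : B →+* E') (hBV : ∀ b : B, ι b ∈ V1)
  (𝔫 : Ideal B) [h𝔫 : 𝔫.IsPrime] (hP : ∀ b : B, ι b ∈ V1.nonunits → b ∈ 𝔫)

include hker hP in
/-- **(DICT-𝒲), Chevalley**: a prime `𝔫 ⊇ 𝔪(V1) ∩ B` of a ring `B ⊆ V1` is the centre on `B` of a
composite valuation ring `tori_comp V1 r _ 𝒲`. -/
theorem m59td_exists_W :
    ∃ 𝒲 : ValuationSubring κ, (∀ b : B, r ⟨ι b, hBV b⟩ ∈ 𝒲) ∧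
      ∀ b : B, b ∈ 𝔫 ↔ r ⟨ι b, hBV b⟩ ∈ 𝒲.nonunits := by
  let g : B →+* κ := r.comp
    { toFun := fun b => (⟨ι b, hBV b⟩ : ↥V1)
      map_one' := Subtype.ext (map_one ι)
      map_mul' := fun x y => Subtype.ext (map_mul ι x y)
      map_zero' := Subtype.ext (map_zero ι)
      map_add' := fun x y => Subtype.ext (map_add ι x y) }
  have hg : ∀ b : B, g b = r ⟨ι b, hBV b⟩ := fun b => rfl
  have hgu : ∀ y : 𝔫.primeCompl, IsUnit (g (y : B)) := by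
    intro y
    rw [isUnit_iff_ne_zero, hg]
    exact m59td_r_ne_zero V1 r (hBV y) (fun h => y.2 (hP _ h))
  let f : Localization.AtPrime 𝔫 →+* κ := IsLocalization.lift hgu
  have hf : ∀ b : B, f (algebraMap B (Localization.AtPrime 𝔫) b) = g b := fun b =>
    IsLocalization.lift_eq hgu b
  obtain ⟨𝒲, h𝒲, hloc⟩ := IsLocalRing.exists_factor_valuationRing f
  refine ⟨𝒲, fun b => ?_, fun b => ⟨fun hb => ?_, fun hb => ?_⟩⟩
  · rw [← hg, ← hf]; exact h𝒲 _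
  · -- `b ∈ 𝔫` ⟹ non-unit of the local ring ⟹ non-unit of `𝒲`
    have hmem : r ⟨ι b, hBV b⟩ ∈ 𝒲 := by rw [← hg, ← hf]; exact h𝒲 _
    by_contra hnu
    have hu : IsUnit (⟨r ⟨ι b, hBV b⟩, hmem⟩ : ↥𝒲) := by
      by_contra hnot
      exact hnu ((ValuationSubring.mem_nonunits_iff_exists_mem_maximalIdeal).2
        ⟨hmem, (mem_maximalIdeal _).2 hnot⟩)
    have hu' : IsUnit ((f.codRestrict 𝒲.toSubring h𝒲)
        (algebraMap B (Localization.AtPrime 𝔫) b)) := by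
      have e : (f.codRestrict 𝒲.toSubring h𝒲) (algebraMap B (Localization.AtPrime 𝔫) b) =
          (⟨r ⟨ι b, hBV b⟩, hmem⟩ : ↥𝒲) := Subtype.ext (by
        show f (algebraMap B (Localization.AtPrime 𝔫) b) = _
        rw [hf, hg])
      rw [e]; exact hu
    have hu'' : IsUnit (algebraMap B (Localization.AtPrime 𝔫) b) := hloc.map_nonunit _ hu'
    exact (IsLocalization.AtPrime.isUnit_to_map_iff (Localization.AtPrime 𝔫) 𝔫 b).1 hu'' hb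
  · -- `b ∉ 𝔫` ⟹ unit
    by_contra hb𝔫
    have hu : IsUnit (algebraMap B (Localization.AtPrime 𝔫) b) :=
      (IsLocalization.AtPrime.isUnit_to_map_iff (Localization.AtPrime 𝔫) 𝔫 b).2 hb𝔫
    have hu' := hu.map (f.codRestrict 𝒲.toSubring h𝒲)
    have hmem : r ⟨ι b, hBV b⟩ ∈ 𝒲 := by rw [← hg, ← hf]; exact h𝒲 _
    have e : (f.codRestrict 𝒲.toSubring h𝒲) (algebraMap B (Localization.AtPrime 𝔫) b) =
        (⟨r ⟨ι b, hBV b⟩, hmem⟩ : ↥𝒲) := Subtype.ext (by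
      show f (algebraMap B (Localization.AtPrime 𝔫) b) = _
      rw [hf, hg])
    rw [e] at hu'
    obtain ⟨hm, hmax⟩ := (ValuationSubring.mem_nonunits_iff_exists_mem_maximalIdeal).1 hb
    exact (mem_maximalIdeal _).1 hmax hu'

end Abs

section Ext

variable {F' : Type*} [Field F'] {E' : Type*} [Field E'] (φ : F' →+* E')
  (W1 : ValuationSubring F') (V1 : ValuationSubring E')
  (hφ : ∀ x : F', φ x ∈ V1 ↔ x ∈ W1)
  {κ0 : Type*} [Field κ0] (red : ↥W1 →+* κ0)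
  (hker0 : ∀ z : ↥W1, (z : F') ∈ W1.nonunits → red z = 0)
  {κ : Type*} [Field κ] (r : ↥V1 →+* κ) (hker : ∀ z : ↥V1, (z : E') ∈ V1.nonunits → r z = 0)
  (𝒲 : ValuationSubring κ)

include hφ in
/-- **(DICT-Q), Chevalley downwards**: the restriction to `F'` of a composite valuation ring
`tori_comp V1 r _ 𝒲` of `E'` is a composite `tori_comp W1 red _ W0`. -/
theorem m59td_exists_W0 :
    ∃ W0 : ValuationSubring κ0, ∀ x : F',
      φ x ∈ tori_comp V1 r hker 𝒲 ↔ x ∈ tori_comp W1 red hker0 W0 := by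
  set 𝒱0 : ValuationSubring F' := (tori_comp V1 r hker 𝒲).comap φ with h𝒱0
  have hmem0 : ∀ x : F', x ∈ 𝒱0 ↔ φ x ∈ tori_comp V1 r hker 𝒲 := fun x => Iff.rfl
  have hle : ∀ x : ↥𝒱0, (x : F') ∈ W1 := fun x =>
    (hφ _).1 (tori_comp_le V1 r hker 𝒲 ((hmem0 _).1 x.2))
  let g : ↥𝒱0 →+* κ0 := red.comp
    { toFun := fun x => (⟨(x : F'), hle x⟩ : ↥W1)
      map_one' := rfl
      map_mul' := fun x y => rfl
      map_zero' := rfl
      map_add' := fun x y => rfl }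
  have hg : ∀ x : ↥𝒱0, g x = red ⟨(x : F'), hle x⟩ := fun x => rfl
  obtain ⟨W0, hW0, hloc⟩ := IsLocalRing.exists_factor_valuationRing g
  refine ⟨W0, fun x => ⟨fun hx => ?_, ?_⟩⟩
  · have hx0 : x ∈ 𝒱0 := (hmem0 x).2 hx
    exact ⟨hle ⟨x, hx0⟩, hW0 ⟨x, hx0⟩⟩
  · rintro ⟨hxW, hxr⟩
    by_contra hx0
    have hx0' : x ∉ 𝒱0 := fun h => hx0 ((hmem0 x).1 h)
    have hxne : x ≠ 0 := fun h => hx0' (h ▸ 𝒱0.zero_mem)
    have hxi : x⁻¹ ∈ 𝒱0 := (𝒱0.mem_or_inv_mem x).resolve_left hx0'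
    have h1 : g ⟨x⁻¹, hxi⟩ * red ⟨x, hxW⟩ = 1 := by
      rw [hg, ← map_mul]
      have : (⟨x⁻¹, hle ⟨x⁻¹, hxi⟩⟩ * ⟨x, hxW⟩ : ↥W1) = 1 :=
        Subtype.ext (inv_mul_cancel₀ hxne)
      rw [this, map_one]
    have hu : IsUnit ((g.codRestrict W0.toSubring hW0) ⟨x⁻¹, hxi⟩) := by
      refine IsUnit.of_mul_eq_one (⟨red ⟨x, hxW⟩, hxr⟩ : ↥W0.toSubring) ?_
      exact Subtype.ext h1
    have hu' : IsUnit (⟨x⁻¹, hxi⟩ : ↥𝒱0) := hloc.map_nonunit _ hu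
    obtain ⟨y, hy⟩ := hu'.exists_right_inv
    have hy' : x⁻¹ * (y : F') = 1 := congrArg (fun t : ↥𝒱0 => (t : F')) hy
    have : (y : F') = x := by
      have := congrArg (fun t => x * t) hy'
      simp only [← mul_assoc, mul_inv_cancel₀ hxne, one_mul, mul_one] at this
      exact this
    exact hx0' (this ▸ y.2)

end Ext


section Chart

universe v

variable {R' : Type*} [CommRing R'] [IsDomain R'] [IsIntegrallyClosed R']
  {A0 : Type*} [CommRing A0] {E : Type v} [Field E] [Algebra A0 E] [Algebra R' E]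
  [FaithfulSMul R' E]
  {B : Subalgebra A0 E} [IsFractionRing B E] [IsNoetherianRing B] [IsIntegrallyClosed B]
  (𝔫 : Ideal B) [h𝔫 : 𝔫.IsPrime] {πR : R'} {V1 V2 : ValuationSubring E}

/-- **(DICT-KRULL)**: at a crossing point `𝔫 ⊇ P₁ + P₂` of a chart of a two-component model, a
function in `V₁ ∩ V₂` without horizontal poles on `Spec B_𝔫` lies in `B_𝔫`. -/
theorem m59td_node_mem (H : ssm_tp_Hyp πR V1 V2) (hC : ssm_tp_Chart πR B) (ϖ : B)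
    (hϖ : (ϖ : E) = algebraMap R' E πR) (h1 : ssm_tp_P B V1 ≤ 𝔫) (h2 : ssm_tp_P B V2 ≤ 𝔫)
    {G : E} (hG1 : G ∈ V1) (hG2 : G ∈ V2)
    (hhor : ∀ 𝔮 : Ideal (ssl_locSub E 𝔫),
      ssl_Horiz (algebraMap B (ssl_locSub E 𝔫) ϖ) 𝔮 → ssl_MemAt E 𝔮 G) :
    G ∈ ssl_locSub E 𝔫 := by
  haveI := ssl_loc_isNoetherianRing (F0 := E) 𝔫
  haveI := ssl_loc_isIntegrallyClosed (F0 := E) 𝔫
  haveI hP1 := H.P1_isPrime hC (B := B)
  haveI hP2 := H.P2_isPrime hC (B := B)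
  have hϖ0 : ϖ ≠ 0 := by
    intro h0
    apply H.algebraMap_ne_zero
    rw [← hϖ, h0]
    rfl
  have hPne : ∀ (V : ValuationSubring E), (ϖ : E) ∈ V.nonunits → (∀ b ∈ B, b ∈ V) →
      ssm_tp_P B V ≠ ⊥ := by
    intro V hV hBV hbot
    have : ϖ ∈ ssm_tp_P B V := (ssm_tp_mem_P hBV).2 hV
    rw [hbot, Ideal.mem_bot] at this
    exact hϖ0 this
  have hP1ne : ssm_tp_P B V1 ≠ ⊥ :=
    hPne V1 (by rw [hϖ]; exact H.over1.pi_mem) (fun _ hb => hC.le H.over1 hb)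
  have hP2ne : ssm_tp_P B V2 ≠ ⊥ :=
    hPne V2 (by rw [hϖ]; exact H.over2.pi_mem) (fun _ hb => hC.le H.over2 hb)
  obtain ⟨r, hr⟩ := ssl_krull (R := ssl_locSub E 𝔫) (F := E) (z := G) (by
    intro 𝔔 h𝔔 h𝔔1
    haveI := h𝔔
    by_cases hmem : algebraMap B (ssl_locSub E 𝔫) ϖ ∈ 𝔔
    · -- vertical
      set 𝔮 : Ideal B := 𝔔.under B with h𝔮
      haveI : 𝔮.IsPrime := Ideal.comap_isPrime _ 𝔔
      have h𝔮1 : 𝔮.height = 1 := by
        rw [h𝔮, IsLocalization.height_under 𝔫.primeCompl 𝔔, h𝔔1]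
      have hϖ𝔮 : ϖ ∈ 𝔮 := hmem
      have key : ∀ t : B, t ∉ 𝔮 → (t : E) * G ∈ B → ssl_MemAt E 𝔔 G := by
        intro t ht htG
        refine ⟨algebraMap B (ssl_locSub E 𝔫) ⟨(t : E) * G, htG⟩,
          algebraMap B (ssl_locSub E 𝔫) t, fun h => ht h, ?_⟩
        show G * (t : E) = (t : E) * G
        ring
      rcases H.P_le_of_mem hC ϖ hϖ 𝔮 hϖ𝔮 with h | h
      · have e : ssm_tp_P B V1 = 𝔮 := ssl_eq_of_le_of_ne_bot hP1ne h𝔮1 h
        obtain ⟨t, ht, htG⟩ := (H.mem_V1_iff hC).1 hG1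
        exact key t (e ▸ ht) htG
      · have e : ssm_tp_P B V2 = 𝔮 := ssl_eq_of_le_of_ne_bot hP2ne h𝔮1 h
        obtain ⟨t, ht, htG⟩ := (H.mem_V2_iff hC).1 hG2
        exact key t (e ▸ ht) htG
    · exact hhor 𝔔 ⟨h𝔔, h𝔔1, hmem⟩)
  rw [← hr]
  exact r.2

end Chart

section Inst

variable (A : ValuationSubring Qb) {p : ℕ} [hp : Fact p.Prime] (hA : A.LiesOverPrime p)
  (M : ℕ) [NeZero M] [NeZero p] [NeZero (M * p)] (hp2 : ¬ 2 ∣ p) (hpM : ¬ p ∣ M)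
  (L1 : IntermediateField ℚ Qb) [NumberField ↥L1]
  [IsDiscreteValuationRing ↥(A.comap (algebraMap L1 Qb))]
  [CharP (ResidueField ↥(A.comap (algebraMap L1 Qb))) p]
  {π : ↥(A.comap (algebraMap L1 Qb))} (hπ : Irreducible π)
  (ζ : ↥L1) (hζ : IsPrimitiveRoot ζ M)

set_option hygiene false in
local notation "O1" => ValuationSubring.comap A (algebraMap L1 Qb)

include hζ in
set_option maxHeartbeats 3200000 in
set_option synthInstance.maxHeartbeats 400000 in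
/-- **[DICT1]**: every crossing point of the `λ`-chart is the centre of a supersingular place. -/
theorem m59td_dict1 (U1 : ↥(lg_F L1 (M * p)))
    (hU1 : ssm_al_iotaF L1 (M * p) U1 = s44hu_U p (M * p) (s44hu_dvd (rfl : M * p = M * p)))
    (𝔫 : Ideal ↥(fc_chart ↥O1 ({lg_lamE (M * p)} : Set ↥(lg_E L1 (M * p)))))
    (h𝔫 : 𝔫.IsMaximal)
    (hP1 : ssm_tp_P (fc_chart ↥O1 ({lg_lamE (M * p)} : Set ↥(lg_E L1 (M * p))))
      (ssm_gl_V1 O1 hπ M p) ≤ 𝔫)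
    (hP2 : ssm_tp_P (fc_chart ↥O1 ({lg_lamE (M * p)} : Set ↥(lg_E L1 (M * p))))
      (ssm_gl_V2 O1 hπ M p hp2 hpM) ≤ 𝔫) :
    ∃ (Q : Place (s44e_kA A) ↥(s44e_FF A M))
      (𝒲 : ValuationSubring ↥(lg_E (ResidueField ↥O1) M)),
      s44e_IsSS A M p hp.out hpM Q ∧ s44ndl_Ext A hA M hp2 hpM L1 hπ Q 𝒲 ∧
      s44ndl_n L1 O1 hπ M p hp2 hpM 𝒲 = 𝔫 := by
  -- the chart package
  haveI := ssm_go_isScalarTower O1 (lg_E L1 (M * p))
  have hx : Transcendental L1 (lg_lamE (L := L1) (M * p)) :=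
    lgf_lam_transcendental L1 (M * p) two_ne_zero
  have hyA : Transcendental ↥O1 (lg_lamE (L := L1) (M * p)) := fc_ff_transcendental (L := L1) hx
  haveI : IsIntegrallyClosed (Algebra.adjoin ↥O1 ({lg_lamE (M * p)} : Set ↥(lg_E L1 (M * p)))) :=
    fc_ff_isIntegrallyClosed hyA
  haveI : FaithfulSMul (Algebra.adjoin ↥O1 ({lg_lamE (M * p)} : Set ↥(lg_E L1 (M * p))))
      ↥(lg_E L1 (M * p)) :=
    (faithfulSMul_iff_algebraMap_injective _ _).2 Subtype.val_injective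
  haveI := lgf_finite L1 (M * p)
  haveI : IsNoetherianRing ↥(fc_chart ↥O1 ({lg_lamE (M * p)} : Set ↥(lg_E L1 (M * p)))) :=
    ssm_ths_chart_isNoetherianRing (A0 := ↥O1) (L := L1) hx
  haveI : IsIntegrallyClosed ↥(fc_chart ↥O1 ({lg_lamE (M * p)} : Set ↥(lg_E L1 (M * p)))) :=
    ssm_ths_chart_isIntegrallyClosed (A0 := ↥O1) (L := L1) _
  haveI : IsFractionRing ↥(fc_chart ↥O1 ({lg_lamE (M * p)} : Set ↥(lg_E L1 (M * p))))
      ↥(lg_E L1 (M * p)) :=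
    ssm_ths_chart_isFractionRing (A0 := ↥O1) (L := L1) _
  haveI h𝔫p : 𝔫.IsPrime := h𝔫.isPrime
  have hprime : Prime (algebraMap ↥O1 (fc_chart ↥O1 ({lg_lamE M} : Set ↥(lg_E L1 M))) π) :=
    (ssm_ll_prime L1 M hπ p (ssm_fln_q_mem L1 O1 p) (ssm_fl_ne_two p hp2) hpM ζ hζ).1
  have H := ssm_gl_hyp O1 hπ M p hp2 hpM hprime
  have hC := ssm_tp_ff_chart (L := L1) hπ hx
  -- the reduction maps
  set φ : ↥(lg_F L1 (M * p)) →+* ↥(lg_E L1 (M * p)) :=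
    (lg_phiE (L := L1) (N := M * p)).toRingHom with hφdef
  have hφ : ∀ x : ↥(lg_F L1 (M * p)), φ x ∈ ssm_gl_V1 O1 hπ M p ↔ x ∈ s44mz_VF O1 hπ M p :=
    fun x => s44nlr_phi_mem_iff O1 hπ M p x
  set red := s44nlr_red A hA M hpM L1 hπ with hreddef
  have hker0 : ∀ z : ↥(s44mz_VF O1 hπ M p),
      (z : ↥(lg_F L1 (M * p))) ∈ (s44mz_VF O1 hπ M p).nonunits → red z = 0 :=
    s44nlr_red_hker A hA M hpM L1 hπ
  have hred : ∀ (x : ↥(s44mz_VF O1 hπ M p))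
      (hb : ssm_al_iotaF L1 (M * p) (x : ↥(lg_F L1 (M * p))) ∈
        s44pg_W A hA hp.out.ne_zero (M * p)),
      red x = s44rd_red A hA M hpM ⟨ssm_al_iotaF L1 (M * p) (x : ↥(lg_F L1 (M * p))), hb⟩ :=
    fun x hb => rfl
  set r := s44re_r O1 hπ M p hp2 hpM with hrdef
  have hker : ∀ z : ↥(ssm_gl_V1 O1 hπ M p),
      (z : ↥(lg_E L1 (M * p))) ∈ (ssm_gl_V1 O1 hπ M p).nonunits → r z = 0 :=
    s44re_r_hker O1 hπ M p hp2 hpM
  -- STEP 1: the valuation ring `𝒲`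
  have hBV1 : ∀ b ∈ fc_chart ↥O1 ({lg_lamE (M * p)} : Set ↥(lg_E L1 (M * p))),
      b ∈ ssm_gl_V1 O1 hπ M p := fun b hb => hC.le H.over1 hb
  have hBV2 : ∀ b ∈ fc_chart ↥O1 ({lg_lamE (M * p)} : Set ↥(lg_E L1 (M * p))),
      b ∈ ssm_gl_V2 O1 hπ M p hp2 hpM := fun b hb => hC.le H.over2 hb
  obtain ⟨𝒲, h𝒲B, h𝒲n⟩ := m59td_exists_W (ssm_gl_V1 O1 hπ M p) r hker
    (fc_chart ↥O1 ({lg_lamE (M * p)} : Set ↥(lg_E L1 (M * p)))).val.toRingHom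
    (fun b => hBV1 _ b.2) 𝔫
    (fun b hb => hP1 ((H.mem_P1 hC).2 hb))
  -- STEP 2: the composite `𝒱'` and its centre
  have hB𝒱 : ∀ b ∈ fc_chart ↥O1 ({lg_lamE (M * p)} : Set ↥(lg_E L1 (M * p))),
      b ∈ tori_comp (ssm_gl_V1 O1 hπ M p) r hker 𝒲 := fun b hb =>
    ⟨hBV1 b hb, h𝒲B ⟨b, hb⟩⟩
  have h𝔫eq : ∀ b : ↥(fc_chart ↥O1 ({lg_lamE (M * p)} : Set ↥(lg_E L1 (M * p)))),
      b ∈ 𝔫 ↔ (b : ↥(lg_E L1 (M * p))) ∈
        (tori_comp (ssm_gl_V1 O1 hπ M p) r hker 𝒲).nonunits := by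
    intro b
    rw [tori_comp_mem_nonunits_iff, h𝒲n b]
    exact ⟨fun h => ⟨hBV1 _ b.2, h⟩, fun ⟨_, h⟩ => h⟩
  have hcentre : s44ndl_n L1 O1 hπ M p hp2 hpM 𝒲 = 𝔫 := by
    ext b
    rw [h𝔫eq b]
    exact ssm_tp_mem_P hB𝒱
  -- the local ring of the point lies in `𝒱'`, with `𝔫 B_𝔫 ⊆ 𝔪(𝒱')`
  have hS𝒱 : ∀ z ∈ ssl_locSub ↥(lg_E L1 (M * p)) 𝔫,
      z ∈ tori_comp (ssm_gl_V1 O1 hπ M p) r hker 𝒲 := by
    intro z hz
    obtain ⟨a, s, hs, hzs⟩ := (ssl_mem_loc 𝔫).1 hz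
    have hs' : (s : ↥(lg_E L1 (M * p))) ∉
        (tori_comp (ssm_gl_V1 O1 hπ M p) r hker 𝒲).nonunits := fun h => hs ((h𝔫eq s).2 h)
    have hs0 : (s : ↥(lg_E L1 (M * p))) ≠ 0 := ssm_tp_ne_zero _ hs'
    have : z = (a : ↥(lg_E L1 (M * p))) * (s : ↥(lg_E L1 (M * p)))⁻¹ := by
      rw [← hzs, mul_assoc, mul_inv_cancel₀ hs0, mul_one]
    rw [this]
    exact ValuationSubring.mul_mem _ _ _ (hB𝒱 _ a.2) (ssm_tp_inv_mem _ hs')
  -- STEP 3: the valuation ring `W0` of `FF_M`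
  obtain ⟨W0, hext0⟩ := m59td_exists_W0 φ (s44mz_VF O1 hπ M p) (ssm_gl_V1 O1 hπ M p) hφ red hker0
    r hker 𝒲
  -- STEP 4: the modular unit at the crossing point
  have hU1coe : ((U1 : ↥(lg_F L1 (M * p))) : LaurentSeries L1) = mzb_qi_U L1 p :=
    s44eu_model_coe L1 p (M * p) _ hU1
  have hUV1 := s44un_V1 O1 hπ M p U1 hU1coe
  have hUV2 := s44un_V2 O1 hπ M p hp2 hpM U1 hU1coe
  set G : ↥(lg_E L1 (M * p)) := lg_phiE (L := L1) (N := M * p) U1 with hGdef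
  have hG0 : G ≠ 0 := hUV1.1
  have hp12 : algebraMap L1 ↥(lg_E L1 (M * p)) ((p : L1) ^ 12) ∈
      (ssm_gl_V2 O1 hπ M p hp2 hpM).nonunits := by
    have hqO : ((p : ℕ) : ↥O1) ∈ maximalIdeal ↥O1 := ssm_fln_q_mem L1 O1 p
    rw [hπ.maximalIdeal_eq, Ideal.mem_span_singleton] at hqO
    obtain ⟨c, hc⟩ := hqO
    have e : algebraMap L1 ↥(lg_E L1 (M * p)) ((p : L1) ^ 12) =
        algebraMap ↥O1 ↥(lg_E L1 (M * p)) π *
          algebraMap ↥O1 ↥(lg_E L1 (M * p)) (c * ((p : ℕ) : ↥O1) ^ 11) := by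
      rw [← map_mul, ← mul_assoc, ← hc, ← pow_succ',
        IsScalarTower.algebraMap_apply ↥O1 L1 ↥(lg_E L1 (M * p))]
      congr 1
    rw [e]
    exact ssm_tp_nonunits_mul _ H.over2.pi_mem (hBV2 _ (Subalgebra.algebraMap_mem _ _))
  have hG2 : G ∈ (ssm_gl_V2 O1 hπ M p hp2 hpM).nonunits := by
    have e : G = algebraMap L1 ↥(lg_E L1 (M * p)) ((p : L1) ^ 12) *
        (G / algebraMap L1 ↥(lg_E L1 (M * p)) ((p : L1) ^ 12)) := by
      have hp0 : algebraMap L1 ↥(lg_E L1 (M * p)) ((p : L1) ^ 12) ≠ 0 := by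
        rw [Ne, map_eq_zero]
        exact pow_ne_zero 12 (Nat.cast_ne_zero.2 (NeZero.ne p))
      field_simp
    rw [e]
    exact ssm_tp_nonunits_mul _ hp12 hUV2.2.1
  have hGS : G ∈ ssl_locSub ↥(lg_E L1 (M * p)) 𝔫 := by
    refine m59td_node_mem 𝔫 H hC
      (algebraMap ↥O1 ↥(fc_chart ↥O1 ({lg_lamE (M * p)} : Set ↥(lg_E L1 (M * p)))) π) rfl
      hP1 hP2 hUV1.2.1 (ValuationSubring.nonunits_subset hG2) ?_
    intro 𝔮 h𝔮
    exact ssl_memAt_of_unitAt (R := ↥(ssl_locSub ↥(lg_E L1 (M * p)) 𝔫))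
      (F := ↥(lg_E L1 (M * p))) 𝔮
      (s44un_hor L1 O1 hπ M p hp2 hpM ζ hζ U1 hU1coe 𝔫 hP1 hP2 𝔮 h𝔮)
  -- STEP 5: `G` is a non-unit of `𝒱'`
  have hG𝒱 : G ∈ (tori_comp (ssm_gl_V1 O1 hπ M p) r hker 𝒲).nonunits := by
    obtain ⟨a, s, hs, hGs⟩ := (ssl_mem_loc 𝔫).1 hGS
    have ha2 : (a : ↥(lg_E L1 (M * p))) ∈ (ssm_gl_V2 O1 hπ M p hp2 hpM).nonunits := by
      rw [← hGs]
      exact ssm_tp_nonunits_mul _ hG2 (hBV2 _ s.2)
    have ha𝔫 : a ∈ 𝔫 := hP2 ((H.mem_P2 hC).2 ha2)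
    have ha𝒱 := (h𝔫eq a).1 ha𝔫
    have hs' : (s : ↥(lg_E L1 (M * p))) ∉
        (tori_comp (ssm_gl_V1 O1 hπ M p) r hker 𝒲).nonunits := fun h => hs ((h𝔫eq s).2 h)
    have hs0 : (s : ↥(lg_E L1 (M * p))) ≠ 0 := ssm_tp_ne_zero _ hs'
    have e : G = (a : ↥(lg_E L1 (M * p))) * (s : ↥(lg_E L1 (M * p)))⁻¹ := by
      rw [← hGs, mul_assoc, mul_inv_cancel₀ hs0, mul_one]
    rw [e]
    exact ssm_tp_nonunits_mul _ ha𝒱 (ssm_tp_inv_mem _ hs')
  -- STEP 6: `ū` is a nonzero non-unit of `W0`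
  have hφU : φ U1 = G := rfl
  have hU1ne : (U1 : ↥(lg_F L1 (M * p))) ≠ 0 := by
    intro h
    apply hG0
    rw [hGdef, h, map_zero]
  have hUc : U1 ∈ tori_comp (s44mz_VF O1 hπ M p) red hker0 W0 :=
    (hext0 U1).1 (ValuationSubring.nonunits_subset hG𝒱)
  have hUic : (U1 : ↥(lg_F L1 (M * p)))⁻¹ ∉ tori_comp (s44mz_VF O1 hπ M p) red hker0 W0 := by
    intro h
    have h1 := (hext0 _).2 h
    rw [map_inv₀, hφU] at h1
    rcases (ValuationSubring.mem_nonunits_iff_or _).1 hG𝒱 with h0 | h2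
    · exact hG0 h0
    · exact h2 h1
  have hUnu : (U1 : ↥(lg_F L1 (M * p))) ∈
      (tori_comp (s44mz_VF O1 hπ M p) red hker0 W0).nonunits :=
    (ValuationSubring.mem_nonunits_iff_or _).2 (Or.inr hUic)
  obtain ⟨hUW, hUr⟩ := (tori_comp_mem_nonunits_iff (s44mz_VF O1 hπ M p) red hker0 W0).1 hUnu
  have hUiW : (U1 : ↥(lg_F L1 (M * p)))⁻¹ ∈ s44mz_VF O1 hπ M p := by
    have h1 : φ ((U1 : ↥(lg_F L1 (M * p)))⁻¹) ∈ ssm_gl_V1 O1 hπ M p := by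
      rw [map_inv₀, hφU]
      exact hUV1.2.2
    exact (hφ _).1 h1
  have hrU0 : red ⟨U1, hUW⟩ ≠ 0 := by
    refine m59td_r_ne_zero (s44mz_VF O1 hπ M p) red hUW (fun hnu => ?_)
    rcases (ValuationSubring.mem_nonunits_iff_or _).1 hnu with h0 | h2
    · exact hU1ne h0
    · exact h2 hUiW
  -- STEP 7-9: the place `Q`
  have hW0top : W0 ≠ ⊤ := by
    intro htop
    have h1 := hUr
    rw [htop, ValuationSubring.mem_nonunits_iff_or] at h1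
    rcases h1 with h1 | h1
    · exact hrU0 h1
    · exact h1 (ValuationSubring.mem_top _)
  haveI := jcr_charP A hA
  haveI := jcr_isAlgClosed A
  obtain ⟨Q, hQ⟩ := rpf_exists_place (K := s44e_kA A) (F := ↥(s44e_FF A M))
    (jcr_isSepGen (k := s44e_kA A) M hpM (jcr_rho A hA)) W0
    (fun c => s44ndc_const_mem_kA A hA W0 c) hW0top
  -- STEP 10: `𝒲` extends the rank-2 valuation of `Q`
  have hExt : s44ndl_Ext A hA M hp2 hpM L1 hπ Q 𝒲 := by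
    intro x
    rw [hQ]
    exact hext0 x
  -- STEP 11: `j̄` is finite at `Q`
  have hjQ : jcr_j (k := s44e_kA A) M ∈ Q.toValuationSubring := by
    have hj1 := s44un_j_mem_loc L1 O1 hπ M p hp2 hpM ζ hζ 𝔫 hP1 hP2
    have e : φ (rpz_jF L1 (M * p)) = s44uv_j2E L1 (M * p) := Subtype.ext rfl
    have hj2 : φ (rpz_jF L1 (M * p)) ∈ tori_comp (ssm_gl_V1 O1 hπ M p) r hker 𝒲 := by
      rw [e]
      exact hS𝒱 _ hj1
    obtain ⟨hjW, hjr⟩ := (hext0 _).1 hj2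
    rw [hQ, ← s44udm_red_j A hA M hpM L1 hπ]
    exact hjr
  -- STEP 12: `Q` is supersingular
  have hSS : s44e_IsSS A M p hp.out hpM Q := by
    by_contra hns
    have h0 := (s44udm_udiv A hA M hpM hp2 Q hjQ).2 hns
    have hredU : red ⟨U1, hUW⟩ = s44e_ubar A M p := by
      rw [hred _ (s44eu_model_mem A hA M L1 hU1)]
      exact s44eu_red_model A hA M hpM L1 hU1 _
    have hpos : 0 < Q.ord (s44e_ubar A M p) := by
      rw [← hredU, hw_ord_pos_iff Q hrU0, hQ]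
      rcases (ValuationSubring.mem_nonunits_iff_or _).1 hUr with h | h
      · exact absurd h hrU0
      · exact h
    omega
  exact ⟨Q, 𝒲, hSS, hExt, hcentre⟩

end Inst

section Lab

variable (A : ValuationSubring Qb) {q : ℕ} [hq : Fact q.Prime] (hA : A.LiesOverPrime q)
  (N' : ℕ) [NeZero N'] [NeZero q] [NeZero (N' * q)] (hq2 : ¬ 2 ∣ q) (hqN' : ¬ q ∣ N')
  (L : IntermediateField ℚ Qb) [NumberField ↥L]
  [IsDiscreteValuationRing ↥(A.comap (algebraMap ↥L Qb))]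
  [CharP (ResidueField ↥(A.comap (algebraMap ↥L Qb))) q]
  {π : ↥(A.comap (algebraMap ↥L Qb))} (hπ : Irreducible π)
  (ζ : ↥L) (hζ : IsPrimitiveRoot ζ N')

include hζ in
/-- **[DICT1] in the vocabulary of `Tor/Defs1`**: every crossing point `𝔫 ⊇ P1 + P2` of the chart
`B1` carries the label of a supersingular place (`L ∋ ζ_{N'}` carrying a model `U1` of the modular
unit). -/
theorem m59td_dict1_lab (U1 : ↥(lg_F ↥L (N' * q)))
    (hU1 : ssm_al_iotaF ↥L (N' * q) U1 =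
      s44hu_U q (N' * q) (s44hu_dvd (rfl : N' * q = N' * q)))
    (𝔫 : Ideal ↥(m59t1_B1 A N' q L)) (h𝔫 : 𝔫.IsMaximal)
    (hP1 : m59t1_P1 A N' L hπ ≤ 𝔫) (hP2 : m59t1_P2 A N' hq2 hqN' L hπ ≤ 𝔫) :
    ∃ Q : s44e_Sg A N' q hq.out hqN', m59t1_Lab A hA N' hq2 hqN' L hπ 𝔫 Q.1 := by
  obtain ⟨Q, 𝒲, hSS, hExt, hn⟩ :=
    m59td_dict1 A hA N' hq2 hqN' L hπ ζ hζ U1 hU1 𝔫 h𝔫 hP1 hP2
  exact ⟨⟨Q, hSS⟩, 𝒲, hExt, hn⟩

/-- **[DICT1], uniform form**: there is a finite set `T ⊆ ℚ̄` such that over EVERY level `L ⊇ T`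
containing a primitive `N'`-th root of unity every crossing point of the chart carries the label of
a supersingular place. -/
theorem m59td_dict1_T (A : ValuationSubring Qb) {q : ℕ} [hq : Fact q.Prime]
    (hA : A.LiesOverPrime q) (N' : ℕ) [NeZero N'] [NeZero q] [NeZero (N' * q)] (hq2 : ¬ 2 ∣ q)
    (hqN' : ¬ q ∣ N') :
    ∃ T : Finset Qb, ∀ (L : IntermediateField ℚ Qb) [NumberField ↥L]
      [IsDiscreteValuationRing ↥(A.comap (algebraMap ↥L Qb))]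
      [CharP (ResidueField ↥(A.comap (algebraMap ↥L Qb))) q]
      {π : ↥(A.comap (algebraMap ↥L Qb))} (hπ : Irreducible π)
      (ζ : ↥L) (_ : IsPrimitiveRoot ζ N'), (↑T : Set Qb) ⊆ L →
      ∀ (𝔫 : Ideal ↥(m59t1_B1 A N' q L)) (_ : 𝔫.IsMaximal),
        m59t1_P1 A N' L hπ ≤ 𝔫 → m59t1_P2 A N' hq2 hqN' L hπ ≤ 𝔫 →
        ∃ Q : s44e_Sg A N' q hq.out hqN', m59t1_Lab A hA N' hq2 hqN' L hπ 𝔫 Q.1 := by
  obtain ⟨T, hT⟩ := s44eu_exists_model q (N' * q) (s44hu_dvd (rfl : N' * q = N' * q))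
  refine ⟨T, fun L _ _ _ π hπ ζ hζ hTL 𝔫 h𝔫 hP1 hP2 => ?_⟩
  obtain ⟨U1, hU1⟩ := hT L hTL
  exact m59td_dict1_lab A hA N' hq2 hqN' L hπ ζ hζ U1 hU1 𝔫 h𝔫 hP1 hP2

end Lab

end Fermat.Agent.M59
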