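/-
M59 / Sink B, leaf 4 [TOR-SURJ], cell (ex1), THE COMBINATORIAL ASSEMBLY (helper5).  Prefix `m59tx_`.
Imports Mathlib only.

`O` a domain, `π` a prime, `ζ ∈ Oˣ` a primitive `p`-th root of unity, `k₁ ∈ O`, `k₂ ∈ Oˣ` (the two
constant reductions of a normal form).  `Pt` = the crossing points, `Sg` = the supersingular places,
`Lab P Q` = "the point `P` lies over `Q`", `Rat P c` = "the toric datum at `P` is the constant `c`".  If

* (h1) at every point the datum is SOME constant `c₀` with `c₀ᵖ k₂ ≡ k₁ mod π`  (`m59tx_leg_node`),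
* (h2) the datum only matters modulo `π`,
* (h3) two points over the same `Q` carry the same datum  ([TAU-INV]),

then there are ONE unit `ε` and exponents `e : Sg → ZMod p`, `e Q0 = 0`, such that the datum at every
point over `Q` is `ζ ^ (e Q) · ε`: the shape of `m59t1_T1`.
-/
import Mathlib

set_option autoImplicit false
set_option linter.unusedSectionVars false
set_option linter.unusedVariables false

namespace Fermat.Agent.M59

/-- `π` prime, `ζ` a primitive `p`-th root of unity: `π ∣ xᵖ - yᵖ ⟹ π ∣ x - ζᵃ y` for some `a`. -/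
theorem m59tx_root_of_unity {O : Type*} [CommRing O] [IsDomain O] {π : O} (hπ : Prime π) {p : ℕ}
    (hp : 0 < p) {ζ : O} (hζ : IsPrimitiveRoot ζ p) {x y : O} (h : π ∣ x ^ p - y ^ p) :
    ∃ a < p, π ∣ x - ζ ^ a * y := by
  classical
  have : NeZero p := ⟨hp.ne'⟩
  rw [IsPrimitiveRoot.pow_sub_pow_eq_prod_sub_mul x y hp hζ] at h
  obtain ⟨μ, hμ, hdvd⟩ := (Prime.dvd_finsetProd_iff hπ _).1 h
  rw [Polynomial.mem_nthRootsFinset hp] at hμ
  obtain ⟨a, ha, rfl⟩ := hζ.eq_pow_of_pow_eq_one hμ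
  exact ⟨a, ha, hdvd⟩

/-- **the combinatorial assembly of (ex1)**. -/
theorem m59tx_assemble {O : Type*} [CommRing O] [IsDomain O] {π : O} (hπ : Prime π) {p : ℕ}
    (hp : 0 < p) (ζ : Oˣ) (hζ : IsPrimitiveRoot (ζ : O) p) (k1 : O) (k2 : Oˣ)
    {Sg Pt : Type*} (Q0 : Sg) (Lab : Pt → Sg → Prop) (Rat : Pt → Oˣ → Prop)
    (h1 : ∀ P, ∃ c0 : Oˣ, Rat P c0 ∧ π ∣ (c0 : O) ^ p * (k2 : O) - k1)
    (h2 : ∀ P (c c' : Oˣ), Rat P c → π ∣ (c : O) - (c' : O) → Rat P c')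
    (h3 : ∀ P P' Q, Lab P Q → Lab P' Q → ∀ ε, Rat P ε → Rat P' ε) :
    ∃ (e : Sg → ZMod p) (ε : Oˣ), e Q0 = 0 ∧ ∀ P Q, Lab P Q → Rat P (ζ ^ (e Q).val * ε) := by
  classical
  -- the places carrying a point, and the datum there
  set S : Sg → Prop := fun Q => ∃ P, Lab P Q with hS
  set d : Sg → Oˣ := fun Q => if h : S Q then (h1 h.choose).choose else 1 with hd
  have key1 : ∀ Q, S Q → π ∣ ((d Q : Oˣ) : O) ^ p * (k2 : O) - k1 := by
    intro Q hQ
    rw [hd]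
    simp only [dif_pos hQ]
    exact (h1 hQ.choose).choose_spec.2
  have key2 : ∀ Q P, Lab P Q → Rat P (d Q) := by
    intro Q P hPQ
    have hQ : S Q := ⟨P, hPQ⟩
    have h4 : Rat hQ.choose (d Q) := by
      rw [hd]
      simp only [dif_pos hQ]
      exact (h1 hQ.choose).choose_spec.1
    exact h3 _ _ Q hQ.choose_spec hPQ _ h4
  -- two data have the same `p`-th power modulo `π`
  have key3 : ∀ Q Q', S Q → S Q' → π ∣ ((d Q : Oˣ) : O) ^ p - ((d Q' : Oˣ) : O) ^ p := by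
    intro Q Q' hQ hQ'
    have e1 := dvd_sub (key1 Q hQ) (key1 Q' hQ')
    have e2 : ((d Q : Oˣ) : O) ^ p * (k2 : O) - k1 - (((d Q' : Oˣ) : O) ^ p * (k2 : O) - k1) =
        (((d Q : Oˣ) : O) ^ p - ((d Q' : Oˣ) : O) ^ p) * (k2 : O) := by ring
    rw [e2] at e1
    exact (IsUnit.dvd_mul_right k2.isUnit).1 e1
  -- the reference unit
  obtain ⟨ε, hε0, hε⟩ : ∃ ε : Oˣ, (S Q0 → ε = d Q0) ∧
      ∀ Q, S Q → π ∣ ((d Q : Oˣ) : O) ^ p - (ε : O) ^ p := by
    by_cases h0 : S Q0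
    · exact ⟨d Q0, fun _ => rfl, fun Q hQ => key3 Q Q0 hQ h0⟩
    · by_cases hex : ∃ Q, S Q
      · obtain ⟨Q1, hQ1⟩ := hex
        exact ⟨d Q1, fun h => absurd h h0, fun Q hQ => key3 Q Q1 hQ hQ1⟩
      · exact ⟨1, fun h => absurd h h0, fun Q hQ => absurd ⟨Q, hQ⟩ hex⟩
  have key4 : ∀ Q, S Q → ∃ a < p, π ∣ ((d Q : Oˣ) : O) - (ζ : O) ^ a * (ε : O) := fun Q hQ =>
    m59tx_root_of_unity hπ hp hζ (hε Q hQ)
  set e : Sg → ZMod p := fun Q =>
    if Q = Q0 then 0 else if h : S Q then (((key4 Q h).choose : ℕ) : ZMod p) else 0 with he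
  refine ⟨e, ε, ?_, ?_⟩
  · rw [he]
    simp only [if_pos]
  · intro P Q hPQ
    have hQ : S Q := ⟨P, hPQ⟩
    refine h2 P (d Q) _ (key2 Q P hPQ) ?_
    rw [Units.val_mul, Units.val_pow_eq_pow_val]
    by_cases hQ0 : Q = Q0
    · have e0 : e Q = 0 := by
        rw [he]
        simp only [if_pos hQ0]
      rw [e0, ZMod.val_zero, pow_zero, one_mul, hε0 (hQ0 ▸ hQ), hQ0, sub_self]
      exact dvd_zero _
    · have e0 : e Q = (((key4 Q hQ).choose : ℕ) : ZMod p) := by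
        rw [he]
        simp only [if_neg hQ0, dif_pos hQ]
      obtain ⟨hlt, hdvd⟩ := (key4 Q hQ).choose_spec
      rw [e0, ZMod.val_natCast, Nat.mod_eq_of_lt hlt]
      exact hdvd

end Fermat.Agent.M59
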