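/-
M59 / Sink B, leaf 4 [TOR-SURJ], cell (ex1), LOCAL PART (helper5).  Prefix `m59tx_`.

EXISTENCE OF THE LOCAL TORIC DATUM AT A CLOSED POINT, WITH CONSTANT (NOT NECESSARILY EQUAL) REDUCTIONS
ALONG THE BRANCHES.  `R` a factorial noetherian normal domain (`R = B_𝔫`), `F = Frac R`.

* `m59tx_local_data` : helper3's `s36g_local_data` (`S36/Glue/Rel.lean`) with the hypothesis
  `f ≡ 1` along every branch replaced by `f ≡ κ j` along the branch `j`, `κ j ∈ Rˣ`: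
  `f = ω gᵐ`, `g` a unit along every branch with branch values `a j`, and `ω (a j)ᵐ ≡ κ j mod u j`.
* `m59tx_ratio_exists` : two branches through a point `𝔪 ⊇ (u 1), (u 2)` of a LOCAL ring: some
  `c ∈ Rˣ` has `m59tl_Ratio 𝔪 (u 1) (u 2) m f c` and `cᵐ κ₂ ≡ κ₁ mod 𝔪`
  ("the `m`-th power of the toric datum is the ratio of the two constant reductions").
-/
import Mathlib
import Fermat.Agent.S36.Glue.Rel
import Fermat.Agent.M59.SinkB.Tor.Local

set_option autoImplicit false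
set_option linter.unusedSectionVars false
set_option linter.unusedVariables false

namespace Fermat.Agent.M59

open Fermat.Agent.SS Fermat.Agent.S35 Fermat.Agent.S36

section Data

variable {R : Type*} [CommRing R] [IsDomain R] [IsNoetherianRing R] [IsIntegrallyClosed R]
  [UniqueFactorizationMonoid R] {F : Type*} [Field F] [Algebra R F] [IsFractionRing R F]

/-- **existence of the local data at a closed point, constant reductions `κ j` along the branches.** -/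
theorem m59tx_local_data {ι : Type*} [Fintype ι] (π : R) (u : ι → R) (e : ι → ℕ)
    (hu : ∀ j, Prime (u j)) (he : ∀ j, e j ≠ 0) (hπ : Associated π (∏ j, u j ^ e j))
    (hsm : ∀ j, IsIntegrallyClosed (R ⧸ Ideal.span {u j})) (m : ℕ) (hm : 0 < m) {f : F}
    (hf : f ≠ 0)
    (hdiv : ∀ 𝔮 : Ideal R, ssl_Horiz π 𝔮 → ∃ G : F, G ≠ 0 ∧ ssl_UnitAt F 𝔮 (f / G ^ m))
    (κ : ι → Rˣ)
    (hf1 : ∀ j, s36g_MemM (Ideal.span {u j}) (f - algebraMap R F (κ j : R))) :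
    ∃ (ω : Rˣ) (g : F) (a : ι → R), f = algebraMap R F (ω : R) * g ^ m ∧
      (∀ j, ssl_UnitAt F (Ideal.span {u j}) g) ∧
      (∀ j, s36g_MemM (Ideal.span {u j}) (g - algebraMap R F (a j))) ∧
      (∀ j, (ω : R) * a j ^ m - (κ j : R) ∈ Ideal.span {u j}) := by
  have hprime : ∀ j, (Ideal.span {u j}).IsPrime := fun j =>
    (Ideal.span_singleton_prime (hu j).ne_zero).2 (hu j)
  have hκnot : ∀ j, (κ j : R) ∉ Ideal.span {u j} := fun j h =>
    (hprime j).ne_top (Ideal.eq_top_of_isUnit_mem _ h (κ j).isUnit)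
  have hunit : ∀ j, ssl_UnitAt F (Ideal.span {u j}) f := by
    intro j
    have := hprime j
    exact s36g_unitAt_of_memM_sub (Ideal.span {u j}) (hκnot j) (hf1 j)
  have hassoc : ∀ p : R, Prime p → p ∣ π → ∃ j, Associated p (u j) := by
    intro p hp hpπ
    have h1 : p ∣ ∏ j, u j ^ e j := hpπ.trans hπ.dvd
    obtain ⟨j, -, hj⟩ := (Prime.dvd_finsetProd_iff hp _).1 h1
    have h2 : p ∣ u j := hp.dvd_of_dvd_pow hj
    exact ⟨j, (hp.irreducible.dvd_irreducible_iff_associated (hu j).irreducible).1 h2⟩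
  have hvert : ∀ p : R, Prime p → p ∣ π → ssl_UnitAt F (Ideal.span {p}) f := by
    intro p hp hpπ
    obtain ⟨j, hj⟩ := hassoc p hp hpπ
    rw [Ideal.span_singleton_eq_span_singleton.2 hj]
    exact hunit j
  obtain ⟨g, hg0, hgv, ω, hfg⟩ := tori_sfd_local π m hf hdiv hvert
  have hujπ : ∀ j, u j ∣ π := by
    intro j
    have h1 : u j ∣ u j ^ e j := dvd_pow_self _ (he j)
    exact (h1.trans (Finset.dvd_prod_of_mem (fun j => u j ^ e j) (Finset.mem_univ j))).trans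
      hπ.symm.dvd
  have hgu : ∀ j, ssl_UnitAt F (Ideal.span {u j}) g := fun j => hgv (u j) (hu j) (hujπ j)
  -- `(ω κ⁻¹) gᵐ - 1 = κ⁻¹ (f - κ)`
  have hκinv : ∀ j, algebraMap R F (((κ j)⁻¹ : Rˣ) : R) * algebraMap R F (κ j : R) = 1 := by
    intro j
    rw [← map_mul, ← Units.val_mul, inv_mul_cancel, Units.val_one, map_one]
  have hex : ∀ j, ∃ a : R, a ∉ Ideal.span {u j} ∧
      s36g_MemM (Ideal.span {u j}) (g - algebraMap R F a) := by
    intro j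
    have := hprime j
    have := hsm j
    refine s36g_exists_branch_value (Ideal.span {u j}) hm (hgu j) (ω * (κ j)⁻¹) ?_
    have e1 : algebraMap R F ((ω * (κ j)⁻¹ : Rˣ) : R) * g ^ m - 1 =
        (f - algebraMap R F (κ j : R)) * algebraMap R F (((κ j)⁻¹ : Rˣ) : R) := by
      rw [Units.val_mul, map_mul, hfg, sub_mul, mul_comm (algebraMap R F (κ j : R)), hκinv j]
      ring
    rw [e1]
    exact s36g_memM_mul_memAt _ (hf1 j) (ssl_memAt_algebraMap _ _)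
  choose a ha hga using hex
  refine ⟨ω, g, a, hfg, hgu, hga, fun j => ?_⟩
  have := hprime j
  rw [← s36g_memM_algebraMap_iff (F := F) (Ideal.span {u j})]
  have h1 : algebraMap R F ((ω : R) * a j ^ m - (κ j : R)) =
      (f - algebraMap R F (κ j : R)) -
        (g ^ m - algebraMap R F (a j) ^ m) * algebraMap R F (ω : R) := by
    rw [hfg, map_sub, map_mul, map_pow]; ring
  rw [h1]
  refine s36g_memM_sub _ (hf1 j) (s36g_memM_mul_memAt _ ?_ (ssl_memAt_algebraMap _ _))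
  exact s36g_memM_pow_sub _ (hga j) (ssl_memAt_algebraMap _ _) m

/-- **the toric datum at a node exists, and its `m`-th power is the ratio of the two constant
reductions.**  `R` local with maximal ideal `𝔪`, two branches `(u₁), (u₂) ⊆ 𝔪`, `π ~ u₁^e₁ u₂^e₂`. -/
theorem m59tx_ratio_exists [IsLocalRing R] (π u₁ u₂ : R) (e₁ e₂ : ℕ) (hu₁ : Prime u₁)
    (hu₂ : Prime u₂) (he₁ : e₁ ≠ 0) (he₂ : e₂ ≠ 0) (hπ : Associated π (u₁ ^ e₁ * u₂ ^ e₂))
    (hsm₁ : IsIntegrallyClosed (R ⧸ Ideal.span {u₁}))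
    (hsm₂ : IsIntegrallyClosed (R ⧸ Ideal.span {u₂})) (m : ℕ) (hm : 0 < m) {f : F} (hf : f ≠ 0)
    (hdiv : ∀ 𝔮 : Ideal R, ssl_Horiz π 𝔮 → ∃ G : F, G ≠ 0 ∧ ssl_UnitAt F 𝔮 (f / G ^ m))
    (κ₁ κ₂ : Rˣ)
    (hf1 : s36g_MemM (Ideal.span {u₁}) (f - algebraMap R F (κ₁ : R)))
    (hf2 : s36g_MemM (Ideal.span {u₂}) (f - algebraMap R F (κ₂ : R))) :
    ∃ c : Rˣ, m59tl_Ratio (IsLocalRing.maximalIdeal R) (Ideal.span {u₁}) (Ideal.span {u₂}) m f c ∧
      (c : R) ^ m * (κ₂ : R) - (κ₁ : R) ∈ IsLocalRing.maximalIdeal R := by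
  classical
  set 𝔪 := IsLocalRing.maximalIdeal R with h𝔪
  have hle₁ : Ideal.span {u₁} ≤ 𝔪 :=
    IsLocalRing.le_maximalIdeal ((Ideal.span_singleton_prime hu₁.ne_zero).2 hu₁).ne_top
  have hle₂ : Ideal.span {u₂} ≤ 𝔪 :=
    IsLocalRing.le_maximalIdeal ((Ideal.span_singleton_prime hu₂.ne_zero).2 hu₂).ne_top
  obtain ⟨ω, g, a, hfg, hgu, hga, hωa⟩ := m59tx_local_data (F := F) π
    (fun j : Fin 2 => if j = 0 then u₁ else u₂) (fun j : Fin 2 => if j = 0 then e₁ else e₂)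
    (fun j => by fin_cases j <;> simpa) (fun j => by fin_cases j <;> simpa)
    (by simpa [Fin.prod_univ_two] using hπ)
    (fun j => by fin_cases j <;> simpa) m hm hf hdiv
    (fun j : Fin 2 => if j = 0 then κ₁ else κ₂)
    (fun j => by fin_cases j <;> simpa)
  have hg0 := hgu 0
  have hg1 := hgu 1
  have ha0 := hga 0
  have ha1 := hga 1
  have hw0 := hωa 0
  have hw1 := hωa 1
  simp only [Fin.isValue, ↓reduceIte, one_ne_zero] at hg0 hg1 ha0 ha1 hw0 hw1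
  -- the branch values are units
  have hunit : ∀ (x : R) (κ : Rˣ), (ω : R) * x ^ m - (κ : R) ∈ 𝔪 → IsUnit x := by
    intro x κ hx
    by_contra hnu
    have hx𝔪 : x ∈ 𝔪 := (IsLocalRing.mem_maximalIdeal x).2 hnu
    have h1 : (ω : R) * x ^ m ∈ 𝔪 := 𝔪.mul_mem_left _ (𝔪.pow_mem_of_mem hx𝔪 m hm)
    have h2 : (κ : R) ∈ 𝔪 := by
      have : (κ : R) = (ω : R) * x ^ m - ((ω : R) * x ^ m - (κ : R)) := by ring
      rw [this]
      exact 𝔪.sub_mem h1 hx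
    exact (IsLocalRing.mem_maximalIdeal _).1 h2 κ.isUnit
  obtain ⟨A₁, hA₁⟩ := hunit (a 0) κ₁ (hle₁ hw0)
  obtain ⟨A₂, hA₂⟩ := hunit (a 1) κ₂ (hle₂ hw1)
  refine ⟨A₁ * A₂⁻¹, ⟨ω, g, A₁, A₂, hfg, hg0, hg1, by rw [hA₁]; exact ha0,
    by rw [hA₂]; exact ha1, ?_⟩, ?_⟩
  · have : (A₁ : R) - ((A₁ * A₂⁻¹ : Rˣ) : R) * (A₂ : R) = 0 := by
      rw [Units.val_mul, mul_assoc, ← Units.val_mul, inv_mul_cancel, Units.val_one, mul_one,
        sub_self]
    rw [this]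
    exact 𝔪.zero_mem
  · -- `ω A₁ᵐ ≡ κ₁`, `ω A₂ᵐ ≡ κ₂` modulo `𝔪`
    have h1 : (ω : R) * (A₁ : R) ^ m - (κ₁ : R) ∈ 𝔪 := by rw [hA₁]; exact hle₁ hw0
    have h2 : (ω : R) * (A₂ : R) ^ m - (κ₂ : R) ∈ 𝔪 := by rw [hA₂]; exact hle₂ hw1
    have hA₂inv : ((A₂⁻¹ : Rˣ) : R) * (A₂ : R) = 1 := by
      rw [← Units.val_mul, inv_mul_cancel, Units.val_one]
    have key : ((A₁ * A₂⁻¹ : Rˣ) : R) ^ m * (κ₂ : R) - (κ₁ : R) =
        ((ω : R) * (A₁ : R) ^ m - (κ₁ : R)) -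
          ((A₁ : R) * ((A₂⁻¹ : Rˣ) : R)) ^ m * ((ω : R) * (A₂ : R) ^ m - (κ₂ : R)) := by
      have h3 : ((A₁ : R) * ((A₂⁻¹ : Rˣ) : R)) ^ m * ((ω : R) * (A₂ : R) ^ m) =
          (ω : R) * (A₁ : R) ^ m * (((A₂⁻¹ : Rˣ) : R) * (A₂ : R)) ^ m := by ring
      rw [Units.val_mul, mul_sub, h3, hA₂inv, one_pow]
      ring
    rw [key]
    exact 𝔪.sub_mem h1 (𝔪.mul_mem_left _ h2)

end Data

end Fermat.Agent.M59
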