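/-
M59 / Sink B, leaf 4 [TOR-SURJ], cell (ex1), THE TORIC DATUM EXISTS AT EVERY REGULAR NODE (helper5).
Prefix `m59tx_`.

* `m59tx_ratio_node`  : ring form.  At a regular node `𝔫` of a chart `B` (clauses of `s35l_NodeAt`,
  ring form `s35l_node_ring`; `R = B_𝔫` is factorial by `fc_ufd`, the two branches are smooth at the
  point by `s36g_ic_quot_of_span_pair`), a function `f ≠ 0` all of whose orders at the places of
  `F0 / L` are divisible by `m` and which is congruent to units `κ₁`, `κ₂` of `R` along the two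
  branches has a toric datum `c ∈ Rˣ`: `m59tl_Ratio (𝔫R) (P1 R) (P2 R) m f c`, and
  `cᵐ κ₂ ≡ κ₁ mod 𝔫R`.
* `m59tx_ratio_node_V` : the same for a two-component model (`ssm_tp_Hyp`), the congruences being
  given at the two vertical valuations `V1`, `V2` with CONSTANTS `k₁ k₂ ∈ A0ˣ` (the shape delivered
  by `s35_ConstRed`): the datum `c` has `cᵐ k₂ ≡ k₁ mod 𝔫R`.
-/
import Mathlib
import Fermat.Agent.M59.SinkB.Tor.Ex1Local
import Fermat.Agent.M59.SinkB.Tor.Glue1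
import Fermat.Agent.S36.Glue.NormPt

set_option autoImplicit false
set_option linter.unusedSectionVars false
set_option linter.unusedVariables false
set_option linter.style.haveILetI false

namespace Fermat.Agent.M59

open Fermat.Agent.SS Fermat.Agent.JT3 Fermat.Agent.S35 Fermat.Agent.S36 IsLocalRing AlgebraicCurve
  IntermediateField

universe v

section Node

variable {A0 L : Type*} {F0 : Type v} [CommRing A0] [IsDomain A0] [IsDiscreteValuationRing A0]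
  [Field L] [Field F0] [Algebra A0 L] [IsFractionRing A0 L] [Algebra L F0]
  [Algebra A0 F0] [IsScalarTower A0 L F0]
variable {B : Subalgebra A0 F0} [IsFractionRing B F0] [IsNoetherianRing B] [IsIntegrallyClosed B]
variable {π : A0} (𝔫 : Ideal B) [h𝔫 : 𝔫.IsMaximal]
variable {P1 P2 : Ideal B} [hP1 : P1.IsPrime] [hP2 : P2.IsPrime]

set_option synthInstance.maxHeartbeats 200000 in
set_option maxHeartbeats 1600000 in
/-- **existence of the toric datum at a regular node** (ring form). -/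
theorem m59tx_ratio_node (hπ : Irreducible π) (hϖ0 : algebraMap A0 F0 π ≠ 0)
    (hrad : Ideal.span {algebraMap A0 B π} = P1 ⊓ P2) (h12 : ¬ P1 ≤ P2) (h21 : ¬ P2 ≤ P1)
    (hP1𝔫 : P1 ≤ 𝔫) (hP2𝔫 : P2 ≤ 𝔫) {u v e : F0}
    (huv : u * v = algebraMap A0 F0 π * e)
    (he : ∃ s t : B, s ∉ 𝔫 ∧ t ∉ 𝔫 ∧ (s : F0) * e = t)
    (hu : ∃ s t : B, s ∉ 𝔫 ∧ t ∈ 𝔫 ∧ (s : F0) * u = t)
    (hv : ∃ s t : B, s ∉ 𝔫 ∧ t ∈ 𝔫 ∧ (s : F0) * v = t)
    (hgen : ∀ z ∈ 𝔫, ∃ s c1 c2 c3 : B, s ∉ 𝔫 ∧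
      (s : F0) * (z : F0) = algebraMap A0 F0 π * c1 + u * c2 + v * c3)
    (hu1 : ∃ s t : B, s ∉ P1 ∧ t ∉ P1 ∧ (s : F0) * u = t)
    (hv2 : ∃ s t : B, s ∉ P2 ∧ t ∉ P2 ∧ (s : F0) * v = t)
    {m : ℕ} (hm : 0 < m) {f : F0} (hf0 : f ≠ 0)
    (hord : ∀ P : Place L F0, (m : ℤ) ∣ P.ord f)
    (κ₁ κ₂ : haveI : 𝔫.IsPrime := h𝔫.isPrime; (ssl_locSub F0 𝔫)ˣ)
    (hf1 : haveI : 𝔫.IsPrime := h𝔫.isPrime
      s36g_MemM (P1.map (algebraMap B (ssl_locSub F0 𝔫)))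
        (f - ((κ₁ : ssl_locSub F0 𝔫) : F0)))
    (hf2 : haveI : 𝔫.IsPrime := h𝔫.isPrime
      s36g_MemM (P2.map (algebraMap B (ssl_locSub F0 𝔫)))
        (f - ((κ₂ : ssl_locSub F0 𝔫) : F0))) :
    haveI : 𝔫.IsPrime := h𝔫.isPrime
    ∃ c : (ssl_locSub F0 𝔫)ˣ,
      m59tl_Ratio (𝔫.map (algebraMap B (ssl_locSub F0 𝔫)))
        (P1.map (algebraMap B (ssl_locSub F0 𝔫))) (P2.map (algebraMap B (ssl_locSub F0 𝔫)))
        m f c ∧
      (c : ssl_locSub F0 𝔫) ^ m * (κ₂ : ssl_locSub F0 𝔫) - (κ₁ : ssl_locSub F0 𝔫) ∈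
        𝔫.map (algebraMap B (ssl_locSub F0 𝔫)) := by
  haveI h𝔫p : 𝔫.IsPrime := h𝔫.isPrime
  haveI := ssl_loc_isNoetherianRing (F0 := F0) 𝔫
  haveI := ssl_loc_isIntegrallyClosed (F0 := F0) 𝔫
  haveI := ssl_loc_isLocalRing (F0 := F0) 𝔫
  obtain ⟨uR, vR, eR, huR, hvR, heR, huvR, hpu, hpv, hmax, hspanu, hspanv⟩ :=
    s35l_node_ring 𝔫 hϖ0 hrad h12 h21 hP1𝔫 hP2𝔫 huv he hu hv hgen hu1 hv2
  haveI : UniqueFactorizationMonoid (ssl_locSub F0 𝔫) := fc_ufd hpu hmax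
  have hmap : 𝔫.map (algebraMap B (ssl_locSub F0 𝔫)) = maximalIdeal (ssl_locSub F0 𝔫) :=
    IsLocalization.AtPrime.map_eq_maximalIdeal 𝔫 (ssl_locSub F0 𝔫)
  have hmax' : maximalIdeal (ssl_locSub F0 𝔫) = Ideal.span {vR, uR} := by
    rw [hmax, Set.pair_comm]
  have hsmu : IsIntegrallyClosed (ssl_locSub F0 𝔫 ⧸ Ideal.span {uR}) :=
    s36g_ic_quot_of_span_pair hpu hmax
  have hsmv : IsIntegrallyClosed (ssl_locSub F0 𝔫 ⧸ Ideal.span {vR}) :=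
    s36g_ic_quot_of_span_pair hpv hmax'
  have hπa : Associated (algebraMap B (ssl_locSub F0 𝔫) (algebraMap A0 B π))
      (vR ^ 1 * uR ^ 1) := by
    rw [pow_one, pow_one]
    refine ⟨eR, ?_⟩
    rw [← huvR, mul_comm]
  have hdiv : ∀ 𝔮 : Ideal (ssl_locSub F0 𝔫),
      ssl_Horiz (algebraMap B (ssl_locSub F0 𝔫) (algebraMap A0 B π)) 𝔮 →
      ∃ G : F0, G ≠ 0 ∧ ssl_UnitAt F0 𝔮 (f / G ^ m) :=
    fun 𝔮 h𝔮 => ssl_hdiv_of_places (K := L) (R := ssl_locSub F0 𝔫) hπ hf0 m hord 𝔮 h𝔮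
  obtain ⟨c, hc, hcκ⟩ := m59tx_ratio_exists (F := F0)
    (algebraMap B (ssl_locSub F0 𝔫) (algebraMap A0 B π)) vR uR 1 1 hpv hpu one_ne_zero one_ne_zero
    hπa hsmv hsmu m hm hf0 hdiv κ₁ κ₂ (by rw [hspanv]; exact hf1) (by rw [hspanu]; exact hf2)
  refine ⟨c, ?_, ?_⟩
  · rw [hmap, ← hspanv, ← hspanu]
    exact hc
  · rw [hmap]
    exact hcκ

end Node

section Model

variable {A0 L : Type*} {F0 : Type v} [CommRing A0] [IsDomain A0] [IsDiscreteValuationRing A0]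
  [Field L] [Field F0] [Algebra A0 L] [IsFractionRing A0 L] [CharZero L] [Algebra L F0]
  [Algebra A0 F0] [IsScalarTower A0 L F0]

set_option synthInstance.maxHeartbeats 200000 in
set_option maxHeartbeats 1600000 in
/-- **existence of the toric datum at a regular node of a two-component model**, constant
reductions `k₁` at `V1`, `k₂` at `V2`: the datum `c` has `cᵐ k₂ ≡ k₁` at the node. -/
theorem m59tx_ratio_node_V {π : A0} (hπ : Irreducible π) {x : F0} (hx : Transcendental L x)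
    [FiniteDimensional L⟮x⟯ F0] {V1 V2 : ValuationSubring F0}
    (H : ssm_tp_Hyp (algebraMap A0 (Algebra.adjoin A0 ({x} : Set F0)) π) V1 V2)
    (τ : F0 ≃+* F0) (Q : ℕ)
    (𝔫 : Ideal (fc_chart A0 ({x} : Set F0))) (h𝔫 : 𝔫.IsMaximal)
    (hnode : s35l_NodeAt π τ Q (ssm_tp_P (fc_chart A0 ({x} : Set F0)) V1)
      (ssm_tp_P (fc_chart A0 ({x} : Set F0)) V2) 𝔫)
    {m : ℕ} (hm : 0 < m) {f : F0} (hf0 : f ≠ 0)
    (hord : ∀ P : Place L F0, (m : ℤ) ∣ P.ord f)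
    (k1 k2 : A0ˣ)
    (hf1 : f - algebraMap A0 F0 (k1 : A0) ∈ V1.nonunits)
    (hf2 : f - algebraMap A0 F0 (k2 : A0) ∈ V2.nonunits) :
    haveI := ssm_ths_chart_isFractionRing (A0 := A0) (L := L) x
    haveI : 𝔫.IsPrime := h𝔫.isPrime
    ∃ c : (ssl_locSub F0 𝔫)ˣ,
      m59tl_Ratio (𝔫.map (algebraMap (fc_chart A0 ({x} : Set F0)) (ssl_locSub F0 𝔫)))
        ((ssm_tp_P (fc_chart A0 ({x} : Set F0)) V1).map
          (algebraMap (fc_chart A0 ({x} : Set F0)) (ssl_locSub F0 𝔫)))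
        ((ssm_tp_P (fc_chart A0 ({x} : Set F0)) V2).map
          (algebraMap (fc_chart A0 ({x} : Set F0)) (ssl_locSub F0 𝔫))) m f c ∧
      (c : ssl_locSub F0 𝔫) ^ m * ((m59tl_cst (F0 := F0) 𝔫 k2 : (ssl_locSub F0 𝔫)ˣ) :
          ssl_locSub F0 𝔫) - ((m59tl_cst (F0 := F0) 𝔫 k1 : (ssl_locSub F0 𝔫)ˣ) :
          ssl_locSub F0 𝔫) ∈
        𝔫.map (algebraMap (fc_chart A0 ({x} : Set F0)) (ssl_locSub F0 𝔫)) := by
  have hxA : Transcendental A0 x := fc_ff_transcendental (L := L) hx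
  haveI : IsIntegrallyClosed (Algebra.adjoin A0 ({x} : Set F0)) := fc_ff_isIntegrallyClosed hxA
  haveI : FaithfulSMul (Algebra.adjoin A0 ({x} : Set F0)) F0 :=
    (faithfulSMul_iff_algebraMap_injective _ _).2 Subtype.val_injective
  have hC1 := ssm_tp_ff_chart (L := L) (A0 := A0) (F0 := F0) hπ hx
  have hϖ0 : algebraMap A0 F0 π ≠ 0 := H.algebraMap_ne_zero
  haveI := ssm_ths_chart_isFractionRing (A0 := A0) (L := L) x
  haveI := ssm_ths_chart_isNoetherianRing (A0 := A0) (L := L) hx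
  haveI := ssm_ths_chart_isIntegrallyClosed (A0 := A0) (L := L) x
  haveI := H.P1_isPrime hC1
  haveI := H.P2_isPrime hC1
  haveI := h𝔫
  haveI h𝔫p : 𝔫.IsPrime := h𝔫.isPrime
  obtain ⟨hP1𝔫, hP2𝔫, -, u, v, e, huv, he, hu, hv, hgen, hu1, hv2⟩ := hnode
  have m1 := m59tgl_memM_of_nonunits H hC1 𝔫 hP1𝔫 hf1
  have m2 := m59tgl_memM_of_nonunits H.symm hC1 𝔫 hP2𝔫 hf2
  exact m59tx_ratio_node (L := L) 𝔫 hπ hϖ0 (H.P_inf hC1 _ rfl) (H.P_not_le12 hC1)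
    (H.P_not_le21 hC1) hP1𝔫 hP2𝔫 huv he hu hv hgen hu1 hv2 hm hf0 hord
    (m59tl_cst (F0 := F0) 𝔫 k1) (m59tl_cst (F0 := F0) 𝔫 k2) m1 m2

end Model

end Fermat.Agent.M59
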