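/-
M59 / Sink B, leaf 4 [TOR-SURJ], cell [GLUE1], LEGENDRE INSTANCE (helper15).  Prefix `m59tgl_`.

`L ⊆ Q̄` a number field with `ζ_{N'}`, `O` a discrete valuation ring of `L` with uniformiser `q`
odd, `q ∤ N'`, `φ1` a Frobenius lift (only used to quote `s35ti_leg_pts1`), `E = lg_E L (N' q)`,
`B₁ = fc_chart O {λ}`, `P_i = ssm_tp_P B₁ V_i`.

**`m59tgl_leg`**: `f ∈ E`, `f ≠ 0`, all orders divisible by `m` (a unit of `O`), `f ≡ k₁` at `V1`,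
`f ≡ k₂` at `V2` (units of `O`), `c₀` a unit of `O` with `q ∣ k₁ - k₂ c₀ᵐ`, and
`m59tl_Ratio (𝔫R) (P1 R) (P2 R) m f c₀` at EVERY crossing point `𝔫 ⊇ P1 + P2` of `B₁`
⟹ `f = c · gᵐ`.  This is the core of (inj1): the quotient of two normal forms with the same toric
datum is a constant times an `m`-th power.
-/
import Mathlib
import Fermat.Agent.M59.SinkB.Tor.Glue1
import Fermat.Agent.S35.ToricInst.LegLoc
import Fermat.Agent.M59.SinkB.Tor.RatioConst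

set_option autoImplicit false
set_option linter.unusedSectionVars false
set_option linter.unusedVariables false
set_option linter.style.haveILetI false

noncomputable section

namespace Fermat.Agent.M59

open Fermat.Agent.SS Fermat.Agent.JT3 Fermat.Agent.S35 Fermat.Agent.S36 IsLocalRing AlgebraicCurve
  IntermediateField ModularCurve

section Leg

variable (L : Type) [Field L] [NumberField L] [Algebra L (AlgebraicClosure ℚ)]
  (O : ValuationSubring L) [IsDiscreteValuationRing O]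
variable (N' q : ℕ) [NeZero N'] [NeZero q] [hq : Fact q.Prime] [CharP (ResidueField O) q]
  (hq2 : ¬ 2 ∣ q) (hqN' : ¬ q ∣ N') (hπ : Irreducible ((q : ℕ) : ↥O))
  (ζ : L) (hζ : IsPrimitiveRoot ζ N') (φ1 : L ≃+* L) (hφ1 : s35nf_FrobAt O φ1 q)

include hζ hφ1 in
set_option synthInstance.maxHeartbeats 400000 in
set_option maxHeartbeats 3200000 in
/-- **[GLUE1] for the Legendre tower at level `N' q`.** -/
theorem m59tgl_leg {m : ℕ} (hm : IsUnit (m : O)) {f : ↥(lg_E L (N' * q))} (hf0 : f ≠ 0)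
    (hord : ∀ P : Place L ↥(lg_E L (N' * q)), (m : ℤ) ∣ P.ord f)
    (k1 k2 c0 : (↥O)ˣ) (hK : ((q : ℕ) : ↥O) ∣ (k1 : ↥O) - (k2 : ↥O) * (c0 : ↥O) ^ m)
    (hf1 : f - algebraMap L ↥(lg_E L (N' * q)) ((k1 : ↥O) : L) ∈
      (ssm_gl_V1 O hπ N' q).nonunits)
    (hf2 : f - algebraMap L ↥(lg_E L (N' * q)) ((k2 : ↥O) : L) ∈
      (ssm_gl_V2 O hπ N' q hq2 hqN').nonunits)
    (hrat : ∀ (𝔫 : Ideal (fc_chart ↥O ({lg_lamE (N' * q)} : Set ↥(lg_E L (N' * q)))))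
      (h𝔫 : 𝔫.IsMaximal),
      ssm_tp_P (fc_chart ↥O ({lg_lamE (N' * q)} : Set ↥(lg_E L (N' * q))))
        (ssm_gl_V1 O hπ N' q) ≤ 𝔫 →
      ssm_tp_P (fc_chart ↥O ({lg_lamE (N' * q)} : Set ↥(lg_E L (N' * q))))
        (ssm_gl_V2 O hπ N' q hq2 hqN') ≤ 𝔫 →
      haveI : FiniteDimensional L⟮(lg_lamE (N' * q) : lg_E L (N' * q))⟯ ↥(lg_E L (N' * q)) :=
        lgf_finite L (N' * q)
      haveI := ssm_ths_chart_isFractionRing (A0 := ↥O) (L := L)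
        (lg_lamE (N' * q) : ↥(lg_E L (N' * q)))
      haveI : 𝔫.IsPrime := h𝔫.isPrime
      m59tl_Ratio
        (𝔫.map (algebraMap (fc_chart ↥O ({lg_lamE (N' * q)} : Set ↥(lg_E L (N' * q))))
          (ssl_locSub ↥(lg_E L (N' * q)) 𝔫)))
        ((ssm_tp_P (fc_chart ↥O ({lg_lamE (N' * q)} : Set ↥(lg_E L (N' * q))))
          (ssm_gl_V1 O hπ N' q)).map
          (algebraMap (fc_chart ↥O ({lg_lamE (N' * q)} : Set ↥(lg_E L (N' * q))))
            (ssl_locSub ↥(lg_E L (N' * q)) 𝔫)))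
        ((ssm_tp_P (fc_chart ↥O ({lg_lamE (N' * q)} : Set ↥(lg_E L (N' * q))))
          (ssm_gl_V2 O hπ N' q hq2 hqN')).map
          (algebraMap (fc_chart ↥O ({lg_lamE (N' * q)} : Set ↥(lg_E L (N' * q))))
            (ssl_locSub ↥(lg_E L (N' * q)) 𝔫))) m (f : ↥(lg_E L (N' * q)))
        (m59tl_cst (F0 := ↥(lg_E L (N' * q))) 𝔫 c0)) :
    ∃ (c : L) (g : ↥(lg_E L (N' * q))), g ≠ 0 ∧
      f = algebraMap L ↥(lg_E L (N' * q)) c * g ^ m := by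
  have hqO : ((q : ℕ) : O) ∈ maximalIdeal O := ssm_fln_q_mem L O q
  have hq2' : q ≠ 2 := ssm_fl_ne_two q hq2
  have hp := ssm_ll_prime L N' hπ q hqO hq2' hqN' ζ hζ
  haveI := ssm_go_isScalarTower O (lg_E L (N' * q))
  haveI : FiniteDimensional L⟮(lg_lamE (N' * q) : lg_E L (N' * q))⟯ ↥(lg_E L (N' * q)) :=
    lgf_finite L (N' * q)
  have hx : Transcendental L (lg_lamE (L := L) (N' * q)) :=
    lgf_lam_transcendental L (N' * q) two_ne_zero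
  have H := ssm_gl_hyp O hπ N' q hq2 hqN' hp.1
  have M := s35ti_leg_model L O hπ N' q hq2 hqN' ζ hζ
  obtain ⟨c, g, hg0, hfg⟩ := m59tgl_glue_ratio (L := L) hπ hx H M
    (s35ti_leg_tau (N' * q) φ1) (q ^ 2)
    (fun 𝔫 h𝔫 hπ𝔫 => s35ti_leg_pts1 L O N' q hq2 hqN' hπ ζ hζ φ1 hφ1 𝔫 h𝔫 hπ𝔫)
    (fun 𝔫 h𝔫 hπ𝔫 hμ => s35ti_leg_inf L O N' q hq2 hqN' hπ ζ hζ 𝔫 h𝔫 hπ𝔫 hμ)
    hq.out (dvd_refl _) hm hf0 hord k1 k2 c0 hK hf1 hf2 hrat
  exact ⟨(c : L), g, hg0, hfg⟩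

include hζ in
set_option synthInstance.maxHeartbeats 400000 in
set_option maxHeartbeats 3200000 in
/-- **the hypothesis `hK` of `m59tgl_leg` from ONE crossing point**: `f ≡ k₁` at `V1`, `f ≡ k₂` at
`V2` and ratio `c₀` at a crossing point `𝔫` force `q ∣ k₁ - k₂ c₀ᵐ`. -/
theorem m59tgl_leg_hK {m : ℕ} {f : ↥(lg_E L (N' * q))}
    (k1 k2 c0 : (↥O)ˣ)
    (hf1 : f - algebraMap L ↥(lg_E L (N' * q)) ((k1 : ↥O) : L) ∈
      (ssm_gl_V1 O hπ N' q).nonunits)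
    (hf2 : f - algebraMap L ↥(lg_E L (N' * q)) ((k2 : ↥O) : L) ∈
      (ssm_gl_V2 O hπ N' q hq2 hqN').nonunits)
    (𝔫 : Ideal (fc_chart ↥O ({lg_lamE (N' * q)} : Set ↥(lg_E L (N' * q)))))
    (h𝔫 : 𝔫.IsMaximal)
    (hP1 : ssm_tp_P (fc_chart ↥O ({lg_lamE (N' * q)} : Set ↥(lg_E L (N' * q))))
        (ssm_gl_V1 O hπ N' q) ≤ 𝔫)
    (hP2 : ssm_tp_P (fc_chart ↥O ({lg_lamE (N' * q)} : Set ↥(lg_E L (N' * q))))
        (ssm_gl_V2 O hπ N' q hq2 hqN') ≤ 𝔫)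
    (hrat :
      haveI : FiniteDimensional L⟮(lg_lamE (N' * q) : lg_E L (N' * q))⟯ ↥(lg_E L (N' * q)) :=
        lgf_finite L (N' * q)
      haveI := ssm_ths_chart_isFractionRing (A0 := ↥O) (L := L)
        (lg_lamE (N' * q) : ↥(lg_E L (N' * q)))
      haveI : 𝔫.IsPrime := h𝔫.isPrime
      m59tl_Ratio
        (𝔫.map (algebraMap (fc_chart ↥O ({lg_lamE (N' * q)} : Set ↥(lg_E L (N' * q))))
          (ssl_locSub ↥(lg_E L (N' * q)) 𝔫)))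
        ((ssm_tp_P (fc_chart ↥O ({lg_lamE (N' * q)} : Set ↥(lg_E L (N' * q))))
          (ssm_gl_V1 O hπ N' q)).map
          (algebraMap (fc_chart ↥O ({lg_lamE (N' * q)} : Set ↥(lg_E L (N' * q))))
            (ssl_locSub ↥(lg_E L (N' * q)) 𝔫)))
        ((ssm_tp_P (fc_chart ↥O ({lg_lamE (N' * q)} : Set ↥(lg_E L (N' * q))))
          (ssm_gl_V2 O hπ N' q hq2 hqN')).map
          (algebraMap (fc_chart ↥O ({lg_lamE (N' * q)} : Set ↥(lg_E L (N' * q))))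
            (ssl_locSub ↥(lg_E L (N' * q)) 𝔫))) m (f : ↥(lg_E L (N' * q)))
        (m59tl_cst (F0 := ↥(lg_E L (N' * q))) 𝔫 c0)) :
    ((q : ℕ) : ↥O) ∣ (k1 : ↥O) - (k2 : ↥O) * (c0 : ↥O) ^ m := by
  have hqO : ((q : ℕ) : O) ∈ maximalIdeal O := ssm_fln_q_mem L O q
  have hq2' : q ≠ 2 := ssm_fl_ne_two q hq2
  have hp := ssm_ll_prime L N' hπ q hqO hq2' hqN' ζ hζ
  haveI := ssm_go_isScalarTower O (lg_E L (N' * q))
  haveI : FiniteDimensional L⟮(lg_lamE (N' * q) : lg_E L (N' * q))⟯ ↥(lg_E L (N' * q)) :=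
    lgf_finite L (N' * q)
  have hx : Transcendental L (lg_lamE (L := L) (N' * q)) :=
    lgf_lam_transcendental L (N' * q) two_ne_zero
  have H := ssm_gl_hyp O hπ N' q hq2 hqN' hp.1
  have hxA : Transcendental ↥O (lg_lamE (L := L) (N' * q)) := fc_ff_transcendental (L := L) hx
  haveI : IsIntegrallyClosed (Algebra.adjoin ↥O
      ({lg_lamE (N' * q)} : Set ↥(lg_E L (N' * q)))) := fc_ff_isIntegrallyClosed hxA
  haveI : FaithfulSMul (Algebra.adjoin ↥O ({lg_lamE (N' * q)} : Set ↥(lg_E L (N' * q))))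
      ↥(lg_E L (N' * q)) :=
    (faithfulSMul_iff_algebraMap_injective _ _).2 Subtype.val_injective
  have hC1 := ssm_tp_ff_chart (L := L) (A0 := ↥O) (F0 := ↥(lg_E L (N' * q))) hπ hx
  haveI := ssm_ths_chart_isFractionRing (A0 := ↥O) (L := L)
    (lg_lamE (N' * q) : ↥(lg_E L (N' * q)))
  haveI := ssm_ths_chart_isNoetherianRing (A0 := ↥O) (L := L) hx
  haveI := ssm_ths_chart_isIntegrallyClosed (A0 := ↥O) (L := L)
    (lg_lamE (N' * q) : ↥(lg_E L (N' * q)))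
  haveI h𝔫p : 𝔫.IsPrime := h𝔫.isPrime
  haveI := H.P1_isPrime hC1
  haveI := H.P2_isPrime hC1
  haveI := s35l_map_isPrime (F0 := ↥(lg_E L (N' * q))) 𝔫 _ hP1
  haveI := s35l_map_isPrime (F0 := ↥(lg_E L (N' * q))) 𝔫 _ hP2
  haveI := ssl_loc_isLocalRing (F0 := ↥(lg_E L (N' * q))) 𝔫
  have m1 := m59tgl_memM_of_nonunits H hC1 𝔫 hP1 hf1
  have m2 := m59tgl_memM_of_nonunits H.symm hC1 𝔫 hP2 hf2
  have key := m59tl_const_of_ratio
    (𝔫.map (algebraMap (fc_chart ↥O ({lg_lamE (N' * q)} : Set ↥(lg_E L (N' * q))))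
      (ssl_locSub ↥(lg_E L (N' * q)) 𝔫))) _ _
    (Ideal.map_mono hP1) (Ideal.map_mono hP2) hrat
    (k1 := algebraMap (fc_chart ↥O ({lg_lamE (N' * q)} : Set ↥(lg_E L (N' * q))))
      (ssl_locSub ↥(lg_E L (N' * q)) 𝔫)
      (algebraMap ↥O (fc_chart ↥O ({lg_lamE (N' * q)} : Set ↥(lg_E L (N' * q)))) (k1 : ↥O)))
    (k2 := algebraMap (fc_chart ↥O ({lg_lamE (N' * q)} : Set ↥(lg_E L (N' * q))))
      (ssl_locSub ↥(lg_E L (N' * q)) 𝔫)
      (algebraMap ↥O (fc_chart ↥O ({lg_lamE (N' * q)} : Set ↥(lg_E L (N' * q)))) (k2 : ↥O)))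
    m1 m2
  -- the constant `d = k₁ - k₂ c₀ᵐ` maps into `𝔫 R`
  by_contra hnd
  have hdu : IsUnit ((k1 : ↥O) - (k2 : ↥O) * (c0 : ↥O) ^ m) := by
    by_contra hnu
    apply hnd
    have : (k1 : ↥O) - (k2 : ↥O) * (c0 : ↥O) ^ m ∈ maximalIdeal ↥O :=
      (IsLocalRing.mem_maximalIdeal _).2 hnu
    rw [hπ.maximalIdeal_eq, Ideal.mem_span_singleton] at this
    exact this
  have himg : IsUnit ((algebraMap (fc_chart ↥O ({lg_lamE (N' * q)} : Set ↥(lg_E L (N' * q))))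
      (ssl_locSub ↥(lg_E L (N' * q)) 𝔫)).comp
      (algebraMap ↥O (fc_chart ↥O ({lg_lamE (N' * q)} : Set ↥(lg_E L (N' * q)))))
      ((k1 : ↥O) - (k2 : ↥O) * (c0 : ↥O) ^ m)) := hdu.map _
  have hmem : ((algebraMap (fc_chart ↥O ({lg_lamE (N' * q)} : Set ↥(lg_E L (N' * q))))
      (ssl_locSub ↥(lg_E L (N' * q)) 𝔫)).comp
      (algebraMap ↥O (fc_chart ↥O ({lg_lamE (N' * q)} : Set ↥(lg_E L (N' * q)))))
      ((k1 : ↥O) - (k2 : ↥O) * (c0 : ↥O) ^ m)) ∈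
      𝔫.map (algebraMap (fc_chart ↥O ({lg_lamE (N' * q)} : Set ↥(lg_E L (N' * q))))
        (ssl_locSub ↥(lg_E L (N' * q)) 𝔫)) := by
    rw [map_sub, map_mul, map_pow]
    exact key
  rw [IsLocalization.AtPrime.map_eq_maximalIdeal 𝔫 (ssl_locSub ↥(lg_E L (N' * q)) 𝔫)] at hmem
  exact (IsLocalRing.mem_maximalIdeal _).1 hmem himg

end Leg

end Fermat.Agent.M59
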