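/-
M59 / Sink B, leaf 4 [TOR-SURJ], cell [RAT] (helper2; cut by helper15, finding 5591 (2)).
Prefix `m59tr_`.

IF THE RESIDUE DEGREE OF THE LEVEL IS EVEN, EVERY CROSSING POINT OF THE SPECIAL FIBRE OF THE
LEGENDRE CHART `B_λ = fc_chart O {λ}` (level `N' q`) IS RATIONAL OVER THE RESIDUE FIELD OF `O`.

* `m59tr_unram_triv`   : [UNRAM-TRIV] an automorphism of `L` preserving `O`, trivial on the perfect
                         residue field of characteristic `q`, is the identity when the natural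
                         number `q` is a uniformiser (no ramification theory: the maps
                         `(σ x - x) / q ^ k` are derivations of a perfect field);
* `m59tr_iter`, `m59tr_iter_frob`, `m59tr_iter_eq_id` : a Frobenius lift `φ` at `O`
                         (`s35nf_FrobAt O φ q`) with `#k = q ^ f` has `φ ^ f = id`;
* `m59tr_tau_iterate_eq` : hence `τ ^ j = id` on `lg_E L M` for `τ = s35ti_leg_tau M φ`, `f = 2 j`;
* `m59tr_pow_sub_mem`  : `s35l_FrobAt τ Q 𝔫`, `τ ^ j = id` ⟹ `b ^ (Q ^ j) ≡ b` modulo `𝔫`;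
* `m59tr_rat_abs`      : (abstract) `#(A0/𝔪) = n`, `b ^ n ≡ b` modulo the maximal ideal `𝔫 ⊇ 𝔪 B`
                         ⟹ `A0 → B / 𝔫` is surjective;
* `m59tr_rat_loc`, `m59tr_rat_loc_unit` : the same in the local ring `ssl_locSub F0 𝔫`, and for
                         units;
* **`m59tr_rat`**, `m59tr_rat_R`, `m59tr_rat_unit` : the instance: `L, O, N', q, ζ, φ1` as in
                         `s35ti_leg_nodeAt`, `Nat.card (ResidueField O) = (q ^ 2) ^ j`, `𝔫` a maximal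
                         ideal of `B_λ` containing `P1` and `P2`.
-/
import Mathlib
import Fermat.Agent.S35.ToricInst.LegLoc

set_option autoImplicit false
set_option linter.unusedSectionVars false
set_option linter.unusedVariables false
set_option linter.style.haveILetI false

namespace Fermat.Agent.M59

open IsLocalRing Fermat.Agent.SS Fermat.Agent.JT3 Fermat.Agent.S35 ModularCurve Polynomial
  IntermediateField

universe v


section UnramTriv


/-- `q ∣ a - b`, `q ^ k ∣ a - b` ⟹ `q ^ (k+1) ∣ a ^ q - b ^ q`. -/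
theorem m59tr_pow_sub_pow {R : Type*} [CommRing R] (q k : ℕ) {a b : R}
    (h1 : (q : R) ∣ a - b) (hk : (q : R) ^ k ∣ a - b) :
    (q : R) ^ (k + 1) ∣ a ^ q - b ^ q := by
  have h2 : (q : R) ∣ ∑ i ∈ Finset.range q, a ^ i * b ^ (q - 1 - i) := dvd_geom_sum₂_self h1
  have h3 : a ^ q - b ^ q = (a - b) * ∑ i ∈ Finset.range q, a ^ i * b ^ (q - 1 - i) := by
    rw [mul_comm, geom_sum₂_mul]
  rw [h3, pow_succ]
  exact mul_dvd_mul hk h2

variable {L : Type*} [Field L] (O : ValuationSubring L) [IsDiscreteValuationRing O]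

/-- **[UNRAM-TRIV]**: an automorphism of `L` preserving `O`, trivial on the (perfect, char `q`)
residue field, is the identity as soon as the natural number `q` is a uniformiser. -/
theorem m59tr_unram_triv (q : ℕ) [hq : Fact q.Prime] [CharP (ResidueField O) q]
    [PerfectRing (ResidueField O) q] (hπ : Irreducible ((q : ℕ) : O))
    (σ : L ≃+* L) (hσ : ∀ x ∈ O, σ x ∈ O ∧ σ x - x ∈ O.nonunits) (x : L) : σ x = x := by
  -- the induced endomorphism of `O`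
  let s : O → O := fun x => ⟨σ x, (hσ x x.2).1⟩
  have hs_add : ∀ x y : O, s (x + y) = s x + s y := fun x y => Subtype.ext (map_add σ _ _)
  have hs_mul : ∀ x y : O, s (x * y) = s x * s y := fun x y => Subtype.ext (map_mul σ _ _)
  have hs_pow : ∀ (x : O) (n : ℕ), s (x ^ n) = s x ^ n := fun x n => Subtype.ext (map_pow σ _ _)
  have hs_q : s ((q : ℕ) : O) = ((q : ℕ) : O) := Subtype.ext (map_natCast σ q)
  have hmax : maximalIdeal O = Ideal.span {((q : ℕ) : O)} := hπ.maximalIdeal_eq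
  have h1 : ∀ x : O, ((q : ℕ) : O) ∣ s x - x := by
    intro x
    rw [← Ideal.mem_span_singleton, ← hmax]
    exact ValuationSubring.coe_mem_nonunits_iff.1 (hσ x x.2).2
  -- every element is a `q`-th power modulo `q`
  have hperf : ∀ x : O, ∃ y z : O, x = y ^ q + ((q : ℕ) : O) * z := by
    intro x
    obtain ⟨y', hy'⟩ := surjective_frobenius (ResidueField O) q (residue O x)
    obtain ⟨y, rfl⟩ := residue_surjective y'
    have : x - y ^ q ∈ maximalIdeal O := by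
      rw [← residue_eq_zero_iff, map_sub, map_pow, ← hy', frobenius_def, sub_self]
    rw [hmax, Ideal.mem_span_singleton] at this
    obtain ⟨z, hz⟩ := this
    exact ⟨y, z, by rw [← hz]; ring⟩
  have hk : ∀ k : ℕ, ∀ x : O, ((q : ℕ) : O) ^ (k + 1) ∣ s x - x := by
    intro k
    induction k with
    | zero => intro x; simpa using h1 x
    | succ k ih =>
      intro x
      obtain ⟨y, z, rfl⟩ := hperf x
      have e : s (y ^ q + ((q : ℕ) : O) * z) - (y ^ q + ((q : ℕ) : O) * z) =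
          (s y ^ q - y ^ q) + ((q : ℕ) : O) * (s z - z) := by
        rw [hs_add, hs_mul, hs_pow, hs_q]; ring
      rw [e]
      refine dvd_add (m59tr_pow_sub_pow q (k + 1) (h1 y) (ih y)) ?_
      rw [pow_succ' _ (k + 1)]
      exact mul_dvd_mul_left _ (ih z)
  -- conclude on `O`
  have hO : ∀ x : O, s x = x := by
    intro x
    by_contra hne
    have hne' : s x - x ≠ 0 := sub_ne_zero.2 hne
    have hI : (⨅ i : ℕ, (maximalIdeal O) ^ i) = ⊥ :=
      Ideal.iInf_pow_eq_bot_of_isLocalRing _ (Ideal.IsMaximal.ne_top inferInstance)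
    have : s x - x ∈ (⨅ i : ℕ, (maximalIdeal O) ^ i) := by
      rw [Ideal.mem_iInf]
      intro i
      rw [hmax, Ideal.span_singleton_pow, Ideal.mem_span_singleton]
      exact dvd_trans (pow_dvd_pow _ (Nat.le_succ i)) (hk i x)
    rw [hI] at this
    exact hne' this
  -- and on `L`
  rcases O.mem_or_inv_mem x with hx | hx
  · exact congrArg (fun t : O => (t : L)) (hO ⟨x, hx⟩)
  · have := congrArg (fun t : O => (t : L)) (hO ⟨x⁻¹, hx⟩)
    simp only [s] at this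
    rw [map_inv₀] at this
    exact inv_injective this

end UnramTriv

section Iter

variable {L : Type*} [Field L]

/-- the `n`-th iterate of a ring automorphism. -/
def m59tr_iter (φ : L ≃+* L) : ℕ → (L ≃+* L)
  | 0 => RingEquiv.refl L
  | n + 1 => (m59tr_iter φ n).trans φ

theorem m59tr_iter_zero (φ : L ≃+* L) (x : L) : m59tr_iter φ 0 x = x := rfl

theorem m59tr_iter_succ (φ : L ≃+* L) (n : ℕ) (x : L) :
    m59tr_iter φ (n + 1) x = φ (m59tr_iter φ n x) := rfl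

variable (O : ValuationSubring L)

/-- the `n`-th iterate of a Frobenius lift is a `q ^ n`-Frobenius lift. -/
theorem m59tr_iter_frob {q : ℕ} (φ : L ≃+* L) (hφ : s35nf_FrobAt O φ q) (n : ℕ) :
    ∀ x ∈ O, m59tr_iter φ n x ∈ O ∧ m59tr_iter φ n x - x ^ (q ^ n) ∈ O.nonunits := by
  induction n with
  | zero =>
    intro x hx
    refine ⟨hx, ?_⟩
    rw [m59tr_iter_zero, pow_zero, pow_one, sub_self]
    have : ((0 : O) : L) ∈ O.nonunits :=
      ValuationSubring.coe_mem_nonunits_iff.2 (Ideal.zero_mem (maximalIdeal O))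
    exact this
  | succ n ih =>
    intro x hx
    obtain ⟨h1, h2⟩ := ih x hx
    obtain ⟨h3, -, h4⟩ := hφ _ h1
    refine ⟨h3, ?_⟩
    rw [m59tr_iter_succ]
    -- `φ y - y^q ∈ 𝔪`, `y - x^(q^n) ∈ 𝔪` ⟹ `y^q - x^(q^(n+1)) ∈ 𝔪`
    set y : L := m59tr_iter φ n x with hy
    have hxn : x ^ (q ^ n) ∈ O := pow_mem hx _
    have h5 : y ^ q - (x ^ (q ^ n)) ^ q ∈ O.nonunits := by
      have hd : (⟨y, h1⟩ : O) - ⟨x ^ (q ^ n), hxn⟩ ∣ (⟨y, h1⟩ : O) ^ q - ⟨x ^ (q ^ n), hxn⟩ ^ q :=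
        sub_dvd_pow_sub_pow _ _ q
      have hm : (⟨y, h1⟩ : O) - ⟨x ^ (q ^ n), hxn⟩ ∈ maximalIdeal O :=
        ValuationSubring.coe_mem_nonunits_iff.1 h2
      have := Ideal.mem_of_dvd _ hd hm
      exact ValuationSubring.coe_mem_nonunits_iff.2 this
    have e : φ y - x ^ (q ^ (n + 1)) = (φ y - y ^ q) + (y ^ q - (x ^ (q ^ n)) ^ q) := by
      rw [pow_succ q n, pow_mul]; ring
    rw [e]
    have a1 : (⟨φ y - y ^ q, O.sub_mem h3 (pow_mem h1 _)⟩ : O) ∈ maximalIdeal O :=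
      ValuationSubring.coe_mem_nonunits_iff.1 h4
    have a2 : (⟨y ^ q - (x ^ (q ^ n)) ^ q, O.sub_mem (pow_mem h1 _) (pow_mem hxn _)⟩ : O) ∈
        maximalIdeal O := ValuationSubring.coe_mem_nonunits_iff.1 h5
    exact ValuationSubring.coe_mem_nonunits_iff.2 (Ideal.add_mem _ a1 a2)

/-- **a Frobenius lift at an unramified `O` with `#k = q ^ f` has `φ ^ f = id`.** -/
theorem m59tr_iter_eq_id [IsDiscreteValuationRing O] (q : ℕ) [hq : Fact q.Prime]
    [CharP (ResidueField O) q] (hπ : Irreducible ((q : ℕ) : O)) (φ : L ≃+* L)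
    (hφ : s35nf_FrobAt O φ q) {f : ℕ} (hcard : Nat.card (ResidueField O) = q ^ f) (x : L) :
    m59tr_iter φ f x = x := by
  haveI : Finite (ResidueField O) :=
    Nat.finite_of_card_ne_zero (by rw [hcard]; exact pow_ne_zero _ hq.out.ne_zero)
  letI : Fintype (ResidueField O) := Fintype.ofFinite _
  haveI : PerfectRing (ResidueField O) q := PerfectRing.ofFiniteOfIsReduced _ _
  refine m59tr_unram_triv O q hπ (m59tr_iter φ f) ?_ x
  intro y hy
  obtain ⟨h1, h2⟩ := m59tr_iter_frob O φ hφ f y hy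
  refine ⟨h1, ?_⟩
  have h3 : y ^ (q ^ f) - y ∈ O.nonunits := by
    have : (⟨y, hy⟩ : O) ^ (q ^ f) - ⟨y, hy⟩ ∈ maximalIdeal O := by
      rw [← residue_eq_zero_iff, map_sub, map_pow, ← hcard, Nat.card_eq_fintype_card,
        FiniteField.pow_card, sub_self]
    exact ValuationSubring.coe_mem_nonunits_iff.2 this
  have e : m59tr_iter φ f y - y = (m59tr_iter φ f y - y ^ (q ^ f)) + (y ^ (q ^ f) - y) := by ring
  rw [e]
  have a1 : (⟨m59tr_iter φ f y - y ^ (q ^ f), O.sub_mem h1 (pow_mem hy _)⟩ : O) ∈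
      maximalIdeal O := ValuationSubring.coe_mem_nonunits_iff.1 h2
  have a2 : (⟨y ^ (q ^ f) - y, O.sub_mem (pow_mem hy _) hy⟩ : O) ∈ maximalIdeal O :=
    ValuationSubring.coe_mem_nonunits_iff.1 h3
  exact ValuationSubring.coe_mem_nonunits_iff.2 (Ideal.add_mem _ a1 a2)

end Iter

section Tau

variable {L : Type*} [Field L] [CharZero L] [Algebra L (AlgebraicClosure ℚ)] (M : ℕ) [NeZero M]

/-- the iterates of the coefficientwise automorphism. -/
theorem m59tr_sg_iterate (φ : L ≃+* L) (n : ℕ) (z : ↥(lg_E L M)) :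
    (⇑(ssm_sg_aut M φ))^[n] z = ssm_sg_aut M (m59tr_iter φ n) z := by
  induction n with
  | zero =>
    apply Subtype.ext
    show (z : LaurentSeries L) = coeffMap ((RingEquiv.refl L : L ≃+* L) : L →+* L) z
    rw [coeffMap_congr (f := ((RingEquiv.refl L : L ≃+* L) : L →+* L)) (g := RingHom.id L)
      (RingHom.ext fun a => rfl) (z : LaurentSeries L), coeffMap_id]
  | succ n ih =>
    rw [Function.iterate_succ_apply', ih]
    apply Subtype.ext
    show coeffMap (φ : L →+* L) (coeffMap ((m59tr_iter φ n : L ≃+* L) : L →+* L) z) =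
      coeffMap ((m59tr_iter φ (n + 1) : L ≃+* L) : L →+* L) z
    rw [coeffMap_coeffMap]
    exact coeffMap_congr (RingHom.ext fun a => rfl) _

/-- `τ = σ_E²` iterated `j` times is `σ_E^(2j)`. -/
theorem m59tr_tau_iterate (φ : L ≃+* L) (j : ℕ) (z : ↥(lg_E L M)) :
    (⇑(s35ti_leg_tau M φ))^[j] z = ssm_sg_aut M (m59tr_iter φ (2 * j)) z := by
  rw [← m59tr_sg_iterate, Function.iterate_mul]
  rfl

/-- **`τ ^ j = id` on the cover field as soon as `φ ^ (2 j) = id` on the coefficients.** -/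
theorem m59tr_tau_iterate_eq (φ : L ≃+* L) (j : ℕ) (h : ∀ x : L, m59tr_iter φ (2 * j) x = x)
    (z : ↥(lg_E L M)) : (⇑(s35ti_leg_tau M φ))^[j] z = z := by
  rw [m59tr_tau_iterate]
  apply Subtype.ext
  show coeffMap ((m59tr_iter φ (2 * j) : L ≃+* L) : L →+* L) z = z
  rw [coeffMap_congr (g := RingHom.id L) (RingHom.ext fun a => h a) (z : LaurentSeries L),
    coeffMap_id]

end Tau


section Abs

variable {A0 : Type*} [CommRing A0] {F0 : Type v} [Field F0] [Algebra A0 F0]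
variable {B : Subalgebra A0 F0}
variable (𝔫 : Ideal B)

/-- iterating the Frobenius congruence: `τ^j b ≡ b^(Q^j)` modulo `𝔫`. -/
theorem m59tr_frob_iterate {τ : F0 ≃+* F0} {Q : ℕ} (hF : s35l_FrobAt τ Q 𝔫) (j : ℕ) (b : B) :
    ∃ b' : B, (b' : F0) = (⇑τ)^[j] (b : F0) ∧ b' - b ^ (Q ^ j) ∈ 𝔫 := by
  induction j with
  | zero => exact ⟨b, rfl, by rw [pow_zero, pow_one, sub_self]; exact 𝔫.zero_mem⟩
  | succ j ih =>
    obtain ⟨b', hb', hmem⟩ := ih
    refine ⟨⟨τ (b' : F0), hF.mem _ b'.2⟩, ?_, ?_⟩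
    · rw [Function.iterate_succ_apply', ← hb']
    · have h1 := hF.frob b' ⟨τ (b' : F0), hF.mem _ b'.2⟩ rfl
      have h2 : b' ^ Q - (b ^ (Q ^ j)) ^ Q ∈ 𝔫 :=
        Ideal.mem_of_dvd _ (sub_dvd_pow_sub_pow _ _ Q) hmem
      have e : (⟨τ (b' : F0), hF.mem _ b'.2⟩ : B) - b ^ (Q ^ (j + 1)) =
          ((⟨τ (b' : F0), hF.mem _ b'.2⟩ : B) - b' ^ Q) + (b' ^ Q - (b ^ (Q ^ j)) ^ Q) := by
        rw [pow_succ Q j, pow_mul]; ring
      rw [e]
      exact 𝔫.add_mem h1 h2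

/-- `τ^j = id` ⟹ `b^(Q^j) ≡ b` modulo `𝔫`. -/
theorem m59tr_pow_sub_mem {τ : F0 ≃+* F0} {Q : ℕ} (hF : s35l_FrobAt τ Q 𝔫) (j : ℕ)
    (hj : ∀ z : F0, (⇑τ)^[j] z = z) (b : B) : b ^ (Q ^ j) - b ∈ 𝔫 := by
  obtain ⟨b', hb', hmem⟩ := m59tr_frob_iterate 𝔫 hF j b
  have : b' = b := Subtype.ext (by rw [hb', hj])
  rw [this] at hmem
  have e : b ^ (Q ^ j) - b = -(b - b ^ (Q ^ j)) := by ring
  rw [e]
  exact 𝔫.neg_mem hmem

end Abs

section Count

/-- a field all of whose elements are roots of `X^n - X` (`1 < n`) has at most `n` elements. -/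
theorem m59tr_card_le {κ : Type*} [Field κ] {n : ℕ} (hn : 1 < n) (h : ∀ x : κ, x ^ n = x) :
    Finite κ ∧ Nat.card κ ≤ n := by
  classical
  have hp0 : (X ^ n - X : κ[X]) ≠ 0 := FiniteField.X_pow_card_sub_X_ne_zero κ hn
  have hroot : ∀ x : κ, x ∈ (X ^ n - X : κ[X]).roots.toFinset := by
    intro x
    rw [Multiset.mem_toFinset, mem_roots hp0]
    simp [h x]
  letI : Fintype κ := ⟨(X ^ n - X : κ[X]).roots.toFinset, hroot⟩
  refine ⟨inferInstance, ?_⟩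
  rw [Nat.card_eq_fintype_card]
  calc Fintype.card κ = (X ^ n - X : κ[X]).roots.toFinset.card := rfl
    _ ≤ Multiset.card (X ^ n - X : κ[X]).roots := Multiset.toFinset_card_le _
    _ ≤ (X ^ n - X : κ[X]).natDegree := card_roots' _
    _ = n := FiniteField.X_pow_card_sub_X_natDegree_eq κ hn

variable {A0 : Type*} [CommRing A0] [IsLocalRing A0] {B : Type*} [CommRing B] [Algebra A0 B]

/-- **[RAT], abstract form**: `𝔫` a maximal ideal of `B` over the maximal ideal of the local ring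
`A0`, `#(A0/𝔪) = n` and `b^n ≡ b` modulo `𝔫` for all `b` ⟹ `A0 → B/𝔫` is surjective. -/
theorem m59tr_rat_abs (𝔫 : Ideal B) [h𝔫 : 𝔫.IsMaximal]
    (hm : ∀ a ∈ maximalIdeal A0, algebraMap A0 B a ∈ 𝔫) {n : ℕ}
    (hcard : Nat.card (ResidueField A0) = n) (hpow : ∀ b : B, b ^ n - b ∈ 𝔫) (b : B) :
    ∃ c : A0, b - algebraMap A0 B c ∈ 𝔫 := by
  letI : Field (B ⧸ 𝔫) := Ideal.Quotient.field 𝔫
  -- `1 < n`
  have hn0 : n ≠ 0 := by
    rintro rfl
    have h1 := hpow 1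
    rw [pow_zero, sub_self] at h1
    have h2 := hpow 0
    rw [pow_zero, sub_zero] at h2
    exact h𝔫.ne_top ((Ideal.eq_top_iff_one _).2 h2)
  haveI : Finite (ResidueField A0) := Nat.finite_of_card_ne_zero (by rw [hcard]; exact hn0)
  have hn : 1 < n := by
    rw [← hcard]
    exact Finite.one_lt_card
  -- the map of residue fields
  let ψ : A0 →+* B ⧸ 𝔫 := (Ideal.Quotient.mk 𝔫).comp (algebraMap A0 B)
  have hψ : ∀ a ∈ maximalIdeal A0, ψ a = 0 := fun a ha =>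
    Ideal.Quotient.eq_zero_iff_mem.2 (hm a ha)
  let ψ' : ResidueField A0 →+* B ⧸ 𝔫 := Ideal.Quotient.lift (maximalIdeal A0) ψ hψ
  have hinj : Function.Injective ψ' := RingHom.injective ψ'
  have hall : ∀ x : B ⧸ 𝔫, x ^ n = x := by
    intro x
    obtain ⟨b, rfl⟩ := Ideal.Quotient.mk_surjective x
    rw [← map_pow, ← sub_eq_zero, ← map_sub]
    exact Ideal.Quotient.eq_zero_iff_mem.2 (hpow b)
  obtain ⟨hfin, hle⟩ := m59tr_card_le hn hall
  have hbij : Function.Bijective ψ' :=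
    Function.Injective.bijective_of_nat_card_le hinj (by rw [hcard]; exact hle)
  obtain ⟨y, hy⟩ := hbij.2 (Ideal.Quotient.mk 𝔫 b)
  obtain ⟨c, rfl⟩ := residue_surjective y
  refine ⟨c, ?_⟩
  rw [← Ideal.Quotient.eq]
  exact hy.symm

end Count


section Loc

variable {A0 : Type*} [CommRing A0] [IsLocalRing A0] {F0 : Type v} [Field F0] [Algebra A0 F0]
variable {B : Subalgebra A0 F0} [IsFractionRing B F0] [IsNoetherianRing B] [IsIntegrallyClosed B]
variable (𝔫 : Ideal B) [h𝔫 : 𝔫.IsPrime]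

/-- **[RAT], localised form**: if `A0 → B/𝔫` is surjective, so is `A0 → B_𝔫 / 𝔫 B_𝔫`. -/
theorem m59tr_rat_loc (hm : ∀ a ∈ maximalIdeal A0, algebraMap A0 B a ∈ 𝔫)
    (hB : ∀ b : B, ∃ c : A0, b - algebraMap A0 B c ∈ 𝔫) (r : ssl_locSub F0 𝔫) :
    ∃ c : A0, r - algebraMap B (ssl_locSub F0 𝔫) (algebraMap A0 B c) ∈
      Ideal.map (algebraMap B (ssl_locSub F0 𝔫)) 𝔫 := by
  obtain ⟨a, s, hs, h⟩ := (ssl_mem_loc 𝔫).1 r.2
  obtain ⟨ca, hca⟩ := hB a
  obtain ⟨cs, hcs⟩ := hB s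
  -- `cs` is a unit of `A0`
  have hcsu : IsUnit cs := by
    by_contra hnu
    have h1 : cs ∈ maximalIdeal A0 := (mem_maximalIdeal cs).2 hnu
    have h2 := hm cs h1
    apply hs
    have := 𝔫.add_mem hcs h2
    rwa [sub_add_cancel] at this
  obtain ⟨u, rfl⟩ := hcsu
  refine ⟨ca * ((u⁻¹ : A0ˣ) : A0), ?_⟩
  set c : A0 := ca * ((u⁻¹ : A0ˣ) : A0) with hc
  have hcu : c * (u : A0) = ca := by
    rw [hc, mul_assoc, Units.inv_mul, mul_one]
  -- `s (r - c) = (a - ca) - c (s - cs) ∈ 𝔫`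
  set t : B := (a - algebraMap A0 B ca) - algebraMap A0 B c * (s - algebraMap A0 B (u : A0))
    with ht
  have htn : t ∈ 𝔫 := 𝔫.sub_mem hca (𝔫.mul_mem_left _ hcs)
  have hkey : (s : F0) * ((r : F0) - ((algebraMap A0 B c : B) : F0)) = (t : F0) := by
    have e1 : algebraMap A0 F0 ca = algebraMap A0 F0 c * algebraMap A0 F0 (u : A0) := by
      rw [← hcu, map_mul]
    rw [ht]
    push_cast
    rw [e1, ← h]
    ring
  have := ssl_loc_mem_map_of 𝔫 hs htn hkey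
  have e2 : r - algebraMap B (ssl_locSub F0 𝔫) (algebraMap A0 B c) =
      ⟨(r : F0) - ((algebraMap A0 B c : B) : F0), ssl_loc_mem_of 𝔫 hs hkey⟩ := Subtype.ext rfl
  rw [e2]
  exact this

/-- the same for units. -/
theorem m59tr_rat_loc_unit (hm : ∀ a ∈ maximalIdeal A0, algebraMap A0 B a ∈ 𝔫)
    (hB : ∀ b : B, ∃ c : A0, b - algebraMap A0 B c ∈ 𝔫) (u : (ssl_locSub F0 𝔫)ˣ) :
    ∃ c : A0ˣ, (u : ssl_locSub F0 𝔫) - algebraMap B (ssl_locSub F0 𝔫) (algebraMap A0 B (c : A0)) ∈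
      Ideal.map (algebraMap B (ssl_locSub F0 𝔫)) 𝔫 := by
  obtain ⟨c, hc⟩ := m59tr_rat_loc 𝔫 hm hB (u : ssl_locSub F0 𝔫)
  have hcu : IsUnit c := by
    by_contra hnu
    have h1 : c ∈ maximalIdeal A0 := (mem_maximalIdeal c).2 hnu
    have h2 : algebraMap B (ssl_locSub F0 𝔫) (algebraMap A0 B c) ∈
        Ideal.map (algebraMap B (ssl_locSub F0 𝔫)) 𝔫 := Ideal.mem_map_of_mem _ (hm c h1)
    have h3 := Ideal.add_mem _ hc h2
    rw [sub_add_cancel] at h3
    haveI := ssl_loc_isLocalRing (F0 := F0) 𝔫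
    have h4 : Ideal.map (algebraMap B (ssl_locSub F0 𝔫)) 𝔫 = ⊤ :=
      Ideal.eq_top_of_isUnit_mem _ h3 u.isUnit
    rw [IsLocalization.AtPrime.map_eq_maximalIdeal 𝔫 (ssl_locSub F0 𝔫)] at h4
    exact (maximalIdeal.isMaximal (ssl_locSub F0 𝔫)).ne_top h4
  obtain ⟨c', rfl⟩ := hcu
  exact ⟨c', hc⟩

end Loc

section Inst

variable (L : Type) [Field L] [NumberField L] [Algebra L (AlgebraicClosure ℚ)]
  (O : ValuationSubring L) [IsDiscreteValuationRing O]
variable (N' q : ℕ) [NeZero N'] [NeZero q] [hq : Fact q.Prime] [CharP (ResidueField O) q]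
  (hq2 : ¬ 2 ∣ q) (hqN' : ¬ q ∣ N') (hπ : Irreducible ((q : ℕ) : ↥O))
  (ζ : L) (hζ : IsPrimitiveRoot ζ N') (φ1 : L ≃+* L) (hφ1 : s35nf_FrobAt O φ1 q)

include hq2 hqN' hζ in
set_option synthInstance.maxHeartbeats 400000 in
set_option maxHeartbeats 3200000 in
/-- the maximal ideal of `O` lies in every prime containing `P1`. -/
theorem m59tr_base_mem
    (𝔫 : Ideal (fc_chart ↥O ({lg_lamE (N' * q)} : Set ↥(lg_E L (N' * q)))))
    (hP1 : ssm_tp_P (fc_chart ↥O ({lg_lamE (N' * q)} : Set ↥(lg_E L (N' * q))))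
      (ssm_gl_V1 O hπ N' q) ≤ 𝔫) :
    ∀ a ∈ maximalIdeal ↥O,
      algebraMap ↥O (fc_chart ↥O ({lg_lamE (N' * q)} : Set ↥(lg_E L (N' * q)))) a ∈ 𝔫 := by
  have hqO : ((q : ℕ) : O) ∈ maximalIdeal O := ssm_fln_q_mem L O q
  have hq2' : q ≠ 2 := ssm_fl_ne_two q hq2
  have hp := ssm_ll_prime L N' hπ q hqO hq2' hqN' ζ hζ
  haveI := ssm_go_isScalarTower O (lg_E L (N' * q))
  haveI : FiniteDimensional L⟮(lg_lamE (N' * q) : lg_E L (N' * q))⟯ ↥(lg_E L (N' * q)) :=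
    lgf_finite L (N' * q)
  have hx : Transcendental L (lg_lamE (L := L) (N' * q)) :=
    lgf_lam_transcendental L (N' * q) two_ne_zero
  have H := ssm_gl_hyp O hπ N' q hq2 hqN' hp.1
  have hxA : Transcendental ↥O (lg_lamE (L := L) (N' * q)) := fc_ff_transcendental (L := L) hx
  haveI : IsIntegrallyClosed (Algebra.adjoin ↥O ({lg_lamE (N' * q)} : Set ↥(lg_E L (N' * q)))) :=
    fc_ff_isIntegrallyClosed hxA
  haveI : FaithfulSMul (Algebra.adjoin ↥O ({lg_lamE (N' * q)} : Set ↥(lg_E L (N' * q))))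
      ↥(lg_E L (N' * q)) :=
    (faithfulSMul_iff_algebraMap_injective _ _).2 Subtype.val_injective
  have hC1 := ssm_tp_ff_chart (L := L) hπ hx
  have hq𝔫 : algebraMap ↥O (fc_chart ↥O ({lg_lamE (N' * q)} : Set ↥(lg_E L (N' * q))))
      ((q : ℕ) : ↥O) ∈ 𝔫 := by
    apply hP1
    rw [H.mem_P1 hC1]
    exact H.over1.pi_mem
  intro a ha
  rw [hπ.maximalIdeal_eq, Ideal.mem_span_singleton] at ha
  obtain ⟨d, rfl⟩ := ha
  rw [map_mul]
  exact 𝔫.mul_mem_right _ hq𝔫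

include hζ hφ1 in
set_option synthInstance.maxHeartbeats 400000 in
set_option maxHeartbeats 3200000 in
/-- **[RAT]**: if `#k = q ^ (2 j)`, every crossing point `𝔫 ⊇ P1 + P2` of `B_λ` is `k`-rational. -/
theorem m59tr_rat (j : ℕ) (hcard : Nat.card (ResidueField O) = (q ^ 2) ^ j)
    (𝔫 : Ideal (fc_chart ↥O ({lg_lamE (N' * q)} : Set ↥(lg_E L (N' * q))))) (h𝔫 : 𝔫.IsMaximal)
    (hP1 : ssm_tp_P (fc_chart ↥O ({lg_lamE (N' * q)} : Set ↥(lg_E L (N' * q))))
      (ssm_gl_V1 O hπ N' q) ≤ 𝔫)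
    (hP2 : ssm_tp_P (fc_chart ↥O ({lg_lamE (N' * q)} : Set ↥(lg_E L (N' * q))))
      (ssm_gl_V2 O hπ N' q hq2 hqN') ≤ 𝔫)
    (b : fc_chart ↥O ({lg_lamE (N' * q)} : Set ↥(lg_E L (N' * q)))) :
    ∃ c : ↥O, b - algebraMap ↥O
      (fc_chart ↥O ({lg_lamE (N' * q)} : Set ↥(lg_E L (N' * q)))) c ∈ 𝔫 := by
  have hN := s35ti_leg_nodeAt L O N' q hq2 hqN' hπ ζ hζ φ1 hφ1 𝔫 h𝔫 hP1 hP2
  have hF := hN.2.2.1
  have hcard' : Nat.card (ResidueField O) = q ^ (2 * j) := by rw [hcard, pow_mul]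
  have hid : ∀ x : L, m59tr_iter φ1 (2 * j) x = x := m59tr_iter_eq_id O q hπ φ1 hφ1 hcard'
  have hτ := m59tr_tau_iterate_eq (N' * q) φ1 j hid
  have hpow := m59tr_pow_sub_mem 𝔫 hF j hτ
  have hm := m59tr_base_mem L O N' q hq2 hqN' hπ ζ hζ 𝔫 hP1
  haveI := h𝔫
  exact m59tr_rat_abs 𝔫 hm hcard hpow b

include hζ hφ1 in
set_option synthInstance.maxHeartbeats 400000 in
set_option maxHeartbeats 3200000 in
/-- **[RAT] in the local ring** `R = B_𝔫` (the ring of `m59tl_Ratio`): every element of `R` is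
congruent to a constant of `O` modulo `𝔫 R`. -/
theorem m59tr_rat_R (j : ℕ) (hcard : Nat.card (ResidueField O) = (q ^ 2) ^ j)
    [IsFractionRing (fc_chart ↥O ({lg_lamE (N' * q)} : Set ↥(lg_E L (N' * q)))) ↥(lg_E L (N' * q))]
    [IsNoetherianRing (fc_chart ↥O ({lg_lamE (N' * q)} : Set ↥(lg_E L (N' * q))))]
    [IsIntegrallyClosed (fc_chart ↥O ({lg_lamE (N' * q)} : Set ↥(lg_E L (N' * q))))]
    (𝔫 : Ideal (fc_chart ↥O ({lg_lamE (N' * q)} : Set ↥(lg_E L (N' * q))))) [𝔫.IsPrime]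
    (h𝔫 : 𝔫.IsMaximal)
    (hP1 : ssm_tp_P (fc_chart ↥O ({lg_lamE (N' * q)} : Set ↥(lg_E L (N' * q))))
      (ssm_gl_V1 O hπ N' q) ≤ 𝔫)
    (hP2 : ssm_tp_P (fc_chart ↥O ({lg_lamE (N' * q)} : Set ↥(lg_E L (N' * q))))
      (ssm_gl_V2 O hπ N' q hq2 hqN') ≤ 𝔫)
    (r : ssl_locSub ↥(lg_E L (N' * q)) 𝔫) :
    ∃ c : ↥O, r - algebraMap (fc_chart ↥O ({lg_lamE (N' * q)} : Set ↥(lg_E L (N' * q))))
        (ssl_locSub ↥(lg_E L (N' * q)) 𝔫)
        (algebraMap ↥O (fc_chart ↥O ({lg_lamE (N' * q)} : Set ↥(lg_E L (N' * q)))) c) ∈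
      Ideal.map (algebraMap (fc_chart ↥O ({lg_lamE (N' * q)} : Set ↥(lg_E L (N' * q))))
        (ssl_locSub ↥(lg_E L (N' * q)) 𝔫)) 𝔫 :=
  m59tr_rat_loc 𝔫 (m59tr_base_mem L O N' q hq2 hqN' hπ ζ hζ 𝔫 hP1)
    (m59tr_rat L O N' q hq2 hqN' hπ ζ hζ φ1 hφ1 j hcard 𝔫 h𝔫 hP1 hP2) r

include hζ hφ1 in
set_option synthInstance.maxHeartbeats 400000 in
set_option maxHeartbeats 3200000 in
/-- **[RAT] for units of the local ring**: every unit of `R = B_𝔫` is congruent to a unit of `O`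
modulo `𝔫 R` (the form consumed by the ratios `ε` of (ex1)/(ex2)). -/
theorem m59tr_rat_unit (j : ℕ) (hcard : Nat.card (ResidueField O) = (q ^ 2) ^ j)
    [IsFractionRing (fc_chart ↥O ({lg_lamE (N' * q)} : Set ↥(lg_E L (N' * q)))) ↥(lg_E L (N' * q))]
    [IsNoetherianRing (fc_chart ↥O ({lg_lamE (N' * q)} : Set ↥(lg_E L (N' * q))))]
    [IsIntegrallyClosed (fc_chart ↥O ({lg_lamE (N' * q)} : Set ↥(lg_E L (N' * q))))]
    (𝔫 : Ideal (fc_chart ↥O ({lg_lamE (N' * q)} : Set ↥(lg_E L (N' * q))))) [𝔫.IsPrime]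
    (h𝔫 : 𝔫.IsMaximal)
    (hP1 : ssm_tp_P (fc_chart ↥O ({lg_lamE (N' * q)} : Set ↥(lg_E L (N' * q))))
      (ssm_gl_V1 O hπ N' q) ≤ 𝔫)
    (hP2 : ssm_tp_P (fc_chart ↥O ({lg_lamE (N' * q)} : Set ↥(lg_E L (N' * q))))
      (ssm_gl_V2 O hπ N' q hq2 hqN') ≤ 𝔫)
    (u : (ssl_locSub ↥(lg_E L (N' * q)) 𝔫)ˣ) :
    ∃ c : (↥O)ˣ, (u : ssl_locSub ↥(lg_E L (N' * q)) 𝔫) -
        algebraMap (fc_chart ↥O ({lg_lamE (N' * q)} : Set ↥(lg_E L (N' * q))))
          (ssl_locSub ↥(lg_E L (N' * q)) 𝔫)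
          (algebraMap ↥O (fc_chart ↥O ({lg_lamE (N' * q)} : Set ↥(lg_E L (N' * q)))) (c : ↥O)) ∈
      Ideal.map (algebraMap (fc_chart ↥O ({lg_lamE (N' * q)} : Set ↥(lg_E L (N' * q))))
        (ssl_locSub ↥(lg_E L (N' * q)) 𝔫)) 𝔫 :=
  m59tr_rat_loc_unit 𝔫 (m59tr_base_mem L O N' q hq2 hqN' hπ ζ hζ 𝔫 hP1)
    (m59tr_rat L O N' q hq2 hqN' hπ ζ hζ φ1 hφ1 j hcard 𝔫 h𝔫 hP1 hP2) u

end Inst

end Fermat.Agent.M59
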