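/-
M59 / Sink B, leaf 4 [TOR-SURJ], cell (ex1), LEGENDRE INSTANCE AT LEVEL `N' q` (helper5).
Prefix `m59tx_`.

`L ⊆ Q̄` a number field with `ζ_{N'}`, `O` a discrete valuation ring of `L` with uniformiser `q` odd,
`q ∤ N'`, residue field of cardinality `q ^ (2 j)`, `φ1` a Frobenius lift, `E = lg_E L (N' q)`,
`B₁ = fc_chart O {λ}`, `P_i = ssm_tp_P B₁ V_i` (context of `m59tgl_leg`, `m59tr_rat_unit`).
For `f ∈ E`, `f ≠ 0`, all orders divisible by `m`, `f ≡ k₁` at `V1`, `f ≡ k₂` at `V2` (`k_i ∈ Oˣ`: the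
shape of a normal form `g'` with `s35_ConstRed`):

* `m59tx_ratio_congr`   : `m59tl_ratio_congr` without primality of the branches;
* `m59tx_cst_mem`       : a constant of `O` lying in `𝔫 R` lies in the maximal ideal of `O`;
* `m59tx_cst_sub_mem`   : two constants congruent modulo the maximal ideal of `O` are congruent
  modulo `𝔫 R`;
* `m59tx_const_transfer`: the congruence `cᵐ k₂ ≡ k₁ mod 𝔫 R` descends to `O` for `c ≡ c₀ ∈ O`;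
* **`m59tx_leg_node`**  : at EVERY crossing point `𝔫 ⊇ P1 + P2` the toric datum of `f` is a CONSTANT:
  `∃ c₀ ∈ Oˣ, m59tl_Ratio (𝔫R) (P1 R) (P2 R) m f (m59tl_cst 𝔫 c₀)` and `q ∣ c₀ᵐ k₂ - k₁`.
-/
import Mathlib
import Fermat.Agent.M59.SinkB.Tor.Ex1Node
import Fermat.Agent.M59.SinkB.Tor.Glue1Leg
import Fermat.Agent.M59.SinkB.Tor.Rat

set_option autoImplicit false
set_option linter.unusedSectionVars false
set_option linter.unusedVariables false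
set_option linter.style.haveILetI false

noncomputable section

namespace Fermat.Agent.M59

open Fermat.Agent.SS Fermat.Agent.JT3 Fermat.Agent.S35 Fermat.Agent.S36 IsLocalRing AlgebraicCurve
  IntermediateField ModularCurve Polynomial

/-- `m59tl_ratio_congr` without primality of the branches. -/
theorem m59tx_ratio_congr {R : Type*} [CommRing R] [IsDomain R] {F : Type*} [Field F] [Algebra R F]
    [IsFractionRing R F] (𝔪 𝔮₁ 𝔮₂ : Ideal R) {m : ℕ} {f : F} {c c' : Rˣ}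
    (h : m59tl_Ratio 𝔪 𝔮₁ 𝔮₂ m f c) (hcc : (c : R) - (c' : R) ∈ 𝔪) :
    m59tl_Ratio 𝔪 𝔮₁ 𝔮₂ m f c' := by
  obtain ⟨ω, g, a₁, a₂, hf, hu1, hu2, hm1, hm2, hr⟩ := h
  refine ⟨ω, g, a₁, a₂, hf, hu1, hu2, hm1, hm2, ?_⟩
  have : (a₁ : R) - (c' : R) * (a₂ : R) =
      ((a₁ : R) - (c : R) * (a₂ : R)) + ((c : R) - (c' : R)) * (a₂ : R) := by ring
  rw [this]
  exact 𝔪.add_mem hr (𝔪.mul_mem_right _ hcc)

section Cst

universe v

variable {A0 : Type*} [CommRing A0] [IsLocalRing A0] {F0 : Type v} [Field F0] [Algebra A0 F0]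
variable {B : Subalgebra A0 F0} [IsFractionRing B F0]

/-- a constant lying in `𝔫 R` lies in the maximal ideal of the base. -/
theorem m59tx_cst_mem (𝔫 : Ideal B) [h𝔫 : 𝔫.IsPrime] {a : A0}
    (h : algebraMap B (ssl_locSub F0 𝔫) (algebraMap A0 B a) ∈
      𝔫.map (algebraMap B (ssl_locSub F0 𝔫))) : a ∈ maximalIdeal A0 := by
  by_contra hnu
  have hu : IsUnit a := by
    by_contra h1
    exact hnu ((mem_maximalIdeal a).2 h1)
  have hu' : IsUnit (algebraMap B (ssl_locSub F0 𝔫) (algebraMap A0 B a)) :=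
    (hu.map (algebraMap A0 B)).map (algebraMap B (ssl_locSub F0 𝔫))
  have h4 : Ideal.map (algebraMap B (ssl_locSub F0 𝔫)) 𝔫 = ⊤ := Ideal.eq_top_of_isUnit_mem _ h hu'
  haveI : IsLocalRing (ssl_locSub F0 𝔫) := IsLocalization.AtPrime.isLocalRing (ssl_locSub F0 𝔫) 𝔫
  rw [IsLocalization.AtPrime.map_eq_maximalIdeal 𝔫 (ssl_locSub F0 𝔫)] at h4
  exact (maximalIdeal.isMaximal (ssl_locSub F0 𝔫)).ne_top h4

/-- two constants congruent modulo the maximal ideal of the base are congruent modulo `𝔫 R`. -/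
theorem m59tx_cst_sub_mem (𝔫 : Ideal B) [h𝔫 : 𝔫.IsPrime]
    (hm : ∀ a ∈ maximalIdeal A0, algebraMap A0 B a ∈ 𝔫) {c c' : A0ˣ}
    (h : (c : A0) - (c' : A0) ∈ maximalIdeal A0) :
    ((m59tl_cst (F0 := F0) 𝔫 c : (ssl_locSub F0 𝔫)ˣ) : ssl_locSub F0 𝔫) -
        ((m59tl_cst (F0 := F0) 𝔫 c' : (ssl_locSub F0 𝔫)ˣ) : ssl_locSub F0 𝔫) ∈
      𝔫.map (algebraMap B (ssl_locSub F0 𝔫)) := by
  have e : ((m59tl_cst (F0 := F0) 𝔫 c : (ssl_locSub F0 𝔫)ˣ) : ssl_locSub F0 𝔫) -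
      ((m59tl_cst (F0 := F0) 𝔫 c' : (ssl_locSub F0 𝔫)ˣ) : ssl_locSub F0 𝔫) =
      algebraMap B (ssl_locSub F0 𝔫) (algebraMap A0 B ((c : A0) - (c' : A0))) := by
    rw [map_sub, map_sub]
    rfl
  rw [e]
  exact Ideal.mem_map_of_mem _ (hm _ h)

/-- transfer of the congruence of the constants from the local ring of the point to the base. -/
theorem m59tx_const_transfer (𝔫 : Ideal B) [h𝔫 : 𝔫.IsPrime] {m : ℕ} (c : (ssl_locSub F0 𝔫)ˣ)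
    (c0 k1 k2 : A0ˣ)
    (hc0 : (c : ssl_locSub F0 𝔫) -
        algebraMap B (ssl_locSub F0 𝔫) (algebraMap A0 B (c0 : A0)) ∈
      𝔫.map (algebraMap B (ssl_locSub F0 𝔫)))
    (hcκ : (c : ssl_locSub F0 𝔫) ^ m * ((m59tl_cst (F0 := F0) 𝔫 k2 : (ssl_locSub F0 𝔫)ˣ) :
          ssl_locSub F0 𝔫) - ((m59tl_cst (F0 := F0) 𝔫 k1 : (ssl_locSub F0 𝔫)ˣ) :
          ssl_locSub F0 𝔫) ∈ 𝔫.map (algebraMap B (ssl_locSub F0 𝔫))) :
    (c0 : A0) ^ m * (k2 : A0) - (k1 : A0) ∈ maximalIdeal A0 := by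
  apply m59tx_cst_mem (F0 := F0) 𝔫
  set ι : A0 →+* ssl_locSub F0 𝔫 :=
    (algebraMap B (ssl_locSub F0 𝔫)).comp (algebraMap A0 B) with hι
  have hk : ∀ k : A0ˣ, ((m59tl_cst (F0 := F0) 𝔫 k : (ssl_locSub F0 𝔫)ˣ) : ssl_locSub F0 𝔫) =
      ι (k : A0) := fun k => rfl
  rw [hk, hk] at hcκ
  change ι ((c0 : A0) ^ m * (k2 : A0) - (k1 : A0)) ∈ _
  have hc0' : (c : ssl_locSub F0 𝔫) - ι (c0 : A0) ∈ 𝔫.map (algebraMap B (ssl_locSub F0 𝔫)) := hc0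
  obtain ⟨d, hd⟩ := sub_dvd_pow_sub_pow (c : ssl_locSub F0 𝔫) (ι (c0 : A0)) m
  have e : ι ((c0 : A0) ^ m * (k2 : A0) - (k1 : A0)) =
      ((c : ssl_locSub F0 𝔫) ^ m * ι (k2 : A0) - ι (k1 : A0)) -
        ((c : ssl_locSub F0 𝔫) - ι (c0 : A0)) * (d * ι (k2 : A0)) := by
    rw [← mul_assoc, ← hd, map_sub, map_mul, map_pow]
    ring
  rw [e]
  exact Ideal.sub_mem _ hcκ (Ideal.mul_mem_right _ _ hc0')

end Cst

section Leg

variable (L : Type) [Field L] [NumberField L] [Algebra L (AlgebraicClosure ℚ)]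
  (O : ValuationSubring L) [IsDiscreteValuationRing O]
variable (N' q : ℕ) [NeZero N'] [NeZero q] [hq : Fact q.Prime] [CharP (ResidueField O) q]
  (hq2 : ¬ 2 ∣ q) (hqN' : ¬ q ∣ N') (hπ : Irreducible ((q : ℕ) : ↥O))
  (ζ : L) (hζ : IsPrimitiveRoot ζ N') (φ1 : L ≃+* L) (hφ1 : s35nf_FrobAt O φ1 q)

include hζ hφ1 in
set_option synthInstance.maxHeartbeats 400000 in
set_option maxHeartbeats 3200000 in
/-- **(ex1) at one crossing point, Legendre tower at level `N' q`**: the toric datum of a function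
with constant reductions `k₁`, `k₂` is a constant `c₀ ∈ Oˣ`, and `c₀ᵐ k₂ ≡ k₁ mod q`. -/
theorem m59tx_leg_node {m : ℕ} (hm : 0 < m) {f : ↥(lg_E L (N' * q))} (hf0 : f ≠ 0)
    (hord : ∀ P : Place L ↥(lg_E L (N' * q)), (m : ℤ) ∣ P.ord f)
    (k1 k2 : (↥O)ˣ)
    (hf1 : f - algebraMap L ↥(lg_E L (N' * q)) ((k1 : ↥O) : L) ∈
      (ssm_gl_V1 O hπ N' q).nonunits)
    (hf2 : f - algebraMap L ↥(lg_E L (N' * q)) ((k2 : ↥O) : L) ∈
      (ssm_gl_V2 O hπ N' q hq2 hqN').nonunits)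
    (j : ℕ) (hcard : Nat.card (ResidueField O) = (q ^ 2) ^ j)
    (𝔫 : Ideal (fc_chart ↥O ({lg_lamE (N' * q)} : Set ↥(lg_E L (N' * q)))))
    (h𝔫 : 𝔫.IsMaximal)
    (hP1 : ssm_tp_P (fc_chart ↥O ({lg_lamE (N' * q)} : Set ↥(lg_E L (N' * q))))
      (ssm_gl_V1 O hπ N' q) ≤ 𝔫)
    (hP2 : ssm_tp_P (fc_chart ↥O ({lg_lamE (N' * q)} : Set ↥(lg_E L (N' * q))))
      (ssm_gl_V2 O hπ N' q hq2 hqN') ≤ 𝔫) :
    haveI : FiniteDimensional L⟮(lg_lamE (N' * q) : lg_E L (N' * q))⟯ ↥(lg_E L (N' * q)) :=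
      lgf_finite L (N' * q)
    haveI := ssm_ths_chart_isFractionRing (A0 := ↥O) (L := L)
      (lg_lamE (N' * q) : ↥(lg_E L (N' * q)))
    haveI : 𝔫.IsPrime := h𝔫.isPrime
    ∃ c0 : (↥O)ˣ,
      m59tl_Ratio
        (𝔫.map (algebraMap (fc_chart ↥O ({lg_lamE (N' * q)} : Set ↥(lg_E L (N' * q))))
          (ssl_locSub ↥(lg_E L (N' * q)) 𝔫)))
        ((ssm_tp_P (fc_chart ↥O ({lg_lamE (N' * q)} : Set ↥(lg_E L (N' * q))))
          (ssm_gl_V1 O hπ N' q)).map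
          (algebraMap (fc_chart ↥O ({lg_lamE (N' * q)} : Set ↥(lg_E L (N' * q))))
            (ssl_locSub ↥(lg_E L (N' * q)) 𝔫)))
        ((ssm_tp_P (fc_chart ↥O ({lg_lamE (N' * q)} : Set ↥(lg_E L (N' * q))))
          (ssm_gl_V2 O hπ N' q hq2 hqN')).map
          (algebraMap (fc_chart ↥O ({lg_lamE (N' * q)} : Set ↥(lg_E L (N' * q))))
            (ssl_locSub ↥(lg_E L (N' * q)) 𝔫))) m (f : ↥(lg_E L (N' * q)))
        (m59tl_cst (F0 := ↥(lg_E L (N' * q))) 𝔫 c0) ∧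
      ((q : ℕ) : ↥O) ∣ (c0 : ↥O) ^ m * (k2 : ↥O) - (k1 : ↥O) := by
  have hqO : ((q : ℕ) : O) ∈ maximalIdeal O := ssm_fln_q_mem L O q
  have hq2' : q ≠ 2 := ssm_fl_ne_two q hq2
  have hp := ssm_ll_prime L N' hπ q hqO hq2' hqN' ζ hζ
  haveI := ssm_go_isScalarTower O (lg_E L (N' * q))
  haveI : FiniteDimensional L⟮(lg_lamE (N' * q) : lg_E L (N' * q))⟯ ↥(lg_E L (N' * q)) :=
    lgf_finite L (N' * q)
  have hx : Transcendental L (lg_lamE (L := L) (N' * q)) :=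
    lgf_lam_transcendental L (N' * q) two_ne_zero
  have H := ssm_gl_hyp O hπ N' q hq2 hqN' hp.1
  haveI := ssm_ths_chart_isFractionRing (A0 := ↥O) (L := L)
    (lg_lamE (N' * q) : ↥(lg_E L (N' * q)))
  haveI := ssm_ths_chart_isNoetherianRing (A0 := ↥O) (L := L) hx
  haveI := ssm_ths_chart_isIntegrallyClosed (A0 := ↥O) (L := L)
    (lg_lamE (N' * q) : ↥(lg_E L (N' * q)))
  haveI h𝔫p : 𝔫.IsPrime := h𝔫.isPrime
  have hnode := s35ti_leg_nodeAt L O N' q hq2 hqN' hπ ζ hζ φ1 hφ1 𝔫 h𝔫 hP1 hP2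
  obtain ⟨c, hc, hcκ⟩ := m59tx_ratio_node_V (L := L) hπ hx H (s35ti_leg_tau (N' * q) φ1) (q ^ 2)
    𝔫 h𝔫 hnode hm hf0 hord k1 k2 hf1 hf2
  obtain ⟨c0, hc0⟩ := m59tr_rat_unit L O N' q hq2 hqN' hπ ζ hζ φ1 hφ1 j hcard 𝔫 h𝔫 hP1 hP2 c
  refine ⟨c0, m59tx_ratio_congr _ _ _ hc hc0, ?_⟩
  -- `c₀ᵐ k₂ - k₁ ∈ 𝔫 R`, hence in the maximal ideal of `O`
  have hmax := m59tx_const_transfer (F0 := ↥(lg_E L (N' * q))) 𝔫 c c0 k1 k2 hc0 hcκ
  rw [hπ.maximalIdeal_eq, Ideal.mem_span_singleton] at hmax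
  exact hmax

end Leg

end Fermat.Agent.M59
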