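/-
M59 / Sink B, leaf 4 [TOR-SURJ], cell (ex1), ASSEMBLY AGAINST `Defs1.lean` (helper5).
Prefix `m59tx_`.

Context of `Defs1.lean`: `A` over `q` odd, `q ∤ N'`, `L ⊆ ℚ̄` a number field (the big level `L*`),
`O = A ∩ L` a discrete valuation ring with uniformiser `q`.  Extra data (all delivered by [LSTAR]):
`ζN ∈ L` a primitive `N'`-th root of unity, `φ1` a Frobenius lift on `L`, `#k(O) = q ^ (2 j)`,
`ζ ∈ Oˣ` a primitive `p`-th root of unity.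

* `m59tx_ratioAt_exists` : (ex1) at ONE crossing point in the vocabulary of `Defs1`
  (`m59t1_RatioAt`): the datum of a function with constant reductions `k₁`, `k₂` is a constant
  `c₀ ∈ Oˣ`, `q ∣ c₀ᵐ k₂ - k₁`;
* `m59tx_ratioAt_congr`  : the constant only matters modulo `q`;
* **`m59tx_T1_of_nf`**   : a normal form `m59t1_NF … p u x0 c R g'` + [TAU-INV] for `g'` (two points
  labelled by the same supersingular place carry the same constant datum) ⟹ `∃ a, m59t1_T1 … u a`.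
-/
import Mathlib
import Fermat.Agent.M59.SinkB.Tor.Ex1Leg
import Fermat.Agent.M59.SinkB.Tor.Ex1Abs
import Fermat.Agent.M59.SinkB.Tor.Defs1

set_option autoImplicit false
set_option linter.unusedSectionVars false
set_option linter.unusedVariables false
set_option linter.style.haveILetI false
set_option synthInstance.maxHeartbeats 400000
set_option maxHeartbeats 3200000

noncomputable section

namespace Fermat.Agent.M59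

open Polynomial ModularCurve AlgebraicCurve IntermediateField IsLocalRing
open Fermat.Agent.JT3 Fermat.Agent.SS Fermat.Agent.S35 Fermat.Agent.S24 Fermat.Agent.S44
  Fermat.Agent.S36

local notation "Qb" => AlgebraicClosure ℚ

section Asm

variable (A : ValuationSubring Qb) {q : ℕ} [hq : Fact q.Prime] (hA : A.LiesOverPrime q)
  (N' : ℕ) [NeZero N'] [NeZero q] [NeZero (N' * q)] (hq2 : ¬ 2 ∣ q) (hqN' : ¬ q ∣ N')
  (L : IntermediateField ℚ Qb) [NumberField ↥L]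
  [IsDiscreteValuationRing ↥(A.comap (algebraMap ↥L Qb))]
  [CharP (ResidueField ↥(A.comap (algebraMap ↥L Qb))) q]
  (hπq : Irreducible ((q : ℕ) : ↥(A.comap (algebraMap ↥L Qb))))
  (ζN : ↥L) (hζN : IsPrimitiveRoot ζN N') (φ1 : ↥L ≃+* ↥L)
  (hφ1 : s35nf_FrobAt (A.comap (algebraMap ↥L Qb)) φ1 q)

include hζN hφ1 in
/-- **(ex1) at one crossing point**, vocabulary of `Defs1`. -/
theorem m59tx_ratioAt_exists (j : ℕ)
    (hcard : Nat.card (ResidueField ↥(A.comap (algebraMap ↥L Qb))) = (q ^ 2) ^ j)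
    {m : ℕ} (hm : 0 < m) {f : ↥(lg_E ↥L (N' * q))} (hf0 : f ≠ 0)
    (hord : ∀ v : Place ↥L ↥(lg_E ↥L (N' * q)), (m : ℤ) ∣ v.ord f)
    (k1 k2 : (↥(A.comap (algebraMap ↥L Qb)))ˣ)
    (hf1 : f - algebraMap ↥L ↥(lg_E ↥L (N' * q)) ((k1 : ↥(A.comap (algebraMap ↥L Qb))) : ↥L) ∈
      (ssm_gl_V1 (A.comap (algebraMap ↥L Qb)) hπq N' q).nonunits)
    (hf2 : f - algebraMap ↥L ↥(lg_E ↥L (N' * q)) ((k2 : ↥(A.comap (algebraMap ↥L Qb))) : ↥L) ∈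
      (ssm_gl_V2 (A.comap (algebraMap ↥L Qb)) hπq N' q hq2 hqN').nonunits)
    (𝔫 : Ideal ↥(m59t1_B1 A N' q L)) (h𝔫 : 𝔫.IsMaximal)
    (hP1 : m59t1_P1 A N' L hπq ≤ 𝔫) (hP2 : m59t1_P2 A N' hq2 hqN' L hπq ≤ 𝔫) :
    ∃ c0 : (↥(A.comap (algebraMap ↥L Qb)))ˣ,
      m59t1_RatioAt A N' hq2 hqN' L hπq m 𝔫 h𝔫.isPrime f c0 ∧
      ((q : ℕ) : ↥(A.comap (algebraMap ↥L Qb))) ∣
        (c0 : ↥(A.comap (algebraMap ↥L Qb))) ^ m * (k2 : ↥(A.comap (algebraMap ↥L Qb))) -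
          (k1 : ↥(A.comap (algebraMap ↥L Qb))) :=
  m59tx_leg_node ↥L (A.comap (algebraMap ↥L Qb)) N' q hq2 hqN' hπq ζN hζN φ1 hφ1 hm hf0 hord k1 k2
    hf1 hf2 j hcard 𝔫 h𝔫 hP1 hP2

include hζN in
/-- the constant datum only matters modulo `q`. -/
theorem m59tx_ratioAt_congr {m : ℕ} {f : ↥(lg_E ↥L (N' * q))}
    (𝔫 : Ideal ↥(m59t1_B1 A N' q L)) (h𝔫 : 𝔫.IsMaximal)
    (hP1 : m59t1_P1 A N' L hπq ≤ 𝔫) {c c' : (↥(A.comap (algebraMap ↥L Qb)))ˣ}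
    (h : m59t1_RatioAt A N' hq2 hqN' L hπq m 𝔫 h𝔫.isPrime f c)
    (hcc : ((q : ℕ) : ↥(A.comap (algebraMap ↥L Qb))) ∣
      (c : ↥(A.comap (algebraMap ↥L Qb))) - (c' : ↥(A.comap (algebraMap ↥L Qb)))) :
    m59t1_RatioAt A N' hq2 hqN' L hπq m 𝔫 h𝔫.isPrime f c' := by
  haveI := (s44ndl_chart_inst (A.comap (algebraMap ↥L Qb)) N' q (L := ↥L)).1
  haveI h𝔫p : 𝔫.IsPrime := h𝔫.isPrime
  have hbase := m59tr_base_mem ↥L (A.comap (algebraMap ↥L Qb)) N' q hq2 hqN' hπq ζN hζN 𝔫 hP1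
  have hmem : (c : ↥(A.comap (algebraMap ↥L Qb))) - (c' : ↥(A.comap (algebraMap ↥L Qb))) ∈
      maximalIdeal ↥(A.comap (algebraMap ↥L Qb)) := by
    rw [hπq.maximalIdeal_eq, Ideal.mem_span_singleton]
    exact hcc
  exact m59tx_ratio_congr _ _ _ h
    (m59tx_cst_sub_mem (F0 := ↥(lg_E ↥L (N' * q))) 𝔫 hbase hmem)

include hζN hφ1 in
/-- **(ex1), assembly**: a normal form of `u` over `L` and [TAU-INV] for its `g'` give a toric datum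
of `u`. -/
theorem m59tx_T1_of_nf (j : ℕ)
    (hcard : Nat.card (ResidueField ↥(A.comap (algebraMap ↥L Qb))) = (q ^ 2) ^ j)
    {p : ℕ} (hp : 0 < p) (ζ : (↥(A.comap (algebraMap ↥L Qb)))ˣ)
    (hζ : IsPrimitiveRoot (ζ : ↥(A.comap (algebraMap ↥L Qb))) p)
    (Q0 : s44e_Sg A N' q hq.out hqN') {u : JZero (N' * q)} {x0 : ↥(lg_F ↥L (N' * q))} {c : ↥L}
    {R g' : ↥(lg_E ↥L (N' * q))} (hNF : m59t1_NF A N' hq2 hqN' L hπq p u x0 c R g')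
    (hTau : ∀ (𝔫 𝔫' : Ideal ↥(m59t1_B1 A N' q L)) (h𝔫 : 𝔫.IsMaximal) (h𝔫' : 𝔫'.IsMaximal),
      m59t1_P1 A N' L hπq ≤ 𝔫 → m59t1_P2 A N' hq2 hqN' L hπq ≤ 𝔫 →
      m59t1_P1 A N' L hπq ≤ 𝔫' → m59t1_P2 A N' hq2 hqN' L hπq ≤ 𝔫' →
      ∀ Q : s44e_Sg A N' q hq.out hqN', m59t1_Lab A hA N' hq2 hqN' L hπq 𝔫 Q.1 →
        m59t1_Lab A hA N' hq2 hqN' L hπq 𝔫' Q.1 →
        ∀ ε : (↥(A.comap (algebraMap ↥L Qb)))ˣ,
          m59t1_RatioAt A N' hq2 hqN' L hπq p 𝔫 h𝔫.isPrime g' ε →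
          m59t1_RatioAt A N' hq2 hqN' L hπq p 𝔫' h𝔫'.isPrime g' ε) :
    ∃ a : m59t1_B A N' hqN' p Q0, m59t1_T1 A hA N' hq2 hqN' L hπq p ζ Q0 u a := by
  classical
  obtain ⟨hc0, hR0, hg'0, hrep, hphi, hord, k1, k2, hk1, hk2, hf1, hf2⟩ := hNF
  obtain ⟨k1, rfl⟩ := hk1
  obtain ⟨k2, rfl⟩ := hk2
  obtain ⟨e, ε, he0, hall⟩ := m59tx_assemble (O := ↥(A.comap (algebraMap ↥L Qb))) hπq.prime hp ζ hζ
    (k1 : ↥(A.comap (algebraMap ↥L Qb))) k2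
    (Sg := s44e_Sg A N' q hq.out hqN')
    (Pt := {𝔫 : Ideal ↥(m59t1_B1 A N' q L) // 𝔫.IsMaximal ∧ m59t1_P1 A N' L hπq ≤ 𝔫 ∧
      m59t1_P2 A N' hq2 hqN' L hπq ≤ 𝔫}) Q0
    (fun P Q => m59t1_Lab A hA N' hq2 hqN' L hπq P.1 Q.1)
    (fun P c0 => m59t1_RatioAt A N' hq2 hqN' L hπq p P.1 P.2.1.isPrime g' c0)
    (fun P => m59tx_ratioAt_exists A N' hq2 hqN' L hπq ζN hζN φ1 hφ1 j hcard hp hg'0 hord k1 k2
      hf1 hf2 P.1 P.2.1 P.2.2.1 P.2.2.2)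
    (fun P c0 c0' h hcc => m59tx_ratioAt_congr A N' hq2 hqN' L hπq ζN hζN P.1 P.2.1 P.2.2.1 h hcc)
    (fun P P' Q hPQ hP'Q ε h => hTau P.1 P'.1 P.2.1 P'.2.1 P.2.2.1 P.2.2.2 P'.2.2.1 P'.2.2.2 Q
      hPQ hP'Q ε h)
  refine ⟨fun Q => e Q.1, x0, c, R, g',
    ⟨hc0, hR0, hg'0, hrep, hphi, hord, (k1 : ↥(A.comap (algebraMap ↥L Qb))),
      (k2 : ↥(A.comap (algebraMap ↥L Qb))), k1.isUnit, k2.isUnit, hf1, hf2⟩, ε, ?_⟩
  intro 𝔫 h𝔫 hP1 hP2 Q hLab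
  have hext : m59t1_ext A N' hqN' (fun Q : {Q : s44e_Sg A N' q hq.out hqN' // Q ≠ Q0} => e Q.1) Q =
      e Q := by
    unfold m59t1_ext
    by_cases hQ : Q = Q0
    · rw [dif_pos hQ, hQ, he0]
    · rw [dif_neg hQ]
  show m59t1_RatioAt A N' hq2 hqN' L hπq p 𝔫 h𝔫.isPrime g' _
  beta_reduce
  rw [hext]
  exact hall ⟨𝔫, h𝔫, hP1, hP2⟩ Q hLab

end Asm

end Fermat.Agent.M59
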