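/-
M59 / Sink B, leaf 4 [TOR-SURJ], THE FIELD `ex1` OF `m59tc_Data` (helper5).  Prefix `m59tx_`.

`∀ u ∈ m59tc_D1 N' q p A, ∃ a, m59t1_T1 … u a` from

* [LSTAR]  : a level `L` (number field, `O = A ∩ L` a DVR with uniformiser `q`, `ζ_{N'} ∈ L`, `ζ_p ∈ O`,
             a Frobenius lift, `#k(O) = q ^ (2 j)`) over which every `u ∈ D1` has a representing
             function (`hD1`);
* [NU0]    : `m59nz_nu_zero`, `m59nz_nu_zero_W` (on main, used here);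
* [DELTA0] : `δ_p (y.1 1) = 0 = δ_p (W (y.1 1))` for the compatible systems of `D1` (`hδ`);
* [TAU-INV]: two crossing points labelled by the same supersingular place carry the same constant
             datum of the `g'` of a normal form (`hTau`);
* the normal form `m59to_nf_at` and the assembly `m59tx_T1_of_nf`.
-/
import Mathlib
import Fermat.Agent.M59.SinkB.Tor.Ex1
import Fermat.Agent.M59.SinkB.Tor.Count
import Fermat.Agent.M59.SinkB.NuZero.Main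
import Fermat.Agent.M59.DTwin.Toric.NormalForm

set_option autoImplicit false
set_option linter.unusedSectionVars false
set_option linter.unusedVariables false
set_option linter.style.haveILetI false
set_option synthInstance.maxHeartbeats 400000
set_option maxHeartbeats 3200000

noncomputable section

namespace Fermat.Agent.M59

open Fermat.Agent.TW

open Polynomial ModularCurve AlgebraicCurve IntermediateField IsLocalRing
open Fermat.Agent.JT3 Fermat.Agent.SS Fermat.Agent.S35 Fermat.Agent.S24 Fermat.Agent.S44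
  Fermat.Agent.S36

local notation "Qb" => AlgebraicClosure ℚ

section All

variable (A : ValuationSubring Qb) {q : ℕ} [hq : Fact q.Prime] (hA : A.LiesOverPrime q)
  (N' : ℕ) [NeZero N'] [NeZero q] [NeZero (N' * q)] (hq2 : ¬ 2 ∣ q) (hqN' : ¬ q ∣ N')
  (L : IntermediateField ℚ Qb) [NumberField ↥L]
  [IsDiscreteValuationRing ↥(A.comap (algebraMap ↥L Qb))]
  [CharP (ResidueField ↥(A.comap (algebraMap ↥L Qb))) q]
  (hπq : Irreducible ((q : ℕ) : ↥(A.comap (algebraMap ↥L Qb))))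
  (ζN : ↥L) (hζN : IsPrimitiveRoot ζN N') (φ1 : ↥L ≃+* ↥L)
  (hφ1 : s35nf_FrobAt (A.comap (algebraMap ↥L Qb)) φ1 q)

include hA hζN in
/-- **the normal form of every `u ∈ D1`** over a level with representing functions. -/
theorem m59tx_nf_of_D1 {p : ℕ} [hp : Fact p.Prime] (hp2 : p ≠ 2) (hqp : q ≠ p) (h4 : 4 ∣ N')
    (hδ : ∀ y : tj_T (N' * q) p, (∀ n, y.1 n ∈ m59sb_Y1 N' q p A n) →
      twfr_delta A N' q p (y.1 1) = 0 ∧
        twfr_delta A N' q p (s44w_WJ N' q hq.out hqN' (y.1 1)) = 0)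
    {u : JZero (N' * q)} (hu : u ∈ m59tc_D1 N' q p A) {x0 : ↥(lg_F ↥L (N' * q))}
    (hrep : s44f_Rep (N' * q) p u (ssm_al_iotaF ↥L (N' * q) x0)) :
    ∃ (c : ↥L) (R g' : ↥(lg_E ↥L (N' * q))), m59t1_NF A N' hq2 hqN' L hπq p u x0 c R g' := by
  obtain ⟨y, hy, rfl⟩ := hu
  have hz : p • y.1 1 = 0 := by
    have := (hy 1).1
    rwa [pow_one] at this
  have hfix : ∀ n, ∀ σ ∈ A.inertiaSubgroupIn ℚ, σ • y.1 n = y.1 n := fun n => (hy n).2.1
  have hν := m59nz_nu_zero A hA N' hqN' hq2 h4 hp2 y hfix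
  have hνW := m59nz_nu_zero_W A hA N' hqN' hq2 h4 hp2 y hfix
  obtain ⟨hδ1, hδ2⟩ := hδ y hy
  have hm0 : p ≠ 0 := hp.out.ne_zero
  have hM2 : 2 ∣ N' := dvd_trans (by norm_num) h4
  have hm2 : Nat.Coprime p 2 :=
    (Nat.coprime_primes hp.out Nat.prime_two).2 hp2
  have hqm : ¬ q ∣ p := fun h => hqp ((Nat.prime_dvd_prime_iff_eq hq.out hp.out).1 h)
  obtain ⟨c, R, g', hc0, hR0, hg'0, hphi, hord, hcr⟩ :=
    m59to_nf_at A hA N' hqN' hm0 hM2 hm2 L hq2 hqm hπq ζN hζN hz hν hνW hδ1 hδ2 hrep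
  exact ⟨c, R, g', hc0, hR0, hg'0, hrep, hphi, hord, hcr⟩

include hζN hφ1 in
/-- **the field `ex1` of `m59tc_Data`** (hypotheses: [LSTAR], [DELTA0], [TAU-INV]). -/
theorem m59tx_ex1 {p : ℕ} [hp : Fact p.Prime] (hp2 : p ≠ 2) (hqp : q ≠ p) (h4 : 4 ∣ N')
    (j : ℕ) (hcard : Nat.card (ResidueField ↥(A.comap (algebraMap ↥L Qb))) = (q ^ 2) ^ j)
    (ζ : (↥(A.comap (algebraMap ↥L Qb)))ˣ)
    (hζ : IsPrimitiveRoot (ζ : ↥(A.comap (algebraMap ↥L Qb))) p)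
    (Q0 : s44e_Sg A N' q hq.out hqN')
    (hD1 : ∀ u ∈ m59tc_D1 N' q p A, ∃ x0 : ↥(lg_F ↥L (N' * q)),
      s44f_Rep (N' * q) p u (ssm_al_iotaF ↥L (N' * q) x0))
    (hδ : ∀ y : tj_T (N' * q) p, (∀ n, y.1 n ∈ m59sb_Y1 N' q p A n) →
      twfr_delta A N' q p (y.1 1) = 0 ∧
        twfr_delta A N' q p (s44w_WJ N' q hq.out hqN' (y.1 1)) = 0)
    (hTau : ∀ (u : JZero (N' * q)) (x0 : ↥(lg_F ↥L (N' * q))) (c : ↥L)
      (R g' : ↥(lg_E ↥L (N' * q))), m59t1_NF A N' hq2 hqN' L hπq p u x0 c R g' →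
      ∀ (𝔫 𝔫' : Ideal ↥(m59t1_B1 A N' q L)) (h𝔫 : 𝔫.IsMaximal) (h𝔫' : 𝔫'.IsMaximal),
      m59t1_P1 A N' L hπq ≤ 𝔫 → m59t1_P2 A N' hq2 hqN' L hπq ≤ 𝔫 →
      m59t1_P1 A N' L hπq ≤ 𝔫' → m59t1_P2 A N' hq2 hqN' L hπq ≤ 𝔫' →
      ∀ Q : s44e_Sg A N' q hq.out hqN', m59t1_Lab A hA N' hq2 hqN' L hπq 𝔫 Q.1 →
        m59t1_Lab A hA N' hq2 hqN' L hπq 𝔫' Q.1 →
        ∀ ε : (↥(A.comap (algebraMap ↥L Qb)))ˣ,
          m59t1_RatioAt A N' hq2 hqN' L hπq p 𝔫 h𝔫.isPrime g' ε →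
          m59t1_RatioAt A N' hq2 hqN' L hπq p 𝔫' h𝔫'.isPrime g' ε) :
    ∀ u ∈ m59tc_D1 N' q p A,
      ∃ a : m59t1_B A N' hqN' p Q0, m59t1_T1 A hA N' hq2 hqN' L hπq p ζ Q0 u a := by
  intro u hu
  obtain ⟨x0, hrep⟩ := hD1 u hu
  obtain ⟨c, R, g', hNF⟩ := m59tx_nf_of_D1 A hA N' hq2 hqN' L hπq ζN hζN hp2 hqp h4 hδ hu hrep
  exact m59tx_T1_of_nf A hA N' hq2 hqN' L hπq ζN hζN φ1 hφ1 j hcard hp.out.pos ζ hζ Q0 hNF
    (hTau u x0 c R g' hNF)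

end All

end Fermat.Agent.M59
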