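/-
M59 / Sink B, leaf 4 [TOR-SURJ], cell [LSTAR] (helper29; cut by helper15, ruling #5695 (2)).
Prefix `m59ls_`.

THE BIG LEVEL `L*`: ONE unramified level `L1` (in the sense of `s35d_IsLevel A q`) which contains
`ζ_p`, `ζ_{N'}`, has residue field of cardinality an EVEN power of `q` (the hypothesis of [RAT],
`m59tr_rat`), over which EVERY class of `m59tc_D1 N' q p A` has an `L1`-rational representing
function, and over which EVERY uniform toric class of exponent `p` (`m59g12u_TorU … p 1`) has its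
normal form.

* `m59ls_orderOf_residue` : a primitive `n`-th root of unity of a local domain with `n` invertible in
  the residue field reduces to an element of exact order `n`.
* `m59ls_card_sq` : a finite field of characteristic `q` containing an element of order `q² − 1`
  has `(q²)^j` elements.
* `m59ls_Star`, **`m59ls_star : Nonempty (m59ls_Star N' q p A hq2 hqN')`**.
-/
import Mathlib
import Fermat.Agent.M59.SinkB.G12.WireCU
import Fermat.Agent.M59.SinkB.Tor.Count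
import Fermat.Agent.FF.DescentNF

set_option autoImplicit false
set_option linter.unusedSectionVars false
set_option linter.unusedVariables false
set_option linter.style.haveILetI false
set_option synthInstance.maxHeartbeats 400000
set_option maxHeartbeats 1000000

noncomputable section

namespace Fermat.Agent.M59

open ModularCurve AlgebraicCurve IntermediateField IsLocalRing Module
open Fermat.Agent.JT3 Fermat.Agent.SS Fermat.Agent.S35 Fermat.Agent.S36 Fermat.Agent.S24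
  Fermat.Agent.S44 Fermat.Agent.SS2 Fermat.Agent.TW Fermat.Agent.FF Fermat.Agent.MZ

local notation "Qb" => AlgebraicClosure ℚ
local notation "GQ" => (AlgebraicClosure ℚ ≃ₐ[ℚ] AlgebraicClosure ℚ)

/-! ### roots of unity in the residue field -/

/-- a primitive `(m+1)`-th root of unity of a local domain, `m + 1` nonzero in the residue field,
reduces to an element of exact order `m + 1`. -/
theorem m59ls_orderOf_residue {O : Type*} [CommRing O] [IsDomain O] [IsLocalRing O] {m : ℕ}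
    {ζ : O} (hζ : IsPrimitiveRoot ζ (m + 1))
    (hm : ((m + 1 : ℕ) : ResidueField O) ≠ 0) : orderOf (residue O ζ) = m + 1 := by
  have hprod := hζ.prod_one_sub_pow_eq_order
  have h1 := congrArg (residue O) hprod
  rw [map_prod] at h1
  have h2 : ∏ k ∈ Finset.range m, (residue O) (1 - ζ ^ (k + 1)) ≠ 0 := by
    rw [h1]
    have : (residue O) ((m : O) + 1) = ((m + 1 : ℕ) : ResidueField O) := by
      rw [map_add, map_natCast, map_one]; push_cast; rfl
    rw [this]
    exact hm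
  rw [Finset.prod_ne_zero_iff] at h2
  rw [orderOf_eq_iff (Nat.succ_pos m)]
  refine ⟨by rw [← map_pow, hζ.pow_eq_one, map_one], fun j hj hj0 hj1 => ?_⟩
  obtain ⟨k, rfl⟩ := Nat.exists_eq_succ_of_ne_zero hj0.ne'
  have hk : k ∈ Finset.range m := Finset.mem_range.2 (by omega)
  apply h2 k hk
  rw [map_sub, map_one, map_pow, hj1, sub_self]

/-- a finite field of characteristic `q` containing an element of order `q ^ 2 - 1` has
`(q ^ 2) ^ j` elements. -/
theorem m59ls_card_sq {k : Type*} [Field k] [Finite k] (q : ℕ) [hq : Fact q.Prime] [CharP k q]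
    {z : k} (hz : orderOf z = q ^ 2 - 1) : ∃ j : ℕ, Nat.card k = (q ^ 2) ^ j := by
  classical
  haveI : Fintype k := Fintype.ofFinite k
  obtain ⟨n, hn⟩ := FiniteField.card k q
  rw [Nat.card_eq_fintype_card, hn.2]
  have hq2 : 2 ≤ q := hq.out.two_le
  have hz0 : z ≠ 0 := by
    rintro rfl
    rw [orderOf_zero k] at hz
    have : 1 < q ^ 2 := Nat.one_lt_pow (by norm_num) hq.out.one_lt
    omega
  have hdvd : q ^ 2 - 1 ∣ q ^ (n : ℕ) - 1 := by
    rw [← hz, ← hn.2]
    exact orderOf_dvd_of_pow_eq_one (FiniteField.pow_card_sub_one_eq_one z hz0)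
  -- `n` is even
  rcases Nat.even_or_odd' (n : ℕ) with ⟨j, hj | hj⟩
  · exact ⟨j, by rw [hj, pow_mul]⟩
  · exfalso
    -- `q ^ (2 j + 1) - 1 = q (q ^ (2 j) - 1) + (q - 1)`
    have h1 : q ^ 2 - 1 ∣ (q ^ 2) ^ j - 1 := by
      simpa only [one_pow] using Nat.sub_dvd_pow_sub_pow (q ^ 2) 1 j
    have hge : 1 ≤ (q ^ 2) ^ j := Nat.one_le_pow _ _ (by positivity)
    have h2 : q ^ (n : ℕ) - 1 = q * ((q ^ 2) ^ j - 1) + (q - 1) := by
      rw [hj, pow_succ, pow_mul]
      have : q * ((q ^ 2) ^ j - 1) = (q ^ 2) ^ j * q - q := by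
        rw [Nat.mul_sub, mul_one, mul_comm]
      have hle : q ≤ (q ^ 2) ^ j * q := Nat.le_mul_of_pos_left q (by positivity)
      omega
    rw [h2] at hdvd
    have h3 : q ^ 2 - 1 ∣ q - 1 :=
      (Nat.dvd_add_right (Dvd.dvd.mul_left h1 q)).1 hdvd
    have h4 : q ^ 2 - 1 ≤ q - 1 := Nat.le_of_dvd (by omega) h3
    have h5 : q < q ^ 2 := by nlinarith
    omega

/-! ### Kummer representatives with the hypotheses of [DESC-U] -/

/-- a class killed by `m` and fixed by `I_A` has a representing function with the hypotheses of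
`s35d_descU_family` (first lines of `twfc_desc`). -/
theorem m59ls_rep_descU (A : ValuationSubring Qb) (N : ℕ) [NeZero N] {m : ℕ} {z : JZero N}
    (hz : m • z = 0) (hfix : ∀ σ ∈ A.inertiaSubgroupIn ℚ, σ • z = z) :
    ∃ f : modularFunctionFieldBar N, s44f_Rep N m z f ∧ f ≠ 0 ∧
      (∀ v : Place Qb (modularFunctionFieldBar N), (m : ℤ) ∣ v.ord f) ∧
      ∀ s ∈ A.inertiaSubgroupIn ℚ,
        ∃ (c : Qb) (r : modularFunctionFieldBar N), c ≠ 0 ∧ r ≠ 0 ∧
          arithmeticGalois (modularFunctionFieldFull N) s • f =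
            algebraMap Qb (modularFunctionFieldBar N) c * r ^ m * f := by
  obtain ⟨f, hrep⟩ := s44f_rep_exists N z hz
  refine ⟨f, hrep, ?_⟩
  obtain ⟨hf, D, rfl, hD⟩ := hrep
  refine ⟨hf, fun v => ⟨_, (hD v).symm⟩, ?_⟩
  intro s hs
  obtain ⟨c, r, hr, hcr⟩ := s35k_fix_kummer (rt_isSepGen_jBar N)
    (arithmeticGalois (modularFunctionFieldFull N) s) D hf hD (hfix s hs)
  refine ⟨c, r, ?_, hr, hcr⟩
  rintro rfl
  rw [map_zero, zero_mul, zero_mul] at hcr
  have : arithmeticGalois (modularFunctionFieldFull N) s • f ≠ 0 := by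
    rwa [Ne, smul_eq_zero_iff_eq]
  exact this hcr

/-- **one level for finitely many classes of level `N`**: finitely many `I_A`-fixed classes killed
by `m` have `L1`-rational representing functions over ONE unramified level `L1 ⊇ T`. -/
theorem m59ls_models (A : ValuationSubring Qb) {q : ℕ} [Fact q.Prime] (hA : A.LiesOverPrime q)
    (N : ℕ) [NeZero N] {m : ℕ} (hm : m ≠ 0) (T : Finset Qb)
    (hT : ∀ t ∈ T, ∀ s ∈ A.inertiaSubgroupIn ℚ, s t = t) (Z : Set (JZero N)) (hZ : Z.Finite)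
    (hZm : ∀ z ∈ Z, m • z = 0) (hZfix : ∀ z ∈ Z, ∀ σ ∈ A.inertiaSubgroupIn ℚ, σ • z = z) :
    ∃ L1 : IntermediateField ℚ Qb, s35d_IsLevel A q L1 ∧ (↑T : Set Qb) ⊆ L1 ∧
      ∀ z ∈ Z, ∃ x0 : ↥(lg_F ↥L1 N), s44f_Rep N m z (ssm_al_iotaF ↥L1 N x0) := by
  classical
  haveI : Finite ↥Z := hZ.to_subtype
  choose f hrep hf hord hfix using fun i : ↥Z =>
    m59ls_rep_descU A N (hZm i.1 i.2) (hZfix i.1 i.2)
  obtain ⟨L1, hlev, hTL1, hall⟩ := s35d_descU_family N q A hA T hT hm f hf hord hfix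
  refine ⟨L1, hlev, hTL1, fun z hz => ?_⟩
  obtain ⟨g1, c₀, r₀, hg1, hc₀, hr₀, hfeq, -⟩ := hall ⟨z, hz⟩
  obtain ⟨x0, hx0⟩ : ∃ x0 : ↥(lg_F ↥L1 N),
      (x0 : LaurentSeries ↥L1) = (g1 : LaurentSeries ↥L1) :=
    ⟨⟨(g1 : LaurentSeries ↥L1), ss2_dp_mem_lgF ↥L1 N g1.2⟩, rfl⟩
  have hbc : ssm_al_iotaF ↥L1 N x0 = dsc_bcHom ↥L1 Qb (modularFunctionFieldFull N) g1 := by
    apply Subtype.ext
    show ssm_al_iota ↥L1 (x0 : LaurentSeries ↥L1) = _
    rw [hx0]
    rfl
  refine ⟨x0, ?_⟩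
  rw [hbc]
  have hr := hrep ⟨z, hz⟩
  have e : f ⟨z, hz⟩ = algebraMap Qb (modularFunctionFieldBar N) c₀ *
      dsc_bcHom ↥L1 Qb (modularFunctionFieldFull N) g1 * r₀ ^ m := by
    rw [hfeq]; ring
  rw [e] at hr
  exact (s44b_rep_pth N hc₀ hr₀).1 hr

/-! ### the big level -/

/-- **the big level `L*`** of leaf 4. -/
structure m59ls_Star (N' q p : ℕ) [NeZero N'] [NeZero q] [hqF : Fact q.Prime] [NeZero (N' * q)]
    [NeZero (N' * q * q)] [Fact p.Prime] (A : ValuationSubring Qb) (hq2 : ¬ 2 ∣ q)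
    (hqN' : ¬ q ∣ N') where
  /-- the level field -/
  L1 : IntermediateField ℚ Qb
  lev : s35d_IsLevel A q L1
  /-- a primitive `p`-th root of unity -/
  zp : ↥L1
  hzp : IsPrimitiveRoot zp p
  /-- a primitive `N'`-th root of unity -/
  zN : ↥L1
  hzN : IsPrimitiveRoot zN N'
  /-- the residue degree is even (the hypothesis of `m59tr_rat`) -/
  hcard : ∃ j : ℕ, Nat.card (ResidueField ↥(A.comap (algebraMap ↥L1 Qb))) = (q ^ 2) ^ j
  /-- the classes of `D1` have `L1`-rational representing functions -/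
  hD1 : ∀ u ∈ m59tc_D1 N' q p A, ∃ x0 : ↥(lg_F ↥L1 (N' * q)),
    s44f_Rep (N' * q) p u (ssm_al_iotaF ↥L1 (N' * q) x0)
  /-- the uniform toric classes of exponent `p` have their normal form over `L1` -/
  hTorU : ∀ z ∈ m59g12u_TorU A N' q hq2 hqN' p 1,
    ∃ f : modularFunctionFieldBar (N' * q * q), s44f_Rep (N' * q * q) p z f ∧
      m59g12u_NFOver A N' q hq2 hqN' p f L1

/-- a root of unity of order prime to `q` in a level has a residue class of the same order. -/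
theorem m59ls_orderOf_level (A : ValuationSubring Qb) {q : ℕ} [hq : Fact q.Prime]
    (hA : A.LiesOverPrime q) {L1 : IntermediateField ℚ Qb} (hlev : s35d_IsLevel A q L1)
    {n : ℕ} (hn : ¬ q ∣ n) (hn0 : n ≠ 0) {ζ : Qb} (hζ : IsPrimitiveRoot ζ n) (hζL1 : ζ ∈ L1) :
    ∃ z : ResidueField ↥(A.comap (algebraMap ↥L1 Qb)), orderOf z = n := by
  haveI : IsDiscreteValuationRing ↥(A.comap (algebraMap ↥L1 Qb)) := hlev.dvr
  have hmem := lg_natCast_mem_maximalIdeal A hA ↥L1
  haveI : CharP (ResidueField ↥(A.comap (algebraMap ↥L1 Qb))) q := ss_nfl_charP_residue hmem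
  obtain ⟨m, rfl⟩ := Nat.exists_eq_succ_of_ne_zero hn0
  -- `ζ` lies in the valuation ring
  have hζ1 : IsPrimitiveRoot (⟨ζ, hζL1⟩ : ↥L1) (m + 1) :=
    IsPrimitiveRoot.of_map_of_injective (f := algebraMap ↥L1 Qb) hζ (algebraMap ↥L1 Qb).injective
  have hζO : (⟨ζ, hζL1⟩ : ↥L1) ∈ A.comap (algebraMap ↥L1 Qb) := by
    rw [← ValuationSubring.valuation_le_one_iff]
    have h1 : (A.comap (algebraMap ↥L1 Qb)).valuation (⟨ζ, hζL1⟩ : ↥L1) ^ (m + 1) = 1 := by
      rw [← map_pow, hζ1.pow_eq_one, map_one]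
    exact le_of_eq ((pow_eq_one_iff.1 h1).resolve_right (Nat.succ_ne_zero m))
  have hζ2 : IsPrimitiveRoot (⟨⟨ζ, hζL1⟩, hζO⟩ : ↥(A.comap (algebraMap ↥L1 Qb))) (m + 1) :=
    IsPrimitiveRoot.of_map_of_injective (f := (A.comap (algebraMap ↥L1 Qb)).subtype) hζ1
      Subtype.val_injective
  refine ⟨residue _ ⟨⟨ζ, hζL1⟩, hζO⟩, m59ls_orderOf_residue hζ2 ?_⟩
  rw [Ne, CharP.cast_eq_zero_iff (ResidueField ↥(A.comap (algebraMap ↥L1 Qb))) q]
  exact hn

/-- **[LSTAR]**, with any prescribed finite `I_A`-fixed set of constants `T0` inside the level. -/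
theorem m59ls_star_sup (N' q p : ℕ) [NeZero N'] [NeZero q] [hqF : Fact q.Prime] [NeZero (N' * q)]
    [NeZero (N' * q * q)] [hpF : Fact p.Prime] (A : ValuationSubring Qb) (hq2 : ¬ 2 ∣ q)
    (hqN' : ¬ q ∣ N') (hA : A.LiesOverPrime q) (hqp : q ≠ p) (T0 : Finset Qb)
    (hT0 : ∀ t ∈ T0, ∀ s ∈ A.inertiaSubgroupIn ℚ, s t = t) :
    ∃ S : m59ls_Star N' q p A hq2 hqN', (↑T0 : Set Qb) ⊆ S.L1 := by
  classical
  have hq : q.Prime := hqF.out
  have hp : p.Prime := hpF.out
  have hqp' : ¬ q ∣ p := fun h => hqp ((Nat.prime_dvd_prime_iff_eq hq hp).1 h)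
  have hq1 : 1 < q ^ 2 := Nat.one_lt_pow (by norm_num) hq.one_lt
  have hqq : ¬ q ∣ q ^ 2 - 1 := by
    intro h
    have h2 : q ∣ q ^ 2 := dvd_pow_self q (by norm_num)
    have h3 : q ∣ q ^ 2 - (q ^ 2 - 1) := Nat.dvd_sub h2 h
    have h4 : q ^ 2 - (q ^ 2 - 1) = 1 := by omega
    rw [h4] at h3
    exact hq.one_lt.ne' (Nat.dvd_one.1 h3)
  haveI : NeZero p := ⟨hp.ne_zero⟩
  haveI : NeZero (q ^ 2 - 1) := ⟨by omega⟩
  -- the three roots of unity
  obtain ⟨ζp, hζp⟩ : ∃ ζ : Qb, IsPrimitiveRoot ζ p :=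
    HasEnoughRootsOfUnity.exists_primitiveRoot Qb p
  obtain ⟨ζN, hζN⟩ : ∃ ζ : Qb, IsPrimitiveRoot ζ N' :=
    HasEnoughRootsOfUnity.exists_primitiveRoot Qb N'
  obtain ⟨ζq, hζq⟩ : ∃ ζ : Qb, IsPrimitiveRoot ζ (q ^ 2 - 1) :=
    HasEnoughRootsOfUnity.exists_primitiveRoot Qb (q ^ 2 - 1)
  -- the uniform toric classes
  obtain ⟨TU, hTU, hsub⟩ := m59g12u_exists_T A N' q hq2 hqN' hA p 1
  set T : Finset Qb := insert ζp (insert ζN (insert ζq (TU ∪ T0))) with hTdef
  have hT : ∀ t ∈ T, ∀ s ∈ A.inertiaSubgroupIn ℚ, s t = t := by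
    intro t ht s hs
    rcases Finset.mem_insert.1 ht with rfl | ht
    · exact s35d_root_fixed A q hA hqp' hζp.pow_eq_one hs
    rcases Finset.mem_insert.1 ht with rfl | ht
    · exact s35d_root_fixed A q hA hqN' hζN.pow_eq_one hs
    rcases Finset.mem_insert.1 ht with rfl | ht
    · exact s35d_root_fixed A q hA hqq hζq.pow_eq_one hs
    rcases Finset.mem_union.1 ht with ht | ht
    · exact hTU t ht s hs
    · exact hT0 t ht s hs
  -- the classes of `D1`
  have hD1fin : (m59tc_D1 N' q p A).Finite := by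
    have h0 := tj_finite (N' * q) p 1
    have h : {x : JZero (N' * q) | p ^ 1 • x = 0}.Finite := Set.finite_coe_iff.1 h0
    exact h.subset fun u hu => (m59tc_D1_subset N' q p A hu).1
  obtain ⟨L1, hlev, hTL1, hmod⟩ := m59ls_models A hA (N' * q) hp.ne_zero T hT
    (m59tc_D1 N' q p A) hD1fin
    (fun u hu => by
      have := (m59tc_D1_subset N' q p A hu).1
      rwa [pow_one] at this)
    (fun u hu => (m59tc_D1_subset N' q p A hu).2.1)
  have hζpL1 : ζp ∈ L1 := hTL1 (by rw [hTdef]; simp)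
  have hζNL1 : ζN ∈ L1 := hTL1 (by rw [hTdef]; simp)
  have hζqL1 : ζq ∈ L1 := hTL1 (by rw [hTdef]; simp)
  have hTUL1 : (↑TU : Set Qb) ⊆ L1 := fun x hx => hTL1 (by
    rw [hTdef]
    simp only [Finset.coe_insert, Finset.coe_union, Set.mem_insert_iff, Set.mem_union]
    exact Or.inr (Or.inr (Or.inr (Or.inl hx))))
  have hT0L1 : (↑T0 : Set Qb) ⊆ L1 := fun x hx => hTL1 (by
    rw [hTdef]
    simp only [Finset.coe_insert, Finset.coe_union, Set.mem_insert_iff, Set.mem_union]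
    exact Or.inr (Or.inr (Or.inr (Or.inr hx))))
  -- the residue field
  haveI : FiniteDimensional ℚ ↥L1 := hlev.fd
  haveI : Finite (ResidueField ↥(A.comap (algebraMap ↥L1 Qb))) := ffx_nf_finite_residue q A hA L1
  haveI : IsDiscreteValuationRing ↥(A.comap (algebraMap ↥L1 Qb)) := hlev.dvr
  have hmem := lg_natCast_mem_maximalIdeal A hA ↥L1
  haveI : CharP (ResidueField ↥(A.comap (algebraMap ↥L1 Qb))) q := ss_nfl_charP_residue hmem
  obtain ⟨z, hz⟩ := m59ls_orderOf_level A hA hlev hqq (by omega) hζq hζqL1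
  refine ⟨{
    L1 := L1
    lev := hlev
    zp := ⟨ζp, hζpL1⟩
    hzp := IsPrimitiveRoot.of_map_of_injective (f := algebraMap ↥L1 Qb) hζp
      (algebraMap ↥L1 Qb).injective
    zN := ⟨ζN, hζNL1⟩
    hzN := IsPrimitiveRoot.of_map_of_injective (f := algebraMap ↥L1 Qb) hζN
      (algebraMap ↥L1 Qb).injective
    hcard := m59ls_card_sq q hz
    hD1 := hmod
    hTorU := ?_ }, hT0L1⟩
  intro z hz
  obtain ⟨-, -, f, hrep, hnf⟩ := hsub L1 hlev hTUL1 hz
  rw [pow_one] at hrep hnf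
  exact ⟨f, hrep, hnf⟩

/-- **[LSTAR]**: the big level exists. -/
theorem m59ls_star (N' q p : ℕ) [NeZero N'] [NeZero q] [hqF : Fact q.Prime] [NeZero (N' * q)]
    [NeZero (N' * q * q)] [hpF : Fact p.Prime] (A : ValuationSubring Qb) (hq2 : ¬ 2 ∣ q)
    (hqN' : ¬ q ∣ N') (hA : A.LiesOverPrime q) (hqp : q ≠ p) :
    Nonempty (m59ls_Star N' q p A hq2 hqN') := by
  obtain ⟨S, -⟩ := m59ls_star_sup N' q p A hq2 hqN' hA hqp ∅ (by simp)
  exact ⟨S⟩

end Fermat.Agent.M59
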