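/-
M59 / Sink B, leaf 4 [TOR-SURJ], LEVEL `N' q`: THE NORMAL FORM ON `m59tc_D1` (helper7).
Prefix `m59t1_`.

`u ∈ m59tc_D1 N' q p A` (the first layer of a compatible system of inertia-fixed classes killed by
both push-forwards), `x0` a model over a number field level `L` (with a primitive `N'`-th root of `1`,
`q` a uniformiser of `O = A ∩ L`) of a representing function of `u` at the exponent `p`.  Then `u` has
the normal form `m59t1_NF` over `L`: the four hypotheses of `m59to_nf_at` are `m59dz_nf_hyps`.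
-/
import Mathlib
import Fermat.Agent.M59.SinkB.Tor.Defs1
import Fermat.Agent.M59.SinkB.DeltaZero.Main
import Fermat.Agent.M59.DTwin.Toric.NormalForm

set_option autoImplicit false
set_option linter.unusedSectionVars false
set_option linter.unusedVariables false
set_option linter.style.haveILetI false
set_option synthInstance.maxHeartbeats 400000
set_option maxHeartbeats 1000000

noncomputable section

namespace Fermat.Agent.M59

open Fermat.Agent.TW

open Polynomial ModularCurve AlgebraicCurve IntermediateField IsLocalRing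
open Fermat.Agent.JT3 Fermat.Agent.SS Fermat.Agent.S35 Fermat.Agent.S24 Fermat.Agent.S44
  Fermat.Agent.S36

local notation "Qb" => AlgebraicClosure ℚ

section NF

variable (A : ValuationSubring Qb) {q : ℕ} [hq : Fact q.Prime] (hA : A.LiesOverPrime q)
  (N' : ℕ) [NeZero N'] [NeZero q] [NeZero (N' * q)] (hq2 : ¬ 2 ∣ q) (hqN' : ¬ q ∣ N')
  (h4 : 4 ∣ N')
  (L : IntermediateField ℚ Qb) [NumberField ↥L]
  [IsDiscreteValuationRing ↥(A.comap (algebraMap ↥L Qb))]
  [CharP (ResidueField ↥(A.comap (algebraMap ↥L Qb))) q]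
  (hπq : Irreducible ((q : ℕ) : ↥(A.comap (algebraMap ↥L Qb))))
  {p : ℕ} [hp : Fact p.Prime]

include hA h4 in
/-- **the normal form on `D1`**: every class of `m59tc_D1` with a model over `L` of a representing
function has a normal form over `L`. -/
theorem m59t1_nf (hp2 : p ≠ 2) (hqp : q ≠ p) (ζN : ↥L) (hζN : IsPrimitiveRoot ζN N')
    {u : JZero (N' * q)} (hu : u ∈ m59tc_D1 N' q p A) {x0 : ↥(lg_F ↥L (N' * q))}
    (hrep : s44f_Rep (N' * q) p u (ssm_al_iotaF ↥L (N' * q) x0)) :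
    ∃ (c : ↥L) (R g' : ↥(lg_E ↥L (N' * q))),
      m59t1_NF A N' hq2 hqN' L hπq p u x0 c R g' := by
  obtain ⟨hν, hνW, hδ, hδW⟩ := m59dz_nf_hyps A hA N' hqN' hq2 h4 hp2 hu
  have hz : p • u = 0 := by
    have h1 := (m59tc_D1_subset N' q p A hu).1
    rwa [pow_one] at h1
  have hM2 : 2 ∣ N' := dvd_trans (by norm_num) h4
  have hm2 : Nat.Coprime p 2 := by
    rw [Nat.coprime_comm, Nat.Prime.coprime_iff_not_dvd Nat.prime_two]
    intro h
    exact hp2 ((Nat.prime_dvd_prime_iff_eq Nat.prime_two hp.out).1 h).symm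
  have hqm : ¬ q ∣ p := by
    intro h
    exact hqp ((Nat.prime_dvd_prime_iff_eq hq.out hp.out).1 h)
  obtain ⟨c, R, g', hc0, hR0, hg0, heq, hord, hcr⟩ :=
    m59to_nf_at A hA N' hqN' hp.out.ne_zero hM2 hm2 L hq2 hqm hπq ζN hζN hz hν hνW hδ hδW hrep
  exact ⟨c, R, g', hc0, hR0, hg0, hrep, heq, hord, hcr⟩

end NF

section Dict

variable (A : ValuationSubring Qb) {q : ℕ} [hq : Fact q.Prime] (hA : A.LiesOverPrime q)
  (N' : ℕ) [NeZero N'] [NeZero q] [NeZero (N' * q)] (hq2 : ¬ 2 ∣ q) (hqN' : ¬ q ∣ N')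
  (L : IntermediateField ℚ Qb) [NumberField ↥L]
  [IsDiscreteValuationRing ↥(A.comap (algebraMap ↥L Qb))]
  [CharP (ResidueField ↥(A.comap (algebraMap ↥L Qb))) q]
  {π : ↥(A.comap (algebraMap ↥L Qb))} (hπ : Irreducible π)

/-- **[DICT1], the literal Prop**: every crossing point `𝔫 ⊇ P1 + P2` of the `λ`-chart of the
Legendre model over `O = A ∩ L` is labelled by a supersingular place of `FF_A(N')`, i.e. it is the
centre `s44ndl_n 𝒲` of an extension `𝒲` (`s44ndl_Ext`) of the rank-2 valuation of some `Q ∈ Sg`.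
(The converse, `Q ∈ Sg ⟹ s44ndl_n 𝒲` is a crossing point, is `s44ndl_centre_A` + `s44ndl_node_A`.) -/
def m59t1_Dict1 : Prop :=
  ∀ 𝔫 : Ideal ↥(m59t1_B1 A N' q L), 𝔫.IsMaximal →
    m59t1_P1 A N' L hπ ≤ 𝔫 → m59t1_P2 A N' hq2 hqN' L hπ ≤ 𝔫 →
    ∃ Q : s44e_Sg A N' q hq.out hqN', m59t1_Lab A hA N' hq2 hqN' L hπ 𝔫 Q.1

end Dict

end Fermat.Agent.M59
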