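/-
M59 / Sink B, leaf 4 [TOR-SURJ], THE FIELD `ex1` OF `m59tc_Data` OVER THE BIG LEVEL (helper5).
Prefix `m59tx_`.

* `m59tx_ex1_closed` : `m59tx_ex1` with [DELTA0] discharged (helper7's `m59t1_nf`): the only
  hypotheses left are the representing functions over `L` (`hD1`, a field of `m59ls_Star`) and
  [TAU-INV] (`hTau`);
* `m59tx_root_unit`  : a primitive `n`-th root of unity of a field is a unit of every valuation
  subring, and is primitive there;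
* **`m59tx_ex1_star`** : the same over the big level `S : m59ls_Star N' q p A hq2 hqN'` (helper29):
  the instances, `ζ_{N'}`, the Frobenius lift and the cardinality of the residue field come from `S`;
  ONE hypothesis left, [TAU-INV].
-/
import Mathlib
import Fermat.Agent.M59.SinkB.Tor.Ex1
import Fermat.Agent.M59.SinkB.Tor.NF1
import Fermat.Agent.M59.SinkB.Tor.LStar
import Fermat.Agent.S35.DescU.FrobAt
import Fermat.Agent.JT3.ES.FrobExists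

set_option autoImplicit false
set_option linter.unusedSectionVars false
set_option linter.unusedVariables false
set_option linter.style.haveILetI false
set_option synthInstance.maxHeartbeats 400000
set_option maxHeartbeats 3200000

noncomputable section

namespace Fermat.Agent.M59

open Fermat.Agent.TW

open Polynomial ModularCurve AlgebraicCurve IntermediateField IsLocalRing
open Fermat.Agent.JT3 Fermat.Agent.SS Fermat.Agent.S35 Fermat.Agent.S24 Fermat.Agent.S44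
  Fermat.Agent.S36

local notation "Qb" => AlgebraicClosure ℚ

/-- a primitive `n`-th root of unity of a field is a unit of every valuation subring, and it is a
primitive root there. -/
theorem m59tx_root_unit {L : Type*} [Field L] (O : ValuationSubring L) {n : ℕ} (hn : n ≠ 0)
    {ζ : L} (hζ : IsPrimitiveRoot ζ n) :
    ∃ u : (↥O)ˣ, ((u : ↥O) : L) = ζ ∧ IsPrimitiveRoot (u : ↥O) n := by
  have hζO : ζ ∈ O := by
    rw [← ValuationSubring.valuation_le_one_iff]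
    have h1 : O.valuation ζ ^ n = 1 := by rw [← map_pow, hζ.pow_eq_one, map_one]
    exact le_of_eq ((pow_eq_one_iff.1 h1).resolve_right hn)
  have hinv : ζ * ζ ^ (n - 1) = 1 := by
    rw [← pow_succ', Nat.sub_add_cancel (Nat.pos_of_ne_zero hn), hζ.pow_eq_one]
  refine ⟨⟨⟨ζ, hζO⟩, ⟨ζ ^ (n - 1), pow_mem hζO _⟩, Subtype.ext hinv,
    Subtype.ext (by rw [mul_comm]; exact hinv)⟩, rfl, ?_⟩
  exact IsPrimitiveRoot.of_map_of_injective (f := O.subtype) hζ Subtype.val_injective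

section Closed

variable (A : ValuationSubring Qb) {q : ℕ} [hq : Fact q.Prime] (hA : A.LiesOverPrime q)
  (N' : ℕ) [NeZero N'] [NeZero q] [NeZero (N' * q)] (hq2 : ¬ 2 ∣ q) (hqN' : ¬ q ∣ N')
  (L : IntermediateField ℚ Qb) [NumberField ↥L]
  [IsDiscreteValuationRing ↥(A.comap (algebraMap ↥L Qb))]
  [CharP (ResidueField ↥(A.comap (algebraMap ↥L Qb))) q]
  (hπq : Irreducible ((q : ℕ) : ↥(A.comap (algebraMap ↥L Qb))))
  (ζN : ↥L) (hζN : IsPrimitiveRoot ζN N') (φ1 : ↥L ≃+* ↥L)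
  (hφ1 : s35nf_FrobAt (A.comap (algebraMap ↥L Qb)) φ1 q)

include hζN hφ1 in
/-- **the field `ex1` of `m59tc_Data`**, [DELTA0] discharged: hypotheses `hD1` ([LSTAR]) and
[TAU-INV]. -/
theorem m59tx_ex1_closed {p : ℕ} [hp : Fact p.Prime] (hp2 : p ≠ 2) (hqp : q ≠ p) (h4 : 4 ∣ N')
    (j : ℕ) (hcard : Nat.card (ResidueField ↥(A.comap (algebraMap ↥L Qb))) = (q ^ 2) ^ j)
    (ζ : (↥(A.comap (algebraMap ↥L Qb)))ˣ)
    (hζ : IsPrimitiveRoot (ζ : ↥(A.comap (algebraMap ↥L Qb))) p)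
    (Q0 : s44e_Sg A N' q hq.out hqN')
    (hD1 : ∀ u ∈ m59tc_D1 N' q p A, ∃ x0 : ↥(lg_F ↥L (N' * q)),
      s44f_Rep (N' * q) p u (ssm_al_iotaF ↥L (N' * q) x0))
    (hTau : ∀ (u : JZero (N' * q)) (x0 : ↥(lg_F ↥L (N' * q))) (c : ↥L)
      (R g' : ↥(lg_E ↥L (N' * q))), m59t1_NF A N' hq2 hqN' L hπq p u x0 c R g' →
      ∀ (𝔫 𝔫' : Ideal ↥(m59t1_B1 A N' q L)) (h𝔫 : 𝔫.IsMaximal) (h𝔫' : 𝔫'.IsMaximal),
      m59t1_P1 A N' L hπq ≤ 𝔫 → m59t1_P2 A N' hq2 hqN' L hπq ≤ 𝔫 →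
      m59t1_P1 A N' L hπq ≤ 𝔫' → m59t1_P2 A N' hq2 hqN' L hπq ≤ 𝔫' →
      ∀ Q : s44e_Sg A N' q hq.out hqN', m59t1_Lab A hA N' hq2 hqN' L hπq 𝔫 Q.1 →
        m59t1_Lab A hA N' hq2 hqN' L hπq 𝔫' Q.1 →
        ∀ ε : (↥(A.comap (algebraMap ↥L Qb)))ˣ,
          m59t1_RatioAt A N' hq2 hqN' L hπq p 𝔫 h𝔫.isPrime g' ε →
          m59t1_RatioAt A N' hq2 hqN' L hπq p 𝔫' h𝔫'.isPrime g' ε) :
    ∀ u ∈ m59tc_D1 N' q p A,
      ∃ a : m59t1_B A N' hqN' p Q0, m59t1_T1 A hA N' hq2 hqN' L hπq p ζ Q0 u a := by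
  intro u hu
  obtain ⟨x0, hrep⟩ := hD1 u hu
  obtain ⟨c, R, g', hNF⟩ := m59t1_nf A hA N' hq2 hqN' h4 L hπq hp2 hqp ζN hζN hu hrep
  exact m59tx_T1_of_nf A hA N' hq2 hqN' L hπq ζN hζN φ1 hφ1 j hcard hp.out.pos ζ hζ Q0 hNF
    (hTau u x0 c R g' hNF)

end Closed

section Star

variable (A : ValuationSubring Qb) {q : ℕ} [hq : Fact q.Prime] (hA : A.LiesOverPrime q)
  (N' : ℕ) [NeZero N'] [NeZero q] [NeZero (N' * q)] [NeZero (N' * q * q)] (hq2 : ¬ 2 ∣ q)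
  (hqN' : ¬ q ∣ N') {p : ℕ} [hp : Fact p.Prime]

/-- the instances of a level. -/
theorem m59tx_star_inst (S : m59ls_Star N' q p A hq2 hqN') :
    NumberField ↥S.L1 ∧ IsDiscreteValuationRing ↥(A.comap (algebraMap ↥S.L1 Qb)) :=
  ⟨{ to_charZero := inferInstance, to_finiteDimensional := S.lev.fd }, S.lev.dvr⟩

include hA in
/-- the residue characteristic of a level. -/
theorem m59tx_star_charP (S : m59ls_Star N' q p A hq2 hqN') :
    haveI := S.lev.dvr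
    CharP (ResidueField ↥(A.comap (algebraMap ↥S.L1 Qb))) q := by
  haveI := S.lev.dvr
  exact ss_nfl_charP_residue (lg_natCast_mem_maximalIdeal A hA ↥S.L1)

include hA in
/-- **the field `ex1` of `m59tc_Data` over the big level**: ONE hypothesis, [TAU-INV]. -/
theorem m59tx_ex1_star (hp2 : p ≠ 2) (hqp : q ≠ p) (h4 : 4 ∣ N')
    (S : m59ls_Star N' q p A hq2 hqN') :
    haveI := (m59tx_star_inst A N' hq2 hqN' S).1
    haveI := S.lev.dvr
    haveI := m59tx_star_charP A hA N' hq2 hqN' S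
    ∀ (ζ : (↥(A.comap (algebraMap ↥S.L1 Qb)))ˣ)
      (hζ : IsPrimitiveRoot (ζ : ↥(A.comap (algebraMap ↥S.L1 Qb))) p)
      (Q0 : s44e_Sg A N' q hq.out hqN')
      (hTau : ∀ (u : JZero (N' * q)) (x0 : ↥(lg_F ↥S.L1 (N' * q))) (c : ↥S.L1)
        (R g' : ↥(lg_E ↥S.L1 (N' * q))), m59t1_NF A N' hq2 hqN' S.L1 S.lev.irr p u x0 c R g' →
        ∀ (𝔫 𝔫' : Ideal ↥(m59t1_B1 A N' q S.L1)) (h𝔫 : 𝔫.IsMaximal) (h𝔫' : 𝔫'.IsMaximal),
        m59t1_P1 A N' S.L1 S.lev.irr ≤ 𝔫 → m59t1_P2 A N' hq2 hqN' S.L1 S.lev.irr ≤ 𝔫 →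
        m59t1_P1 A N' S.L1 S.lev.irr ≤ 𝔫' → m59t1_P2 A N' hq2 hqN' S.L1 S.lev.irr ≤ 𝔫' →
        ∀ Q : s44e_Sg A N' q hq.out hqN', m59t1_Lab A hA N' hq2 hqN' S.L1 S.lev.irr 𝔫 Q.1 →
          m59t1_Lab A hA N' hq2 hqN' S.L1 S.lev.irr 𝔫' Q.1 →
          ∀ ε : (↥(A.comap (algebraMap ↥S.L1 Qb)))ˣ,
            m59t1_RatioAt A N' hq2 hqN' S.L1 S.lev.irr p 𝔫 h𝔫.isPrime g' ε →
            m59t1_RatioAt A N' hq2 hqN' S.L1 S.lev.irr p 𝔫' h𝔫'.isPrime g' ε),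
      ∀ u ∈ m59tc_D1 N' q p A,
        ∃ a : m59t1_B A N' hqN' p Q0,
          m59t1_T1 A hA N' hq2 hqN' S.L1 S.lev.irr p ζ Q0 u a := by
  haveI := (m59tx_star_inst A N' hq2 hqN' S).1
  haveI := S.lev.dvr
  haveI := m59tx_star_charP A hA N' hq2 hqN' S
  intro ζ hζ Q0 hTau
  obtain ⟨φ, hφ⟩ := fex_exists_isFrobeniusAt hq.out A hA
  obtain ⟨j, hcard⟩ := S.hcard
  exact m59tx_ex1_closed A hA N' hq2 hqN' S.L1 S.lev.irr S.zN S.hzN
    (S.lev.res φ hφ.mem_decompositionSubgroup).toRingEquiv (S.lev.frobAt φ hφ) hp2 hqp h4 j hcard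
    ζ hζ Q0 S.hD1 hTau

include hA in
/-- a primitive `p`-th root of unity among the units of `O = A ∩ L*`. -/
theorem m59tx_star_zeta (S : m59ls_Star N' q p A hq2 hqN') :
    ∃ ζ : (↥(A.comap (algebraMap ↥S.L1 Qb)))ˣ,
      ((ζ : ↥(A.comap (algebraMap ↥S.L1 Qb))) : ↥S.L1) = S.zp ∧
      IsPrimitiveRoot (ζ : ↥(A.comap (algebraMap ↥S.L1 Qb))) p :=
  m59tx_root_unit (A.comap (algebraMap ↥S.L1 Qb)) hp.out.ne_zero S.hzp

end Star

end Fermat.Agent.M59
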