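/-
M59 / Sink B, leaf 4 [TOR-SURJ], cell [TAU-INV], step (6a) (helper5; offered to helper24 #5771).
Prefix `m59tx_`.  Imports Mathlib only.

`E` a field, `V` a valuation subring, `τ` a ring automorphism of `E` preserving `V`, `ζ ∈ E` a
primitive `p`-th root of unity fixed by `τ`, `p` an odd prime which is a unit of `V`.

* `m59tx_tau_nonunits`   : `τ` preserves the nonunits of `V`;
* `m59tx_root_mem`       : a root of unity lies in `V`;
* `m59tx_unit_of_congr_one` : `h ≡ 1` modulo `𝔪_V` ⟹ `h` is a unit of `V`;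
* `m59tx_exists_root_congr` : `hᵖ ≡ 1` modulo `𝔪_V` ⟹ `h ≡ ζⁱ` modulo `𝔪_V` for some `i < p`;
* `m59tx_one_sub_root_unit` : `1 - ζʲ ∉ 𝔪_V` for `p ∤ j`;
* `m59tx_quot_congr_one`  : the same for `h = R / τ R` coming from a normal form `τ g' = hᵖ g'`,
  `g' ≡ k` a constant unit fixed by `τ`;
* **`m59tx_congr_one_of_norm_one`** : `h · τ h = 1`, `hᵖ ≡ 1` modulo `𝔪_V` ⟹ `h ≡ 1` modulo `𝔪_V`.
-/
import Mathlib

set_option autoImplicit false
set_option linter.unusedSectionVars false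
set_option linter.unusedVariables false

namespace Fermat.Agent.M59

section TauAbs

variable {E : Type*} [Field E] (V : ValuationSubring E)

/-- an automorphism preserving `V` preserves its nonunits. -/
theorem m59tx_tau_nonunits (τ : E ≃+* E) (hτV : ∀ z, τ z ∈ V ↔ z ∈ V) (z : E) :
    τ z ∈ V.nonunits ↔ z ∈ V.nonunits := by
  rw [ValuationSubring.mem_nonunits_iff_or, ValuationSubring.mem_nonunits_iff_or, ← map_inv₀, hτV,
    EmbeddingLike.map_eq_zero_iff]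

/-- a root of unity lies in every valuation subring. -/
theorem m59tx_root_mem {n : ℕ} (hn : n ≠ 0) {μ : E} (hμ : μ ^ n = 1) : μ ∈ V := by
  rw [← ValuationSubring.valuation_le_one_iff]
  have h1 : V.valuation μ ^ n = 1 := by rw [← map_pow, hμ, map_one]
  exact le_of_eq ((pow_eq_one_iff.1 h1).resolve_right hn)

/-- sums of nonunits are nonunits. -/
theorem m59tx_nonunits_add {a b : E} (ha : a ∈ V.nonunits) (hb : b ∈ V.nonunits) :
    a + b ∈ V.nonunits := by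
  rw [ValuationSubring.mem_nonunits_iff] at ha hb ⊢
  exact lt_of_le_of_lt (Valuation.map_add _ a b) (max_lt ha hb)

/-- nonunits absorb the elements of `V`. -/
theorem m59tx_nonunits_mul {a b : E} (ha : a ∈ V.nonunits) (hb : b ∈ V) : a * b ∈ V.nonunits := by
  rw [ValuationSubring.mem_nonunits_iff] at ha ⊢
  rw [← ValuationSubring.valuation_le_one_iff] at hb
  rw [map_mul]
  exact mul_lt_one_of_lt_of_le ha hb

/-- `h ≡ 1` modulo `𝔪_V` ⟹ `h` is a unit of `V`. -/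
theorem m59tx_unit_of_congr_one {h : E} (h1 : h - 1 ∈ V.nonunits) : h ∈ V ∧ h ∉ V.nonunits := by
  refine ⟨?_, fun hh => ?_⟩
  · have : h = (h - 1) + 1 := by ring
    rw [this]
    exact add_mem (ValuationSubring.nonunits_subset h1) (one_mem V)
  · rw [ValuationSubring.mem_nonunits_iff] at h1 hh
    have e : (1 : E) = h + -(h - 1) := by ring
    have h3 : V.valuation (1 : E) < 1 := by
      rw [e]
      refine lt_of_le_of_lt (Valuation.map_add _ _ _) (max_lt hh ?_)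
      rw [Valuation.map_neg]
      exact h1
    rw [map_one] at h3
    exact lt_irrefl _ h3

/-- `hᵖ ≡ 1` modulo `𝔪_V` ⟹ `h ≡ ζⁱ` modulo `𝔪_V` for some `i < p`. -/
theorem m59tx_exists_root_congr {p : ℕ} (hp : 0 < p) {ζ : E} (hζ : IsPrimitiveRoot ζ p) {h : E}
    (hpow : h ^ p - 1 ∈ V.nonunits) : ∃ i < p, h - ζ ^ i ∈ V.nonunits := by
  classical
  have : NeZero p := ⟨hp.ne'⟩
  -- `h ∈ V`
  have hhV : h ∈ V := by
    have h1 : h ^ p ∈ V := by
      have h2 : h ^ p - 1 ∈ V := ValuationSubring.nonunits_subset hpow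
      have : h ^ p = (h ^ p - 1) + 1 := by ring
      rw [this]
      exact add_mem h2 (one_mem V)
    rw [← ValuationSubring.valuation_le_one_iff] at h1 ⊢
    rw [map_pow] at h1
    exact (pow_le_one_iff hp.ne').1 h1
  have e := IsPrimitiveRoot.pow_sub_pow_eq_prod_sub_mul h 1 hp hζ
  rw [one_pow] at e
  rw [e, ValuationSubring.mem_nonunits_iff, map_prod] at hpow
  by_contra hcon0
  have hcon : ∀ i < p, h - ζ ^ i ∉ V.nonunits := fun i hi hm => hcon0 ⟨i, hi, hm⟩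
  have hall : ∀ μ ∈ Polynomial.nthRootsFinset p (1 : E), V.valuation (h - μ * 1) = 1 := by
    intro μ hμ
    rw [Polynomial.mem_nthRootsFinset hp] at hμ
    obtain ⟨i, hi, rfl⟩ := hζ.eq_pow_of_pow_eq_one hμ
    have h1 : h - ζ ^ i * 1 ∈ V := by
      rw [mul_one]
      exact sub_mem hhV (m59tx_root_mem V hp.ne' hμ)
    have h2 := hcon i hi
    rw [ValuationSubring.mem_nonunits_iff, not_lt] at h2
    rw [mul_one]
    rw [mul_one, ← ValuationSubring.valuation_le_one_iff] at h1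
    exact le_antisymm h1 h2
  rw [Finset.prod_eq_one hall] at hpow
  exact lt_irrefl _ hpow

/-- `1 - ζʲ` is a unit of `V` for `p ∤ j`, when `p` is a unit of `V`. -/
theorem m59tx_one_sub_root_unit {p : ℕ} (hp : p.Prime) {ζ : E} (hζ : IsPrimitiveRoot ζ p)
    (hpV : (p : E) ∉ V.nonunits) {j : ℕ} (hj : ¬ p ∣ j) : 1 - ζ ^ j ∉ V.nonunits := by
  intro hmem
  have hζ' : IsPrimitiveRoot (ζ ^ j) p :=
    hζ.pow_of_coprime j ((Nat.Prime.coprime_iff_not_dvd hp).2 hj).symm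
  obtain ⟨n, rfl⟩ := Nat.exists_eq_succ_of_ne_zero hp.ne_zero
  have hprod := hζ'.prod_one_sub_pow_eq_order
  have hn0 : n ≠ 0 := by
    rintro rfl
    exact hp.ne_one rfl
  obtain ⟨n', rfl⟩ := Nat.exists_eq_succ_of_ne_zero hn0
  rw [Finset.prod_range_succ'] at hprod
  apply hpV
  have e : ((n' + 1 + 1 : ℕ) : E) = ((n' + 1 : ℕ) : E) + 1 := by push_cast; ring
  rw [e, ← hprod, zero_add, pow_one, mul_comm]
  refine m59tx_nonunits_mul V hmem ?_
  refine Subring.prod_mem V.toSubring fun k _ => ?_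
  refine sub_mem (one_mem V) (m59tx_root_mem V (Nat.succ_ne_zero (n' + 1)) ?_)
  rw [← pow_mul, mul_comm, pow_mul, hζ'.pow_eq_one, one_pow]

/-- **(6a)**: `h · τ h = 1` and `hᵖ ≡ 1` modulo `𝔪_V` force `h ≡ 1` modulo `𝔪_V`
(`p` odd, a unit of `V`; `τ` preserves `V` and fixes `ζ_p`). -/
theorem m59tx_congr_one_of_norm_one (τ : E ≃+* E) (hτV : ∀ z, τ z ∈ V ↔ z ∈ V) {p : ℕ}
    (hp : p.Prime) (hp2 : p ≠ 2) {ζ : E} (hζ : IsPrimitiveRoot ζ p) (hτζ : τ ζ = ζ)
    (hpV : (p : E) ∉ V.nonunits) {h : E} (hh : h * τ h = 1) (hpow : h ^ p - 1 ∈ V.nonunits) :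
    h - 1 ∈ V.nonunits := by
  obtain ⟨i, hi, hcong⟩ := m59tx_exists_root_congr V hp.pos hζ hpow
  have hζV : ζ ^ i ∈ V :=
    m59tx_root_mem V hp.ne_zero (by rw [← pow_mul, mul_comm, pow_mul, hζ.pow_eq_one, one_pow])
  have hhV : h ∈ V := by
    have : h = (h - ζ ^ i) + ζ ^ i := by ring
    rw [this]
    exact add_mem (ValuationSubring.nonunits_subset hcong) hζV
  have hτh : τ h ∈ V := (hτV h).2 hhV
  -- `τ h ≡ ζⁱ`
  have hcong' : τ h - ζ ^ i ∈ V.nonunits := by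
    have : τ (h - ζ ^ i) = τ h - ζ ^ i := by rw [map_sub, map_pow, hτζ]
    rw [← this]
    exact (m59tx_tau_nonunits V τ hτV _).2 hcong
  -- `1 - ζ^(2 i) ∈ 𝔪_V`
  have hkey : 1 - ζ ^ (2 * i) ∈ V.nonunits := by
    have e : 1 - ζ ^ (2 * i) = (h - ζ ^ i) * τ h + (τ h - ζ ^ i) * ζ ^ i := by
      rw [two_mul, pow_add]
      linear_combination (-1 : E) * hh
    rw [e]
    exact m59tx_nonunits_add V (m59tx_nonunits_mul V hcong hτh) (m59tx_nonunits_mul V hcong' hζV)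
  have hdvd : p ∣ 2 * i := by
    by_contra hnd
    exact m59tx_one_sub_root_unit V hp hζ hpV hnd hkey
  have hpi : p ∣ i := by
    rcases (Nat.Prime.dvd_mul hp).1 hdvd with h2 | h2
    · exact absurd ((Nat.prime_dvd_prime_iff_eq hp Nat.prime_two).1 h2) hp2
    · exact h2
  have hi0 : i = 0 := Nat.eq_zero_of_dvd_of_lt hpi hi
  rw [hi0, pow_zero] at hcong
  exact hcong

/-- negatives of nonunits are nonunits. -/
theorem m59tx_nonunits_neg {a : E} (ha : a ∈ V.nonunits) : -a ∈ V.nonunits := by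
  rw [ValuationSubring.mem_nonunits_iff] at ha ⊢
  rwa [Valuation.map_neg]

/-- `g ≡ k` modulo `𝔪_V` with `k` a unit of `V` ⟹ `g ≠ 0` and `g⁻¹ ∈ V`. -/
theorem m59tx_inv_mem_of_congr {g k : E} (hk0 : k ≠ 0) (hkV' : k⁻¹ ∈ V)
    (hg : g - k ∈ V.nonunits) : g ≠ 0 ∧ g⁻¹ ∈ V := by
  have h1 : g * k⁻¹ - 1 ∈ V.nonunits := by
    have e : g * k⁻¹ - 1 = (g - k) * k⁻¹ := by field_simp
    rw [e]
    exact m59tx_nonunits_mul V hg hkV'
  obtain ⟨h2, h3⟩ := m59tx_unit_of_congr_one V h1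
  have hg0 : g ≠ 0 := by
    rintro rfl
    apply h3
    rw [zero_mul]
    exact V.nonunits.zero_mem
  refine ⟨hg0, ?_⟩
  rw [ValuationSubring.mem_nonunits_iff_or] at h3
  push Not at h3
  have e : g⁻¹ = (g * k⁻¹)⁻¹ * k⁻¹ := by field_simp
  rw [e]
  exact mul_mem h3.2 hkV'

/-- **(6a) for a normal form**: `τ` an involution preserving `V` and fixing `ζ_p` and the constant
`k` (a unit of `V`), `g' ≡ k` modulo `𝔪_V`, `τ g' = (R / τ R)ᵖ g'` ⟹ `R / τ R ≡ 1` modulo `𝔪_V`. -/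
theorem m59tx_quot_congr_one (τ : E ≃+* E) (hτV : ∀ z, τ z ∈ V ↔ z ∈ V)
    (hτ2 : ∀ z, τ (τ z) = z) {p : ℕ} (hp : p.Prime) (hp2 : p ≠ 2) {ζ : E}
    (hζ : IsPrimitiveRoot ζ p) (hτζ : τ ζ = ζ) (hpV : (p : E) ∉ V.nonunits) {k g' R : E}
    (hk0 : k ≠ 0) (hkV' : k⁻¹ ∈ V) (hτk : τ k = k) (hg : g' - k ∈ V.nonunits) (hR0 : R ≠ 0)
    (hrel : τ g' = (R / τ R) ^ p * g') : R / τ R - 1 ∈ V.nonunits := by
  have hτR0 : τ R ≠ 0 := fun h0 => hR0 ((EmbeddingLike.map_eq_zero_iff).1 h0)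
  obtain ⟨hg0, hginv⟩ := m59tx_inv_mem_of_congr V hk0 hkV' hg
  have hh : R / τ R * τ (R / τ R) = 1 := by
    rw [map_div₀, hτ2]
    field_simp
  have hdiff : τ g' - g' ∈ V.nonunits := by
    have e : τ g' - g' = τ (g' - k) + -(g' - k) := by
      rw [map_sub, hτk]
      ring
    rw [e]
    exact m59tx_nonunits_add V ((m59tx_tau_nonunits V τ hτV _).2 hg) (m59tx_nonunits_neg V hg)
  have hpow : (R / τ R) ^ p - 1 ∈ V.nonunits := by
    have e : (R / τ R) ^ p - 1 = (τ g' - g') * g'⁻¹ := by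
      rw [hrel]
      field_simp
    rw [e]
    exact m59tx_nonunits_mul V hdiff hginv
  exact m59tx_congr_one_of_norm_one V τ hτV hp hp2 hζ hτζ hpV hh hpow

end TauAbs

end Fermat.Agent.M59
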