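/-
M59 / Sink B, leaf 4 [TOR-SURJ], cell [TAU-INV], step (6) (helper5; offered to helper24 #5771).
Prefix `m59tx_`.

* `m59tx_ratio_of_pow_one` : two-component model, `f' = hᵐ f` with `h ≡ 1` at `V1` and at `V2`: the
  toric data of `f'` and of `f` at a crossing point agree;
* `m59tx_leg_tau_back`     : (6b), Legendre tower at level `N' q`: for a normal form
  `φ x0 = c · Rᵖ · g'` with constant reductions, the toric data of `τ g'` and of `g'` agree at every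
  crossing point (`τ` the deck involution `m59tt_tau`; `h = R / τ R` has `h · τ h = 1`,
  `hᵖ = τ g' / g' ≡ 1`, hence `h ≡ 1` by `m59tx_congr_one_of_norm_one`).
-/
import Mathlib
import Fermat.Agent.M59.SinkB.Tor.Ex1Leg
import Fermat.Agent.M59.SinkB.Tor.Ex1TauAbs
import Fermat.Agent.M59.SinkB.Tor.TauGauss

set_option autoImplicit false
set_option linter.unusedSectionVars false
set_option linter.unusedVariables false
set_option linter.style.haveILetI false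

noncomputable section

namespace Fermat.Agent.M59

open Fermat.Agent.SS Fermat.Agent.JT3 Fermat.Agent.S35 Fermat.Agent.S36 IsLocalRing AlgebraicCurve
  IntermediateField ModularCurve Polynomial

universe v

section Model

variable {A0 L : Type*} {F0 : Type v} [CommRing A0] [IsDomain A0] [IsDiscreteValuationRing A0]
  [Field L] [Field F0] [Algebra A0 L] [IsFractionRing A0 L] [CharZero L] [Algebra L F0]
  [Algebra A0 F0] [IsScalarTower A0 L F0]

set_option synthInstance.maxHeartbeats 200000 in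
set_option maxHeartbeats 1600000 in
/-- `f' = hᵐ f`, `h ≡ 1` at both components: same toric datum at every crossing point. -/
theorem m59tx_ratio_of_pow_one {π : A0} (hπ : Irreducible π) {x : F0} (hx : Transcendental L x)
    [FiniteDimensional L⟮x⟯ F0] {V1 V2 : ValuationSubring F0}
    (H : ssm_tp_Hyp (algebraMap A0 (Algebra.adjoin A0 ({x} : Set F0)) π) V1 V2)
    (𝔫 : Ideal (fc_chart A0 ({x} : Set F0))) (h𝔫 : 𝔫.IsMaximal)
    (hP1𝔫 : ssm_tp_P (fc_chart A0 ({x} : Set F0)) V1 ≤ 𝔫)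
    (hP2𝔫 : ssm_tp_P (fc_chart A0 ({x} : Set F0)) V2 ≤ 𝔫)
    {m : ℕ} {f f' h : F0} (hff' : f' = h ^ m * f) (h1 : h - 1 ∈ V1.nonunits)
    (h2 : h - 1 ∈ V2.nonunits) :
    haveI := ssm_ths_chart_isFractionRing (A0 := A0) (L := L) x
    haveI : 𝔫.IsPrime := h𝔫.isPrime
    ∀ c0 : (ssl_locSub F0 𝔫)ˣ,
      m59tl_Ratio (𝔫.map (algebraMap (fc_chart A0 ({x} : Set F0)) (ssl_locSub F0 𝔫)))
        ((ssm_tp_P (fc_chart A0 ({x} : Set F0)) V1).map
          (algebraMap (fc_chart A0 ({x} : Set F0)) (ssl_locSub F0 𝔫)))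
        ((ssm_tp_P (fc_chart A0 ({x} : Set F0)) V2).map
          (algebraMap (fc_chart A0 ({x} : Set F0)) (ssl_locSub F0 𝔫))) m f' c0 →
      m59tl_Ratio (𝔫.map (algebraMap (fc_chart A0 ({x} : Set F0)) (ssl_locSub F0 𝔫)))
        ((ssm_tp_P (fc_chart A0 ({x} : Set F0)) V1).map
          (algebraMap (fc_chart A0 ({x} : Set F0)) (ssl_locSub F0 𝔫)))
        ((ssm_tp_P (fc_chart A0 ({x} : Set F0)) V2).map
          (algebraMap (fc_chart A0 ({x} : Set F0)) (ssl_locSub F0 𝔫))) m f c0 := by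
  have hxA : Transcendental A0 x := fc_ff_transcendental (L := L) hx
  haveI : IsIntegrallyClosed (Algebra.adjoin A0 ({x} : Set F0)) := fc_ff_isIntegrallyClosed hxA
  haveI : FaithfulSMul (Algebra.adjoin A0 ({x} : Set F0)) F0 :=
    (faithfulSMul_iff_algebraMap_injective _ _).2 Subtype.val_injective
  have hC1 := ssm_tp_ff_chart (L := L) (A0 := A0) (F0 := F0) hπ hx
  haveI := ssm_ths_chart_isFractionRing (A0 := A0) (L := L) x
  haveI := ssm_ths_chart_isNoetherianRing (A0 := A0) (L := L) hx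
  haveI := ssm_ths_chart_isIntegrallyClosed (A0 := A0) (L := L) x
  haveI := H.P1_isPrime hC1
  haveI := H.P2_isPrime hC1
  haveI h𝔫p : 𝔫.IsPrime := h𝔫.isPrime
  haveI := s35l_map_isPrime (F0 := F0) 𝔫 _ hP1𝔫
  haveI := s35l_map_isPrime (F0 := F0) 𝔫 _ hP2𝔫
  intro c0 r1
  obtain ⟨hV1, hn1⟩ := m59tx_unit_of_congr_one V1 h1
  obtain ⟨hV2, hn2⟩ := m59tx_unit_of_congr_one V2 h2
  have hh0 : h ≠ 0 := fun h0 => hn1 (h0 ▸ V1.nonunits.zero_mem)
  have r2 : m59tl_Ratio (𝔫.map (algebraMap (fc_chart A0 ({x} : Set F0)) (ssl_locSub F0 𝔫)))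
      ((ssm_tp_P (fc_chart A0 ({x} : Set F0)) V1).map
        (algebraMap (fc_chart A0 ({x} : Set F0)) (ssl_locSub F0 𝔫)))
      ((ssm_tp_P (fc_chart A0 ({x} : Set F0)) V2).map
        (algebraMap (fc_chart A0 ({x} : Set F0)) (ssl_locSub F0 𝔫))) m (h ^ m)
      ((1 : (ssl_locSub F0 𝔫)ˣ) * (1 : (ssl_locSub F0 𝔫)ˣ)⁻¹) := by
    refine m59tl_ratio_of_pow _ _ _
      (m59tgl_unitAt_of_unit H hC1 𝔫 hP1𝔫 hV1 hn1)
      (m59tgl_unitAt_of_unit H.symm hC1 𝔫 hP2𝔫 hV2 hn2) ?_ ?_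
    · have := m59tgl_memM_of_nonunits H hC1 𝔫 hP1𝔫 h1
      simpa using this
    · have := m59tgl_memM_of_nonunits H.symm hC1 𝔫 hP2𝔫 h2
      simpa using this
  have r3 := m59tl_ratio_div _ _ _ r1 r2
  have e1 : f' / h ^ m = f := by
    rw [hff']
    field_simp
  have e2 : c0 * ((1 : (ssl_locSub F0 𝔫)ˣ) * (1 : (ssl_locSub F0 𝔫)ˣ)⁻¹)⁻¹ = c0 := by
    rw [inv_one, mul_one, inv_one, mul_one]
  rw [e1, e2] at r3
  exact r3

end Model

section Leg

variable (L : Type) [Field L] [NumberField L] [Algebra L (AlgebraicClosure ℚ)]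
  (O : ValuationSubring L) [IsDiscreteValuationRing O]
variable (N' q : ℕ) [NeZero N'] [NeZero q] [hq : Fact q.Prime] [CharP (ResidueField O) q]
  (hq2 : ¬ 2 ∣ q) (hqN' : ¬ q ∣ N') (hπ : Irreducible ((q : ℕ) : ↥O))
  (ζ : L) (hζ : IsPrimitiveRoot ζ N')

include hζ in
set_option synthInstance.maxHeartbeats 400000 in
set_option maxHeartbeats 3200000 in
/-- **(6b)**: for a normal form `φ x0 = c · Rᵖ · g'` with constant reductions, the toric data of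
`τ g'` and of `g'` agree at every crossing point. -/
theorem m59tx_leg_tau_back (h2 : (2 : L) ≠ 0) {p : ℕ} (hp : p.Prime) (hp2 : p ≠ 2)
    (hpO : IsUnit ((p : ℕ) : ↥O)) {ζp : L} (hζp : IsPrimitiveRoot ζp p)
    {x0 : ↥(lg_F L (N' * q))} {c : L} {R g' : ↥(lg_E L (N' * q))} (hc0 : c ≠ 0) (hR0 : R ≠ 0)
    (hphi : lg_phiE (L := L) (N := N' * q) x0 =
      algebraMap L ↥(lg_E L (N' * q)) c * R ^ p * g')
    (k1 k2 : (↥O)ˣ)
    (hf1 : g' - algebraMap L ↥(lg_E L (N' * q)) ((k1 : ↥O) : L) ∈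
      (ssm_gl_V1 O hπ N' q).nonunits)
    (hf2 : g' - algebraMap L ↥(lg_E L (N' * q)) ((k2 : ↥O) : L) ∈
      (ssm_gl_V2 O hπ N' q hq2 hqN').nonunits)
    (𝔫 : Ideal (fc_chart ↥O ({lg_lamE (N' * q)} : Set ↥(lg_E L (N' * q)))))
    (h𝔫 : 𝔫.IsMaximal)
    (hP1 : ssm_tp_P (fc_chart ↥O ({lg_lamE (N' * q)} : Set ↥(lg_E L (N' * q))))
      (ssm_gl_V1 O hπ N' q) ≤ 𝔫)
    (hP2 : ssm_tp_P (fc_chart ↥O ({lg_lamE (N' * q)} : Set ↥(lg_E L (N' * q))))
      (ssm_gl_V2 O hπ N' q hq2 hqN') ≤ 𝔫) :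
    haveI : FiniteDimensional L⟮(lg_lamE (N' * q) : lg_E L (N' * q))⟯ ↥(lg_E L (N' * q)) :=
      lgf_finite L (N' * q)
    haveI := ssm_ths_chart_isFractionRing (A0 := ↥O) (L := L)
      (lg_lamE (N' * q) : ↥(lg_E L (N' * q)))
    haveI : 𝔫.IsPrime := h𝔫.isPrime
    ∀ c0 : (ssl_locSub ↥(lg_E L (N' * q)) 𝔫)ˣ,
      m59tl_Ratio
        (𝔫.map (algebraMap (fc_chart ↥O ({lg_lamE (N' * q)} : Set ↥(lg_E L (N' * q))))
          (ssl_locSub ↥(lg_E L (N' * q)) 𝔫)))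
        ((ssm_tp_P (fc_chart ↥O ({lg_lamE (N' * q)} : Set ↥(lg_E L (N' * q))))
          (ssm_gl_V1 O hπ N' q)).map
          (algebraMap (fc_chart ↥O ({lg_lamE (N' * q)} : Set ↥(lg_E L (N' * q))))
            (ssl_locSub ↥(lg_E L (N' * q)) 𝔫)))
        ((ssm_tp_P (fc_chart ↥O ({lg_lamE (N' * q)} : Set ↥(lg_E L (N' * q))))
          (ssm_gl_V2 O hπ N' q hq2 hqN')).map
          (algebraMap (fc_chart ↥O ({lg_lamE (N' * q)} : Set ↥(lg_E L (N' * q))))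
            (ssl_locSub ↥(lg_E L (N' * q)) 𝔫))) p (m59tt_tau L (N' * q) h2 g') c0 →
      m59tl_Ratio
        (𝔫.map (algebraMap (fc_chart ↥O ({lg_lamE (N' * q)} : Set ↥(lg_E L (N' * q))))
          (ssl_locSub ↥(lg_E L (N' * q)) 𝔫)))
        ((ssm_tp_P (fc_chart ↥O ({lg_lamE (N' * q)} : Set ↥(lg_E L (N' * q))))
          (ssm_gl_V1 O hπ N' q)).map
          (algebraMap (fc_chart ↥O ({lg_lamE (N' * q)} : Set ↥(lg_E L (N' * q))))
            (ssl_locSub ↥(lg_E L (N' * q)) 𝔫)))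
        ((ssm_tp_P (fc_chart ↥O ({lg_lamE (N' * q)} : Set ↥(lg_E L (N' * q))))
          (ssm_gl_V2 O hπ N' q hq2 hqN')).map
          (algebraMap (fc_chart ↥O ({lg_lamE (N' * q)} : Set ↥(lg_E L (N' * q))))
            (ssl_locSub ↥(lg_E L (N' * q)) 𝔫))) p g' c0 := by
  have hqO : ((q : ℕ) : O) ∈ maximalIdeal O := ssm_fln_q_mem L O q
  have hq2' : q ≠ 2 := ssm_fl_ne_two q hq2
  have hpr := ssm_ll_prime L N' hπ q hqO hq2' hqN' ζ hζ
  haveI := ssm_go_isScalarTower O (lg_E L (N' * q))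
  haveI : FiniteDimensional L⟮(lg_lamE (N' * q) : lg_E L (N' * q))⟯ ↥(lg_E L (N' * q)) :=
    lgf_finite L (N' * q)
  have hx : Transcendental L (lg_lamE (L := L) (N' * q)) :=
    lgf_lam_transcendental L (N' * q) two_ne_zero
  have H := ssm_gl_hyp O hπ N' q hq2 hqN' hpr.1
  have hxA : Transcendental ↥O (lg_lamE (L := L) (N' * q)) := fc_ff_transcendental (L := L) hx
  haveI : IsIntegrallyClosed (Algebra.adjoin ↥O
      ({lg_lamE (N' * q)} : Set ↥(lg_E L (N' * q)))) := fc_ff_isIntegrallyClosed hxA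
  haveI : FaithfulSMul (Algebra.adjoin ↥O ({lg_lamE (N' * q)} : Set ↥(lg_E L (N' * q))))
      ↥(lg_E L (N' * q)) :=
    (faithfulSMul_iff_algebraMap_injective _ _).2 Subtype.val_injective
  have hC1 := ssm_tp_ff_chart (L := L) (A0 := ↥O) (F0 := ↥(lg_E L (N' * q))) hπ hx
  -- constants lie in the valuation rings
  have hcst1 : ∀ a : ↥O, algebraMap ↥O ↥(lg_E L (N' * q)) a ∈ ssm_gl_V1 O hπ N' q := fun a =>
    hC1.le H.over1 (Subalgebra.algebraMap_mem _ a)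
  have hcst2 : ∀ a : ↥O, algebraMap ↥O ↥(lg_E L (N' * q)) a ∈ ssm_gl_V2 O hπ N' q hq2 hqN' :=
    fun a => hC1.le H.over2 (Subalgebra.algebraMap_mem _ a)
  have hcoe : ∀ a : ↥O, algebraMap L ↥(lg_E L (N' * q)) (a : L) =
      algebraMap ↥O ↥(lg_E L (N' * q)) a := fun a =>
    (IsScalarTower.algebraMap_apply ↥O L ↥(lg_E L (N' * q)) a).symm
  -- the involution
  set τ : ↥(lg_E L (N' * q)) ≃+* ↥(lg_E L (N' * q)) := (m59tt_tau L (N' * q) h2).toRingEquiv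
    with hτ
  have hτapp : ∀ z, τ z = m59tt_tau L (N' * q) h2 z := fun z => rfl
  have hτ2 : ∀ z, τ (τ z) = z := fun z => m59tt_tau_tau h2 z
  have hτC : ∀ a : L, τ (algebraMap L ↥(lg_E L (N' * q)) a) = algebraMap L ↥(lg_E L (N' * q)) a :=
    fun a => (m59tt_tau L (N' * q) h2).commutes a
  -- the relation `τ g' = (R / τ R) ^ p * g'`
  have hτR0 : τ R ≠ 0 := fun h0 => hR0 ((EmbeddingLike.map_eq_zero_iff).1 h0)
  have hcE : algebraMap L ↥(lg_E L (N' * q)) c ≠ 0 := by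
    rw [Ne, map_eq_zero]
    exact hc0
  have hrel : τ g' = (R / τ R) ^ p * g' := by
    have h1 := congrArg τ hphi
    rw [hτapp (lg_phiE (L := L) (N := N' * q) x0), m59tt_tau_phiE h2 x0, map_mul, map_mul,
      map_pow, hτC, hphi] at h1
    have h3 : R ^ p * g' = τ R ^ p * τ g' := mul_left_cancel₀ hcE (by
      rw [← mul_assoc, ← mul_assoc]; exact h1)
    rw [div_pow, div_mul_eq_mul_div, eq_div_iff (pow_ne_zero p hτR0), mul_comm (τ g') (τ R ^ p)]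
    exact h3.symm
  -- roots of unity and `p`
  have hζE : IsPrimitiveRoot (algebraMap L ↥(lg_E L (N' * q)) ζp) p :=
    hζp.map_of_injective (algebraMap L ↥(lg_E L (N' * q))).injective
  obtain ⟨up, hup⟩ := hpO
  have hpcoe : ((p : ℕ) : ↥(lg_E L (N' * q))) = algebraMap ↥O ↥(lg_E L (N' * q)) (up : ↥O) := by
    rw [hup, map_natCast]
  have hunit : ∀ (V : ValuationSubring ↥(lg_E L (N' * q))),
      (∀ a : ↥O, algebraMap ↥O ↥(lg_E L (N' * q)) a ∈ V) → ∀ u : (↥O)ˣ,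
      algebraMap ↥O ↥(lg_E L (N' * q)) (u : ↥O) ≠ 0 ∧
        (algebraMap ↥O ↥(lg_E L (N' * q)) (u : ↥O))⁻¹ ∈ V ∧
        algebraMap ↥O ↥(lg_E L (N' * q)) (u : ↥O) ∉ V.nonunits := by
    intro V hV u
    have h1 : algebraMap ↥O ↥(lg_E L (N' * q)) (u : ↥O) *
        algebraMap ↥O ↥(lg_E L (N' * q)) ((u⁻¹ : (↥O)ˣ) : ↥O) = 1 := by
      rw [← map_mul, ← Units.val_mul, mul_inv_cancel, Units.val_one, map_one]
    have h0 : algebraMap ↥O ↥(lg_E L (N' * q)) (u : ↥O) ≠ 0 := left_ne_zero_of_mul_eq_one h1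
    have hinv : (algebraMap ↥O ↥(lg_E L (N' * q)) (u : ↥O))⁻¹ =
        algebraMap ↥O ↥(lg_E L (N' * q)) ((u⁻¹ : (↥O)ˣ) : ↥O) :=
      (eq_inv_of_mul_eq_one_right h1).symm
    refine ⟨h0, hinv ▸ hV _, ?_⟩
    rw [ValuationSubring.mem_nonunits_iff_or]
    push Not
    exact ⟨h0, hinv ▸ hV _⟩
  -- `h ≡ 1` at `V1` and at `V2`
  have hh1 : R / τ R - 1 ∈ (ssm_gl_V1 O hπ N' q).nonunits := by
    obtain ⟨a0, a1, a2⟩ := hunit _ hcst1 k1
    refine m59tx_quot_congr_one (ssm_gl_V1 O hπ N' q) τ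
      (fun z => m59tv_tau_mem_V1 O hπ N' q h2 z) hτ2 hp hp2 hζE (hτC ζp)
      (hpcoe ▸ (hunit _ hcst1 up).2.2) (k := algebraMap ↥O ↥(lg_E L (N' * q)) (k1 : ↥O))
      a0 a1 ?_ ?_ hR0 hrel
    · rw [← hcoe]
      exact hτC _
    · rw [← hcoe]
      exact hf1
  have hh2 : R / τ R - 1 ∈ (ssm_gl_V2 O hπ N' q hq2 hqN').nonunits := by
    obtain ⟨a0, a1, a2⟩ := hunit _ hcst2 k2
    refine m59tx_quot_congr_one (ssm_gl_V2 O hπ N' q hq2 hqN') τ
      (fun z => m59tv_tau_mem_V2 O hπ N' q hq2 hqN' h2 z) hτ2 hp hp2 hζE (hτC ζp)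
      (hpcoe ▸ (hunit _ hcst2 up).2.2) (k := algebraMap ↥O ↥(lg_E L (N' * q)) (k2 : ↥O))
      a0 a1 ?_ ?_ hR0 hrel
    · rw [← hcoe]
      exact hτC _
    · rw [← hcoe]
      exact hf2
  exact m59tx_ratio_of_pow_one (L := L) hπ hx H 𝔫 h𝔫 hP1 hP2 hrel hh1 hh2

end Leg

end Fermat.Agent.M59
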