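/-
M59 / Sink B, leaf 4 [TOR-SURJ], cell [TAU-INV], step (6c): `hTau` FROM THE CONJUGACY OF THE LABELS
(helper5; chief's ruling #5778 (3)).  Prefix `m59tx_`.

Context of `Defs1.lean`; `τ = m59tt_tau ↥L (N' q) _` the deck involution of the Legendre cover.

* `m59tx_isUnit_natCast`   : a prime `p ≠ q` is a unit of a local ring of residue characteristic `q`;
* `m59tx_ratioAt_tau_back` : (6b) in the vocabulary of `Defs1`: for a normal form of `u`,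
  `m59t1_RatioAt … 𝔫 (τ g') ε → m59t1_RatioAt … 𝔫 g' ε` at every crossing point;
* **`m59tx_hTau_of_conj`**   : [TAU-LAB] (`hConj`: two points labelled by the same supersingular place
  are equal or conjugate under `τ` — helper16's literal shape #5784) ⟹ the hypothesis `hTau` of
  `m59tx_ex1_star`/`m59tx_ex1_closed`;
* **`m59tx_ex1_star_conj`**  : the field `ex1` of `m59tc_Data` over the big level from [TAU-LAB] alone.
-/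
import Mathlib
import Fermat.Agent.M59.SinkB.Tor.Ex1Tau
import Fermat.Agent.M59.SinkB.Tor.Ex1Star

set_option autoImplicit false
set_option linter.unusedSectionVars false
set_option linter.unusedVariables false
set_option linter.style.haveILetI false
set_option synthInstance.maxHeartbeats 400000
set_option maxHeartbeats 3200000

noncomputable section

namespace Fermat.Agent.M59

open Fermat.Agent.TW

open Polynomial ModularCurve AlgebraicCurve IntermediateField IsLocalRing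
open Fermat.Agent.JT3 Fermat.Agent.SS Fermat.Agent.S35 Fermat.Agent.S24 Fermat.Agent.S44
  Fermat.Agent.S36

local notation "Qb" => AlgebraicClosure ℚ

/-- a natural number prime to the residue characteristic is a unit of a local ring. -/
theorem m59tx_isUnit_natCast {O : Type*} [CommRing O] [IsLocalRing O] (q : ℕ)
    [CharP (ResidueField O) q] {p : ℕ} (hqp : ¬ q ∣ p) : IsUnit ((p : ℕ) : O) := by
  by_contra hnu
  have h1 : ((p : ℕ) : O) ∈ maximalIdeal O := (mem_maximalIdeal _).2 hnu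
  have h2 := (residue_eq_zero_iff ((p : ℕ) : O)).2 h1
  rw [map_natCast] at h2
  exact hqp ((CharP.cast_eq_zero_iff (ResidueField O) q p).1 h2)

section Asm

variable (A : ValuationSubring Qb) {q : ℕ} [hq : Fact q.Prime] (hA : A.LiesOverPrime q)
  (N' : ℕ) [NeZero N'] [NeZero q] [NeZero (N' * q)] (hq2 : ¬ 2 ∣ q) (hqN' : ¬ q ∣ N')
  (L : IntermediateField ℚ Qb) [NumberField ↥L]
  [IsDiscreteValuationRing ↥(A.comap (algebraMap ↥L Qb))]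
  [CharP (ResidueField ↥(A.comap (algebraMap ↥L Qb))) q]
  (hπq : Irreducible ((q : ℕ) : ↥(A.comap (algebraMap ↥L Qb))))
  (ζN : ↥L) (hζN : IsPrimitiveRoot ζN N')

include hζN in
/-- **(6b), vocabulary of `Defs1`**: the toric data of `τ g'` and of `g'` agree at every crossing
point, for the `g'` of a normal form. -/
theorem m59tx_ratioAt_tau_back (h2 : (2 : ↥L) ≠ 0) {p : ℕ} [hp : Fact p.Prime] (hp2 : p ≠ 2)
    (hqp : q ≠ p) (ζ : (↥(A.comap (algebraMap ↥L Qb)))ˣ)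
    (hζ : IsPrimitiveRoot (ζ : ↥(A.comap (algebraMap ↥L Qb))) p)
    {u : JZero (N' * q)} {x0 : ↥(lg_F ↥L (N' * q))} {c : ↥L} {R g' : ↥(lg_E ↥L (N' * q))}
    (hNF : m59t1_NF A N' hq2 hqN' L hπq p u x0 c R g')
    (𝔫 : Ideal ↥(m59t1_B1 A N' q L)) (h𝔫 : 𝔫.IsMaximal)
    (hP1 : m59t1_P1 A N' L hπq ≤ 𝔫) (hP2 : m59t1_P2 A N' hq2 hqN' L hπq ≤ 𝔫)
    (ε : (↥(A.comap (algebraMap ↥L Qb)))ˣ)
    (h : m59t1_RatioAt A N' hq2 hqN' L hπq p 𝔫 h𝔫.isPrime (m59tt_tau ↥L (N' * q) h2 g') ε) :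
    m59t1_RatioAt A N' hq2 hqN' L hπq p 𝔫 h𝔫.isPrime g' ε := by
  obtain ⟨hc0, hR0, hg'0, hrep, hphi, hord, k1, k2, hk1, hk2, hf1, hf2⟩ := hNF
  obtain ⟨k1, rfl⟩ := hk1
  obtain ⟨k2, rfl⟩ := hk2
  have hqp' : ¬ q ∣ p := fun hd => hqp ((Nat.prime_dvd_prime_iff_eq hq.out hp.out).1 hd)
  have hpO : IsUnit ((p : ℕ) : ↥(A.comap (algebraMap ↥L Qb))) := m59tx_isUnit_natCast q hqp'
  have hζL : IsPrimitiveRoot (((ζ : ↥(A.comap (algebraMap ↥L Qb))) : ↥L)) p :=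
    hζ.map_of_injective (f := (A.comap (algebraMap ↥L Qb)).subtype) Subtype.val_injective
  exact m59tx_leg_tau_back ↥L (A.comap (algebraMap ↥L Qb)) N' q hq2 hqN' hπq ζN hζN h2 hp.out hp2
    hpO hζL hc0 hR0 hphi k1 k2 hf1 hf2 𝔫 h𝔫 hP1 hP2 _ h

include hζN in
/-- **(6c)**: [TAU-LAB] ⟹ [TAU-INV] in the shape consumed by `m59tx_ex1_star`. -/
theorem m59tx_hTau_of_conj (h2 : (2 : ↥L) ≠ 0) {p : ℕ} [hp : Fact p.Prime] (hp2 : p ≠ 2)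
    (hqp : q ≠ p) (ζ : (↥(A.comap (algebraMap ↥L Qb)))ˣ)
    (hζ : IsPrimitiveRoot (ζ : ↥(A.comap (algebraMap ↥L Qb))) p)
    (hConj : ∀ (𝔫 𝔫' : Ideal ↥(m59t1_B1 A N' q L)) (h𝔫 : 𝔫.IsMaximal) (h𝔫' : 𝔫'.IsMaximal),
      m59t1_P1 A N' L hπq ≤ 𝔫 → m59t1_P2 A N' hq2 hqN' L hπq ≤ 𝔫 →
      m59t1_P1 A N' L hπq ≤ 𝔫' → m59t1_P2 A N' hq2 hqN' L hπq ≤ 𝔫' →
      ∀ Q : s44e_Sg A N' q hq.out hqN', m59t1_Lab A hA N' hq2 hqN' L hπq 𝔫 Q.1 →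
        m59t1_Lab A hA N' hq2 hqN' L hπq 𝔫' Q.1 →
        𝔫' = 𝔫 ∨ ∀ (f : ↥(lg_E ↥L (N' * q))) (ε : (↥(A.comap (algebraMap ↥L Qb)))ˣ),
          m59t1_RatioAt A N' hq2 hqN' L hπq p 𝔫 h𝔫.isPrime f ε →
          m59t1_RatioAt A N' hq2 hqN' L hπq p 𝔫' h𝔫'.isPrime (m59tt_tau ↥L (N' * q) h2 f) ε) :
    ∀ (u : JZero (N' * q)) (x0 : ↥(lg_F ↥L (N' * q))) (c : ↥L)
      (R g' : ↥(lg_E ↥L (N' * q))), m59t1_NF A N' hq2 hqN' L hπq p u x0 c R g' →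
      ∀ (𝔫 𝔫' : Ideal ↥(m59t1_B1 A N' q L)) (h𝔫 : 𝔫.IsMaximal) (h𝔫' : 𝔫'.IsMaximal),
      m59t1_P1 A N' L hπq ≤ 𝔫 → m59t1_P2 A N' hq2 hqN' L hπq ≤ 𝔫 →
      m59t1_P1 A N' L hπq ≤ 𝔫' → m59t1_P2 A N' hq2 hqN' L hπq ≤ 𝔫' →
      ∀ Q : s44e_Sg A N' q hq.out hqN', m59t1_Lab A hA N' hq2 hqN' L hπq 𝔫 Q.1 →
        m59t1_Lab A hA N' hq2 hqN' L hπq 𝔫' Q.1 →
        ∀ ε : (↥(A.comap (algebraMap ↥L Qb)))ˣ,
          m59t1_RatioAt A N' hq2 hqN' L hπq p 𝔫 h𝔫.isPrime g' ε →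
          m59t1_RatioAt A N' hq2 hqN' L hπq p 𝔫' h𝔫'.isPrime g' ε := by
  intro u x0 c R g' hNF 𝔫 𝔫' h𝔫 h𝔫' hP1 hP2 hP1' hP2' Q hLab hLab' ε hr
  rcases hConj 𝔫 𝔫' h𝔫 h𝔫' hP1 hP2 hP1' hP2' Q hLab hLab' with heq | hτ
  · subst heq
    exact hr
  · exact m59tx_ratioAt_tau_back A N' hq2 hqN' L hπq ζN hζN h2 hp2 hqp ζ hζ hNF 𝔫' h𝔫' hP1' hP2' ε
      (hτ g' ε hr)

end Asm

section Star

variable (A : ValuationSubring Qb) {q : ℕ} [hq : Fact q.Prime] (hA : A.LiesOverPrime q)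
  (N' : ℕ) [NeZero N'] [NeZero q] [NeZero (N' * q)] [NeZero (N' * q * q)] (hq2 : ¬ 2 ∣ q)
  (hqN' : ¬ q ∣ N') {p : ℕ} [hp : Fact p.Prime]

include hA in
/-- **the field `ex1` of `m59tc_Data` over the big level, from [TAU-LAB] alone.** -/
theorem m59tx_ex1_star_conj (hp2 : p ≠ 2) (hqp : q ≠ p) (h4 : 4 ∣ N')
    (S : m59ls_Star N' q p A hq2 hqN') :
    haveI := (m59tx_star_inst A N' hq2 hqN' S).1
    haveI := S.lev.dvr
    haveI := m59tx_star_charP A hA N' hq2 hqN' S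
    ∀ (ζ : (↥(A.comap (algebraMap ↥S.L1 Qb)))ˣ)
      (hζ : IsPrimitiveRoot (ζ : ↥(A.comap (algebraMap ↥S.L1 Qb))) p)
      (Q0 : s44e_Sg A N' q hq.out hqN') (h2 : (2 : ↥S.L1) ≠ 0)
      (hConj : ∀ (𝔫 𝔫' : Ideal ↥(m59t1_B1 A N' q S.L1)) (h𝔫 : 𝔫.IsMaximal) (h𝔫' : 𝔫'.IsMaximal),
        m59t1_P1 A N' S.L1 S.lev.irr ≤ 𝔫 → m59t1_P2 A N' hq2 hqN' S.L1 S.lev.irr ≤ 𝔫 →
        m59t1_P1 A N' S.L1 S.lev.irr ≤ 𝔫' → m59t1_P2 A N' hq2 hqN' S.L1 S.lev.irr ≤ 𝔫' →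
        ∀ Q : s44e_Sg A N' q hq.out hqN', m59t1_Lab A hA N' hq2 hqN' S.L1 S.lev.irr 𝔫 Q.1 →
          m59t1_Lab A hA N' hq2 hqN' S.L1 S.lev.irr 𝔫' Q.1 →
          𝔫' = 𝔫 ∨ ∀ (f : ↥(lg_E ↥S.L1 (N' * q))) (ε : (↥(A.comap (algebraMap ↥S.L1 Qb)))ˣ),
            m59t1_RatioAt A N' hq2 hqN' S.L1 S.lev.irr p 𝔫 h𝔫.isPrime f ε →
            m59t1_RatioAt A N' hq2 hqN' S.L1 S.lev.irr p 𝔫' h𝔫'.isPrime
              (m59tt_tau ↥S.L1 (N' * q) h2 f) ε),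
      ∀ u ∈ m59tc_D1 N' q p A,
        ∃ a : m59t1_B A N' hqN' p Q0,
          m59t1_T1 A hA N' hq2 hqN' S.L1 S.lev.irr p ζ Q0 u a := by
  haveI := (m59tx_star_inst A N' hq2 hqN' S).1
  haveI := S.lev.dvr
  haveI := m59tx_star_charP A hA N' hq2 hqN' S
  intro ζ hζ Q0 h2 hConj
  exact m59tx_ex1_star A hA N' hq2 hqN' hp2 hqp h4 S ζ hζ Q0
    (m59tx_hTau_of_conj A hA N' hq2 hqN' S.L1 S.lev.irr S.zN S.hzN h2 hp2 hqp ζ hζ hConj)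

end Star

end Fermat.Agent.M59
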