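/-
M59 / Sink B, leaf 4 [TOR-SURJ] (helper15).  Prefix `m59tl_`.

THE CONSTANTS OF A NORMAL FORM AND THE RATIO AT ONE POINT: if `f ≡ k₁` along the branch `𝔮₁`,
`f ≡ k₂` along `𝔮₂` and the ratio of `f` at the point is `c`, then `k₁ ≡ k₂ cᵐ` modulo the point
(`ω a₁ᵐ ≡ k₁`, `ω a₂ᵐ ≡ k₂`, `a₁ ≡ c a₂`).  This is the hypothesis `hK` of `m59tgl_leg`, and it is
the reason why the class of `k₁ / k₂` modulo `m`-th powers is trivial as soon as ONE crossing point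
is rational (ruling #5591 (2)).
-/
import Mathlib
import Fermat.Agent.M59.SinkB.Tor.Local

set_option autoImplicit false
set_option linter.unusedSectionVars false
set_option linter.unusedVariables false

namespace Fermat.Agent.M59

open Fermat.Agent.SS Fermat.Agent.S36

section RatioConst

variable {R : Type*} [CommRing R] [IsDomain R] {F : Type*} [Field F] [Algebra R F]
  [IsFractionRing R F]
variable (𝔪 𝔮₁ 𝔮₂ : Ideal R) [h1 : 𝔮₁.IsPrime] [h2 : 𝔮₂.IsPrime]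

/-- `ω aᵐ ≡ k` along one branch. -/
theorem m59tl_branch_const (𝔮 : Ideal R) [h𝔮 : 𝔮.IsPrime] {m : ℕ} {f g : F} {ω : Rˣ} {a k : R}
    (hf : f = algebraMap R F (ω : R) * g ^ m)
    (hga : s36g_MemM 𝔮 (g - algebraMap R F a)) (hfk : s36g_MemM 𝔮 (f - algebraMap R F k)) :
    (ω : R) * a ^ m - k ∈ 𝔮 := by
  rw [← s36g_memM_algebraMap_iff (F := F) 𝔮]
  have hpow : s36g_MemM 𝔮 (g ^ m - algebraMap R F a ^ m) :=
    s36g_memM_pow_sub 𝔮 hga (ssl_memAt_algebraMap 𝔮 _) m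
  have h3 : s36g_MemM 𝔮 ((g ^ m - algebraMap R F a ^ m) * algebraMap R F (ω : R)) :=
    s36g_memM_mul_memAt 𝔮 hpow (ssl_memAt_algebraMap 𝔮 _)
  have e : algebraMap R F ((ω : R) * a ^ m - k) =
      (f - algebraMap R F k) - (g ^ m - algebraMap R F a ^ m) * algebraMap R F (ω : R) := by
    rw [hf, map_sub, map_mul, map_pow]
    ring
  rw [e]
  exact s36g_memM_sub 𝔮 hfk h3

/-- **`k₁ ≡ k₂ cᵐ` modulo the point.** -/
theorem m59tl_const_of_ratio (hq1 : 𝔮₁ ≤ 𝔪) (hq2 : 𝔮₂ ≤ 𝔪) {m : ℕ} {f : F} {c : Rˣ}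
    (h : m59tl_Ratio 𝔪 𝔮₁ 𝔮₂ m f c) {k1 k2 : R}
    (hf1 : s36g_MemM 𝔮₁ (f - algebraMap R F k1)) (hf2 : s36g_MemM 𝔮₂ (f - algebraMap R F k2)) :
    k1 - k2 * (c : R) ^ m ∈ 𝔪 := by
  obtain ⟨ω, g, a₁, a₂, hf, hu1, hu2, hm1, hm2, hr⟩ := h
  have e1 : (ω : R) * (a₁ : R) ^ m - k1 ∈ 𝔪 := hq1 (m59tl_branch_const 𝔮₁ hf hm1 hf1)
  have e2 : (ω : R) * (a₂ : R) ^ m - k2 ∈ 𝔪 := hq2 (m59tl_branch_const 𝔮₂ hf hm2 hf2)
  -- `a₁ᵐ ≡ cᵐ a₂ᵐ`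
  have e3 : (a₁ : R) ^ m - ((c : R) * (a₂ : R)) ^ m ∈ 𝔪 := by
    obtain ⟨d, hd⟩ := sub_dvd_pow_sub_pow (a₁ : R) ((c : R) * (a₂ : R)) m
    rw [hd]
    exact 𝔪.mul_mem_right _ hr
  have e : k1 - k2 * (c : R) ^ m =
      -((ω : R) * (a₁ : R) ^ m - k1) + (c : R) ^ m * ((ω : R) * (a₂ : R) ^ m - k2) +
        (ω : R) * ((a₁ : R) ^ m - ((c : R) * (a₂ : R)) ^ m) := by
    rw [mul_pow]
    ring
  rw [e]
  exact 𝔪.add_mem (𝔪.add_mem (𝔪.neg_mem e1) (𝔪.mul_mem_left _ e2)) (𝔪.mul_mem_left _ e3)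

end RatioConst

end Fermat.Agent.M59
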