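/-
M59 / Sink B, leaf 4 [TOR-SURJ], cell (ex2) (helper1).  Prefix `m59tx2_`.

THE LOCAL DATUM WITH CONSTANTS at a closed point of the special fibre through several branches:
`s36g_local_data` (S36/Glue/Rel.lean) with the hypothesis `f ≡ 1` along every branch replaced by
`f ≡ κ j` along the branch `(u j)`, `κ j` a unit of `R`.

* `m59tx2_local_data` : `f = ω gᵐ`, `g` a unit along every branch with branch values `a j`,
  `ω (a j)ᵐ ≡ κ j mod u j`;
* `m59tx2_local_units` : over a LOCAL ring `R` the branch values are units of `R`;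
* `m59tx2_ratio` : for two branches `i`, `j` through the point `𝔪`:
  `m59tl_Ratio 𝔪 (u i) (u j) m f c` with `cᵐ κ j ≡ κ i mod 𝔪`.
-/
import Mathlib
import Fermat.Agent.S36.Glue.Rel
import Fermat.Agent.M59.SinkB.Tor.RatioConst

set_option autoImplicit false
set_option linter.unusedSectionVars false
set_option linter.unusedVariables false

namespace Fermat.Agent.M59

open Fermat.Agent.SS Fermat.Agent.S35 Fermat.Agent.S36

section Data

variable {R : Type*} [CommRing R] [IsDomain R] [IsNoetherianRing R] [IsIntegrallyClosed R]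
  [UniqueFactorizationMonoid R] {F : Type*} [Field F] [Algebra R F] [IsFractionRing R F]

/-- **existence of the local data at a closed point, with constants `κ j` along the branches.** -/
theorem m59tx2_local_data {ι : Type*} [Fintype ι] (π : R) (u : ι → R) (e : ι → ℕ)
    (hu : ∀ j, Prime (u j)) (he : ∀ j, e j ≠ 0) (hπ : Associated π (∏ j, u j ^ e j))
    (hsm : ∀ j, IsIntegrallyClosed (R ⧸ Ideal.span {u j})) (m : ℕ) (hm : 0 < m) {f : F}
    (hf : f ≠ 0)
    (hdiv : ∀ 𝔮 : Ideal R, ssl_Horiz π 𝔮 → ∃ G : F, G ≠ 0 ∧ ssl_UnitAt F 𝔮 (f / G ^ m))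
    (κ : ι → Rˣ) (hfκ : ∀ j, s36g_MemM (Ideal.span {u j}) (f - algebraMap R F (κ j : R))) :
    ∃ (ω : Rˣ) (g : F) (a : ι → R), f = algebraMap R F (ω : R) * g ^ m ∧
      (∀ j, ssl_UnitAt F (Ideal.span {u j}) g) ∧
      (∀ j, s36g_MemM (Ideal.span {u j}) (g - algebraMap R F (a j))) ∧
      (∀ j, (ω : R) * a j ^ m - (κ j : R) ∈ Ideal.span {u j}) := by
  have hprime : ∀ j, (Ideal.span {u j}).IsPrime := fun j =>
    (Ideal.span_singleton_prime (hu j).ne_zero).2 (hu j)
  have hκnot : ∀ j, ((κ j : Rˣ) : R) ∉ Ideal.span {u j} := by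
    intro j hmem
    exact (hprime j).ne_top (Ideal.eq_top_of_isUnit_mem _ hmem (κ j).isUnit)
  have hunit : ∀ j, ssl_UnitAt F (Ideal.span {u j}) f := by
    intro j
    have := hprime j
    exact s36g_unitAt_of_memM_sub (Ideal.span {u j}) (hκnot j) (hfκ j)
  -- every prime divisor of `π` is associated to some `u j`
  have hassoc : ∀ p : R, Prime p → p ∣ π → ∃ j, Associated p (u j) := by
    intro p hp hpπ
    have h1 : p ∣ ∏ j, u j ^ e j := hpπ.trans hπ.dvd
    obtain ⟨j, -, hj⟩ := (Prime.dvd_finsetProd_iff hp _).1 h1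
    have h2 : p ∣ u j := hp.dvd_of_dvd_pow hj
    exact ⟨j, (hp.irreducible.dvd_irreducible_iff_associated (hu j).irreducible).1 h2⟩
  have hvert : ∀ p : R, Prime p → p ∣ π → ssl_UnitAt F (Ideal.span {p}) f := by
    intro p hp hpπ
    obtain ⟨j, hj⟩ := hassoc p hp hpπ
    rw [Ideal.span_singleton_eq_span_singleton.2 hj]
    exact hunit j
  obtain ⟨g, hg0, hgv, ω, hfg⟩ := tori_sfd_local π m hf hdiv hvert
  have hujπ : ∀ j, u j ∣ π := by
    intro j
    have h1 : u j ∣ u j ^ e j := dvd_pow_self _ (he j)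
    exact (h1.trans (Finset.dvd_prod_of_mem (fun j => u j ^ e j) (Finset.mem_univ j))).trans
      hπ.symm.dvd
  have hgu : ∀ j, ssl_UnitAt F (Ideal.span {u j}) g := fun j => hgv (u j) (hu j) (hujπ j)
  have hκinv : ∀ j, algebraMap R F (((κ j)⁻¹ : Rˣ) : R) * algebraMap R F ((κ j : Rˣ) : R) = 1 := by
    intro j
    rw [← map_mul, ← Units.val_mul, inv_mul_cancel, Units.val_one, map_one]
  have hex : ∀ j, ∃ a : R, a ∉ Ideal.span {u j} ∧
      s36g_MemM (Ideal.span {u j}) (g - algebraMap R F a) := by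
    intro j
    have := hprime j
    have := hsm j
    refine s36g_exists_branch_value (Ideal.span {u j}) hm (hgu j) ((κ j)⁻¹ * ω) ?_
    have e1 : algebraMap R F (((κ j)⁻¹ * ω : Rˣ) : R) * g ^ m - 1 =
        (f - algebraMap R F ((κ j : Rˣ) : R)) * algebraMap R F (((κ j)⁻¹ : Rˣ) : R) := by
      rw [Units.val_mul, map_mul, sub_mul, mul_comm (algebraMap R F ((κ j : Rˣ) : R)), hκinv j,
        hfg]
      ring
    rw [e1]
    exact s36g_memM_mul_memAt _ (hfκ j) (ssl_memAt_algebraMap _ _)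
  choose a ha hga using hex
  refine ⟨ω, g, a, hfg, hgu, hga, fun j => ?_⟩
  have := hprime j
  exact m59tl_branch_const (Ideal.span {u j}) hfg (hga j) (hfκ j)

end Data

section Local

variable {R : Type*} [CommRing R] [IsDomain R] [IsLocalRing R]

/-- over a local ring, `ω aᵐ ≡ κ mod u` with `u` a nonunit and `κ` a unit forces `a` to be a
unit. -/
theorem m59tx2_isUnit_of_branch {u a : R} (hu : ¬ IsUnit u) {m : ℕ} (hm : 0 < m) (ω κ : Rˣ)
    (h : (ω : R) * a ^ m - (κ : R) ∈ Ideal.span {u}) : IsUnit a := by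
  by_contra ha
  have ha' : a ∈ IsLocalRing.maximalIdeal R := (IsLocalRing.mem_maximalIdeal a).2 ha
  have hu' : u ∈ IsLocalRing.maximalIdeal R := (IsLocalRing.mem_maximalIdeal u).2 hu
  have hle : Ideal.span {u} ≤ IsLocalRing.maximalIdeal R :=
    (Ideal.span_singleton_le_iff_mem _).2 hu'
  have h1 : (ω : R) * a ^ m ∈ IsLocalRing.maximalIdeal R :=
    Ideal.mul_mem_left _ _ (Ideal.pow_mem_of_mem _ ha' m hm)
  have h2 : (κ : R) ∈ IsLocalRing.maximalIdeal R := by
    have e : (κ : R) = (ω : R) * a ^ m - ((ω : R) * a ^ m - (κ : R)) := by ring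
    rw [e]
    exact Ideal.sub_mem _ h1 (hle h)
  exact (IsLocalRing.mem_maximalIdeal _).1 h2 κ.isUnit

end Local

section Ratio

variable {R : Type*} [CommRing R] [IsDomain R] [IsNoetherianRing R] [IsIntegrallyClosed R]
  [UniqueFactorizationMonoid R] [IsLocalRing R] {F : Type*} [Field F] [Algebra R F]
  [IsFractionRing R F]

/-- **the local datum with UNIT branch values over a local ring.** -/
theorem m59tx2_local_units {ι : Type*} [Fintype ι] (π : R) (u : ι → R) (e : ι → ℕ)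
    (hu : ∀ j, Prime (u j)) (he : ∀ j, e j ≠ 0) (hπ : Associated π (∏ j, u j ^ e j))
    (hsm : ∀ j, IsIntegrallyClosed (R ⧸ Ideal.span {u j})) (m : ℕ) (hm : 0 < m) {f : F}
    (hf : f ≠ 0)
    (hdiv : ∀ 𝔮 : Ideal R, ssl_Horiz π 𝔮 → ∃ G : F, G ≠ 0 ∧ ssl_UnitAt F 𝔮 (f / G ^ m))
    (κ : ι → Rˣ) (hfκ : ∀ j, s36g_MemM (Ideal.span {u j}) (f - algebraMap R F (κ j : R))) :
    ∃ (ω : Rˣ) (g : F) (a : ι → Rˣ), f = algebraMap R F (ω : R) * g ^ m ∧
      (∀ j, ssl_UnitAt F (Ideal.span {u j}) g) ∧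
      (∀ j, s36g_MemM (Ideal.span {u j}) (g - algebraMap R F (a j : R))) ∧
      (∀ j, (ω : R) * (a j : R) ^ m - (κ j : R) ∈ Ideal.span {u j}) := by
  obtain ⟨ω, g, a, hfg, hgu, hga, hωa⟩ := m59tx2_local_data π u e hu he hπ hsm m hm hf hdiv κ hfκ
  have hau : ∀ j, IsUnit (a j) := fun j =>
    m59tx2_isUnit_of_branch (hu j).not_isUnit hm ω (κ j) (hωa j)
  refine ⟨ω, g, fun j => (hau j).unit, hfg, hgu, fun j => ?_, fun j => ?_⟩
  · rw [IsUnit.unit_spec]; exact hga j
  · rw [IsUnit.unit_spec]; exact hωa j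

/-- **the ratio between two branches** `i`, `j` through the point: `c = a i / a j`, and
`κ i ≡ κ j · cᵐ` modulo the point. -/
theorem m59tx2_ratio {ι : Type*} [Fintype ι] (π : R) (u : ι → R) (e : ι → ℕ)
    (hu : ∀ j, Prime (u j)) (he : ∀ j, e j ≠ 0) (hπ : Associated π (∏ j, u j ^ e j))
    (hsm : ∀ j, IsIntegrallyClosed (R ⧸ Ideal.span {u j})) (m : ℕ) (hm : 0 < m) {f : F}
    (hf : f ≠ 0)
    (hdiv : ∀ 𝔮 : Ideal R, ssl_Horiz π 𝔮 → ∃ G : F, G ≠ 0 ∧ ssl_UnitAt F 𝔮 (f / G ^ m))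
    (κ : ι → Rˣ) (hfκ : ∀ j, s36g_MemM (Ideal.span {u j}) (f - algebraMap R F (κ j : R))) :
    ∃ c : ι → ι → Rˣ, ∀ i j, m59tl_Ratio (IsLocalRing.maximalIdeal R) (Ideal.span {u i})
      (Ideal.span {u j}) m f (c i j) ∧
      (κ i : R) - (κ j : R) * (c i j : R) ^ m ∈ IsLocalRing.maximalIdeal R := by
  obtain ⟨ω, g, a, hfg, hgu, hga, hωa⟩ :=
    m59tx2_local_units π u e hu he hπ hsm m hm hf hdiv κ hfκ
  have hprime : ∀ j, (Ideal.span {u j}).IsPrime := fun j =>
    (Ideal.span_singleton_prime (hu j).ne_zero).2 (hu j)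
  have hle : ∀ j, Ideal.span {u j} ≤ IsLocalRing.maximalIdeal R := fun j =>
    (Ideal.span_singleton_le_iff_mem _).2 ((IsLocalRing.mem_maximalIdeal _).2 (hu j).not_isUnit)
  refine ⟨fun i j => a i * (a j)⁻¹, fun i j => ?_⟩
  have hR : m59tl_Ratio (IsLocalRing.maximalIdeal R) (Ideal.span {u i}) (Ideal.span {u j}) m f
      (a i * (a j)⁻¹) := by
    refine ⟨ω, g, a i, a j, hfg, hgu i, hgu j, hga i, hga j, ?_⟩
    have : ((a i : Rˣ) : R) - ((a i * (a j)⁻¹ : Rˣ) : R) * ((a j : Rˣ) : R) = 0 := by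
      rw [Units.val_mul, mul_assoc, ← Units.val_mul, inv_mul_cancel, Units.val_one, mul_one,
        sub_self]
    rw [this]
    exact Ideal.zero_mem _
  have := hprime i
  have := hprime j
  exact ⟨hR, m59tl_const_of_ratio (IsLocalRing.maximalIdeal R) (Ideal.span {u i})
    (Ideal.span {u j}) (hle i) (hle j) hR (hfκ i) (hfκ j)⟩

end Ratio

end Fermat.Agent.M59
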