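/-
M59 / Sink B, leaf 4 [TOR-SURJ], cell (ex2) (helper1).  Prefix `m59tx2_`.

THE RATIOS AT A TRIPLE POINT.  Setting of `s36g_locAt_tri` (S36/Glue/Main.lean): a chart `B` with
three vertical valuations `V 0 = VA`, `V 1 = VB`, `V 2 = VC`, their centres `P i`, and a triple
point `𝔫` (`s36g_PtTri`).  If `f ≡ k j` at `V j` (unit constants) and `m` divides the horizontal
orders of `f` at the point, then for every pair of branches `(i, j)` the ratio of `f` at the point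
exists, `m59tl_Ratio (𝔫R) (P i R) (P j R) m f (c i j)`, and `k i ≡ k j · (c i j)ᵐ` modulo the point.

* `m59tx2_ratio_tri`    : chart form (`hdiv` as a hypothesis);
* `m59tx2_ratio_tri_ff` : function-field form (`hdiv` from `m ∣ P.ord f` for all places).
-/
import Mathlib
import Fermat.Agent.S36.Glue.Main
import Fermat.Agent.M59.SinkB.Tor.Ex2Local
import Fermat.Agent.M59.SinkB.Tor.Glue1

set_option autoImplicit false
set_option linter.unusedSectionVars false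
set_option linter.unusedVariables false
set_option linter.style.haveILetI false

namespace Fermat.Agent.M59

open Fermat.Agent.SS Fermat.Agent.JT3 Fermat.Agent.S35 Fermat.Agent.S36 AlgebraicCurve

universe v

section ChartPt

variable {A0 : Type*} [CommRing A0] {F0 : Type v} [Field F0] [Algebra A0 F0]
variable {B : Subalgebra A0 F0} [IsFractionRing B F0] [IsNoetherianRing B] [IsIntegrallyClosed B]

/-- **the ratios at a triple point**, chart form. -/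
theorem m59tx2_ratio_tri (π : A0) {p : ℕ} (hp : p ≠ 0) (V : Fin 3 → ValuationSubring F0)
    (P : Fin 3 → Ideal B)
    (hBV : ∀ i (b : B), (b : F0) ∈ V i)
    (hP : ∀ i (b : B), b ∈ P i ↔ (b : F0) ∈ (V i).nonunits)
    (hV : ∀ i, ∀ z ∈ V i, ∃ t : B, t ∉ P i ∧ (t : F0) * z ∈ B)
    {N1 N2 : F0 →* F0} {K1 K2 : Subfield F0}
    (𝔫 : Ideal B) [h𝔫 : 𝔫.IsPrime]
    (hpt : s36g_PtTri π p N1 N2 K1 K2 B (P 0) (P 1) (P 2) 𝔫) {m : ℕ} (hm : 0 < m)
    {f : F0} (hf0 : f ≠ 0)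
    (hdiv : ∀ 𝔮 : Ideal (ssl_locSub F0 𝔫),
      ssl_Horiz (algebraMap B (ssl_locSub F0 𝔫) (algebraMap A0 B π)) 𝔮 →
        ∃ G : F0, G ≠ 0 ∧ ssl_UnitAt F0 𝔮 (f / G ^ m))
    (k : Fin 3 → A0ˣ) (hfk : ∀ j, f - algebraMap A0 F0 (k j : A0) ∈ (V j).nonunits) :
    ∃ c : Fin 3 → Fin 3 → (ssl_locSub F0 𝔫)ˣ, ∀ i j,
      m59tl_Ratio (𝔫.map (algebraMap B (ssl_locSub F0 𝔫)))
        ((P i).map (algebraMap B (ssl_locSub F0 𝔫)))
        ((P j).map (algebraMap B (ssl_locSub F0 𝔫))) m f (c i j) ∧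
      ((m59tl_cst (F0 := F0) 𝔫 (k i) : (ssl_locSub F0 𝔫)ˣ) : ssl_locSub F0 𝔫) -
        ((m59tl_cst (F0 := F0) 𝔫 (k j) : (ssl_locSub F0 𝔫)ˣ) : ssl_locSub F0 𝔫) *
          ((c i j : (ssl_locSub F0 𝔫)ˣ) : ssl_locSub F0 𝔫) ^ m ∈
        𝔫.map (algebraMap B (ssl_locSub F0 𝔫)) := by
  obtain ⟨hufd, a, b, c, ha, hb, hc, hassoc, hab, hac, hbc, hcA, hcB, hcC, -, -, -, -, -, -⟩ := hpt
  haveI := hufd
  haveI : IsLocalRing (ssl_locSub F0 𝔫) := ssl_loc_isLocalRing 𝔫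
  haveI : IsNoetherianRing (ssl_locSub F0 𝔫) := ssl_loc_isNoetherianRing 𝔫
  haveI : IsIntegrallyClosed (ssl_locSub F0 𝔫) := ssl_loc_isIntegrallyClosed 𝔫
  have hmax : 𝔫.map (algebraMap B (ssl_locSub F0 𝔫)) =
      IsLocalRing.maximalIdeal (ssl_locSub F0 𝔫) :=
    IsLocalization.AtPrime.map_eq_maximalIdeal 𝔫 (ssl_locSub F0 𝔫)
  -- the links
  have lA : s36g_Link (F := F0) a (V 0) :=
    s36g_link_of_comap 𝔫 (V 0) (P 0) (hBV 0) (hP 0) (hV 0) a ha hcA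
  have lB : s36g_Link (F := F0) b (V 1) :=
    s36g_link_of_comap 𝔫 (V 1) (P 1) (hBV 1) (hP 1) (hV 1) b hb hcB
  have lC : s36g_Link (F := F0) c (V 2) :=
    s36g_link_of_comap 𝔫 (V 2) (P 2) (hBV 2) (hP 2) (hV 2) c hc hcC
  -- the branches
  set u : Fin 3 → ssl_locSub F0 𝔫 := ![a, b, c] with hudef
  set e : Fin 3 → ℕ := ![1, 1, p] with hedef
  have hu : ∀ j, Prime (u j) := s36g_forall_fin3 ha hb hc
  have hlink : ∀ j, s36g_Link (F := F0) (u j) (V j) := s36g_forall_fin3 lA lB lC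
  have hcomap : ∀ j, (Ideal.span {u j}).comap (algebraMap B (ssl_locSub F0 𝔫)) = P j :=
    s36g_forall_fin3 hcA hcB hcC
  have hmap : ∀ j, (P j).map (algebraMap B (ssl_locSub F0 𝔫)) = Ideal.span {u j} := by
    intro j
    rw [← hcomap j]
    exact IsLocalization.map_under 𝔫.primeCompl (ssl_locSub F0 𝔫) _
  have he : ∀ j, e j ≠ 0 := s36g_forall_fin3 one_ne_zero one_ne_zero hp
  have hπ : Associated (algebraMap B (ssl_locSub F0 𝔫) (algebraMap A0 B π))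
      (∏ j, u j ^ e j) := by
    have e1 : ∏ j, u j ^ e j = a * b * c ^ p := by
      rw [Fin.prod_univ_three]
      simp [hudef, hedef]
    rw [e1]; exact hassoc
  have hsm : ∀ j, IsIntegrallyClosed (ssl_locSub F0 𝔫 ⧸ Ideal.span {u j}) := by
    have m1 : IsLocalRing.maximalIdeal (ssl_locSub F0 𝔫) = Ideal.span {a, b} := by
      rw [← hmax, hab]
    have m2 : IsLocalRing.maximalIdeal (ssl_locSub F0 𝔫) = Ideal.span {b, a} := by
      rw [← hmax, hab, Set.pair_comm]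
    have m3 : IsLocalRing.maximalIdeal (ssl_locSub F0 𝔫) = Ideal.span {c, a} := by
      rw [← hmax, hac, Set.pair_comm]
    exact s36g_forall_fin3 (s36g_ic_quot_of_span_pair (a := a) (b := b) ha m1)
      (s36g_ic_quot_of_span_pair (a := b) (b := a) hb m2)
      (s36g_ic_quot_of_span_pair (a := c) (b := a) hc m3)
  have hfκ : ∀ j, s36g_MemM (Ideal.span {u j})
      (f - algebraMap (ssl_locSub F0 𝔫) F0
        ((m59tl_cst (F0 := F0) 𝔫 (k j) : (ssl_locSub F0 𝔫)ˣ) : ssl_locSub F0 𝔫)) := by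
    intro j
    exact (hlink j).memM_iff.2 (hfk j)
  obtain ⟨cc, hcc⟩ := m59tx2_ratio (F := F0) _ u e hu he hπ hsm m hm hf0 hdiv
    (fun j => m59tl_cst (F0 := F0) 𝔫 (k j)) hfκ
  refine ⟨cc, fun i j => ?_⟩
  rw [hmax, hmap i, hmap j]
  exact hcc i j

end ChartPt

section FF

open IntermediateField

variable {A0 L : Type*} {F0 : Type v} [CommRing A0] [IsDomain A0] [IsDiscreteValuationRing A0]
  [Field L] [Field F0] [Algebra A0 L] [IsFractionRing A0 L] [CharZero L] [Algebra L F0]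
  [Algebra A0 F0] [IsScalarTower A0 L F0]

set_option synthInstance.maxHeartbeats 200000 in
set_option maxHeartbeats 1600000 in
/-- **the ratios at a triple point** of the chart `fc_chart A0 {y}` of a function field: `f ≡ k j` at
the three vertical valuations, `m` divides all orders of `f`. -/
theorem m59tx2_ratio_tri_ff {π : A0} (hπ : Irreducible π) {y : F0} (hy : Transcendental L y)
    [FiniteDimensional L⟮y⟯ F0] [IsFractionRing ↥(fc_chart A0 ({y} : Set F0)) F0]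
    {p : ℕ} (hp : p ≠ 0)
    {V : Fin 3 → ValuationSubring F0} {e : Fin 3 → ℕ}
    (H : s36tp_Hyp (algebraMap A0 (Algebra.adjoin A0 ({y} : Set F0)) π) V e)
    {N1 N2 : F0 →* F0} {K1 K2 : Subfield F0}
    {m : ℕ} (hm : 0 < m) {f : F0} (hf0 : f ≠ 0)
    (hord : ∀ P : Place L F0, (m : ℤ) ∣ P.ord f)
    (k : Fin 3 → A0ˣ) (hfk : ∀ j, f - algebraMap A0 F0 (k j : A0) ∈ (V j).nonunits)
    (𝔫 : Ideal (fc_chart A0 ({y} : Set F0))) (h𝔫 : 𝔫.IsMaximal)
    (hpt : haveI := h𝔫.isPrime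
      s36g_PtTri π p N1 N2 K1 K2 (fc_chart A0 ({y} : Set F0))
        (ssm_tp_P (fc_chart A0 ({y} : Set F0)) (V 0)) (ssm_tp_P (fc_chart A0 ({y} : Set F0)) (V 1))
        (ssm_tp_P (fc_chart A0 ({y} : Set F0)) (V 2)) 𝔫) :
    haveI := h𝔫.isPrime
    ∃ c : Fin 3 → Fin 3 → (ssl_locSub F0 𝔫)ˣ, ∀ i j,
      m59tl_Ratio (𝔫.map (algebraMap (fc_chart A0 ({y} : Set F0)) (ssl_locSub F0 𝔫)))
        ((ssm_tp_P (fc_chart A0 ({y} : Set F0)) (V i)).map
          (algebraMap (fc_chart A0 ({y} : Set F0)) (ssl_locSub F0 𝔫)))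
        ((ssm_tp_P (fc_chart A0 ({y} : Set F0)) (V j)).map
          (algebraMap (fc_chart A0 ({y} : Set F0)) (ssl_locSub F0 𝔫))) m f (c i j) ∧
      ((m59tl_cst (F0 := F0) 𝔫 (k i) : (ssl_locSub F0 𝔫)ˣ) : ssl_locSub F0 𝔫) -
        ((m59tl_cst (F0 := F0) 𝔫 (k j) : (ssl_locSub F0 𝔫)ˣ) : ssl_locSub F0 𝔫) *
          ((c i j : (ssl_locSub F0 𝔫)ˣ) : ssl_locSub F0 𝔫) ^ m ∈
        𝔫.map (algebraMap (fc_chart A0 ({y} : Set F0)) (ssl_locSub F0 𝔫)) := by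
  haveI h𝔫p : 𝔫.IsPrime := h𝔫.isPrime
  haveI hno := ssm_ths_chart_isNoetherianRing (A0 := A0) (L := L) hy
  haveI hic := ssm_ths_chart_isIntegrallyClosed (A0 := A0) (L := L) y
  have hyA : Transcendental A0 y := fc_ff_transcendental (L := L) hy
  haveI : IsIntegrallyClosed (Algebra.adjoin A0 ({y} : Set F0)) := fc_ff_isIntegrallyClosed hyA
  haveI : FaithfulSMul (Algebra.adjoin A0 ({y} : Set F0)) F0 :=
    (faithfulSMul_iff_algebraMap_injective _ _).2 Subtype.val_injective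
  have hC : ssm_tp_Chart (algebraMap A0 (Algebra.adjoin A0 ({y} : Set F0)) π)
      (fc_chart A0 ({y} : Set F0)) := ssm_tp_ff_chart (L := L) hπ hy
  set P : Fin 3 → Ideal (fc_chart A0 ({y} : Set F0)) :=
    fun i => ssm_tp_P (fc_chart A0 ({y} : Set F0)) (V i) with hPdef
  have hBV : ∀ i (b : fc_chart A0 ({y} : Set F0)), (b : F0) ∈ V i :=
    fun i b => H.chart_le hC i b.2
  have hP : ∀ i (b : fc_chart A0 ({y} : Set F0)), b ∈ P i ↔ (b : F0) ∈ (V i).nonunits :=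
    fun i b => H.mem_P hC i
  have hV : ∀ i, ∀ z ∈ V i, ∃ t : fc_chart A0 ({y} : Set F0), t ∉ P i ∧
      (t : F0) * z ∈ fc_chart A0 ({y} : Set F0) := fun i z hz => (H.mem_V_iff hC i).1 hz
  haveI := ssl_loc_isNoetherianRing (F0 := F0) 𝔫
  haveI := ssl_loc_isIntegrallyClosed (F0 := F0) 𝔫
  have hdiv : ∀ 𝔮 : Ideal (ssl_locSub F0 𝔫),
      ssl_Horiz (algebraMap (fc_chart A0 ({y} : Set F0)) (ssl_locSub F0 𝔫)
        (algebraMap A0 (fc_chart A0 ({y} : Set F0)) π)) 𝔮 →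
        ∃ G : F0, G ≠ 0 ∧ ssl_UnitAt F0 𝔮 (f / G ^ m) :=
    fun 𝔮 h𝔮 => ssl_hdiv_of_places (K := L) (R := ssl_locSub F0 𝔫) hπ hf0 m hord 𝔮 h𝔮
  exact m59tx2_ratio_tri π hp V P hBV hP hV 𝔫 hpt hm hf0 hdiv k hfk

end FF

end Fermat.Agent.M59
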