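/-
M59 / Sink B, leaf 4 [TOR-SURJ], cell (ex2) (helper1).  Prefix `m59tx2_`.

THE RATIOS AT THE TRIPLE POINTS OF THE LEGENDRE MODEL AT LEVEL `N' q q`.
`L ⊆ Q̄` a number field with `ζ_{N'}`, `O` a DVR of `L` with uniformiser `q` odd, `q ∤ N'`,
`E₂ = lg_E L (N' q q)`, `B₂ = fc_chart O {λ}`, `VC` a third valuation (`s36asm_Third`),
`PA, PB, PC = ssm_tp_P B₂ VA, VB, VC`.

**`m59tx2_ratio_leg`**: `f ∈ E₂`, `f ≠ 0`, all orders divisible by `m ≥ 1`, `f ≡ kA, kB, kC` at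
`VA, VB, VC` (units of `O`: the shape of `m59sb_ConstRed3`).  At EVERY maximal ideal `𝔫 ∋ q` of `B₂`
containing two of `PA, PB, PC` (a triple point, `s36asm_ptsT1_leg`) there are units `cCB, cAC` of
`R = B₂_𝔫` with
  `m59tl_Ratio (𝔫R) (PC R) (PB R) m f cCB`,  `kC ≡ kB · cCBᵐ mod 𝔫R`,
  `m59tl_Ratio (𝔫R) (PA R) (PC R) m f cAC`,  `kA ≡ kC · cACᵐ mod 𝔫R`.
-/
import Mathlib
import Fermat.Agent.M59.SinkB.Tor.Ex2Tri
import Fermat.Agent.S36.Model.AsmLegLastT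

set_option autoImplicit false
set_option linter.unusedSectionVars false
set_option linter.unusedVariables false
set_option linter.style.haveILetI false
set_option maxHeartbeats 1000000

noncomputable section

namespace Fermat.Agent.M59

open Fermat.Agent.SS Fermat.Agent.JT3 Fermat.Agent.S35 Fermat.Agent.S36 IsLocalRing AlgebraicCurve
  IntermediateField ModularCurve

section Leg

variable (L : Type) [Field L] [NumberField L] [Algebra L (AlgebraicClosure ℚ)]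
  (O : ValuationSubring L) [IsDiscreteValuationRing O]
variable (N' q : ℕ) [NeZero N'] [NeZero q] [hq : Fact q.Prime] [CharP (ResidueField O) q]
  (hq2 : ¬ 2 ∣ q) (hqN' : ¬ q ∣ N') (hπ : Irreducible ((q : ℕ) : ↥O))
  (ζ : L) (hζ : IsPrimitiveRoot ζ N')

include hζ in
set_option synthInstance.maxHeartbeats 400000 in
set_option maxHeartbeats 3200000 in
/-- **the ratios at the triple points of the Legendre model at level `N' q q`**, matrix form. -/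
theorem m59tx2_ratio_leg_all {VC : ValuationSubring ↥(lg_E L (N' * q * q))}
    (T3 : s36asm_Third O hπ N' q hq2 hqN' VC) {m : ℕ} (hm : 0 < m)
    {f : ↥(lg_E L (N' * q * q))} (hf0 : f ≠ 0)
    (hord : ∀ P : Place L ↥(lg_E L (N' * q * q)), (m : ℤ) ∣ P.ord f)
    (k : Fin 3 → (↥O)ˣ)
    (hfk : ∀ j, f - algebraMap L ↥(lg_E L (N' * q * q)) (((k j : (↥O)ˣ) : ↥O) : L) ∈
      ((![s36i_VA O hπ (N' * q) q, s36i_VB O hπ N' q hq2 hqN', VC] :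
        Fin 3 → ValuationSubring ↥(lg_E L (N' * q * q))) j).nonunits)
    (𝔫 : Ideal (fc_chart ↥O ({lg_lamE (N' * q * q)} : Set ↥(lg_E L (N' * q * q)))))
    (h𝔫 : 𝔫.IsMaximal)
    (hπ𝔫 : algebraMap ↥O (fc_chart ↥O ({lg_lamE (N' * q * q)} : Set ↥(lg_E L (N' * q * q))))
      ((q : ℕ) : ↥O) ∈ 𝔫)
    (htwo : (ssm_tp_P (fc_chart ↥O ({lg_lamE (N' * q * q)} : Set ↥(lg_E L (N' * q * q))))
          (s36i_VA O hπ (N' * q) q) ≤ 𝔫 ∧
        ssm_tp_P (fc_chart ↥O ({lg_lamE (N' * q * q)} : Set ↥(lg_E L (N' * q * q))))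
          (s36i_VB O hπ N' q hq2 hqN') ≤ 𝔫) ∨
      (ssm_tp_P (fc_chart ↥O ({lg_lamE (N' * q * q)} : Set ↥(lg_E L (N' * q * q))))
          (s36i_VA O hπ (N' * q) q) ≤ 𝔫 ∧
        ssm_tp_P (fc_chart ↥O ({lg_lamE (N' * q * q)} : Set ↥(lg_E L (N' * q * q)))) VC ≤ 𝔫) ∨
      (ssm_tp_P (fc_chart ↥O ({lg_lamE (N' * q * q)} : Set ↥(lg_E L (N' * q * q))))
          (s36i_VB O hπ N' q hq2 hqN') ≤ 𝔫 ∧
        ssm_tp_P (fc_chart ↥O ({lg_lamE (N' * q * q)} : Set ↥(lg_E L (N' * q * q)))) VC ≤ 𝔫)) :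
    haveI := s36cp_chart_isFractionRing O (N' * q * q)
    haveI := h𝔫.isPrime
    ∃ c : Fin 3 → Fin 3 → (ssl_locSub ↥(lg_E L (N' * q * q)) 𝔫)ˣ, ∀ i j,
      m59tl_Ratio
        (𝔫.map (algebraMap (fc_chart ↥O ({lg_lamE (N' * q * q)} : Set ↥(lg_E L (N' * q * q))))
          (ssl_locSub ↥(lg_E L (N' * q * q)) 𝔫)))
        ((ssm_tp_P (fc_chart ↥O ({lg_lamE (N' * q * q)} : Set ↥(lg_E L (N' * q * q))))
          ((![s36i_VA O hπ (N' * q) q, s36i_VB O hπ N' q hq2 hqN', VC] :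
            Fin 3 → ValuationSubring ↥(lg_E L (N' * q * q))) i)).map
          (algebraMap (fc_chart ↥O ({lg_lamE (N' * q * q)} : Set ↥(lg_E L (N' * q * q))))
            (ssl_locSub ↥(lg_E L (N' * q * q)) 𝔫)))
        ((ssm_tp_P (fc_chart ↥O ({lg_lamE (N' * q * q)} : Set ↥(lg_E L (N' * q * q))))
          ((![s36i_VA O hπ (N' * q) q, s36i_VB O hπ N' q hq2 hqN', VC] :
            Fin 3 → ValuationSubring ↥(lg_E L (N' * q * q))) j)).map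
          (algebraMap (fc_chart ↥O ({lg_lamE (N' * q * q)} : Set ↥(lg_E L (N' * q * q))))
            (ssl_locSub ↥(lg_E L (N' * q * q)) 𝔫))) m (f : ↥(lg_E L (N' * q * q))) (c i j) ∧
      ((m59tl_cst (F0 := ↥(lg_E L (N' * q * q))) 𝔫 (k i) :
          (ssl_locSub ↥(lg_E L (N' * q * q)) 𝔫)ˣ) : ssl_locSub ↥(lg_E L (N' * q * q)) 𝔫) -
        ((m59tl_cst (F0 := ↥(lg_E L (N' * q * q))) 𝔫 (k j) :
          (ssl_locSub ↥(lg_E L (N' * q * q)) 𝔫)ˣ) : ssl_locSub ↥(lg_E L (N' * q * q)) 𝔫) *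
          ((c i j : (ssl_locSub ↥(lg_E L (N' * q * q)) 𝔫)ˣ) :
            ssl_locSub ↥(lg_E L (N' * q * q)) 𝔫) ^ m ∈
        𝔫.map (algebraMap (fc_chart ↥O ({lg_lamE (N' * q * q)} : Set ↥(lg_E L (N' * q * q))))
          (ssl_locSub ↥(lg_E L (N' * q * q)) 𝔫)) := by
  have hqO : ((q : ℕ) : O) ∈ maximalIdeal O := ssm_fln_q_mem L O q
  have hq2' : q ≠ 2 := ssm_fl_ne_two q hq2
  have hp := ssm_ll_prime L N' hπ q hqO hq2' hqN' ζ hζ
  obtain ⟨-, H3, -⟩ := s36asm_all_of_third O hπ N' q hq2 hqN' hp.1 T3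
  have hT1 := s36asm_ptsT1_leg L O N' q hq2 hqN' hπ ζ hζ T3 𝔫 h𝔫 hπ𝔫 htwo
  haveI := ssm_go_isScalarTower O (lg_E L (N' * q * q))
  haveI : FiniteDimensional L⟮(lg_lamE (N' * q * q) : lg_E L (N' * q * q))⟯
      ↥(lg_E L (N' * q * q)) := lgf_finite L (N' * q * q)
  have hx : Transcendental L (lg_lamE (L := L) (N' * q * q)) :=
    lgf_lam_transcendental L (N' * q * q) two_ne_zero
  haveI := s36cp_chart_isFractionRing O (N' * q * q)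
  have hp0 : q - 1 ≠ 0 := by
    have := hq.out.two_le
    omega
  exact m59tx2_ratio_tri_ff (L := L) hπ hx hp0 H3 hm hf0 hord k hfk 𝔫 h𝔫 hT1

include hζ in
set_option synthInstance.maxHeartbeats 400000 in
set_option maxHeartbeats 3200000 in
/-- **the two ratios `C/B` and `A/C` at a triple point** (the shape of the toric datum `T2`). -/
theorem m59tx2_ratio_leg {VC : ValuationSubring ↥(lg_E L (N' * q * q))}
    (T3 : s36asm_Third O hπ N' q hq2 hqN' VC) {m : ℕ} (hm : 0 < m)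
    {f : ↥(lg_E L (N' * q * q))} (hf0 : f ≠ 0)
    (hord : ∀ P : Place L ↥(lg_E L (N' * q * q)), (m : ℤ) ∣ P.ord f)
    (kA kB kC : (↥O)ˣ)
    (hfA : f - algebraMap L ↥(lg_E L (N' * q * q)) (((kA : (↥O)ˣ) : ↥O) : L) ∈
      (s36i_VA O hπ (N' * q) q).nonunits)
    (hfB : f - algebraMap L ↥(lg_E L (N' * q * q)) (((kB : (↥O)ˣ) : ↥O) : L) ∈
      (s36i_VB O hπ N' q hq2 hqN').nonunits)
    (hfC : f - algebraMap L ↥(lg_E L (N' * q * q)) (((kC : (↥O)ˣ) : ↥O) : L) ∈ VC.nonunits)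
    (𝔫 : Ideal (fc_chart ↥O ({lg_lamE (N' * q * q)} : Set ↥(lg_E L (N' * q * q)))))
    (h𝔫 : 𝔫.IsMaximal)
    (hπ𝔫 : algebraMap ↥O (fc_chart ↥O ({lg_lamE (N' * q * q)} : Set ↥(lg_E L (N' * q * q))))
      ((q : ℕ) : ↥O) ∈ 𝔫)
    (htwo : (ssm_tp_P (fc_chart ↥O ({lg_lamE (N' * q * q)} : Set ↥(lg_E L (N' * q * q))))
          (s36i_VA O hπ (N' * q) q) ≤ 𝔫 ∧
        ssm_tp_P (fc_chart ↥O ({lg_lamE (N' * q * q)} : Set ↥(lg_E L (N' * q * q))))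
          (s36i_VB O hπ N' q hq2 hqN') ≤ 𝔫) ∨
      (ssm_tp_P (fc_chart ↥O ({lg_lamE (N' * q * q)} : Set ↥(lg_E L (N' * q * q))))
          (s36i_VA O hπ (N' * q) q) ≤ 𝔫 ∧
        ssm_tp_P (fc_chart ↥O ({lg_lamE (N' * q * q)} : Set ↥(lg_E L (N' * q * q)))) VC ≤ 𝔫) ∨
      (ssm_tp_P (fc_chart ↥O ({lg_lamE (N' * q * q)} : Set ↥(lg_E L (N' * q * q))))
          (s36i_VB O hπ N' q hq2 hqN') ≤ 𝔫 ∧
        ssm_tp_P (fc_chart ↥O ({lg_lamE (N' * q * q)} : Set ↥(lg_E L (N' * q * q)))) VC ≤ 𝔫)) :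
    haveI := s36cp_chart_isFractionRing O (N' * q * q)
    haveI := h𝔫.isPrime
    ∃ cCB cAC : (ssl_locSub ↥(lg_E L (N' * q * q)) 𝔫)ˣ,
      m59tl_Ratio
        (𝔫.map (algebraMap (fc_chart ↥O ({lg_lamE (N' * q * q)} : Set ↥(lg_E L (N' * q * q))))
          (ssl_locSub ↥(lg_E L (N' * q * q)) 𝔫)))
        ((ssm_tp_P (fc_chart ↥O ({lg_lamE (N' * q * q)} : Set ↥(lg_E L (N' * q * q)))) VC).map
          (algebraMap (fc_chart ↥O ({lg_lamE (N' * q * q)} : Set ↥(lg_E L (N' * q * q))))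
            (ssl_locSub ↥(lg_E L (N' * q * q)) 𝔫)))
        ((ssm_tp_P (fc_chart ↥O ({lg_lamE (N' * q * q)} : Set ↥(lg_E L (N' * q * q))))
          (s36i_VB O hπ N' q hq2 hqN')).map
          (algebraMap (fc_chart ↥O ({lg_lamE (N' * q * q)} : Set ↥(lg_E L (N' * q * q))))
            (ssl_locSub ↥(lg_E L (N' * q * q)) 𝔫))) m (f : ↥(lg_E L (N' * q * q))) cCB ∧
      ((m59tl_cst (F0 := ↥(lg_E L (N' * q * q))) 𝔫 kC :
          (ssl_locSub ↥(lg_E L (N' * q * q)) 𝔫)ˣ) : (ssl_locSub ↥(lg_E L (N' * q * q)) 𝔫)) -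
        ((m59tl_cst (F0 := ↥(lg_E L (N' * q * q))) 𝔫 kB :
          (ssl_locSub ↥(lg_E L (N' * q * q)) 𝔫)ˣ) : (ssl_locSub ↥(lg_E L (N' * q * q)) 𝔫)) *
          ((cCB : (ssl_locSub ↥(lg_E L (N' * q * q)) 𝔫)ˣ) :
            (ssl_locSub ↥(lg_E L (N' * q * q)) 𝔫)) ^ m ∈
        𝔫.map (algebraMap (fc_chart ↥O ({lg_lamE (N' * q * q)} : Set ↥(lg_E L (N' * q * q))))
          (ssl_locSub ↥(lg_E L (N' * q * q)) 𝔫)) ∧
      m59tl_Ratio
        (𝔫.map (algebraMap (fc_chart ↥O ({lg_lamE (N' * q * q)} : Set ↥(lg_E L (N' * q * q))))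
          (ssl_locSub ↥(lg_E L (N' * q * q)) 𝔫)))
        ((ssm_tp_P (fc_chart ↥O ({lg_lamE (N' * q * q)} : Set ↥(lg_E L (N' * q * q))))
          (s36i_VA O hπ (N' * q) q)).map
          (algebraMap (fc_chart ↥O ({lg_lamE (N' * q * q)} : Set ↥(lg_E L (N' * q * q))))
            (ssl_locSub ↥(lg_E L (N' * q * q)) 𝔫)))
        ((ssm_tp_P (fc_chart ↥O ({lg_lamE (N' * q * q)} : Set ↥(lg_E L (N' * q * q)))) VC).map
          (algebraMap (fc_chart ↥O ({lg_lamE (N' * q * q)} : Set ↥(lg_E L (N' * q * q))))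
            (ssl_locSub ↥(lg_E L (N' * q * q)) 𝔫))) m (f : ↥(lg_E L (N' * q * q))) cAC ∧
      ((m59tl_cst (F0 := ↥(lg_E L (N' * q * q))) 𝔫 kA :
          (ssl_locSub ↥(lg_E L (N' * q * q)) 𝔫)ˣ) : (ssl_locSub ↥(lg_E L (N' * q * q)) 𝔫)) -
        ((m59tl_cst (F0 := ↥(lg_E L (N' * q * q))) 𝔫 kC :
          (ssl_locSub ↥(lg_E L (N' * q * q)) 𝔫)ˣ) : (ssl_locSub ↥(lg_E L (N' * q * q)) 𝔫)) *
          ((cAC : (ssl_locSub ↥(lg_E L (N' * q * q)) 𝔫)ˣ) :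
            (ssl_locSub ↥(lg_E L (N' * q * q)) 𝔫)) ^ m ∈
        𝔫.map (algebraMap (fc_chart ↥O ({lg_lamE (N' * q * q)} : Set ↥(lg_E L (N' * q * q))))
          (ssl_locSub ↥(lg_E L (N' * q * q)) 𝔫)) := by
  haveI := s36cp_chart_isFractionRing O (N' * q * q)
  haveI := h𝔫.isPrime
  have hfk : ∀ j, f - algebraMap L ↥(lg_E L (N' * q * q))
      ((((![kA, kB, kC] : Fin 3 → (↥O)ˣ) j : (↥O)ˣ) : ↥O) : L) ∈
      ((![s36i_VA O hπ (N' * q) q, s36i_VB O hπ N' q hq2 hqN', VC] :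
        Fin 3 → ValuationSubring ↥(lg_E L (N' * q * q))) j).nonunits := by
    intro j
    fin_cases j
    · exact hfA
    · exact hfB
    · exact hfC
  obtain ⟨c, hc⟩ := m59tx2_ratio_leg_all L O N' q hq2 hqN' hπ ζ hζ T3 hm hf0 hord
    ![kA, kB, kC] hfk 𝔫 h𝔫 hπ𝔫 htwo
  exact ⟨c 2 1, c 0 2, (hc 2 1).1, (hc 2 1).2, (hc 0 2).1, (hc 0 2).2⟩

end Leg

end Fermat.Agent.M59
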