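/-
M59 / Sink B, leaf 4 [TOR-SURJ], cell [GLUE2] (helper3).  Prefix `m59ti_`.

THE GLUING THEOREM WITH THE TORIC DATUM AS HYPOTHESIS (no norms), in the generic setting of
`s36g_locAt_ff` / `s36g_glue` (S36/Glue/Main.lean, HlocAll.lean): `O` a DVR of `L`, `F0 / L(x)` a
function field with the two charts `fc_chart O {x}`, `fc_chart O {x⁻¹}`, three vertical valuations
`VA VB VC` (`s36tp_Hyp`), every closed point of the special fibre a one-branch point, a weak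
one-component point or a triple point.

`f ≠ 0`, `f ≡ 1` at `VA, VB, VC`, `m ∣ ord_P f` for every place `P`, and AT EVERY TRIPLE POINT the
toric datum of `f` is trivial: `m59tl_Ratio (𝔫R) (P_C R) (P_B R) m f 1` and
`m59tl_Ratio (𝔫R) (P_A R) (P_C R) m f 1`.  Then `f ^ (q² · D1 · q) = c · g ^ m`
(`m59ti_glue`), hence `f = c' · g' ^ m` when `m` is prime to `q` and `D1` (`m59ti_glue_root`).

* `m59ti_locAt_one`, `m59ti_locAt_weak`, `m59ti_locAt_tri` : the local hypothesis of `sfc_main` for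
  `f ^ (q² · D1)` at a point of each kind (sharp forms: exponent of `f` is ONE);
* `m59ti_locAt_pt`, `m59ti_locAt_ff` : the assembly on the two charts;
* `m59ti_glue` : the global step (`s36c_glue_global` at `F₁ := f`, `K := 1`).
-/
import Mathlib
import Fermat.Agent.S36.Glue.HlocAll
import Fermat.Agent.M59.SinkB.GlueTriSharp
import Fermat.Agent.M59.SinkB.Tor.Local

set_option autoImplicit false
set_option linter.unusedSectionVars false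
set_option linter.unusedVariables false
set_option linter.style.haveILetI false

namespace Fermat.Agent.M59

open Fermat.Agent.SS Fermat.Agent.JT3 Fermat.Agent.S35 Fermat.Agent.S36 AlgebraicCurve
  IntermediateField

universe v

section ChartPt

variable {A0 : Type*} [CommRing A0] {F0 : Type v} [Field F0] [Algebra A0 F0]
variable {B : Subalgebra A0 F0} [IsFractionRing B F0] [IsNoetherianRing B] [IsIntegrallyClosed B]

/-- a prime of the local ring is the extension of its trace on `B`. -/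
theorem m59ti_map_comap (𝔫 : Ideal B) [h𝔫 : 𝔫.IsPrime] (J : Ideal (ssl_locSub F0 𝔫)) :
    Ideal.map (algebraMap B (ssl_locSub F0 𝔫))
      (J.comap (algebraMap B (ssl_locSub F0 𝔫))) = J :=
  IsLocalization.map_comap 𝔫.primeCompl (ssl_locSub F0 𝔫) J

/-- **sharp clause, ONE-BRANCH point**: `f ≡ 1` at the vertical valuations, `m ∣` the horizontal
orders ⟹ the local hypothesis of `sfc_main` for `f ^ (q ²)`. -/
theorem m59ti_locAt_one (π : A0) (hϖ0 : algebraMap A0 F0 π ≠ 0) {p : ℕ} (hq : (p + 1).Prime)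
    (hqπ : π ∣ ((p + 1 : ℕ) : A0)) (V : Fin 3 → ValuationSubring F0) (P : Fin 3 → Ideal B)
    (hPp : ∀ i, (P i).IsPrime) (hϖP : ∀ i, algebraMap A0 B π ∈ P i)
    (hPle : ∀ Q : Ideal B, Q.IsPrime → algebraMap A0 B π ∈ Q → ∃ i, P i ≤ Q)
    (hBV : ∀ i (b : B), (b : F0) ∈ V i)
    (hP : ∀ i (b : B), b ∈ P i ↔ (b : F0) ∈ (V i).nonunits)
    (hV : ∀ i, ∀ z ∈ V i, ∃ t : B, t ∉ P i ∧ (t : F0) * z ∈ B)
    (𝔫 : Ideal B) [h𝔫 : 𝔫.IsPrime] (hπ𝔫 : algebraMap A0 B π ∈ 𝔫)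
    (hpt : s36g_PtOne π (p + 1) B 𝔫) {m : ℕ} (hm : 0 < m)
    {f : F0} (hf0 : f ≠ 0) (hf1 : ∀ i, f - 1 ∈ (V i).nonunits)
    (hdiv : ∀ 𝔮 : Ideal (ssl_locSub F0 𝔫),
      ssl_Horiz (algebraMap B (ssl_locSub F0 𝔫) (algebraMap A0 B π)) 𝔮 →
        ∃ G : F0, G ≠ 0 ∧ ssl_UnitAt F0 𝔮 (f / G ^ m)) :
    ∃ (b1 : B) (h : F0), b1 ∉ 𝔫 ∧ h ^ m * f ^ (p + 1) ^ 2 ∈ B ∧
      h - (b1 : F0) ∈ sfc_piO B.toSubring (algebraMap A0 F0 π) := by
  obtain ⟨hufd, u, e, he, heq, hu, hassoc, hic⟩ := hpt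
  haveI := hufd
  have hprime : (Ideal.span {u}).IsPrime := (Ideal.span_singleton_prime hu.ne_zero).2 hu
  have hϖB0 : algebraMap A0 B π ≠ 0 := by
    intro h0
    apply hϖ0
    have : ((algebraMap A0 B π : B) : F0) = 0 := by rw [h0]; rfl
    exact this
  have huϖ : u ∣ algebraMap B (ssl_locSub F0 𝔫) (algebraMap A0 B π) :=
    (dvd_pow_self u he).trans hassoc.symm.dvd
  obtain ⟨i, hi⟩ := s36g_exists_link 𝔫 P hPp (algebraMap A0 B π) hϖB0 hϖP hPle u hu huϖ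
  have hf1u : s36g_MemM (Ideal.span {u}) (f - 1) :=
    s36g_memM_of_nonunits 𝔫 (V i) (P i) (hBV i) (hP i) (hV i) u hi (hf1 i)
  have h1u : ssl_UnitAt F0 (Ideal.span {u}) (1 : F0) := ssl_unitAt_one (Ideal.span {u})
  have hκ : s36g_MemM (Ideal.span {u}) ((1 : F0) - (((1 : ssl_locSub F0 𝔫)) : F0)) :=
    ⟨0, 1, Ideal.zero_mem _, fun hc => hprime.ne_top ((Ideal.eq_top_iff_one _).2 hc), by
      have : (((1 : ssl_locSub F0 𝔫)) : F0) = 1 := rfl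
      rw [this, sub_self, zero_mul, map_zero]⟩
  have key := s36g_hloc_one_tw π hϖ0 𝔫 hπ𝔫 hq (s36g_dvd_natCast 𝔫 hqπ) u e he hu hassoc hic m hm
    hf0 hdiv hf1u h1u 1 hκ 1 2 heq
  rwa [pow_one, one_pow, mul_one] at key

/-- **sharp clause, WEAK one-component point.** -/
theorem m59ti_locAt_weak (π : A0) {p : ℕ} (V : Fin 3 → ValuationSubring F0) (P : Fin 3 → Ideal B)
    (hPp : ∀ i, (P i).IsPrime) (hϖP : ∀ i, algebraMap A0 B π ∈ P i)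
    (hPle : ∀ Q : Ideal B, Q.IsPrime → algebraMap A0 B π ∈ Q → ∃ i, P i ≤ Q)
    (hBV : ∀ i (b : B), (b : F0) ∈ V i)
    (hP : ∀ i (b : B), b ∈ P i ↔ (b : F0) ∈ (V i).nonunits)
    (hV : ∀ i, ∀ z ∈ V i, ∃ t : B, t ∉ P i ∧ (t : F0) * z ∈ B) (D1 : ℕ)
    (𝔫 : Ideal B) [h𝔫 : 𝔫.IsPrime] (hpt : s36g_PtWeak π (p + 1) D1 B 𝔫) {m : ℕ}
    (hqm : ¬ (p + 1) ∣ m) {f : F0} (hf0 : f ≠ 0) (hf1 : ∀ i, f - 1 ∈ (V i).nonunits)
    (hdiv : ∀ 𝔮 : Ideal (ssl_locSub F0 𝔫),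
      ssl_Horiz (algebraMap B (ssl_locSub F0 𝔫) (algebraMap A0 B π)) 𝔮 →
        ∃ G : F0, G ≠ 0 ∧ ssl_UnitAt F0 𝔮 (f / G ^ m)) :
    ∃ (b1 : B) (h : F0), b1 ∉ 𝔫 ∧ h ^ m * f ^ ((p + 1) ^ 2 * D1) ∈ B ∧
      h - (b1 : F0) ∈ sfc_piO B.toSubring (algebraMap A0 F0 π) := by
  obtain ⟨QC, hQCp, hϖQ, hmin, hW⟩ := hpt
  obtain ⟨i, hi⟩ := s36g_exists_link_min 𝔫 P hPp (algebraMap A0 B π) hϖP hPle QC hϖQ hmin
  have hfM : s36g_MemM QC (f - 1) :=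
    s36g_memM_of_nonunits' 𝔫 (V i) (P i) (hBV i) (hP i) (hV i) QC hi (hf1 i)
  have h1 := hW m hqm f hf0 hdiv hfM
  have h2 := s36g_hloc_pow π 𝔫 h1 ((p + 1) ^ 2)
  rwa [← pow_mul, mul_comm] at h2

/-- **sharp clause, TRIPLE point**: the toric datum of `f` at the point is trivial. -/
theorem m59ti_locAt_tri (π : A0) (hϖ0 : algebraMap A0 F0 π ≠ 0) {p : ℕ} (hq : (p + 1).Prime)
    (hqπ : π ∣ ((p + 1 : ℕ) : A0)) (V : Fin 3 → ValuationSubring F0) (P : Fin 3 → Ideal B)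
    (hPinj : ∀ i j, P i = P j → i = j)
    (hBV : ∀ i (b : B), (b : F0) ∈ V i)
    (hP : ∀ i (b : B), b ∈ P i ↔ (b : F0) ∈ (V i).nonunits)
    (hV : ∀ i, ∀ z ∈ V i, ∃ t : B, t ∉ P i ∧ (t : F0) * z ∈ B)
    {N1 N2 : F0 →* F0} {K1 K2 : Subfield F0}
    (𝔫 : Ideal B) [h𝔫 : 𝔫.IsPrime] (hπ𝔫 : algebraMap A0 B π ∈ 𝔫)
    (hpt : s36g_PtTri π p N1 N2 K1 K2 B (P 0) (P 1) (P 2) 𝔫) {m : ℕ} (hm : 0 < m)
    {f : F0} (hf0 : f ≠ 0) (hf1 : ∀ i, f - 1 ∈ (V i).nonunits)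
    (hdiv : ∀ 𝔮 : Ideal (ssl_locSub F0 𝔫),
      ssl_Horiz (algebraMap B (ssl_locSub F0 𝔫) (algebraMap A0 B π)) 𝔮 →
        ∃ G : F0, G ≠ 0 ∧ ssl_UnitAt F0 𝔮 (f / G ^ m))
    (hCB : m59tl_Ratio (𝔫.map (algebraMap B (ssl_locSub F0 𝔫)))
      ((P 2).map (algebraMap B (ssl_locSub F0 𝔫))) ((P 1).map (algebraMap B (ssl_locSub F0 𝔫)))
      m f 1)
    (hAC : m59tl_Ratio (𝔫.map (algebraMap B (ssl_locSub F0 𝔫)))
      ((P 0).map (algebraMap B (ssl_locSub F0 𝔫))) ((P 2).map (algebraMap B (ssl_locSub F0 𝔫)))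
      m f 1) :
    ∃ (b1 : B) (h : F0), b1 ∉ 𝔫 ∧ h ^ m * f ^ (p + 1) ^ 2 ∈ B ∧
      h - (b1 : F0) ∈ sfc_piO B.toSubring (algebraMap A0 F0 π) := by
  obtain ⟨hufd, a, b, c, ha, hb, hc, hassoc, hab, hac, hbc, hcA, hcB, hcC, -, -, -, -, -, -⟩ := hpt
  haveI := hufd
  haveI : IsLocalRing (ssl_locSub F0 𝔫) := ssl_loc_isLocalRing 𝔫
  haveI : IsNoetherianRing (ssl_locSub F0 𝔫) := ssl_loc_isNoetherianRing 𝔫
  haveI : IsIntegrallyClosed (ssl_locSub F0 𝔫) := ssl_loc_isIntegrallyClosed 𝔫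
  have hmax : 𝔫.map (algebraMap B (ssl_locSub F0 𝔫)) =
      IsLocalRing.maximalIdeal (ssl_locSub F0 𝔫) :=
    IsLocalization.AtPrime.map_eq_maximalIdeal 𝔫 (ssl_locSub F0 𝔫)
  -- the links
  have lA : s36g_Link (F := F0) a (V 0) :=
    s36g_link_of_comap 𝔫 (V 0) (P 0) (hBV 0) (hP 0) (hV 0) a ha hcA
  have lB : s36g_Link (F := F0) b (V 1) :=
    s36g_link_of_comap 𝔫 (V 1) (P 1) (hBV 1) (hP 1) (hV 1) b hb hcB
  have lC : s36g_Link (F := F0) c (V 2) :=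
    s36g_link_of_comap 𝔫 (V 2) (P 2) (hBV 2) (hP 2) (hV 2) c hc hcC
  -- the branches
  set u : Fin 3 → ssl_locSub F0 𝔫 := ![a, b, c] with hudef
  set e : Fin 3 → ℕ := ![1, 1, p] with hedef
  have hu : ∀ j, Prime (u j) := s36g_forall_fin3 ha hb hc
  have hlink : ∀ j, s36g_Link (F := F0) (u j) (V j) := s36g_forall_fin3 lA lB lC
  have hcomap : ∀ j, (Ideal.span {u j}).comap (algebraMap B (ssl_locSub F0 𝔫)) = P j :=
    s36g_forall_fin3 hcA hcB hcC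
  have hmapP : ∀ j, (P j).map (algebraMap B (ssl_locSub F0 𝔫)) = Ideal.span {u j} := by
    intro j
    rw [← hcomap j]
    exact m59ti_map_comap 𝔫 _
  have hprime : ∀ j, (Ideal.span {u j}).IsPrime := fun j =>
    (Ideal.span_singleton_prime (hu j).ne_zero).2 (hu j)
  have hna : ∀ i j, i ≠ j → ¬ Associated (u i) (u j) := by
    intro i j hij hass
    apply hij
    apply hPinj
    rw [← hcomap i, ← hcomap j, Ideal.span_singleton_eq_span_singleton.2 hass]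
  have hπ : Associated (algebraMap B (ssl_locSub F0 𝔫) (algebraMap A0 B π))
      (∏ j, u j ^ e j) := by
    have e1 : ∏ j, u j ^ e j = a * b * c ^ p := by
      rw [Fin.prod_univ_three]
      simp [hudef, hedef]
    rw [e1]; exact hassoc
  have ha𝔪 : a ∈ 𝔫.map (algebraMap B (ssl_locSub F0 𝔫)) := by
    rw [hab]; exact Ideal.subset_span (by simp)
  have hb𝔪 : b ∈ 𝔫.map (algebraMap B (ssl_locSub F0 𝔫)) := by
    rw [hab]; exact Ideal.subset_span (by simp)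
  have hc𝔪 : c ∈ 𝔫.map (algebraMap B (ssl_locSub F0 𝔫)) := by
    rw [hac]; exact Ideal.subset_span (by simp)
  have hule : ∀ j, Ideal.span {u j} ≤ 𝔫.map (algebraMap B (ssl_locSub F0 𝔫)) := by
    intro j
    rw [Ideal.span_singleton_le_iff_mem]
    revert j
    exact s36g_forall_fin3 ha𝔪 hb𝔪 hc𝔪
  have hpair : ∀ x y : ssl_locSub F0 𝔫,
      𝔫.map (algebraMap B (ssl_locSub F0 𝔫)) = Ideal.span {x, y} →
      𝔫.map (algebraMap B (ssl_locSub F0 𝔫)) ≤ Ideal.span {x} ⊔ Ideal.span {y} ∧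
        𝔫.map (algebraMap B (ssl_locSub F0 𝔫)) ≤ Ideal.span {y} ⊔ Ideal.span {x} := by
    intro x y h
    have h1 : Ideal.span ({x, y} : Set (ssl_locSub F0 𝔫)) = Ideal.span {x} ⊔ Ideal.span {y} :=
      Ideal.span_insert x {y}
    constructor
    · rw [h, h1]
    · rw [h, h1, sup_comm]
  have htr : ∀ i j, i ≠ j → 𝔫.map (algebraMap B (ssl_locSub F0 𝔫)) ≤
      Ideal.span {u i} ⊔ Ideal.span {u j} := by
    intro i j hij
    fin_cases i <;> fin_cases j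
    · exact absurd rfl hij
    · exact (hpair a b hab).1
    · exact (hpair a c hac).1
    · exact (hpair a b hab).2
    · exact absurd rfl hij
    · exact (hpair b c hbc).1
    · exact (hpair a c hac).2
    · exact (hpair b c hbc).2
    · exact absurd rfl hij
  have hsm : ∀ j, IsIntegrallyClosed (ssl_locSub F0 𝔫 ⧸ Ideal.span {u j}) := by
    have m1 : IsLocalRing.maximalIdeal (ssl_locSub F0 𝔫) = Ideal.span {a, b} := by
      rw [← hmax, hab]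
    have m2 : IsLocalRing.maximalIdeal (ssl_locSub F0 𝔫) = Ideal.span {b, a} := by
      rw [← hmax, hab, Set.pair_comm]
    have m3 : IsLocalRing.maximalIdeal (ssl_locSub F0 𝔫) = Ideal.span {c, a} := by
      rw [← hmax, hac, Set.pair_comm]
    exact s36g_forall_fin3 (s36g_ic_quot_of_span_pair (a := a) (b := b) ha m1)
      (s36g_ic_quot_of_span_pair (a := b) (b := a) hb m2)
      (s36g_ic_quot_of_span_pair (a := c) (b := a) hc m3)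
  have hf1u : ∀ j, s36g_MemM (Ideal.span {u j}) (f - 1) :=
    fun j => (hlink j).memM_iff.2 (hf1 j)
  have hu₀ : ∀ j, ssl_UnitAt F0 (Ideal.span {u j}) (1 : F0) := fun j =>
    haveI := hprime j
    ssl_unitAt_one (Ideal.span {u j})
  have hκ : ∀ j, s36g_MemM (Ideal.span {u j})
      ((1 : F0) - ((((fun _ : Fin 3 => (1 : ssl_locSub F0 𝔫)) j : ssl_locSub F0 𝔫)) : F0)) := by
    intro j
    haveI := hprime j
    have : (((1 : ssl_locSub F0 𝔫)) : F0) = 1 := rfl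
    show s36g_MemM (Ideal.span {u j}) ((1 : F0) - (((1 : ssl_locSub F0 𝔫)) : F0))
    rw [this, sub_self]
    exact s36g_memM_zero _
  rw [hmapP 2, hmapP 1] at hCB
  rw [hmapP 0, hmapP 2] at hAC
  have key := m59sbg_hloc_tri_sharp' π hϖ0 𝔫 hπ𝔫 p hq (s36g_dvd_natCast 𝔫 hqπ) u e rfl rfl rfl hu
    hna hπ htr hsm m hm hf0 hdiv hf1u hu₀ (fun _ => 1) hκ ?_
  · rwa [one_pow, mul_one] at key
  · intro ω g a' hfg hgu hga
    haveI := hprime 0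
    haveI := hprime 1
    haveI := hprime 2
    have h21 : a' 2 - ((1 : (ssl_locSub F0 𝔫)ˣ) : ssl_locSub F0 𝔫) * a' 1 ∈
        𝔫.map (algebraMap B (ssl_locSub F0 𝔫)) :=
      m59tl_ratio_all (𝔫.map (algebraMap B (ssl_locSub F0 𝔫))) (Ideal.span {u 2})
        (Ideal.span {u 1}) (hule 2) (hule 1) hm hCB ω g (a' 2) (a' 1) hfg (hga 2) (hga 1)
    have h02 : a' 0 - ((1 : (ssl_locSub F0 𝔫)ˣ) : ssl_locSub F0 𝔫) * a' 2 ∈
        𝔫.map (algebraMap B (ssl_locSub F0 𝔫)) :=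
      m59tl_ratio_all (𝔫.map (algebraMap B (ssl_locSub F0 𝔫))) (Ideal.span {u 0})
        (Ideal.span {u 2}) (hule 0) (hule 2) hm hAC ω g (a' 0) (a' 2) hfg (hga 0) (hga 2)
    rw [Units.val_one, one_mul] at h21 h02
    have h01 : a' 0 - a' 1 ∈ 𝔫.map (algebraMap B (ssl_locSub F0 𝔫)) := by
      have : a' 0 - a' 1 = (a' 0 - a' 2) + (a' 2 - a' 1) := by ring
      rw [this]
      exact Ideal.add_mem _ h02 h21
    intro j
    simp only [mul_one]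
    revert j
    refine s36g_forall_fin3 h01 ?_ h21
    rw [sub_self]
    exact Ideal.zero_mem _

/-- the trace on `B` of a prime of the local ring lies in the point. -/
theorem m59ti_comap_le (𝔫 : Ideal B) [h𝔫 : 𝔫.IsPrime] (J : Ideal (ssl_locSub F0 𝔫))
    (hJ : J ≠ ⊤) : J.comap (algebraMap B (ssl_locSub F0 𝔫)) ≤ 𝔫 := by
  intro b hb
  by_contra hb𝔫
  have hunit : IsUnit (algebraMap B (ssl_locSub F0 𝔫) b) := ssl_loc_isUnit 𝔫 hb𝔫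
  exact hJ (Ideal.eq_top_of_isUnit_mem _ hb hunit)

end ChartPt

section FF

variable {A0 L : Type*} {F0 : Type v} [CommRing A0] [IsDomain A0] [IsDiscreteValuationRing A0]
  [Field L] [Field F0] [Algebra A0 L] [IsFractionRing A0 L] [CharZero L] [Algebra L F0]
  [Algebra A0 F0] [IsScalarTower A0 L F0]

set_option synthInstance.maxHeartbeats 200000 in
set_option maxHeartbeats 1600000 in
/-- **THE LOCAL HYPOTHESIS OF `sfc_main` AT ONE CLOSED POINT** of the chart `fc_chart A0 {y}` for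
`f ^ (q² · D1)`, `q = p + 1`, from the triviality of the toric datum of `f` at the point when it is a
triple point. -/
theorem m59ti_locAt_pt {π : A0} (hπ : Irreducible π) {y : F0} (hy : Transcendental L y)
    [FiniteDimensional L⟮y⟯ F0] [IsFractionRing ↥(fc_chart A0 ({y} : Set F0)) F0]
    {p : ℕ} (hq : (p + 1).Prime) (hqπ : π ∣ ((p + 1 : ℕ) : A0))
    {V : Fin 3 → ValuationSubring F0} {e : Fin 3 → ℕ}
    (H : s36tp_Hyp (algebraMap A0 (Algebra.adjoin A0 ({y} : Set F0)) π) V e)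
    {N1 N2 : F0 →* F0} {K1 K2 : Subfield F0}
    (D1 : ℕ) {m : ℕ} (hm : IsUnit (m : A0))
    {f : F0} (hf0 : f ≠ 0) (hf1 : ∀ i, f - 1 ∈ (V i).nonunits)
    (hord : ∀ P : Place L F0, (m : ℤ) ∣ P.ord f)
    (𝔫 : Ideal (fc_chart A0 ({y} : Set F0))) (h𝔫 : 𝔫.IsMaximal)
    (hπ𝔫 : algebraMap A0 (fc_chart A0 ({y} : Set F0)) π ∈ 𝔫)
    (hpt : haveI := h𝔫.isPrime
      s36g_PtOne π (p + 1) (fc_chart A0 ({y} : Set F0)) 𝔫 ∨
      s36g_PtWeak π (p + 1) D1 (fc_chart A0 ({y} : Set F0)) 𝔫 ∨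
      s36g_PtTri π p N1 N2 K1 K2 (fc_chart A0 ({y} : Set F0))
        (ssm_tp_P (fc_chart A0 ({y} : Set F0)) (V 0)) (ssm_tp_P (fc_chart A0 ({y} : Set F0)) (V 1))
        (ssm_tp_P (fc_chart A0 ({y} : Set F0)) (V 2)) 𝔫)
    (htor : haveI := h𝔫.isPrime
      ssm_tp_P (fc_chart A0 ({y} : Set F0)) (V 0) ≤ 𝔫 →
      ssm_tp_P (fc_chart A0 ({y} : Set F0)) (V 1) ≤ 𝔫 →
      ssm_tp_P (fc_chart A0 ({y} : Set F0)) (V 2) ≤ 𝔫 →
      m59tl_Ratio (𝔫.map (algebraMap (fc_chart A0 ({y} : Set F0)) (ssl_locSub F0 𝔫)))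
        ((ssm_tp_P (fc_chart A0 ({y} : Set F0)) (V 2)).map
          (algebraMap (fc_chart A0 ({y} : Set F0)) (ssl_locSub F0 𝔫)))
        ((ssm_tp_P (fc_chart A0 ({y} : Set F0)) (V 1)).map
          (algebraMap (fc_chart A0 ({y} : Set F0)) (ssl_locSub F0 𝔫))) m f 1 ∧
      m59tl_Ratio (𝔫.map (algebraMap (fc_chart A0 ({y} : Set F0)) (ssl_locSub F0 𝔫)))
        ((ssm_tp_P (fc_chart A0 ({y} : Set F0)) (V 0)).map
          (algebraMap (fc_chart A0 ({y} : Set F0)) (ssl_locSub F0 𝔫)))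
        ((ssm_tp_P (fc_chart A0 ({y} : Set F0)) (V 2)).map
          (algebraMap (fc_chart A0 ({y} : Set F0)) (ssl_locSub F0 𝔫))) m f 1) :
    ∃ (b1 : fc_chart A0 ({y} : Set F0)) (h : F0), b1 ∉ 𝔫 ∧
      h ^ m * f ^ ((p + 1) ^ 2 * D1) ∈ fc_chart A0 ({y} : Set F0) ∧
      h - (b1 : F0) ∈ sfc_piO (fc_chart A0 ({y} : Set F0)).toSubring (algebraMap A0 F0 π) := by
  haveI h𝔫p : 𝔫.IsPrime := h𝔫.isPrime
  haveI hno := ssm_ths_chart_isNoetherianRing (A0 := A0) (L := L) hy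
  haveI hic := ssm_ths_chart_isIntegrallyClosed (A0 := A0) (L := L) y
  have hyA : Transcendental A0 y := fc_ff_transcendental (L := L) hy
  haveI : IsIntegrallyClosed (Algebra.adjoin A0 ({y} : Set F0)) := fc_ff_isIntegrallyClosed hyA
  haveI : FaithfulSMul (Algebra.adjoin A0 ({y} : Set F0)) F0 :=
    (faithfulSMul_iff_algebraMap_injective _ _).2 Subtype.val_injective
  have hC : ssm_tp_Chart (algebraMap A0 (Algebra.adjoin A0 ({y} : Set F0)) π)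
      (fc_chart A0 ({y} : Set F0)) := ssm_tp_ff_chart (L := L) hπ hy
  have hϖ0 : algebraMap A0 F0 π ≠ 0 := H.algebraMap_ne_zero
  set P : Fin 3 → Ideal (fc_chart A0 ({y} : Set F0)) :=
    fun i => ssm_tp_P (fc_chart A0 ({y} : Set F0)) (V i) with hPdef
  have hPp : ∀ i, (P i).IsPrime := fun i => H.P_isPrime hC i
  have hϖP : ∀ i, algebraMap A0 (fc_chart A0 ({y} : Set F0)) π ∈ P i :=
    fun i => H.pi_mem_P hC _ rfl i
  have hPle : ∀ Q : Ideal (fc_chart A0 ({y} : Set F0)), Q.IsPrime →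
      algebraMap A0 (fc_chart A0 ({y} : Set F0)) π ∈ Q → ∃ i, P i ≤ Q :=
    fun Q hQ hϖQ => by
      haveI := hQ
      exact H.P_le_of_mem hC _ rfl Q hϖQ
  have hPinj : ∀ i j, P i = P j → i = j := fun i j h => H.P_not_le hC (le_of_eq h)
  have hBV : ∀ i (b : fc_chart A0 ({y} : Set F0)), (b : F0) ∈ V i :=
    fun i b => H.chart_le hC i b.2
  have hP : ∀ i (b : fc_chart A0 ({y} : Set F0)), b ∈ P i ↔ (b : F0) ∈ (V i).nonunits :=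
    fun i b => H.mem_P hC i
  have hV : ∀ i, ∀ z ∈ V i, ∃ t : fc_chart A0 ({y} : Set F0), t ∉ P i ∧
      (t : F0) * z ∈ fc_chart A0 ({y} : Set F0) := fun i z hz => (H.mem_V_iff hC i).1 hz
  have hm0 : 0 < m := by
    rcases Nat.eq_zero_or_pos m with h0 | h0
    · exfalso
      rw [h0, Nat.cast_zero] at hm
      exact not_isUnit_zero hm
    · exact h0
  have hqm : ¬ (p + 1) ∣ m := by
    intro hd
    apply hπ.not_isUnit
    have h1 : ((p + 1 : ℕ) : A0) ∣ (m : A0) := Nat.cast_dvd_cast hd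
    exact isUnit_of_dvd_unit (hqπ.trans h1) hm
  haveI := ssl_loc_isNoetherianRing (F0 := F0) 𝔫
  haveI := ssl_loc_isIntegrallyClosed (F0 := F0) 𝔫
  have hdiv : ∀ 𝔮 : Ideal (ssl_locSub F0 𝔫),
      ssl_Horiz (algebraMap (fc_chart A0 ({y} : Set F0)) (ssl_locSub F0 𝔫)
        (algebraMap A0 (fc_chart A0 ({y} : Set F0)) π)) 𝔮 →
        ∃ G : F0, G ≠ 0 ∧ ssl_UnitAt F0 𝔮 (f / G ^ m) :=
    fun 𝔮 h𝔮 => ssl_hdiv_of_places (K := L) (R := ssl_locSub F0 𝔫) hπ hf0 m hord 𝔮 h𝔮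
  rcases hpt with hpt | hpt | hpt
  · have h := m59ti_locAt_one π hϖ0 hq hqπ V P hPp hϖP hPle hBV hP hV 𝔫 hπ𝔫 hpt hm0 hf0 hf1 hdiv
    have h2 := s36g_hloc_pow π 𝔫 h D1
    rwa [← pow_mul] at h2
  · exact m59ti_locAt_weak π V P hPp hϖP hPle hBV hP hV D1 𝔫 hpt hqm hf0 hf1 hdiv
  · have hle : ∀ j, P j ≤ 𝔫 := by
      obtain ⟨-, a, b, c, ha, hb, hc, -, -, -, -, hcA, hcB, hcC, -⟩ := hpt
      have hne : ∀ {t : ssl_locSub F0 𝔫}, Prime t → Ideal.span {t} ≠ ⊤ := fun ht =>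
        ((Ideal.span_singleton_prime ht.ne_zero).2 ht).ne_top
      refine s36g_forall_fin3 ?_ ?_ ?_
      · show ssm_tp_P (fc_chart A0 ({y} : Set F0)) (V 0) ≤ 𝔫
        rw [← hcA]; exact m59ti_comap_le 𝔫 _ (hne ha)
      · show ssm_tp_P (fc_chart A0 ({y} : Set F0)) (V 1) ≤ 𝔫
        rw [← hcB]; exact m59ti_comap_le 𝔫 _ (hne hb)
      · show ssm_tp_P (fc_chart A0 ({y} : Set F0)) (V 2) ≤ 𝔫
        rw [← hcC]; exact m59ti_comap_le 𝔫 _ (hne hc)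
    obtain ⟨hCB, hAC⟩ := htor (hle 0) (hle 1) (hle 2)
    have h := m59ti_locAt_tri π hϖ0 hq hqπ V P hPinj hBV hP hV 𝔫 hπ𝔫 hpt hm0 hf0 hf1 hdiv hCB hAC
    have h2 := s36g_hloc_pow π 𝔫 h D1
    rwa [← pow_mul] at h2

set_option synthInstance.maxHeartbeats 200000 in
set_option maxHeartbeats 1600000 in
/-- **THE LOCAL HYPOTHESES `hloc1`, `hloc2` OF `sfc_main` ON THE TWO CHARTS** for `f ^ (q² · D1)`. -/
theorem m59ti_locAt_ff {π : A0} (hπ : Irreducible π) {x : F0} (hx : Transcendental L x)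
    [FiniteDimensional L⟮x⟯ F0] [IsFractionRing ↥(fc_chart A0 ({x} : Set F0)) F0]
    [IsFractionRing ↥(fc_chart A0 ({x⁻¹} : Set F0)) F0]
    {p : ℕ} (hq : (p + 1).Prime) (hqπ : π ∣ ((p + 1 : ℕ) : A0))
    {V : Fin 3 → ValuationSubring F0} {e : Fin 3 → ℕ}
    (H : s36tp_Hyp (algebraMap A0 (Algebra.adjoin A0 ({x} : Set F0)) π) V e)
    {N1 N2 : F0 →* F0} {K1 K2 : Subfield F0}
    (D1 : ℕ)
    (hpts : ∀ (𝔫 : Ideal (fc_chart A0 ({x} : Set F0))) (h𝔫 : 𝔫.IsMaximal),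
      algebraMap A0 (fc_chart A0 ({x} : Set F0)) π ∈ 𝔫 →
      (haveI := h𝔫.isPrime
       s36g_PtOne π (p + 1) (fc_chart A0 ({x} : Set F0)) 𝔫 ∨
       s36g_PtWeak π (p + 1) D1 (fc_chart A0 ({x} : Set F0)) 𝔫 ∨
       s36g_PtTri π p N1 N2 K1 K2 (fc_chart A0 ({x} : Set F0))
        (ssm_tp_P (fc_chart A0 ({x} : Set F0)) (V 0)) (ssm_tp_P (fc_chart A0 ({x} : Set F0)) (V 1))
        (ssm_tp_P (fc_chart A0 ({x} : Set F0)) (V 2)) 𝔫))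
    (hinf : ∀ (𝔫 : Ideal (fc_chart A0 ({x⁻¹} : Set F0))) (h𝔫 : 𝔫.IsMaximal),
      algebraMap A0 (fc_chart A0 ({x⁻¹} : Set F0)) π ∈ 𝔫 →
      (⟨x⁻¹, fc_x_mem_chart x⁻¹⟩ : fc_chart A0 ({x⁻¹} : Set F0)) ∈ 𝔫 →
      (haveI := h𝔫.isPrime
       s36g_PtOne π (p + 1) (fc_chart A0 ({x⁻¹} : Set F0)) 𝔫 ∨
       s36g_PtWeak π (p + 1) D1 (fc_chart A0 ({x⁻¹} : Set F0)) 𝔫 ∨
       s36g_PtTri π p N1 N2 K1 K2 (fc_chart A0 ({x⁻¹} : Set F0))
        (ssm_tp_P (fc_chart A0 ({x⁻¹} : Set F0)) (V 0))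
        (ssm_tp_P (fc_chart A0 ({x⁻¹} : Set F0)) (V 1))
        (ssm_tp_P (fc_chart A0 ({x⁻¹} : Set F0)) (V 2)) 𝔫))
    {m : ℕ} (hm : IsUnit (m : A0))
    {f : F0} (hf0 : f ≠ 0) (hf1 : ∀ i, f - 1 ∈ (V i).nonunits)
    (hord : ∀ P : Place L F0, (m : ℤ) ∣ P.ord f)
    (htor1 : ∀ (𝔫 : Ideal (fc_chart A0 ({x} : Set F0))) (h𝔫 : 𝔫.IsMaximal),
      algebraMap A0 (fc_chart A0 ({x} : Set F0)) π ∈ 𝔫 →
      ssm_tp_P (fc_chart A0 ({x} : Set F0)) (V 0) ≤ 𝔫 →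
      ssm_tp_P (fc_chart A0 ({x} : Set F0)) (V 1) ≤ 𝔫 →
      ssm_tp_P (fc_chart A0 ({x} : Set F0)) (V 2) ≤ 𝔫 →
      (haveI := h𝔫.isPrime
       m59tl_Ratio (𝔫.map (algebraMap (fc_chart A0 ({x} : Set F0)) (ssl_locSub F0 𝔫)))
        ((ssm_tp_P (fc_chart A0 ({x} : Set F0)) (V 2)).map
          (algebraMap (fc_chart A0 ({x} : Set F0)) (ssl_locSub F0 𝔫)))
        ((ssm_tp_P (fc_chart A0 ({x} : Set F0)) (V 1)).map
          (algebraMap (fc_chart A0 ({x} : Set F0)) (ssl_locSub F0 𝔫))) m f 1 ∧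
       m59tl_Ratio (𝔫.map (algebraMap (fc_chart A0 ({x} : Set F0)) (ssl_locSub F0 𝔫)))
        ((ssm_tp_P (fc_chart A0 ({x} : Set F0)) (V 0)).map
          (algebraMap (fc_chart A0 ({x} : Set F0)) (ssl_locSub F0 𝔫)))
        ((ssm_tp_P (fc_chart A0 ({x} : Set F0)) (V 2)).map
          (algebraMap (fc_chart A0 ({x} : Set F0)) (ssl_locSub F0 𝔫))) m f 1))
    (htor2 : ∀ (𝔫 : Ideal (fc_chart A0 ({x⁻¹} : Set F0))) (h𝔫 : 𝔫.IsMaximal),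
      algebraMap A0 (fc_chart A0 ({x⁻¹} : Set F0)) π ∈ 𝔫 →
      (⟨x⁻¹, fc_x_mem_chart x⁻¹⟩ : fc_chart A0 ({x⁻¹} : Set F0)) ∈ 𝔫 →
      ssm_tp_P (fc_chart A0 ({x⁻¹} : Set F0)) (V 0) ≤ 𝔫 →
      ssm_tp_P (fc_chart A0 ({x⁻¹} : Set F0)) (V 1) ≤ 𝔫 →
      ssm_tp_P (fc_chart A0 ({x⁻¹} : Set F0)) (V 2) ≤ 𝔫 →
      (haveI := h𝔫.isPrime
       m59tl_Ratio (𝔫.map (algebraMap (fc_chart A0 ({x⁻¹} : Set F0)) (ssl_locSub F0 𝔫)))
        ((ssm_tp_P (fc_chart A0 ({x⁻¹} : Set F0)) (V 2)).map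
          (algebraMap (fc_chart A0 ({x⁻¹} : Set F0)) (ssl_locSub F0 𝔫)))
        ((ssm_tp_P (fc_chart A0 ({x⁻¹} : Set F0)) (V 1)).map
          (algebraMap (fc_chart A0 ({x⁻¹} : Set F0)) (ssl_locSub F0 𝔫))) m f 1 ∧
       m59tl_Ratio (𝔫.map (algebraMap (fc_chart A0 ({x⁻¹} : Set F0)) (ssl_locSub F0 𝔫)))
        ((ssm_tp_P (fc_chart A0 ({x⁻¹} : Set F0)) (V 0)).map
          (algebraMap (fc_chart A0 ({x⁻¹} : Set F0)) (ssl_locSub F0 𝔫)))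
        ((ssm_tp_P (fc_chart A0 ({x⁻¹} : Set F0)) (V 2)).map
          (algebraMap (fc_chart A0 ({x⁻¹} : Set F0)) (ssl_locSub F0 𝔫))) m f 1)) :
    tori_LocAt π m (f ^ ((p + 1) ^ 2 * D1)) (fc_chart A0 ({x} : Set F0)) ∧
      tori_LocAt π m (f ^ ((p + 1) ^ 2 * D1)) (fc_chart A0 ({x⁻¹} : Set F0)) := by
  have hx0 : x ≠ 0 := by
    rintro rfl
    exact hx isAlgebraic_zero
  have hxi : Transcendental L x⁻¹ := fun h => hx (IsAlgebraic.inv_iff.mp h)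
  haveI hfd2 : FiniteDimensional L⟮x⁻¹⟯ F0 := by
    rw [rt_adjoin_inv]; infer_instance
  have hm0 : m ≠ 0 := by
    rintro rfl
    rw [Nat.cast_zero] at hm
    exact not_isUnit_zero hm
  have h1 : tori_LocAt π m (f ^ ((p + 1) ^ 2 * D1)) (fc_chart A0 ({x} : Set F0)) :=
    fun 𝔫 h𝔫 hπ𝔫 =>
      m59ti_locAt_pt (L := L) hπ hx hq hqπ H D1 hm hf0 hf1 hord 𝔫 h𝔫 hπ𝔫 (hpts 𝔫 h𝔫 hπ𝔫)
        (fun hA hB hC => htor1 𝔫 h𝔫 hπ𝔫 hA hB hC)
  refine ⟨h1, ?_⟩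
  have H' := s36tp_ff_hyp_inv (L := L) hπ hx H
  exact s35ti_locAt_chart2 π hx0 (sfc_ff_mem_S (L := L) hπ hx) (sfc_ff_mem_S (L := L) hπ hxi) m hm0
    _ h1 fun 𝔫 h𝔫 hπ𝔫 hxn =>
      m59ti_locAt_pt (L := L) hπ hxi hq hqπ H' D1 hm hf0 hf1 hord 𝔫 h𝔫 hπ𝔫 (hinf 𝔫 h𝔫 hπ𝔫 hxn)
        (fun hA hB hC => htor2 𝔫 h𝔫 hπ𝔫 hxn hA hB hC)

end FF

section Glue

variable {L : Type*} [Field L] [CharZero L] {F0 : Type v} [Field F0] [Algebra L F0]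

set_option synthInstance.maxHeartbeats 200000 in
set_option maxHeartbeats 1600000 in
/-- **[GLUE2], generic form**: `f ≡ 1` at the three vertical valuations, `m ∣` all horizontal
orders, trivial toric datum at every triple point ⟹ `f ^ (q² · D1 · q) = c · g ^ m`. -/
theorem m59ti_glue (O : ValuationSubring L) [IsDiscreteValuationRing ↥O] [Algebra ↥O F0]
    [IsScalarTower ↥O L F0] {π : ↥O} (hπ : Irreducible π) {x : F0} (hx : Transcendental L x)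
    [FiniteDimensional L⟮x⟯ F0] [IsFractionRing ↥(fc_chart ↥O ({x} : Set F0)) F0]
    [IsFractionRing ↥(fc_chart ↥O ({x⁻¹} : Set F0)) F0]
    (hconst : ∀ z : F0, IsAlgebraic L z → z ∈ (algebraMap L F0).range)
    {q : ℕ} (hq : q.Prime) (hqπ : π ∣ ((q : ℕ) : ↥O))
    {VA VB VC : ValuationSubring F0} {e : Fin 3 → ℕ}
    (H : s36tp_Hyp (algebraMap ↥O (Algebra.adjoin ↥O ({x} : Set F0)) π) ![VA, VB, VC] e)
    (he : ∀ i, e i ≤ q)
    {N1 N2 : F0 →* F0} {K1 K2 : Subfield F0} (D1 : ℕ)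
    (hpts : ∀ (𝔫 : Ideal (fc_chart ↥O ({x} : Set F0))) (h𝔫 : 𝔫.IsMaximal),
      algebraMap ↥O (fc_chart ↥O ({x} : Set F0)) π ∈ 𝔫 →
      (haveI := h𝔫.isPrime
       s36g_PtOne π q (fc_chart ↥O ({x} : Set F0)) 𝔫 ∨
       s36g_PtWeak π q D1 (fc_chart ↥O ({x} : Set F0)) 𝔫 ∨
       s36g_PtTri π (q - 1) N1 N2 K1 K2 (fc_chart ↥O ({x} : Set F0))
        (ssm_tp_P (fc_chart ↥O ({x} : Set F0)) VA) (ssm_tp_P (fc_chart ↥O ({x} : Set F0)) VB)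
        (ssm_tp_P (fc_chart ↥O ({x} : Set F0)) VC) 𝔫))
    (hinf : ∀ (𝔫 : Ideal (fc_chart ↥O ({x⁻¹} : Set F0))) (h𝔫 : 𝔫.IsMaximal),
      algebraMap ↥O (fc_chart ↥O ({x⁻¹} : Set F0)) π ∈ 𝔫 →
      (⟨x⁻¹, fc_x_mem_chart x⁻¹⟩ : fc_chart ↥O ({x⁻¹} : Set F0)) ∈ 𝔫 →
      (haveI := h𝔫.isPrime
       s36g_PtOne π q (fc_chart ↥O ({x⁻¹} : Set F0)) 𝔫 ∨
       s36g_PtWeak π q D1 (fc_chart ↥O ({x⁻¹} : Set F0)) 𝔫 ∨
       s36g_PtTri π (q - 1) N1 N2 K1 K2 (fc_chart ↥O ({x⁻¹} : Set F0))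
        (ssm_tp_P (fc_chart ↥O ({x⁻¹} : Set F0)) VA) (ssm_tp_P (fc_chart ↥O ({x⁻¹} : Set F0)) VB)
        (ssm_tp_P (fc_chart ↥O ({x⁻¹} : Set F0)) VC) 𝔫))
    {m : ℕ} (hm : IsUnit ((m : ℕ) : ↥O))
    {f : F0} (hf0 : f ≠ 0) (hfA : f - 1 ∈ VA.nonunits) (hfB : f - 1 ∈ VB.nonunits)
    (hfC : f - 1 ∈ VC.nonunits)
    (hord : ∀ P : Place L F0, (m : ℤ) ∣ P.ord f)
    (htor1 : ∀ (𝔫 : Ideal (fc_chart ↥O ({x} : Set F0))) (h𝔫 : 𝔫.IsMaximal),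
      algebraMap ↥O (fc_chart ↥O ({x} : Set F0)) π ∈ 𝔫 →
      ssm_tp_P (fc_chart ↥O ({x} : Set F0)) VA ≤ 𝔫 →
      ssm_tp_P (fc_chart ↥O ({x} : Set F0)) VB ≤ 𝔫 →
      ssm_tp_P (fc_chart ↥O ({x} : Set F0)) VC ≤ 𝔫 →
      (haveI := h𝔫.isPrime
       m59tl_Ratio (𝔫.map (algebraMap (fc_chart ↥O ({x} : Set F0)) (ssl_locSub F0 𝔫)))
        ((ssm_tp_P (fc_chart ↥O ({x} : Set F0)) VC).map
          (algebraMap (fc_chart ↥O ({x} : Set F0)) (ssl_locSub F0 𝔫)))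
        ((ssm_tp_P (fc_chart ↥O ({x} : Set F0)) VB).map
          (algebraMap (fc_chart ↥O ({x} : Set F0)) (ssl_locSub F0 𝔫))) m f 1 ∧
       m59tl_Ratio (𝔫.map (algebraMap (fc_chart ↥O ({x} : Set F0)) (ssl_locSub F0 𝔫)))
        ((ssm_tp_P (fc_chart ↥O ({x} : Set F0)) VA).map
          (algebraMap (fc_chart ↥O ({x} : Set F0)) (ssl_locSub F0 𝔫)))
        ((ssm_tp_P (fc_chart ↥O ({x} : Set F0)) VC).map
          (algebraMap (fc_chart ↥O ({x} : Set F0)) (ssl_locSub F0 𝔫))) m f 1))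
    (htor2 : ∀ (𝔫 : Ideal (fc_chart ↥O ({x⁻¹} : Set F0))) (h𝔫 : 𝔫.IsMaximal),
      algebraMap ↥O (fc_chart ↥O ({x⁻¹} : Set F0)) π ∈ 𝔫 →
      (⟨x⁻¹, fc_x_mem_chart x⁻¹⟩ : fc_chart ↥O ({x⁻¹} : Set F0)) ∈ 𝔫 →
      ssm_tp_P (fc_chart ↥O ({x⁻¹} : Set F0)) VA ≤ 𝔫 →
      ssm_tp_P (fc_chart ↥O ({x⁻¹} : Set F0)) VB ≤ 𝔫 →
      ssm_tp_P (fc_chart ↥O ({x⁻¹} : Set F0)) VC ≤ 𝔫 →
      (haveI := h𝔫.isPrime
       m59tl_Ratio (𝔫.map (algebraMap (fc_chart ↥O ({x⁻¹} : Set F0)) (ssl_locSub F0 𝔫)))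
        ((ssm_tp_P (fc_chart ↥O ({x⁻¹} : Set F0)) VC).map
          (algebraMap (fc_chart ↥O ({x⁻¹} : Set F0)) (ssl_locSub F0 𝔫)))
        ((ssm_tp_P (fc_chart ↥O ({x⁻¹} : Set F0)) VB).map
          (algebraMap (fc_chart ↥O ({x⁻¹} : Set F0)) (ssl_locSub F0 𝔫))) m f 1 ∧
       m59tl_Ratio (𝔫.map (algebraMap (fc_chart ↥O ({x⁻¹} : Set F0)) (ssl_locSub F0 𝔫)))
        ((ssm_tp_P (fc_chart ↥O ({x⁻¹} : Set F0)) VA).map
          (algebraMap (fc_chart ↥O ({x⁻¹} : Set F0)) (ssl_locSub F0 𝔫)))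
        ((ssm_tp_P (fc_chart ↥O ({x⁻¹} : Set F0)) VC).map
          (algebraMap (fc_chart ↥O ({x⁻¹} : Set F0)) (ssl_locSub F0 𝔫))) m f 1)) :
    ∃ (c : ↥O) (g : F0), g ≠ 0 ∧ f ^ (q ^ 2 * D1 * q) = algebraMap ↥O F0 c * g ^ m := by
  obtain ⟨p, rfl⟩ : ∃ p, q = p + 1 := ⟨q - 1, (Nat.sub_add_cancel hq.one_le).symm⟩
  have ep : p + 1 - 1 = p := rfl
  rw [ep] at hpts hinf
  have hx0 : x ≠ 0 := by
    rintro rfl
    exact hx isAlgebraic_zero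
  have hxi : Transcendental L x⁻¹ := fun h => hx (IsAlgebraic.inv_iff.mp h)
  haveI : Algebra.IsAlgebraic (Algebra.adjoin ↥O ({x} : Set F0)) F0 :=
    fc_ff_isAlgebraic (L := L) x
  have hxA : Transcendental ↥O x := fc_ff_transcendental (L := L) hx
  haveI : IsIntegrallyClosed (Algebra.adjoin ↥O ({x} : Set F0)) := fc_ff_isIntegrallyClosed hxA
  haveI : FaithfulSMul (Algebra.adjoin ↥O ({x} : Set F0)) F0 :=
    (faithfulSMul_iff_algebraMap_injective _ _).2 Subtype.val_injective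
  have hC : ssm_tp_Chart (algebraMap ↥O (Algebra.adjoin ↥O ({x} : Set F0)) π)
      (fc_chart ↥O ({x} : Set F0)) := ssm_tp_ff_chart (L := L) hπ hx
  have hOV : ∀ i (a : ↥O), algebraMap ↥O F0 a ∈ (![VA, VB, VC] : Fin 3 → _) i := fun i a =>
    H.chart_le hC i ((fc_chart ↥O ({x} : Set F0)).algebraMap_mem a)
  have hπV : ∀ i, algebraMap ↥O F0 π ∈ ((![VA, VB, VC] : Fin 3 → _) i).nonunits := fun i =>
    ((H.ovr i).cen _).2 (dvd_refl _)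
  have hqV : ∀ i, (algebraMap ↥O F0 π)⁻¹ * ((p + 1 : ℕ) : F0) ∈ (![VA, VB, VC] : Fin 3 → _) i := by
    intro i
    obtain ⟨t, ht⟩ := hqπ
    have e1 : ((p + 1 : ℕ) : F0) = algebraMap ↥O F0 π * algebraMap ↥O F0 t := by
      rw [← map_mul, ← ht, map_natCast]
    have hϖ0 : algebraMap ↥O F0 π ≠ 0 := H.algebraMap_ne_zero
    rw [e1, ← mul_assoc, inv_mul_cancel₀ hϖ0, one_mul]
    exact hOV i t
  have hram : ∀ i, ∀ z ∈ ((![VA, VB, VC] : Fin 3 → _) i).nonunits,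
      (algebraMap ↥O F0 π)⁻¹ * z ^ (p + 1) ∈ (![VA, VB, VC] : Fin 3 → _) i := fun i z hz =>
    H.ram_le i hz (he i)
  have hmod := (s36tp_ff_model (L := L) hπ hx H).2.2.2.2.2.2.2.2
  have hf1 : ∀ i, f - 1 ∈ ((![VA, VB, VC] : Fin 3 → _) i).nonunits :=
    s36g_forall_fin3 hfA hfB hfC
  have key := m59ti_locAt_ff (L := L) hπ hx hq hqπ H D1 hpts hinf hm hf0 hf1 hord htor1 htor2
  have hF₁ : ∀ i, f - algebraMap ↥O F0 (((1 : (↥O)ˣ) : ↥O)) ∈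
      ((![VA, VB, VC] : Fin 3 → _) i).nonunits := by
    intro i
    rw [Units.val_one, map_one]
    exact hf1 i
  exact s36c_glue_global (A0 := ↥O) π hx0 m hm (fc_ff_finite (L := L) hx)
    (sfc_ff_hnu (L := L) hπ hx) (sfc_ff_mem_S (L := L) hπ hx) (sfc_ff_mem_S (L := L) hπ hxi)
    (fun z h1 h2 => by
      obtain ⟨a, ha⟩ := fch_H0 x hx hconst z h1 h2
      exact ⟨a, ha⟩)
    (![VA, VB, VC] : Fin 3 → ValuationSubring F0)
    (fun z hz => (hmod z).2 hz) hq hqV hram hOV f 1 hF₁ ((p + 1) ^ 2 * D1) key.1 key.2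

/-- extraction of an `m`-th root up to a constant from a power prime to `m`. -/
theorem m59ti_root_of_coprime {f g : F0} {c : L} {n m : ℕ} (hnm : Nat.Coprime n m) (hm : m ≠ 0)
    (hf0 : f ≠ 0)
    (h : f ^ n = algebraMap L F0 c * g ^ m) :
    ∃ (c' : L) (g' : F0), g' ≠ 0 ∧ f = algebraMap L F0 c' * g' ^ m := by
  have hfn : f ^ n ≠ 0 := pow_ne_zero n hf0
  have hc0 : c ≠ 0 := by
    rintro rfl
    rw [map_zero, zero_mul] at h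
    exact hfn h
  have hgm : g ^ m ≠ 0 := by
    intro h0
    rw [h0, mul_zero] at h
    exact hfn h
  have hg0 : g ≠ 0 := fun h0 => hgm (by rw [h0]; exact zero_pow hm)
  have hbez : (n : ℤ) * Int.gcdA n m + (m : ℤ) * Int.gcdB n m = 1 := by
    have := Int.gcd_eq_gcd_ab (n : ℤ) (m : ℤ)
    rw [Int.gcd_natCast_natCast, hnm, Nat.cast_one] at this
    exact this.symm
  set a := Int.gcdA n m
  set b := Int.gcdB n m
  refine ⟨c ^ a, g ^ a * f ^ b, mul_ne_zero (zpow_ne_zero a hg0) (zpow_ne_zero b hf0), ?_⟩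
  have e1 : f = f ^ ((n : ℤ) * a + (m : ℤ) * b) := by rw [hbez, zpow_one]
  rw [mul_pow, map_zpow₀]
  have e2 : f ^ ((n : ℤ) * a + (m : ℤ) * b) = (f ^ n) ^ a * ((f ^ b) ^ m) := by
    rw [zpow_add₀ hf0, zpow_mul, zpow_natCast, mul_comm (m : ℤ) b, zpow_mul, zpow_natCast]
  have e3 : (g ^ a) ^ m = (g ^ m) ^ a := by
    rw [← zpow_natCast, ← zpow_mul, mul_comm, zpow_mul, zpow_natCast]
  rw [e3]
  calc f = (f ^ n) ^ a * ((f ^ b) ^ m) := e1.trans e2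
    _ = (algebraMap L F0 c * g ^ m) ^ a * ((f ^ b) ^ m) := by rw [h]
    _ = algebraMap L F0 c ^ a * ((g ^ m) ^ a * (f ^ b) ^ m) := by rw [mul_zpow]; ring

end Glue

end Fermat.Agent.M59
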