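/-
M59 / Sink B, leaf 4 [TOR-SURJ], cell [GLUE2], LEGENDRE INSTANCE (helper3).  Prefix `m59ti_`.

[NF2-CTX] at `π := q` (binders of `s36cn_cOrd`), `T3 : s36asm_Third O hπ N' q hq2 hqN' VC`,
`E₂ = lg_E L (N' q q)`, charts `fc_chart O {λ}`, `fc_chart O {λ⁻¹}`, `VA VB VC` the three vertical
valuations:

* `m59ti_pts_leg`  : [TP3] and the point clauses `s36asm_Pts … VC 1` from `T3` alone (main's closed
  terms `s36cn_cOrd`, `s36cfl_cusp0_q/1_q/Inf_q`, `s36asm_ptsT1_leg`, `s36asm_all_of_third`);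
* `m59ti_glue_leg` : **[GLUE2]**: `f ≠ 0`, `f ≡ 1` at `VA, VB, VC`, `m ∣ ord_P f` for all places
  (`q ∤ m`), trivial toric datum (`m59tl_Ratio … f 1` for the pairs `(C, B)` and `(A, C)`) at every
  point through which the three components pass ⟹ `f = c · g ^ m`, `c ∈ L`.
-/
import Mathlib
import Fermat.Agent.M59.SinkB.Tor.GlueAbs
import Fermat.Agent.S36.Model.AsmLegClosed

set_option autoImplicit false
set_option linter.unusedSectionVars false
set_option linter.unusedVariables false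
set_option linter.style.haveILetI false
set_option maxHeartbeats 1000000

noncomputable section

open ModularCurve AlgebraicCurve IntermediateField IsLocalRing Polynomial
open Fermat.Agent.JT3 Fermat.Agent.SS Fermat.Agent.S35 Fermat.Agent.S36

namespace Fermat.Agent.M59

section NFq

variable (L : Type) [Field L] [NumberField L] [Algebra L (AlgebraicClosure ℚ)]
  (O : ValuationSubring L) [IsDiscreteValuationRing O]
variable (N' q : ℕ) [NeZero N'] [NeZero q] [hq : Fact q.Prime] [CharP (ResidueField O) q]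
  (hq2 : ¬ 2 ∣ q) (hqN' : ¬ q ∣ N') (hπ : Irreducible ((q : ℕ) : ↥O))
  (ζ : L) (hζ : IsPrimitiveRoot ζ N')

include hζ in
set_option synthInstance.maxHeartbeats 400000 in
/-- [TP3] and the point clauses of the Legendre model of level `N' q q`, from `T3` alone. -/
theorem m59ti_pts_leg {VC : ValuationSubring ↥(lg_E L (N' * q * q))}
    (T3 : s36asm_Third O hπ N' q hq2 hqN' VC) :
    s36tp_Hyp (algebraMap ↥O (Algebra.adjoin ↥O
        ({lg_lamE (N' * q * q)} : Set ↥(lg_E L (N' * q * q)))) ((q : ℕ) : ↥O))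
      ![s36i_VA O hπ (N' * q) q, s36i_VB O hπ N' q hq2 hqN', VC] ![1, 1, q - 1] ∧
    s36asm_Pts O hπ N' q hq2 hqN' VC 1 := by
  have hp := ssm_ll_prime L N' hπ q (ssm_fln_q_mem L O q) (ssm_fl_ne_two q hq2) hqN' ζ hζ
  obtain ⟨⟨hWB1, hWB2⟩, H3, hT⟩ := s36asm_all_of_third O hπ N' q hq2 hqN' hp.1 T3
  have PC := s36asm_cSplit O hπ N' q hq2 hqN' (s36cn_cOrd L O N' q hq2 hqN' hπ ζ hζ T3)
    (s36cfl_cusp0_q L O N' q hq2 hqN' hπ ζ hζ T3) (s36cfl_cusp1_q L O N' q hq2 hqN' hπ ζ hζ T3)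
    (s36cfl_cuspInf_q L O N' q hq2 hqN' hπ ζ hζ T3)
  have PT := hT (s36asm_ptsT1_leg L O N' q hq2 hqN' hπ ζ hζ T3)
  exact ⟨H3, s36asm_pts_of L O hπ N' q hq2 hqN' ζ hζ H3 rfl rfl hWB1 hWB2 1 PC PT⟩

include hζ in
set_option synthInstance.maxHeartbeats 400000 in
set_option maxHeartbeats 1600000 in
/-- **[GLUE2], Legendre instance.** -/
theorem m59ti_glue_leg {VC : ValuationSubring ↥(lg_E L (N' * q * q))}
    (T3 : s36asm_Third O hπ N' q hq2 hqN' VC) (m : ℕ) (hqm : ¬ q ∣ m)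
    {f : ↥(lg_E L (N' * q * q))} (hf0 : f ≠ 0)
    (hfA : f - 1 ∈ (s36i_VA O hπ (N' * q) q).nonunits)
    (hfB : f - 1 ∈ (s36i_VB O hπ N' q hq2 hqN').nonunits) (hfC : f - 1 ∈ VC.nonunits)
    (hord : ∀ P : Place L ↥(lg_E L (N' * q * q)), (m : ℤ) ∣ P.ord f)
    (htor1 : ∀ (𝔫 : Ideal (fc_chart ↥O ({lg_lamE (N' * q * q)} : Set ↥(lg_E L (N' * q * q)))))
      (h𝔫 : 𝔫.IsMaximal),
      algebraMap ↥O (fc_chart ↥O ({lg_lamE (N' * q * q)} : Set ↥(lg_E L (N' * q * q))))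
        ((q : ℕ) : ↥O) ∈ 𝔫 →
      ssm_tp_P (fc_chart ↥O ({lg_lamE (N' * q * q)} : Set ↥(lg_E L (N' * q * q))))
        (s36i_VA O hπ (N' * q) q) ≤ 𝔫 →
      ssm_tp_P (fc_chart ↥O ({lg_lamE (N' * q * q)} : Set ↥(lg_E L (N' * q * q))))
        (s36i_VB O hπ N' q hq2 hqN') ≤ 𝔫 →
      ssm_tp_P (fc_chart ↥O ({lg_lamE (N' * q * q)} : Set ↥(lg_E L (N' * q * q)))) VC ≤ 𝔫 →
      (haveI := s36cp_chart_isFractionRing O (L := L) (N' * q * q)
       haveI := h𝔫.isPrime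
       m59tl_Ratio (𝔫.map (algebraMap
            (fc_chart ↥O ({lg_lamE (N' * q * q)} : Set ↥(lg_E L (N' * q * q))))
            (ssl_locSub ↥(lg_E L (N' * q * q)) 𝔫)))
        ((ssm_tp_P (fc_chart ↥O ({lg_lamE (N' * q * q)} : Set ↥(lg_E L (N' * q * q)))) VC).map
          (algebraMap (fc_chart ↥O ({lg_lamE (N' * q * q)} : Set ↥(lg_E L (N' * q * q))))
            (ssl_locSub ↥(lg_E L (N' * q * q)) 𝔫)))
        ((ssm_tp_P (fc_chart ↥O ({lg_lamE (N' * q * q)} : Set ↥(lg_E L (N' * q * q))))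
            (s36i_VB O hπ N' q hq2 hqN')).map
          (algebraMap (fc_chart ↥O ({lg_lamE (N' * q * q)} : Set ↥(lg_E L (N' * q * q))))
            (ssl_locSub ↥(lg_E L (N' * q * q)) 𝔫))) m f 1 ∧
       m59tl_Ratio (𝔫.map (algebraMap
            (fc_chart ↥O ({lg_lamE (N' * q * q)} : Set ↥(lg_E L (N' * q * q))))
            (ssl_locSub ↥(lg_E L (N' * q * q)) 𝔫)))
        ((ssm_tp_P (fc_chart ↥O ({lg_lamE (N' * q * q)} : Set ↥(lg_E L (N' * q * q))))
            (s36i_VA O hπ (N' * q) q)).map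
          (algebraMap (fc_chart ↥O ({lg_lamE (N' * q * q)} : Set ↥(lg_E L (N' * q * q))))
            (ssl_locSub ↥(lg_E L (N' * q * q)) 𝔫)))
        ((ssm_tp_P (fc_chart ↥O ({lg_lamE (N' * q * q)} : Set ↥(lg_E L (N' * q * q)))) VC).map
          (algebraMap (fc_chart ↥O ({lg_lamE (N' * q * q)} : Set ↥(lg_E L (N' * q * q))))
            (ssl_locSub ↥(lg_E L (N' * q * q)) 𝔫))) m f 1)) :
    ∃ (c : L) (g : ↥(lg_E L (N' * q * q))), g ≠ 0 ∧
      f = algebraMap L ↥(lg_E L (N' * q * q)) c * g ^ m := by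
  obtain ⟨H, P⟩ := m59ti_pts_leg L O N' q hq2 hqN' hπ ζ hζ T3
  letI := ssm_gi_algebra (ssm_al_E_le L (N' * q) q)
  letI := ssm_gi_algebra (ssm_al_E_beta_le L (N' * q) q hq2)
  haveI := ssm_go_isScalarTower O (lg_E L (N' * q * q))
  haveI : FiniteDimensional L⟮(lg_lamE (N' * q * q) : lg_E L (N' * q * q))⟯
      ↥(lg_E L (N' * q * q)) := lgf_finite L (N' * q * q)
  haveI := s36cp_chart_isFractionRing O (L := L) (N' * q * q)
  haveI := s36cp_chart_inv_isFractionRing O (L := L) (N' * q * q)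
  have hx : Transcendental L (lg_lamE (L := L) (N' * q * q)) :=
    lgf_lam_transcendental L (N' * q * q) two_ne_zero
  have he : ∀ i : Fin 3, (![1, 1, q - 1] : Fin 3 → ℕ) i ≤ q := by
    intro i
    have := hq.out.one_le
    fin_cases i
    · exact this
    · exact this
    · exact Nat.sub_le q 1
  have hm : IsUnit ((m : ℕ) : ↥O) := s36asm_isUnit_of_not_dvd O q m hqm
  have hm0 : m ≠ 0 := by
    rintro rfl
    exact hqm (dvd_zero q)
  -- nothing at infinity: no point lies on two components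
  have hp := ssm_ll_prime L N' hπ q (ssm_fln_q_mem L O q) (ssm_fl_ne_two q hq2) hqN' ζ hζ
  obtain ⟨-, -, F, -, -, -⟩ := s36t3_leg_all_of O hπ N' q hq2 hqN' hp.1
    (s36t3_leg_third_conv O hπ N' q hq2 hqN' T3)
  have hcop : Nat.Coprime (q ^ 2 * 1 * q) m := by
    have h1 : Nat.Coprime q m := (Nat.Prime.coprime_iff_not_dvd hq.out).2 hqm
    exact Nat.Coprime.mul_left (Nat.Coprime.mul_left (Nat.Coprime.pow_left 2 h1)
      (Nat.coprime_one_left m)) h1
  obtain ⟨c, g, hg, hcg⟩ := m59ti_glue (L := L) O hπ hx (lgf_hconst (lg_E L (N' * q * q))) hq.out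
    (s36asm_pi_dvd_q O hπ q) H he 1 P.1 P.2 hm hf0 hfA hfB hfC hord htor1
    (fun 𝔫 h𝔫 hπ𝔫 hxn hA hB hC =>
      absurd (Or.inl ⟨hA, hB⟩) (s36asm_no_two_inf O hπ N' q hq2 hqN' H F 𝔫 h𝔫.ne_top hxn))
  have hcg' : f ^ (q ^ 2 * 1 * q) =
      algebraMap L ↥(lg_E L (N' * q * q)) ((c : ↥O) : L) * g ^ m := by
    rw [hcg, IsScalarTower.algebraMap_apply ↥O L ↥(lg_E L (N' * q * q))]
    rfl
  exact m59ti_root_of_coprime hcop hm0 hf0 hcg'

end NFq

end Fermat.Agent.M59
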