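/-
M59 / Sink B, leaf 4 [TOR-SURJ], cell [GLUE2], RATIO FORM (helper3).  Prefix `m59ti_`.

The three-valuation analogue of helper15's `m59tgl_glue_ratio` / `m59tgl_leg` / `m59tgl_leg_hK`, at
the Legendre level `N' q q` in [NF2-CTX] (`π := q`), branch pairs `(C, B)` and `(A, C)`:

* `m59ti_memM_of_nonunits`, `m59ti_unitAt_of_unit` : the bridges `(V i).nonunits → s36g_MemM (P_i R)`,
  `V i`-unit `→ ssl_UnitAt (P_i R)` at a point `𝔫 ⊇ P_i` of a chart, for `s36tp_Hyp`;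
* `m59ti_glue_ratio_leg` : `f ≡ kA, kB, kC` (units of `O`) at `VA, VB, VC`, all orders divisible by
  `m` (`q ∤ m`), `cCB cAC` units of `O` with `q ∣ kC - kB cCBᵐ`, `q ∣ kA - kC cACᵐ`, and at EVERY
  triple point `𝔫` of `fc_chart O {λ}` the ratios `m59tl_Ratio (𝔫R) (P_C R) (P_B R) m f cCB` and
  `m59tl_Ratio (𝔫R) (P_A R) (P_C R) m f cAC` ⟹ `f = c · gᵐ`  (normalisation by [APPROX]
  `m59ta_three`, then `m59ti_glue_leg`);
* `m59ti_leg_hK` : the two divisibilities from ONE triple point (`m59tl_const_of_ratio`).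
-/
import Mathlib
import Fermat.Agent.M59.SinkB.Tor.GlueLeg
import Fermat.Agent.M59.SinkB.Tor.Glue1
import Fermat.Agent.M59.SinkB.Tor.RatioConst

set_option autoImplicit false
set_option linter.unusedSectionVars false
set_option linter.unusedVariables false
set_option linter.style.haveILetI false
set_option maxHeartbeats 1000000

noncomputable section

open ModularCurve AlgebraicCurve IntermediateField IsLocalRing Polynomial
open Fermat.Agent.JT3 Fermat.Agent.SS Fermat.Agent.S35 Fermat.Agent.S36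

namespace Fermat.Agent.M59

universe v

section Bridge

variable {R₀ : Type*} [CommRing R₀] [IsDomain R₀] [IsIntegrallyClosed R₀]
  {A0 : Type*} [CommRing A0] {F0 : Type v} [Field F0] [Algebra R₀ F0] [FaithfulSMul R₀ F0]
  [Algebra A0 F0] {ι : Type*} [Fintype ι] {π' : R₀} {V : ι → ValuationSubring F0} {e : ι → ℕ}
  {B : Subalgebra A0 F0} [IsFractionRing B F0]

/-- `P_i R ∩ B = P_i` at a point `𝔫 ⊇ P_i`. -/
theorem m59ti_comap_map_P (H : s36tp_Hyp π' V e) (hC : ssm_tp_Chart π' B) (i : ι)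
    (𝔫 : Ideal B) [𝔫.IsPrime] (hP𝔫 : ssm_tp_P B (V i) ≤ 𝔫) :
    ((ssm_tp_P B (V i)).map (algebraMap B (ssl_locSub F0 𝔫))).comap
      (algebraMap B (ssl_locSub F0 𝔫)) = ssm_tp_P B (V i) := by
  haveI := H.P_isPrime hC i
  ext b
  rw [Ideal.mem_comap, s35l_mem_map_iff 𝔫 _ hP𝔫 b]

/-- the bridge `(V i).nonunits → s36g_MemM (P_i R)` at a point of a chart. -/
theorem m59ti_memM_of_nonunits (H : s36tp_Hyp π' V e) (hC : ssm_tp_Chart π' B) (i : ι)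
    (𝔫 : Ideal B) [𝔫.IsPrime] (hP𝔫 : ssm_tp_P B (V i) ≤ 𝔫) {z : F0}
    (hz : z ∈ (V i).nonunits) :
    s36g_MemM ((ssm_tp_P B (V i)).map (algebraMap B (ssl_locSub F0 𝔫))) z :=
  s36g_memM_of_nonunits' 𝔫 (V i) (ssm_tp_P B (V i)) (fun b => H.chart_le hC i b.2)
    (fun b => H.mem_P hC i) (fun z hz => (H.mem_V_iff hC i).1 hz) _
    (m59ti_comap_map_P H hC i 𝔫 hP𝔫) hz

/-- the bridge `V i`-unit `→ ssl_UnitAt (P_i R)` at a point of a chart. -/
theorem m59ti_unitAt_of_unit (H : s36tp_Hyp π' V e) (hC : ssm_tp_Chart π' B) (i : ι)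
    (𝔫 : Ideal B) [𝔫.IsPrime] (hP𝔫 : ssm_tp_P B (V i) ≤ 𝔫) {z : F0}
    (hz : z ∈ V i) (hzn : z ∉ (V i).nonunits) :
    ssl_UnitAt F0 ((ssm_tp_P B (V i)).map (algebraMap B (ssl_locSub F0 𝔫))) z := by
  haveI := H.P_isPrime hC i
  refine (s35l_unitAt_map_iff 𝔫 _ hP𝔫).2 ?_
  obtain ⟨t, ht, htz⟩ := (H.mem_V_iff hC i).1 hz
  refine ⟨⟨(t : F0) * z, htz⟩, t, ?_, ht, ?_⟩
  · intro hmem
    rw [H.mem_P hC i] at hmem
    have ht' : (t : F0) ∉ (V i).nonunits := fun h => ht ((H.mem_P hC i).2 h)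
    have htV : (t : F0) ∈ V i := H.chart_le hC i t.2
    -- `t z` is a unit of `V i`
    have h1 : (V i).valuation (t : F0) = 1 := by
      rw [ValuationSubring.mem_nonunits_iff, not_lt] at ht'
      exact le_antisymm ((V i).valuation_le_one_iff _ |>.2 htV) ht'
    have h2 : (V i).valuation z = 1 := by
      rw [ValuationSubring.mem_nonunits_iff, not_lt] at hzn
      exact le_antisymm ((V i).valuation_le_one_iff _ |>.2 hz) hzn
    have h3 : (V i).valuation ((t : F0) * z) < 1 := (ValuationSubring.mem_nonunits_iff _).1 hmem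
    rw [map_mul, h1, h2, one_mul] at h3
    exact lt_irrefl _ h3
  · show z * (t : F0) = (t : F0) * z
    exact mul_comm _ _

end Bridge

section Norm

variable {A0 : Type*} [CommRing A0] {E : Type*} [Field E] [Algebra A0 E]

/-- an element congruent to a unit constant is a unit of the valuation ring. -/
theorem m59ti_unit_of_congr (V : ValuationSubring E) (hcst : ∀ a : A0, algebraMap A0 E a ∈ V)
    {R' : E} (r : A0ˣ) (hR : R' - algebraMap A0 E (r : A0) ∈ V.nonunits) :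
    R' ∈ V ∧ R' ∉ V.nonunits := by
  have hrinv : algebraMap A0 E (r : A0) * algebraMap A0 E ((r⁻¹ : A0ˣ) : A0) = 1 := by
    rw [← map_mul, ← Units.val_mul, mul_inv_cancel, Units.val_one, map_one]
  constructor
  · have : R' = (R' - algebraMap A0 E (r : A0)) + algebraMap A0 E (r : A0) := by ring
    rw [this]
    exact V.add_mem _ _ (ValuationSubring.nonunits_subset hR) (hcst _)
  · intro h
    have h1 : algebraMap A0 E (r : A0) ∈ V.nonunits := by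
      have : algebraMap A0 E (r : A0) = R' - (R' - algebraMap A0 E (r : A0)) := by ring
      rw [this]
      exact V.nonunits.sub_mem h hR
    have h2 := m59ta_mul_mem V (hcst ((r⁻¹ : A0ˣ) : A0)) h1
    rw [mul_comm, hrinv, ValuationSubring.mem_nonunits_iff, map_one] at h2
    exact lt_irrefl _ h2

/-- the normalised function is `≡ 1`: `f ≡ k`, `R' ≡ r`, `π ∣ k rᵐ - kC` ⟹ `f R'ᵐ kC⁻¹ ≡ 1`. -/
theorem m59ti_norm_congr (V : ValuationSubring E) (hcst : ∀ a : A0, algebraMap A0 E a ∈ V)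
    {π : A0} (hπV : algebraMap A0 E π ∈ V.nonunits) {f R' : E} (k r kC : A0ˣ) (m : ℕ)
    (hf : f - algebraMap A0 E (k : A0) ∈ V.nonunits)
    (hR : R' - algebraMap A0 E (r : A0) ∈ V.nonunits)
    (hK : π ∣ (k : A0) * (r : A0) ^ m - (kC : A0)) :
    f * R' ^ m * algebraMap A0 E ((kC⁻¹ : A0ˣ) : A0) - 1 ∈ V.nonunits := by
  have hkCinv : algebraMap A0 E (kC : A0) * algebraMap A0 E ((kC⁻¹ : A0ˣ) : A0) = 1 := by
    rw [← map_mul, ← Units.val_mul, mul_inv_cancel, Units.val_one, map_one]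
  have hR'V : R' ∈ V := (m59ti_unit_of_congr V hcst r hR).1
  have h1 : R' ^ m - algebraMap A0 E (r : A0) ^ m ∈ V.nonunits :=
    m59tgl_congr_pow V hR (hcst _) m
  have h2 : f * R' ^ m - algebraMap A0 E (k : A0) * algebraMap A0 E (r : A0) ^ m ∈ V.nonunits :=
    m59tgl_congr_mul V hf h1 (hcst _) (V.pow_mem hR'V m)
  obtain ⟨d, hd⟩ := hK
  have h3 : algebraMap A0 E (k : A0) * algebraMap A0 E (r : A0) ^ m - algebraMap A0 E (kC : A0) ∈
      V.nonunits := by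
    have e3 : algebraMap A0 E (k : A0) * algebraMap A0 E (r : A0) ^ m -
        algebraMap A0 E (kC : A0) = algebraMap A0 E d * algebraMap A0 E π := by
      rw [← map_pow, ← map_mul, ← map_sub, ← map_mul, hd, mul_comm]
    rw [e3]
    exact m59ta_mul_mem V (hcst _) hπV
  have h4 : f * R' ^ m - algebraMap A0 E (kC : A0) ∈ V.nonunits := by
    have : f * R' ^ m - algebraMap A0 E (kC : A0) =
        (f * R' ^ m - algebraMap A0 E (k : A0) * algebraMap A0 E (r : A0) ^ m) +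
          (algebraMap A0 E (k : A0) * algebraMap A0 E (r : A0) ^ m -
            algebraMap A0 E (kC : A0)) := by ring
    rw [this]
    exact V.nonunits.add_mem h2 h3
  have h5 := m59ta_mul_mem V (hcst ((kC⁻¹ : A0ˣ) : A0)) h4
  have e : f * R' ^ m * algebraMap A0 E ((kC⁻¹ : A0ˣ) : A0) - 1 =
      algebraMap A0 E ((kC⁻¹ : A0ˣ) : A0) * (f * R' ^ m - algebraMap A0 E (kC : A0)) := by
    rw [mul_sub, mul_comm (algebraMap A0 E ((kC⁻¹ : A0ˣ) : A0)) (algebraMap A0 E (kC : A0)),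
      hkCinv]
    ring
  rw [e]
  exact h5

end Norm

section RatioCst

variable {R : Type*} [CommRing R] [IsDomain R] {F : Type*} [Field F] [Algebra R F]
  [IsFractionRing R F]

/-- a unit constant has ratio one. -/
theorem m59ti_ratio_cst (𝔪 𝔮₁ 𝔮₂ : Ideal R) [h1 : 𝔮₁.IsPrime] [h2 : 𝔮₂.IsPrime] (m : ℕ)
    (ω : Rˣ) : m59tl_Ratio 𝔪 𝔮₁ 𝔮₂ m (algebraMap R F (ω : R)) 1 := by
  refine ⟨ω, 1, 1, 1, ?_, ssl_unitAt_one _, ssl_unitAt_one _, ?_, ?_, ?_⟩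
  · rw [one_pow, mul_one]
  · rw [Units.val_one, map_one, sub_self]
    exact s36g_memM_zero _
  · rw [Units.val_one, map_one, sub_self]
    exact s36g_memM_zero _
  · rw [Units.val_one, one_mul, sub_self]
    exact Ideal.zero_mem _

end RatioCst

section RatioNorm

variable {R₀ : Type*} [CommRing R₀] [IsDomain R₀] [IsIntegrallyClosed R₀]
  {A0 : Type*} [CommRing A0] {F0 : Type v} [Field F0] [Algebra R₀ F0] [FaithfulSMul R₀ F0]
  [Algebra A0 F0] {ι : Type*} [Fintype ι] {π' : R₀} {V : ι → ValuationSubring F0} {e : ι → ℕ}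
  {B : Subalgebra A0 F0} [IsFractionRing B F0]

/-- **normalisation of the ratio between the branches `i` and `j` at a point**: if `f` has ratio
`c` (a unit of the base), `R' ≡ rᵢ` at `V i`, `R' ≡ rⱼ` at `V j` with `c rᵢ = rⱼ`, then
`f R'ᵐ k` has ratio one. -/
theorem m59ti_ratio_norm (H : s36tp_Hyp π' V e) (hC : ssm_tp_Chart π' B) (i j : ι)
    (𝔫 : Ideal B) [𝔫.IsPrime] (hPi : ssm_tp_P B (V i) ≤ 𝔫) (hPj : ssm_tp_P B (V j) ≤ 𝔫)
    (hcsti : ∀ a : A0, algebraMap A0 F0 a ∈ V i) (hcstj : ∀ a : A0, algebraMap A0 F0 a ∈ V j)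
    {f R' : F0} {m : ℕ} (c ri rj k : A0ˣ) (hc : c * ri = rj)
    (hRi : R' - algebraMap A0 F0 (ri : A0) ∈ (V i).nonunits)
    (hRj : R' - algebraMap A0 F0 (rj : A0) ∈ (V j).nonunits)
    (hrat : m59tl_Ratio (𝔫.map (algebraMap B (ssl_locSub F0 𝔫)))
      ((ssm_tp_P B (V i)).map (algebraMap B (ssl_locSub F0 𝔫)))
      ((ssm_tp_P B (V j)).map (algebraMap B (ssl_locSub F0 𝔫))) m f
      (m59tl_cst (F0 := F0) 𝔫 c)) :
    m59tl_Ratio (𝔫.map (algebraMap B (ssl_locSub F0 𝔫)))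
      ((ssm_tp_P B (V i)).map (algebraMap B (ssl_locSub F0 𝔫)))
      ((ssm_tp_P B (V j)).map (algebraMap B (ssl_locSub F0 𝔫))) m
      (f * R' ^ m * algebraMap A0 F0 (k : A0)) 1 := by
  haveI := H.P_isPrime hC i
  haveI := H.P_isPrime hC j
  haveI := s35l_map_isPrime (F0 := F0) 𝔫 _ hPi
  haveI := s35l_map_isPrime (F0 := F0) 𝔫 _ hPj
  obtain ⟨hVi, hni⟩ := m59ti_unit_of_congr (V i) hcsti ri hRi
  obtain ⟨hVj, hnj⟩ := m59ti_unit_of_congr (V j) hcstj rj hRj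
  have ui := m59ti_unitAt_of_unit H hC i 𝔫 hPi hVi hni
  have uj := m59ti_unitAt_of_unit H hC j 𝔫 hPj hVj hnj
  have mi := m59ti_memM_of_nonunits H hC i 𝔫 hPi hRi
  have mj := m59ti_memM_of_nonunits H hC j 𝔫 hPj hRj
  have r2 : m59tl_Ratio (𝔫.map (algebraMap B (ssl_locSub F0 𝔫)))
      ((ssm_tp_P B (V i)).map (algebraMap B (ssl_locSub F0 𝔫)))
      ((ssm_tp_P B (V j)).map (algebraMap B (ssl_locSub F0 𝔫))) m (R' ^ m)
      ((m59tl_cst (F0 := F0) 𝔫 ri) * (m59tl_cst (F0 := F0) 𝔫 rj)⁻¹) :=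
    m59tl_ratio_of_pow _ _ _ ui uj mi mj
  have r3 : m59tl_Ratio (𝔫.map (algebraMap B (ssl_locSub F0 𝔫)))
      ((ssm_tp_P B (V i)).map (algebraMap B (ssl_locSub F0 𝔫)))
      ((ssm_tp_P B (V j)).map (algebraMap B (ssl_locSub F0 𝔫))) m
      (algebraMap A0 F0 (k : A0)) 1 :=
    m59ti_ratio_cst (F := F0) _ _ _ m (m59tl_cst (F0 := F0) 𝔫 k)
  have r4 := m59tl_ratio_mul _ _ _ (m59tl_ratio_mul _ _ _ hrat r2) r3
  have e : (m59tl_cst (F0 := F0) 𝔫 c) *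
      ((m59tl_cst (F0 := F0) 𝔫 ri) * (m59tl_cst (F0 := F0) 𝔫 rj)⁻¹) * 1 = 1 := by
    rw [mul_one, ← mul_assoc, ← map_mul, hc, mul_inv_cancel]
  rw [e] at r4
  exact r4

end RatioNorm

section HK

variable {R₀ : Type*} [CommRing R₀] [IsDomain R₀] [IsIntegrallyClosed R₀]
  {A0 : Type*} [CommRing A0] [IsDomain A0] [IsDiscreteValuationRing A0]
  {F0 : Type v} [Field F0] [Algebra R₀ F0] [FaithfulSMul R₀ F0]
  [Algebra A0 F0] {ι : Type*} [Fintype ι] {π' : R₀} {V : ι → ValuationSubring F0} {e : ι → ℕ}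
  {B : Subalgebra A0 F0} [IsFractionRing B F0]

/-- **the constants of a normal form and the ratio at ONE point**: `f ≡ kᵢ` at `V i`, `f ≡ kⱼ` at
`V j` and ratio `c` at a point `𝔫 ⊇ P_i + P_j` force `π ∣ kᵢ - kⱼ cᵐ`. -/
theorem m59ti_hK_of_ratio (H : s36tp_Hyp π' V e) (hC : ssm_tp_Chart π' B) (i j : ι)
    (𝔫 : Ideal B) [h𝔫 : 𝔫.IsPrime] (hPi : ssm_tp_P B (V i) ≤ 𝔫) (hPj : ssm_tp_P B (V j) ≤ 𝔫)
    {π : A0} (hπ : Irreducible π) {f : F0} {m : ℕ} (ki kj c : A0ˣ)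
    (hfi : f - algebraMap A0 F0 (ki : A0) ∈ (V i).nonunits)
    (hfj : f - algebraMap A0 F0 (kj : A0) ∈ (V j).nonunits)
    (hrat : m59tl_Ratio (𝔫.map (algebraMap B (ssl_locSub F0 𝔫)))
      ((ssm_tp_P B (V i)).map (algebraMap B (ssl_locSub F0 𝔫)))
      ((ssm_tp_P B (V j)).map (algebraMap B (ssl_locSub F0 𝔫))) m f
      (m59tl_cst (F0 := F0) 𝔫 c)) :
    π ∣ (ki : A0) - (kj : A0) * (c : A0) ^ m := by
  haveI := H.P_isPrime hC i
  haveI := H.P_isPrime hC j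
  haveI := s35l_map_isPrime (F0 := F0) 𝔫 _ hPi
  haveI := s35l_map_isPrime (F0 := F0) 𝔫 _ hPj
  haveI : IsLocalRing (ssl_locSub F0 𝔫) := IsLocalization.AtPrime.isLocalRing (ssl_locSub F0 𝔫) 𝔫
  have m1 := m59ti_memM_of_nonunits H hC i 𝔫 hPi hfi
  have m2 := m59ti_memM_of_nonunits H hC j 𝔫 hPj hfj
  have key := m59tl_const_of_ratio (𝔫.map (algebraMap B (ssl_locSub F0 𝔫))) _ _
    (Ideal.map_mono hPi) (Ideal.map_mono hPj) hrat
    (k1 := algebraMap B (ssl_locSub F0 𝔫) (algebraMap A0 B (ki : A0)))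
    (k2 := algebraMap B (ssl_locSub F0 𝔫) (algebraMap A0 B (kj : A0))) m1 m2
  by_contra hnd
  have hdu : IsUnit ((ki : A0) - (kj : A0) * (c : A0) ^ m) := by
    by_contra hnu
    apply hnd
    have : (ki : A0) - (kj : A0) * (c : A0) ^ m ∈ maximalIdeal A0 :=
      (IsLocalRing.mem_maximalIdeal _).2 hnu
    rw [hπ.maximalIdeal_eq, Ideal.mem_span_singleton] at this
    exact this
  have himg : IsUnit (((algebraMap B (ssl_locSub F0 𝔫)).comp (algebraMap A0 B))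
      ((ki : A0) - (kj : A0) * (c : A0) ^ m)) := hdu.map _
  have hmem : ((algebraMap B (ssl_locSub F0 𝔫)).comp (algebraMap A0 B))
      ((ki : A0) - (kj : A0) * (c : A0) ^ m) ∈ 𝔫.map (algebraMap B (ssl_locSub F0 𝔫)) := by
    rw [map_sub, map_mul, map_pow]
    exact key
  rw [IsLocalization.AtPrime.map_eq_maximalIdeal 𝔫 (ssl_locSub F0 𝔫)] at hmem
  exact (IsLocalRing.mem_maximalIdeal _).1 hmem himg

end HK

section Unnorm

variable {E : Type*} [Field E]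

/-- undo the normalisation. -/
theorem m59ti_unnorm {f R' kinv k c g : E} {m : ℕ} (hk : k * kinv = 1) (hR : R' ≠ 0)
    (h : f * R' ^ m * kinv = c * g ^ m) : f = (c * k) * (g / R') ^ m := by
  have hRm : R' ^ m ≠ 0 := pow_ne_zero m hR
  rw [div_pow, mul_div_assoc', eq_div_iff hRm]
  calc f * R' ^ m = f * R' ^ m * (k * kinv) := by rw [hk, mul_one]
    _ = (f * R' ^ m * kinv) * k := by ring
    _ = c * g ^ m * k := by rw [h]
    _ = c * k * g ^ m := by ring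

end Unnorm

section NFq

variable (L : Type) [Field L] [NumberField L] [Algebra L (AlgebraicClosure ℚ)]
  (O : ValuationSubring L) [IsDiscreteValuationRing O]
variable (N' q : ℕ) [NeZero N'] [NeZero q] [hq : Fact q.Prime] [CharP (ResidueField O) q]
  (hq2 : ¬ 2 ∣ q) (hqN' : ¬ q ∣ N') (hπ : Irreducible ((q : ℕ) : ↥O))
  (ζ : L) (hζ : IsPrimitiveRoot ζ N')

include hζ in
set_option synthInstance.maxHeartbeats 400000 in
set_option maxHeartbeats 3200000 in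
/-- **[GLUE2], Legendre instance, ratio form.** -/
theorem m59ti_glue_ratio_leg {VC : ValuationSubring ↥(lg_E L (N' * q * q))}
    (T3 : s36asm_Third O hπ N' q hq2 hqN' VC) (m : ℕ) (hqm : ¬ q ∣ m)
    {f : ↥(lg_E L (N' * q * q))} (hf0 : f ≠ 0)
    (kA kB kC cCB cAC : (↥O)ˣ)
    (hKCB : ((q : ℕ) : ↥O) ∣ (kC : ↥O) - (kB : ↥O) * (cCB : ↥O) ^ m)
    (hKAC : ((q : ℕ) : ↥O) ∣ (kA : ↥O) - (kC : ↥O) * (cAC : ↥O) ^ m)
    (hfA : f - algebraMap L ↥(lg_E L (N' * q * q)) ((kA : ↥O) : L) ∈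
      (s36i_VA O hπ (N' * q) q).nonunits)
    (hfB : f - algebraMap L ↥(lg_E L (N' * q * q)) ((kB : ↥O) : L) ∈
      (s36i_VB O hπ N' q hq2 hqN').nonunits)
    (hfC : f - algebraMap L ↥(lg_E L (N' * q * q)) ((kC : ↥O) : L) ∈ VC.nonunits)
    (hord : ∀ P : Place L ↥(lg_E L (N' * q * q)), (m : ℤ) ∣ P.ord f)
    (htor1 : ∀ (𝔫 : Ideal (fc_chart ↥O ({lg_lamE (N' * q * q)} : Set ↥(lg_E L (N' * q * q)))))
      (h𝔫 : 𝔫.IsMaximal),
      algebraMap ↥O (fc_chart ↥O ({lg_lamE (N' * q * q)} : Set ↥(lg_E L (N' * q * q))))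
        ((q : ℕ) : ↥O) ∈ 𝔫 →
      ssm_tp_P (fc_chart ↥O ({lg_lamE (N' * q * q)} : Set ↥(lg_E L (N' * q * q))))
        (s36i_VA O hπ (N' * q) q) ≤ 𝔫 →
      ssm_tp_P (fc_chart ↥O ({lg_lamE (N' * q * q)} : Set ↥(lg_E L (N' * q * q))))
        (s36i_VB O hπ N' q hq2 hqN') ≤ 𝔫 →
      ssm_tp_P (fc_chart ↥O ({lg_lamE (N' * q * q)} : Set ↥(lg_E L (N' * q * q)))) VC ≤ 𝔫 →
      (haveI := s36cp_chart_isFractionRing O (L := L) (N' * q * q)
       haveI := h𝔫.isPrime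
       m59tl_Ratio (𝔫.map (algebraMap
            (fc_chart ↥O ({lg_lamE (N' * q * q)} : Set ↥(lg_E L (N' * q * q))))
            (ssl_locSub ↥(lg_E L (N' * q * q)) 𝔫)))
        ((ssm_tp_P (fc_chart ↥O ({lg_lamE (N' * q * q)} : Set ↥(lg_E L (N' * q * q)))) VC).map
          (algebraMap (fc_chart ↥O ({lg_lamE (N' * q * q)} : Set ↥(lg_E L (N' * q * q))))
            (ssl_locSub ↥(lg_E L (N' * q * q)) 𝔫)))
        ((ssm_tp_P (fc_chart ↥O ({lg_lamE (N' * q * q)} : Set ↥(lg_E L (N' * q * q))))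
            (s36i_VB O hπ N' q hq2 hqN')).map
          (algebraMap (fc_chart ↥O ({lg_lamE (N' * q * q)} : Set ↥(lg_E L (N' * q * q))))
            (ssl_locSub ↥(lg_E L (N' * q * q)) 𝔫))) m f
        (m59tl_cst (F0 := ↥(lg_E L (N' * q * q))) 𝔫 cCB) ∧
       m59tl_Ratio (𝔫.map (algebraMap
            (fc_chart ↥O ({lg_lamE (N' * q * q)} : Set ↥(lg_E L (N' * q * q))))
            (ssl_locSub ↥(lg_E L (N' * q * q)) 𝔫)))
        ((ssm_tp_P (fc_chart ↥O ({lg_lamE (N' * q * q)} : Set ↥(lg_E L (N' * q * q))))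
            (s36i_VA O hπ (N' * q) q)).map
          (algebraMap (fc_chart ↥O ({lg_lamE (N' * q * q)} : Set ↥(lg_E L (N' * q * q))))
            (ssl_locSub ↥(lg_E L (N' * q * q)) 𝔫)))
        ((ssm_tp_P (fc_chart ↥O ({lg_lamE (N' * q * q)} : Set ↥(lg_E L (N' * q * q)))) VC).map
          (algebraMap (fc_chart ↥O ({lg_lamE (N' * q * q)} : Set ↥(lg_E L (N' * q * q))))
            (ssl_locSub ↥(lg_E L (N' * q * q)) 𝔫))) m f
        (m59tl_cst (F0 := ↥(lg_E L (N' * q * q))) 𝔫 cAC))) :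
    ∃ (c : L) (g : ↥(lg_E L (N' * q * q))), g ≠ 0 ∧
      f = algebraMap L ↥(lg_E L (N' * q * q)) c * g ^ m := by
  obtain ⟨H, P⟩ := m59ti_pts_leg L O N' q hq2 hqN' hπ ζ hζ T3
  letI := ssm_gi_algebra (ssm_al_E_le L (N' * q) q)
  letI := ssm_gi_algebra (ssm_al_E_beta_le L (N' * q) q hq2)
  haveI := ssm_go_isScalarTower O (lg_E L (N' * q * q))
  haveI : FiniteDimensional L⟮(lg_lamE (N' * q * q) : lg_E L (N' * q * q))⟯
      ↥(lg_E L (N' * q * q)) := lgf_finite L (N' * q * q)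
  haveI := s36cp_chart_isFractionRing O (L := L) (N' * q * q)
  have hx : Transcendental L (lg_lamE (L := L) (N' * q * q)) :=
    lgf_lam_transcendental L (N' * q * q) two_ne_zero
  have hxA : Transcendental ↥O (lg_lamE (L := L) (N' * q * q)) :=
    fc_ff_transcendental (L := L) hx
  haveI : IsIntegrallyClosed (Algebra.adjoin ↥O
      ({lg_lamE (N' * q * q)} : Set ↥(lg_E L (N' * q * q)))) := fc_ff_isIntegrallyClosed hxA
  haveI : FaithfulSMul (Algebra.adjoin ↥O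
      ({lg_lamE (N' * q * q)} : Set ↥(lg_E L (N' * q * q)))) ↥(lg_E L (N' * q * q)) :=
    (faithfulSMul_iff_algebraMap_injective _ _).2 Subtype.val_injective
  have hC : ssm_tp_Chart (algebraMap ↥O (Algebra.adjoin ↥O
      ({lg_lamE (N' * q * q)} : Set ↥(lg_E L (N' * q * q)))) ((q : ℕ) : ↥O))
      (fc_chart ↥O ({lg_lamE (N' * q * q)} : Set ↥(lg_E L (N' * q * q)))) :=
    ssm_tp_ff_chart (L := L) hπ hx
  -- constants
  have hLO : ∀ a : ↥O, algebraMap L ↥(lg_E L (N' * q * q)) ((a : ↥O) : L) =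
      algebraMap ↥O ↥(lg_E L (N' * q * q)) a := fun a =>
    (IsScalarTower.algebraMap_apply ↥O L ↥(lg_E L (N' * q * q)) a).symm
  rw [hLO] at hfA hfB hfC
  have hcst : ∀ (i : Fin 3) (a : ↥O), algebraMap ↥O ↥(lg_E L (N' * q * q)) a ∈
      (![s36i_VA O hπ (N' * q) q, s36i_VB O hπ N' q hq2 hqN', VC] :
        Fin 3 → ValuationSubring ↥(lg_E L (N' * q * q))) i := fun i a =>
    H.chart_le hC i ((fc_chart ↥O
      ({lg_lamE (N' * q * q)} : Set ↥(lg_E L (N' * q * q)))).algebraMap_mem a)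
  have hπV : ∀ i : Fin 3, algebraMap ↥O ↥(lg_E L (N' * q * q)) ((q : ℕ) : ↥O) ∈
      ((![s36i_VA O hπ (N' * q) q, s36i_VB O hπ N' q hq2 hqN', VC] :
        Fin 3 → ValuationSubring ↥(lg_E L (N' * q * q))) i).nonunits := fun i =>
    ((H.ovr i).cen _).2 (dvd_refl _)
  have hne : ∀ i j : Fin 3, i ≠ j →
      ¬ (![s36i_VA O hπ (N' * q) q, s36i_VB O hπ N' q hq2 hqN', VC] :
        Fin 3 → ValuationSubring ↥(lg_E L (N' * q * q))) i ≤
      (![s36i_VA O hπ (N' * q) q, s36i_VB O hπ N' q hq2 hqN', VC] :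
        Fin 3 → ValuationSubring ↥(lg_E L (N' * q * q))) j := fun i j hij hle =>
    hij (H.not_le hle)
  -- the normalising function
  obtain ⟨R', hRA, hRB, hRC⟩ := m59ta_three (s36i_VA O hπ (N' * q) q)
    (s36i_VB O hπ N' q hq2 hqN') VC
    (hne 0 1 (by decide)) (hne 1 0 (by decide)) (hne 0 2 (by decide)) (hne 2 0 (by decide))
    (hne 1 2 (by decide)) (hne 2 1 (by decide))
    (algebraMap ↥O ↥(lg_E L (N' * q * q)) ((cAC⁻¹ : (↥O)ˣ) : ↥O))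
    (algebraMap ↥O ↥(lg_E L (N' * q * q)) (cCB : ↥O))
    (algebraMap ↥O ↥(lg_E L (N' * q * q)) (((1 : (↥O)ˣ)) : ↥O))
    ⟨hcst 0 _, hcst 1 _, hcst 2 _⟩ ⟨hcst 0 _, hcst 1 _, hcst 2 _⟩
    ⟨hcst 0 _, hcst 1 _, hcst 2 _⟩
  obtain ⟨hR'VA, hR'nA⟩ := m59ti_unit_of_congr (s36i_VA O hπ (N' * q) q) (hcst 0) _ hRA
  obtain ⟨hR'VB, hR'nB⟩ := m59ti_unit_of_congr (s36i_VB O hπ N' q hq2 hqN') (hcst 1) _ hRB
  obtain ⟨hR'VC, hR'nC⟩ := m59ti_unit_of_congr VC (hcst 2) _ hRC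
  have hR'0 : R' ≠ 0 := by
    rintro rfl
    exact hR'nC VC.nonunits.zero_mem
  have hkCinv : algebraMap ↥O ↥(lg_E L (N' * q * q)) (kC : ↥O) *
      algebraMap ↥O ↥(lg_E L (N' * q * q)) ((kC⁻¹ : (↥O)ˣ) : ↥O) = 1 := by
    rw [← map_mul, ← Units.val_mul, mul_inv_cancel, Units.val_one, map_one]
  have hkCinv0 : algebraMap ↥O ↥(lg_E L (N' * q * q)) ((kC⁻¹ : (↥O)ˣ) : ↥O) ≠ 0 :=
    right_ne_zero_of_mul_eq_one hkCinv
  -- the normalised function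
  obtain ⟨f', hf'⟩ : ∃ f' : ↥(lg_E L (N' * q * q)), f' =
    f * R' ^ m * algebraMap ↥O ↥(lg_E L (N' * q * q)) ((kC⁻¹ : (↥O)ˣ) : ↥O) := ⟨_, rfl⟩
  have hf'0 : f' ≠ 0 := by
    rw [hf']
    exact mul_ne_zero (mul_ne_zero hf0 (pow_ne_zero m hR'0)) hkCinv0
  have hf'A : f' - 1 ∈ (s36i_VA O hπ (N' * q) q).nonunits := by
    rw [hf']
    refine m59ti_norm_congr (s36i_VA O hπ (N' * q) q) (hcst 0) (hπV 0) kA cAC⁻¹ kC m hfA hRA ?_
    obtain ⟨d, hd⟩ := hKAC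
    refine ⟨((cAC⁻¹ : (↥O)ˣ) : ↥O) ^ m * d, ?_⟩
    have e1 : ((cAC⁻¹ : (↥O)ˣ) : ↥O) ^ m * (cAC : ↥O) ^ m = 1 := by
      rw [← mul_pow, ← Units.val_mul, inv_mul_cancel, Units.val_one, one_pow]
    calc (kA : ↥O) * ((cAC⁻¹ : (↥O)ˣ) : ↥O) ^ m - (kC : ↥O)
        = ((cAC⁻¹ : (↥O)ˣ) : ↥O) ^ m * ((kA : ↥O) - (kC : ↥O) * (cAC : ↥O) ^ m) +
            (kC : ↥O) * (((cAC⁻¹ : (↥O)ˣ) : ↥O) ^ m * (cAC : ↥O) ^ m - 1) := by ring
      _ = ((q : ℕ) : ↥O) * (((cAC⁻¹ : (↥O)ˣ) : ↥O) ^ m * d) := by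
          rw [e1, hd]; ring
  have hf'B : f' - 1 ∈ (s36i_VB O hπ N' q hq2 hqN').nonunits := by
    rw [hf']
    refine m59ti_norm_congr (s36i_VB O hπ N' q hq2 hqN') (hcst 1) (hπV 1) kB cCB kC m hfB hRB ?_
    obtain ⟨d, hd⟩ := hKCB
    refine ⟨-d, ?_⟩
    have : (kB : ↥O) * (cCB : ↥O) ^ m - (kC : ↥O) =
        -((kC : ↥O) - (kB : ↥O) * (cCB : ↥O) ^ m) := by ring
    rw [this, hd]; ring
  have hf'C : f' - 1 ∈ VC.nonunits := by
    rw [hf']
    refine m59ti_norm_congr VC (hcst 2) (hπV 2) kC 1 kC m hfC hRC ?_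
    refine ⟨0, ?_⟩
    rw [Units.val_one, one_pow, mul_one, sub_self, mul_zero]
  -- the orders
  have hord' : ∀ P : Place L ↥(lg_E L (N' * q * q)), (m : ℤ) ∣ P.ord f' := by
    intro P
    have hcst' : algebraMap ↥O ↥(lg_E L (N' * q * q)) ((kC⁻¹ : (↥O)ˣ) : ↥O) =
        algebraMap L ↥(lg_E L (N' * q * q)) (algebraMap ↥O L ((kC⁻¹ : (↥O)ˣ) : ↥O)) :=
      IsScalarTower.algebraMap_apply ↥O L ↥(lg_E L (N' * q * q)) _
    rw [hf', P.ord_mul (mul_ne_zero hf0 (pow_ne_zero m hR'0)) hkCinv0,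
      P.ord_mul hf0 (pow_ne_zero m hR'0), hcst', Fermat.Agent.S24.hw_ord_algebraMap, add_zero]
    have h1 : P.ord (R' ^ m) = (m : ℤ) * P.ord R' := by
      have := P.ord_zpow R' (m : ℤ)
      rwa [zpow_natCast] at this
    rw [h1]
    exact dvd_add (hord P) (dvd_mul_right _ _)
  -- the ratios
  have htor' : ∀ (𝔫 : Ideal (fc_chart ↥O ({lg_lamE (N' * q * q)} : Set ↥(lg_E L (N' * q * q)))))
      (h𝔫 : 𝔫.IsMaximal),
      algebraMap ↥O (fc_chart ↥O ({lg_lamE (N' * q * q)} : Set ↥(lg_E L (N' * q * q))))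
        ((q : ℕ) : ↥O) ∈ 𝔫 →
      ssm_tp_P (fc_chart ↥O ({lg_lamE (N' * q * q)} : Set ↥(lg_E L (N' * q * q))))
        (s36i_VA O hπ (N' * q) q) ≤ 𝔫 →
      ssm_tp_P (fc_chart ↥O ({lg_lamE (N' * q * q)} : Set ↥(lg_E L (N' * q * q))))
        (s36i_VB O hπ N' q hq2 hqN') ≤ 𝔫 →
      ssm_tp_P (fc_chart ↥O ({lg_lamE (N' * q * q)} : Set ↥(lg_E L (N' * q * q)))) VC ≤ 𝔫 →
      (haveI := s36cp_chart_isFractionRing O (L := L) (N' * q * q)
       haveI := h𝔫.isPrime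
       m59tl_Ratio (𝔫.map (algebraMap
            (fc_chart ↥O ({lg_lamE (N' * q * q)} : Set ↥(lg_E L (N' * q * q))))
            (ssl_locSub ↥(lg_E L (N' * q * q)) 𝔫)))
        ((ssm_tp_P (fc_chart ↥O ({lg_lamE (N' * q * q)} : Set ↥(lg_E L (N' * q * q)))) VC).map
          (algebraMap (fc_chart ↥O ({lg_lamE (N' * q * q)} : Set ↥(lg_E L (N' * q * q))))
            (ssl_locSub ↥(lg_E L (N' * q * q)) 𝔫)))
        ((ssm_tp_P (fc_chart ↥O ({lg_lamE (N' * q * q)} : Set ↥(lg_E L (N' * q * q))))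
            (s36i_VB O hπ N' q hq2 hqN')).map
          (algebraMap (fc_chart ↥O ({lg_lamE (N' * q * q)} : Set ↥(lg_E L (N' * q * q))))
            (ssl_locSub ↥(lg_E L (N' * q * q)) 𝔫))) m f' 1 ∧
       m59tl_Ratio (𝔫.map (algebraMap
            (fc_chart ↥O ({lg_lamE (N' * q * q)} : Set ↥(lg_E L (N' * q * q))))
            (ssl_locSub ↥(lg_E L (N' * q * q)) 𝔫)))
        ((ssm_tp_P (fc_chart ↥O ({lg_lamE (N' * q * q)} : Set ↥(lg_E L (N' * q * q))))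
            (s36i_VA O hπ (N' * q) q)).map
          (algebraMap (fc_chart ↥O ({lg_lamE (N' * q * q)} : Set ↥(lg_E L (N' * q * q))))
            (ssl_locSub ↥(lg_E L (N' * q * q)) 𝔫)))
        ((ssm_tp_P (fc_chart ↥O ({lg_lamE (N' * q * q)} : Set ↥(lg_E L (N' * q * q)))) VC).map
          (algebraMap (fc_chart ↥O ({lg_lamE (N' * q * q)} : Set ↥(lg_E L (N' * q * q))))
            (ssl_locSub ↥(lg_E L (N' * q * q)) 𝔫))) m f' 1) := by
    intro 𝔫 h𝔫 hπ𝔫 hPA hPB hPC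
    haveI h𝔫p : 𝔫.IsPrime := h𝔫.isPrime
    obtain ⟨r1, r1'⟩ := htor1 𝔫 h𝔫 hπ𝔫 hPA hPB hPC
    rw [hf']
    exact ⟨m59ti_ratio_norm H hC (2 : Fin 3) (1 : Fin 3) 𝔫 hPC hPB (hcst 2) (hcst 1)
        cCB 1 cCB kC⁻¹ (mul_one _) hRC hRB r1,
      m59ti_ratio_norm H hC (0 : Fin 3) (2 : Fin 3) 𝔫 hPA hPC (hcst 0) (hcst 2)
        cAC cAC⁻¹ 1 kC⁻¹ (mul_inv_cancel _) hRA hRC r1'⟩
  obtain ⟨c, g, hg0, hfg⟩ := m59ti_glue_leg L O N' q hq2 hqN' hπ ζ hζ T3 m hqm hf'0 hf'A hf'B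
    hf'C hord' htor'
  refine ⟨c * ((kC : ↥O) : L), g / R', div_ne_zero hg0 hR'0, ?_⟩
  rw [map_mul, hLO]
  rw [hf'] at hfg
  exact m59ti_unnorm hkCinv hR'0 hfg

include hζ in
set_option synthInstance.maxHeartbeats 400000 in
set_option maxHeartbeats 3200000 in
/-- **the hypotheses `hKCB`, `hKAC` of `m59ti_glue_ratio_leg` from ONE triple point.** -/
theorem m59ti_leg_hK {VC : ValuationSubring ↥(lg_E L (N' * q * q))}
    (T3 : s36asm_Third O hπ N' q hq2 hqN' VC) (m : ℕ)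
    {f : ↥(lg_E L (N' * q * q))}
    (kA kB kC cCB cAC : (↥O)ˣ)
    (hfA : f - algebraMap L ↥(lg_E L (N' * q * q)) ((kA : ↥O) : L) ∈
      (s36i_VA O hπ (N' * q) q).nonunits)
    (hfB : f - algebraMap L ↥(lg_E L (N' * q * q)) ((kB : ↥O) : L) ∈
      (s36i_VB O hπ N' q hq2 hqN').nonunits)
    (hfC : f - algebraMap L ↥(lg_E L (N' * q * q)) ((kC : ↥O) : L) ∈ VC.nonunits)
    (𝔫 : Ideal (fc_chart ↥O ({lg_lamE (N' * q * q)} : Set ↥(lg_E L (N' * q * q)))))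
    (h𝔫 : 𝔫.IsMaximal)
    (hPA : ssm_tp_P (fc_chart ↥O ({lg_lamE (N' * q * q)} : Set ↥(lg_E L (N' * q * q))))
        (s36i_VA O hπ (N' * q) q) ≤ 𝔫)
    (hPB : ssm_tp_P (fc_chart ↥O ({lg_lamE (N' * q * q)} : Set ↥(lg_E L (N' * q * q))))
        (s36i_VB O hπ N' q hq2 hqN') ≤ 𝔫)
    (hPC : ssm_tp_P (fc_chart ↥O ({lg_lamE (N' * q * q)} : Set ↥(lg_E L (N' * q * q)))) VC ≤ 𝔫)
    (hrat :
      (haveI := s36cp_chart_isFractionRing O (L := L) (N' * q * q)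
       haveI := h𝔫.isPrime
       m59tl_Ratio (𝔫.map (algebraMap
            (fc_chart ↥O ({lg_lamE (N' * q * q)} : Set ↥(lg_E L (N' * q * q))))
            (ssl_locSub ↥(lg_E L (N' * q * q)) 𝔫)))
        ((ssm_tp_P (fc_chart ↥O ({lg_lamE (N' * q * q)} : Set ↥(lg_E L (N' * q * q)))) VC).map
          (algebraMap (fc_chart ↥O ({lg_lamE (N' * q * q)} : Set ↥(lg_E L (N' * q * q))))
            (ssl_locSub ↥(lg_E L (N' * q * q)) 𝔫)))
        ((ssm_tp_P (fc_chart ↥O ({lg_lamE (N' * q * q)} : Set ↥(lg_E L (N' * q * q))))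
            (s36i_VB O hπ N' q hq2 hqN')).map
          (algebraMap (fc_chart ↥O ({lg_lamE (N' * q * q)} : Set ↥(lg_E L (N' * q * q))))
            (ssl_locSub ↥(lg_E L (N' * q * q)) 𝔫))) m f
        (m59tl_cst (F0 := ↥(lg_E L (N' * q * q))) 𝔫 cCB) ∧
       m59tl_Ratio (𝔫.map (algebraMap
            (fc_chart ↥O ({lg_lamE (N' * q * q)} : Set ↥(lg_E L (N' * q * q))))
            (ssl_locSub ↥(lg_E L (N' * q * q)) 𝔫)))
        ((ssm_tp_P (fc_chart ↥O ({lg_lamE (N' * q * q)} : Set ↥(lg_E L (N' * q * q))))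
            (s36i_VA O hπ (N' * q) q)).map
          (algebraMap (fc_chart ↥O ({lg_lamE (N' * q * q)} : Set ↥(lg_E L (N' * q * q))))
            (ssl_locSub ↥(lg_E L (N' * q * q)) 𝔫)))
        ((ssm_tp_P (fc_chart ↥O ({lg_lamE (N' * q * q)} : Set ↥(lg_E L (N' * q * q)))) VC).map
          (algebraMap (fc_chart ↥O ({lg_lamE (N' * q * q)} : Set ↥(lg_E L (N' * q * q))))
            (ssl_locSub ↥(lg_E L (N' * q * q)) 𝔫))) m f
        (m59tl_cst (F0 := ↥(lg_E L (N' * q * q))) 𝔫 cAC))) :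
    ((q : ℕ) : ↥O) ∣ (kC : ↥O) - (kB : ↥O) * (cCB : ↥O) ^ m ∧
    ((q : ℕ) : ↥O) ∣ (kA : ↥O) - (kC : ↥O) * (cAC : ↥O) ^ m := by
  obtain ⟨H, P⟩ := m59ti_pts_leg L O N' q hq2 hqN' hπ ζ hζ T3
  letI := ssm_gi_algebra (ssm_al_E_le L (N' * q) q)
  letI := ssm_gi_algebra (ssm_al_E_beta_le L (N' * q) q hq2)
  haveI := ssm_go_isScalarTower O (lg_E L (N' * q * q))
  haveI : FiniteDimensional L⟮(lg_lamE (N' * q * q) : lg_E L (N' * q * q))⟯
      ↥(lg_E L (N' * q * q)) := lgf_finite L (N' * q * q)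
  haveI := s36cp_chart_isFractionRing O (L := L) (N' * q * q)
  have hx : Transcendental L (lg_lamE (L := L) (N' * q * q)) :=
    lgf_lam_transcendental L (N' * q * q) two_ne_zero
  have hxA : Transcendental ↥O (lg_lamE (L := L) (N' * q * q)) :=
    fc_ff_transcendental (L := L) hx
  haveI : IsIntegrallyClosed (Algebra.adjoin ↥O
      ({lg_lamE (N' * q * q)} : Set ↥(lg_E L (N' * q * q)))) := fc_ff_isIntegrallyClosed hxA
  haveI : FaithfulSMul (Algebra.adjoin ↥O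
      ({lg_lamE (N' * q * q)} : Set ↥(lg_E L (N' * q * q)))) ↥(lg_E L (N' * q * q)) :=
    (faithfulSMul_iff_algebraMap_injective _ _).2 Subtype.val_injective
  have hC : ssm_tp_Chart (algebraMap ↥O (Algebra.adjoin ↥O
      ({lg_lamE (N' * q * q)} : Set ↥(lg_E L (N' * q * q)))) ((q : ℕ) : ↥O))
      (fc_chart ↥O ({lg_lamE (N' * q * q)} : Set ↥(lg_E L (N' * q * q)))) :=
    ssm_tp_ff_chart (L := L) hπ hx
  have hLO : ∀ a : ↥O, algebraMap L ↥(lg_E L (N' * q * q)) ((a : ↥O) : L) =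
      algebraMap ↥O ↥(lg_E L (N' * q * q)) a := fun a =>
    (IsScalarTower.algebraMap_apply ↥O L ↥(lg_E L (N' * q * q)) a).symm
  rw [hLO] at hfA hfB hfC
  haveI h𝔫p : 𝔫.IsPrime := h𝔫.isPrime
  exact ⟨m59ti_hK_of_ratio H hC (2 : Fin 3) (1 : Fin 3) 𝔫 hPC hPB hπ kC kB cCB hfC hfB hrat.1,
    m59ti_hK_of_ratio H hC (0 : Fin 3) (2 : Fin 3) 𝔫 hPA hPC hπ kA kC cAC hfA hfC hrat.2⟩

end NFq

end Fermat.Agent.M59
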