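/-
M59 / Sink B, leaf 4 [TOR-SURJ], LEVEL `N' q q`: cell **[RAT2]**, THE TRIPLE POINTS ARE RATIONAL
(helper2; the triple-point twin of `Tor/Rat.lean`).  Prefix `m59tr2_`.

Context = [NF2-CTX] of `Tor/Ex2Leg` (`L` a number field with `ζ_{N'}`, `O` a DVR of `L` with
uniformiser `q` odd, `q ∤ N'`) + the hypotheses of [RAT] (`φ1` a Frobenius of `L` at `O`,
`#k = q ^ (2 j)`) + a third valuation `VC` (`s36asm_Third`).  `E₁ = lg_E L (N' q) ⊆ E₂ = lg_E L (N' q q)`,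
`B₁`, `B₂` their `λ`-charts, `𝔫` a maximal ideal of `B₂` containing `q` and two of `PA, PB, PC`
(a triple point, `s36asm_ptsT1_leg`).

* `m59tr2_rat_abs`  : abstract form.  `B₁ → B₂` integral, `(B₂)_𝔫 = B₂ · (B₁ ∖ 𝔫 ∩ B₁)⁻¹`, every element
                      of `(B₂)_𝔫` congruent modulo `𝔫 (B₂)_𝔫` to an element of `j F₁`, the point
                      `𝔫 ∩ B₁` rational ⟹ `𝔫` rational;
* **`m59tr2_rat`**  : every `b ∈ B₂` is congruent to a constant of `O` modulo the triple point `𝔫`;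
* `m59tr2_rat_R`    : the same in the local ring `R = (B₂)_𝔫`, modulo `𝔫 R`;
* **`m59tr2_rat_unit`** : every unit of `R` is congruent to `m59tl_cst 𝔫 c`, `c ∈ Oˣ`, modulo `𝔫 R`
                      (turns the ratios `cCB`, `cAC ∈ Rˣ` of `m59tx2_ratio_leg` into constants);
* `m59tr2_rat1_unit_cst` : the level-`N' q` statement `m59tr_rat_unit` in `m59tl_cst` form.

Proof.  `s36tnh_two_side` (the engine of `s36tpl_hT1`) gives `hrepr` at the triple point: `𝔫` is the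
only point of `B₂` over `𝔫a = 𝔫 ∩ B₁` and `(B₂)_𝔫` is `B₂` localised at `B₁ ∖ 𝔫a`; the side clause of
`s36g_PtTri` gives: every `s ∈ (B₂)_𝔫` is congruent modulo the branch `a` (⊆ `𝔫 (B₂)_𝔫`) to some
`r = j y`, `y ∈ E₁`.  With `ι s₁ · r = b' ∈ B₂`, `s₁ ∈ B₁ ∖ 𝔫a`: `s₁ y ∈ E₁` is integral over `B₁`, hence
in `B₁` (normal), so `y ∈ (B₁)_𝔫a`, and [RAT] (`m59tr_rat`) at the crossing point `𝔫a ⊇ P1 + P2` of
level `N' q` gives the constants.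
-/
import Mathlib
import Fermat.Agent.M59.SinkB.Tor.Rat
import Fermat.Agent.M59.SinkB.Tor.Glue1
import Fermat.Agent.S36.Model.AsmLegLastT

set_option autoImplicit false
set_option linter.unusedSectionVars false
set_option linter.unusedVariables false
set_option linter.style.haveILetI false

noncomputable section

namespace Fermat.Agent.M59

open Fermat.Agent.SS Fermat.Agent.JT3 Fermat.Agent.S35 Fermat.Agent.S36 IsLocalRing AlgebraicCurve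
  IntermediateField ModularCurve

universe v1 v2

section Abs2

variable {A0 : Type*} [CommRing A0] [IsLocalRing A0]
  {F1 : Type v1} {F2 : Type v2} [Field F1] [Field F2] [Algebra A0 F1] [Algebra A0 F2]
  {B1 : Subalgebra A0 F1} {B2 : Subalgebra A0 F2}
  [IsFractionRing B1 F1] [IsFractionRing B2 F2] [IsNoetherianRing B2]
  [IsIntegrallyClosed B1] [IsIntegrallyClosed B2]
  (ι : B1 →+* B2) (j : F1 →+* F2)
  (hcomm : ∀ x : B1, algebraMap B2 F2 (ι x) = j (algebraMap B1 F1 x)) (hint : ι.IsIntegral)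
  (hιA : ∀ c : A0, ι (algebraMap A0 B1 c) = algebraMap A0 B2 c)
  (𝔫 : Ideal B2) [h𝔫 : 𝔫.IsPrime]

include hcomm hint hιA in
/-- **[RAT2], abstract form**: `B₁ → B₂` an integral extension of normal charts, `𝔫` a point of `B₂`
such that `(B₂)_𝔫 = B₂ · (B₁ ∖ 𝔫 ∩ B₁)⁻¹` (`hrepr`: `𝔫` is the only point over `𝔫 ∩ B₁`) and every
element of `(B₂)_𝔫` is congruent modulo `𝔫 (B₂)_𝔫` to an element of `j F₁` (`hside`).  If the point
`𝔫 ∩ B₁` of `B₁` is `A0`-rational, so is `𝔫`. -/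
theorem m59tr2_rat_abs
    (hrepr : ∀ y : F2, y ∈ ssl_locSub F2 𝔫 → ∃ (s : B1) (b' : B2), s ∉ 𝔫.comap ι ∧
      algebraMap B2 F2 (ι s) * y = algebraMap B2 F2 b')
    (hside : ∀ s : ssl_locSub F2 𝔫, ∃ r : ssl_locSub F2 𝔫, (∃ y : F1, j y = (r : F2)) ∧
      s - r ∈ 𝔫.map (algebraMap B2 (ssl_locSub F2 𝔫)))
    (hm : ∀ a ∈ maximalIdeal A0, algebraMap A0 B1 a ∈ 𝔫.comap ι)
    (hrat1 : ∀ b : B1, ∃ c : A0, b - algebraMap A0 B1 c ∈ 𝔫.comap ι)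
    (b : B2) : ∃ c : A0, b - algebraMap A0 B2 c ∈ 𝔫 := by
  haveI := ssl_loc_isLocalRing (F0 := F2) 𝔫
  have hcomapmap : (𝔫.map (algebraMap B2 (ssl_locSub F2 𝔫))).comap
      (algebraMap B2 (ssl_locSub F2 𝔫)) = 𝔫 := by
    rw [IsLocalization.AtPrime.map_eq_maximalIdeal 𝔫 (ssl_locSub F2 𝔫)]
    exact IsLocalization.AtPrime.under_maximalIdeal (ssl_locSub F2 𝔫) 𝔫
  obtain ⟨r, ⟨y, hy⟩, hsr⟩ := hside (algebraMap B2 (ssl_locSub F2 𝔫) b)
  obtain ⟨s1, b', hs1, hb'⟩ := hrepr (r : F2) r.2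
  -- `s1 y` is integral over `B1`, hence lies in `B1`
  have hjs : j (algebraMap B1 F1 s1 * y) = algebraMap B2 F2 b' := by
    rw [map_mul, ← hcomm, hy, hb']
  have hint1 : IsIntegral B1 (algebraMap B1 F1 s1 * y) := by
    obtain ⟨P, hP, hP0⟩ := hint b'
    refine ⟨P, hP, ?_⟩
    apply j.injective
    rw [map_zero, Polynomial.hom_eval₂, hjs]
    have e : j.comp (algebraMap B1 F1) = (algebraMap B2 F2).comp ι :=
      RingHom.ext fun x => (hcomm x).symm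
    rw [e, ← Polynomial.hom_eval₂, hP0, map_zero]
  obtain ⟨b1, hb1⟩ := IsIntegrallyClosed.isIntegral_iff.1 hint1
  have hιb1 : ι b1 = b' := by
    apply IsFractionRing.injective B2 F2
    rw [hcomm, hb1, hjs]
  -- the two constants
  obtain ⟨c1, hc1⟩ := hrat1 b1
  obtain ⟨c2, hc2⟩ := hrat1 s1
  have hc2u : IsUnit c2 := by
    by_contra hnu
    have h1 : c2 ∈ maximalIdeal A0 := (mem_maximalIdeal c2).2 hnu
    have h2 := hm c2 h1
    apply hs1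
    have := (𝔫.comap ι).add_mem hc2 h2
    rwa [sub_add_cancel] at this
  obtain ⟨u, rfl⟩ := hc2u
  refine ⟨c1 * ((u⁻¹ : A0ˣ) : A0), ?_⟩
  set c : A0 := c1 * ((u⁻¹ : A0ˣ) : A0) with hc
  have hcu : (u : A0) * c = c1 := by
    rw [hc, mul_comm c1, ← mul_assoc, Units.mul_inv, one_mul]
  -- `ι s1 (r - c) = t ∈ 𝔫`
  set t : B2 := ι (b1 - algebraMap A0 B1 c1) - ι (s1 - algebraMap A0 B1 (u : A0)) *
    algebraMap A0 B2 c with ht
  have htn : t ∈ 𝔫 :=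
    𝔫.sub_mem (Ideal.mem_comap.1 hc1) (𝔫.mul_mem_right _ (Ideal.mem_comap.1 hc2))
  have hte : t = b' - ι s1 * algebraMap A0 B2 c := by
    rw [ht, map_sub, map_sub, hιA, hιA, hιb1, ← hcu, map_mul]
    ring
  have hs1' : ι s1 ∉ 𝔫 := fun h => hs1 (Ideal.mem_comap.2 h)
  have hkey : ((ι s1 : B2) : F2) * ((r : F2) - ((algebraMap A0 B2 c : B2) : F2)) = (t : F2) := by
    have e1 : ((ι s1 : B2) : F2) * (r : F2) = ((b' : B2) : F2) := hb'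
    rw [hte, mul_sub, e1]
    push_cast
    ring
  have hmem := ssl_loc_mem_map_of 𝔫 hs1' htn hkey
  rw [← hcomapmap, Ideal.mem_comap]
  have e2 : algebraMap B2 (ssl_locSub F2 𝔫) (b - algebraMap A0 B2 c) =
      (algebraMap B2 (ssl_locSub F2 𝔫) b - r) +
        ⟨(r : F2) - ((algebraMap A0 B2 c : B2) : F2), ssl_loc_mem_of 𝔫 hs1' hkey⟩ := by
    apply Subtype.ext
    push_cast
    have e3 : algebraMap (↥B2) F2 (algebraMap A0 ↥B2 c) = algebraMap A0 F2 c := rfl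
    rw [e3]
    ring
  rw [e2]
  exact Ideal.add_mem _ hsr hmem

end Abs2

section Inst2

variable (L : Type) [Field L] [NumberField L] [Algebra L (AlgebraicClosure ℚ)]
  (O : ValuationSubring L) [IsDiscreteValuationRing O]
variable (N' q : ℕ) [NeZero N'] [NeZero q] [hq : Fact q.Prime] [CharP (ResidueField O) q]
  (hq2 : ¬ 2 ∣ q) (hqN' : ¬ q ∣ N') (hπ : Irreducible ((q : ℕ) : ↥O))
  (ζ : L) (hζ : IsPrimitiveRoot ζ N') (φ1 : L ≃+* L) (hφ1 : s35nf_FrobAt O φ1 q)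

include hζ hφ1 in
set_option synthInstance.maxHeartbeats 400000 in
set_option maxHeartbeats 6400000 in
/-- **[RAT2]**: if `#k = q ^ (2 j)`, every triple point of the chart `B_λ` of the Legendre model at
level `N' q q` is `k`-rational. -/
theorem m59tr2_rat {VC : ValuationSubring ↥(lg_E L (N' * q * q))}
    (T3 : s36asm_Third O hπ N' q hq2 hqN' VC) (j : ℕ)
    (hcard : Nat.card (ResidueField O) = (q ^ 2) ^ j)
    (𝔫 : Ideal (fc_chart ↥O ({lg_lamE (N' * q * q)} : Set ↥(lg_E L (N' * q * q)))))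
    (h𝔫 : 𝔫.IsMaximal)
    (hπ𝔫 : algebraMap ↥O (fc_chart ↥O ({lg_lamE (N' * q * q)} : Set ↥(lg_E L (N' * q * q))))
      ((q : ℕ) : ↥O) ∈ 𝔫)
    (htwo : (ssm_tp_P (fc_chart ↥O ({lg_lamE (N' * q * q)} : Set ↥(lg_E L (N' * q * q))))
          (s36i_VA O hπ (N' * q) q) ≤ 𝔫 ∧
        ssm_tp_P (fc_chart ↥O ({lg_lamE (N' * q * q)} : Set ↥(lg_E L (N' * q * q))))
          (s36i_VB O hπ N' q hq2 hqN') ≤ 𝔫) ∨
      (ssm_tp_P (fc_chart ↥O ({lg_lamE (N' * q * q)} : Set ↥(lg_E L (N' * q * q))))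
          (s36i_VA O hπ (N' * q) q) ≤ 𝔫 ∧
        ssm_tp_P (fc_chart ↥O ({lg_lamE (N' * q * q)} : Set ↥(lg_E L (N' * q * q)))) VC ≤ 𝔫) ∨
      (ssm_tp_P (fc_chart ↥O ({lg_lamE (N' * q * q)} : Set ↥(lg_E L (N' * q * q))))
          (s36i_VB O hπ N' q hq2 hqN') ≤ 𝔫 ∧
        ssm_tp_P (fc_chart ↥O ({lg_lamE (N' * q * q)} : Set ↥(lg_E L (N' * q * q)))) VC ≤ 𝔫))
    (b : fc_chart ↥O ({lg_lamE (N' * q * q)} : Set ↥(lg_E L (N' * q * q)))) :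
    ∃ c : ↥O, b - algebraMap ↥O
      (fc_chart ↥O ({lg_lamE (N' * q * q)} : Set ↥(lg_E L (N' * q * q)))) c ∈ 𝔫 := by
  letI := ssm_gi_algebra (ssm_al_E_le L (N' * q) q)
  letI := ssm_gi_algebra (ssm_al_E_beta_le L (N' * q) q hq2)
  haveI := ssm_go_isScalarTower O (lg_E L (N' * q))
  haveI := ssm_go_isScalarTower O (lg_E L (N' * q * q))
  haveI := lgf_finite L (N' * q)
  haveI := lgf_finite L (N' * q * q)
  have hx1 : Transcendental L (lg_lamE (L := L) (N' * q)) :=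
    lgf_lam_transcendental L (N' * q) two_ne_zero
  have hx2 : Transcendental L (lg_lamE (L := L) (N' * q * q)) :=
    lgf_lam_transcendental L (N' * q * q) two_ne_zero
  haveI : IsNoetherianRing ↥(fc_chart ↥O ({lg_lamE (N' * q)} : Set ↥(lg_E L (N' * q)))) :=
    ssm_ths_chart_isNoetherianRing (A0 := ↥O) (L := L) hx1
  haveI : IsIntegrallyClosed ↥(fc_chart ↥O ({lg_lamE (N' * q)} : Set ↥(lg_E L (N' * q)))) :=
    ssm_ths_chart_isIntegrallyClosed (A0 := ↥O) (L := L) _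
  haveI := s36tn_chart_isFractionRing O (N' * q)
  haveI : IsNoetherianRing
      ↥(fc_chart ↥O ({lg_lamE (N' * q * q)} : Set ↥(lg_E L (N' * q * q)))) :=
    ssm_ths_chart_isNoetherianRing (A0 := ↥O) (L := L) hx2
  haveI : IsIntegrallyClosed
      ↥(fc_chart ↥O ({lg_lamE (N' * q * q)} : Set ↥(lg_E L (N' * q * q)))) :=
    ssm_ths_chart_isIntegrallyClosed (A0 := ↥O) (L := L) _
  haveI := s36cp_chart_isFractionRing O (N' * q * q)
  have hxA : Transcendental ↥O (lg_lamE (L := L) (N' * q * q)) :=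
    fc_ff_transcendental (L := L) hx2
  haveI : IsIntegrallyClosed (Algebra.adjoin ↥O
      ({lg_lamE (N' * q * q)} : Set ↥(lg_E L (N' * q * q)))) := fc_ff_isIntegrallyClosed hxA
  haveI : FaithfulSMul (Algebra.adjoin ↥O
      ({lg_lamE (N' * q * q)} : Set ↥(lg_E L (N' * q * q)))) ↥(lg_E L (N' * q * q)) :=
    (faithfulSMul_iff_algebraMap_injective _ _).2 Subtype.val_injective
  have hxA1 : Transcendental ↥O (lg_lamE (L := L) (N' * q)) :=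
    fc_ff_transcendental (L := L) hx1
  haveI : IsIntegrallyClosed (Algebra.adjoin ↥O
      ({lg_lamE (N' * q)} : Set ↥(lg_E L (N' * q)))) := fc_ff_isIntegrallyClosed hxA1
  haveI : FaithfulSMul (Algebra.adjoin ↥O
      ({lg_lamE (N' * q)} : Set ↥(lg_E L (N' * q)))) ↥(lg_E L (N' * q)) :=
    (faithfulSMul_iff_algebraMap_injective _ _).2 Subtype.val_injective
  -- the level `N' q` package
  have hqO : ((q : ℕ) : O) ∈ maximalIdeal O := ssm_fln_q_mem L O q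
  have hq2' : q ≠ 2 := ssm_fl_ne_two q hq2
  have hp := ssm_ll_prime L N' hπ q hqO hq2' hqN' ζ hζ
  have H1 := ssm_gl_hyp O hπ N' q hq2 hqN' hp.1
  have hC1 := ssm_tp_ff_chart (A0 := ↥O) (L := L) hπ hx1
  have hC2 := ssm_tp_ff_chart (A0 := ↥O) (L := L) hπ hx2
  obtain ⟨⟨hWB1, hWB2⟩, H3, -⟩ := s36asm_all_of_third O hπ N' q hq2 hqN' hp.1 T3
  -- the third valuation
  obtain ⟨rC, resA, resC, hz, hzC, hram, hV2⟩ := s36tpl_third_facts O hπ N' q hq2 hqN' T3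
  -- the components `A`, `B` are smooth
  obtain ⟨hsmA, hsmB, -, -⟩ := s36cp_nf_comp L O hπ N' q hq2 hqN' ζ hζ hWB1 hWB2
  haveI h𝔫p : 𝔫.IsPrime := h𝔫.isPrime
  -- the triple point clause
  have hT1 := s36asm_ptsT1_leg L O N' q hq2 hqN' hπ ζ hζ T3 𝔫 h𝔫 hπ𝔫 htwo
  obtain ⟨hufd, a, b0, c0, ha, hb, hc, hassoc, hab, hac, hbc, hcA, hcB, hcC, hN1u, hN2u, hsA1,
    hsC1, hsB2, hsC2⟩ := hT1
  haveI := ssl_loc_isLocalRing (F0 := ↥(lg_E L (N' * q * q))) 𝔫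
  have hcomapmap : (𝔫.map (algebraMap
      (fc_chart ↥O ({lg_lamE (N' * q * q)} : Set ↥(lg_E L (N' * q * q))))
      (ssl_locSub ↥(lg_E L (N' * q * q)) 𝔫))).comap (algebraMap
      (fc_chart ↥O ({lg_lamE (N' * q * q)} : Set ↥(lg_E L (N' * q * q))))
      (ssl_locSub ↥(lg_E L (N' * q * q)) 𝔫)) = 𝔫 := by
    rw [IsLocalization.AtPrime.map_eq_maximalIdeal 𝔫 (ssl_locSub ↥(lg_E L (N' * q * q)) 𝔫)]
    exact IsLocalization.AtPrime.under_maximalIdeal (ssl_locSub ↥(lg_E L (N' * q * q)) 𝔫) 𝔫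
  have hPA : ssm_tp_P (fc_chart ↥O ({lg_lamE (N' * q * q)} : Set ↥(lg_E L (N' * q * q))))
      (s36i_VA O hπ (N' * q) q) ≤ 𝔫 := by
    have h1 : Ideal.span {a} ≤ 𝔫.map (algebraMap
        (fc_chart ↥O ({lg_lamE (N' * q * q)} : Set ↥(lg_E L (N' * q * q))))
        (ssl_locSub ↥(lg_E L (N' * q * q)) 𝔫)) := by
      rw [hab]; exact Ideal.span_mono (by simp)
    have h2 := Ideal.comap_mono (f := algebraMap
        (fc_chart ↥O ({lg_lamE (N' * q * q)} : Set ↥(lg_E L (N' * q * q))))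
        (ssl_locSub ↥(lg_E L (N' * q * q)) 𝔫)) h1
    rw [hcA, hcomapmap] at h2
    exact h2
  have hPB : ssm_tp_P (fc_chart ↥O ({lg_lamE (N' * q * q)} : Set ↥(lg_E L (N' * q * q))))
      (s36i_VB O hπ N' q hq2 hqN') ≤ 𝔫 := by
    have h1 : Ideal.span {b0} ≤ 𝔫.map (algebraMap
        (fc_chart ↥O ({lg_lamE (N' * q * q)} : Set ↥(lg_E L (N' * q * q))))
        (ssl_locSub ↥(lg_E L (N' * q * q)) 𝔫)) := by
      rw [hab]; exact Ideal.span_mono (by simp)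
    have h2 := Ideal.comap_mono (f := algebraMap
        (fc_chart ↥O ({lg_lamE (N' * q * q)} : Set ↥(lg_E L (N' * q * q))))
        (ssl_locSub ↥(lg_E L (N' * q * q)) 𝔫)) h1
    rw [hcB, hcomapmap] at h2
    exact h2
  -- one side of the triple point: `hrepr`
  have hall1 : ∀ i : Fin 3, i = 0 ∨ i = 1 ∨ i = 2 := by decide
  have h02 : (0 : Fin 3) ≠ 2 := by decide
  have leF : ∀ x ∈ fc_chart ↥O ({lg_lamE (N' * q)} : Set ↥(lg_E L (N' * q))),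
      x ∈ ssm_gl_V1 O hπ N' q := fun x hx => hC1.le H1.over1 hx
  have leV : ∀ x ∈ fc_chart ↥O ({lg_lamE (N' * q)} : Set ↥(lg_E L (N' * q))),
      x ∈ ssm_gl_V2 O hπ N' q hq2 hqN' := fun x hx => hC1.le H1.over2 hx
  obtain ⟨-, hrepr, -, -⟩ := s36tnh_two_side H3 hC2 0 1 2 hall1 h02 rfl rfl hq.out.two_le
    (s36tn_leg_iota O N' q)
    (algebraMap ↥(lg_E L (N' * q)) ↥(lg_E L (N' * q * q)))
    (fun x => rfl) (s36tn_leg_iota_isIntegral O N' q)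
    (ssm_gl_V1 O hπ N' q) (ssm_gl_V2 O hπ N' q hq2 hqN') leF leV
    (s36tpl_rA O hπ N' q) (s36tpl_rB O hπ N' q hq2 hqN') rC
    (algebraMap ↥O (fc_chart ↥O ({lg_lamE (N' * q)} : Set ↥(lg_E L (N' * q)))) ((q : ℕ) : ↥O))
    rfl
    (fun 𝔫1 h𝔫1 h1 h2 => @s36tn_leg_node L _ _ _ O _ N' q _ _ hq _ hq2 hqN' hπ ζ hζ 𝔫1 h𝔫1 h1 h2)
    (fun r hr => (H1.mem_V2_iff hC1).1 hr)
    ⟨s36i_lam2 L N' q hq2 - lg_lamE (N' * q * q),
      Subalgebra.sub_mem _ (s36tpl_lam2_mem_chart O N' q hq2 hqN' hWB1) (fc_x_mem_chart _)⟩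
    hz hzC hram (s36tpl_hins O hπ N' q hq2 hqN') hsmB 𝔫 h𝔫 hPB (Or.inl hPA)
  -- the side clause
  have hside : ∀ s : ssl_locSub ↥(lg_E L (N' * q * q)) 𝔫,
      ∃ r : ssl_locSub ↥(lg_E L (N' * q * q)) 𝔫,
        (∃ y : ↥(lg_E L (N' * q)),
          algebraMap ↥(lg_E L (N' * q)) ↥(lg_E L (N' * q * q)) y = (r : ↥(lg_E L (N' * q * q)))) ∧
        s - r ∈ 𝔫.map (algebraMap
          (fc_chart ↥O ({lg_lamE (N' * q * q)} : Set ↥(lg_E L (N' * q * q))))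
          (ssl_locSub ↥(lg_E L (N' * q * q)) 𝔫)) := by
    intro s
    obtain ⟨r, hrK, hsr⟩ := hsA1 s
    refine ⟨r, RingHom.mem_fieldRange.1 hrK, ?_⟩
    rw [hab]
    exact Ideal.span_mono (by simp) hsr
  -- the point below
  have hmax1 : (𝔫.comap (s36tn_leg_iota O N' q)).IsMaximal :=
    Ideal.isMaximal_comap_of_isIntegral_of_isMaximal' (s36tn_leg_iota O N' q)
      (s36tn_leg_iota_isIntegral O N' q) 𝔫
  have hcA1 := s36tnh_two_comap H3 hC2 (s36tn_leg_iota O N' q)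
    (algebraMap ↥(lg_E L (N' * q)) ↥(lg_E L (N' * q * q))) (fun x => rfl) 0
    (ssm_gl_V1 O hπ N' q) leF (s36tpl_rA O hπ N' q)
  have hcB1 := s36tnh_two_comap H3 hC2 (s36tn_leg_iota O N' q)
    (algebraMap ↥(lg_E L (N' * q)) ↥(lg_E L (N' * q * q))) (fun x => rfl) 1
    (ssm_gl_V2 O hπ N' q hq2 hqN') leV (s36tpl_rB O hπ N' q hq2 hqN')
  have hP1' : ssm_tp_P (fc_chart ↥O ({lg_lamE (N' * q)} : Set ↥(lg_E L (N' * q))))
      (ssm_gl_V1 O hπ N' q) ≤ 𝔫.comap (s36tn_leg_iota O N' q) := by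
    rw [← hcA1]; exact Ideal.comap_mono hPA
  have hP2' : ssm_tp_P (fc_chart ↥O ({lg_lamE (N' * q)} : Set ↥(lg_E L (N' * q))))
      (ssm_gl_V2 O hπ N' q hq2 hqN') ≤ 𝔫.comap (s36tn_leg_iota O N' q) := by
    rw [← hcB1]; exact Ideal.comap_mono hPB
  exact m59tr2_rat_abs (s36tn_leg_iota O N' q)
    (algebraMap ↥(lg_E L (N' * q)) ↥(lg_E L (N' * q * q))) (fun x => rfl)
    (s36tn_leg_iota_isIntegral O N' q) (s36tn_leg_iota_algebraMap O N' q) 𝔫 hrepr hside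
    (m59tr_base_mem L O N' q hq2 hqN' hπ ζ hζ _ hP1')
    (m59tr_rat L O N' q hq2 hqN' hπ ζ hζ φ1 hφ1 j hcard _ hmax1 hP1' hP2') b


include hπ in
/-- the maximal ideal of `O` lies in every prime of the chart containing `q`. -/
theorem m59tr2_base_mem
    (𝔫 : Ideal (fc_chart ↥O ({lg_lamE (N' * q * q)} : Set ↥(lg_E L (N' * q * q)))))
    (hπ𝔫 : algebraMap ↥O (fc_chart ↥O ({lg_lamE (N' * q * q)} : Set ↥(lg_E L (N' * q * q))))
      ((q : ℕ) : ↥O) ∈ 𝔫) :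
    ∀ a ∈ maximalIdeal ↥O, algebraMap ↥O (fc_chart ↥O ({lg_lamE (N' * q * q)} : Set ↥(lg_E L (N' * q * q)))) a ∈ 𝔫 := by
  intro a ha
  rw [hπ.maximalIdeal_eq, Ideal.mem_span_singleton] at ha
  obtain ⟨d, rfl⟩ := ha
  rw [map_mul]
  exact 𝔫.mul_mem_right _ hπ𝔫

include hζ hφ1 in
set_option synthInstance.maxHeartbeats 400000 in
set_option maxHeartbeats 3200000 in
/-- **[RAT2] in the local ring** `R = (B₂)_𝔫` (the ring of `m59tl_Ratio` at a triple point): every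
element of `R` is congruent to a constant of `O` modulo `𝔫 R`. -/
theorem m59tr2_rat_R {VC : ValuationSubring ↥(lg_E L (N' * q * q))}
    (T3 : s36asm_Third O hπ N' q hq2 hqN' VC) (j : ℕ)
    (hcard : Nat.card (ResidueField O) = (q ^ 2) ^ j)
    [IsFractionRing (fc_chart ↥O ({lg_lamE (N' * q * q)} : Set ↥(lg_E L (N' * q * q)))) ↥(lg_E L (N' * q * q))]
    [IsNoetherianRing (fc_chart ↥O ({lg_lamE (N' * q * q)} : Set ↥(lg_E L (N' * q * q))))]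
    [IsIntegrallyClosed (fc_chart ↥O ({lg_lamE (N' * q * q)} : Set ↥(lg_E L (N' * q * q))))]
    (𝔫 : Ideal (fc_chart ↥O ({lg_lamE (N' * q * q)} : Set ↥(lg_E L (N' * q * q))))) [𝔫.IsPrime]
    (h𝔫 : 𝔫.IsMaximal)
    (hπ𝔫 : algebraMap ↥O (fc_chart ↥O ({lg_lamE (N' * q * q)} : Set ↥(lg_E L (N' * q * q))))
      ((q : ℕ) : ↥O) ∈ 𝔫)
    (htwo : (ssm_tp_P (fc_chart ↥O ({lg_lamE (N' * q * q)} : Set ↥(lg_E L (N' * q * q))))
          (s36i_VA O hπ (N' * q) q) ≤ 𝔫 ∧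
        ssm_tp_P (fc_chart ↥O ({lg_lamE (N' * q * q)} : Set ↥(lg_E L (N' * q * q))))
          (s36i_VB O hπ N' q hq2 hqN') ≤ 𝔫) ∨
      (ssm_tp_P (fc_chart ↥O ({lg_lamE (N' * q * q)} : Set ↥(lg_E L (N' * q * q))))
          (s36i_VA O hπ (N' * q) q) ≤ 𝔫 ∧
        ssm_tp_P (fc_chart ↥O ({lg_lamE (N' * q * q)} : Set ↥(lg_E L (N' * q * q)))) VC ≤ 𝔫) ∨
      (ssm_tp_P (fc_chart ↥O ({lg_lamE (N' * q * q)} : Set ↥(lg_E L (N' * q * q))))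
          (s36i_VB O hπ N' q hq2 hqN') ≤ 𝔫 ∧
        ssm_tp_P (fc_chart ↥O ({lg_lamE (N' * q * q)} : Set ↥(lg_E L (N' * q * q)))) VC ≤ 𝔫))
    (r : ssl_locSub ↥(lg_E L (N' * q * q)) 𝔫) :
    ∃ c : ↥O, r - algebraMap (fc_chart ↥O ({lg_lamE (N' * q * q)} : Set ↥(lg_E L (N' * q * q))))
        (ssl_locSub ↥(lg_E L (N' * q * q)) 𝔫)
        (algebraMap ↥O (fc_chart ↥O ({lg_lamE (N' * q * q)} : Set ↥(lg_E L (N' * q * q)))) c) ∈
      Ideal.map (algebraMap (fc_chart ↥O ({lg_lamE (N' * q * q)} : Set ↥(lg_E L (N' * q * q))))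
        (ssl_locSub ↥(lg_E L (N' * q * q)) 𝔫)) 𝔫 :=
  m59tr_rat_loc 𝔫 (m59tr2_base_mem L O N' q hπ 𝔫 hπ𝔫)
    (m59tr2_rat L O N' q hq2 hqN' hπ ζ hζ φ1 hφ1 T3 j hcard 𝔫 h𝔫 hπ𝔫 htwo) r

include hζ hφ1 in
set_option synthInstance.maxHeartbeats 400000 in
set_option maxHeartbeats 3200000 in
/-- **[RAT2] for units of the local ring**: every unit of `R = (B₂)_𝔫`, `𝔫` a triple point, is
congruent modulo `𝔫 R` to the constant `m59tl_cst 𝔫 c` of a unit `c` of `O` (the form that turns the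
ratios `cCB`, `cAC` of (ex2) into constants). -/
theorem m59tr2_rat_unit {VC : ValuationSubring ↥(lg_E L (N' * q * q))}
    (T3 : s36asm_Third O hπ N' q hq2 hqN' VC) (j : ℕ)
    (hcard : Nat.card (ResidueField O) = (q ^ 2) ^ j)
    [IsFractionRing (fc_chart ↥O ({lg_lamE (N' * q * q)} : Set ↥(lg_E L (N' * q * q)))) ↥(lg_E L (N' * q * q))]
    [IsNoetherianRing (fc_chart ↥O ({lg_lamE (N' * q * q)} : Set ↥(lg_E L (N' * q * q))))]
    [IsIntegrallyClosed (fc_chart ↥O ({lg_lamE (N' * q * q)} : Set ↥(lg_E L (N' * q * q))))]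
    (𝔫 : Ideal (fc_chart ↥O ({lg_lamE (N' * q * q)} : Set ↥(lg_E L (N' * q * q))))) [𝔫.IsPrime]
    (h𝔫 : 𝔫.IsMaximal)
    (hπ𝔫 : algebraMap ↥O (fc_chart ↥O ({lg_lamE (N' * q * q)} : Set ↥(lg_E L (N' * q * q))))
      ((q : ℕ) : ↥O) ∈ 𝔫)
    (htwo : (ssm_tp_P (fc_chart ↥O ({lg_lamE (N' * q * q)} : Set ↥(lg_E L (N' * q * q))))
          (s36i_VA O hπ (N' * q) q) ≤ 𝔫 ∧
        ssm_tp_P (fc_chart ↥O ({lg_lamE (N' * q * q)} : Set ↥(lg_E L (N' * q * q))))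
          (s36i_VB O hπ N' q hq2 hqN') ≤ 𝔫) ∨
      (ssm_tp_P (fc_chart ↥O ({lg_lamE (N' * q * q)} : Set ↥(lg_E L (N' * q * q))))
          (s36i_VA O hπ (N' * q) q) ≤ 𝔫 ∧
        ssm_tp_P (fc_chart ↥O ({lg_lamE (N' * q * q)} : Set ↥(lg_E L (N' * q * q)))) VC ≤ 𝔫) ∨
      (ssm_tp_P (fc_chart ↥O ({lg_lamE (N' * q * q)} : Set ↥(lg_E L (N' * q * q))))
          (s36i_VB O hπ N' q hq2 hqN') ≤ 𝔫 ∧
        ssm_tp_P (fc_chart ↥O ({lg_lamE (N' * q * q)} : Set ↥(lg_E L (N' * q * q)))) VC ≤ 𝔫))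
    (u : (ssl_locSub ↥(lg_E L (N' * q * q)) 𝔫)ˣ) :
    ∃ c : (↥O)ˣ, (u : ssl_locSub ↥(lg_E L (N' * q * q)) 𝔫) -
        ((m59tl_cst (F0 := ↥(lg_E L (N' * q * q))) 𝔫 c : (ssl_locSub ↥(lg_E L (N' * q * q)) 𝔫)ˣ) :
          ssl_locSub ↥(lg_E L (N' * q * q)) 𝔫) ∈
      Ideal.map (algebraMap (fc_chart ↥O ({lg_lamE (N' * q * q)} : Set ↥(lg_E L (N' * q * q))))
        (ssl_locSub ↥(lg_E L (N' * q * q)) 𝔫)) 𝔫 :=
  m59tr_rat_loc_unit 𝔫 (m59tr2_base_mem L O N' q hπ 𝔫 hπ𝔫)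
    (m59tr2_rat L O N' q hq2 hqN' hπ ζ hζ φ1 hφ1 T3 j hcard 𝔫 h𝔫 hπ𝔫 htwo) u

include hζ hφ1 in
set_option synthInstance.maxHeartbeats 400000 in
set_option maxHeartbeats 3200000 in
/-- **[RAT] for units, `m59tl_cst` form, level `N' q`**: every unit of `R = (B₁)_𝔫`, `𝔫 ⊇ P1 + P2` a
crossing point, is congruent modulo `𝔫 R` to `m59tl_cst 𝔫 c`, `c` a unit of `O`. -/
theorem m59tr2_rat1_unit_cst (j : ℕ) (hcard : Nat.card (ResidueField O) = (q ^ 2) ^ j)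
    [IsFractionRing (fc_chart ↥O ({lg_lamE (N' * q)} : Set ↥(lg_E L (N' * q)))) ↥(lg_E L (N' * q))]
    [IsNoetherianRing (fc_chart ↥O ({lg_lamE (N' * q)} : Set ↥(lg_E L (N' * q))))]
    [IsIntegrallyClosed (fc_chart ↥O ({lg_lamE (N' * q)} : Set ↥(lg_E L (N' * q))))]
    (𝔫 : Ideal (fc_chart ↥O ({lg_lamE (N' * q)} : Set ↥(lg_E L (N' * q))))) [𝔫.IsPrime]
    (h𝔫 : 𝔫.IsMaximal)
    (hP1 : ssm_tp_P (fc_chart ↥O ({lg_lamE (N' * q)} : Set ↥(lg_E L (N' * q))))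
      (ssm_gl_V1 O hπ N' q) ≤ 𝔫)
    (hP2 : ssm_tp_P (fc_chart ↥O ({lg_lamE (N' * q)} : Set ↥(lg_E L (N' * q))))
      (ssm_gl_V2 O hπ N' q hq2 hqN') ≤ 𝔫)
    (u : (ssl_locSub ↥(lg_E L (N' * q)) 𝔫)ˣ) :
    ∃ c : (↥O)ˣ, (u : ssl_locSub ↥(lg_E L (N' * q)) 𝔫) -
        ((m59tl_cst (F0 := ↥(lg_E L (N' * q))) 𝔫 c : (ssl_locSub ↥(lg_E L (N' * q)) 𝔫)ˣ) :
          ssl_locSub ↥(lg_E L (N' * q)) 𝔫) ∈
      Ideal.map (algebraMap (fc_chart ↥O ({lg_lamE (N' * q)} : Set ↥(lg_E L (N' * q))))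
        (ssl_locSub ↥(lg_E L (N' * q)) 𝔫)) 𝔫 :=
  m59tr_rat_unit L O N' q hq2 hqN' hπ ζ hζ φ1 hφ1 j hcard 𝔫 h𝔫 hP1 hP2 u

end Inst2

end Fermat.Agent.M59
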