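/-
M59 / Sink B, leaf 3 [TOR-SURJ], cell (ex2), THE ASSEMBLY AT THE TRIPLE POINTS (helper23).
Prefix `m59tx2a_`.

Context = [NF2-CTX] of `Tor/Ex2Leg.lean` (helper1): `L ⊆ Q̄` a number field with `ζ_{N'}`, `O` a DVR of
`L` with uniformiser `q` odd, `q ∤ N'`, `E₂ = lg_E L (N' q q)`, `B₂ = fc_chart O {λ}`, `VC` a third
valuation, `PA, PB, PC = ssm_tp_P B₂ VA, VB, VC`.

* **`m59tx2a_leg_tri`** (the level-`N' q q` twin of helper5's `m59tx_leg_node`): `f ≠ 0` with all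
  orders divisible by `m`, `f ≡ kA, kB, kC` at `VA, VB, VC`.  At a maximal ideal `𝔫 ∋ q` of `B₂`
  containing two of `PA, PB, PC`, IF every unit of `R = (B₂)_𝔫` is congruent to a constant of `O`
  modulo `𝔫 R` (hypothesis `hrat` = the literal conclusion of helper2's `m59tr2_rat_unit`, [RAT2]),
  then the two toric data of `f` at `𝔫` are CONSTANTS:
    `∃ cCB cAC ∈ Oˣ, Ratio (𝔫R) (PC R) (PB R) m f (cst cCB) ∧ q ∣ cCBᵐ kB − kC ∧`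
    `                 Ratio (𝔫R) (PA R) (PC R) m f (cst cAC) ∧ q ∣ cACᵐ kC − kA`.
* **`m59tx2a_assemble`**: the combinatorial assembly of (ex2) = two applications of helper5's
  `m59tx_assemble` (points = the triple points, labels `LabA`, `LabB` PARAMETERS): from
  `m59tx2a_leg_tri` at every triple point and the two [TAU-INV2] hypotheses, exponents
  `a b : Sg → ZMod p`, `a Q0 = b Q0 = 0`, and units `ε₁ ε₂` with data `ζ ^ a(Q) ε₁` (between `C`, `B`,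
  at the points `A`-labelled by `Q`) and `ζ ^ b(Q) ε₂` (between `A`, `C`, at the points `B`-labelled
  by `Q`): the shape of the toric datum `T2`.
-/
import Mathlib
import Fermat.Agent.M59.SinkB.Tor.Ex2Leg
import Fermat.Agent.M59.SinkB.Tor.Ex1Leg
import Fermat.Agent.M59.SinkB.Tor.Ex1Abs
import Fermat.Agent.M59.SinkB.Tor.Rat2
import Fermat.Agent.M59.SinkB.Tor.GlueRatio
import Fermat.Agent.M59.SinkB.Tor.Defs2

set_option autoImplicit false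
set_option linter.unusedSectionVars false
set_option linter.unusedVariables false
set_option linter.style.haveILetI false
set_option maxHeartbeats 1000000

noncomputable section

namespace Fermat.Agent.M59

open Fermat.Agent.SS Fermat.Agent.JT3 Fermat.Agent.S35 Fermat.Agent.S36 IsLocalRing AlgebraicCurve
  IntermediateField ModularCurve

section Cst2

universe v

variable {A0 : Type*} [CommRing A0] {F0 : Type v} [Field F0] [Algebra A0 F0]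
variable {B : Subalgebra A0 F0} [IsFractionRing B F0]

/-- the congruence of `m59tx2_ratio_leg` in the shape consumed by `m59tx_const_transfer`. -/
theorem m59tx2a_swap (𝔫 : Ideal B) [h𝔫 : 𝔫.IsPrime] {m : ℕ} (c : (ssl_locSub F0 𝔫)ˣ)
    (k1 k2 : A0ˣ)
    (h : ((m59tl_cst (F0 := F0) 𝔫 k1 : (ssl_locSub F0 𝔫)ˣ) : ssl_locSub F0 𝔫) -
        ((m59tl_cst (F0 := F0) 𝔫 k2 : (ssl_locSub F0 𝔫)ˣ) : ssl_locSub F0 𝔫) *
          (c : ssl_locSub F0 𝔫) ^ m ∈ 𝔫.map (algebraMap B (ssl_locSub F0 𝔫))) :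
    (c : ssl_locSub F0 𝔫) ^ m * ((m59tl_cst (F0 := F0) 𝔫 k2 : (ssl_locSub F0 𝔫)ˣ) :
          ssl_locSub F0 𝔫) - ((m59tl_cst (F0 := F0) 𝔫 k1 : (ssl_locSub F0 𝔫)ˣ) :
          ssl_locSub F0 𝔫) ∈ 𝔫.map (algebraMap B (ssl_locSub F0 𝔫)) := by
  have e : (c : ssl_locSub F0 𝔫) ^ m * ((m59tl_cst (F0 := F0) 𝔫 k2 : (ssl_locSub F0 𝔫)ˣ) :
          ssl_locSub F0 𝔫) - ((m59tl_cst (F0 := F0) 𝔫 k1 : (ssl_locSub F0 𝔫)ˣ) :
          ssl_locSub F0 𝔫) =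
      0 - (((m59tl_cst (F0 := F0) 𝔫 k1 : (ssl_locSub F0 𝔫)ˣ) : ssl_locSub F0 𝔫) -
        ((m59tl_cst (F0 := F0) 𝔫 k2 : (ssl_locSub F0 𝔫)ˣ) : ssl_locSub F0 𝔫) *
          (c : ssl_locSub F0 𝔫) ^ m) := by ring
  rw [e]
  exact Ideal.sub_mem _ (Ideal.zero_mem _) h

end Cst2

section Leg

variable (L : Type) [Field L] [NumberField L] [Algebra L (AlgebraicClosure ℚ)]
  (O : ValuationSubring L) [IsDiscreteValuationRing O]
variable (N' q : ℕ) [NeZero N'] [NeZero q] [hq : Fact q.Prime] [CharP (ResidueField O) q]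
  (hq2 : ¬ 2 ∣ q) (hqN' : ¬ q ∣ N') (hπ : Irreducible ((q : ℕ) : ↥O))
  (ζ : L) (hζ : IsPrimitiveRoot ζ N')

include hζ in
set_option synthInstance.maxHeartbeats 400000 in
set_option maxHeartbeats 3200000 in
/-- **(ex2) at one triple point, Legendre tower at level `N' q q`**: the two toric data of a function
with constant reductions `kA`, `kB`, `kC` are constants `cCB, cAC ∈ Oˣ`, with `cCBᵐ kB ≡ kC` and
`cACᵐ kC ≡ kA mod q` (`hrat` = [RAT2] at the point). -/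
theorem m59tx2a_leg_tri {VC : ValuationSubring ↥(lg_E L (N' * q * q))}
    (T3 : s36asm_Third O hπ N' q hq2 hqN' VC) {m : ℕ} (hm : 0 < m)
    {f : ↥(lg_E L (N' * q * q))} (hf0 : f ≠ 0)
    (hord : ∀ P : Place L ↥(lg_E L (N' * q * q)), (m : ℤ) ∣ P.ord f)
    (kA kB kC : (↥O)ˣ)
    (hfA : f - algebraMap L ↥(lg_E L (N' * q * q)) (((kA : (↥O)ˣ) : ↥O) : L) ∈
      (s36i_VA O hπ (N' * q) q).nonunits)
    (hfB : f - algebraMap L ↥(lg_E L (N' * q * q)) (((kB : (↥O)ˣ) : ↥O) : L) ∈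
      (s36i_VB O hπ N' q hq2 hqN').nonunits)
    (hfC : f - algebraMap L ↥(lg_E L (N' * q * q)) (((kC : (↥O)ˣ) : ↥O) : L) ∈ VC.nonunits)
    (𝔫 : Ideal (fc_chart ↥O ({lg_lamE (N' * q * q)} : Set ↥(lg_E L (N' * q * q)))))
    (h𝔫 : 𝔫.IsMaximal)
    (hπ𝔫 : algebraMap ↥O (fc_chart ↥O ({lg_lamE (N' * q * q)} : Set ↥(lg_E L (N' * q * q))))
      ((q : ℕ) : ↥O) ∈ 𝔫)
    (htwo : (ssm_tp_P (fc_chart ↥O ({lg_lamE (N' * q * q)} : Set ↥(lg_E L (N' * q * q))))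
          (s36i_VA O hπ (N' * q) q) ≤ 𝔫 ∧
        ssm_tp_P (fc_chart ↥O ({lg_lamE (N' * q * q)} : Set ↥(lg_E L (N' * q * q))))
          (s36i_VB O hπ N' q hq2 hqN') ≤ 𝔫) ∨
      (ssm_tp_P (fc_chart ↥O ({lg_lamE (N' * q * q)} : Set ↥(lg_E L (N' * q * q))))
          (s36i_VA O hπ (N' * q) q) ≤ 𝔫 ∧
        ssm_tp_P (fc_chart ↥O ({lg_lamE (N' * q * q)} : Set ↥(lg_E L (N' * q * q)))) VC ≤ 𝔫) ∨
      (ssm_tp_P (fc_chart ↥O ({lg_lamE (N' * q * q)} : Set ↥(lg_E L (N' * q * q))))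
          (s36i_VB O hπ N' q hq2 hqN') ≤ 𝔫 ∧
        ssm_tp_P (fc_chart ↥O ({lg_lamE (N' * q * q)} : Set ↥(lg_E L (N' * q * q)))) VC ≤ 𝔫))
    (hrat : haveI := s36cp_chart_isFractionRing O (L := L) (N' * q * q)
      haveI := h𝔫.isPrime
      ∀ u : (ssl_locSub ↥(lg_E L (N' * q * q)) 𝔫)ˣ, ∃ c : (↥O)ˣ,
        (u : ssl_locSub ↥(lg_E L (N' * q * q)) 𝔫) -
          algebraMap (fc_chart ↥O ({lg_lamE (N' * q * q)} : Set ↥(lg_E L (N' * q * q))))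
            (ssl_locSub ↥(lg_E L (N' * q * q)) 𝔫)
            (algebraMap ↥O (fc_chart ↥O ({lg_lamE (N' * q * q)} : Set ↥(lg_E L (N' * q * q))))
              (c : ↥O)) ∈
        Ideal.map (algebraMap (fc_chart ↥O ({lg_lamE (N' * q * q)} : Set ↥(lg_E L (N' * q * q))))
          (ssl_locSub ↥(lg_E L (N' * q * q)) 𝔫)) 𝔫) :
    haveI := s36cp_chart_isFractionRing O (L := L) (N' * q * q)
    haveI := h𝔫.isPrime
    ∃ cCB cAC : (↥O)ˣ,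
      m59tl_Ratio
        (𝔫.map (algebraMap (fc_chart ↥O ({lg_lamE (N' * q * q)} : Set ↥(lg_E L (N' * q * q))))
          (ssl_locSub ↥(lg_E L (N' * q * q)) 𝔫)))
        ((ssm_tp_P (fc_chart ↥O ({lg_lamE (N' * q * q)} : Set ↥(lg_E L (N' * q * q)))) VC).map
          (algebraMap (fc_chart ↥O ({lg_lamE (N' * q * q)} : Set ↥(lg_E L (N' * q * q))))
            (ssl_locSub ↥(lg_E L (N' * q * q)) 𝔫)))
        ((ssm_tp_P (fc_chart ↥O ({lg_lamE (N' * q * q)} : Set ↥(lg_E L (N' * q * q))))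
          (s36i_VB O hπ N' q hq2 hqN')).map
          (algebraMap (fc_chart ↥O ({lg_lamE (N' * q * q)} : Set ↥(lg_E L (N' * q * q))))
            (ssl_locSub ↥(lg_E L (N' * q * q)) 𝔫))) m (f : ↥(lg_E L (N' * q * q)))
        (m59tl_cst (F0 := ↥(lg_E L (N' * q * q))) 𝔫 cCB) ∧
      ((q : ℕ) : ↥O) ∣ (cCB : ↥O) ^ m * (kB : ↥O) - (kC : ↥O) ∧
      m59tl_Ratio
        (𝔫.map (algebraMap (fc_chart ↥O ({lg_lamE (N' * q * q)} : Set ↥(lg_E L (N' * q * q))))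
          (ssl_locSub ↥(lg_E L (N' * q * q)) 𝔫)))
        ((ssm_tp_P (fc_chart ↥O ({lg_lamE (N' * q * q)} : Set ↥(lg_E L (N' * q * q))))
          (s36i_VA O hπ (N' * q) q)).map
          (algebraMap (fc_chart ↥O ({lg_lamE (N' * q * q)} : Set ↥(lg_E L (N' * q * q))))
            (ssl_locSub ↥(lg_E L (N' * q * q)) 𝔫)))
        ((ssm_tp_P (fc_chart ↥O ({lg_lamE (N' * q * q)} : Set ↥(lg_E L (N' * q * q)))) VC).map
          (algebraMap (fc_chart ↥O ({lg_lamE (N' * q * q)} : Set ↥(lg_E L (N' * q * q))))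
            (ssl_locSub ↥(lg_E L (N' * q * q)) 𝔫))) m (f : ↥(lg_E L (N' * q * q)))
        (m59tl_cst (F0 := ↥(lg_E L (N' * q * q))) 𝔫 cAC) ∧
      ((q : ℕ) : ↥O) ∣ (cAC : ↥O) ^ m * (kC : ↥O) - (kA : ↥O) := by
  haveI := s36cp_chart_isFractionRing O (L := L) (N' * q * q)
  haveI h𝔫p : 𝔫.IsPrime := h𝔫.isPrime
  obtain ⟨cCB, cAC, hCB, hκCB, hAC, hκAC⟩ := m59tx2_ratio_leg L O N' q hq2 hqN' hπ ζ hζ T3 hm hf0
    hord kA kB kC hfA hfB hfC 𝔫 h𝔫 hπ𝔫 htwo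
  obtain ⟨c1, hc1⟩ := hrat cCB
  obtain ⟨c2, hc2⟩ := hrat cAC
  -- the congruences in the shape of `m59tx_const_transfer`
  have hκ1 := m59tx2a_swap (F0 := ↥(lg_E L (N' * q * q))) 𝔫 cCB kC kB hκCB
  have hκ2 := m59tx2a_swap (F0 := ↥(lg_E L (N' * q * q))) 𝔫 cAC kA kC hκAC
  have hmax1 := m59tx_const_transfer (F0 := ↥(lg_E L (N' * q * q))) 𝔫 cCB c1 kC kB hc1 hκ1
  have hmax2 := m59tx_const_transfer (F0 := ↥(lg_E L (N' * q * q))) 𝔫 cAC c2 kA kC hc2 hκ2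
  rw [hπ.maximalIdeal_eq, Ideal.mem_span_singleton] at hmax1 hmax2
  exact ⟨c1, c2, m59tx_ratio_congr _ _ _ hCB hc1, hmax1, m59tx_ratio_congr _ _ _ hAC hc2, hmax2⟩

include hζ in
set_option synthInstance.maxHeartbeats 400000 in
set_option maxHeartbeats 3200000 in
/-- a point of the chart containing the component `PA` contains `q`. -/
theorem m59tx2a_q_mem {VC : ValuationSubring ↥(lg_E L (N' * q * q))}
    (T3 : s36asm_Third O hπ N' q hq2 hqN' VC)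
    (𝔫 : Ideal (fc_chart ↥O ({lg_lamE (N' * q * q)} : Set ↥(lg_E L (N' * q * q)))))
    (hPA : ssm_tp_P (fc_chart ↥O ({lg_lamE (N' * q * q)} : Set ↥(lg_E L (N' * q * q))))
      (s36i_VA O hπ (N' * q) q) ≤ 𝔫) :
    algebraMap ↥O (fc_chart ↥O ({lg_lamE (N' * q * q)} : Set ↥(lg_E L (N' * q * q))))
      ((q : ℕ) : ↥O) ∈ 𝔫 := by
  obtain ⟨H, -⟩ := m59ti_pts_leg L O N' q hq2 hqN' hπ ζ hζ T3
  haveI := ssm_go_isScalarTower O (lg_E L (N' * q * q))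
  haveI : FiniteDimensional L⟮(lg_lamE (N' * q * q) : lg_E L (N' * q * q))⟯
      ↥(lg_E L (N' * q * q)) := lgf_finite L (N' * q * q)
  have hx : Transcendental L (lg_lamE (L := L) (N' * q * q)) :=
    lgf_lam_transcendental L (N' * q * q) two_ne_zero
  have hxA : Transcendental ↥O (lg_lamE (L := L) (N' * q * q)) :=
    fc_ff_transcendental (L := L) hx
  haveI : IsIntegrallyClosed (Algebra.adjoin ↥O
      ({lg_lamE (N' * q * q)} : Set ↥(lg_E L (N' * q * q)))) := fc_ff_isIntegrallyClosed hxA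
  haveI : FaithfulSMul (Algebra.adjoin ↥O
      ({lg_lamE (N' * q * q)} : Set ↥(lg_E L (N' * q * q)))) ↥(lg_E L (N' * q * q)) :=
    (faithfulSMul_iff_algebraMap_injective _ _).2 Subtype.val_injective
  have hC : ssm_tp_Chart (algebraMap ↥O (Algebra.adjoin ↥O
      ({lg_lamE (N' * q * q)} : Set ↥(lg_E L (N' * q * q)))) ((q : ℕ) : ↥O))
      (fc_chart ↥O ({lg_lamE (N' * q * q)} : Set ↥(lg_E L (N' * q * q)))) :=
    ssm_tp_ff_chart (L := L) hπ hx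
  exact hPA (H.pi_mem_P hC _ rfl (0 : Fin 3))

end Leg

/-! ### the assembly against `Tor/Defs2.lean` -/

section Asm2

open Fermat.Agent.S24 Fermat.Agent.S44 Fermat.Agent.SS2

local notation "Qb" => AlgebraicClosure ℚ

variable (A : ValuationSubring Qb) {q : ℕ} [hq : Fact q.Prime] (hA : A.LiesOverPrime q)
  (N' : ℕ) [NeZero N'] [NeZero q] [NeZero (N' * q)] [NeZero (N' * q * q)]
  (hq2 : ¬ 2 ∣ q) (hqN' : ¬ q ∣ N')
  (L : IntermediateField ℚ Qb) [NumberField ↥L]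
  [IsDiscreteValuationRing ↥(A.comap (algebraMap ↥L Qb))]
  [CharP (ResidueField ↥(A.comap (algebraMap ↥L Qb))) q]
  (hπq : Irreducible ((q : ℕ) : ↥(A.comap (algebraMap ↥L Qb))))
  (ζN : ↥L) (hζN : IsPrimitiveRoot ζN N') (φ1 : ↥L ≃+* ↥L)
  (hφ1 : s35nf_FrobAt (A.comap (algebraMap ↥L Qb)) φ1 q)

include hζN hφ1 in
set_option synthInstance.maxHeartbeats 400000 in
set_option maxHeartbeats 3200000 in
/-- **(ex2) at one triple point**, vocabulary of `Defs2`: the two toric data of a function with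
constant reductions `kA`, `kB`, `kC` are constants `cCB`, `cAC ∈ Oˣ`, with `q ∣ cCBᵐ kB - kC` and
`q ∣ cACᵐ kC - kA`. -/
theorem m59tx2a_ratio_exists (j : ℕ)
    (hcard : Nat.card (ResidueField ↥(A.comap (algebraMap ↥L Qb))) = (q ^ 2) ^ j)
    {VC : ValuationSubring ↥(lg_E ↥L (N' * q * q))}
    (T3 : s36asm_Third (A.comap (algebraMap ↥L Qb)) hπq N' q hq2 hqN' VC)
    {m : ℕ} (hm : 0 < m) {f : ↥(lg_E ↥L (N' * q * q))} (hf0 : f ≠ 0)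
    (hord : ∀ v : Place ↥L ↥(lg_E ↥L (N' * q * q)), (m : ℤ) ∣ v.ord f)
    (kA kB kC : (↥(A.comap (algebraMap ↥L Qb)))ˣ)
    (hfA : f - algebraMap ↥L ↥(lg_E ↥L (N' * q * q))
        ((kA : ↥(A.comap (algebraMap ↥L Qb))) : ↥L) ∈
      (s36i_VA (A.comap (algebraMap ↥L Qb)) hπq (N' * q) q).nonunits)
    (hfB : f - algebraMap ↥L ↥(lg_E ↥L (N' * q * q))
        ((kB : ↥(A.comap (algebraMap ↥L Qb))) : ↥L) ∈
      (s36i_VB (A.comap (algebraMap ↥L Qb)) hπq N' q hq2 hqN').nonunits)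
    (hfC : f - algebraMap ↥L ↥(lg_E ↥L (N' * q * q))
        ((kC : ↥(A.comap (algebraMap ↥L Qb))) : ↥L) ∈ VC.nonunits)
    (𝔫 : Ideal ↥(m59t2_B2 A N' q L)) (h𝔫 : 𝔫.IsMaximal)
    (hPA : m59t2_PA A N' L hπq ≤ 𝔫) (hPB : m59t2_PB A N' hq2 hqN' L hπq ≤ 𝔫)
    (hPC : m59t2_PC A N' L VC ≤ 𝔫) :
    ∃ cCB cAC : (↥(A.comap (algebraMap ↥L Qb)))ˣ,
      m59t2_RatioCB A N' hq2 hqN' L hπq VC m 𝔫 h𝔫.isPrime f cCB ∧
      ((q : ℕ) : ↥(A.comap (algebraMap ↥L Qb))) ∣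
        (cCB : ↥(A.comap (algebraMap ↥L Qb))) ^ m * (kB : ↥(A.comap (algebraMap ↥L Qb))) -
          (kC : ↥(A.comap (algebraMap ↥L Qb))) ∧
      m59t2_RatioAC A N' L hπq VC m 𝔫 h𝔫.isPrime f cAC ∧
      ((q : ℕ) : ↥(A.comap (algebraMap ↥L Qb))) ∣
        (cAC : ↥(A.comap (algebraMap ↥L Qb))) ^ m * (kC : ↥(A.comap (algebraMap ↥L Qb))) -
          (kA : ↥(A.comap (algebraMap ↥L Qb))) := by
  have hπ𝔫 := m59tx2a_q_mem ↥L (A.comap (algebraMap ↥L Qb)) N' q hq2 hqN' hπq ζN hζN T3 𝔫 hPA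
  haveI := ssm_go_isScalarTower (A.comap (algebraMap ↥L Qb)) (lg_E ↥L (N' * q * q))
  haveI : FiniteDimensional (↥L)⟮(lg_lamE (N' * q * q) : lg_E ↥L (N' * q * q))⟯
      ↥(lg_E ↥L (N' * q * q)) := lgf_finite ↥L (N' * q * q)
  have hx : Transcendental ↥L (lg_lamE (L := ↥L) (N' * q * q)) :=
    lgf_lam_transcendental ↥L (N' * q * q) two_ne_zero
  haveI := s36cp_chart_isFractionRing (A.comap (algebraMap ↥L Qb)) (L := ↥L) (N' * q * q)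
  haveI := ssm_ths_chart_isNoetherianRing (A0 := ↥(A.comap (algebraMap ↥L Qb))) (L := ↥L) hx
  haveI := ssm_ths_chart_isIntegrallyClosed (A0 := ↥(A.comap (algebraMap ↥L Qb))) (L := ↥L)
    (lg_lamE (N' * q * q) : ↥(lg_E ↥L (N' * q * q)))
  haveI h𝔫p : 𝔫.IsPrime := h𝔫.isPrime
  exact m59tx2a_leg_tri ↥L (A.comap (algebraMap ↥L Qb)) N' q hq2 hqN' hπq ζN hζN T3 hm hf0 hord
    kA kB kC hfA hfB hfC 𝔫 h𝔫 hπ𝔫 (Or.inl ⟨hPA, hPB⟩)
    (fun u => m59tr2_rat_unit ↥L (A.comap (algebraMap ↥L Qb)) N' q hq2 hqN' hπq ζN hζN φ1 hφ1 T3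
      j hcard 𝔫 h𝔫 hπ𝔫 (Or.inl ⟨hPA, hPB⟩) u)

include hζN in
set_option synthInstance.maxHeartbeats 400000 in
/-- the `(C, B)`-datum only matters modulo `q`. -/
theorem m59tx2a_ratioCB_congr {VC : ValuationSubring ↥(lg_E ↥L (N' * q * q))}
    (T3 : s36asm_Third (A.comap (algebraMap ↥L Qb)) hπq N' q hq2 hqN' VC)
    {m : ℕ} {f : ↥(lg_E ↥L (N' * q * q))}
    (𝔫 : Ideal ↥(m59t2_B2 A N' q L)) (h𝔫 : 𝔫.IsMaximal)
    (hPA : m59t2_PA A N' L hπq ≤ 𝔫) {c c' : (↥(A.comap (algebraMap ↥L Qb)))ˣ}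
    (h : m59t2_RatioCB A N' hq2 hqN' L hπq VC m 𝔫 h𝔫.isPrime f c)
    (hcc : ((q : ℕ) : ↥(A.comap (algebraMap ↥L Qb))) ∣
      (c : ↥(A.comap (algebraMap ↥L Qb))) - (c' : ↥(A.comap (algebraMap ↥L Qb)))) :
    m59t2_RatioCB A N' hq2 hqN' L hπq VC m 𝔫 h𝔫.isPrime f c' := by
  have hπ𝔫 := m59tx2a_q_mem ↥L (A.comap (algebraMap ↥L Qb)) N' q hq2 hqN' hπq ζN hζN T3 𝔫 hPA
  haveI := s36cp_chart_isFractionRing (A.comap (algebraMap ↥L Qb)) (L := ↥L) (N' * q * q)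
  haveI h𝔫p : 𝔫.IsPrime := h𝔫.isPrime
  have hbase := m59tr2_base_mem ↥L (A.comap (algebraMap ↥L Qb)) N' q hπq 𝔫 hπ𝔫
  have hmem : (c : ↥(A.comap (algebraMap ↥L Qb))) - (c' : ↥(A.comap (algebraMap ↥L Qb))) ∈
      maximalIdeal ↥(A.comap (algebraMap ↥L Qb)) := by
    rw [hπq.maximalIdeal_eq, Ideal.mem_span_singleton]
    exact hcc
  exact m59tx_ratio_congr _ _ _ h
    (m59tx_cst_sub_mem (F0 := ↥(lg_E ↥L (N' * q * q))) 𝔫 hbase hmem)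

include hζN in
set_option synthInstance.maxHeartbeats 400000 in
/-- the `(A, C)`-datum only matters modulo `q`. -/
theorem m59tx2a_ratioAC_congr {VC : ValuationSubring ↥(lg_E ↥L (N' * q * q))}
    (T3 : s36asm_Third (A.comap (algebraMap ↥L Qb)) hπq N' q hq2 hqN' VC)
    {m : ℕ} {f : ↥(lg_E ↥L (N' * q * q))}
    (𝔫 : Ideal ↥(m59t2_B2 A N' q L)) (h𝔫 : 𝔫.IsMaximal)
    (hPA : m59t2_PA A N' L hπq ≤ 𝔫) {c c' : (↥(A.comap (algebraMap ↥L Qb)))ˣ}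
    (h : m59t2_RatioAC A N' L hπq VC m 𝔫 h𝔫.isPrime f c)
    (hcc : ((q : ℕ) : ↥(A.comap (algebraMap ↥L Qb))) ∣
      (c : ↥(A.comap (algebraMap ↥L Qb))) - (c' : ↥(A.comap (algebraMap ↥L Qb)))) :
    m59t2_RatioAC A N' L hπq VC m 𝔫 h𝔫.isPrime f c' := by
  have hπ𝔫 := m59tx2a_q_mem ↥L (A.comap (algebraMap ↥L Qb)) N' q hq2 hqN' hπq ζN hζN T3 𝔫 hPA
  haveI := s36cp_chart_isFractionRing (A.comap (algebraMap ↥L Qb)) (L := ↥L) (N' * q * q)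
  haveI h𝔫p : 𝔫.IsPrime := h𝔫.isPrime
  have hbase := m59tr2_base_mem ↥L (A.comap (algebraMap ↥L Qb)) N' q hπq 𝔫 hπ𝔫
  have hmem : (c : ↥(A.comap (algebraMap ↥L Qb))) - (c' : ↥(A.comap (algebraMap ↥L Qb))) ∈
      maximalIdeal ↥(A.comap (algebraMap ↥L Qb)) := by
    rw [hπq.maximalIdeal_eq, Ideal.mem_span_singleton]
    exact hcc
  exact m59tx_ratio_congr _ _ _ h
    (m59tx_cst_sub_mem (F0 := ↥(lg_E ↥L (N' * q * q))) 𝔫 hbase hmem)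

/-- **[TAU-INV2], `(C, B)`-half, in the vocabulary of `Defs2`**: two triple points whose images in
`B1` along `aB` carry the same label have the same `(C, B)`-datum of `g'`. -/
def m59tx2a_TauInvA (aB : ↥(m59t1_B1 A N' q L) →+* ↥(m59t2_B2 A N' q L)) (p : ℕ)
    (g' : ↥(lg_E ↥L (N' * q * q))) : Prop :=
  ∀ (VC : ValuationSubring ↥(lg_E ↥L (N' * q * q))),
    s36asm_Third (A.comap (algebraMap ↥L Qb)) hπq N' q hq2 hqN' VC →
    ∀ (𝔫 𝔫' : Ideal ↥(m59t2_B2 A N' q L)) (h𝔫 : 𝔫.IsMaximal) (h𝔫' : 𝔫'.IsMaximal),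
      m59t2_PA A N' L hπq ≤ 𝔫 → m59t2_PB A N' hq2 hqN' L hπq ≤ 𝔫 → m59t2_PC A N' L VC ≤ 𝔫 →
      m59t2_PA A N' L hπq ≤ 𝔫' → m59t2_PB A N' hq2 hqN' L hπq ≤ 𝔫' → m59t2_PC A N' L VC ≤ 𝔫' →
      ∀ Q : s44e_Sg A N' q hq.out hqN',
        m59t1_Lab A hA N' hq2 hqN' L hπq (𝔫.comap aB) Q.1 →
        m59t1_Lab A hA N' hq2 hqN' L hπq (𝔫'.comap aB) Q.1 →
        ∀ ε : (↥(A.comap (algebraMap ↥L Qb)))ˣ,
          m59t2_RatioCB A N' hq2 hqN' L hπq VC p 𝔫 h𝔫.isPrime g' ε →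
          m59t2_RatioCB A N' hq2 hqN' L hπq VC p 𝔫' h𝔫'.isPrime g' ε

/-- **[TAU-INV2], `(A, C)`-half, in the vocabulary of `Defs2`**: two triple points whose images in
`B1` along `bB` carry the same label have the same `(A, C)`-datum of `g'`. -/
def m59tx2a_TauInvB (bB : ↥(m59t1_B1 A N' q L) →+* ↥(m59t2_B2 A N' q L)) (p : ℕ)
    (g' : ↥(lg_E ↥L (N' * q * q))) : Prop :=
  ∀ (VC : ValuationSubring ↥(lg_E ↥L (N' * q * q))),
    s36asm_Third (A.comap (algebraMap ↥L Qb)) hπq N' q hq2 hqN' VC →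
    ∀ (𝔫 𝔫' : Ideal ↥(m59t2_B2 A N' q L)) (h𝔫 : 𝔫.IsMaximal) (h𝔫' : 𝔫'.IsMaximal),
      m59t2_PA A N' L hπq ≤ 𝔫 → m59t2_PB A N' hq2 hqN' L hπq ≤ 𝔫 → m59t2_PC A N' L VC ≤ 𝔫 →
      m59t2_PA A N' L hπq ≤ 𝔫' → m59t2_PB A N' hq2 hqN' L hπq ≤ 𝔫' → m59t2_PC A N' L VC ≤ 𝔫' →
      ∀ Q : s44e_Sg A N' q hq.out hqN',
        m59t1_Lab A hA N' hq2 hqN' L hπq (𝔫.comap bB) Q.1 →
        m59t1_Lab A hA N' hq2 hqN' L hπq (𝔫'.comap bB) Q.1 →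
        ∀ ε : (↥(A.comap (algebraMap ↥L Qb)))ˣ,
          m59t2_RatioAC A N' L hπq VC p 𝔫 h𝔫.isPrime g' ε →
          m59t2_RatioAC A N' L hπq VC p 𝔫' h𝔫'.isPrime g' ε

include hζN hφ1 in
set_option synthInstance.maxHeartbeats 400000 in
set_option maxHeartbeats 3200000 in
/-- **(ex2), assembly**: a normal form of `z` over `L` and [TAU-INV2] for its `g'` give a toric
datum of `z`. -/
theorem m59tx2a_T2_of_nf (j : ℕ)
    (hcard : Nat.card (ResidueField ↥(A.comap (algebraMap ↥L Qb))) = (q ^ 2) ^ j)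
    {p : ℕ} (hp : 0 < p) (ζ : (↥(A.comap (algebraMap ↥L Qb)))ˣ)
    (hζ : IsPrimitiveRoot (ζ : ↥(A.comap (algebraMap ↥L Qb))) p)
    (Q0 : s44e_Sg A N' q hq.out hqN')
    (aB bB : ↥(m59t1_B1 A N' q L) →+* ↥(m59t2_B2 A N' q L))
    {z : JZero (N' * q * q)} {f : modularFunctionFieldBar (N' * q * q)}
    {g1 : laurentBaseChange L (modularFunctionFieldFull (N' * q * q))} {c₀ : Qb}
    {r₀ : modularFunctionFieldBar (N' * q * q)} {k : ↥L} {R g' : ↥(lg_E ↥L (N' * q * q))}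
    (hNF : m59t2_NF A N' hq2 hqN' L hπq p z f g1 c₀ r₀ k R g')
    (hTauA : m59tx2a_TauInvA A hA N' hq2 hqN' L hπq aB p g')
    (hTauB : m59tx2a_TauInvB A hA N' hq2 hqN' L hπq bB p g') :
    ∃ ab : m59t1_B A N' hqN' p Q0 × m59t1_B A N' hqN' p Q0,
      m59t2_T2 A hA N' hq2 hqN' L hπq aB bB p ζ Q0 z ab := by
  classical
  have hNF' := hNF
  obtain ⟨hg1, hc₀, hr₀, hrep, hf, hk, hR, hg'0, hι, hord, hred⟩ := hNF
  by_cases hT : ∃ VC : ValuationSubring ↥(lg_E ↥L (N' * q * q)),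
      s36asm_Third (A.comap (algebraMap ↥L Qb)) hπq N' q hq2 hqN' VC
  · obtain ⟨VC, T3⟩ := hT
    obtain ⟨kA, kB, kC, hkA, hkB, hkC, hfA, hfB, hfC⟩ := hred VC T3
    obtain ⟨kA, rfl⟩ := hkA
    obtain ⟨kB, rfl⟩ := hkB
    obtain ⟨kC, rfl⟩ := hkC
    -- the `(C, B)`-data
    obtain ⟨eA, ε1, heA0, hallA⟩ := m59tx_assemble (O := ↥(A.comap (algebraMap ↥L Qb))) hπq.prime
      hp ζ hζ (kC : ↥(A.comap (algebraMap ↥L Qb))) kB
      (Sg := s44e_Sg A N' q hq.out hqN')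
      (Pt := {𝔫 : Ideal ↥(m59t2_B2 A N' q L) // 𝔫.IsMaximal ∧ m59t2_PA A N' L hπq ≤ 𝔫 ∧
        m59t2_PB A N' hq2 hqN' L hπq ≤ 𝔫 ∧ m59t2_PC A N' L VC ≤ 𝔫}) Q0
      (fun P Q => m59t1_Lab A hA N' hq2 hqN' L hπq (P.1.comap aB) Q.1)
      (fun P c0 => m59t2_RatioCB A N' hq2 hqN' L hπq VC p P.1 P.2.1.isPrime g' c0)
      (fun P => by
        obtain ⟨cCB, cAC, h1, h2, -, -⟩ := m59tx2a_ratio_exists A N' hq2 hqN' L hπq ζN hζN φ1 hφ1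
          j hcard T3 hp hg'0 hord kA kB kC hfA hfB hfC P.1 P.2.1 P.2.2.1 P.2.2.2.1 P.2.2.2.2
        exact ⟨cCB, h1, h2⟩)
      (fun P c0 c0' h hcc => m59tx2a_ratioCB_congr A N' hq2 hqN' L hπq ζN hζN T3 P.1 P.2.1
        P.2.2.1 h hcc)
      (fun P P' Q hPQ hP'Q ε h => hTauA VC T3 P.1 P'.1 P.2.1 P'.2.1 P.2.2.1 P.2.2.2.1 P.2.2.2.2
        P'.2.2.1 P'.2.2.2.1 P'.2.2.2.2 Q hPQ hP'Q ε h)
    -- the `(A, C)`-data
    obtain ⟨eB, ε2, heB0, hallB⟩ := m59tx_assemble (O := ↥(A.comap (algebraMap ↥L Qb))) hπq.prime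
      hp ζ hζ (kA : ↥(A.comap (algebraMap ↥L Qb))) kC
      (Sg := s44e_Sg A N' q hq.out hqN')
      (Pt := {𝔫 : Ideal ↥(m59t2_B2 A N' q L) // 𝔫.IsMaximal ∧ m59t2_PA A N' L hπq ≤ 𝔫 ∧
        m59t2_PB A N' hq2 hqN' L hπq ≤ 𝔫 ∧ m59t2_PC A N' L VC ≤ 𝔫}) Q0
      (fun P Q => m59t1_Lab A hA N' hq2 hqN' L hπq (P.1.comap bB) Q.1)
      (fun P c0 => m59t2_RatioAC A N' L hπq VC p P.1 P.2.1.isPrime g' c0)
      (fun P => by
        obtain ⟨cCB, cAC, -, -, h1, h2⟩ := m59tx2a_ratio_exists A N' hq2 hqN' L hπq ζN hζN φ1 hφ1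
          j hcard T3 hp hg'0 hord kA kB kC hfA hfB hfC P.1 P.2.1 P.2.2.1 P.2.2.2.1 P.2.2.2.2
        exact ⟨cAC, h1, h2⟩)
      (fun P c0 c0' h hcc => m59tx2a_ratioAC_congr A N' hq2 hqN' L hπq ζN hζN T3 P.1 P.2.1
        P.2.2.1 h hcc)
      (fun P P' Q hPQ hP'Q ε h => hTauB VC T3 P.1 P'.1 P.2.1 P'.2.1 P.2.2.1 P.2.2.2.1 P.2.2.2.2
        P'.2.2.1 P'.2.2.2.1 P'.2.2.2.2 Q hPQ hP'Q ε h)
    refine ⟨(fun Q => eA Q.1, fun Q => eB Q.1), f, g1, c₀, r₀, k, R, g', hNF', ε1, ε2, ?_⟩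
    intro VC' T3' 𝔫 h𝔫 hPA hPB hPC Q
    obtain rfl : VC' = VC :=
      m59g12_third_unique (A.comap (algebraMap ↥L Qb)) hπq N' q hq2 hqN' T3 T3'
    have hextA : m59t1_ext A N' hqN'
        (fun Q : {Q : s44e_Sg A N' q hq.out hqN' // Q ≠ Q0} => eA Q.1) Q = eA Q := by
      unfold m59t1_ext
      by_cases hQ : Q = Q0
      · rw [dif_pos hQ, hQ, heA0]
      · rw [dif_neg hQ]
    have hextB : m59t1_ext A N' hqN'
        (fun Q : {Q : s44e_Sg A N' q hq.out hqN' // Q ≠ Q0} => eB Q.1) Q = eB Q := by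
      unfold m59t1_ext
      by_cases hQ : Q = Q0
      · rw [dif_pos hQ, hQ, heB0]
      · rw [dif_neg hQ]
    refine ⟨fun hLab => ?_, fun hLab => ?_⟩
    · beta_reduce
      rw [hextA]
      exact hallA ⟨𝔫, h𝔫, hPA, hPB, hPC⟩ Q hLab
    · beta_reduce
      rw [hextB]
      exact hallB ⟨𝔫, h𝔫, hPA, hPB, hPC⟩ Q hLab
  · refine ⟨(fun _ => 0, fun _ => 0), f, g1, c₀, r₀, k, R, g', hNF', 1, 1, ?_⟩
    intro VC' T3'
    exact absurd ⟨VC', T3'⟩ hT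

end Asm2

end Fermat.Agent.M59
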