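/-
M59 / Sink B, leaf 3 [TOR-SURJ], THE FIELD `ex2` OF `m59tc_DataU` OVER THE BIG LEVEL (helper23).
Prefix `m59tx2a_`.

* `m59tx2a_TauInv2 A hA N' hq2 hqN' S aB bB` : [TAU-INV2] over the big level `S.L1` (helper29's
  `m59ls_Star`): for the `g'` of every normal form `m59t2_NF … p z f g1 c₀ r₀ k R g'` over `S.L1`, the
  two halves `m59tx2a_TauInvA … aB p g'`, `m59tx2a_TauInvB … bB p g'` of `Tor/Ex2Asm.lean`;
* **`m59tx2a_ex2_star`** : the clause (ex2) of `m59tf_Cells2` (Tor/Final.lean) VERBATIM, for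
  ARBITRARY chart maps `aB bB : B1 →+* B2`, from `m59tx2a_TauInv2` alone: the instances, `ζ_{N'}`, the
  Frobenius lift and the cardinality of the residue field come from `S` (as in helper5's
  `m59tx_ex1_star`); `TorL` is stated at the exponent `p ^ 1`, rewritten once.
-/
import Mathlib
import Fermat.Agent.M59.SinkB.Tor.Ex2Asm
import Fermat.Agent.M59.SinkB.Tor.Ex1Star
import Fermat.Agent.M59.SinkB.G12.WireCU

set_option autoImplicit false
set_option linter.unusedSectionVars false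
set_option linter.unusedVariables false
set_option linter.style.haveILetI false
set_option synthInstance.maxHeartbeats 400000
set_option maxHeartbeats 3200000

noncomputable section

namespace Fermat.Agent.M59

open Fermat.Agent.TW

open Polynomial ModularCurve AlgebraicCurve IntermediateField IsLocalRing
open Fermat.Agent.JT3 Fermat.Agent.SS Fermat.Agent.S35 Fermat.Agent.S24 Fermat.Agent.S44
  Fermat.Agent.S36 Fermat.Agent.SS2

local notation "Qb" => AlgebraicClosure ℚ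

section Star

variable (A : ValuationSubring Qb) {q : ℕ} [hq : Fact q.Prime] (hA : A.LiesOverPrime q)
  (N' : ℕ) [NeZero N'] [NeZero q] [NeZero (N' * q)] [NeZero (N' * q * q)] (hq2 : ¬ 2 ∣ q)
  (hqN' : ¬ q ∣ N') {p : ℕ} [hp : Fact p.Prime]

/-- **[TAU-INV2] over the big level**: for the `g'` of every normal form over `S.L1`, two triple
points with the same `aB`-label (resp. `bB`-label) have the same `(C, B)`-datum (resp.
`(A, C)`-datum). -/
def m59tx2a_TauInv2 (S : m59ls_Star N' q p A hq2 hqN')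
    (aB bB : haveI := (m59tx_star_inst A N' hq2 hqN' S).1
      haveI := S.lev.dvr
      ↥(m59t1_B1 A N' q S.L1) →+* ↥(m59t2_B2 A N' q S.L1)) : Prop :=
  haveI := (m59tx_star_inst A N' hq2 hqN' S).1
  haveI := S.lev.dvr
  haveI := m59tx_star_charP A hA N' hq2 hqN' S
  ∀ (z : JZero (N' * q * q)) (f : modularFunctionFieldBar (N' * q * q))
    (g1 : laurentBaseChange S.L1 (modularFunctionFieldFull (N' * q * q))) (c₀ : Qb)
    (r₀ : modularFunctionFieldBar (N' * q * q)) (k : ↥S.L1)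
    (R g' : ↥(lg_E ↥S.L1 (N' * q * q))),
    m59t2_NF A N' hq2 hqN' S.L1 S.lev.irr p z f g1 c₀ r₀ k R g' →
    m59tx2a_TauInvA A hA N' hq2 hqN' S.L1 S.lev.irr aB p g' ∧
      m59tx2a_TauInvB A hA N' hq2 hqN' S.L1 S.lev.irr bB p g'

include hA in
/-- **the field `ex2` of `m59tc_DataU` over the big level** (the clause (ex2) of `m59tf_Cells2`,
verbatim, for arbitrary chart maps): ONE hypothesis, [TAU-INV2]. -/
theorem m59tx2a_ex2_star (S : m59ls_Star N' q p A hq2 hqN') :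
    haveI := (m59tx_star_inst A N' hq2 hqN' S).1
    haveI := S.lev.dvr
    haveI := m59tx_star_charP A hA N' hq2 hqN' S
    ∀ (aB bB : ↥(m59t1_B1 A N' q S.L1) →+* ↥(m59t2_B2 A N' q S.L1))
      (ζ : (↥(A.comap (algebraMap ↥S.L1 Qb)))ˣ)
      (hζ : IsPrimitiveRoot (ζ : ↥(A.comap (algebraMap ↥S.L1 Qb))) p)
      (Q0 : s44e_Sg A N' q hq.out hqN'),
      m59tx2a_TauInv2 A hA N' hq2 hqN' S aB bB →
      ∀ z ∈ m59g12u_TorL A N' q hq2 hqN' S.L1 p 1,
        ∃ c, m59t2_T2 A hA N' hq2 hqN' S.L1 S.lev.irr aB bB p ζ Q0 z c := by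
  haveI := (m59tx_star_inst A N' hq2 hqN' S).1
  haveI := S.lev.dvr
  haveI := m59tx_star_charP A hA N' hq2 hqN' S
  intro aB bB ζ hζ Q0 hTau z hz
  obtain ⟨-, -, f, hrep, hnf⟩ := hz
  rw [pow_one] at hrep hnf
  obtain ⟨g1, c₀, r₀, k, R, g', hNF⟩ :=
    m59t2_nf_of_NFOver A N' hq2 hqN' S.L1 S.lev.irr hrep hnf
  obtain ⟨φ, hφ⟩ := fex_exists_isFrobeniusAt hq.out A hA
  obtain ⟨j, hcard⟩ := S.hcard
  obtain ⟨hTA, hTB⟩ := hTau z f g1 c₀ r₀ k R g' hNF
  exact m59tx2a_T2_of_nf A hA N' hq2 hqN' S.L1 S.lev.irr S.zN S.hzN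
    (S.lev.res φ hφ.mem_decompositionSubgroup).toRingEquiv (S.lev.frobAt φ hφ) j hcard
    hp.out.pos ζ hζ Q0 aB bB hNF hTA hTB

end Star

end Fermat.Agent.M59
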