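/-
M59 / Sink B, leaf 3 [TOR-SURJ], cell [PULL-RESTR] (R3) with (R1), (R2) (helper4, second seat per
chief #5799; prefix `m59tpc_`): THE TWO CHART MAPS `aB bB : B₁ →+* B₂` OF THE LEGENDRE TOWER
`N' q ⊂ N' q q` AND THE SIX COMAP IDENTITIES OF THE VERTICAL PRIMES.

`E₁ = lg_E L (N' q) ⊆ E₂ = lg_E L (N' q q)`, `B₁ = fc_chart O {λ} ⊆ E₁`, `B₂ = fc_chart O {λ} ⊆ E₂`,
`W₁ = ssm_gl_W`, `W₂ = s36i_W2` the Atkin–Lehner involutions, `V₁ V₂` (level `N' q`), `VA VB VC`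
(level `N' q q`).  The field maps `aE bE : E₁ →+* E₂` are PARAMETERS, pinned down on series:
`haE : (aE x : L((X))) = x`, `hbE : (bE x : L((X))) = x(X^q)` (closed instances `m59tpc_aE`,
`m59tpc_bE` at the end).

* (R1) `m59tpc_R1A/B/C` : `VA.comap aE = V₁`, `VB.comap aE = V₂`, `VC.comap aE = V₁`;
* `m59tpc_bE_eq` : `bE y = W₂ (aE (W₁ y))`;
* (R2) `m59tpc_R2A/B/C` : `VA.comap bE = V₁`, `VB.comap bE = V₂`, `VC.comap bE = V₂`;
* (R3) `m59tpc_aB := s36cb_phiA O (N' q) q`, `m59tpc_bB hW1 hW2 := W₂ ∘ aB ∘ W₁` on the charts, with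
  `_coe`, `_coe_of` (`(aB b : E₂) = aE b`, `(bB b : E₂) = bE b`), `_injective`, `_isIntegral`,
  `_algebraMap`; `m59tpc_comap_P` (abstract) and the six identities `m59tpc_PAa … m59tpc_PCb`.
-/
import Mathlib
import Fermat.Agent.S36.CReg.BetaChart
import Fermat.Agent.S36.Tri.LegDataOfThird
import Fermat.Agent.S36.Tri.PtTriLeg

set_option autoImplicit false
set_option linter.unusedSectionVars false
set_option linter.unusedVariables false
set_option linter.style.haveILetI false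
set_option synthInstance.maxHeartbeats 400000
set_option maxHeartbeats 1000000

noncomputable section

namespace Fermat.Agent.M59

open ModularCurve IntermediateField IsLocalRing
open Fermat.Agent.JT3 Fermat.Agent.SS Fermat.Agent.S36

/-! ### abstract: the comap of a vertical prime along a chart map -/

section Abs

/-- **comap of the vertical prime of a chart**: `φ : E₁ → E₂` a field map restricting to
`ι : B₁ → B₂` on the charts, `V` a valuation subring of `E₂` containing `B₂`, `V' = V ∩ E₁`. Then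
`(𝔪_V ∩ B₂) ∩ B₁ = 𝔪_{V'} ∩ B₁`. -/
theorem m59tpc_comap_P {A0 : Type*} [CommRing A0] {E1 E2 : Type*} [Field E1] [Field E2]
    [Algebra A0 E1] [Algebra A0 E2] (B1 : Subalgebra A0 E1) (B2 : Subalgebra A0 E2)
    (φ : E1 →+* E2) (ι : ↥B1 →+* ↥B2) (hι : ∀ b : ↥B1, ((ι b : ↥B2) : E2) = φ (b : E1))
    (V : ValuationSubring E2) (V' : ValuationSubring E1) (hV : V.comap φ = V')
    (hle : ∀ b ∈ B2, b ∈ V) :
    (ssm_tp_P B2 V).comap ι = ssm_tp_P B1 V' := by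
  have hle1 : ∀ b ∈ B1, b ∈ V' := by
    intro b hb
    rw [← hV, ValuationSubring.mem_comap, ← hι ⟨b, hb⟩]
    exact hle _ (ι ⟨b, hb⟩).2
  ext b
  rw [Ideal.mem_comap, ssm_tp_mem_P hle, ssm_tp_mem_P hle1, hι, ← hV, ssm_tpw_nonunits_comap]

end Abs

section Leg

variable {L : Type*} [Field L] [CharZero L] [Algebra L (AlgebraicClosure ℚ)]
  (O : ValuationSubring L) [IsDiscreteValuationRing O] {π : O} (hπ : Irreducible π)
variable (N' q : ℕ) [NeZero N'] [NeZero q] [hq : Fact q.Prime] [CharP (ResidueField O) q]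
  (hq2 : ¬ 2 ∣ q) (hqN' : ¬ q ∣ N')

/-! ### the field maps -/

/-- an `aE` which is the identity on series is the inclusion `E₁ ⊆ E₂`. -/
theorem m59tpc_aE_eq (aE : ↥(lg_E L (N' * q)) →+* ↥(lg_E L (N' * q * q)))
    (haE : ∀ x : ↥(lg_E L (N' * q)),
      ((aE x : ↥(lg_E L (N' * q * q))) : LaurentSeries L) = (x : LaurentSeries L))
    (x : ↥(lg_E L (N' * q))) :
    letI := ssm_gi_algebra (ssm_al_E_le L (N' * q) q)
    aE x = algebraMap ↥(lg_E L (N' * q)) ↥(lg_E L (N' * q * q)) x :=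
  Subtype.ext ((haE x).trans (ssm_gi_coe_algebraMap (ssm_al_E_le L (N' * q) q) x).symm)

/-- (R1A) `VA ∩ E₁ = V₁` along `aE`. -/
theorem m59tpc_R1A (aE : ↥(lg_E L (N' * q)) →+* ↥(lg_E L (N' * q * q)))
    (haE : ∀ x : ↥(lg_E L (N' * q)),
      ((aE x : ↥(lg_E L (N' * q * q))) : LaurentSeries L) = (x : LaurentSeries L)) :
    (s36i_VA O hπ (N' * q) q).comap aE = ssm_gl_V1 O hπ N' q := by
  refine ValuationSubring.ext _ _ fun y => ?_
  rw [ValuationSubring.mem_comap, m59tpc_aE_eq N' q aE haE y]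
  exact s36i_leg_oA O hπ N' q y

/-- (R1B) `VB ∩ E₁ = V₂` along `aE`. -/
theorem m59tpc_R1B (aE : ↥(lg_E L (N' * q)) →+* ↥(lg_E L (N' * q * q)))
    (haE : ∀ x : ↥(lg_E L (N' * q)),
      ((aE x : ↥(lg_E L (N' * q * q))) : LaurentSeries L) = (x : LaurentSeries L)) :
    (s36i_VB O hπ N' q hq2 hqN').comap aE = ssm_gl_V2 O hπ N' q hq2 hqN' := by
  refine ValuationSubring.ext _ _ fun y => ?_
  rw [ValuationSubring.mem_comap, m59tpc_aE_eq N' q aE haE y]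
  exact s36i_leg_oB O hπ N' q hq2 hqN' y

/-- the third-valuation package, unfolded. -/
theorem m59tpc_third {VC : ValuationSubring ↥(lg_E L (N' * q * q))}
    (T3 : s36asm_Third O hπ N' q hq2 hqN' VC) :
    letI := ssm_gi_algebra (ssm_al_E_le L (N' * q) q)
    letI := ssm_gi_algebraV (ssm_al_E_le L (N' * q) q) (ssm_gl_V1 O hπ N' q)
    haveI := ssm_gi_isScalarTower (ssm_al_E_le L (N' * q) q) (ssm_gl_V1 O hπ N' q)
    s36t3_Third ↥(lg_E L (N' * q)) ↥(ssm_gl_V1 O hπ N' q) q (s36at_leg_piF O hπ N' q)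
      (s36asm_z (L := L) N' q hq2 hqN') (s36i_VA O hπ (N' * q) q) VC := T3

/-- (R1C) `VC ∩ E₁ = V₁` along `aE`. -/
theorem m59tpc_R1C (aE : ↥(lg_E L (N' * q)) →+* ↥(lg_E L (N' * q * q)))
    (haE : ∀ x : ↥(lg_E L (N' * q)),
      ((aE x : ↥(lg_E L (N' * q * q))) : LaurentSeries L) = (x : LaurentSeries L))
    {VC : ValuationSubring ↥(lg_E L (N' * q * q))} (T3 : s36asm_Third O hπ N' q hq2 hqN' VC) :
    VC.comap aE = ssm_gl_V1 O hπ N' q := by
  letI := ssm_gi_algebra (ssm_al_E_le L (N' * q) q)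
  letI := ssm_gi_algebraV (ssm_al_E_le L (N' * q) q) (ssm_gl_V1 O hπ N' q)
  haveI := ssm_gi_isScalarTower (ssm_al_E_le L (N' * q) q) (ssm_gl_V1 O hπ N' q)
  have T : s36t3_Third ↥(lg_E L (N' * q)) ↥(ssm_gl_V1 O hπ N' q) q (s36at_leg_piF O hπ N' q)
      (s36asm_z (L := L) N' q hq2 hqN') (s36i_VA O hπ (N' * q) q) VC := T3
  refine ValuationSubring.ext _ _ fun y => ?_
  rw [ValuationSubring.mem_comap, m59tpc_aE_eq N' q aE haE y]
  exact s36i_leg_oC O hπ N' q VC T.overC y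

/-- `VC` is `W₂`-stable. -/
theorem m59tpc_W2_VC {VC : ValuationSubring ↥(lg_E L (N' * q * q))}
    (T3 : s36asm_Third O hπ N' q hq2 hqN' VC) :
    VC.comap (s36i_W2 L N' q hq2 hqN' :
      ↥(lg_E L (N' * q * q)) →+* ↥(lg_E L (N' * q * q))) = VC :=
  s36i_leg_hVC_of_third O hπ N' q hq2 hqN' (m59tpc_third O hπ N' q hq2 hqN' T3)

/-- **`bE = W₂ ∘ aE ∘ W₁`**. -/
theorem m59tpc_bE_eq (aE bE : ↥(lg_E L (N' * q)) →+* ↥(lg_E L (N' * q * q)))
    (haE : ∀ x : ↥(lg_E L (N' * q)),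
      ((aE x : ↥(lg_E L (N' * q * q))) : LaurentSeries L) = (x : LaurentSeries L))
    (hbE : ∀ x : ↥(lg_E L (N' * q)),
      ((bE x : ↥(lg_E L (N' * q * q))) : LaurentSeries L) = qExpand L q (x : LaurentSeries L))
    (y : ↥(lg_E L (N' * q))) :
    bE y = s36i_W2 L N' q hq2 hqN' (aE (ssm_gl_W L N' q hq2 hqN' y)) := by
  apply Subtype.ext
  rw [hbE]
  have h : ((ssm_gl_W L N' q hq2 hqN' y : ↥(lg_E L (N' * q))) : LaurentSeries L) ∈
      lg_E L (N' * q * q) := ssm_al_E_le L (N' * q) q (Subtype.mem _)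
  have e : aE (ssm_gl_W L N' q hq2 hqN' y) =
      ⟨((ssm_gl_W L N' q hq2 hqN' y : ↥(lg_E L (N' * q))) : LaurentSeries L), h⟩ :=
    Subtype.ext (haE _)
  rw [e]
  have e2 := s36w_coe_WE_alpha L N' q hq.out hq2 hqN' (ssm_gl_W L N' q hq2 hqN' y) h
  have e3 : ssm_al_WE L N' q hq.out hq2 hqN' (ssm_gl_W L N' q hq2 hqN' y) = y :=
    ssm_al_WE_WE L N' q hq.out hq2 hqN' y
  rw [e3] at e2
  exact e2.symm

include hq2 hqN' in
/-- (R2A) `VA ∩ E₁ = V₁` along `bE`. -/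
theorem m59tpc_R2A (aE bE : ↥(lg_E L (N' * q)) →+* ↥(lg_E L (N' * q * q)))
    (haE : ∀ x : ↥(lg_E L (N' * q)),
      ((aE x : ↥(lg_E L (N' * q * q))) : LaurentSeries L) = (x : LaurentSeries L))
    (hbE : ∀ x : ↥(lg_E L (N' * q)),
      ((bE x : ↥(lg_E L (N' * q * q))) : LaurentSeries L) = qExpand L q (x : LaurentSeries L)) :
    (s36i_VA O hπ (N' * q) q).comap bE = ssm_gl_V1 O hπ N' q := by
  refine ValuationSubring.ext _ _ fun y => ?_
  rw [ValuationSubring.mem_comap, m59tpc_bE_eq N' q hq2 hqN' aE bE haE hbE y,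
    ← s36i_leg_mem_VB_iff, ← ValuationSubring.mem_comap, m59tpc_R1B O hπ N' q hq2 hqN' aE haE,
    ValuationSubring.mem_comap]
  show ssm_gl_W L N' q hq2 hqN' (ssm_gl_W L N' q hq2 hqN' y) ∈ ssm_gl_V1 O hπ N' q ↔ _
  rw [ssm_gl_W_apply, ssm_gl_W_apply, ssm_al_WE_WE]

/-- (R2B) `VB ∩ E₁ = V₂` along `bE`. -/
theorem m59tpc_R2B (aE bE : ↥(lg_E L (N' * q)) →+* ↥(lg_E L (N' * q * q)))
    (haE : ∀ x : ↥(lg_E L (N' * q)),
      ((aE x : ↥(lg_E L (N' * q * q))) : LaurentSeries L) = (x : LaurentSeries L))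
    (hbE : ∀ x : ↥(lg_E L (N' * q)),
      ((bE x : ↥(lg_E L (N' * q * q))) : LaurentSeries L) = qExpand L q (x : LaurentSeries L)) :
    (s36i_VB O hπ N' q hq2 hqN').comap bE = ssm_gl_V2 O hπ N' q hq2 hqN' := by
  refine ValuationSubring.ext _ _ fun y => ?_
  rw [ValuationSubring.mem_comap, m59tpc_bE_eq N' q hq2 hqN' aE bE haE hbE y,
    s36i_leg_mem_VB_iff, s36i_leg_hWW, ← ValuationSubring.mem_comap,
    m59tpc_R1A O hπ N' q aE haE, ValuationSubring.mem_comap]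
  rfl

/-- (R2C) `VC ∩ E₁ = V₂` along `bE`. -/
theorem m59tpc_R2C (aE bE : ↥(lg_E L (N' * q)) →+* ↥(lg_E L (N' * q * q)))
    (haE : ∀ x : ↥(lg_E L (N' * q)),
      ((aE x : ↥(lg_E L (N' * q * q))) : LaurentSeries L) = (x : LaurentSeries L))
    (hbE : ∀ x : ↥(lg_E L (N' * q)),
      ((bE x : ↥(lg_E L (N' * q * q))) : LaurentSeries L) = qExpand L q (x : LaurentSeries L))
    {VC : ValuationSubring ↥(lg_E L (N' * q * q))} (T3 : s36asm_Third O hπ N' q hq2 hqN' VC) :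
    VC.comap bE = ssm_gl_V2 O hπ N' q hq2 hqN' := by
  refine ValuationSubring.ext _ _ fun y => ?_
  rw [ValuationSubring.mem_comap, m59tpc_bE_eq N' q hq2 hqN' aE bE haE hbE y,
    ← s36i_leg_mem_VC_iff N' q hq2 hqN' VC (m59tpc_W2_VC O hπ N' q hq2 hqN' T3),
    ← ValuationSubring.mem_comap, m59tpc_R1C O hπ N' q hq2 hqN' aE haE T3,
    ValuationSubring.mem_comap]
  rfl

end Leg

end Fermat.Agent.M59

end
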