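/-
M59 / Sink B, leaf 4 [TOR-SURJ] (helper29).  Prefix `m59ls_` (companion of Tor/LStar.lean).

THE MODULAR UNIT HAS A MODEL OVER EVERY SUBFIELD OF `ℚ̄`.  The modular unit `Δ(q)/Δ(q^p)`
(`s44hu_U p N hpN ∈ F̄_N`, `p ∣ N`) has RATIONAL coefficients, so it is fixed by the whole arithmetic
Galois group and descends to every `L1 ⊆ ℚ̄` (`ss2_du_fixed_mem_range`).  Hence the hypothesis
`U1`/`hU1` of helper2's `m59td_dict1_lab` ([DICT1]) holds over EVERY level: the big level `L*` of
`m59ls_Star` needs NO further field and NO further enlargement.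

* `m59ls_U_fixed`    : `τ • U = U` for every `τ ∈ G_ℚ`;
* `m59ls_exists_U`   : `∃ U1 : lg_F L1 N, ssm_al_iotaF L1 N U1 = s44hu_U p N hpN`, for EVERY `L1`;
* `m59ls_dict1`      : [DICT1] over every level containing a primitive `N'`-th root of unity: every
                        crossing point of the chart carries the label of a supersingular place.
-/
import Mathlib
import Fermat.Agent.M59.SinkB.Tor.Dict1
import Fermat.Agent.SS2.DescU.Fixed
import Fermat.Agent.S44.Res.UbarNF

set_option autoImplicit false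
set_option linter.unusedSectionVars false
set_option linter.unusedVariables false
set_option linter.style.haveILetI false

noncomputable section

namespace Fermat.Agent.M59

open Polynomial ModularCurve AlgebraicCurve IntermediateField IsLocalRing
open Fermat.Agent.JT3 Fermat.Agent.SS Fermat.Agent.S35 Fermat.Agent.S24 Fermat.Agent.MZ
  Fermat.Agent.S44 Fermat.Agent.SS2

local notation "Qb" => AlgebraicClosure ℚ

section Model

variable (p N : ℕ) [NeZero p] [NeZero N] (hpN : p ∣ N)

/-- the modular unit has rational coefficients: it is fixed by the arithmetic Galois group. -/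
theorem m59ls_U_fixed (τ : Qb ≃ₐ[ℚ] Qb) :
    arithmeticGalois (modularFunctionFieldFull N) τ • (s44hu_U p N hpN) = s44hu_U p N hpN := by
  apply Subtype.ext
  rw [coe_arithmeticGalois_smul, s44hu_coe_U]
  ext n
  simp only [coeffEmb_coeff, coeffMap_coeff]
  exact τ.commutes _

/-- **the modular unit has a model over every subfield of `ℚ̄`.** -/
theorem m59ls_exists_U (L1 : IntermediateField ℚ Qb) :
    ∃ U1 : lg_F L1 N, ssm_al_iotaF L1 N U1 = s44hu_U p N hpN := by
  obtain ⟨y1, hy1⟩ := ss2_du_fixed_mem_range (modularFunctionFieldFull N) L1 (s44hu_U p N hpN)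
    (fun τ _ => m59ls_U_fixed p N hpN τ)
  have hy1' : (y1 : LaurentSeries L1) ∈ lg_F L1 N := by
    rw [lg_F_eq_laurentBaseChange]
    exact y1.2
  refine ⟨⟨y1, hy1'⟩, ?_⟩
  apply Subtype.ext
  rw [ssm_al_coe_iotaF]
  exact congrArg (fun z : modularFunctionFieldBar N => (z : LaurentSeries Qb)) hy1

end Model

section Dict

variable (A : ValuationSubring Qb) {q : ℕ} [hq : Fact q.Prime] (hA : A.LiesOverPrime q)
  (N' : ℕ) [NeZero N'] [NeZero q] [NeZero (N' * q)] (hq2 : ¬ 2 ∣ q) (hqN' : ¬ q ∣ N')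
  (L : IntermediateField ℚ Qb) [NumberField ↥L]
  [IsDiscreteValuationRing ↥(A.comap (algebraMap ↥L Qb))]
  [CharP (ResidueField ↥(A.comap (algebraMap ↥L Qb))) q]
  {π : ↥(A.comap (algebraMap ↥L Qb))} (hπ : Irreducible π)
  (ζ : ↥L) (hζ : IsPrimitiveRoot ζ N')

include hζ in
/-- **[DICT1] over every level containing a primitive `N'`-th root of unity** (no model hypothesis):
every crossing point `𝔫 ⊇ P1 + P2` of the chart `B1` carries the label of a supersingular place. -/
theorem m59ls_dict1 (𝔫 : Ideal ↥(m59t1_B1 A N' q L)) (h𝔫 : 𝔫.IsMaximal)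
    (hP1 : m59t1_P1 A N' L hπ ≤ 𝔫) (hP2 : m59t1_P2 A N' hq2 hqN' L hπ ≤ 𝔫) :
    ∃ Q : s44e_Sg A N' q hq.out hqN', m59t1_Lab A hA N' hq2 hqN' L hπ 𝔫 Q.1 := by
  obtain ⟨U1, hU1⟩ := m59ls_exists_U q (N' * q) (s44hu_dvd (rfl : N' * q = N' * q)) L
  exact m59td_dict1_lab A hA N' hq2 hqN' L hπ ζ hζ U1 hU1 𝔫 h𝔫 hP1 hP2

end Dict

end Fermat.Agent.M59
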