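/-
M59 / Sink B, leaf 4 [TOR-SURJ], cell (pull), THE ASSEMBLY (helper29; cut v3 #5695 (4c) of helper15,
ruling #5733 (3) of the chief).  Prefix `m59tpa_`.

Context = the context of `Tor/Defs1.lean` / `Tor/Defs2.lean`: `A` a valuation subring of `ℚ̄` over `q`
odd, `q ∤ N'`; `L ⊆ ℚ̄` THE big level `L*` (a number field with `ζ_{N'}`), `O = A ∩ L` a discrete
valuation ring with uniformiser `q`; `E₁ = lg_E L (N' q)`, `E₂ = lg_E L (N' q q)`;
`B₁ = m59t1_B1`, `B₂ = m59t2_B2` the `λ`-charts; `P1 P2 ⊆ B₁`, `PA PB PC ⊆ B₂` the vertical primes;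
`aE bE : E₁ →+* E₂` the two degeneracy maps (`α^*` = the inclusion, `β^*` = `X ↦ X^q`) and
`aB bB : B₁ →+* B₂` their restrictions to the charts (PARAMETERS, as in Defs2; [PULL-RESTR] (R3) of
helper28 supplies them with the six comap identities).

* `m59tpa_hint_of`, `m59tpa_chart_hint` : every element of a chart `fc_chart A0 {x}` is integral over
  `A0[x]` INSIDE the chart (the hypothesis `hint` of helper11's `m59tpl_comap_isMaximal`);
* `m59tpa_PullNF_stmt aE bE p` : the cell [PULL-NF] (helper1) in the shape consumed here: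
  `m59t1_NF u … gu → m59t1_NF v … gv → ∃ f g1 c₀ r₀ k R, m59t2_NF p (α^* u + β^* v) f g1 c₀ r₀ k R
  (aE gu * bE gv)`;
* `m59tpa_PullLoc_stmt aE bE aB bB` : the cell [PULL-LOC] in the vocabulary of Defs1/Defs2;
  **`m59tpa_pullLoc_of`** : it follows from helper11's generic `m59tpl_pull` + `m59tpl_comap_isMaximal`
  and the six comap identities (R3);
* `m59tpa_mem_torL` : `α^* u + β^* v` with an `m59t2_NF` over `L` is in `m59g12u_TorL … L p 1`;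
* **`m59tpa_pull`** : the field `pull` of `m59tc_DataU` for `T1 := m59t1_T1 … p ζ Q0`,
  `T2 := m59t2_T2 … aB bB p ζ Q0`, `TorS := m59g12u_TorL … L p 1`, from [PULL-NF], [PULL-LOC] and
  [DICT1] (`m59ls_dict1`, closed); **`m59tpa_pull_of_restr`** : the same from [PULL-NF] + (R3).
-/
import Mathlib
import Fermat.Agent.M59.SinkB.Tor.UModel
import Fermat.Agent.M59.SinkB.Tor.CountU
import Fermat.Agent.M59.SinkB.Tor.Defs2
import Fermat.Agent.M59.SinkB.Tor.PullLoc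
import Fermat.Agent.M59.SinkB.Tor.GlueLeg
import Fermat.Agent.M59.SinkB.G12.WireCU

set_option autoImplicit false
set_option linter.unusedSectionVars false
set_option linter.unusedVariables false
set_option linter.style.haveILetI false
set_option synthInstance.maxHeartbeats 400000
set_option maxHeartbeats 1000000

noncomputable section

namespace Fermat.Agent.M59

open Polynomial ModularCurve AlgebraicCurve IntermediateField IsLocalRing
open Fermat.Agent.JT3 Fermat.Agent.SS Fermat.Agent.S35 Fermat.Agent.S24 Fermat.Agent.S44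
  Fermat.Agent.S36 Fermat.Agent.SS2

local notation "Qb" => AlgebraicClosure ℚ

section Hint

universe v

/-- integrality over `A0[x]` inside the ambient field gives integrality over `A0[x]` inside a
subalgebra containing `x`. -/
theorem m59tpa_hint_of {A0 : Type*} [CommRing A0] {F0 : Type v} [Field F0] [Algebra A0 F0]
    (B : Subalgebra A0 F0) (x : F0) (hx : x ∈ B) (b : ↥B)
    (hb : IsIntegral (Algebra.adjoin A0 ({x} : Set F0)) (b : F0)) :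
    IsIntegral (Algebra.adjoin A0 ({(⟨x, hx⟩ : ↥B)} : Set ↥B)) b := by
  have hmap : (Algebra.adjoin A0 ({(⟨x, hx⟩ : ↥B)} : Set ↥B)).map B.val =
      Algebra.adjoin A0 ({x} : Set F0) := by
    rw [AlgHom.map_adjoin, Set.image_singleton]
    rfl
  have hex : ∀ s : ↥(Algebra.adjoin A0 ({x} : Set F0)),
      ∃ t : ↥(Algebra.adjoin A0 ({(⟨x, hx⟩ : ↥B)} : Set ↥B)), ((t : ↥B) : F0) = (s : F0) := by
    intro s
    have hs : (s : F0) ∈ (Algebra.adjoin A0 ({(⟨x, hx⟩ : ↥B)} : Set ↥B)).map B.val := by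
      rw [hmap]; exact s.2
    obtain ⟨t, ht, hts⟩ := hs
    exact ⟨⟨t, ht⟩, hts⟩
  choose e he using hex
  have hinj : ∀ t t' : ↥(Algebra.adjoin A0 ({(⟨x, hx⟩ : ↥B)} : Set ↥B)),
      ((t : ↥B) : F0) = ((t' : ↥B) : F0) → t = t' :=
    fun t t' h => Subtype.ext (Subtype.ext h)
  let eR : ↥(Algebra.adjoin A0 ({x} : Set F0)) →+*
      ↥(Algebra.adjoin A0 ({(⟨x, hx⟩ : ↥B)} : Set ↥B)) :=
    { toFun := e
      map_one' := hinj _ _ (by rw [he]; rfl)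
      map_mul' := fun a b => hinj _ _ (by
        rw [he]
        show ((a : F0) * (b : F0)) = ((e a : ↥B) : F0) * ((e b : ↥B) : F0)
        rw [he, he])
      map_zero' := hinj _ _ (by rw [he]; rfl)
      map_add' := fun a b => hinj _ _ (by
        rw [he]
        show ((a : F0) + (b : F0)) = ((e a : ↥B) : F0) + ((e b : ↥B) : F0)
        rw [he, he]) }
  obtain ⟨P, hPm, hPb⟩ := hb
  refine ⟨P.map eR, hPm.map _, ?_⟩
  apply Subtype.val_injective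
  show (B.val : ↥B →+* F0) (eval₂ (algebraMap _ ↥B) b (P.map eR)) = 0
  rw [Polynomial.hom_eval₂, Polynomial.eval₂_map]
  have hcomp : ((B.val : ↥B →+* F0).comp (algebraMap
      ↥(Algebra.adjoin A0 ({(⟨x, hx⟩ : ↥B)} : Set ↥B)) ↥B)).comp eR =
      algebraMap ↥(Algebra.adjoin A0 ({x} : Set F0)) F0 := by
    ext s
    exact he s
  rw [hcomp]
  exact hPb

/-- every element of the chart `fc_chart A0 {x}` is integral over `A0[x]` INSIDE the chart. -/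
theorem m59tpa_chart_hint {A0 : Type*} [CommRing A0] {F0 : Type v} [Field F0] [Algebra A0 F0]
    (x : F0) (b : ↥(fc_chart A0 ({x} : Set F0))) :
    IsIntegral (Algebra.adjoin A0
      ({(⟨x, fc_x_mem_chart x⟩ : ↥(fc_chart A0 ({x} : Set F0)))} :
        Set ↥(fc_chart A0 ({x} : Set F0)))) b :=
  m59tpa_hint_of _ x (fc_x_mem_chart x) b b.2

end Hint

section Stmts

variable (A : ValuationSubring Qb) {q : ℕ} [hq : Fact q.Prime] (hA : A.LiesOverPrime q)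
  (N' : ℕ) [NeZero N'] [NeZero q] [NeZero (N' * q)] [NeZero (N' * q * q)]
  (hq2 : ¬ 2 ∣ q) (hqN' : ¬ q ∣ N')
  (L : IntermediateField ℚ Qb) [NumberField ↥L]
  [IsDiscreteValuationRing ↥(A.comap (algebraMap ↥L Qb))]
  [CharP (ResidueField ↥(A.comap (algebraMap ↥L Qb))) q]
  (hπq : Irreducible ((q : ℕ) : ↥(A.comap (algebraMap ↥L Qb))))

/-- **[PULL-NF]** (helper1), the shape consumed here: the normal forms of `u`, `v` over `L` give a
normal form of `α^* u + β^* v` over `L` with `g' = α^* g_u · β^* g_v`. -/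
def m59tpa_PullNF_stmt (aE bE : ↥(lg_E ↥L (N' * q)) →+* ↥(lg_E ↥L (N' * q * q))) (p : ℕ) : Prop :=
  ∀ (u v : JZero (N' * q)) (x0u x0v : ↥(lg_F ↥L (N' * q))) (cu cv : ↥L)
    (Ru gu Rv gv : ↥(lg_E ↥L (N' * q))),
    m59t1_NF A N' hq2 hqN' L hπq p u x0u cu Ru gu →
    m59t1_NF A N' hq2 hqN' L hπq p v x0v cv Rv gv →
    ∃ (f : modularFunctionFieldBar (N' * q * q))
      (g1 : laurentBaseChange L (modularFunctionFieldFull (N' * q * q))) (c₀ : Qb)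
      (r₀ : modularFunctionFieldBar (N' * q * q)) (k : ↥L) (R : ↥(lg_E ↥L (N' * q * q))),
      m59t2_NF A N' hq2 hqN' L hπq p
        (m59pl_pa (N' * q) q u + m59pl_pb (N' * q) q v) f g1 c₀ r₀ k R (aE gu * bE gv)

/-- **[PULL-LOC]** in the vocabulary of Defs1/Defs2: at a triple point `𝔫` of the chart of level
`N' q q` the two images `𝔫.comap aB`, `𝔫.comap bB` are crossing points of the chart of level `N' q`,
and the toric data of `g_u` at the first, of `g_v` at the second are the `(C, B)`-, resp. the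
`(A, C)`-datum of `α^* g_u · β^* g_v` at `𝔫`. -/
def m59tpa_PullLoc_stmt (aE bE : ↥(lg_E ↥L (N' * q)) →+* ↥(lg_E ↥L (N' * q * q)))
    (aB bB : ↥(m59t1_B1 A N' q L) →+* ↥(m59t2_B2 A N' q L)) : Prop :=
  ∀ VC : ValuationSubring ↥(lg_E ↥L (N' * q * q)),
    s36asm_Third (A.comap (algebraMap ↥L Qb)) hπq N' q hq2 hqN' VC →
    ∀ (𝔫 : Ideal ↥(m59t2_B2 A N' q L)) (h𝔫 : 𝔫.IsMaximal),
      m59t2_PA A N' L hπq ≤ 𝔫 → m59t2_PB A N' hq2 hqN' L hπq ≤ 𝔫 →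
      m59t2_PC A N' L VC ≤ 𝔫 →
      ∃ (ha : (𝔫.comap aB).IsMaximal) (hb : (𝔫.comap bB).IsMaximal),
        m59t1_P1 A N' L hπq ≤ 𝔫.comap aB ∧ m59t1_P2 A N' hq2 hqN' L hπq ≤ 𝔫.comap aB ∧
        m59t1_P1 A N' L hπq ≤ 𝔫.comap bB ∧ m59t1_P2 A N' hq2 hqN' L hπq ≤ 𝔫.comap bB ∧
        ∀ (m : ℕ) (gu gv : ↥(lg_E ↥L (N' * q))) (cu cv : (↥(A.comap (algebraMap ↥L Qb)))ˣ),
          m59t1_RatioAt A N' hq2 hqN' L hπq m (𝔫.comap aB) ha.isPrime gu cu →
          m59t1_RatioAt A N' hq2 hqN' L hπq m (𝔫.comap bB) hb.isPrime gv cv →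
          m59t2_RatioCB A N' hq2 hqN' L hπq VC m 𝔫 h𝔫.isPrime (aE gu * bE gv) cu ∧
          m59t2_RatioAC A N' L hπq VC m 𝔫 h𝔫.isPrime (aE gu * bE gv) cv

end Stmts

section Pull

variable (A : ValuationSubring Qb) {q : ℕ} [hq : Fact q.Prime] (hA : A.LiesOverPrime q)
  (N' : ℕ) [NeZero N'] [NeZero q] [NeZero (N' * q)] [NeZero (N' * q * q)]
  (hq2 : ¬ 2 ∣ q) (hqN' : ¬ q ∣ N')
  (L : IntermediateField ℚ Qb) [NumberField ↥L]
  [IsDiscreteValuationRing ↥(A.comap (algebraMap ↥L Qb))]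
  [CharP (ResidueField ↥(A.comap (algebraMap ↥L Qb))) q]
  (hπq : Irreducible ((q : ℕ) : ↥(A.comap (algebraMap ↥L Qb))))
  (ζN : ↥L) (hζN : IsPrimitiveRoot ζN N')
  (aE bE : ↥(lg_E ↥L (N' * q)) →+* ↥(lg_E ↥L (N' * q * q)))
  (aB bB : ↥(m59t1_B1 A N' q L) →+* ↥(m59t2_B2 A N' q L))
  {p : ℕ} [hp : Fact p.Prime]

/-- a class of `D1` is killed by `p` and fixed by `I_A`. -/
theorem m59tpa_D1_mem {u : JZero (N' * q)} (hu : u ∈ m59tc_D1 N' q p A) :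
    p • u = 0 ∧ ∀ σ ∈ A.inertiaSubgroupIn ℚ, σ • u = u := by
  have h := m59tc_D1_subset N' q p A hu
  refine ⟨?_, h.2.1⟩
  have := h.1
  rwa [pow_one] at this

/-- the sum of the two pull-backs of two classes of `D1`, with a normal form over `L`, is a toric
class over `L`. -/
theorem m59tpa_mem_torL {u v : JZero (N' * q)} (hu : u ∈ m59tc_D1 N' q p A)
    (hv : v ∈ m59tc_D1 N' q p A) {f : modularFunctionFieldBar (N' * q * q)}
    {g1 : laurentBaseChange L (modularFunctionFieldFull (N' * q * q))} {c₀ : Qb}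
    {r₀ : modularFunctionFieldBar (N' * q * q)} {k : ↥L} {R g' : ↥(lg_E ↥L (N' * q * q))}
    (h : m59t2_NF A N' hq2 hqN' L hπq p
      (m59pl_pa (N' * q) q u + m59pl_pb (N' * q) q v) f g1 c₀ r₀ k R g') :
    m59pl_pa (N' * q) q u + m59pl_pb (N' * q) q v ∈ m59g12u_TorL A N' q hq2 hqN' L p 1 := by
  obtain ⟨hu0, hufix⟩ := m59tpa_D1_mem A N' hu
  obtain ⟨hv0, hvfix⟩ := m59tpa_D1_mem A N' hv
  obtain ⟨hrep, hnf⟩ := m59t2_NFOver_of_nf A N' hq2 hqN' L hπq h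
  refine ⟨?_, ?_, f, ?_, ?_⟩
  · rw [pow_one, nsmul_add, ← map_nsmul, ← map_nsmul, hu0, hv0, map_zero, map_zero, add_zero]
  · intro σ hσ
    rw [smul_add, ← m59pl_pa_smul, ← m59pl_pb_smul, hufix σ hσ, hvfix σ hσ]
  · rw [pow_one]
    exact hrep
  · rw [pow_one]
    exact hnf

include hζN in
/-- **(pull)**: the field `pull` of `m59tc_DataU` for `T1 := m59t1_T1`, `T2 := m59t2_T2`,
`TorS := m59g12u_TorL … L p 1`, from [PULL-NF], [PULL-LOC] and [DICT1]. -/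
theorem m59tpa_pull (hNF : m59tpa_PullNF_stmt A N' hq2 hqN' L hπq aE bE p)
    (hLoc : m59tpa_PullLoc_stmt A N' hq2 hqN' L hπq aE bE aB bB)
    (ζ : (↥(A.comap (algebraMap ↥L Qb)))ˣ) (Q0 : s44e_Sg A N' q hq.out hqN') :
    ∀ u ∈ m59tc_D1 N' q p A, ∀ v ∈ m59tc_D1 N' q p A,
      ∀ a b : m59t1_B A N' hqN' p Q0,
      m59t1_T1 A hA N' hq2 hqN' L hπq p ζ Q0 u a → m59t1_T1 A hA N' hq2 hqN' L hπq p ζ Q0 v b →
      m59pl_pa (N' * q) q u + m59pl_pb (N' * q) q v ∈ m59g12u_TorL A N' q hq2 hqN' L p 1 ∧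
        m59t2_T2 A hA N' hq2 hqN' L hπq aB bB p ζ Q0
          (m59pl_pa (N' * q) q u + m59pl_pb (N' * q) q v) (a, b) := by
  intro u hu v hv a b hTu hTv
  obtain ⟨x0u, cu, Ru, gu, hNFu, εu, hRu⟩ := hTu
  obtain ⟨x0v, cv, Rv, gv, hNFv, εv, hRv⟩ := hTv
  obtain ⟨f, g1, c₀, r₀, k, R, h2⟩ := hNF u v x0u x0v cu cv Ru gu Rv gv hNFu hNFv
  refine ⟨m59tpa_mem_torL A N' hq2 hqN' L hπq hu hv h2,
    f, g1, c₀, r₀, k, R, aE gu * bE gv, h2, εu, εv, ?_⟩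
  intro VC T3 𝔫 h𝔫 hPA hPB hPC Q
  obtain ⟨ha, hb, h1a, h2a, h1b, h2b, hx⟩ := hLoc VC T3 𝔫 h𝔫 hPA hPB hPC
  constructor
  · intro hLab
    have r1 := hRu (𝔫.comap aB) ha h1a h2a Q hLab
    obtain ⟨Q', hLab'⟩ := m59ls_dict1 A hA N' hq2 hqN' L hπq ζN hζN (𝔫.comap bB) hb h1b h2b
    have r2 := hRv (𝔫.comap bB) hb h1b h2b Q' hLab'
    exact (hx p gu gv _ _ r1 r2).1
  · intro hLab
    have r2 := hRv (𝔫.comap bB) hb h1b h2b Q hLab
    obtain ⟨Q', hLab'⟩ := m59ls_dict1 A hA N' hq2 hqN' L hπq ζN hζN (𝔫.comap aB) ha h1a h2a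
    have r1 := hRu (𝔫.comap aB) ha h1a h2a Q' hLab'
    exact (hx p gu gv _ _ r1 r2).2

include hζN in
set_option maxHeartbeats 4000000 in
/-- **[PULL-LOC] in the vocabulary of Defs1/Defs2 from the six comap identities (R3)** (helper11's
generic `m59tpl_pull` and `m59tpl_comap_isMaximal`). -/
theorem m59tpa_pullLoc_of
    (haB : ∀ b : ↥(m59t1_B1 A N' q L),
      ((aB b : ↥(m59t2_B2 A N' q L)) : ↥(lg_E ↥L (N' * q * q))) = aE (b : ↥(lg_E ↥L (N' * q))))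
    (hbB : ∀ b : ↥(m59t1_B1 A N' q L),
      ((bB b : ↥(m59t2_B2 A N' q L)) : ↥(lg_E ↥L (N' * q * q))) = bE (b : ↥(lg_E ↥L (N' * q))))
    (haE0 : ∀ c : ↥(A.comap (algebraMap ↥L Qb)),
      aE (algebraMap ↥(A.comap (algebraMap ↥L Qb)) ↥(lg_E ↥L (N' * q)) c) =
        algebraMap ↥(A.comap (algebraMap ↥L Qb)) ↥(lg_E ↥L (N' * q * q)) c)
    (hbE0 : ∀ c : ↥(A.comap (algebraMap ↥L Qb)),
      bE (algebraMap ↥(A.comap (algebraMap ↥L Qb)) ↥(lg_E ↥L (N' * q)) c) =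
        algebraMap ↥(A.comap (algebraMap ↥L Qb)) ↥(lg_E ↥L (N' * q * q)) c)
    (hAa : (m59t2_PA A N' L hπq).comap aB = m59t1_P1 A N' L hπq)
    (hBa : (m59t2_PB A N' hq2 hqN' L hπq).comap aB = m59t1_P2 A N' hq2 hqN' L hπq)
    (hCa : ∀ VC : ValuationSubring ↥(lg_E ↥L (N' * q * q)),
      s36asm_Third (A.comap (algebraMap ↥L Qb)) hπq N' q hq2 hqN' VC →
      (m59t2_PC A N' L VC).comap aB = m59t1_P1 A N' L hπq)
    (hAb : (m59t2_PA A N' L hπq).comap bB = m59t1_P1 A N' L hπq)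
    (hBb : (m59t2_PB A N' hq2 hqN' L hπq).comap bB = m59t1_P2 A N' hq2 hqN' L hπq)
    (hCb : ∀ VC : ValuationSubring ↥(lg_E ↥L (N' * q * q)),
      s36asm_Third (A.comap (algebraMap ↥L Qb)) hπq N' q hq2 hqN' VC →
      (m59t2_PC A N' L VC).comap bB = m59t1_P2 A N' hq2 hqN' L hπq) :
    m59tpa_PullLoc_stmt A N' hq2 hqN' L hπq aE bE aB bB := by
  intro VC T3 𝔫 h𝔫 hPA hPB hPC
  obtain ⟨H, -⟩ := m59ti_pts_leg ↥L (A.comap (algebraMap ↥L Qb)) N' q hq2 hqN' hπq ζN hζN T3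
  haveI := ssm_go_isScalarTower (A.comap (algebraMap ↥L Qb)) (lg_E ↥L (N' * q * q))
  haveI : FiniteDimensional (↥L)⟮(lg_lamE (N' * q * q) : lg_E ↥L (N' * q * q))⟯
      ↥(lg_E ↥L (N' * q * q)) := lgf_finite ↥L (N' * q * q)
  haveI iF2 := s36cp_chart_isFractionRing (A.comap (algebraMap ↥L Qb)) (L := ↥L) (N' * q * q)
  haveI iF1 := (s44ndl_chart_inst (A.comap (algebraMap ↥L Qb)) N' q (L := ↥L)).1
  have hx : Transcendental ↥L (lg_lamE (L := ↥L) (N' * q * q)) :=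
    lgf_lam_transcendental ↥L (N' * q * q) two_ne_zero
  have hxA : Transcendental ↥(A.comap (algebraMap ↥L Qb)) (lg_lamE (L := ↥L) (N' * q * q)) :=
    fc_ff_transcendental (L := ↥L) hx
  haveI : IsIntegrallyClosed (Algebra.adjoin ↥(A.comap (algebraMap ↥L Qb))
      ({lg_lamE (N' * q * q)} : Set ↥(lg_E ↥L (N' * q * q)))) := fc_ff_isIntegrallyClosed hxA
  haveI : FaithfulSMul (Algebra.adjoin ↥(A.comap (algebraMap ↥L Qb))
      ({lg_lamE (N' * q * q)} : Set ↥(lg_E ↥L (N' * q * q)))) ↥(lg_E ↥L (N' * q * q)) :=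
    (faithfulSMul_iff_algebraMap_injective _ _).2 Subtype.val_injective
  have hC : ssm_tp_Chart (algebraMap ↥(A.comap (algebraMap ↥L Qb))
      (Algebra.adjoin ↥(A.comap (algebraMap ↥L Qb))
        ({lg_lamE (N' * q * q)} : Set ↥(lg_E ↥L (N' * q * q))))
      ((q : ℕ) : ↥(A.comap (algebraMap ↥L Qb))))
      (fc_chart ↥(A.comap (algebraMap ↥L Qb))
        ({lg_lamE (N' * q * q)} : Set ↥(lg_E ↥L (N' * q * q)))) :=
    ssm_tp_ff_chart (L := ↥L) hπq hx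
  haveI iA : (m59t2_PA A N' L hπq).IsPrime := H.P_isPrime hC (0 : Fin 3)
  haveI iB : (m59t2_PB A N' hq2 hqN' L hπq).IsPrime := H.P_isPrime hC (1 : Fin 3)
  haveI iC : (m59t2_PC A N' L VC).IsPrime := H.P_isPrime hC (2 : Fin 3)
  have hq𝔫 : algebraMap ↥(A.comap (algebraMap ↥L Qb)) ↥(m59t2_B2 A N' q L)
      ((q : ℕ) : ↥(A.comap (algebraMap ↥L Qb))) ∈ 𝔫 :=
    hPA (H.pi_mem_P hC _ rfl (0 : Fin 3))
  have hspan : (Ideal.span {((q : ℕ) : ↥(A.comap (algebraMap ↥L Qb)))}).IsMaximal := by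
    rw [← hπq.maximalIdeal_eq]
    exact maximalIdeal.isMaximal _
  haveI := h𝔫
  have ha0 : ∀ c : ↥(A.comap (algebraMap ↥L Qb)),
      aB (algebraMap ↥(A.comap (algebraMap ↥L Qb)) ↥(m59t1_B1 A N' q L) c) =
        algebraMap ↥(A.comap (algebraMap ↥L Qb)) ↥(m59t2_B2 A N' q L) c := fun c =>
    Subtype.ext (by rw [haB]; exact haE0 c)
  have hb0 : ∀ c : ↥(A.comap (algebraMap ↥L Qb)),
      bB (algebraMap ↥(A.comap (algebraMap ↥L Qb)) ↥(m59t1_B1 A N' q L) c) =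
        algebraMap ↥(A.comap (algebraMap ↥L Qb)) ↥(m59t2_B2 A N' q L) c := fun c =>
    Subtype.ext (by rw [hbB]; exact hbE0 c)
  have ha : (𝔫.comap aB).IsMaximal :=
    m59tpl_comap_isMaximal aB ha0 _ hspan
      ⟨lg_lamE (N' * q * q), fc_x_mem_chart _⟩ (m59tpa_chart_hint _) 𝔫 hq𝔫
  have hb : (𝔫.comap bB).IsMaximal :=
    m59tpl_comap_isMaximal bB hb0 _ hspan
      ⟨lg_lamE (N' * q * q), fc_x_mem_chart _⟩ (m59tpa_chart_hint _) 𝔫 hq𝔫
  refine ⟨ha, hb, hAa ▸ Ideal.comap_mono hPA, hBa ▸ Ideal.comap_mono hPB,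
    hAb ▸ Ideal.comap_mono hPA, hBb ▸ Ideal.comap_mono hPB, ?_⟩
  intro m gu gv cu cv r1 r2
  haveI := h𝔫.isPrime
  haveI := ha.isPrime
  haveI := hb.isPrime
  exact m59tpl_pull aE bE aB bB haB hbB haE0 hbE0 (m59t1_P1 A N' L hπq)
    (m59t1_P2 A N' hq2 hqN' L hπq) (m59t2_PA A N' L hπq) (m59t2_PB A N' hq2 hqN' L hπq)
    (m59t2_PC A N' L VC) hAa hBa (hCa VC T3) hAb hBb (hCb VC T3) 𝔫 hPA hPB hPC
    (𝔫.comap aB) (𝔫.comap bB) rfl rfl r1 r2

include hζN in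
/-- **(pull) from [PULL-NF] and the six comap identities (R3) of [PULL-RESTR].** -/
theorem m59tpa_pull_of_restr (hNF : m59tpa_PullNF_stmt A N' hq2 hqN' L hπq aE bE p)
    (haB : ∀ b : ↥(m59t1_B1 A N' q L),
      ((aB b : ↥(m59t2_B2 A N' q L)) : ↥(lg_E ↥L (N' * q * q))) = aE (b : ↥(lg_E ↥L (N' * q))))
    (hbB : ∀ b : ↥(m59t1_B1 A N' q L),
      ((bB b : ↥(m59t2_B2 A N' q L)) : ↥(lg_E ↥L (N' * q * q))) = bE (b : ↥(lg_E ↥L (N' * q))))
    (haE0 : ∀ c : ↥(A.comap (algebraMap ↥L Qb)),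
      aE (algebraMap ↥(A.comap (algebraMap ↥L Qb)) ↥(lg_E ↥L (N' * q)) c) =
        algebraMap ↥(A.comap (algebraMap ↥L Qb)) ↥(lg_E ↥L (N' * q * q)) c)
    (hbE0 : ∀ c : ↥(A.comap (algebraMap ↥L Qb)),
      bE (algebraMap ↥(A.comap (algebraMap ↥L Qb)) ↥(lg_E ↥L (N' * q)) c) =
        algebraMap ↥(A.comap (algebraMap ↥L Qb)) ↥(lg_E ↥L (N' * q * q)) c)
    (hAa : (m59t2_PA A N' L hπq).comap aB = m59t1_P1 A N' L hπq)
    (hBa : (m59t2_PB A N' hq2 hqN' L hπq).comap aB = m59t1_P2 A N' hq2 hqN' L hπq)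
    (hCa : ∀ VC : ValuationSubring ↥(lg_E ↥L (N' * q * q)),
      s36asm_Third (A.comap (algebraMap ↥L Qb)) hπq N' q hq2 hqN' VC →
      (m59t2_PC A N' L VC).comap aB = m59t1_P1 A N' L hπq)
    (hAb : (m59t2_PA A N' L hπq).comap bB = m59t1_P1 A N' L hπq)
    (hBb : (m59t2_PB A N' hq2 hqN' L hπq).comap bB = m59t1_P2 A N' hq2 hqN' L hπq)
    (hCb : ∀ VC : ValuationSubring ↥(lg_E ↥L (N' * q * q)),
      s36asm_Third (A.comap (algebraMap ↥L Qb)) hπq N' q hq2 hqN' VC →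
      (m59t2_PC A N' L VC).comap bB = m59t1_P2 A N' hq2 hqN' L hπq)
    (ζ : (↥(A.comap (algebraMap ↥L Qb)))ˣ) (Q0 : s44e_Sg A N' q hq.out hqN') :
    ∀ u ∈ m59tc_D1 N' q p A, ∀ v ∈ m59tc_D1 N' q p A,
      ∀ a b : m59t1_B A N' hqN' p Q0,
      m59t1_T1 A hA N' hq2 hqN' L hπq p ζ Q0 u a → m59t1_T1 A hA N' hq2 hqN' L hπq p ζ Q0 v b →
      m59pl_pa (N' * q) q u + m59pl_pb (N' * q) q v ∈ m59g12u_TorL A N' q hq2 hqN' L p 1 ∧
        m59t2_T2 A hA N' hq2 hqN' L hπq aB bB p ζ Q0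
          (m59pl_pa (N' * q) q u + m59pl_pb (N' * q) q v) (a, b) :=
  m59tpa_pull A hA N' hq2 hqN' L hπq ζN hζN aE bE aB bB hNF
    (m59tpa_pullLoc_of A N' hq2 hqN' L hπq ζN hζN aE bE aB bB haB hbB haE0 hbE0
      hAa hBa hCa hAb hBb hCb) ζ Q0

end Pull

end Fermat.Agent.M59
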