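/-
M59 / Sink B, leaf 4 [TOR-SURJ], cell [PULL-NF] (helper1; cut v3 of helper15, (4a)).  Prefix `m59tpn_`.

THE NORMAL FORM OF `α^* u + β^* v` AT LEVEL `N' q q` FROM THE NORMAL FORMS OF `u`, `v` AT LEVEL `N' q`.

Context: `L1 ⊆ Q̄` a level, `O1 = A ∩ L1` a discrete valuation ring with uniformiser `q` (odd,
`q ∤ N'`); `E₁ = lg_E L1 (N' q) ≤ E₂ = lg_E L1 (N' q q)`; `aE, bE : E₁ →+* E₂` ANY two ring
homomorphisms which on Laurent series are the identity resp. `X ↦ X^q` (hypotheses `haE`, `hbE`; in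
use: the inclusion and the restriction of `qExpandAlgHomC L1 q`, cell [PULL-RESTR]).

* `m59tpn_congr_push`, `m59tpn_const_push`, `m59tpn_congr_prod` : congruences to constants along
  `V.comap φ`; the product of two pulled-back functions is congruent to the product of the constants.
* `m59tpn_const_mem_V1/_V2` : the constants of `O` lie in the two Gauss rings of level `N' q`.
* **`m59tpn_congr3`** : `gu ≡ k1u, k2u`, `gv ≡ k1v, k2v` at `V₁, V₂` ⟹ `aE gu · bE gv ≡ k1u k1v` at `VA`,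
  `≡ k2u k2v` at `VB`, `≡ k1u k2v` at every `VC` over `V₁` along `aE` and over `V₂` along `bE`.
* **`m59tpn_constRed3`** : `s35_ConstRed gu → s35_ConstRed gv → m59sb_ConstRed3 (aE gu · bE gv)`.
  The six restriction facts `VA.comap aE = V₁`, `VB.comap aE = V₂`, `VA.comap bE = V₁`,
  `VB.comap bE = V₂`, `VC.comap aE = V₁`, `VC.comap bE = V₂` (all third valuations `VC`) are HYPOTHESES.
* `m59tpn_model` : `x0u · x0v(X^q)` is a model over `L1` of a representing function of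
  `α^* u + β^* v` (`m59pl_pa_rep`, `m59pl_pb_rep`, `s44b_rep_mul`).
* `m59tpn_iota_eq` : `ι g1 = aE (φ x0u) · bE (φ x0v)`.
* **`m59tpn_pull_nf`** (explicit form), **`m59tpn_nfOver`** (`m59g12u_NFOver` form, `c₀ = r₀ = 1`,
  `k = cu cv`, `R = aE Ru · bE Rv`, `g' = aE gu · bE gv`), and the twins `m59tpn_pull_nf_of_NF`,
  `m59tpn_nfOver_of_NF` with the hypotheses in the shape `m59t1_NF` of `Tor/Defs1.lean`.
-/
import Mathlib
import Fermat.Agent.M59.SinkB.Tor.Defs1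
import Fermat.Agent.M59.SinkB.Tor.Glue1
import Fermat.Agent.M59.SinkB.G12.AsmU
import Fermat.Agent.M59.SinkB.G12.RestrAbs
import Fermat.Agent.M59.SinkB.PullApi.Main
import Fermat.Agent.M59.DTwin.Toric.NormalForm

set_option autoImplicit false
set_option linter.unusedSectionVars false
set_option linter.unusedVariables false
set_option linter.style.haveILetI false
set_option synthInstance.maxHeartbeats 400000
set_option maxHeartbeats 1000000

noncomputable section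

namespace Fermat.Agent.M59

open Polynomial ModularCurve AlgebraicCurve IntermediateField IsLocalRing
open Fermat.Agent.JT3 Fermat.Agent.SS Fermat.Agent.S35 Fermat.Agent.S24 Fermat.Agent.S44
  Fermat.Agent.S36 Fermat.Agent.SS2 Fermat.Agent.TW

local notation "Qb" => AlgebraicClosure ℚ

/-! ### congruences to constants along a ring homomorphism -/

section Congr

variable {L : Type*} [Field L] {E1 E2 : Type*} [Field E1] [Field E2] [Algebra L E1] [Algebra L E2]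

/-- a congruence to a constant along `V.comap φ` is transported by `φ`. -/
theorem m59tpn_congr_push (φ : E1 →+* E2)
    (hφ : ∀ c : L, φ (algebraMap L E1 c) = algebraMap L E2 c) (V : ValuationSubring E2)
    {W : ValuationSubring E1} (hW : V.comap φ = W) {g : E1} {k : L}
    (h : g - algebraMap L E1 k ∈ W.nonunits) : φ g - algebraMap L E2 k ∈ V.nonunits := by
  rw [← hW] at h
  have h1 := (m59g12_comap_nonunits_iff φ V _).1 h
  rwa [map_sub, hφ] at h1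

/-- constants of `V.comap φ` are constants of `V`. -/
theorem m59tpn_const_push (φ : E1 →+* E2)
    (hφ : ∀ c : L, φ (algebraMap L E1 c) = algebraMap L E2 c) (V : ValuationSubring E2)
    {W : ValuationSubring E1} (hW : V.comap φ = W) {k : L} (h : algebraMap L E1 k ∈ W) :
    algebraMap L E2 k ∈ V := by
  rw [← hW, ValuationSubring.mem_comap, hφ] at h
  exact h

/-- **the product of two pulled-back functions is congruent to the product of the constants**: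
`gu ≡ ku` along `V.comap a`, `gv ≡ kv` along `V.comap b` ⟹ `a gu * b gv ≡ ku kv` along `V`. -/
theorem m59tpn_congr_prod (a b : E1 →+* E2)
    (ha : ∀ c : L, a (algebraMap L E1 c) = algebraMap L E2 c)
    (hb : ∀ c : L, b (algebraMap L E1 c) = algebraMap L E2 c) (V : ValuationSubring E2)
    {Wa Wb : ValuationSubring E1} (hWa : V.comap a = Wa) (hWb : V.comap b = Wb)
    {gu gv : E1} {ku kv : L} (hu : gu - algebraMap L E1 ku ∈ Wa.nonunits)
    (hv : gv - algebraMap L E1 kv ∈ Wb.nonunits) (hku : algebraMap L E1 ku ∈ Wa)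
    (hkv : algebraMap L E1 kv ∈ Wb) :
    a gu * b gv - algebraMap L E2 (ku * kv) ∈ V.nonunits := by
  have h1 := m59tpn_congr_push a ha V hWa hu
  have h2 := m59tpn_congr_push b hb V hWb hv
  have h3 := m59tpn_const_push a ha V hWa hku
  have h4 := m59tpn_const_push b hb V hWb hkv
  have h5 : b gv ∈ V := by
    have e : b gv = (b gv - algebraMap L E2 kv) + algebraMap L E2 kv := by ring
    rw [e]
    exact V.add_mem _ _ (ValuationSubring.nonunits_subset h2) h4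
  rw [map_mul]
  exact m59tgl_congr_mul V h1 h2 h3 h5

end Congr

/-! ### constant reductions of the product at the three vertical valuations -/

section Const3

variable {L : Type*} [Field L] [CharZero L] [Algebra L (AlgebraicClosure ℚ)]
  (O : ValuationSubring L) [IsDiscreteValuationRing O] {π : O} (hπ : Irreducible π)
variable (N' q : ℕ) [NeZero N'] [NeZero q] [hq : Fact q.Prime] [CharP (ResidueField O) q]
  (hq2 : ¬ 2 ∣ q) (hqN' : ¬ q ∣ N')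

/-- the constants of `O` lie in the Gauss ring `V₁`. -/
theorem m59tpn_const_mem_V1 (k : O) :
    algebraMap L ↥(lg_E L (N' * q)) (k : L) ∈ ssm_gl_V1 O hπ N' q := by
  haveI := ssm_go_isScalarTower O (lg_E L (N' * q))
  exact gq_algebraMap_mem_valSubOf π hπ.ne_zero hπ.maximalIdeal_eq (lg_E L (N' * q))
    (ssm_ga_E_le_quotField O (N' * q)) k

/-- the constants of `O` lie in `V₂ = W V₁`. -/
theorem m59tpn_const_mem_V2 (k : O) :
    algebraMap L ↥(lg_E L (N' * q)) (k : L) ∈ ssm_gl_V2 O hπ N' q hq2 hqN' := by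
  rw [ValuationSubring.mem_comap]
  have e : (ssm_gl_W L N' q hq2 hqN' : ↥(lg_E L (N' * q)) →+* ↥(lg_E L (N' * q)))
      (algebraMap L ↥(lg_E L (N' * q)) (k : L)) = algebraMap L ↥(lg_E L (N' * q)) (k : L) :=
    (ssm_al_WE L N' q hq.out hq2 hqN').commutes (k : L)
  rw [e]
  exact m59tpn_const_mem_V1 O hπ N' q k

variable (aE bE : ↥(lg_E L (N' * q)) →+* ↥(lg_E L (N' * q * q)))
  (haC : ∀ c : L, aE (algebraMap L ↥(lg_E L (N' * q)) c) = algebraMap L ↥(lg_E L (N' * q * q)) c)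
  (hbC : ∀ c : L, bE (algebraMap L ↥(lg_E L (N' * q)) c) = algebraMap L ↥(lg_E L (N' * q * q)) c)

include haC hbC in
/-- **the constants of the product**: `gu ≡ k1u, k2u` and `gv ≡ k1v, k2v` at `V₁, V₂` ⟹
`aE gu * bE gv ≡ k1u k1v` at `VA`, `≡ k2u k2v` at `VB`, `≡ k1u k2v` at every third valuation `VC`. -/
theorem m59tpn_congr3
    (hAa : (s36i_VA O hπ (N' * q) q).comap aE = ssm_gl_V1 O hπ N' q)
    (hBa : (s36i_VB O hπ N' q hq2 hqN').comap aE = ssm_gl_V2 O hπ N' q hq2 hqN')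
    (hAb : (s36i_VA O hπ (N' * q) q).comap bE = ssm_gl_V1 O hπ N' q)
    (hBb : (s36i_VB O hπ N' q hq2 hqN').comap bE = ssm_gl_V2 O hπ N' q hq2 hqN')
    {gu gv : ↥(lg_E L (N' * q))} {k1u k2u k1v k2v : O}
    (hu1 : gu - algebraMap L ↥(lg_E L (N' * q)) (k1u : L) ∈ (ssm_gl_V1 O hπ N' q).nonunits)
    (hu2 : gu - algebraMap L ↥(lg_E L (N' * q)) (k2u : L) ∈
      (ssm_gl_V2 O hπ N' q hq2 hqN').nonunits)
    (hv1 : gv - algebraMap L ↥(lg_E L (N' * q)) (k1v : L) ∈ (ssm_gl_V1 O hπ N' q).nonunits)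
    (hv2 : gv - algebraMap L ↥(lg_E L (N' * q)) (k2v : L) ∈
      (ssm_gl_V2 O hπ N' q hq2 hqN').nonunits) :
    aE gu * bE gv - algebraMap L ↥(lg_E L (N' * q * q)) ((k1u * k1v : O) : L) ∈
        (s36i_VA O hπ (N' * q) q).nonunits ∧
      aE gu * bE gv - algebraMap L ↥(lg_E L (N' * q * q)) ((k2u * k2v : O) : L) ∈
        (s36i_VB O hπ N' q hq2 hqN').nonunits ∧
      ∀ VC : ValuationSubring ↥(lg_E L (N' * q * q)),
        VC.comap aE = ssm_gl_V1 O hπ N' q → VC.comap bE = ssm_gl_V2 O hπ N' q hq2 hqN' →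
        aE gu * bE gv - algebraMap L ↥(lg_E L (N' * q * q)) ((k1u * k2v : O) : L) ∈
          VC.nonunits := by
  refine ⟨?_, ?_, fun VC hCa hCb => ?_⟩
  · exact m59tpn_congr_prod aE bE haC hbC _ hAa hAb hu1 hv1
      (m59tpn_const_mem_V1 O hπ N' q k1u) (m59tpn_const_mem_V1 O hπ N' q k1v)
  · exact m59tpn_congr_prod aE bE haC hbC _ hBa hBb hu2 hv2
      (m59tpn_const_mem_V2 O hπ N' q hq2 hqN' k2u) (m59tpn_const_mem_V2 O hπ N' q hq2 hqN' k2v)
  · exact m59tpn_congr_prod aE bE haC hbC VC hCa hCb hu1 hv2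
      (m59tpn_const_mem_V1 O hπ N' q k1u) (m59tpn_const_mem_V2 O hπ N' q hq2 hqN' k2v)

include haC hbC in
/-- **`m59sb_ConstRed3` of the product** from `s35_ConstRed` of the factors and the six restriction
facts. -/
theorem m59tpn_constRed3
    (hAa : (s36i_VA O hπ (N' * q) q).comap aE = ssm_gl_V1 O hπ N' q)
    (hBa : (s36i_VB O hπ N' q hq2 hqN').comap aE = ssm_gl_V2 O hπ N' q hq2 hqN')
    (hAb : (s36i_VA O hπ (N' * q) q).comap bE = ssm_gl_V1 O hπ N' q)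
    (hBb : (s36i_VB O hπ N' q hq2 hqN').comap bE = ssm_gl_V2 O hπ N' q hq2 hqN')
    (hCa : ∀ VC : ValuationSubring ↥(lg_E L (N' * q * q)), s36asm_Third O hπ N' q hq2 hqN' VC →
      VC.comap aE = ssm_gl_V1 O hπ N' q)
    (hCb : ∀ VC : ValuationSubring ↥(lg_E L (N' * q * q)), s36asm_Third O hπ N' q hq2 hqN' VC →
      VC.comap bE = ssm_gl_V2 O hπ N' q hq2 hqN')
    {gu gv : ↥(lg_E L (N' * q))} (hu : s35_ConstRed O hπ N' q hq2 hqN' gu)
    (hv : s35_ConstRed O hπ N' q hq2 hqN' gv) :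
    m59sb_ConstRed3 O hπ N' q hq2 hqN' (aE gu * bE gv) := by
  obtain ⟨k1u, k2u, h1u, h2u, hu1, hu2⟩ := hu
  obtain ⟨k1v, k2v, h1v, h2v, hv1, hv2⟩ := hv
  obtain ⟨hA, hB, hC⟩ := m59tpn_congr3 O hπ N' q hq2 hqN' aE bE haC hbC hAa hBa hAb hBb
    hu1 hu2 hv1 hv2
  intro VC T3
  exact ⟨k1u * k1v, k2u * k2v, k1u * k2v, h1u.mul h1v, h2u.mul h2v, h1u.mul h2v, hA, hB,
    hC VC (hCa VC T3) (hCb VC T3)⟩

end Const3

/-! ### the model of `α^* u + β^* v` over the level -/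

section Model

variable (N' q : ℕ) [NeZero N'] [NeZero q] [NeZero (N' * q)] [NeZero (N' * q * q)]
  (L1 : IntermediateField ℚ Qb)

/-- **the model of the sum of the two pull-backs**: if `x0u`, `x0v` are models over `L1` of
representing functions of `u`, `v ∈ J₀(N' q)`, then `x0u · x0v(X^q)` is (the Laurent series of) a
model `g1` over `L1` of a representing function of `α^* u + β^* v`. -/
theorem m59tpn_model (p : ℕ) {u v : JZero (N' * q)} {x0u x0v : ↥(lg_F ↥L1 (N' * q))}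
    (hu : s44f_Rep (N' * q) p u (ssm_al_iotaF ↥L1 (N' * q) x0u))
    (hv : s44f_Rep (N' * q) p v (ssm_al_iotaF ↥L1 (N' * q) x0v)) :
    ∃ g1 : laurentBaseChange L1 (modularFunctionFieldFull (N' * q * q)),
      (g1 : LaurentSeries ↥L1) =
        (x0u : LaurentSeries ↥L1) * qExpand ↥L1 q (x0v : LaurentSeries ↥L1) ∧
      g1 ≠ 0 ∧
      s44f_Rep (N' * q * q) p (m59pl_pa (N' * q) q u + m59pl_pb (N' * q) q v)
        (dsc_bcHom L1 Qb (modularFunctionFieldFull (N' * q * q)) g1) := by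
  obtain ⟨gu1, hgu1⟩ : ∃ gu1 : laurentBaseChange L1 (modularFunctionFieldFull (N' * q)),
      (gu1 : LaurentSeries ↥L1) = (x0u : LaurentSeries ↥L1) :=
    ⟨⟨(x0u : LaurentSeries ↥L1), ss2_dp_mem_lbc ↥L1 (N' * q) x0u.2⟩, rfl⟩
  obtain ⟨gv1, hgv1⟩ : ∃ gv1 : laurentBaseChange L1 (modularFunctionFieldFull (N' * q)),
      (gv1 : LaurentSeries ↥L1) = (x0v : LaurentSeries ↥L1) :=
    ⟨⟨(x0v : LaurentSeries ↥L1), ss2_dp_mem_lbc ↥L1 (N' * q) x0v.2⟩, rfl⟩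
  have hrep := s44b_rep_mul (N' * q * q) (m59pl_pa_rep (N' * q) q p u _ hu)
    (m59pl_pb_rep (N' * q) q p v _ hv)
  have hcoe : ((heckeAlphaBar ↥L1 (N' * q) q gu1 * heckeBetaBar ↥L1 (N' * q) q gv1 :
      laurentBaseChange L1 (modularFunctionFieldFull (N' * q * q))) : LaurentSeries ↥L1) =
      (x0u : LaurentSeries ↥L1) * qExpand ↥L1 q (x0v : LaurentSeries ↥L1) := by
    rw [MulMemClass.coe_mul, coe_heckeAlphaBar, coe_heckeBetaBar, hgu1, hgv1]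
  have hbc : dsc_bcHom L1 Qb (modularFunctionFieldFull (N' * q * q))
      (heckeAlphaBar ↥L1 (N' * q) q gu1 * heckeBetaBar ↥L1 (N' * q) q gv1) =
      heckeAlphaBar Qb (N' * q) q (ssm_al_iotaF ↥L1 (N' * q) x0u) *
        heckeBetaBar Qb (N' * q) q (ssm_al_iotaF ↥L1 (N' * q) x0v) := by
    apply Subtype.ext
    rw [dsc_bcHom_coe, hcoe, MulMemClass.coe_mul, coe_heckeAlphaBar, coe_heckeBetaBar,
      ssm_al_coe_iotaF, ssm_al_coe_iotaF, ← ssm_al_iota_qExpand, ← map_mul]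
    rfl
  refine ⟨heckeAlphaBar ↥L1 (N' * q) q gu1 * heckeBetaBar ↥L1 (N' * q) q gv1, hcoe, ?_, ?_⟩
  · intro h0
    rw [h0, map_zero] at hbc
    exact hrep.1 hbc.symm
  · rw [hbc]
    exact hrep

end Model

/-! ### the normal form of `α^* u + β^* v` -/

section Main

variable (A : ValuationSubring Qb) {q : ℕ} [hq : Fact q.Prime]
  (N' : ℕ) [NeZero N'] [NeZero q] [NeZero (N' * q)] [NeZero (N' * q * q)]
  (hq2 : ¬ 2 ∣ q) (hqN' : ¬ q ∣ N') (L1 : IntermediateField ℚ Qb)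
  (aE bE : ↥(lg_E ↥L1 (N' * q)) →+* ↥(lg_E ↥L1 (N' * q * q)))
  (haE : ∀ x : ↥(lg_E ↥L1 (N' * q)),
    ((aE x : ↥(lg_E ↥L1 (N' * q * q))) : LaurentSeries ↥L1) = (x : LaurentSeries ↥L1))
  (hbE : ∀ x : ↥(lg_E ↥L1 (N' * q)),
    ((bE x : ↥(lg_E ↥L1 (N' * q * q))) : LaurentSeries ↥L1) =
      qExpand ↥L1 q (x : LaurentSeries ↥L1))

include haE in
/-- `aE` fixes the constants. -/
theorem m59tpn_aE_const (c : ↥L1) :
    aE (algebraMap ↥L1 ↥(lg_E ↥L1 (N' * q)) c) = algebraMap ↥L1 ↥(lg_E ↥L1 (N' * q * q)) c := by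
  apply Subtype.ext
  rw [haE, IntermediateField.coe_algebraMap_apply, IntermediateField.coe_algebraMap_apply]

include hbE in
/-- `bE` fixes the constants. -/
theorem m59tpn_bE_const (c : ↥L1) :
    bE (algebraMap ↥L1 ↥(lg_E ↥L1 (N' * q)) c) = algebraMap ↥L1 ↥(lg_E ↥L1 (N' * q * q)) c := by
  apply Subtype.ext
  rw [hbE, IntermediateField.coe_algebraMap_apply, IntermediateField.coe_algebraMap_apply]
  exact (qExpandAlgHomC ↥L1 q).commutes c

include haE hbE in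
/-- `ι g1 = aE (φ x0u) · bE (φ x0v)` for the model `g1 = x0u · x0v(X^q)`. -/
theorem m59tpn_iota_eq {x0u x0v : ↥(lg_F ↥L1 (N' * q))}
    {g1 : laurentBaseChange L1 (modularFunctionFieldFull (N' * q * q))}
    (hg1 : (g1 : LaurentSeries ↥L1) =
      (x0u : LaurentSeries ↥L1) * qExpand ↥L1 q (x0v : LaurentSeries ↥L1)) :
    ss2_dp_iota ↥L1 (N' * q * q) g1 =
      aE (lg_phiE (L := ↥L1) (N := N' * q) x0u) * bE (lg_phiE (L := ↥L1) (N := N' * q) x0v) := by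
  apply Subtype.ext
  rw [ss2_dp_iota_coe, hg1, map_mul, MulMemClass.coe_mul, haE, hbE, lg_phiE_coe, lg_phiE_coe,
    lg_phi_apply, lg_phi_apply, ssm_al_qExpand_comm]

variable [IsDiscreteValuationRing ↥(A.comap (algebraMap ↥L1 Qb))]
  [CharP (ResidueField ↥(A.comap (algebraMap ↥L1 Qb))) q]
  (hπ : Irreducible ((q : ℕ) : ↥(A.comap (algebraMap ↥L1 Qb))))

include haE hbE in
/-- **[PULL-NF], explicit form.**  `u`, `v ∈ J₀(N' q)` with models `x0u`, `x0v` over `L1` and normal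
forms `φ x0u = cu · Ru^p · gu`, `φ x0v = cv · Rv^p · gv` (`gu`, `gv` of constant reductions at
`V₁`, `V₂`).  Then `g1 = x0u · x0v(X^q)` is a model over `L1` of a representing function of
`α^* u + β^* v`, and on the Legendre cover of level `N' q q`
`ι g1 = (cu cv) · (aE Ru · bE Rv)^p · (aE gu · bE gv)`, all orders of `g' = aE gu · bE gv` are
divisible by `p`, and `g'` has constant reductions at `VA`, `VB` and every third valuation `VC`.
The six restriction facts (`VA, VB, VC` over `V₁, V₂` along `aE` and `bE`) are hypotheses. -/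
theorem m59tpn_pull_nf (p : ℕ)
    (hAa : (s36i_VA (A.comap (algebraMap ↥L1 Qb)) hπ (N' * q) q).comap aE =
      ssm_gl_V1 (A.comap (algebraMap ↥L1 Qb)) hπ N' q)
    (hBa : (s36i_VB (A.comap (algebraMap ↥L1 Qb)) hπ N' q hq2 hqN').comap aE =
      ssm_gl_V2 (A.comap (algebraMap ↥L1 Qb)) hπ N' q hq2 hqN')
    (hAb : (s36i_VA (A.comap (algebraMap ↥L1 Qb)) hπ (N' * q) q).comap bE =
      ssm_gl_V1 (A.comap (algebraMap ↥L1 Qb)) hπ N' q)
    (hBb : (s36i_VB (A.comap (algebraMap ↥L1 Qb)) hπ N' q hq2 hqN').comap bE =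
      ssm_gl_V2 (A.comap (algebraMap ↥L1 Qb)) hπ N' q hq2 hqN')
    (hCa : ∀ VC : ValuationSubring ↥(lg_E ↥L1 (N' * q * q)),
      s36asm_Third (A.comap (algebraMap ↥L1 Qb)) hπ N' q hq2 hqN' VC →
      VC.comap aE = ssm_gl_V1 (A.comap (algebraMap ↥L1 Qb)) hπ N' q)
    (hCb : ∀ VC : ValuationSubring ↥(lg_E ↥L1 (N' * q * q)),
      s36asm_Third (A.comap (algebraMap ↥L1 Qb)) hπ N' q hq2 hqN' VC →
      VC.comap bE = ssm_gl_V2 (A.comap (algebraMap ↥L1 Qb)) hπ N' q hq2 hqN')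
    {u v : JZero (N' * q)} {x0u x0v : ↥(lg_F ↥L1 (N' * q))} {cu cv : ↥L1}
    {Ru gu Rv gv : ↥(lg_E ↥L1 (N' * q))}
    (hcu : cu ≠ 0) (hRu : Ru ≠ 0) (hgu : gu ≠ 0) (hcv : cv ≠ 0) (hRv : Rv ≠ 0) (hgv : gv ≠ 0)
    (hrepu : s44f_Rep (N' * q) p u (ssm_al_iotaF ↥L1 (N' * q) x0u))
    (hrepv : s44f_Rep (N' * q) p v (ssm_al_iotaF ↥L1 (N' * q) x0v))
    (hequ : lg_phiE (L := ↥L1) (N := N' * q) x0u =
      algebraMap ↥L1 ↥(lg_E ↥L1 (N' * q)) cu * Ru ^ p * gu)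
    (heqv : lg_phiE (L := ↥L1) (N := N' * q) x0v =
      algebraMap ↥L1 ↥(lg_E ↥L1 (N' * q)) cv * Rv ^ p * gv)
    (hcru : s35_ConstRed (A.comap (algebraMap ↥L1 Qb)) hπ N' q hq2 hqN' gu)
    (hcrv : s35_ConstRed (A.comap (algebraMap ↥L1 Qb)) hπ N' q hq2 hqN' gv) :
    ∃ g1 : laurentBaseChange L1 (modularFunctionFieldFull (N' * q * q)),
      g1 ≠ 0 ∧
      (g1 : LaurentSeries ↥L1) =
        (x0u : LaurentSeries ↥L1) * qExpand ↥L1 q (x0v : LaurentSeries ↥L1) ∧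
      s44f_Rep (N' * q * q) p (m59pl_pa (N' * q) q u + m59pl_pb (N' * q) q v)
        (dsc_bcHom L1 Qb (modularFunctionFieldFull (N' * q * q)) g1) ∧
      ss2_dp_iota ↥L1 (N' * q * q) g1 =
        algebraMap ↥L1 ↥(lg_E ↥L1 (N' * q * q)) (cu * cv) * (aE Ru * bE Rv) ^ p *
          (aE gu * bE gv) ∧
      cu * cv ≠ 0 ∧ aE Ru * bE Rv ≠ 0 ∧ aE gu * bE gv ≠ 0 ∧
      (∀ w : Place ↥L1 ↥(lg_E ↥L1 (N' * q * q)), (p : ℤ) ∣ w.ord (aE gu * bE gv)) ∧
      m59sb_ConstRed3 (A.comap (algebraMap ↥L1 Qb)) hπ N' q hq2 hqN' (aE gu * bE gv) := by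
  obtain ⟨g1, hg1, hg10, hrep⟩ := m59tpn_model N' q L1 p hrepu hrepv
  have haC := m59tpn_aE_const N' L1 aE haE
  have hbC := m59tpn_bE_const N' L1 bE hbE
  have hk0 : cu * cv ≠ 0 := mul_ne_zero hcu hcv
  have hR0 : aE Ru * bE Rv ≠ 0 :=
    mul_ne_zero ((map_ne_zero aE).2 hRu) ((map_ne_zero bE).2 hRv)
  have hg0 : aE gu * bE gv ≠ 0 :=
    mul_ne_zero ((map_ne_zero aE).2 hgu) ((map_ne_zero bE).2 hgv)
  have hι : ss2_dp_iota ↥L1 (N' * q * q) g1 =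
      algebraMap ↥L1 ↥(lg_E ↥L1 (N' * q * q)) (cu * cv) * (aE Ru * bE Rv) ^ p *
        (aE gu * bE gv) := by
    rw [m59tpn_iota_eq N' L1 aE bE haE hbE hg1, hequ, heqv, map_mul, map_mul, map_mul, map_mul,
      map_pow, map_pow, haC, hbC, map_mul]
    ring
  refine ⟨g1, hg10, hg1, hrep, hι, hk0, hR0, hg0, ?_,
    m59tpn_constRed3 (A.comap (algebraMap ↥L1 Qb)) hπ N' q hq2 hqN' aE bE haC hbC hAa hBa hAb hBb
      hCa hCb hcru hcrv⟩
  -- the orders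
  obtain ⟨x0, hx0⟩ : ∃ x0 : ↥(lg_F ↥L1 (N' * q * q)),
      (x0 : LaurentSeries ↥L1) = (g1 : LaurentSeries ↥L1) :=
    ⟨⟨(g1 : LaurentSeries ↥L1), ss2_dp_mem_lgF ↥L1 (N' * q * q) g1.2⟩, rfl⟩
  have hbc : ssm_al_iotaF ↥L1 (N' * q * q) x0 =
      dsc_bcHom ↥L1 Qb (modularFunctionFieldFull (N' * q * q)) g1 := by
    apply Subtype.ext
    rw [ssm_al_coe_iotaF, dsc_bcHom_coe, hx0, dsc_cm]
  have hφ : lg_phiE (L := ↥L1) (N := N' * q * q) x0 = ss2_dp_iota ↥L1 (N' * q * q) g1 := by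
    apply Subtype.ext
    rw [lg_phiE_coe, lg_phi_apply, ss2_dp_iota_coe, hx0]
  obtain ⟨-, hordG⟩ := s44mci_ord_rep ↥L1 (N' * q * q) hrep x0 hbc
  have hordG' : ∀ w : Place ↥L1 ↥(lg_E ↥L1 (N' * q * q)),
      (p : ℤ) ∣ w.ord (ss2_dp_iota ↥L1 (N' * q * q) g1) := by
    intro w
    rw [← hφ]
    exact hordG w
  intro w
  have hcE : algebraMap ↥L1 ↥(lg_E ↥L1 (N' * q * q)) (cu * cv) ≠ 0 := by
    rw [Ne, map_eq_zero]
    exact hk0
  have h1 := congrArg w.ord hι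
  rw [w.ord_mul (mul_ne_zero hcE (pow_ne_zero p hR0)) hg0,
    w.ord_mul hcE (pow_ne_zero p hR0), hw_ord_algebraMap, zero_add, ← zpow_natCast,
    w.ord_zpow] at h1
  have h2 : w.ord (aE gu * bE gv) =
      w.ord (ss2_dp_iota ↥L1 (N' * q * q) g1) - (p : ℤ) * w.ord (aE Ru * bE Rv) := by
    rw [h1]; ring
  rw [h2]
  exact dvd_sub (hordG' w) (dvd_mul_right _ _)

include haE hbE in
/-- **[PULL-NF], `m59g12u_NFOver` form**: under the hypotheses of `m59tpn_pull_nf`, the class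
`α^* u + β^* v` has a representing function with the normal form over `L1`
(`c₀ = 1`, `r₀ = 1`, `k = cu cv`, `R = aE Ru · bE Rv`, `g' = aE gu · bE gv`). -/
theorem m59tpn_nfOver (p : ℕ)
    (hAa : (s36i_VA (A.comap (algebraMap ↥L1 Qb)) hπ (N' * q) q).comap aE =
      ssm_gl_V1 (A.comap (algebraMap ↥L1 Qb)) hπ N' q)
    (hBa : (s36i_VB (A.comap (algebraMap ↥L1 Qb)) hπ N' q hq2 hqN').comap aE =
      ssm_gl_V2 (A.comap (algebraMap ↥L1 Qb)) hπ N' q hq2 hqN')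
    (hAb : (s36i_VA (A.comap (algebraMap ↥L1 Qb)) hπ (N' * q) q).comap bE =
      ssm_gl_V1 (A.comap (algebraMap ↥L1 Qb)) hπ N' q)
    (hBb : (s36i_VB (A.comap (algebraMap ↥L1 Qb)) hπ N' q hq2 hqN').comap bE =
      ssm_gl_V2 (A.comap (algebraMap ↥L1 Qb)) hπ N' q hq2 hqN')
    (hCa : ∀ VC : ValuationSubring ↥(lg_E ↥L1 (N' * q * q)),
      s36asm_Third (A.comap (algebraMap ↥L1 Qb)) hπ N' q hq2 hqN' VC →
      VC.comap aE = ssm_gl_V1 (A.comap (algebraMap ↥L1 Qb)) hπ N' q)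
    (hCb : ∀ VC : ValuationSubring ↥(lg_E ↥L1 (N' * q * q)),
      s36asm_Third (A.comap (algebraMap ↥L1 Qb)) hπ N' q hq2 hqN' VC →
      VC.comap bE = ssm_gl_V2 (A.comap (algebraMap ↥L1 Qb)) hπ N' q hq2 hqN')
    {u v : JZero (N' * q)} {x0u x0v : ↥(lg_F ↥L1 (N' * q))} {cu cv : ↥L1}
    {Ru gu Rv gv : ↥(lg_E ↥L1 (N' * q))}
    (hcu : cu ≠ 0) (hRu : Ru ≠ 0) (hgu : gu ≠ 0) (hcv : cv ≠ 0) (hRv : Rv ≠ 0) (hgv : gv ≠ 0)
    (hrepu : s44f_Rep (N' * q) p u (ssm_al_iotaF ↥L1 (N' * q) x0u))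
    (hrepv : s44f_Rep (N' * q) p v (ssm_al_iotaF ↥L1 (N' * q) x0v))
    (hequ : lg_phiE (L := ↥L1) (N := N' * q) x0u =
      algebraMap ↥L1 ↥(lg_E ↥L1 (N' * q)) cu * Ru ^ p * gu)
    (heqv : lg_phiE (L := ↥L1) (N := N' * q) x0v =
      algebraMap ↥L1 ↥(lg_E ↥L1 (N' * q)) cv * Rv ^ p * gv)
    (hcru : s35_ConstRed (A.comap (algebraMap ↥L1 Qb)) hπ N' q hq2 hqN' gu)
    (hcrv : s35_ConstRed (A.comap (algebraMap ↥L1 Qb)) hπ N' q hq2 hqN' gv) :
    ∃ f : modularFunctionFieldBar (N' * q * q),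
      s44f_Rep (N' * q * q) p (m59pl_pa (N' * q) q u + m59pl_pb (N' * q) q v) f ∧
      m59g12u_NFOver A N' q hq2 hqN' p f L1 := by
  obtain ⟨g1, hg10, hg1, hrep, hι, hk0, hR0, hg0, hord, hcr⟩ :=
    m59tpn_pull_nf A N' hq2 hqN' L1 aE bE haE hbE hπ p hAa hBa hAb hBb hCa hCb hcu hRu hgu hcv hRv
      hgv hrepu hrepv hequ heqv hcru hcrv
  refine ⟨_, hrep, g1, 1, 1, hg10, one_ne_zero, one_ne_zero, ?_, ?_⟩
  · rw [map_one, one_pow, one_mul, one_mul]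
  · intro _ _ hπ'
    exact ⟨cu * cv, aE Ru * bE Rv, aE gu * bE gv, hk0, hR0, hg0, hι, hord, hcr⟩

include haE hbE in
/-- **[PULL-NF] from two normal forms `m59t1_NF`** (the shape of `Tor/Defs1.lean`): explicit
form. -/
theorem m59tpn_pull_nf_of_NF [NumberField ↥L1] (p : ℕ)
    (hAa : (s36i_VA (A.comap (algebraMap ↥L1 Qb)) hπ (N' * q) q).comap aE =
      ssm_gl_V1 (A.comap (algebraMap ↥L1 Qb)) hπ N' q)
    (hBa : (s36i_VB (A.comap (algebraMap ↥L1 Qb)) hπ N' q hq2 hqN').comap aE =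
      ssm_gl_V2 (A.comap (algebraMap ↥L1 Qb)) hπ N' q hq2 hqN')
    (hAb : (s36i_VA (A.comap (algebraMap ↥L1 Qb)) hπ (N' * q) q).comap bE =
      ssm_gl_V1 (A.comap (algebraMap ↥L1 Qb)) hπ N' q)
    (hBb : (s36i_VB (A.comap (algebraMap ↥L1 Qb)) hπ N' q hq2 hqN').comap bE =
      ssm_gl_V2 (A.comap (algebraMap ↥L1 Qb)) hπ N' q hq2 hqN')
    (hCa : ∀ VC : ValuationSubring ↥(lg_E ↥L1 (N' * q * q)),
      s36asm_Third (A.comap (algebraMap ↥L1 Qb)) hπ N' q hq2 hqN' VC →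
      VC.comap aE = ssm_gl_V1 (A.comap (algebraMap ↥L1 Qb)) hπ N' q)
    (hCb : ∀ VC : ValuationSubring ↥(lg_E ↥L1 (N' * q * q)),
      s36asm_Third (A.comap (algebraMap ↥L1 Qb)) hπ N' q hq2 hqN' VC →
      VC.comap bE = ssm_gl_V2 (A.comap (algebraMap ↥L1 Qb)) hπ N' q hq2 hqN')
    {u v : JZero (N' * q)} {x0u x0v : ↥(lg_F ↥L1 (N' * q))} {cu cv : ↥L1}
    {Ru gu Rv gv : ↥(lg_E ↥L1 (N' * q))}
    (hu : m59t1_NF A N' hq2 hqN' L1 hπ p u x0u cu Ru gu)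
    (hv : m59t1_NF A N' hq2 hqN' L1 hπ p v x0v cv Rv gv) :
    ∃ g1 : laurentBaseChange L1 (modularFunctionFieldFull (N' * q * q)),
      g1 ≠ 0 ∧
      (g1 : LaurentSeries ↥L1) =
        (x0u : LaurentSeries ↥L1) * qExpand ↥L1 q (x0v : LaurentSeries ↥L1) ∧
      s44f_Rep (N' * q * q) p (m59pl_pa (N' * q) q u + m59pl_pb (N' * q) q v)
        (dsc_bcHom L1 Qb (modularFunctionFieldFull (N' * q * q)) g1) ∧
      ss2_dp_iota ↥L1 (N' * q * q) g1 =
        algebraMap ↥L1 ↥(lg_E ↥L1 (N' * q * q)) (cu * cv) * (aE Ru * bE Rv) ^ p *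
          (aE gu * bE gv) ∧
      cu * cv ≠ 0 ∧ aE Ru * bE Rv ≠ 0 ∧ aE gu * bE gv ≠ 0 ∧
      (∀ w : Place ↥L1 ↥(lg_E ↥L1 (N' * q * q)), (p : ℤ) ∣ w.ord (aE gu * bE gv)) ∧
      m59sb_ConstRed3 (A.comap (algebraMap ↥L1 Qb)) hπ N' q hq2 hqN' (aE gu * bE gv) := by
  obtain ⟨hcu, hRu, hgu, hrepu, hequ, -, hcru⟩ := hu
  obtain ⟨hcv, hRv, hgv, hrepv, heqv, -, hcrv⟩ := hv
  exact m59tpn_pull_nf A N' hq2 hqN' L1 aE bE haE hbE hπ p hAa hBa hAb hBb hCa hCb hcu hRu hgu hcv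
    hRv hgv hrepu hrepv hequ heqv hcru hcrv

include haE hbE in
/-- **[PULL-NF] from two normal forms `m59t1_NF`**, `m59g12u_NFOver` form. -/
theorem m59tpn_nfOver_of_NF [NumberField ↥L1] (p : ℕ)
    (hAa : (s36i_VA (A.comap (algebraMap ↥L1 Qb)) hπ (N' * q) q).comap aE =
      ssm_gl_V1 (A.comap (algebraMap ↥L1 Qb)) hπ N' q)
    (hBa : (s36i_VB (A.comap (algebraMap ↥L1 Qb)) hπ N' q hq2 hqN').comap aE =
      ssm_gl_V2 (A.comap (algebraMap ↥L1 Qb)) hπ N' q hq2 hqN')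
    (hAb : (s36i_VA (A.comap (algebraMap ↥L1 Qb)) hπ (N' * q) q).comap bE =
      ssm_gl_V1 (A.comap (algebraMap ↥L1 Qb)) hπ N' q)
    (hBb : (s36i_VB (A.comap (algebraMap ↥L1 Qb)) hπ N' q hq2 hqN').comap bE =
      ssm_gl_V2 (A.comap (algebraMap ↥L1 Qb)) hπ N' q hq2 hqN')
    (hCa : ∀ VC : ValuationSubring ↥(lg_E ↥L1 (N' * q * q)),
      s36asm_Third (A.comap (algebraMap ↥L1 Qb)) hπ N' q hq2 hqN' VC →
      VC.comap aE = ssm_gl_V1 (A.comap (algebraMap ↥L1 Qb)) hπ N' q)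
    (hCb : ∀ VC : ValuationSubring ↥(lg_E ↥L1 (N' * q * q)),
      s36asm_Third (A.comap (algebraMap ↥L1 Qb)) hπ N' q hq2 hqN' VC →
      VC.comap bE = ssm_gl_V2 (A.comap (algebraMap ↥L1 Qb)) hπ N' q hq2 hqN')
    {u v : JZero (N' * q)} {x0u x0v : ↥(lg_F ↥L1 (N' * q))} {cu cv : ↥L1}
    {Ru gu Rv gv : ↥(lg_E ↥L1 (N' * q))}
    (hu : m59t1_NF A N' hq2 hqN' L1 hπ p u x0u cu Ru gu)
    (hv : m59t1_NF A N' hq2 hqN' L1 hπ p v x0v cv Rv gv) :
    ∃ f : modularFunctionFieldBar (N' * q * q),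
      s44f_Rep (N' * q * q) p (m59pl_pa (N' * q) q u + m59pl_pb (N' * q) q v) f ∧
      m59g12u_NFOver A N' q hq2 hqN' p f L1 := by
  obtain ⟨hcu, hRu, hgu, hrepu, hequ, -, hcru⟩ := hu
  obtain ⟨hcv, hRv, hgv, hrepv, heqv, -, hcrv⟩ := hv
  exact m59tpn_nfOver A N' hq2 hqN' L1 aE bE haE hbE hπ p hAa hBa hAb hBb hCa hCb hcu hRu hgu hcv
    hRv hgv hrepu hrepv hequ heqv hcru hcrv

end Main

end Fermat.Agent.M59
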