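/-
M59 / Sink B, leaf 4 [TOR-SURJ], cell [PULL-NF] (helper1): THE SEAM `m59tpa_PullNF_stmt` OF THE
(pull)-ASSEMBLY `Tor/PullAsm.lean` (helper29).  Prefix `m59tpn_`.

`m59tpn_pullNF_stmt` : for ANY two ring homomorphisms `aE bE : E₁ →+* E₂` which on Laurent series are
the identity resp. `X ↦ X^q`, and under the six restriction facts at the valuation level
(`VA, VB, VC` over `V₁, V₂` along `aE` and `bE`: (R1), (R2) of [PULL-RESTR]), the cell
`m59tpa_PullNF_stmt A N' hq2 hqN' L hπq aE bE p` holds, with `c₀ = r₀ = 1`, `k = cu cv`,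
`R = aE Ru · bE Rv` (from `m59tpn_pull_nf_of_NF`, `Tor/PullNF.lean`).
-/
import Mathlib
import Fermat.Agent.M59.SinkB.Tor.PullNF
import Fermat.Agent.M59.SinkB.Tor.PullAsm

set_option autoImplicit false
set_option linter.unusedSectionVars false
set_option linter.unusedVariables false
set_option linter.style.haveILetI false
set_option synthInstance.maxHeartbeats 400000
set_option maxHeartbeats 1000000

noncomputable section

namespace Fermat.Agent.M59

open Polynomial ModularCurve AlgebraicCurve IntermediateField IsLocalRing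
open Fermat.Agent.JT3 Fermat.Agent.SS Fermat.Agent.S35 Fermat.Agent.S24 Fermat.Agent.S44
  Fermat.Agent.S36 Fermat.Agent.SS2 Fermat.Agent.TW

local notation "Qb" => AlgebraicClosure ℚ

section Stmt

variable (A : ValuationSubring Qb) {q : ℕ} [hq : Fact q.Prime]
  (N' : ℕ) [NeZero N'] [NeZero q] [NeZero (N' * q)] [NeZero (N' * q * q)]
  (hq2 : ¬ 2 ∣ q) (hqN' : ¬ q ∣ N')
  (L : IntermediateField ℚ Qb) [NumberField ↥L]
  [IsDiscreteValuationRing ↥(A.comap (algebraMap ↥L Qb))]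
  [CharP (ResidueField ↥(A.comap (algebraMap ↥L Qb))) q]
  (hπq : Irreducible ((q : ℕ) : ↥(A.comap (algebraMap ↥L Qb))))
  (aE bE : ↥(lg_E ↥L (N' * q)) →+* ↥(lg_E ↥L (N' * q * q)))

/-- **[PULL-NF] = the seam `m59tpa_PullNF_stmt`**, from the Laurent-series description of `aE`, `bE`
and the six restriction facts at the valuation level. -/
theorem m59tpn_pullNF_stmt
    (haE : ∀ x : ↥(lg_E ↥L (N' * q)),
      ((aE x : ↥(lg_E ↥L (N' * q * q))) : LaurentSeries ↥L) = (x : LaurentSeries ↥L))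
    (hbE : ∀ x : ↥(lg_E ↥L (N' * q)),
      ((bE x : ↥(lg_E ↥L (N' * q * q))) : LaurentSeries ↥L) =
        qExpand ↥L q (x : LaurentSeries ↥L))
    (hAa : (s36i_VA (A.comap (algebraMap ↥L Qb)) hπq (N' * q) q).comap aE =
      ssm_gl_V1 (A.comap (algebraMap ↥L Qb)) hπq N' q)
    (hBa : (s36i_VB (A.comap (algebraMap ↥L Qb)) hπq N' q hq2 hqN').comap aE =
      ssm_gl_V2 (A.comap (algebraMap ↥L Qb)) hπq N' q hq2 hqN')
    (hAb : (s36i_VA (A.comap (algebraMap ↥L Qb)) hπq (N' * q) q).comap bE =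
      ssm_gl_V1 (A.comap (algebraMap ↥L Qb)) hπq N' q)
    (hBb : (s36i_VB (A.comap (algebraMap ↥L Qb)) hπq N' q hq2 hqN').comap bE =
      ssm_gl_V2 (A.comap (algebraMap ↥L Qb)) hπq N' q hq2 hqN')
    (hCa : ∀ VC : ValuationSubring ↥(lg_E ↥L (N' * q * q)),
      s36asm_Third (A.comap (algebraMap ↥L Qb)) hπq N' q hq2 hqN' VC →
      VC.comap aE = ssm_gl_V1 (A.comap (algebraMap ↥L Qb)) hπq N' q)
    (hCb : ∀ VC : ValuationSubring ↥(lg_E ↥L (N' * q * q)),
      s36asm_Third (A.comap (algebraMap ↥L Qb)) hπq N' q hq2 hqN' VC →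
      VC.comap bE = ssm_gl_V2 (A.comap (algebraMap ↥L Qb)) hπq N' q hq2 hqN')
    (p : ℕ) : m59tpa_PullNF_stmt A N' hq2 hqN' L hπq aE bE p := by
  intro u v x0u x0v cu cv Ru gu Rv gv hu hv
  obtain ⟨g1, hg10, hg1, hrep, hι, hk0, hR0, hg0, hord, hcr⟩ :=
    m59tpn_pull_nf_of_NF A N' hq2 hqN' L aE bE haE hbE hπq p hAa hBa hAb hBb hCa hCb hu hv
  refine ⟨_, g1, 1, 1, cu * cv, aE Ru * bE Rv, hg10, one_ne_zero, one_ne_zero, hrep, ?_, hk0, hR0,
    hg0, hι, hord, hcr⟩
  rw [map_one, one_pow, one_mul, one_mul]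

end Stmt

end Fermat.Agent.M59
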