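/-
M59 / Sink B, leaf 3 [TOR-SURJ], cell [PULL-NF] (helper1): CLOSED.  Prefix `m59tpn_`.

`m59tpn_pullNF_closed` : the seam `m59tpa_PullNF_stmt A N' hq2 hqN' L hπq aE bE p` of the
(pull)-assembly `Tor/PullAsm.lean` (helper29) for ANY two ring homomorphisms `aE bE : E₁ →+* E₂`
which on Laurent series are the identity resp. `X ↦ X^q`: `m59tpn_pullNF_stmt` (`Tor/PullNFStmt.lean`)
with the six valuation-level restriction facts `m59tpc_R1A/B/C`, `m59tpc_R2A/B/C` of helper4
(`Tor/PullChart.lean`).  NO OTHER HYPOTHESIS.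
-/
import Mathlib
import Fermat.Agent.M59.SinkB.Tor.PullNFStmt
import Fermat.Agent.M59.SinkB.Tor.PullChart

set_option autoImplicit false
set_option linter.unusedSectionVars false
set_option linter.unusedVariables false
set_option linter.style.haveILetI false
set_option synthInstance.maxHeartbeats 400000
set_option maxHeartbeats 1000000

noncomputable section

namespace Fermat.Agent.M59

open Polynomial ModularCurve AlgebraicCurve IntermediateField IsLocalRing
open Fermat.Agent.JT3 Fermat.Agent.SS Fermat.Agent.S35 Fermat.Agent.S24 Fermat.Agent.S44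
  Fermat.Agent.S36 Fermat.Agent.SS2 Fermat.Agent.TW

local notation "Qb" => AlgebraicClosure ℚ

section Closed

variable (A : ValuationSubring Qb) {q : ℕ} [hq : Fact q.Prime]
  (N' : ℕ) [NeZero N'] [NeZero q] [NeZero (N' * q)] [NeZero (N' * q * q)]
  (hq2 : ¬ 2 ∣ q) (hqN' : ¬ q ∣ N')
  (L : IntermediateField ℚ Qb) [NumberField ↥L]
  [IsDiscreteValuationRing ↥(A.comap (algebraMap ↥L Qb))]
  [CharP (ResidueField ↥(A.comap (algebraMap ↥L Qb))) q]
  (hπq : Irreducible ((q : ℕ) : ↥(A.comap (algebraMap ↥L Qb))))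
  (aE bE : ↥(lg_E ↥L (N' * q)) →+* ↥(lg_E ↥L (N' * q * q)))

/-- **[PULL-NF], closed**: the seam `m59tpa_PullNF_stmt` for every pair `aE`, `bE` pinned on Laurent
series (`aE` = the inclusion, `bE` = `X ↦ X^q`). -/
theorem m59tpn_pullNF_closed
    (haE : ∀ x : ↥(lg_E ↥L (N' * q)),
      ((aE x : ↥(lg_E ↥L (N' * q * q))) : LaurentSeries ↥L) = (x : LaurentSeries ↥L))
    (hbE : ∀ x : ↥(lg_E ↥L (N' * q)),
      ((bE x : ↥(lg_E ↥L (N' * q * q))) : LaurentSeries ↥L) =
        qExpand ↥L q (x : LaurentSeries ↥L))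
    (p : ℕ) : m59tpa_PullNF_stmt A N' hq2 hqN' L hπq aE bE p :=
  m59tpn_pullNF_stmt A N' hq2 hqN' L hπq aE bE haE hbE
    (m59tpc_R1A (A.comap (algebraMap ↥L Qb)) hπq N' q aE haE)
    (m59tpc_R1B (A.comap (algebraMap ↥L Qb)) hπq N' q hq2 hqN' aE haE)
    (m59tpc_R2A (A.comap (algebraMap ↥L Qb)) hπq N' q hq2 hqN' aE bE haE hbE)
    (m59tpc_R2B (A.comap (algebraMap ↥L Qb)) hπq N' q hq2 hqN' aE bE haE hbE)
    (fun VC T3 => m59tpc_R1C (A.comap (algebraMap ↥L Qb)) hπq N' q hq2 hqN' aE haE T3)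
    (fun VC T3 => m59tpc_R2C (A.comap (algebraMap ↥L Qb)) hπq N' q hq2 hqN' aE bE haE hbE T3) p

end Closed

end Fermat.Agent.M59
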