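/-
M59 / Sink B, leaf 4 [TOR-SURJ], THE FIELDS `hTorS` AND `pull` OF `m59tc_DataU` OVER THE BIG LEVEL
(helper29).  Prefix `m59tpa_` (companion of Tor/PullAsm.lean; twin of helper5's `m59tx_ex1_star` and
helper6's `m59tj_inj1_star`).

`S : m59ls_Star N' q p A hq2 hqN'` the big level (Tor/LStar.lean), `L = S.L1`, `O = A ∩ L`, instances
`(m59tx_star_inst … S).1`, `S.lev.dvr`, `m59tx_star_charP … S`, uniformiser `S.lev.irr`,
`ζ_{N'} = S.zN`.

* **`m59tpa_torU_subset_torL`** : `m59g12u_TorU A N' q hq2 hqN' p 1 ⊆ m59g12u_TorL A N' q hq2 hqN' S.L1 p 1`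
  = the field `hTorS` of `m59tc_DataU` for `TorS := m59g12u_TorL … S.L1 p 1` (from `S.hTorU`);
* **`m59tpa_pull_star`** : the field `pull` of `m59tc_DataU` over the Star for `T1 := m59t1_T1`,
  `T2 := m59t2_T2 … aB bB`, from [PULL-NF] (`m59tpa_PullNF_stmt`) and the ten hypotheses (R3) of
  [PULL-RESTR] on the chart maps.
-/
import Mathlib
import Fermat.Agent.M59.SinkB.Tor.PullAsm
import Fermat.Agent.M59.SinkB.Tor.Ex1Star

set_option autoImplicit false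
set_option linter.unusedSectionVars false
set_option linter.unusedVariables false
set_option linter.style.haveILetI false
set_option synthInstance.maxHeartbeats 400000
set_option maxHeartbeats 1000000

noncomputable section

namespace Fermat.Agent.M59

open Polynomial ModularCurve AlgebraicCurve IntermediateField IsLocalRing
open Fermat.Agent.JT3 Fermat.Agent.SS Fermat.Agent.S35 Fermat.Agent.S24 Fermat.Agent.S44
  Fermat.Agent.S36 Fermat.Agent.SS2

local notation "Qb" => AlgebraicClosure ℚ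

section Star

variable (A : ValuationSubring Qb) {q : ℕ} [hq : Fact q.Prime] (hA : A.LiesOverPrime q)
  (N' : ℕ) [NeZero N'] [NeZero q] [NeZero (N' * q)] [NeZero (N' * q * q)] (hq2 : ¬ 2 ∣ q)
  (hqN' : ¬ q ∣ N') {p : ℕ} [hp : Fact p.Prime]

/-- **the field `hTorS` of `m59tc_DataU` over the big level**: a class with the uniform normal form
has its normal form over `L*`. -/
theorem m59tpa_torU_subset_torL (S : m59ls_Star N' q p A hq2 hqN') :
    m59g12u_TorU A N' q hq2 hqN' p 1 ⊆ m59g12u_TorL A N' q hq2 hqN' S.L1 p 1 := by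
  intro z hz
  obtain ⟨f, hrep, hnf⟩ := S.hTorU z hz
  refine ⟨hz.1, hz.2.1, f, ?_, ?_⟩
  · rw [pow_one]
    exact hrep
  · rw [pow_one]
    exact hnf

include hA in
/-- **the field `pull` of `m59tc_DataU` over the big level**, from [PULL-NF] and (R3). -/
theorem m59tpa_pull_star (S : m59ls_Star N' q p A hq2 hqN') :
    haveI := (m59tx_star_inst A N' hq2 hqN' S).1
    haveI := S.lev.dvr
    haveI := m59tx_star_charP A hA N' hq2 hqN' S
    ∀ (aE bE : ↥(lg_E ↥S.L1 (N' * q)) →+* ↥(lg_E ↥S.L1 (N' * q * q)))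
      (aB bB : ↥(m59t1_B1 A N' q S.L1) →+* ↥(m59t2_B2 A N' q S.L1))
      (hNF : m59tpa_PullNF_stmt A N' hq2 hqN' S.L1 S.lev.irr aE bE p)
      (haB : ∀ b : ↥(m59t1_B1 A N' q S.L1),
        ((aB b : ↥(m59t2_B2 A N' q S.L1)) : ↥(lg_E ↥S.L1 (N' * q * q))) =
          aE (b : ↥(lg_E ↥S.L1 (N' * q))))
      (hbB : ∀ b : ↥(m59t1_B1 A N' q S.L1),
        ((bB b : ↥(m59t2_B2 A N' q S.L1)) : ↥(lg_E ↥S.L1 (N' * q * q))) =
          bE (b : ↥(lg_E ↥S.L1 (N' * q))))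
      (haE0 : ∀ c : ↥(A.comap (algebraMap ↥S.L1 Qb)),
        aE (algebraMap ↥(A.comap (algebraMap ↥S.L1 Qb)) ↥(lg_E ↥S.L1 (N' * q)) c) =
          algebraMap ↥(A.comap (algebraMap ↥S.L1 Qb)) ↥(lg_E ↥S.L1 (N' * q * q)) c)
      (hbE0 : ∀ c : ↥(A.comap (algebraMap ↥S.L1 Qb)),
        bE (algebraMap ↥(A.comap (algebraMap ↥S.L1 Qb)) ↥(lg_E ↥S.L1 (N' * q)) c) =
          algebraMap ↥(A.comap (algebraMap ↥S.L1 Qb)) ↥(lg_E ↥S.L1 (N' * q * q)) c)
      (hAa : (m59t2_PA A N' S.L1 S.lev.irr).comap aB = m59t1_P1 A N' S.L1 S.lev.irr)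
      (hBa : (m59t2_PB A N' hq2 hqN' S.L1 S.lev.irr).comap aB =
        m59t1_P2 A N' hq2 hqN' S.L1 S.lev.irr)
      (hCa : ∀ VC : ValuationSubring ↥(lg_E ↥S.L1 (N' * q * q)),
        s36asm_Third (A.comap (algebraMap ↥S.L1 Qb)) S.lev.irr N' q hq2 hqN' VC →
        (m59t2_PC A N' S.L1 VC).comap aB = m59t1_P1 A N' S.L1 S.lev.irr)
      (hAb : (m59t2_PA A N' S.L1 S.lev.irr).comap bB = m59t1_P1 A N' S.L1 S.lev.irr)
      (hBb : (m59t2_PB A N' hq2 hqN' S.L1 S.lev.irr).comap bB =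
        m59t1_P2 A N' hq2 hqN' S.L1 S.lev.irr)
      (hCb : ∀ VC : ValuationSubring ↥(lg_E ↥S.L1 (N' * q * q)),
        s36asm_Third (A.comap (algebraMap ↥S.L1 Qb)) S.lev.irr N' q hq2 hqN' VC →
        (m59t2_PC A N' S.L1 VC).comap bB = m59t1_P2 A N' hq2 hqN' S.L1 S.lev.irr)
      (ζ : (↥(A.comap (algebraMap ↥S.L1 Qb)))ˣ) (Q0 : s44e_Sg A N' q hq.out hqN'),
      ∀ u ∈ m59tc_D1 N' q p A, ∀ v ∈ m59tc_D1 N' q p A,
        ∀ a b : m59t1_B A N' hqN' p Q0,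
        m59t1_T1 A hA N' hq2 hqN' S.L1 S.lev.irr p ζ Q0 u a →
        m59t1_T1 A hA N' hq2 hqN' S.L1 S.lev.irr p ζ Q0 v b →
        m59pl_pa (N' * q) q u + m59pl_pb (N' * q) q v ∈
            m59g12u_TorL A N' q hq2 hqN' S.L1 p 1 ∧
          m59t2_T2 A hA N' hq2 hqN' S.L1 S.lev.irr aB bB p ζ Q0
            (m59pl_pa (N' * q) q u + m59pl_pb (N' * q) q v) (a, b) := by
  haveI := (m59tx_star_inst A N' hq2 hqN' S).1
  haveI := S.lev.dvr
  haveI := m59tx_star_charP A hA N' hq2 hqN' S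
  intro aE bE aB bB hNF haB hbB haE0 hbE0 hAa hBa hCa hAb hBb hCb ζ Q0
  exact m59tpa_pull_of_restr A hA N' hq2 hqN' S.L1 S.lev.irr S.zN S.hzN aE bE aB bB hNF
    haB hbB haE0 hbE0 hAa hBa hCa hAb hBb hCb ζ Q0

end Star

end Fermat.Agent.M59
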