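/-
M59 / Sink B, leaf 4 [TOR-SURJ], THE CHART MAPS OF `m59tf_Cells2` AND ITS CLAUSE (pull), CLOSED
(helper15).  Prefix `m59tf_`.

`S : m59ls_Star N' q p A hq2 hqN'` the big level (Tor/LStar.lean), `L = S.L1`, `O = A ∩ L`, instances
`(m59tx_star_inst … S).1`, `S.lev.dvr`, `m59tx_star_charP … S`, uniformiser `S.lev.irr`,
`ζ_{N'} = S.zN`.

* **`m59tf_aB S`, `m59tf_bB S`** : THE pair of chart maps `B₁ →+* B₂` of the seam `m59tf_Cells2`
  (= helper28's `m59tpr_aB`, `m59tpr_bB` of Tor/PullRestrB.lean over the Star: induced by the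
  inclusion `α^*` and by `β^* : f(X) ↦ f(X^q)`);
* the ten (R3) facts over the Star in the literal shape of helper29's `m59tpa_pull_star`
  (`m59tf_haB … m59tf_hCb`);
* **`m59tf_pull`** : the clause (pull) of `m59tf_Cells2` for this pair, NO hypothesis
  (helper29's `m59tpa_pull_star` + helper1's `m59tpn_pullNF_closed` + helper28's (R3)).
-/
import Mathlib
import Fermat.Agent.M59.SinkB.Tor.PullStar
import Fermat.Agent.M59.SinkB.Tor.PullNFClosed
import Fermat.Agent.M59.SinkB.Tor.PullRestrB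

set_option autoImplicit false
set_option linter.unusedSectionVars false
set_option linter.unusedVariables false
set_option linter.style.haveILetI false
set_option synthInstance.maxHeartbeats 400000
set_option maxHeartbeats 1000000

noncomputable section

namespace Fermat.Agent.M59

open Polynomial ModularCurve AlgebraicCurve IntermediateField IsLocalRing
open Fermat.Agent.JT3 Fermat.Agent.SS Fermat.Agent.S35 Fermat.Agent.S24 Fermat.Agent.S44
  Fermat.Agent.S36 Fermat.Agent.SS2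

local notation "Qb" => AlgebraicClosure ℚ

section Star

variable (A : ValuationSubring Qb) {q : ℕ} [hq : Fact q.Prime] (hA : A.LiesOverPrime q)
  (N' : ℕ) [NeZero N'] [NeZero q] [NeZero (N' * q)] [NeZero (N' * q * q)] (hq2 : ¬ 2 ∣ q)
  (hqN' : ¬ q ∣ N') {p : ℕ} [hp : Fact p.Prime]

/-- **THE chart map `a_B : B₁ →+* B₂` of `m59tf_Cells2`** over the big level. -/
def m59tf_aB (S : m59ls_Star N' q p A hq2 hqN') :
    ↥(m59t1_B1 A N' q S.L1) →+* ↥(m59t2_B2 A N' q S.L1) :=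
  haveI := (m59tx_star_inst A N' hq2 hqN' S).1
  haveI := S.lev.dvr
  m59tpr_aB ↥S.L1 (A.comap (algebraMap ↥S.L1 Qb)) N' q

include hA in
/-- **THE chart map `b_B : B₁ →+* B₂` of `m59tf_Cells2`** over the big level. -/
def m59tf_bB (S : m59ls_Star N' q p A hq2 hqN') :
    ↥(m59t1_B1 A N' q S.L1) →+* ↥(m59t2_B2 A N' q S.L1) :=
  haveI := (m59tx_star_inst A N' hq2 hqN' S).1
  haveI := S.lev.dvr
  haveI := m59tx_star_charP A hA N' hq2 hqN' S
  m59tpr_bB ↥S.L1 (A.comap (algebraMap ↥S.L1 Qb)) N' q hq2 hqN' S.lev.irr S.zN S.hzN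

end Star


section Star2

variable (A : ValuationSubring Qb) {q : ℕ} [hq : Fact q.Prime] (hA : A.LiesOverPrime q)
  (N' : ℕ) [NeZero N'] [NeZero q] [NeZero (N' * q)] [NeZero (N' * q * q)] (hq2 : ¬ 2 ∣ q)
  (hqN' : ¬ q ∣ N') {p : ℕ} [hp : Fact p.Prime]

theorem m59tf_coe_aE (S : m59ls_Star N' q p A hq2 hqN') (x : ↥(lg_E ↥S.L1 (N' * q))) :
    ((m59tpr_aE ↥S.L1 N' q x : ↥(lg_E ↥S.L1 (N' * q * q))) : LaurentSeries ↥S.L1) =
      (x : LaurentSeries ↥S.L1) :=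
  m59tpr_coe_aE N' q x

theorem m59tf_coe_bE (S : m59ls_Star N' q p A hq2 hqN') (x : ↥(lg_E ↥S.L1 (N' * q))) :
    ((m59tpr_bE ↥S.L1 N' q hq2 x : ↥(lg_E ↥S.L1 (N' * q * q))) : LaurentSeries ↥S.L1) =
      qExpand ↥S.L1 q (x : LaurentSeries ↥S.L1) :=
  m59tpr_coe_bE N' q hq2 x

theorem m59tf_haB (S : m59ls_Star N' q p A hq2 hqN') (b : ↥(m59t1_B1 A N' q S.L1)) :
    ((m59tf_aB A N' hq2 hqN' S b : ↥(m59t2_B2 A N' q S.L1)) : ↥(lg_E ↥S.L1 (N' * q * q))) =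
      m59tpr_aE ↥S.L1 N' q (b : ↥(lg_E ↥S.L1 (N' * q))) := rfl

theorem m59tf_hbB (S : m59ls_Star N' q p A hq2 hqN') (b : ↥(m59t1_B1 A N' q S.L1)) :
    ((m59tf_bB A hA N' hq2 hqN' S b : ↥(m59t2_B2 A N' q S.L1)) : ↥(lg_E ↥S.L1 (N' * q * q))) =
      m59tpr_bE ↥S.L1 N' q hq2 (b : ↥(lg_E ↥S.L1 (N' * q))) := rfl

theorem m59tf_haE0 (S : m59ls_Star N' q p A hq2 hqN')
    (c : ↥(A.comap (algebraMap ↥S.L1 Qb))) :
    m59tpr_aE ↥S.L1 N' q
        (algebraMap ↥(A.comap (algebraMap ↥S.L1 Qb)) ↥(lg_E ↥S.L1 (N' * q)) c) =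
      algebraMap ↥(A.comap (algebraMap ↥S.L1 Qb)) ↥(lg_E ↥S.L1 (N' * q * q)) c := by
  haveI := S.lev.dvr
  exact m59tpr_aE_algebraMapO (A.comap (algebraMap ↥S.L1 Qb)) N' q c

theorem m59tf_hbE0 (S : m59ls_Star N' q p A hq2 hqN')
    (c : ↥(A.comap (algebraMap ↥S.L1 Qb))) :
    m59tpr_bE ↥S.L1 N' q hq2
        (algebraMap ↥(A.comap (algebraMap ↥S.L1 Qb)) ↥(lg_E ↥S.L1 (N' * q)) c) =
      algebraMap ↥(A.comap (algebraMap ↥S.L1 Qb)) ↥(lg_E ↥S.L1 (N' * q * q)) c := by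
  haveI := S.lev.dvr
  exact m59tpr_bE_algebraMapO (A.comap (algebraMap ↥S.L1 Qb)) N' q hq2 c

include hA in
/-- a third valuation ring over the big level. -/
theorem m59tf_third (S : m59ls_Star N' q p A hq2 hqN') :
    haveI := S.lev.dvr
    ∃ VC : ValuationSubring ↥(lg_E ↥S.L1 (N' * q * q)),
      s36asm_Third (A.comap (algebraMap ↥S.L1 Qb)) S.lev.irr N' q hq2 hqN' VC := by
  haveI := (m59tx_star_inst A N' hq2 hqN' S).1
  haveI := S.lev.dvr
  haveI := m59tx_star_charP A hA N' hq2 hqN' S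
  exact s36asm_third_exists (A.comap (algebraMap ↥S.L1 Qb)) S.lev.irr N' q hq2 hqN' 1 isUnit_one
    (mul_one _).symm

include hA in
theorem m59tf_hAa (S : m59ls_Star N' q p A hq2 hqN') :
    haveI := (m59tx_star_inst A N' hq2 hqN' S).1
    haveI := S.lev.dvr
    haveI := m59tx_star_charP A hA N' hq2 hqN' S
    (m59t2_PA A N' S.L1 S.lev.irr).comap (m59tf_aB A N' hq2 hqN' S) =
      m59t1_P1 A N' S.L1 S.lev.irr := by
  haveI := (m59tx_star_inst A N' hq2 hqN' S).1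
  haveI := S.lev.dvr
  haveI := m59tx_star_charP A hA N' hq2 hqN' S
  obtain ⟨VC, T3⟩ := m59tf_third A hA N' hq2 hqN' S
  exact m59tpr_PA_comap_aB ↥S.L1 (A.comap (algebraMap ↥S.L1 Qb)) N' q hq2 hqN' S.lev.irr S.zN
    S.hzN T3

include hA in
theorem m59tf_hBa (S : m59ls_Star N' q p A hq2 hqN') :
    haveI := (m59tx_star_inst A N' hq2 hqN' S).1
    haveI := S.lev.dvr
    haveI := m59tx_star_charP A hA N' hq2 hqN' S
    (m59t2_PB A N' hq2 hqN' S.L1 S.lev.irr).comap (m59tf_aB A N' hq2 hqN' S) =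
      m59t1_P2 A N' hq2 hqN' S.L1 S.lev.irr := by
  haveI := (m59tx_star_inst A N' hq2 hqN' S).1
  haveI := S.lev.dvr
  haveI := m59tx_star_charP A hA N' hq2 hqN' S
  obtain ⟨VC, T3⟩ := m59tf_third A hA N' hq2 hqN' S
  exact m59tpr_PB_comap_aB ↥S.L1 (A.comap (algebraMap ↥S.L1 Qb)) N' q hq2 hqN' S.lev.irr S.zN
    S.hzN T3

include hA in
theorem m59tf_hCa (S : m59ls_Star N' q p A hq2 hqN') :
    haveI := (m59tx_star_inst A N' hq2 hqN' S).1
    haveI := S.lev.dvr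
    haveI := m59tx_star_charP A hA N' hq2 hqN' S
    ∀ VC : ValuationSubring ↥(lg_E ↥S.L1 (N' * q * q)),
      s36asm_Third (A.comap (algebraMap ↥S.L1 Qb)) S.lev.irr N' q hq2 hqN' VC →
      (m59t2_PC A N' S.L1 VC).comap (m59tf_aB A N' hq2 hqN' S) =
        m59t1_P1 A N' S.L1 S.lev.irr := by
  haveI := (m59tx_star_inst A N' hq2 hqN' S).1
  haveI := S.lev.dvr
  haveI := m59tx_star_charP A hA N' hq2 hqN' S
  intro VC T3
  exact m59tpr_PC_comap_aB ↥S.L1 (A.comap (algebraMap ↥S.L1 Qb)) N' q hq2 hqN' S.lev.irr S.zN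
    S.hzN T3

include hA in
theorem m59tf_hAb (S : m59ls_Star N' q p A hq2 hqN') :
    haveI := (m59tx_star_inst A N' hq2 hqN' S).1
    haveI := S.lev.dvr
    haveI := m59tx_star_charP A hA N' hq2 hqN' S
    (m59t2_PA A N' S.L1 S.lev.irr).comap (m59tf_bB A hA N' hq2 hqN' S) =
      m59t1_P1 A N' S.L1 S.lev.irr := by
  haveI := (m59tx_star_inst A N' hq2 hqN' S).1
  haveI := S.lev.dvr
  haveI := m59tx_star_charP A hA N' hq2 hqN' S
  obtain ⟨VC, T3⟩ := m59tf_third A hA N' hq2 hqN' S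
  exact m59tpr_PA_comap_bB ↥S.L1 (A.comap (algebraMap ↥S.L1 Qb)) N' q hq2 hqN' S.lev.irr S.zN
    S.hzN T3

include hA in
theorem m59tf_hBb (S : m59ls_Star N' q p A hq2 hqN') :
    haveI := (m59tx_star_inst A N' hq2 hqN' S).1
    haveI := S.lev.dvr
    haveI := m59tx_star_charP A hA N' hq2 hqN' S
    (m59t2_PB A N' hq2 hqN' S.L1 S.lev.irr).comap (m59tf_bB A hA N' hq2 hqN' S) =
      m59t1_P2 A N' hq2 hqN' S.L1 S.lev.irr := by
  haveI := (m59tx_star_inst A N' hq2 hqN' S).1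
  haveI := S.lev.dvr
  haveI := m59tx_star_charP A hA N' hq2 hqN' S
  obtain ⟨VC, T3⟩ := m59tf_third A hA N' hq2 hqN' S
  exact m59tpr_PB_comap_bB ↥S.L1 (A.comap (algebraMap ↥S.L1 Qb)) N' q hq2 hqN' S.lev.irr S.zN
    S.hzN T3

include hA in
theorem m59tf_hCb (S : m59ls_Star N' q p A hq2 hqN') :
    haveI := (m59tx_star_inst A N' hq2 hqN' S).1
    haveI := S.lev.dvr
    haveI := m59tx_star_charP A hA N' hq2 hqN' S
    ∀ VC : ValuationSubring ↥(lg_E ↥S.L1 (N' * q * q)),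
      s36asm_Third (A.comap (algebraMap ↥S.L1 Qb)) S.lev.irr N' q hq2 hqN' VC →
      (m59t2_PC A N' S.L1 VC).comap (m59tf_bB A hA N' hq2 hqN' S) =
        m59t1_P2 A N' hq2 hqN' S.L1 S.lev.irr := by
  haveI := (m59tx_star_inst A N' hq2 hqN' S).1
  haveI := S.lev.dvr
  haveI := m59tx_star_charP A hA N' hq2 hqN' S
  intro VC T3
  exact m59tpr_PC_comap_bB ↥S.L1 (A.comap (algebraMap ↥S.L1 Qb)) N' q hq2 hqN' S.lev.irr S.zN
    S.hzN T3

include hA in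
theorem m59tf_aB_isIntegral (S : m59ls_Star N' q p A hq2 hqN') :
    (m59tf_aB A N' hq2 hqN' S).IsIntegral := by
  haveI := (m59tx_star_inst A N' hq2 hqN' S).1
  haveI := S.lev.dvr
  haveI := m59tx_star_charP A hA N' hq2 hqN' S
  exact m59tpr_aB_isIntegral ↥S.L1 (A.comap (algebraMap ↥S.L1 Qb)) N' q

include hA in
theorem m59tf_bB_isIntegral (S : m59ls_Star N' q p A hq2 hqN') :
    (m59tf_bB A hA N' hq2 hqN' S).IsIntegral := by
  haveI := (m59tx_star_inst A N' hq2 hqN' S).1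
  haveI := S.lev.dvr
  haveI := m59tx_star_charP A hA N' hq2 hqN' S
  obtain ⟨VC, T3⟩ := m59tf_third A hA N' hq2 hqN' S
  exact m59tpr_bB_isIntegral ↥S.L1 (A.comap (algebraMap ↥S.L1 Qb)) N' q hq2 hqN' S.lev.irr S.zN
    S.hzN T3

include hA in
theorem m59tf_aB_injective (S : m59ls_Star N' q p A hq2 hqN') :
    Function.Injective (m59tf_aB A N' hq2 hqN' S) := by
  haveI := (m59tx_star_inst A N' hq2 hqN' S).1
  haveI := S.lev.dvr
  haveI := m59tx_star_charP A hA N' hq2 hqN' S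
  exact m59tpr_aB_injective ↥S.L1 (A.comap (algebraMap ↥S.L1 Qb)) N' q

include hA in
theorem m59tf_bB_injective (S : m59ls_Star N' q p A hq2 hqN') :
    Function.Injective (m59tf_bB A hA N' hq2 hqN' S) := by
  haveI := (m59tx_star_inst A N' hq2 hqN' S).1
  haveI := S.lev.dvr
  haveI := m59tx_star_charP A hA N' hq2 hqN' S
  exact m59tpr_bB_injective ↥S.L1 (A.comap (algebraMap ↥S.L1 Qb)) N' q hq2 hqN' S.lev.irr S.zN
    S.hzN

include hA in
/-- **the clause (pull) of `m59tf_Cells2` for THE pair `m59tf_aB`, `m59tf_bB`**: no hypothesis. -/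
theorem m59tf_pull (S : m59ls_Star N' q p A hq2 hqN') :
    haveI := (m59tx_star_inst A N' hq2 hqN' S).1
    haveI := S.lev.dvr
    haveI := m59tx_star_charP A hA N' hq2 hqN' S
    ∀ (ζ : (↥(A.comap (algebraMap ↥S.L1 Qb)))ˣ) (Q0 : s44e_Sg A N' q hq.out hqN'),
      ∀ u ∈ m59tc_D1 N' q p A, ∀ v ∈ m59tc_D1 N' q p A,
        ∀ a b : m59t1_B A N' hqN' p Q0,
        m59t1_T1 A hA N' hq2 hqN' S.L1 S.lev.irr p ζ Q0 u a →
        m59t1_T1 A hA N' hq2 hqN' S.L1 S.lev.irr p ζ Q0 v b →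
        m59pl_pa (N' * q) q u + m59pl_pb (N' * q) q v ∈
            m59g12u_TorL A N' q hq2 hqN' S.L1 p 1 ∧
          m59t2_T2 A hA N' hq2 hqN' S.L1 S.lev.irr (m59tf_aB A N' hq2 hqN' S)
            (m59tf_bB A hA N' hq2 hqN' S) p ζ Q0
            (m59pl_pa (N' * q) q u + m59pl_pb (N' * q) q v) (a, b) := by
  haveI := (m59tx_star_inst A N' hq2 hqN' S).1
  haveI := S.lev.dvr
  haveI := m59tx_star_charP A hA N' hq2 hqN' S
  intro ζ Q0
  exact m59tpa_pull_star A hA N' hq2 hqN' S (m59tpr_aE ↥S.L1 N' q) (m59tpr_bE ↥S.L1 N' q hq2)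
    (m59tf_aB A N' hq2 hqN' S) (m59tf_bB A hA N' hq2 hqN' S)
    (m59tpn_pullNF_closed A N' hq2 hqN' S.L1 S.lev.irr _ _ (m59tf_coe_aE A N' hq2 hqN' S)
      (m59tf_coe_bE A N' hq2 hqN' S) p)
    (m59tf_haB A N' hq2 hqN' S) (m59tf_hbB A hA N' hq2 hqN' S)
    (m59tf_haE0 A N' hq2 hqN' S) (m59tf_hbE0 A N' hq2 hqN' S)
    (m59tf_hAa A hA N' hq2 hqN' S) (m59tf_hBa A hA N' hq2 hqN' S) (m59tf_hCa A hA N' hq2 hqN' S)
    (m59tf_hAb A hA N' hq2 hqN' S) (m59tf_hBb A hA N' hq2 hqN' S) (m59tf_hCb A hA N' hq2 hqN' S)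
    ζ Q0

end Star2

end Fermat.Agent.M59
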