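/-
M59 / Sink B, leaf 4 [TOR-SURJ], cell (inj1) (helper6; cut by helper15, finding 5695 (5)).
Prefix `m59tj_`.

LEVEL `N' q`: A TORIC DATUM DETERMINES THE CLASS.

* `m59tj_congr_inv`, `m59tj_congr_div` : congruences modulo the maximal ideal of a valuation ring
  pass to inverses and quotients (unit constants);
* `m59tj_root_descent`  : Legendre root descent `E = φ(F_N)(λ) → F_N` for an ODD exponent, WITHOUT
  any hypothesis on the orders at the places of `F_N` (the `q`-order of `f` is divisible by `p`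
  because `2 · ord f = p · ord g`);
* `m59tj_quot_pow`      : two functions `g`, `g'` on the Legendre cover of level `N' q` with all orders
  divisible by `m`, constant reductions, and toric data `κ(𝔫) ε`, `κ(𝔫) ε'` (the SAME `κ`) at EVERY
  crossing point `𝔫 ⊇ P1 + P2`: `g / g' = c · w ^ m` (`m59tl_ratio_div`, `m59tgl_leg_hK`,
  `m59tgl_leg`);
* `m59tj_class_eq`      : two normal forms `φ x0 = c R^p g`, `φ x0' = c' R'^p g'` of `u`, `u'` with
  `g / g' = c₁ w ^ p` ⟹ `u = u'` (root descent, `s44b_rep_pth`, `s44b_rep_inj`);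
* **`m59tj_inj1_core`** : (inj1) in the vocabulary of `Tor/Defs1.lean` with "every crossing point" as
  hypothesis;
* **`m59tj_inj1`**      : (inj1) for `m59t1_T1`, from [DICT1] (every crossing point is labelled by a
  supersingular place) and the existence of one crossing point.
-/
import Mathlib
import Fermat.Agent.M59.SinkB.Tor.Defs1
import Fermat.Agent.M59.SinkB.Tor.Glue1Leg
import Fermat.Agent.JT3.KDescent.LegendreKey
import Fermat.Agent.S44.Bridge.Rep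
import Fermat.Agent.S44.Bridge.Eigen

set_option autoImplicit false
set_option linter.unusedSectionVars false
set_option linter.unusedVariables false
set_option linter.style.haveILetI false

noncomputable section

namespace Fermat.Agent.M59

open Fermat.Agent.SS Fermat.Agent.JT3 Fermat.Agent.S35 Fermat.Agent.S36 Fermat.Agent.S44
  Fermat.Agent.S28 IsLocalRing AlgebraicCurve IntermediateField ModularCurve

/-! ### congruences in a valuation ring -/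

section Congr

variable {F0 : Type*} [Field F0] (V : ValuationSubring F0)

/-- a congruence to a unit passes to inverses. -/
theorem m59tj_congr_inv {x a : F0} (hx : x - a ∈ V.nonunits) (ha : a ∈ V)
    (han : a ∉ V.nonunits) : x ∈ V ∧ x ∉ V.nonunits ∧ x⁻¹ - a⁻¹ ∈ V.nonunits := by
  have hva : V.valuation a = 1 := by
    have h1 : V.valuation a ≤ 1 := (V.valuation_le_one_iff a).2 ha
    have h2 : ¬ V.valuation a < 1 := fun h => han (V.mem_nonunits_iff.2 h)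
    exact le_antisymm h1 (not_lt.1 h2)
  have hd : V.valuation (x - a) < 1 := V.mem_nonunits_iff.1 hx
  have hvx : V.valuation x = 1 := by
    have e : x = a + (x - a) := by ring
    rw [e, Valuation.map_add_eq_of_lt_left, hva]
    rw [hva]; exact hd
  have ha0 : a ≠ 0 := by
    intro h; rw [h, map_zero] at hva; exact zero_ne_one hva
  have hx0 : x ≠ 0 := by
    intro h; rw [h, map_zero] at hvx; exact zero_ne_one hvx
  refine ⟨(V.valuation_le_one_iff x).1 hvx.le, fun h => ?_, ?_⟩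
  · have := V.mem_nonunits_iff.1 h
    rw [hvx] at this
    exact lt_irrefl _ this
  · rw [V.mem_nonunits_iff]
    have e : x⁻¹ - a⁻¹ = -(x - a) * (x⁻¹ * a⁻¹) := by
      field_simp
      ring
    rw [e, map_mul, map_mul, Valuation.map_neg, map_inv₀, map_inv₀, hvx, hva, inv_one, mul_one,
      mul_one]
    exact hd

/-- congruences to unit constants pass to quotients. -/
theorem m59tj_congr_div {x y a b : F0} (hx : x - a ∈ V.nonunits) (hy : y - b ∈ V.nonunits)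
    (ha : a ∈ V) (hb : b ∈ V) (hbn : b ∉ V.nonunits) : x / y - a / b ∈ V.nonunits := by
  obtain ⟨hyV, hyn, hinv⟩ := m59tj_congr_inv V hy hb hbn
  have hyinvV : y⁻¹ ∈ V := by
    rcases V.mem_or_inv_mem y⁻¹ with h | h
    · exact h
    · rw [inv_inv] at h
      have hvy : V.valuation y = 1 := by
        have h1 : V.valuation y ≤ 1 := (V.valuation_le_one_iff y).2 hyV
        have h2 : ¬ V.valuation y < 1 := fun h => hyn (V.mem_nonunits_iff.2 h)
        exact le_antisymm h1 (not_lt.1 h2)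
      rw [← V.valuation_le_one_iff, map_inv₀, hvy, inv_one]
  rw [div_eq_mul_inv, div_eq_mul_inv]
  exact m59tgl_congr_mul V hx hinv ha hyinvV

end Congr

/-! ### Legendre root descent for an odd exponent -/

section Descent

set_option synthInstance.maxHeartbeats 400000 in
/-- **Legendre root descent, odd exponent**: `f ∈ F_N`, `φ f = c · g ^ p` with `g ∈ E = φ(F_N)(λ)`
and `p` odd ⟹ `f = c' · g' ^ p` in `F_N`. -/
theorem m59tj_root_descent (L : Type*) [Field L] [CharZero L] (N : ℕ) [NeZero N] {p : ℕ}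
    (hp : Odd p) (f : lg_F L N) (c : L) (g : LaurentSeries L) (hg : g ∈ lg_E L N)
    (hfg : lg_phi L (f : LaurentSeries L) = algebraMap L (LaurentSeries L) c * g ^ p) :
    ∃ (c' : L) (g' : lg_F L N), f = algebraMap L (lg_F L N) c' * g' ^ p := by
  have hp0 : p ≠ 0 := fun h => by rw [h] at hp; exact Nat.not_odd_iff_even.2 Even.zero hp
  have hinj : Function.Injective (lg_phi L) := (lg_phi L).toRingHom.injective
  by_cases hc : c = 0
  · refine ⟨0, 0, ?_⟩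
    rw [hc, map_zero, zero_mul] at hfg
    have h0 : (f : LaurentSeries L) = 0 := hinj (by rw [hfg, map_zero])
    rw [map_zero, zero_mul]
    exact Subtype.ext h0
  by_cases hf0 : (f : LaurentSeries L) = 0
  · refine ⟨0, 0, ?_⟩
    rw [map_zero, zero_mul]
    exact Subtype.ext hf0
  have hc' : algebraMap L (LaurentSeries L) c ≠ 0 :=
    (map_ne_zero_iff _ (algebraMap L (LaurentSeries L)).injective).2 hc
  have hg0 : g ≠ 0 := by
    rintro rfl
    rw [zero_pow hp0, mul_zero] at hfg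
    exact hf0 (hinj (by rw [hfg, map_zero]))
  -- the `q`-order of `f` is divisible by `p`
  have hordq : (p : ℤ) ∣ (f : LaurentSeries L).order := by
    have h1 := congrArg HahnSeries.order hfg
    rw [lg_phi_apply, fs_qExpand_order, HahnSeries.order_mul hc' (pow_ne_zero p hg0),
      algebraMap_laurentSeries_eq_single, HahnSeries.order_single hc, zero_add,
      HahnSeries.order_pow] at h1
    have h2 : (p : ℤ) ∣ ((2 : ℕ) : ℤ) * (f : LaurentSeries L).order := by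
      rw [h1, nsmul_eq_mul]
      exact dvd_mul_right _ _
    have hcop : IsCoprime (p : ℤ) ((2 : ℕ) : ℤ) := by
      rw [Nat.isCoprime_iff_coprime]
      exact Nat.coprime_two_right.2 hp
    exact hcop.dvd_of_dvd_mul_left h2
  -- normalise the constant
  set f1 : LaurentSeries L := algebraMap L (LaurentSeries L) c⁻¹ * (f : LaurentSeries L)
    with hf1
  have hf1F : f1 ∈ lg_F L N := mul_mem ((lg_F L N).algebraMap_mem _) f.2
  have hcinv : algebraMap L (LaurentSeries L) c⁻¹ * algebraMap L (LaurentSeries L) c = 1 := by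
    rw [← map_mul, inv_mul_cancel₀ hc, map_one]
  have hgp : g ^ p = qExpand L 2 f1 := by
    rw [← lg_phi_apply, hf1, map_mul, hfg, AlgHom.commutes, ← mul_assoc, hcinv, one_mul]
  have hord1 : (p : ℤ) ∣ f1.order := by
    have hci : algebraMap L (LaurentSeries L) c⁻¹ ≠ 0 :=
      (map_ne_zero_iff _ (algebraMap L (LaurentSeries L)).injective).2 (inv_ne_zero hc)
    rw [hf1, HahnSeries.order_mul hci hf0, algebraMap_laurentSeries_eq_single,
      HahnSeries.order_single (inv_ne_zero hc), zero_add]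
    exact hordq
  have h16 : (hm_lam L).coeff 1 ≠ 0 := by
    rw [hm_lam_coeff_one]; norm_num
  obtain ⟨g0, hg0F, hg0⟩ := kd_leg_descent_series (lg_F L N) (jqModC_mem_full L N)
    (lg_legendre L) h16 (fun n hn => hm_lam_coeff_of_lt L hn) hp0 hg hf1F hgp hord1
  refine ⟨c, ⟨g0, hg0F⟩, ?_⟩
  apply Subtype.ext
  apply hinj
  show lg_phi L (f : LaurentSeries L) = lg_phi L (algebraMap L (LaurentSeries L) c * g0 ^ p)
  rw [hfg, map_mul, map_pow, AlgHom.commutes, lg_phi_apply L g0, ← hg0]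

end Descent


/-! ### the quotient of two functions with the same toric datum -/

section Leg

variable (L : Type) [Field L] [NumberField L] [Algebra L (AlgebraicClosure ℚ)]
  (O : ValuationSubring L) [IsDiscreteValuationRing O]
variable (N' q : ℕ) [NeZero N'] [NeZero q] [hq : Fact q.Prime] [CharP (ResidueField O) q]
  (hq2 : ¬ 2 ∣ q) (hqN' : ¬ q ∣ N') (hπ : Irreducible ((q : ℕ) : ↥O))
  (ζ : L) (hζ : IsPrimitiveRoot ζ N') (φ1 : L ≃+* L) (hφ1 : s35nf_FrobAt O φ1 q)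

/-- the toric datum of `f` at the point `𝔫` of the `λ`-chart, between the two components of the
special fibre, is the constant `c0` (LITERALLY the shape of the hypothesis `hrat` of `m59tgl_leg`). -/
def m59tj_Rat (m : ℕ) (f : ↥(lg_E L (N' * q))) (c0 : (↥O)ˣ)
    (𝔫 : Ideal (fc_chart ↥O ({lg_lamE (N' * q)} : Set ↥(lg_E L (N' * q)))))
    (h𝔫 : 𝔫.IsMaximal) : Prop :=
  haveI : FiniteDimensional L⟮(lg_lamE (N' * q) : lg_E L (N' * q))⟯ ↥(lg_E L (N' * q)) :=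
    lgf_finite L (N' * q)
  haveI := ssm_ths_chart_isFractionRing (A0 := ↥O) (L := L)
    (lg_lamE (N' * q) : ↥(lg_E L (N' * q)))
  haveI : 𝔫.IsPrime := h𝔫.isPrime
  m59tl_Ratio
    (𝔫.map (algebraMap (fc_chart ↥O ({lg_lamE (N' * q)} : Set ↥(lg_E L (N' * q))))
      (ssl_locSub ↥(lg_E L (N' * q)) 𝔫)))
    ((ssm_tp_P (fc_chart ↥O ({lg_lamE (N' * q)} : Set ↥(lg_E L (N' * q))))
      (ssm_gl_V1 O hπ N' q)).map
      (algebraMap (fc_chart ↥O ({lg_lamE (N' * q)} : Set ↥(lg_E L (N' * q))))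
        (ssl_locSub ↥(lg_E L (N' * q)) 𝔫)))
    ((ssm_tp_P (fc_chart ↥O ({lg_lamE (N' * q)} : Set ↥(lg_E L (N' * q))))
      (ssm_gl_V2 O hπ N' q hq2 hqN')).map
      (algebraMap (fc_chart ↥O ({lg_lamE (N' * q)} : Set ↥(lg_E L (N' * q))))
        (ssl_locSub ↥(lg_E L (N' * q)) 𝔫))) m (f : ↥(lg_E L (N' * q)))
    (m59tl_cst (F0 := ↥(lg_E L (N' * q))) 𝔫 c0)

include hζ in
set_option synthInstance.maxHeartbeats 400000 in
set_option maxHeartbeats 1600000 in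
/-- unit constants of `O` are units of the two Gauss valuation rings. -/
theorem m59tj_const_unit (k : ↥O) (hk : IsUnit k) :
    (algebraMap L ↥(lg_E L (N' * q)) ((k : ↥O) : L) ∈ ssm_gl_V1 O hπ N' q ∧
      algebraMap L ↥(lg_E L (N' * q)) ((k : ↥O) : L) ∉ (ssm_gl_V1 O hπ N' q).nonunits) ∧
    (algebraMap L ↥(lg_E L (N' * q)) ((k : ↥O) : L) ∈ ssm_gl_V2 O hπ N' q hq2 hqN' ∧
      algebraMap L ↥(lg_E L (N' * q)) ((k : ↥O) : L) ∉
        (ssm_gl_V2 O hπ N' q hq2 hqN').nonunits) := by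
  have hqO : ((q : ℕ) : O) ∈ maximalIdeal O := ssm_fln_q_mem L O q
  have hq2' : q ≠ 2 := ssm_fl_ne_two q hq2
  have hp := ssm_ll_prime L N' hπ q hqO hq2' hqN' ζ hζ
  haveI := ssm_go_isScalarTower O (lg_E L (N' * q))
  haveI : FiniteDimensional L⟮(lg_lamE (N' * q) : lg_E L (N' * q))⟯ ↥(lg_E L (N' * q)) :=
    lgf_finite L (N' * q)
  have hx : Transcendental L (lg_lamE (L := L) (N' * q)) :=
    lgf_lam_transcendental L (N' * q) two_ne_zero
  have H := ssm_gl_hyp O hπ N' q hq2 hqN' hp.1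
  have hxA : Transcendental ↥O (lg_lamE (L := L) (N' * q)) := fc_ff_transcendental (L := L) hx
  haveI : IsIntegrallyClosed (Algebra.adjoin ↥O
      ({lg_lamE (N' * q)} : Set ↥(lg_E L (N' * q)))) := fc_ff_isIntegrallyClosed hxA
  haveI : FaithfulSMul (Algebra.adjoin ↥O ({lg_lamE (N' * q)} : Set ↥(lg_E L (N' * q))))
      ↥(lg_E L (N' * q)) :=
    (faithfulSMul_iff_algebraMap_injective _ _).2 Subtype.val_injective
  have hC1 := ssm_tp_ff_chart (L := L) (A0 := ↥O) (F0 := ↥(lg_E L (N' * q))) hπ hx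
  have hcst1 : ∀ a : ↥O, algebraMap ↥O ↥(lg_E L (N' * q)) a ∈ ssm_gl_V1 O hπ N' q := fun a =>
    hC1.le H.over1 (Subalgebra.algebraMap_mem _ a)
  have hcst2 : ∀ a : ↥O, algebraMap ↥O ↥(lg_E L (N' * q)) a ∈ ssm_gl_V2 O hπ N' q hq2 hqN' :=
    fun a => hC1.le H.over2 (Subalgebra.algebraMap_mem _ a)
  obtain ⟨k', hkk'⟩ := hk.exists_left_inv
  have hmul : algebraMap ↥O ↥(lg_E L (N' * q)) k' * algebraMap ↥O ↥(lg_E L (N' * q)) k = 1 := by
    rw [← map_mul, hkk', map_one]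
  have key : ∀ V : ValuationSubring ↥(lg_E L (N' * q)),
      (∀ a : ↥O, algebraMap ↥O ↥(lg_E L (N' * q)) a ∈ V) →
      algebraMap ↥O ↥(lg_E L (N' * q)) k ∉ V.nonunits := by
    intro V hV hn
    have h2 := m59ta_mul_mem V (hV k') hn
    rw [hmul, ValuationSubring.mem_nonunits_iff, map_one] at h2
    exact lt_irrefl _ h2
  exact ⟨⟨hcst1 k, key _ hcst1⟩, ⟨hcst2 k, key _ hcst2⟩⟩

include hζ hφ1 in
set_option synthInstance.maxHeartbeats 400000 in
set_option maxHeartbeats 3200000 in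
/-- **the quotient of two functions with the same toric datum is a constant times an `m`-th
power.** -/
theorem m59tj_quot_pow {m : ℕ} (hm : IsUnit (m : O)) {g g' : ↥(lg_E L (N' * q))}
    (hg0 : g ≠ 0) (hg'0 : g' ≠ 0)
    (hord : ∀ P : Place L ↥(lg_E L (N' * q)), (m : ℤ) ∣ P.ord g)
    (hord' : ∀ P : Place L ↥(lg_E L (N' * q)), (m : ℤ) ∣ P.ord g')
    (hcr : s35_ConstRed O hπ N' q hq2 hqN' g) (hcr' : s35_ConstRed O hπ N' q hq2 hqN' g')
    (κ : Ideal (fc_chart ↥O ({lg_lamE (N' * q)} : Set ↥(lg_E L (N' * q)))) → (↥O)ˣ)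
    (ε ε' : (↥O)ˣ)
    (hrat : ∀ (𝔫 : Ideal (fc_chart ↥O ({lg_lamE (N' * q)} : Set ↥(lg_E L (N' * q)))))
      (h𝔫 : 𝔫.IsMaximal),
      ssm_tp_P (fc_chart ↥O ({lg_lamE (N' * q)} : Set ↥(lg_E L (N' * q))))
        (ssm_gl_V1 O hπ N' q) ≤ 𝔫 →
      ssm_tp_P (fc_chart ↥O ({lg_lamE (N' * q)} : Set ↥(lg_E L (N' * q))))
        (ssm_gl_V2 O hπ N' q hq2 hqN') ≤ 𝔫 →
      m59tj_Rat L O N' q hq2 hqN' hπ m g (κ 𝔫 * ε) 𝔫 h𝔫)
    (hrat' : ∀ (𝔫 : Ideal (fc_chart ↥O ({lg_lamE (N' * q)} : Set ↥(lg_E L (N' * q)))))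
      (h𝔫 : 𝔫.IsMaximal),
      ssm_tp_P (fc_chart ↥O ({lg_lamE (N' * q)} : Set ↥(lg_E L (N' * q))))
        (ssm_gl_V1 O hπ N' q) ≤ 𝔫 →
      ssm_tp_P (fc_chart ↥O ({lg_lamE (N' * q)} : Set ↥(lg_E L (N' * q))))
        (ssm_gl_V2 O hπ N' q hq2 hqN') ≤ 𝔫 →
      m59tj_Rat L O N' q hq2 hqN' hπ m g' (κ 𝔫 * ε') 𝔫 h𝔫)
    (hex : ∃ 𝔫 : Ideal (fc_chart ↥O ({lg_lamE (N' * q)} : Set ↥(lg_E L (N' * q)))),
      𝔫.IsMaximal ∧
      ssm_tp_P (fc_chart ↥O ({lg_lamE (N' * q)} : Set ↥(lg_E L (N' * q))))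
        (ssm_gl_V1 O hπ N' q) ≤ 𝔫 ∧
      ssm_tp_P (fc_chart ↥O ({lg_lamE (N' * q)} : Set ↥(lg_E L (N' * q))))
        (ssm_gl_V2 O hπ N' q hq2 hqN') ≤ 𝔫) :
    ∃ (c : L) (w : ↥(lg_E L (N' * q))), w ≠ 0 ∧
      g / g' = algebraMap L ↥(lg_E L (N' * q)) c * w ^ m := by
  obtain ⟨k1, k2, hk1, hk2, hg1, hg2⟩ := hcr
  obtain ⟨k1', k2', hk1', hk2', hg1', hg2'⟩ := hcr'
  have hf0 : g / g' ≠ 0 := div_ne_zero hg0 hg'0
  have hordf : ∀ P : Place L ↥(lg_E L (N' * q)), (m : ℤ) ∣ P.ord (g / g') := by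
    intro P
    rw [div_eq_mul_inv, P.ord_mul hg0 (inv_ne_zero hg'0), P.ord_inv]
    exact dvd_add (hord P) ((dvd_neg).2 (hord' P))
  -- the unit constants
  set K1 : (↥O)ˣ := hk1.unit * hk1'.unit⁻¹ with hK1
  set K2 : (↥O)ˣ := hk2.unit * hk2'.unit⁻¹ with hK2
  have hcoe : ∀ (a b : ↥O) (ha : IsUnit a) (hb : IsUnit b),
      algebraMap L ↥(lg_E L (N' * q)) ((((ha.unit * hb.unit⁻¹ : (↥O)ˣ) : ↥O)) : L) =
        algebraMap L ↥(lg_E L (N' * q)) ((a : ↥O) : L) /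
          algebraMap L ↥(lg_E L (N' * q)) ((b : ↥O) : L) := by
    intro a b ha hb
    have hb0 : algebraMap L ↥(lg_E L (N' * q)) ((b : ↥O) : L) ≠ 0 := by
      rw [Ne, map_eq_zero_iff _ (algebraMap L ↥(lg_E L (N' * q))).injective]
      intro h0
      exact hb.ne_zero (Subtype.ext h0)
    rw [eq_div_iff hb0, ← map_mul]
    congr 1
    have : ((ha.unit * hb.unit⁻¹ : (↥O)ˣ) : ↥O) * b = a := by
      rw [Units.val_mul, mul_assoc]
      have : ((hb.unit⁻¹ : (↥O)ˣ) : ↥O) * b = 1 := hb.val_inv_mul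
      rw [this, mul_one, ha.unit_spec]
    exact_mod_cast congrArg (fun z : ↥O => (z : L)) this
  obtain ⟨⟨c11, c12⟩, -⟩ := m59tj_const_unit L O N' q hq2 hqN' hπ ζ hζ k1 hk1
  obtain ⟨⟨c11', c12'⟩, -⟩ := m59tj_const_unit L O N' q hq2 hqN' hπ ζ hζ k1' hk1'
  obtain ⟨-, ⟨c21, c22⟩⟩ := m59tj_const_unit L O N' q hq2 hqN' hπ ζ hζ k2 hk2
  obtain ⟨-, ⟨c21', c22'⟩⟩ := m59tj_const_unit L O N' q hq2 hqN' hπ ζ hζ k2' hk2'
  have hf1 : g / g' - algebraMap L ↥(lg_E L (N' * q)) ((K1 : ↥O) : L) ∈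
      (ssm_gl_V1 O hπ N' q).nonunits := by
    rw [hK1, hcoe k1 k1' hk1 hk1']
    exact m59tj_congr_div _ hg1 hg1' c11 c11' c12'
  have hf2 : g / g' - algebraMap L ↥(lg_E L (N' * q)) ((K2 : ↥O) : L) ∈
      (ssm_gl_V2 O hπ N' q hq2 hqN').nonunits := by
    rw [hK2, hcoe k2 k2' hk2 hk2']
    exact m59tj_congr_div _ hg2 hg2' c21 c21' c22'
  -- the ratio of the quotient
  have hratq : ∀ (𝔫 : Ideal (fc_chart ↥O ({lg_lamE (N' * q)} : Set ↥(lg_E L (N' * q)))))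
      (h𝔫 : 𝔫.IsMaximal),
      ssm_tp_P (fc_chart ↥O ({lg_lamE (N' * q)} : Set ↥(lg_E L (N' * q))))
        (ssm_gl_V1 O hπ N' q) ≤ 𝔫 →
      ssm_tp_P (fc_chart ↥O ({lg_lamE (N' * q)} : Set ↥(lg_E L (N' * q))))
        (ssm_gl_V2 O hπ N' q hq2 hqN') ≤ 𝔫 →
      m59tj_Rat L O N' q hq2 hqN' hπ m (g / g') (ε * ε'⁻¹) 𝔫 h𝔫 := by
    intro 𝔫 h𝔫 hP1 hP2
    have hqO : ((q : ℕ) : O) ∈ maximalIdeal O := ssm_fln_q_mem L O q
    have hq2' : q ≠ 2 := ssm_fl_ne_two q hq2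
    have hp := ssm_ll_prime L N' hπ q hqO hq2' hqN' ζ hζ
    haveI := ssm_go_isScalarTower O (lg_E L (N' * q))
    haveI : FiniteDimensional L⟮(lg_lamE (N' * q) : lg_E L (N' * q))⟯ ↥(lg_E L (N' * q)) :=
      lgf_finite L (N' * q)
    have hx : Transcendental L (lg_lamE (L := L) (N' * q)) :=
      lgf_lam_transcendental L (N' * q) two_ne_zero
    have H := ssm_gl_hyp O hπ N' q hq2 hqN' hp.1
    have hxA : Transcendental ↥O (lg_lamE (L := L) (N' * q)) := fc_ff_transcendental (L := L) hx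
    haveI : IsIntegrallyClosed (Algebra.adjoin ↥O
        ({lg_lamE (N' * q)} : Set ↥(lg_E L (N' * q)))) := fc_ff_isIntegrallyClosed hxA
    haveI : FaithfulSMul (Algebra.adjoin ↥O ({lg_lamE (N' * q)} : Set ↥(lg_E L (N' * q))))
        ↥(lg_E L (N' * q)) :=
      (faithfulSMul_iff_algebraMap_injective _ _).2 Subtype.val_injective
    have hC1 := ssm_tp_ff_chart (L := L) (A0 := ↥O) (F0 := ↥(lg_E L (N' * q))) hπ hx
    haveI := ssm_ths_chart_isFractionRing (A0 := ↥O) (L := L)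
      (lg_lamE (N' * q) : ↥(lg_E L (N' * q)))
    haveI h𝔫p : 𝔫.IsPrime := h𝔫.isPrime
    haveI := H.P1_isPrime hC1
    haveI := H.P2_isPrime hC1
    haveI := s35l_map_isPrime (F0 := ↥(lg_E L (N' * q))) 𝔫 _ hP1
    haveI := s35l_map_isPrime (F0 := ↥(lg_E L (N' * q))) 𝔫 _ hP2
    have r := m59tl_ratio_div _ _ _ (hrat 𝔫 h𝔫 hP1 hP2) (hrat' 𝔫 h𝔫 hP1 hP2)
    have e : m59tl_cst (F0 := ↥(lg_E L (N' * q))) 𝔫 (κ 𝔫 * ε) *
        (m59tl_cst (F0 := ↥(lg_E L (N' * q))) 𝔫 (κ 𝔫 * ε'))⁻¹ =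
        m59tl_cst (F0 := ↥(lg_E L (N' * q))) 𝔫 (ε * ε'⁻¹) := by
      rw [← map_inv, ← map_mul]
      congr 1
      rw [← div_eq_mul_inv, ← div_eq_mul_inv, mul_div_mul_left_eq_div]
    rw [e] at r
    exact r
  -- `hK` from one crossing point
  obtain ⟨𝔫₀, h𝔫₀, hP1₀, hP2₀⟩ := hex
  have hK := m59tgl_leg_hK L O N' q hq2 hqN' hπ ζ hζ K1 K2 (ε * ε'⁻¹) hf1 hf2 𝔫₀ h𝔫₀ hP1₀ hP2₀
    (hratq 𝔫₀ h𝔫₀ hP1₀ hP2₀)
  exact m59tgl_leg L O N' q hq2 hqN' hπ ζ hζ φ1 hφ1 hm hf0 hordf K1 K2 (ε * ε'⁻¹) hK hf1 hf2 hratq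

end Leg


/-! ### from the quotient to the classes -/

section Class

variable (L : Type) [Field L] [CharZero L] [Algebra L (AlgebraicClosure ℚ)] (N : ℕ) [NeZero N]

set_option synthInstance.maxHeartbeats 400000 in
set_option maxHeartbeats 1600000 in
/-- **two normal forms whose toric parts differ by a constant times a `p`-th power represent the same
class** (`p` odd): Legendre root descent, `s44b_rep_pth`, `s44b_rep_inj`. -/
theorem m59tj_class_eq {p : ℕ} (hp : Odd p) {u u' : JZero N} {x0 x0' : ↥(lg_F L N)} {c c' : L}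
    {R R' g g' : ↥(lg_E L N)} (hc' : c' ≠ 0) (hR' : R' ≠ 0) (hg' : g' ≠ 0)
    (hrep : s44f_Rep N p u (ssm_al_iotaF L N x0))
    (hrep' : s44f_Rep N p u' (ssm_al_iotaF L N x0'))
    (hφ : lg_phiE (L := L) (N := N) x0 = algebraMap L ↥(lg_E L N) c * R ^ p * g)
    (hφ' : lg_phiE (L := L) (N := N) x0' = algebraMap L ↥(lg_E L N) c' * R' ^ p * g')
    (hquot : ∃ (c₁ : L) (w : ↥(lg_E L N)), w ≠ 0 ∧
      g / g' = algebraMap L ↥(lg_E L N) c₁ * w ^ p) : u = u' := by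
  have hp0 : p ≠ 0 := fun h => by rw [h] at hp; exact Nat.not_odd_iff_even.2 Even.zero hp
  obtain ⟨c₁, w, hw, hgw⟩ := hquot
  have hC' : algebraMap L ↥(lg_E L N) c' ≠ 0 :=
    (map_ne_zero_iff _ (algebraMap L ↥(lg_E L N)).injective).2 hc'
  have hx0 : x0 ≠ 0 := by
    intro h
    apply hrep.1
    rw [h, map_zero]
  have hx0' : x0' ≠ 0 := by
    intro h
    apply hrep'.1
    rw [h, map_zero]
  -- `φ (x0 / x0')` is a constant times a `p`-th power in `E`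
  have hquotφ : lg_phiE (L := L) (N := N) (x0 / x0') =
      algebraMap L ↥(lg_E L N) (c * c₁ / c') * (R * w / R') ^ p := by
    have hg : g = algebraMap L ↥(lg_E L N) c₁ * w ^ p * g' := by
      rw [← hgw, div_mul_cancel₀ _ hg']
    rw [map_div₀, hφ, hφ', hg, map_div₀, map_mul, div_pow, mul_pow]
    have hRp : R' ^ p ≠ 0 := pow_ne_zero p hR'
    field_simp
  -- descend to `F_N`
  obtain ⟨c₃, y, hy⟩ := m59tj_root_descent L N hp (x0 / x0') (c * c₁ / c')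
    ((R * w / R' : ↥(lg_E L N)) : LaurentSeries L) (R * w / R' : ↥(lg_E L N)).2 (by
      have h1 := congrArg (fun z : ↥(lg_E L N) => (z : LaurentSeries L)) hquotφ
      simp only [lg_phiE_coe] at h1
      rw [h1]
      rfl)
  have hf0 : x0 / x0' ≠ 0 := div_ne_zero hx0 hx0'
  have hc₃ : c₃ ≠ 0 := by
    rintro rfl
    rw [map_zero, zero_mul] at hy
    exact hf0 hy
  have hy0 : y ≠ 0 := by
    rintro rfl
    rw [zero_pow hp0, mul_zero] at hy
    exact hf0 hy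
  have hx : x0 = algebraMap L ↥(lg_F L N) c₃ * x0' * y ^ p := by
    have := (div_eq_iff hx0').1 hy
    rw [this]
    ring
  have hιx : ssm_al_iotaF L N x0 =
      algebraMap (AlgebraicClosure ℚ) (modularFunctionFieldBar N)
        (algebraMap L (AlgebraicClosure ℚ) c₃) * ssm_al_iotaF L N x0' *
        (ssm_al_iotaF L N y) ^ p := by
    rw [hx, map_mul, map_mul, map_pow, ssm_al_iotaF_algebraMap]
  have hc₃' : algebraMap L (AlgebraicClosure ℚ) c₃ ≠ 0 :=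
    (map_ne_zero_iff _ (algebraMap L (AlgebraicClosure ℚ)).injective).2 hc₃
  have hιy : ssm_al_iotaF L N y ≠ 0 :=
    (map_ne_zero_iff _ (ssm_al_iotaF_injective L N)).2 hy0
  rw [hιx] at hrep
  exact s44b_rep_inj N hp0 ((s44b_rep_pth N hc₃' hιy).1 hrep) hrep'

end Class


/-! ### (inj1) in the vocabulary of `Tor/Defs1.lean` -/

section Inj1

local notation "Qb" => AlgebraicClosure ℚ

variable (A : ValuationSubring Qb) {q : ℕ} [hq : Fact q.Prime] (hA : A.LiesOverPrime q)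
  (N' : ℕ) [NeZero N'] [NeZero q] [NeZero (N' * q)] (hq2 : ¬ 2 ∣ q) (hqN' : ¬ q ∣ N')
  (L : IntermediateField ℚ Qb) [NumberField ↥L]
  [IsDiscreteValuationRing ↥(A.comap (algebraMap ↥L Qb))]
  [CharP (ResidueField ↥(A.comap (algebraMap ↥L Qb))) q]
  (hπq : Irreducible ((q : ℕ) : ↥(A.comap (algebraMap ↥L Qb))))
  (ζN : ↥L) (hζN : IsPrimitiveRoot ζN N') (φ1 : ↥L ≃+* ↥L)
  (hφ1 : s35nf_FrobAt (A.comap (algebraMap ↥L Qb)) φ1 q)

include hζN hφ1 in
set_option synthInstance.maxHeartbeats 400000 in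
set_option maxHeartbeats 3200000 in
/-- **(inj1), core**: two normal forms over `L` of `u`, `u'` whose toric data at EVERY crossing
point `𝔫 ⊇ P1 + P2` of the `λ`-chart are `κ(𝔫) · ε` resp. `κ(𝔫) · ε'` (the same `κ`) ⟹ `u = u'`. -/
theorem m59tj_inj1_core {p : ℕ} (hp : Odd p)
    (hm : IsUnit ((p : ℕ) : ↥(A.comap (algebraMap ↥L Qb))))
    {u u' : JZero (N' * q)} {x0 x0' : ↥(lg_F ↥L (N' * q))} {c c' : ↥L}
    {R R' g g' : ↥(lg_E ↥L (N' * q))}
    (hNF : m59t1_NF A N' hq2 hqN' L hπq p u x0 c R g)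
    (hNF' : m59t1_NF A N' hq2 hqN' L hπq p u' x0' c' R' g')
    (κ : Ideal ↥(m59t1_B1 A N' q L) → (↥(A.comap (algebraMap ↥L Qb)))ˣ)
    (ε ε' : (↥(A.comap (algebraMap ↥L Qb)))ˣ)
    (hrat : ∀ (𝔫 : Ideal ↥(m59t1_B1 A N' q L)) (h𝔫 : 𝔫.IsMaximal),
      m59t1_P1 A N' L hπq ≤ 𝔫 → m59t1_P2 A N' hq2 hqN' L hπq ≤ 𝔫 →
      m59t1_RatioAt A N' hq2 hqN' L hπq p 𝔫 h𝔫.isPrime g (κ 𝔫 * ε))
    (hrat' : ∀ (𝔫 : Ideal ↥(m59t1_B1 A N' q L)) (h𝔫 : 𝔫.IsMaximal),
      m59t1_P1 A N' L hπq ≤ 𝔫 → m59t1_P2 A N' hq2 hqN' L hπq ≤ 𝔫 →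
      m59t1_RatioAt A N' hq2 hqN' L hπq p 𝔫 h𝔫.isPrime g' (κ 𝔫 * ε'))
    (hex : ∃ 𝔫 : Ideal ↥(m59t1_B1 A N' q L), 𝔫.IsMaximal ∧
      m59t1_P1 A N' L hπq ≤ 𝔫 ∧ m59t1_P2 A N' hq2 hqN' L hπq ≤ 𝔫) : u = u' := by
  obtain ⟨hc, hR, hg, hrep, hφ, hord, hcr⟩ := hNF
  obtain ⟨hc', hR', hg', hrep', hφ', hord', hcr'⟩ := hNF'
  have hquot := m59tj_quot_pow ↥L (A.comap (algebraMap ↥L Qb)) N' q hq2 hqN' hπq ζN hζN φ1 hφ1
    hm hg hg' hord hord' hcr hcr' κ ε ε'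
    (fun 𝔫 h𝔫 h1 h2 => hrat 𝔫 h𝔫 h1 h2) (fun 𝔫 h𝔫 h1 h2 => hrat' 𝔫 h𝔫 h1 h2) hex
  exact m59tj_class_eq ↥L (N' * q) hp hc' hR' hg' hrep hrep' hφ hφ' hquot

include hζN hφ1 in
set_option synthInstance.maxHeartbeats 400000 in
set_option maxHeartbeats 3200000 in
/-- **(inj1)** for the relation `m59t1_T1` of `Tor/Defs1.lean`: a toric datum determines the class,
given [DICT1] (`hdict`: every crossing point of the chart is labelled by a supersingular place) and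
one crossing point (`hex`). -/
theorem m59tj_inj1 {p : ℕ} (hp : Odd p)
    (hm : IsUnit ((p : ℕ) : ↥(A.comap (algebraMap ↥L Qb))))
    (ζ : (↥(A.comap (algebraMap ↥L Qb)))ˣ) (Q0 : s44e_Sg A N' q hq.out hqN')
    (hdict : ∀ 𝔫 : Ideal ↥(m59t1_B1 A N' q L), 𝔫.IsMaximal →
      m59t1_P1 A N' L hπq ≤ 𝔫 → m59t1_P2 A N' hq2 hqN' L hπq ≤ 𝔫 →
      ∃ Q : s44e_Sg A N' q hq.out hqN', m59t1_Lab A hA N' hq2 hqN' L hπq 𝔫 Q.1)
    (hex : ∃ 𝔫 : Ideal ↥(m59t1_B1 A N' q L), 𝔫.IsMaximal ∧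
      m59t1_P1 A N' L hπq ≤ 𝔫 ∧ m59t1_P2 A N' hq2 hqN' L hπq ≤ 𝔫)
    {u u' : JZero (N' * q)} {a : m59t1_B A N' hqN' p Q0}
    (h : m59t1_T1 A hA N' hq2 hqN' L hπq p ζ Q0 u a)
    (h' : m59t1_T1 A hA N' hq2 hqN' L hπq p ζ Q0 u' a) : u = u' := by
  classical
  obtain ⟨x0, c, R, g, hNF, ε, hall⟩ := h
  obtain ⟨x0', c', R', g', hNF', ε', hall'⟩ := h'
  -- the common part of the data
  let κ : Ideal ↥(m59t1_B1 A N' q L) → (↥(A.comap (algebraMap ↥L Qb)))ˣ := fun 𝔫 =>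
    if h : 𝔫.IsMaximal ∧ m59t1_P1 A N' L hπq ≤ 𝔫 ∧ m59t1_P2 A N' hq2 hqN' L hπq ≤ 𝔫 then
      ζ ^ (m59t1_ext A N' hqN' a (hdict 𝔫 h.1 h.2.1 h.2.2).choose).val
    else 1
  have hκ : ∀ (𝔫 : Ideal ↥(m59t1_B1 A N' q L)) (h𝔫 : 𝔫.IsMaximal)
      (h1 : m59t1_P1 A N' L hπq ≤ 𝔫) (h2 : m59t1_P2 A N' hq2 hqN' L hπq ≤ 𝔫),
      κ 𝔫 = ζ ^ (m59t1_ext A N' hqN' a (hdict 𝔫 h𝔫 h1 h2).choose).val := by
    intro 𝔫 h𝔫 h1 h2
    exact dif_pos ⟨h𝔫, h1, h2⟩
  refine m59tj_inj1_core A N' hq2 hqN' L hπq ζN hζN φ1 hφ1 hp hm hNF hNF' κ ε ε' ?_ ?_ hex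
  · intro 𝔫 h𝔫 h1 h2
    rw [hκ 𝔫 h𝔫 h1 h2]
    exact hall 𝔫 h𝔫 h1 h2 _ (hdict 𝔫 h𝔫 h1 h2).choose_spec
  · intro 𝔫 h𝔫 h1 h2
    rw [hκ 𝔫 h𝔫 h1 h2]
    exact hall' 𝔫 h𝔫 h1 h2 _ (hdict 𝔫 h𝔫 h1 h2).choose_spec

end Inj1

end Fermat.Agent.M59
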