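/-
M59 / Sink B, leaf 4 [TOR-SURJ], cell (inj1), CLOSED FORM (helper6).  Prefix `m59tj_`.

* `m59tj_exists_node` : every supersingular place `Q` has a crossing point `𝔫 ⊇ P1 + P2` of the
  `λ`-chart labelled by `Q` (`s44ndl_exists_ext`, `s44ndl_centre_A`, `s44ndl_node_A`);
* **`m59tj_inj1_closed`** : (inj1) for the relation `m59t1_T1` of `Tor/Defs1.lean`, with [DICT1]
  discharged by `m59ls_dict1` (`Tor/UModel.lean`) and the existence of a crossing point by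
  `m59tj_exists_node` at the base point `Q0`.  This is literally the field `inj1` of
  `m59tc_Data` / `m59tc_DataU` for `T1 := m59t1_T1 … p ζ Q0`.
-/
import Mathlib
import Fermat.Agent.M59.SinkB.Tor.Inj1
import Fermat.Agent.M59.SinkB.Tor.UModel

set_option autoImplicit false
set_option linter.unusedSectionVars false
set_option linter.unusedVariables false
set_option linter.style.haveILetI false

noncomputable section

namespace Fermat.Agent.M59

open Fermat.Agent.SS Fermat.Agent.JT3 Fermat.Agent.S35 Fermat.Agent.S36 Fermat.Agent.S44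
  Fermat.Agent.S28 IsLocalRing AlgebraicCurve IntermediateField ModularCurve

section Inj1All

local notation "Qb" => AlgebraicClosure ℚ

variable (A : ValuationSubring Qb) {q : ℕ} [hq : Fact q.Prime] (hA : A.LiesOverPrime q)
  (N' : ℕ) [NeZero N'] [NeZero q] [NeZero (N' * q)] (hq2 : ¬ 2 ∣ q) (hqN' : ¬ q ∣ N')
  (L : IntermediateField ℚ Qb) [NumberField ↥L]
  [IsDiscreteValuationRing ↥(A.comap (algebraMap ↥L Qb))]
  [CharP (ResidueField ↥(A.comap (algebraMap ↥L Qb))) q]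
  (hπq : Irreducible ((q : ℕ) : ↥(A.comap (algebraMap ↥L Qb))))
  (ζN : ↥L) (hζN : IsPrimitiveRoot ζN N')

include hζN in
set_option synthInstance.maxHeartbeats 400000 in
set_option maxHeartbeats 1600000 in
/-- every supersingular place is the label of a crossing point of the `λ`-chart. -/
theorem m59tj_exists_node (Q : s44e_Sg A N' q hq.out hqN') :
    ∃ 𝔫 : Ideal ↥(m59t1_B1 A N' q L), 𝔫.IsMaximal ∧
      m59t1_P1 A N' L hπq ≤ 𝔫 ∧ m59t1_P2 A N' hq2 hqN' L hπq ≤ 𝔫 ∧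
      m59t1_Lab A hA N' hq2 hqN' L hπq 𝔫 Q.1 := by
  obtain ⟨𝒲, hext⟩ := s44ndl_exists_ext A hA N' hq2 hqN' L hπq Q.1
  have hc := s44ndl_centre_A A hA N' hq2 hqN' L hπq ζN hζN Q.1 𝒲 hext Q.2.1
  have hmax := hc.2.2.2.2.1
  have hP1 := hc.2.2.2.2.2.2.2
  have hnode := s44ndl_node_A A hA N' hq2 hqN' L hπq ζN hζN Q.1 𝒲 hext Q.2 hmax
  exact ⟨_, hmax, hP1, hnode.1, 𝒲, hext, rfl⟩

variable (φ1 : ↥L ≃+* ↥L) (hφ1 : s35nf_FrobAt (A.comap (algebraMap ↥L Qb)) φ1 q)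

include hζN hφ1 in
set_option synthInstance.maxHeartbeats 400000 in
set_option maxHeartbeats 1600000 in
/-- **(inj1), closed**: a toric datum determines the class.  Literally the field `inj1` of
`m59tc_Data` / `m59tc_DataU` for `T1 := m59t1_T1 A hA N' hq2 hqN' L hπq p ζ Q0`. -/
theorem m59tj_inj1_closed {p : ℕ} (hp : Odd p)
    (hm : IsUnit ((p : ℕ) : ↥(A.comap (algebraMap ↥L Qb))))
    (ζ : (↥(A.comap (algebraMap ↥L Qb)))ˣ) (Q0 : s44e_Sg A N' q hq.out hqN')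
    {u u' : JZero (N' * q)} {a : m59t1_B A N' hqN' p Q0}
    (h : m59t1_T1 A hA N' hq2 hqN' L hπq p ζ Q0 u a)
    (h' : m59t1_T1 A hA N' hq2 hqN' L hπq p ζ Q0 u' a) : u = u' := by
  obtain ⟨𝔫, h𝔫, h1, h2, -⟩ := m59tj_exists_node A hA N' hq2 hqN' L hπq ζN hζN Q0
  exact m59tj_inj1 A hA N' hq2 hqN' L hπq ζN hζN φ1 hφ1 hp hm ζ Q0
    (fun 𝔫 h𝔫 h1 h2 => m59ls_dict1 A hA N' hq2 hqN' L hπq ζN hζN 𝔫 h𝔫 h1 h2)
    ⟨𝔫, h𝔫, h1, h2⟩ h h'

end Inj1All

end Fermat.Agent.M59
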