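/-
M59 / Sink B, leaf [TOR-SURJ] (`m59g12u_TorSurjPlU_stmt`): THE FINAL ASSEMBLY (helper15).
Prefix `m59tf_`.

Everything at the level `N' q` is closed ((ex1) up to [TAU-INV], (inj1)); the cells of the level
`N' q q` ((pull), (ex2), (inj2)) enter as ONE seam over the big level `L*` of `Tor/LStar.lean`:

* `m59tf_TauInv A hA N' hq2 hqN' S`      : [TAU-INV] over `S.L1` (the hypothesis `hTau` of
                                            `m59tx_ex1_star`, literally);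
* `m59tf_Cells2 A hA N' hq2 hqN' S ζ Q0` : there are chart maps `aB bB : B1 →+* B2` such that the three
                                            fields `pull`, `ex2`, `inj2` of `m59tc_DataU` hold for
                                            `T1 := m59t1_T1 …`, `T2 := m59t2_T2 … aB bB …`,
                                            `TorS := m59g12u_TorL … S.L1 p 1`;
* **`m59tf_torSurjPlU_of : m59tf_TauInv_stmt → m59tf_Cells2_stmt → m59g12u_TorSurjPlU_stmt`**.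
-/
import Mathlib
import Fermat.Agent.M59.SinkB.Tor.Ex1Star
import Fermat.Agent.M59.SinkB.Tor.Inj1All
import Fermat.Agent.M59.SinkB.Tor.Defs2
import Fermat.Agent.M59.SinkB.Tor.CardMassU
import Fermat.Agent.M59.SinkB.Tor.LStar

set_option autoImplicit false
set_option linter.unusedSectionVars false
set_option linter.unusedVariables false
set_option linter.style.haveILetI false
set_option synthInstance.maxHeartbeats 400000
set_option maxHeartbeats 1000000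

noncomputable section

namespace Fermat.Agent.M59

open Fermat.Agent.TW

open Polynomial ModularCurve AlgebraicCurve IntermediateField IsLocalRing
open Fermat.Agent.JT3 Fermat.Agent.SS Fermat.Agent.S35 Fermat.Agent.S24 Fermat.Agent.S44
  Fermat.Agent.S36

local notation "Qb" => AlgebraicClosure ℚ

section Seams

variable (A : ValuationSubring Qb) {q : ℕ} [hq : Fact q.Prime] (hA : A.LiesOverPrime q)
  (N' : ℕ) [NeZero N'] [NeZero q] [NeZero (N' * q)] [NeZero (N' * q * q)] (hq2 : ¬ 2 ∣ q)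
  (hqN' : ¬ q ∣ N') {p : ℕ} [hp : Fact p.Prime]

/-- **[TAU-INV] over the big level**: two crossing points with the same label have the same toric
datum (the hypothesis `hTau` of `m59tx_ex1_star`). -/
def m59tf_TauInv (S : m59ls_Star N' q p A hq2 hqN') : Prop :=
  haveI := (m59tx_star_inst A N' hq2 hqN' S).1
  haveI := S.lev.dvr
  haveI := m59tx_star_charP A hA N' hq2 hqN' S
  ∀ (u : JZero (N' * q)) (x0 : ↥(lg_F ↥S.L1 (N' * q))) (c : ↥S.L1)
    (R g' : ↥(lg_E ↥S.L1 (N' * q))), m59t1_NF A N' hq2 hqN' S.L1 S.lev.irr p u x0 c R g' →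
    ∀ (𝔫 𝔫' : Ideal ↥(m59t1_B1 A N' q S.L1)) (h𝔫 : 𝔫.IsMaximal) (h𝔫' : 𝔫'.IsMaximal),
    m59t1_P1 A N' S.L1 S.lev.irr ≤ 𝔫 → m59t1_P2 A N' hq2 hqN' S.L1 S.lev.irr ≤ 𝔫 →
    m59t1_P1 A N' S.L1 S.lev.irr ≤ 𝔫' → m59t1_P2 A N' hq2 hqN' S.L1 S.lev.irr ≤ 𝔫' →
    ∀ Q : s44e_Sg A N' q hq.out hqN', m59t1_Lab A hA N' hq2 hqN' S.L1 S.lev.irr 𝔫 Q.1 →
      m59t1_Lab A hA N' hq2 hqN' S.L1 S.lev.irr 𝔫' Q.1 →
      ∀ ε : (↥(A.comap (algebraMap ↥S.L1 Qb)))ˣ,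
        m59t1_RatioAt A N' hq2 hqN' S.L1 S.lev.irr p 𝔫 h𝔫.isPrime g' ε →
        m59t1_RatioAt A N' hq2 hqN' S.L1 S.lev.irr p 𝔫' h𝔫'.isPrime g' ε

/-- **the cells of the level `N' q q` over the big level**: chart maps `aB`, `bB` for which the
fields `pull`, `ex2`, `inj2` of `m59tc_DataU` hold. -/
def m59tf_Cells2 (S : m59ls_Star N' q p A hq2 hqN')
    (ζ : (↥(A.comap (algebraMap ↥S.L1 Qb)))ˣ) (Q0 : s44e_Sg A N' q hq.out hqN') : Prop :=
  haveI := (m59tx_star_inst A N' hq2 hqN' S).1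
  haveI := S.lev.dvr
  haveI := m59tx_star_charP A hA N' hq2 hqN' S
  ∃ aB bB : ↥(m59t1_B1 A N' q S.L1) →+* ↥(m59t2_B2 A N' q S.L1),
    (∀ u ∈ m59tc_D1 N' q p A, ∀ v ∈ m59tc_D1 N' q p A, ∀ a b,
      m59t1_T1 A hA N' hq2 hqN' S.L1 S.lev.irr p ζ Q0 u a →
      m59t1_T1 A hA N' hq2 hqN' S.L1 S.lev.irr p ζ Q0 v b →
      m59pl_pa (N' * q) q u + m59pl_pb (N' * q) q v ∈ m59g12u_TorL A N' q hq2 hqN' S.L1 p 1 ∧
        m59t2_T2 A hA N' hq2 hqN' S.L1 S.lev.irr aB bB p ζ Q0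
          (m59pl_pa (N' * q) q u + m59pl_pb (N' * q) q v) (a, b)) ∧
    (∀ z ∈ m59g12u_TorL A N' q hq2 hqN' S.L1 p 1,
      ∃ c, m59t2_T2 A hA N' hq2 hqN' S.L1 S.lev.irr aB bB p ζ Q0 z c) ∧
    (∀ z ∈ m59g12u_TorL A N' q hq2 hqN' S.L1 p 1,
      ∀ z' ∈ m59g12u_TorL A N' q hq2 hqN' S.L1 p 1, ∀ c,
        m59t2_T2 A hA N' hq2 hqN' S.L1 S.lev.irr aB bB p ζ Q0 z c →
        m59t2_T2 A hA N' hq2 hqN' S.L1 S.lev.irr aB bB p ζ Q0 z' c → z = z')

end Seams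

/-- **[TAU-INV]** as a seam. -/
def m59tf_TauInv_stmt : Prop :=
  ∀ (N' q p : ℕ) [NeZero N'] [NeZero q] [Fact q.Prime] [NeZero (N' * q)] [NeZero (N' * q * q)]
    [Fact p.Prime],
    p ≠ 2 → q ≠ p → ∀ (hq2 : ¬ 2 ∣ q) (hqN' : ¬ q ∣ N'), 4 ∣ N' →
    ∀ (A : ValuationSubring Qb) (hA : A.LiesOverPrime q) (S : m59ls_Star N' q p A hq2 hqN'),
      m59tf_TauInv A hA N' hq2 hqN' S

/-- **(pull) + (ex2) + (inj2)** as a seam. -/
def m59tf_Cells2_stmt : Prop :=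
  ∀ (N' q p : ℕ) [NeZero N'] [NeZero q] [Fact q.Prime] [NeZero (N' * q)] [NeZero (N' * q * q)]
    [Fact p.Prime],
    p ≠ 2 → q ≠ p → ∀ (hq2 : ¬ 2 ∣ q) (hqN' : ¬ q ∣ N'), 4 ∣ N' →
    ∀ (A : ValuationSubring Qb) (hA : A.LiesOverPrime q) (S : m59ls_Star N' q p A hq2 hqN')
      (ζ : (↥(A.comap (algebraMap ↥S.L1 Qb)))ˣ),
      IsPrimitiveRoot (ζ : ↥(A.comap (algebraMap ↥S.L1 Qb))) p →
      ∀ Q0 : s44e_Sg A N' q (Fact.out : q.Prime) hqN', m59tf_Cells2 A hA N' hq2 hqN' S ζ Q0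

/-- `p` is a unit of `O = A ∩ L1` for a prime `p` other than the residue characteristic. -/
theorem m59tf_isUnit_p (A : ValuationSubring Qb) {q : ℕ} [hq : Fact q.Prime]
    (hA : A.LiesOverPrime q) {p : ℕ} (hp : p.Prime) (hqp : q ≠ p)
    (L1 : IntermediateField ℚ Qb) [IsLocalRing ↥(A.comap (algebraMap ↥L1 Qb))] :
    IsUnit ((p : ℕ) : ↥(A.comap (algebraMap ↥L1 Qb))) := by
  by_contra hnu
  have hpm : ((p : ℕ) : ↥(A.comap (algebraMap ↥L1 Qb))) ∈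
      maximalIdeal ↥(A.comap (algebraMap ↥L1 Qb)) := (mem_maximalIdeal _).2 hnu
  have hqm := lg_natCast_mem_maximalIdeal A hA ↥L1
  have hcop : Nat.Coprime q p := (Nat.coprime_primes hq.out hp).2 hqp
  have h1 : ((1 : ℤ) : ↥(A.comap (algebraMap ↥L1 Qb))) ∈
      maximalIdeal ↥(A.comap (algebraMap ↥L1 Qb)) := by
    have hb := Nat.gcd_eq_gcd_ab q p
    rw [hcop.gcd_eq_one] at hb
    have : ((1 : ℤ) : ↥(A.comap (algebraMap ↥L1 Qb))) =
        ((q : ℕ) : ↥(A.comap (algebraMap ↥L1 Qb))) * ((Nat.gcdA q p : ℤ) : _) +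
        ((p : ℕ) : ↥(A.comap (algebraMap ↥L1 Qb))) * ((Nat.gcdB q p : ℤ) : _) := by
      have := congrArg (fun z : ℤ => (z : ↥(A.comap (algebraMap ↥L1 Qb)))) hb
      simpa using this
    rw [this]
    exact Ideal.add_mem _ (Ideal.mul_mem_right _ _ hqm) (Ideal.mul_mem_right _ _ hpm)
  rw [Int.cast_one] at h1
  exact (Ideal.ne_top_iff_one _).1 (maximalIdeal.isMaximal _).ne_top h1

/-- **[TOR-SURJ] (common-level form) from [TAU-INV] and the cells of the level `N' q q`.** -/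
theorem m59tf_torSurjPlU_of (hTau : m59tf_TauInv_stmt) (hC2 : m59tf_Cells2_stmt) :
    m59g12u_TorSurjPlU_stmt := by
  intro N' q p _ _ hqF _ _ hpF hp2 hqp hq2 hqN' h4 A hA z hz
  obtain ⟨S⟩ := m59ls_star N' q p A hq2 hqN' hA hqp
  haveI := (m59tx_star_inst A N' hq2 hqN' S).1
  haveI := S.lev.dvr
  haveI := m59tx_star_charP A hA N' hq2 hqN' S
  obtain ⟨ζ, -, hζ⟩ := m59tx_star_zeta A hA N' hq2 hqN' S
  obtain ⟨φ, hφ⟩ := fex_exists_isFrobeniusAt hqF.out A hA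
  refine m59tcm_surjU_of_rel N' q p A hA hq2 hqN' hqp h4
    (m59g12u_TorU A N' q hq2 hqN' p 1) ?_ z hz
  intro Q0
  obtain ⟨aB, bB, hpull, hex2, hinj2⟩ := hC2 N' q p hp2 hqp hq2 hqN' h4 A hA S ζ hζ Q0
  refine ⟨m59t1_T1 A hA N' hq2 hqN' S.L1 S.lev.irr p ζ Q0,
    m59t2_T2 A hA N' hq2 hqN' S.L1 S.lev.irr aB bB p ζ Q0,
    m59g12u_TorL A N' q hq2 hqN' S.L1 p 1, ?_, ?_, ?_, hpull, hex2, hinj2⟩
  · -- `TorU ⊆ TorL`
    intro z hz
    obtain ⟨f, hrep, hnf⟩ := S.hTorU z hz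
    refine ⟨hz.1, hz.2.1, f, ?_, ?_⟩
    · rw [pow_one]; exact hrep
    · rw [pow_one]; exact hnf
  · -- (ex1)
    exact m59tx_ex1_star A hA N' hq2 hqN' hp2 hqp h4 S ζ hζ Q0
      (hTau N' q p hp2 hqp hq2 hqN' h4 A hA S)
  · -- (inj1)
    intro u _ u' _ a h h'
    have hodd : Odd p := hpF.out.odd_of_ne_two hp2
    exact m59tj_inj1_closed A hA N' hq2 hqN' S.L1 S.lev.irr S.zN S.hzN
      (S.lev.res φ hφ.mem_decompositionSubgroup).toRingEquiv (S.lev.frobAt φ hφ) hodd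
      (m59tf_isUnit_p A hA hpF.out hqp S.L1) ζ Q0 h h'

end Fermat.Agent.M59
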