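/-
M59 / Sink B, leaf 4 [TOR-SURJ], cell [TAU-INV] (helper24; prefix `m59tt_`), part 3:
CONJUGACY OF THE EXTENSIONS OF A VALUATION RING IN A QUADRATIC GALOIS EXTENSION.

`E` a field, `τ` an involution of `E`, `𝒱`, `𝒱'` valuation subrings of `E` which contain the same
`τ`-fixed elements.  Then `𝒱' = 𝒱` or `𝒱' = τ⁻¹ 𝒱`.

Proof: `BY = 𝒱 ∩ τ𝒱` is `τ`-stable, integral over its fixed subring `A` (`z² - (z + τz) z + z τz = 0`),
contained in `𝒱'`; the centres `P`, `Q` of `𝒱`, `𝒱'` on `BY` have the same contraction to `A`, so they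
are conjugate (`s44mh_conj`); and a valuation ring `𝒲 ⊇ BY` with the same fixed elements as `𝒱` is the
localisation of `BY` at its centre (`m59tt_loc`: quadratic case of the classical lemma).
-/
import Mathlib
import Fermat.Agent.S44.Mono.SheetAbs

set_option autoImplicit false
set_option linter.unusedSectionVars false
set_option linter.unusedVariables false

namespace Fermat.Agent.M59

open Fermat.Agent.S44

section Conj

variable {E : Type*} [Field E]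

/-- a root of `X² - t X + n` with `t, n` in a valuation ring lies in it. -/
theorem m59tt_mem_of_quad (𝒲 : ValuationSubring E) {x t n : E} (ht : t ∈ 𝒲) (hn : n ∈ 𝒲)
    (h : x * x = t * x - n) : x ∈ 𝒲 := by
  rcases 𝒲.mem_or_inv_mem x with h1 | h1
  · exact h1
  · by_cases hx0 : x = 0
    · rw [hx0]; exact 𝒲.zero_mem
    have e : x = t - n * x⁻¹ := by
      have h2 : x * x * x⁻¹ = x := by rw [mul_assoc, mul_inv_cancel₀ hx0, mul_one]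
      have h3 : (t * x - n) * x⁻¹ = t - n * x⁻¹ := by
        rw [sub_mul, mul_assoc, mul_inv_cancel₀ hx0, mul_one]
      calc x = x * x * x⁻¹ := h2.symm
        _ = (t * x - n) * x⁻¹ := by rw [h]
        _ = t - n * x⁻¹ := h3
    rw [e]
    exact sub_mem ht (𝒲.mul_mem _ _ hn h1)

/-- `x s = b`, `s` a unit of `𝒲`, `b ∈ 𝒲` ⟹ `x ∈ 𝒲`. -/
theorem m59tt_mem_of_mul (𝒲 : ValuationSubring E) {x s b : E} (hs : s ∈ 𝒲)
    (hsn : s ∉ 𝒲.nonunits) (hb : b ∈ 𝒲) (h : x * s = b) : x ∈ 𝒲 := by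
  rw [ValuationSubring.mem_nonunits_iff_or, not_or, not_not] at hsn
  obtain ⟨hs0, hsi⟩ := hsn
  have : x = b * s⁻¹ := by rw [← h, mul_assoc, mul_inv_cancel₀ hs0, mul_one]
  rw [this]
  exact 𝒲.mul_mem _ _ hb hsi

/-- `x ∉ 𝒲` ⟹ `x⁻¹ ∈ 𝔪(𝒲)`. -/
theorem m59tt_inv_mem_nonunits (𝒲 : ValuationSubring E) {x : E} (hx : x ∉ 𝒲) :
    x⁻¹ ∈ 𝒲.nonunits := by
  rw [ValuationSubring.mem_nonunits_iff_or, inv_inv]
  exact Or.inr hx

variable (τ : E ≃+* E) (hτ : ∀ x : E, τ (τ x) = x)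

/-- the semilocal ring `𝒱 ∩ τ𝒱`. -/
def m59tt_BY (𝒱 : ValuationSubring E) : Subring E :=
  𝒱.toSubring ⊓ (𝒱.comap (τ : E →+* E)).toSubring

theorem m59tt_mem_BY {𝒱 : ValuationSubring E} {x : E} :
    x ∈ m59tt_BY τ 𝒱 ↔ x ∈ 𝒱 ∧ τ x ∈ 𝒱 := Iff.rfl

include hτ in
/-- `x + τx, x τx ∈ 𝒱` ⟹ `x ∈ 𝒱 ∩ τ𝒱`. -/
theorem m59tt_mem_BY_of (𝒱 : ValuationSubring E) {x : E} (ht : x + τ x ∈ 𝒱)
    (hn : x * τ x ∈ 𝒱) : x ∈ m59tt_BY τ 𝒱 := by
  have h1 : x ∈ 𝒱 := m59tt_mem_of_quad 𝒱 ht hn (by ring)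
  have h2 : τ x ∈ 𝒱 := m59tt_mem_of_quad 𝒱 ht hn (by ring)
  exact ⟨h1, h2⟩

include hτ in
/-- `𝒱 ∩ τ𝒱 ⊆ 𝒲` for every valuation ring `𝒲` with the same fixed elements as `𝒱`. -/
theorem m59tt_BY_le (𝒱 𝒲 : ValuationSubring E)
    (hK : ∀ x : E, τ x = x → (x ∈ 𝒱 ↔ x ∈ 𝒲)) {z : E} (hz : z ∈ m59tt_BY τ 𝒱) : z ∈ 𝒲 := by
  obtain ⟨h1, h2⟩ := hz
  have ht : z + τ z ∈ 𝒲 :=
    (hK _ (by rw [map_add, hτ, add_comm])).1 (𝒱.add_mem _ _ h1 h2)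
  have hn : z * τ z ∈ 𝒲 :=
    (hK _ (by rw [map_mul, hτ, mul_comm])).1 (𝒱.mul_mem _ _ h1 h2)
  exact m59tt_mem_of_quad 𝒲 ht hn (by ring)

include hτ in
/-- **`𝒲` is the localisation of `𝒱 ∩ τ𝒱` at its centre** (quadratic case). -/
theorem m59tt_loc (𝒱 𝒲 : ValuationSubring E)
    (hK : ∀ x : E, τ x = x → (x ∈ 𝒱 ↔ x ∈ 𝒲)) {x : E} (hx : x ∈ 𝒲) :
    ∃ b s : E, b ∈ m59tt_BY τ 𝒱 ∧ s ∈ m59tt_BY τ 𝒱 ∧ s ∉ 𝒲.nonunits ∧ x * s = b := by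
  have htfix : τ (x + τ x) = x + τ x := by rw [map_add, hτ, add_comm]
  have hnfix : τ (x * τ x) = x * τ x := by rw [map_mul, hτ, mul_comm]
  by_cases ht : x + τ x ∈ 𝒲
  · -- then `x τx = t x - x² ∈ 𝒲`, and `x` is integral
    have hn : x * τ x ∈ 𝒲 := by
      have : x * τ x = (x + τ x) * x - x * x := by ring
      rw [this]
      exact sub_mem (𝒲.mul_mem _ _ ht hx) (𝒲.mul_mem _ _ hx hx)
    refine ⟨x, 1, ?_, (m59tt_BY τ 𝒱).one_mem, ?_, mul_one x⟩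
    · exact m59tt_mem_BY_of τ hτ 𝒱 ((hK _ htfix).2 ht) ((hK _ hnfix).2 hn)
    · rw [ValuationSubring.mem_nonunits_iff_or, not_or, not_not]
      exact ⟨one_ne_zero, by rw [inv_one]; exact 𝒲.one_mem⟩
  · -- `a = t⁻¹ ∈ 𝔪(𝒲)`, `s = 1 - a x`, `x s = c = x - a x²`
    have ht0 : x + τ x ≠ 0 := fun h0 => ht (h0 ▸ 𝒲.zero_mem)
    have ha : (x + τ x)⁻¹ ∈ 𝒲.nonunits := m59tt_inv_mem_nonunits 𝒲 ht
    have haW : (x + τ x)⁻¹ ∈ 𝒲 := ValuationSubring.nonunits_subset ha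
    have hafix : τ (x + τ x)⁻¹ = (x + τ x)⁻¹ := by rw [map_inv₀, htfix]
    set a : E := (x + τ x)⁻¹ with hadef
    have hat : a * (x + τ x) = 1 := inv_mul_cancel₀ ht0
    have hcW : x - a * (x * x) ∈ 𝒲 :=
      sub_mem hx (𝒲.mul_mem _ _ haW (𝒲.mul_mem _ _ hx hx))
    have hc : x - a * (x * x) = a * (x * τ x) := by
      have : x - a * (x * x) = (a * (x + τ x)) * x - a * (x * x) := by rw [hat, one_mul]
      rw [this]; ring
    have hcfix : τ (x - a * (x * x)) = x - a * (x * x) := by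
      rw [hc, map_mul, hafix, hnfix]
    have hcV : x - a * (x * x) ∈ 𝒱 := (hK _ hcfix).2 hcW
    have haxn : a * x ∈ 𝒲.nonunits := by
      rw [mul_comm]
      rw [ValuationSubring.mem_nonunits_iff] at ha ⊢
      rw [map_mul]
      calc 𝒲.valuation x * 𝒲.valuation a ≤ 1 * 𝒲.valuation a :=
            mul_le_mul' ((𝒲.valuation_le_one_iff x).2 hx) le_rfl
        _ = 𝒲.valuation a := one_mul _
        _ < 1 := ha
    have hcV' : τ (x - a * (x * x)) ∈ 𝒱 := by rw [hcfix]; exact hcV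
    refine ⟨x - a * (x * x), 1 - a * x, ⟨hcV, hcV'⟩, ?_, ?_, by ring⟩
    · -- `s + τs = 1`, `s τs = a c`
      have hτs : τ (1 - a * x) = 1 - a * τ x := by rw [map_sub, map_one, map_mul, hafix]
      have h1 : (1 - a * x) + τ (1 - a * x) = 1 := by
        rw [hτs]
        have : (1 - a * x) + (1 - a * τ x) = 2 - a * (x + τ x) := by ring
        rw [this, hat]; norm_num
      have h2 : (1 - a * x) * τ (1 - a * x) = a * (x - a * (x * x)) := by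
        rw [hτs, hc]
        have : (1 - a * x) * (1 - a * τ x) = 1 - a * (x + τ x) + a * (a * (x * τ x)) := by ring
        rw [this, hat]; ring
      have hacfix : τ (a * (x - a * (x * x))) = a * (x - a * (x * x)) := by
        rw [map_mul, hafix, hcfix]
      refine m59tt_mem_BY_of τ hτ 𝒱 (by rw [h1]; exact 𝒱.one_mem) ?_
      rw [h2]
      exact (hK _ hacfix).2 (𝒲.mul_mem _ _ haW hcW)
    · intro hs
      have h1 : (1 : E) ∈ 𝒲.nonunits := by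
        have : (1 : E) = (1 - a * x) + a * x := by ring
        rw [this]
        exact 𝒲.nonunits.add_mem hs haxn
      rw [ValuationSubring.mem_nonunits_iff, map_one] at h1
      exact lt_irrefl _ h1

end Conj

section Main

open Polynomial

variable {E : Type*} [Field E] (τ : E ≃+* E) (hτ : ∀ x : E, τ (τ x) = x)

/-- the restriction of `τ` to `𝒱 ∩ τ𝒱`. -/
def m59tt_rho (𝒱 : ValuationSubring E) : m59tt_BY τ 𝒱 →+* m59tt_BY τ 𝒱 where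
  toFun z := ⟨τ z.1, ⟨z.2.2, by
    show τ (τ z.1) ∈ 𝒱
    rw [hτ]
    exact z.2.1⟩⟩
  map_one' := Subtype.ext (map_one τ)
  map_mul' a b := Subtype.ext (map_mul τ _ _)
  map_zero' := Subtype.ext (map_zero τ)
  map_add' a b := Subtype.ext (map_add τ _ _)

theorem m59tt_rho_coe (𝒱 : ValuationSubring E) (z : m59tt_BY τ 𝒱) :
    ((m59tt_rho τ hτ 𝒱 z : m59tt_BY τ 𝒱) : E) = τ (z : E) := rfl

/-- the inclusion of `𝒱 ∩ τ𝒱` into a valuation ring containing it. -/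
def m59tt_incl (𝒱 𝒲 : ValuationSubring E) (hle : ∀ z ∈ m59tt_BY τ 𝒱, z ∈ 𝒲) :
    m59tt_BY τ 𝒱 →+* 𝒲 where
  toFun z := ⟨z.1, hle z.1 z.2⟩
  map_one' := rfl
  map_mul' _ _ := rfl
  map_zero' := rfl
  map_add' _ _ := rfl

include hτ in
/-- **conjugacy**: two valuation rings of `E` with the same `τ`-fixed elements are equal or
`τ`-conjugate. -/
theorem m59tt_conj (𝒱 𝒱' : ValuationSubring E)
    (hK : ∀ x : E, τ x = x → (x ∈ 𝒱 ↔ x ∈ 𝒱')) :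
    𝒱' = 𝒱 ∨ ∀ x : E, x ∈ 𝒱' ↔ τ x ∈ 𝒱 := by
  classical
  have hleV : ∀ z ∈ m59tt_BY τ 𝒱, z ∈ 𝒱 := fun z hz => hz.1
  have hleV' : ∀ z ∈ m59tt_BY τ 𝒱, z ∈ 𝒱' := fun z hz => m59tt_BY_le τ hτ 𝒱 𝒱' hK hz
  let A : Subring (m59tt_BY τ 𝒱) :=
    RingHom.eqLocus (m59tt_rho τ hτ 𝒱) (RingHom.id (m59tt_BY τ 𝒱))
  have hA : ∀ z : m59tt_BY τ 𝒱, z ∈ A ↔ m59tt_rho τ hτ 𝒱 z = z := fun z => Iff.rfl
  let P : Ideal (m59tt_BY τ 𝒱) :=
    (IsLocalRing.maximalIdeal 𝒱).comap (m59tt_incl τ 𝒱 𝒱 hleV)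
  let Q : Ideal (m59tt_BY τ 𝒱) :=
    (IsLocalRing.maximalIdeal 𝒱').comap (m59tt_incl τ 𝒱 𝒱' hleV')
  have hP : ∀ z : m59tt_BY τ 𝒱, z ∈ P ↔ (z : E) ∈ 𝒱.nonunits := fun z =>
    (ValuationSubring.coe_mem_nonunits_iff (a := m59tt_incl τ 𝒱 𝒱 hleV z)).symm
  have hQ : ∀ z : m59tt_BY τ 𝒱, z ∈ Q ↔ (z : E) ∈ 𝒱'.nonunits := fun z =>
    (ValuationSubring.coe_mem_nonunits_iff (a := m59tt_incl τ 𝒱 𝒱' hleV' z)).symm
  have hPp : P.IsPrime := Ideal.comap_isPrime _ _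
  have hQp : Q.IsPrime := Ideal.comap_isPrime _ _
  -- integrality
  have hint : Algebra.IsIntegral A (m59tt_BY τ 𝒱) := by
    refine ⟨fun z => ?_⟩
    have htA : z + m59tt_rho τ hτ 𝒱 z ∈ A := by
      rw [hA]
      apply Subtype.ext
      rw [m59tt_rho_coe]
      show τ ((z : E) + τ (z : E)) = (z : E) + τ (z : E)
      rw [map_add, hτ, add_comm]
    have hnA : z * m59tt_rho τ hτ 𝒱 z ∈ A := by
      rw [hA]
      apply Subtype.ext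
      rw [m59tt_rho_coe]
      show τ ((z : E) * τ (z : E)) = (z : E) * τ (z : E)
      rw [map_mul, hτ, mul_comm]
    refine ⟨X ^ 2 + (C (-(⟨_, htA⟩ : A)) * X + C (⟨_, hnA⟩ : A)), ?_, ?_⟩
    · exact monic_X_pow_add (lt_of_le_of_lt (degree_linear_le) (by norm_num))
    · rw [eval₂_add, eval₂_add, eval₂_mul, eval₂_pow, eval₂_X, eval₂_C, eval₂_C]
      show z ^ 2 + (-(z + m59tt_rho τ hτ 𝒱 z) * z + z * m59tt_rho τ hτ 𝒱 z) = 0
      ring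
  -- same contraction
  have hPQ : P.comap (algebraMap A (m59tt_BY τ 𝒱)) = Q.comap (algebraMap A (m59tt_BY τ 𝒱)) := by
    ext a
    show algebraMap A (m59tt_BY τ 𝒱) a ∈ P ↔ algebraMap A (m59tt_BY τ 𝒱) a ∈ Q
    rw [hP, hQ, ValuationSubring.mem_nonunits_iff_or,
      ValuationSubring.mem_nonunits_iff_or]
    have hfix : τ (((algebraMap A (m59tt_BY τ 𝒱) a : m59tt_BY τ 𝒱) : E))⁻¹ =
        (((algebraMap A (m59tt_BY τ 𝒱) a : m59tt_BY τ 𝒱) : E))⁻¹ := by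
      rw [map_inv₀]
      congr 1
      exact congrArg Subtype.val a.2
    rw [hK _ hfix]
  obtain ⟨j, hj, hjQ⟩ := s44mh_conj (A := A) (m59tt_rho τ hτ 𝒱) (n := 2) two_pos
    (fun z => Subtype.ext (hτ z.1)) (fun a => a.2) (fun z hz => ⟨⟨z, hz⟩, rfl⟩) P Q hPQ
  interval_cases j
  · left
    simp only [Function.iterate_zero, id_eq] at hjQ
    refine SetLike.ext fun x => ⟨fun hx => ?_, fun hx => ?_⟩
    · obtain ⟨b, s, hb, hs, hsn, hxs⟩ := m59tt_loc τ hτ 𝒱 𝒱' hK hx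
      have h1 : s ∉ 𝒱.nonunits := fun h =>
        hsn ((hQ ⟨s, hs⟩).1 ((hjQ ⟨s, hs⟩).2 ((hP ⟨s, hs⟩).2 h)))
      exact m59tt_mem_of_mul 𝒱 hs.1 h1 hb.1 hxs
    · obtain ⟨b, s, hb, hs, hsn, hxs⟩ := m59tt_loc τ hτ 𝒱 𝒱 (fun _ _ => Iff.rfl) hx
      have h1 : s ∉ 𝒱'.nonunits := fun h =>
        hsn ((hP ⟨s, hs⟩).1 ((hjQ ⟨s, hs⟩).1 ((hQ ⟨s, hs⟩).2 h)))
      exact m59tt_mem_of_mul 𝒱' (hleV' s hs) h1 (hleV' b hb) hxs
  · right
    simp only [Function.iterate_succ, Function.iterate_zero, Function.comp_apply, id_eq] at hjQ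
    intro x
    constructor
    · intro hx
      obtain ⟨b, s, hb, hs, hsn, hxs⟩ := m59tt_loc τ hτ 𝒱 𝒱' hK hx
      have h1 : τ s ∉ 𝒱.nonunits := fun h =>
        hsn ((hQ ⟨s, hs⟩).1 ((hjQ ⟨s, hs⟩).2 ((hP (m59tt_rho τ hτ 𝒱 ⟨s, hs⟩)).2 h)))
      have e : τ x * τ s = τ b := by rw [← map_mul, hxs]
      exact m59tt_mem_of_mul 𝒱 hs.2 h1 hb.2 e
    · intro hx
      obtain ⟨b, s, hb, hs, hsn, hxs⟩ := m59tt_loc τ hτ 𝒱 𝒱 (fun _ _ => Iff.rfl) hx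
      have hρρ : m59tt_rho τ hτ 𝒱 (m59tt_rho τ hτ 𝒱 ⟨s, hs⟩) = ⟨s, hs⟩ := Subtype.ext (hτ s)
      have h1 : τ s ∉ 𝒱'.nonunits := by
        intro h
        have h2 := (hjQ (m59tt_rho τ hτ 𝒱 ⟨s, hs⟩)).1 ((hQ (m59tt_rho τ hτ 𝒱 ⟨s, hs⟩)).2 h)
        rw [hρρ] at h2
        exact hsn ((hP ⟨s, hs⟩).1 h2)
      have e : x * τ s = τ b := by rw [← hxs, map_mul, hτ]
      exact m59tt_mem_of_mul 𝒱' (hleV' _ (m59tt_rho τ hτ 𝒱 ⟨s, hs⟩).2) h1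
        (hleV' _ (m59tt_rho τ hτ 𝒱 ⟨b, hb⟩).2) e

end Main

end Fermat.Agent.M59
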