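/-
M59 / Sink B, leaf 4 [TOR-SURJ], cell [TAU-INV] (helper24; prefix `m59tt_`), part 5:
TRANSPORT OF THE LOCAL RATIO ALONG AN AUTOMORPHISM OF THE FUNCTION FIELD (generic).

`B ⊆ F0` a chart, `τ` an automorphism of `F0`, `𝒱`, `𝒱'` valuation rings `⊇ B` with `τ 𝒱 = 𝒱'`,
centres `𝔫`, `𝔫'` on `B`; `V₁`, `V₂` `τ`-stable valuation rings `⊇ B` with centres `P₁, P₂ ⊆ 𝔫 ∩ 𝔫'`.
If `τ B ⊆ B_𝔫'` then `τ` restricts to a local homomorphism `B_𝔫 → B_𝔫'` matching the ideals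
`𝔫 B_𝔫, P_i B_𝔫` with `𝔫' B_𝔫', P_i B_𝔫'`, and `m59tl_ratio_map` transports the ratio.

* `m59tt_mem_map_iff`   : `z ∈ P B_𝔫 ↔ z ∈ 𝔪(V)` (`P` the centre of `V ⊇ B`, `P ⊆ 𝔫`);
* `m59tt_loc_le`        : `B_𝔫 ⊆ V`;
* `m59tt_loc_inv_mem`   : an element of `B_𝔫'` which is a unit of `𝒱'` is a unit of `B_𝔫'`;
* `m59tt_tau_loc_mem`   : `τ (B_𝔫) ⊆ B_𝔫'`;
* `m59tt_tau_chart_mem` : for `B = fc_chart A0 {x}`: `τ x ∈ B_𝔫'` ⟹ `τ B ⊆ B_𝔫'` (normality of `B_𝔫'`);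
* **`m59tt_ratio_tau`** : the transport of `m59tl_Ratio`.
-/
import Mathlib
import Fermat.Agent.M59.SinkB.Tor.Xfer
import Fermat.Agent.M59.SinkB.Tor.TauConj
import Fermat.Agent.SS.Local.Chart
import Fermat.Agent.JT3.FCore.Charts

set_option autoImplicit false
set_option linter.unusedSectionVars false
set_option linter.unusedVariables false
set_option linter.style.haveILetI false

namespace Fermat.Agent.M59

open Fermat.Agent.SS Fermat.Agent.S36 Fermat.Agent.JT3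

universe v

section Abs

variable {E : Type*} [Field E]

/-- an isomorphism of valuation rings matches the maximal ideals. -/
theorem m59tt_nonunits_iff2 (V V' : ValuationSubring E) (τ : E ≃+* E)
    (h : ∀ x : E, x ∈ V ↔ τ x ∈ V') (x : E) : x ∈ V.nonunits ↔ τ x ∈ V'.nonunits := by
  rw [ValuationSubring.mem_nonunits_iff_or, ValuationSubring.mem_nonunits_iff_or, ← map_inv₀,
    ← h x⁻¹]
  constructor
  · rintro (h0 | h1)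
    · exact Or.inl (by rw [h0, map_zero])
    · exact Or.inr h1
  · rintro (h0 | h1)
    · exact Or.inl ((map_eq_zero τ).1 h0)
    · exact Or.inr h1

/-- `𝔪(V) · V ⊆ 𝔪(V)`. -/
theorem m59tt_mul_mem_nonunits (V : ValuationSubring E) {x y : E} (hx : x ∈ V.nonunits)
    (hy : y ∈ V) : x * y ∈ V.nonunits := by
  rw [ValuationSubring.mem_nonunits_iff] at hx ⊢
  rw [map_mul]
  calc V.valuation x * V.valuation y ≤ V.valuation x * 1 :=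
        mul_le_mul' le_rfl ((V.valuation_le_one_iff y).2 hy)
    _ = V.valuation x := mul_one _
    _ < 1 := hx

/-- `x s ∈ 𝔪(V)`, `s` a unit of `V` ⟹ `x ∈ 𝔪(V)`. -/
theorem m59tt_nonunits_of_mul (V : ValuationSubring E) {x s a : E} (hs : s ∈ V)
    (hsn : s ∉ V.nonunits) (ha : a ∈ V.nonunits) (h : x * s = a) : x ∈ V.nonunits := by
  have hs1 : V.valuation s = 1 := by
    rw [ValuationSubring.mem_nonunits_iff] at hsn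
    exact le_antisymm ((V.valuation_le_one_iff s).2 hs) (not_lt.1 hsn)
  rw [ValuationSubring.mem_nonunits_iff] at ha ⊢
  have := congrArg V.valuation h
  rw [map_mul, hs1, mul_one] at this
  rw [this]
  exact ha

end Abs

section Loc

variable {A0 : Type*} [CommRing A0] {F0 : Type v} [Field F0] [Algebra A0 F0]
variable {B : Subalgebra A0 F0} [IsFractionRing B F0] [IsNoetherianRing B] [IsIntegrallyClosed B]

/-- `B_𝔫 ⊆ V` for a valuation ring `V ⊇ B` whose centre lies in `𝔫`. -/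
theorem m59tt_loc_le (𝔫 : Ideal B) [𝔫.IsPrime] (V : ValuationSubring F0)
    (hB : ∀ b : B, (b : F0) ∈ V) (hc : ∀ b : B, (b : F0) ∈ V.nonunits → b ∈ 𝔫) {z : F0}
    (hz : z ∈ ssl_locSub F0 𝔫) : z ∈ V := by
  obtain ⟨a, s, hs, h⟩ := (ssl_mem_loc 𝔫).1 hz
  exact m59tt_mem_of_mul V (hB s) (fun hm => hs (hc s hm)) (hB a) h

/-- `z ∈ P B_𝔫 ↔ z ∈ 𝔪(V)` for `P` the centre of `V ⊇ B`, `P ⊆ 𝔫`. -/
theorem m59tt_mem_map_iff (𝔫 : Ideal B) [𝔫.IsPrime] (P : Ideal B) (hP𝔫 : P ≤ 𝔫)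
    (V : ValuationSubring F0) (hB : ∀ b : B, (b : F0) ∈ V)
    (hP : ∀ b : B, b ∈ P ↔ (b : F0) ∈ V.nonunits) (z : ssl_locSub F0 𝔫) :
    z ∈ P.map (algebraMap B (ssl_locSub F0 𝔫)) ↔ (z : F0) ∈ V.nonunits := by
  constructor
  · intro hz
    obtain ⟨⟨a, s⟩, h⟩ := (IsLocalization.mem_map_algebraMap_iff 𝔫.primeCompl
      (ssl_locSub F0 𝔫)).1 hz
    have h' : (z : F0) * ((s : B) : F0) = ((a : B) : F0) := congrArg Subtype.val h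
    have hsn : ((s : B) : F0) ∉ V.nonunits := fun hm => s.2 (hP𝔫 ((hP _).2 hm))
    exact m59tt_nonunits_of_mul V (hB _) hsn ((hP _).1 a.2) h'
  · intro hz
    obtain ⟨a, s, hs, h⟩ := (ssl_mem_loc 𝔫).1 z.2
    have haP : a ∈ P := by
      rw [hP, ← h]
      exact m59tt_mul_mem_nonunits V hz (hB s)
    exact (IsLocalization.mem_map_algebraMap_iff 𝔫.primeCompl (ssl_locSub F0 𝔫)).2
      ⟨⟨⟨a, haP⟩, ⟨s, hs⟩⟩, Subtype.ext h⟩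

/-- an element of `B_𝔫` which is a unit of the dominating valuation ring is a unit of `B_𝔫`. -/
theorem m59tt_loc_inv_mem (𝔫 : Ideal B) [𝔫.IsPrime] (V : ValuationSubring F0)
    (hB : ∀ b : B, (b : F0) ∈ V) (h𝔫 : ∀ b : B, b ∈ 𝔫 ↔ (b : F0) ∈ V.nonunits) {y : F0}
    (hy : y ∈ ssl_locSub F0 𝔫) (hyn : y ∉ V.nonunits) : y⁻¹ ∈ ssl_locSub F0 𝔫 := by
  obtain ⟨a, s, hs, h⟩ := (ssl_mem_loc 𝔫).1 hy
  have hy0 : y ≠ 0 := fun h0 => hyn (h0 ▸ V.nonunits.zero_mem)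
  have ha : a ∉ 𝔫 := by
    intro ha
    have h1 : (a : F0) ∈ V.nonunits := (h𝔫 a).1 ha
    exact hyn (m59tt_nonunits_of_mul V (hB s) (fun hm => hs ((h𝔫 s).2 hm)) h1 h)
  refine (ssl_mem_loc 𝔫).2 ⟨s, a, ha, ?_⟩
  rw [← h, ← mul_assoc, inv_mul_cancel₀ hy0, one_mul]

/-- **`τ (B_𝔫) ⊆ B_𝔫'`** as soon as `τ B ⊆ B_𝔫'` and `τ 𝒱 = 𝒱'`. -/
theorem m59tt_tau_loc_mem (τ : F0 ≃+* F0) (𝒱 𝒱' : ValuationSubring F0)
    (h𝒱 : ∀ x : F0, x ∈ 𝒱 ↔ τ x ∈ 𝒱') (𝔫 𝔫' : Ideal B) [𝔫.IsPrime] [𝔫'.IsPrime]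
    (hB' : ∀ b : B, (b : F0) ∈ 𝒱')
    (h𝔫 : ∀ b : B, b ∈ 𝔫 ↔ (b : F0) ∈ 𝒱.nonunits)
    (h𝔫' : ∀ b : B, b ∈ 𝔫' ↔ (b : F0) ∈ 𝒱'.nonunits)
    (hτB : ∀ b : B, τ (b : F0) ∈ ssl_locSub F0 𝔫') {z : F0} (hz : z ∈ ssl_locSub F0 𝔫) :
    τ z ∈ ssl_locSub F0 𝔫' := by
  obtain ⟨a, s, hs, h⟩ := (ssl_mem_loc 𝔫).1 hz
  have hs0 : (s : F0) ≠ 0 := by
    intro h0
    apply hs
    have : s = 0 := Subtype.ext h0
    rw [this]
    exact 𝔫.zero_mem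
  have hτs : τ (s : F0) ∉ 𝒱'.nonunits := fun hm =>
    hs ((h𝔫 s).2 ((m59tt_nonunits_iff2 𝒱 𝒱' τ h𝒱 _).2 hm))
  have hinv := m59tt_loc_inv_mem 𝔫' 𝒱' hB' h𝔫' (hτB s) hτs
  have e : τ z = τ (a : F0) * (τ (s : F0))⁻¹ := by
    rw [← h, map_mul, mul_assoc, mul_inv_cancel₀ ((map_ne_zero τ).2 hs0), mul_one]
  rw [e]
  exact mul_mem (hτB a) hinv

/-- the restriction of `τ` to the local rings. -/
noncomputable def m59tt_psi (τ : F0 ≃+* F0) (𝔫 𝔫' : Ideal B) [𝔫.IsPrime] [𝔫'.IsPrime]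
    (hτ : ∀ z : F0, z ∈ ssl_locSub F0 𝔫 → τ z ∈ ssl_locSub F0 𝔫') :
    ssl_locSub F0 𝔫 →+* ssl_locSub F0 𝔫' where
  toFun z := ⟨τ z.1, hτ z.1 z.2⟩
  map_one' := Subtype.ext (map_one τ)
  map_mul' _ _ := Subtype.ext (map_mul τ _ _)
  map_zero' := Subtype.ext (map_zero τ)
  map_add' _ _ := Subtype.ext (map_add τ _ _)

/-- **transport of the ratio along `τ`.** -/
theorem m59tt_ratio_tau (τ : F0 ≃+* F0) (𝒱 𝒱' V1 V2 : ValuationSubring F0)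
    (h𝒱 : ∀ x : F0, x ∈ 𝒱 ↔ τ x ∈ 𝒱') (hV1 : ∀ x : F0, x ∈ V1 ↔ τ x ∈ V1)
    (hV2 : ∀ x : F0, x ∈ V2 ↔ τ x ∈ V2)
    (𝔫 𝔫' P1 P2 : Ideal B) [𝔫.IsPrime] [𝔫'.IsPrime]
    (hB : ∀ b : B, (b : F0) ∈ 𝒱) (hB' : ∀ b : B, (b : F0) ∈ 𝒱')
    (hB1 : ∀ b : B, (b : F0) ∈ V1) (hB2 : ∀ b : B, (b : F0) ∈ V2)
    (h𝔫 : ∀ b : B, b ∈ 𝔫 ↔ (b : F0) ∈ 𝒱.nonunits)
    (h𝔫' : ∀ b : B, b ∈ 𝔫' ↔ (b : F0) ∈ 𝒱'.nonunits)
    (hP1 : ∀ b : B, b ∈ P1 ↔ (b : F0) ∈ V1.nonunits)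
    (hP2 : ∀ b : B, b ∈ P2 ↔ (b : F0) ∈ V2.nonunits)
    (h1𝔫 : P1 ≤ 𝔫) (h2𝔫 : P2 ≤ 𝔫) (h1𝔫' : P1 ≤ 𝔫') (h2𝔫' : P2 ≤ 𝔫')
    (hτB : ∀ b : B, τ (b : F0) ∈ ssl_locSub F0 𝔫')
    {m : ℕ} {f : F0} {c : (ssl_locSub F0 𝔫)ˣ} {c' : (ssl_locSub F0 𝔫')ˣ}
    (hcc' : τ ((c : ssl_locSub F0 𝔫) : F0) = ((c' : ssl_locSub F0 𝔫') : F0))
    (h : m59tl_Ratio (𝔫.map (algebraMap B (ssl_locSub F0 𝔫)))
      (P1.map (algebraMap B (ssl_locSub F0 𝔫))) (P2.map (algebraMap B (ssl_locSub F0 𝔫)))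
      m f c) :
    m59tl_Ratio (𝔫'.map (algebraMap B (ssl_locSub F0 𝔫')))
      (P1.map (algebraMap B (ssl_locSub F0 𝔫'))) (P2.map (algebraMap B (ssl_locSub F0 𝔫')))
      m (τ f) c' := by
  have hτR := fun z hz => m59tt_tau_loc_mem τ 𝒱 𝒱' h𝒱 𝔫 𝔫' hB' h𝔫 h𝔫' hτB (z := z) hz
  set ψ := m59tt_psi τ 𝔫 𝔫' hτR with hψ
  have hψcoe : ∀ z : ssl_locSub F0 𝔫, ((ψ z : ssl_locSub F0 𝔫') : F0) = τ (z : F0) := fun z => rfl
  have hV1n := m59tt_nonunits_iff2 V1 V1 τ hV1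
  have hV2n := m59tt_nonunits_iff2 V2 V2 τ hV2
  have h𝒱n := m59tt_nonunits_iff2 𝒱 𝒱' τ h𝒱
  have key := m59tl_ratio_map ψ (τ : F0 →+* F0) (fun x => rfl)
    (𝔪 := 𝔫.map (algebraMap B (ssl_locSub F0 𝔫)))
    (𝔮₁ := P1.map (algebraMap B (ssl_locSub F0 𝔫)))
    (𝔮₂ := P2.map (algebraMap B (ssl_locSub F0 𝔫)))
    (𝔪' := 𝔫'.map (algebraMap B (ssl_locSub F0 𝔫')))
    (𝔮₁' := P1.map (algebraMap B (ssl_locSub F0 𝔫')))
    (𝔮₂' := P2.map (algebraMap B (ssl_locSub F0 𝔫')))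
    (fun x hx => by
      rw [m59tt_mem_map_iff 𝔫' 𝔫' le_rfl 𝒱' hB' h𝔫', hψcoe, ← h𝒱n]
      exact (m59tt_mem_map_iff 𝔫 𝔫 le_rfl 𝒱 hB h𝔫 x).1 hx)
    (fun x hx => by
      rw [m59tt_mem_map_iff 𝔫' P1 h1𝔫' V1 hB1 hP1, hψcoe, ← hV1n] at hx
      exact (m59tt_mem_map_iff 𝔫 P1 h1𝔫 V1 hB1 hP1 x).2 hx)
    (fun x hx => by
      rw [m59tt_mem_map_iff 𝔫' P1 h1𝔫' V1 hB1 hP1, hψcoe, ← hV1n]
      exact (m59tt_mem_map_iff 𝔫 P1 h1𝔫 V1 hB1 hP1 x).1 hx)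
    (fun x hx => by
      rw [m59tt_mem_map_iff 𝔫' P2 h2𝔫' V2 hB2 hP2, hψcoe, ← hV2n] at hx
      exact (m59tt_mem_map_iff 𝔫 P2 h2𝔫 V2 hB2 hP2 x).2 hx)
    (fun x hx => by
      rw [m59tt_mem_map_iff 𝔫' P2 h2𝔫' V2 hB2 hP2, hψcoe, ← hV2n]
      exact (m59tt_mem_map_iff 𝔫 P2 h2𝔫 V2 hB2 hP2 x).1 hx)
    h
  have hc : Units.map (ψ : ssl_locSub F0 𝔫 →* ssl_locSub F0 𝔫') c = c' := by
    apply Units.ext
    apply Subtype.ext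
    exact hcc'
  rw [hc] at key
  exact key

end Loc

section Chart

variable {A0 : Type*} [CommRing A0] {F0 : Type v} [Field F0] [Algebra A0 F0] {x : F0}
  [IsFractionRing (fc_chart A0 ({x} : Set F0)) F0]
  [IsNoetherianRing (fc_chart A0 ({x} : Set F0))]
  [IsIntegrallyClosed (fc_chart A0 ({x} : Set F0))]

/-- **`τ x ∈ B_𝔫'` ⟹ `τ B ⊆ B_𝔫'`** for the chart `B = fc_chart A0 {x}` (`B_𝔫'` is normal). -/
theorem m59tt_tau_chart_mem (τ : F0 ≃+* F0)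
    (hτA : ∀ a : A0, τ (algebraMap A0 F0 a) = algebraMap A0 F0 a)
    (𝔫' : Ideal (fc_chart A0 ({x} : Set F0))) [𝔫'.IsPrime]
    (hx : τ x ∈ ssl_locSub F0 𝔫') (b : fc_chart A0 ({x} : Set F0)) :
    τ (b : F0) ∈ ssl_locSub F0 𝔫' := by
  have hadj : ∀ y ∈ Algebra.adjoin A0 ({x} : Set F0), τ y ∈ ssl_locSub F0 𝔫' := by
    intro y hy
    induction hy using Algebra.adjoin_induction with
    | mem y hy =>
      rw [Set.mem_singleton_iff] at hy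
      rw [hy]
      exact hx
    | algebraMap a =>
      rw [hτA]
      exact (ssl_locSub F0 𝔫').algebraMap_mem (algebraMap A0 (fc_chart A0 ({x} : Set F0)) a)
    | add y z _ _ hy hz =>
      rw [map_add]
      exact add_mem hy hz
    | mul y z _ _ hy hz =>
      rw [map_mul]
      exact mul_mem hy hz
  let φ : Algebra.adjoin A0 ({x} : Set F0) →+* ssl_locSub F0 𝔫' :=
    { toFun := fun y => ⟨τ y.1, hadj y.1 y.2⟩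
      map_one' := Subtype.ext (map_one τ)
      map_mul' := fun _ _ => Subtype.ext (map_mul τ _ _)
      map_zero' := Subtype.ext (map_zero τ)
      map_add' := fun _ _ => Subtype.ext (map_add τ _ _) }
  have hint : IsIntegral (ssl_locSub F0 𝔫') (τ (b : F0)) :=
    IsIntegral.map_of_comp_eq (R := Algebra.adjoin A0 ({x} : Set F0)) (S := F0)
      (T := ssl_locSub F0 𝔫') (U := F0) φ (τ : F0 →+* F0) (by ext r; rfl)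
      (fc_mem_chart.1 b.2)
  haveI := ssl_loc_isIntegrallyClosed (F0 := F0) 𝔫'
  obtain ⟨y, hy⟩ := (IsIntegrallyClosed.isIntegral_iff (K := F0)).mp hint
  rw [← hy]
  exact y.2

end Chart

end Fermat.Agent.M59
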