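/-
M59 / Sink B, leaf 4 [TOR-SURJ], cell [TAU-INV] (helper24; prefix `m59tt_`), part 6 (Mathlib only):
A `p`-TH ROOT OF A `1`-UNIT WHICH IS ANTI-INVARIANT UNDER AN INVOLUTION IS A `1`-UNIT.

`V` a valuation ring of `E`, `τ` an automorphism of `E` with `τ V = V`, `ζ ∈ E` a primitive `p`-th root
of unity fixed by `τ`, `p` odd, `h ∈ E` with `h · τ h = 1` and `h ^ p ≡ 1 mod 𝔪(V)`.  Then
`h ≡ 1 mod 𝔪(V)`.  (`h ≡ μ` for some `μ ∈ μ_p` since `∏ (h - μ) = h^p - 1`; applying `τ`: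
`h⁻¹ ≡ μ`; hence `μ² ≡ 1`, and `μ = (μ²)^((p+1)/2) ≡ 1`.)
-/
import Mathlib

set_option autoImplicit false
set_option linter.unusedSectionVars false
set_option linter.unusedVariables false

namespace Fermat.Agent.M59

section Unit

variable {E : Type*} [Field E] (V : ValuationSubring E)

/-- `x ≡ 1 ⟹ x ^ n ≡ 1` modulo `𝔪(V)`. -/
theorem m59tt_pow_sub_one_mem {x : E} (hx : x - 1 ∈ V.nonunits) (n : ℕ) :
    x ^ n - 1 ∈ V.nonunits := by
  have hxV : x ∈ V := by
    have : x = (x - 1) + 1 := by ring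
    rw [this]
    exact V.add_mem _ _ (ValuationSubring.nonunits_subset hx) V.one_mem
  induction n with
  | zero =>
    rw [pow_zero, sub_self]
    exact V.nonunits.zero_mem
  | succ n ih =>
    have e : x ^ (n + 1) - 1 = (x - 1) * x ^ n + (x ^ n - 1) := by ring
    rw [e]
    refine V.nonunits.add_mem ?_ ih
    rw [ValuationSubring.mem_nonunits_iff] at hx ⊢
    rw [map_mul]
    calc V.valuation (x - 1) * V.valuation (x ^ n) ≤ V.valuation (x - 1) * 1 :=
          mul_le_mul' le_rfl ((V.valuation_le_one_iff _).2 (V.pow_mem hxV n))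
      _ = V.valuation (x - 1) := mul_one _
      _ < 1 := hx

/-- a root of an element of `V` lies in `V`. -/
theorem m59tt_mem_of_pow_mem {x : E} {n : ℕ} (hn : n ≠ 0) (hx : x ^ n ∈ V) : x ∈ V := by
  rw [← V.valuation_le_one_iff] at hx ⊢
  rw [map_pow] at hx
  exact (pow_le_one_iff hn).1 hx

/-- a finite product of elements of `V` lying in `𝔪(V)` has a factor in `𝔪(V)`. -/
theorem m59tt_prod_mem_nonunits {ι : Type*} (s : Finset ι) (f : ι → E) (hf : ∀ i ∈ s, f i ∈ V)
    (h : ∏ i ∈ s, f i ∈ V.nonunits) : ∃ i ∈ s, f i ∈ V.nonunits := by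
  classical
  by_contra hcon
  have h1 : ∀ i ∈ s, V.valuation (f i) = 1 := by
    intro i hi
    have : f i ∉ V.nonunits := fun hm => hcon ⟨i, hi, hm⟩
    rw [ValuationSubring.mem_nonunits_iff] at this
    exact le_antisymm ((V.valuation_le_one_iff _).2 (hf i hi)) (not_lt.1 this)
  rw [ValuationSubring.mem_nonunits_iff, map_prod, Finset.prod_congr rfl h1,
    Finset.prod_const_one] at h
  exact lt_irrefl _ h

/-- **the anti-invariant root of a `1`-unit is a `1`-unit.** -/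
theorem m59tt_anti_root (τ : E ≃+* E) (hτV : ∀ x : E, x ∈ V ↔ τ x ∈ V) {p : ℕ}
    (hp : Odd p) {ζ : E} (hζ : IsPrimitiveRoot ζ p) (hτζ : τ ζ = ζ) {h : E}
    (hh : h * τ h = 1) (hhp : h ^ p - 1 ∈ V.nonunits) : h - 1 ∈ V.nonunits := by
  have hp0 : p ≠ 0 := by
    rintro rfl
    obtain ⟨k, hk⟩ := hp
    omega
  have : NeZero p := ⟨hp0⟩
  -- `h ∈ V`
  have hhV : h ∈ V := by
    refine m59tt_mem_of_pow_mem V hp0 ?_
    have : h ^ p = (h ^ p - 1) + 1 := by ring
    rw [this]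
    exact V.add_mem _ _ (ValuationSubring.nonunits_subset hhp) V.one_mem
  -- the factorisation
  have hfac : h ^ p - 1 = ∏ μ ∈ Polynomial.nthRootsFinset p (1 : E), (h - μ) := by
    have := congrArg (Polynomial.eval h) (Polynomial.X_pow_sub_one_eq_prod (NeZero.pos p) hζ)
    rw [Polynomial.eval_sub, Polynomial.eval_pow, Polynomial.eval_X, Polynomial.eval_one,
      Polynomial.eval_prod] at this
    rw [this]
    refine Finset.prod_congr rfl fun μ _ => ?_
    rw [Polynomial.eval_sub, Polynomial.eval_X, Polynomial.eval_C]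
  have hμV : ∀ μ ∈ Polynomial.nthRootsFinset p (1 : E), μ ∈ V := by
    intro μ hμ
    have h1 : μ ^ p = 1 := (Polynomial.mem_nthRootsFinset (NeZero.pos p) 1).1 hμ
    exact m59tt_mem_of_pow_mem V hp0 (h1 ▸ V.one_mem)
  rw [hfac] at hhp
  obtain ⟨μ, hμ, hμh⟩ := m59tt_prod_mem_nonunits V _ _
    (fun μ hμ => sub_mem hhV (hμV μ hμ)) hhp
  have hμp : μ ^ p = 1 := (Polynomial.mem_nthRootsFinset (NeZero.pos p) 1).1 hμ
  have hμVm : μ ∈ V := hμV μ hμ
  -- `τ μ = μ`
  have hτμ : τ μ = μ := by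
    obtain ⟨i, -, rfl⟩ := hζ.eq_pow_of_pow_eq_one hμp
    rw [map_pow, hτζ]
  -- `τ h - μ ∈ 𝔪`
  have hn2 : ∀ x : E, x ∈ V.nonunits ↔ τ x ∈ V.nonunits := by
    intro x
    rw [ValuationSubring.mem_nonunits_iff_or, ValuationSubring.mem_nonunits_iff_or, ← map_inv₀,
      ← hτV x⁻¹]
    constructor
    · rintro (h0 | h1)
      · exact Or.inl (by rw [h0, map_zero])
      · exact Or.inr h1
    · rintro (h0 | h1)
      · exact Or.inl ((map_eq_zero τ).1 h0)
      · exact Or.inr h1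
  have h2 : τ h - μ ∈ V.nonunits := by
    have := (hn2 _).1 hμh
    rw [map_sub, hτμ] at this
    exact this
  have mulmem : ∀ {x y : E}, x ∈ V → y ∈ V.nonunits → x * y ∈ V.nonunits := by
    intro x y hx hy
    rw [ValuationSubring.mem_nonunits_iff] at hy ⊢
    rw [map_mul]
    calc V.valuation x * V.valuation y ≤ 1 * V.valuation y :=
          mul_le_mul' ((V.valuation_le_one_iff _).2 hx) le_rfl
      _ = V.valuation y := one_mul _
      _ < 1 := hy
  -- `1 - μ² ∈ 𝔪`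
  have h3 : μ ^ 2 - 1 ∈ V.nonunits := by
    have e : μ ^ 2 - 1 = -(h * (τ h - μ)) - μ * (h - μ) := by
      have : h * (τ h - μ) = 1 - h * μ := by rw [mul_sub, hh]
      rw [this]; ring
    rw [e]
    exact V.nonunits.sub_mem (V.nonunits.neg_mem (mulmem hhV h2)) (mulmem hμVm hμh)
  -- `μ - 1 ∈ 𝔪`
  have h4 : μ - 1 ∈ V.nonunits := by
    obtain ⟨k, hk⟩ := hp
    have e : μ = (μ ^ 2) ^ (k + 1) := by
      rw [← pow_mul]
      have : 2 * (k + 1) = p + 1 := by omega
      rw [this, pow_succ, hμp, one_mul]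
    have := m59tt_pow_sub_one_mem V h3 (k + 1)
    rw [← e] at this
    exact this
  have e : h - 1 = (h - μ) + (μ - 1) := by ring
  rw [e]
  exact V.nonunits.add_mem hμh h4

end Unit

end Fermat.Agent.M59
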