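/-
M59 / Sink B, leaf 4 [TOR-SURJ], cell [TAU-INV] (helper24; prefix `m59tt_`), part 4:
THE DECK INVOLUTION PRESERVES THE TWO VERTICAL VALUATIONS.

* `m59tt_tau0_isBdd`      : `q ↦ -q` preserves the bounded quotients (Gauss valuation ring);
* `m59tt_tau_V1`          : `x ∈ V₁ ↔ τ x ∈ V₁`;
* `m59tt_tau0_expand_odd` : `τ₀ (x(q^ℓ)) = (τ₀ x)(q^ℓ)` for odd `ℓ`;
* `m59tt_W_tau`           : `W τ = τ W` on `E = lg_E L (N' q)` (`E = E' ⊔ β_q E'`);
* `m59tt_tau_V2`          : `x ∈ V₂ ↔ τ x ∈ V₂`;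
* `m59tt_nonunits_iff`    : an automorphism preserving a valuation ring preserves its maximal ideal.
-/
import Mathlib
import Fermat.Agent.M59.SinkB.Tor.TauDef
import Fermat.Agent.SS.Model.TwoPrimesLeg
import Fermat.Agent.SS.Model.F4Sup

set_option autoImplicit false
set_option linter.unusedSectionVars false
set_option linter.unusedVariables false
set_option linter.style.haveILetI false
set_option synthInstance.maxHeartbeats 200000
set_option maxHeartbeats 800000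

noncomputable section

namespace Fermat.Agent.M59

open ModularCurve IntermediateField IsLocalRing
open Fermat.Agent.S28 Fermat.Agent.JT3 Fermat.Agent.SS

section Abs

variable {E : Type*} [Field E]

/-- an automorphism preserving a valuation ring preserves its maximal ideal. -/
theorem m59tt_nonunits_iff (V : ValuationSubring E) (τ : E ≃+* E)
    (h : ∀ x : E, x ∈ V ↔ τ x ∈ V) (x : E) : x ∈ V.nonunits ↔ τ x ∈ V.nonunits := by
  rw [ValuationSubring.mem_nonunits_iff_or, ValuationSubring.mem_nonunits_iff_or, ← map_inv₀,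
    ← h x⁻¹]
  constructor
  · rintro (h0 | h1)
    · exact Or.inl (by rw [h0, map_zero])
    · exact Or.inr h1
  · rintro (h0 | h1)
    · exact Or.inl ((map_eq_zero τ).1 h0)
    · exact Or.inr h1

end Abs

section Bdd

variable {L : Type*} [Field L] (O : ValuationSubring L)

/-- `q ↦ -q` preserves the bounded quotients. -/
theorem m59tt_tau0_isBdd {z : LaurentSeries L} (hz : gq_IsBdd O L z) :
    gq_IsBdd O L (m59tt_tau0 L z) := by
  obtain ⟨z1, z2, h2, h⟩ := hz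
  have hu : Units.map ((algebraMap O L : O →+* L) : O →* L) (-1 : (↥O)ˣ) = (-1 : Lˣ) := by
    apply Units.ext
    simp
  refine ⟨fs_twist (-1 : (↥O)ˣ) z1, fs_twist (-1 : (↥O)ˣ) z2, ?_, ?_⟩
  · rw [fs_coeffMap_twist]
    intro h0
    apply h2
    apply fs_twist_injective (Units.map ((residue O : O →+* ResidueField O) : O →* _) (-1))
    rw [h0, map_zero]
  · rw [fs_coeffMap_twist, fs_coeffMap_twist, hu]
    show m59tt_tau0 L z * m59tt_tau0 L (coeffMap (algebraMap O L) z2) =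
      m59tt_tau0 L (coeffMap (algebraMap O L) z1)
    rw [← map_mul, h]

end Bdd

section Odd

variable (L : Type*) [Field L]

/-- `τ₀ (x(q^ℓ)) = (τ₀ x)(q^ℓ)` for odd `ℓ`. -/
theorem m59tt_tau0_expand_odd (ℓ : ℕ) [NeZero ℓ] (hℓ : ¬ 2 ∣ ℓ) (x : LaurentSeries L) :
    m59tt_tau0 L (qExpand L ℓ x) = qExpand L ℓ (m59tt_tau0 L x) := by
  ext n
  rw [m59tt_tau0_coeff]
  by_cases hn : ((ℓ : ℕ) : ℤ) ∣ n
  · obtain ⟨k, rfl⟩ := hn
    rw [qExpand_coeff_mul, qExpand_coeff_mul, m59tt_tau0_coeff]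
    congr 2
    have hodd : Odd ℓ := Nat.odd_iff.2 (by omega)
    rw [zpow_mul, zpow_natCast, hodd.neg_one_pow]
  · rw [qExpand_coeff_of_not_dvd ℓ x hn, qExpand_coeff_of_not_dvd ℓ _ hn, mul_zero]

end Odd

section Leg

variable {L : Type*} [Field L] [CharZero L] [Algebra L (AlgebraicClosure ℚ)]
  (O : ValuationSubring L) [IsDiscreteValuationRing O] {π : O} (hπ : Irreducible π)
variable (N' q : ℕ) [NeZero N'] [NeZero q] [hq : Fact q.Prime] [CharP (ResidueField O) q]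
  (hq2 : ¬ 2 ∣ q) (hqN' : ¬ q ∣ N')

/-- **`τ V₁ = V₁`.** -/
theorem m59tt_tau_V1 (x : ↥(lg_E L (N' * q))) :
    x ∈ ssm_gl_V1 O hπ N' q ↔ m59tt_tau L (N' * q) two_ne_zero x ∈ ssm_gl_V1 O hπ N' q := by
  constructor
  · intro hx
    exact m59tt_tau0_isBdd O hx
  · intro hx
    have h1 : gq_IsBdd O L
        ((m59tt_tau L (N' * q) two_ne_zero x : ↥(lg_E L (N' * q))) : LaurentSeries L) := hx
    have h3 := m59tt_tau0_isBdd O h1
    rw [m59tt_tau_coe, m59tt_tau0_tau0] at h3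
    exact h3

variable (L) in
/-- **`W τ = τ W`** on `E = lg_E L (N' q)`. -/
theorem m59tt_W_tau (x : ↥(lg_E L (N' * q))) :
    ssm_al_WE L N' q hq.out hq2 hqN' (m59tt_tau L (N' * q) two_ne_zero x) =
      m59tt_tau L (N' * q) two_ne_zero (ssm_al_WE L N' q hq.out hq2 hqN' x) := by
  have h2 : (2 : L) ≠ 0 := two_ne_zero
  -- the equaliser, as an intermediate field of `L((q))`
  let S : IntermediateField L (LaurentSeries L) :=
    { carrier := {y | ∃ h : y ∈ lg_E L (N' * q),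
        ssm_al_WE L N' q hq.out hq2 hqN' (m59tt_tau L (N' * q) h2 ⟨y, h⟩) =
          m59tt_tau L (N' * q) h2 (ssm_al_WE L N' q hq.out hq2 hqN' ⟨y, h⟩)}
      mul_mem' := by
        rintro a b ⟨ha, ea⟩ ⟨hb, eb⟩
        refine ⟨mul_mem ha hb, ?_⟩
        have : (⟨a * b, mul_mem ha hb⟩ : ↥(lg_E L (N' * q))) = ⟨a, ha⟩ * ⟨b, hb⟩ := rfl
        rw [this, map_mul, map_mul, map_mul, map_mul, ea, eb]
      add_mem' := by
        rintro a b ⟨ha, ea⟩ ⟨hb, eb⟩
        refine ⟨add_mem ha hb, ?_⟩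
        have : (⟨a + b, add_mem ha hb⟩ : ↥(lg_E L (N' * q))) = ⟨a, ha⟩ + ⟨b, hb⟩ := rfl
        rw [this, map_add, map_add, map_add, map_add, ea, eb]
      algebraMap_mem' := by
        intro c
        refine ⟨(lg_E L (N' * q)).algebraMap_mem c, ?_⟩
        have : (⟨algebraMap L (LaurentSeries L) c, (lg_E L (N' * q)).algebraMap_mem c⟩ :
            ↥(lg_E L (N' * q))) = algebraMap L ↥(lg_E L (N' * q)) c := rfl
        rw [this, AlgEquiv.commutes, AlgEquiv.commutes, AlgEquiv.commutes]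
      inv_mem' := by
        rintro a ⟨ha, ea⟩
        refine ⟨inv_mem ha, ?_⟩
        have : (⟨a⁻¹, inv_mem ha⟩ : ↥(lg_E L (N' * q))) = (⟨a, ha⟩ : ↥(lg_E L (N' * q)))⁻¹ := rfl
        rw [this, map_inv₀, map_inv₀, map_inv₀, map_inv₀, ea] }
  have hS : ∀ y : LaurentSeries L, y ∈ S ↔ ∃ h : y ∈ lg_E L (N' * q),
      ssm_al_WE L N' q hq.out hq2 hqN' (m59tt_tau L (N' * q) h2 ⟨y, h⟩) =
        m59tt_tau L (N' * q) h2 (ssm_al_WE L N' q hq.out hq2 hqN' ⟨y, h⟩) := fun y => Iff.rfl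
  have key : ∀ (y : LaurentSeries L) (hy' : y ∈ lg_E L N')
      (hy : qExpand L q y ∈ lg_E L (N' * q)),
      ssm_al_WE L N' q hq.out hq2 hqN' (m59tt_tau L (N' * q) h2 ⟨qExpand L q y, hy⟩) =
        m59tt_tau L (N' * q) h2 (ssm_al_WE L N' q hq.out hq2 hqN' ⟨qExpand L q y, hy⟩) := by
    intro y hy' hy
    apply Subtype.ext
    have hτy' : m59tt_tau0 L y ∈ lg_E L N' := m59tt_tau0_mem_E L N' h2 hy'
    have e0 : m59tt_tau0 L (qExpand L q y) = qExpand L q (m59tt_tau0 L y) :=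
      m59tt_tau0_expand_odd L q hq2 y
    have hmem : qExpand L q (m59tt_tau0 L y) ∈ lg_E L (N' * q) := by
      rw [← e0]
      exact m59tt_tau0_mem_E L (N' * q) h2 hy
    have e1 : m59tt_tau L (N' * q) h2 ⟨qExpand L q y, hy⟩ =
        ⟨qExpand L q (m59tt_tau0 L y), hmem⟩ := Subtype.ext e0
    rw [e1, ssm_al_coe_WE_expand_of_mem L N' q hq.out hq2 hqN' hτy', m59tt_tau_coe,
      ssm_al_coe_WE_expand_of_mem L N' q hq.out hq2 hqN' hy']
  have hle : lg_E L (N' * q) ≤ S := by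
    rw [ssm_f4_E_eq_sup L N' q hq.out hq2]
    refine sup_le ?_ ?_
    · intro y hy'
      have hy : y ∈ lg_E L (N' * q) := ssm_al_E_le L N' q hy'
      refine (hS y).2 ⟨hy, Subtype.ext ?_⟩
      have hτy' : m59tt_tau0 L y ∈ lg_E L N' := m59tt_tau0_mem_E L N' h2 hy'
      have e1 : m59tt_tau L (N' * q) h2 ⟨y, hy⟩ =
          ⟨m59tt_tau0 L y, m59tt_tau0_mem_E L (N' * q) h2 hy⟩ := rfl
      rw [e1, ssm_al_coe_WE_of_mem L N' q hq.out hq2 hqN' hτy', m59tt_tau_coe,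
        ssm_al_coe_WE_of_mem L N' q hq.out hq2 hqN' hy', m59tt_tau0_expand_odd L q hq2]
    · rintro _ ⟨y, hy', rfl⟩
      have hy : qExpand L q y ∈ lg_E L (N' * q) :=
        ssm_al_E_beta_le L N' q hq2 ⟨y, hy', rfl⟩
      exact (hS _).2 ⟨hy, key y hy' hy⟩
  obtain ⟨h, e⟩ := (hS _).1 (hle x.2)
  exact e

/-- **`τ V₂ = V₂`.** -/
theorem m59tt_tau_V2 (x : ↥(lg_E L (N' * q))) :
    x ∈ ssm_gl_V2 O hπ N' q hq2 hqN' ↔
      m59tt_tau L (N' * q) two_ne_zero x ∈ ssm_gl_V2 O hπ N' q hq2 hqN' := by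
  show ssm_al_WE L N' q hq.out hq2 hqN' x ∈ ssm_gl_V1 O hπ N' q ↔
    ssm_al_WE L N' q hq.out hq2 hqN' (m59tt_tau L (N' * q) two_ne_zero x) ∈ ssm_gl_V1 O hπ N' q
  rw [m59tt_W_tau L N' q hq2 hqN' x]
  exact m59tt_tau_V1 O hπ N' q _

end Leg

end Fermat.Agent.M59

end
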