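/-
M59 / Sink B, leaf 4 [TOR-SURJ], cell [TAU-INV] (helper24; prefix `m59tt_`), part 7: THE ASSEMBLY.

`E = lg_E L (N' q)`, `2 ∣ N'`, `B1 = fc_chart O {λ}`.  Two valuation rings `𝒱, 𝒱' ⊇ B1` of `E` with the
same restriction to `φ(F)` (`hres`), centres `𝔫, 𝔫' ⊇ P1 + P2` on `B1`, `j(q²) ∈ 𝒱'`.  A normal form
`φ x0 = c · R ^ p · g'` with `g'` of constant reductions, `p` odd, `ζ_p ∈ L`.  Then

  **`m59tt_tauInv_val`** : the toric datum of `g'` at `𝔫` is the constant `e` ⟹ so it is at `𝔫'`.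

Proof: `𝒱' = 𝒱` or `𝒱' = τ 𝒱` (`m59tt_conj`, `m59tt_tau_fixed`); in the second case `τ` transports the
ratio of `g'` at `𝔫` to the ratio of `τ g'` at `𝔫'` (`m59tt_ratio_tau`; `τ B1 ⊆ (B1)_𝔫'` because
`τ λ = λ / (λ - 1)` and `λ - 1 ∉ 𝔫'` by the Legendre relation), and `g' = h ^ p · τ g'` with
`h = τ R / R ≡ 1` at `V₁`, `V₂` (`m59tt_anti_root`), so `h ^ p` has ratio one (`m59tl_ratio_of_pow`).
-/
import Mathlib
import Fermat.Agent.M59.SinkB.Tor.TauFix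
import Fermat.Agent.M59.SinkB.Tor.TauVal
import Fermat.Agent.M59.SinkB.Tor.TauRatio
import Fermat.Agent.M59.SinkB.Tor.TauUnit
import Fermat.Agent.M59.SinkB.Tor.Glue1Leg
import Fermat.Agent.M59.SinkB.Tor.Defs1

set_option autoImplicit false
set_option linter.unusedSectionVars false
set_option linter.unusedVariables false
set_option linter.style.haveILetI false
set_option synthInstance.maxHeartbeats 400000
set_option maxHeartbeats 3200000

noncomputable section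

namespace Fermat.Agent.M59

open Polynomial ModularCurve AlgebraicCurve IntermediateField IsLocalRing
open Fermat.Agent.JT3 Fermat.Agent.SS Fermat.Agent.S35 Fermat.Agent.S24 Fermat.Agent.S44
  Fermat.Agent.S36

section AbsH

variable {E : Type*} [Field E]

/-- **the correction factor `h = τ R / R` is a `1`-unit** at a `τ`-stable valuation ring at which `g'`
reduces to a `τ`-fixed unit constant `k`, and `g' = h ^ p · τ g'`. -/
theorem m59tt_h_one (V : ValuationSubring E) (τ : E ≃+* E) (hττ : ∀ x : E, τ (τ x) = x)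
    (hτV : ∀ x : E, x ∈ V ↔ τ x ∈ V) {p : ℕ} (hp : Odd p) {ζ : E} (hζ : IsPrimitiveRoot ζ p)
    (hτζ : τ ζ = ζ) {R g' k kinv : E} (hR : R ≠ 0) (hg : g' ≠ 0) (hk : τ k = k)
    (hkk : k * kinv = 1) (hkV : k ∈ V) (hkinv : kinv ∈ V) (hgk : g' - k ∈ V.nonunits)
    (hrel : R ^ p * g' = (τ R) ^ p * τ g') :
    τ R * R⁻¹ - 1 ∈ V.nonunits ∧ g' = (τ R * R⁻¹) ^ p * τ g' := by
  have hτR : τ R ≠ 0 := (map_ne_zero τ).2 hR
  have hτg : τ g' ≠ 0 := (map_ne_zero τ).2 hg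
  have h1 : τ g' - k ∈ V.nonunits := by
    have := (m59tt_nonunits_iff2 V V τ hτV _).1 hgk
    rw [map_sub, hk] at this
    exact this
  have hτgV : τ g' ∈ V := by
    have : τ g' = (τ g' - k) + k := by ring
    rw [this]
    exact V.add_mem _ _ (ValuationSubring.nonunits_subset h1) hkV
  have hτgn : τ g' ∉ V.nonunits := by
    intro hm
    have h2 : k ∈ V.nonunits := by
      have : k = τ g' - (τ g' - k) := by ring
      rw [this]
      exact V.nonunits.sub_mem hm h1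
    have h3 : (1 : E) ∈ V.nonunits := by
      rw [← hkk]
      exact m59tt_mul_mem_nonunits V h2 hkinv
    rw [ValuationSubring.mem_nonunits_iff, map_one] at h3
    exact lt_irrefl _ h3
  have hτginv : (τ g')⁻¹ ∈ V := by
    rw [ValuationSubring.mem_nonunits_iff_or, not_or, not_not] at hτgn
    exact hτgn.2
  have hpow : (τ R * R⁻¹) ^ p = g' * (τ g')⁻¹ := by
    rw [mul_pow, inv_pow]
    field_simp
    linear_combination -hrel
  have hfin : g' = (τ R * R⁻¹) ^ p * τ g' := by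
    rw [hpow, mul_assoc, inv_mul_cancel₀ hτg, mul_one]
  refine ⟨?_, hfin⟩
  have hdiff : g' - τ g' ∈ V.nonunits := by
    have : g' - τ g' = (g' - k) - (τ g' - k) := by ring
    rw [this]
    exact V.nonunits.sub_mem hgk h1
  have hhp : (τ R * R⁻¹) ^ p - 1 ∈ V.nonunits := by
    have : (τ R * R⁻¹) ^ p - 1 = (g' - τ g') * (τ g')⁻¹ := by
      rw [hpow, sub_mul, mul_inv_cancel₀ hτg]
    rw [this]
    exact m59tt_mul_mem_nonunits V hdiff hτginv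
  have hanti : (τ R * R⁻¹) * τ (τ R * R⁻¹) = 1 := by
    rw [map_mul, map_inv₀, hττ]
    field_simp
  exact m59tt_anti_root V τ hτV hp hζ hτζ hanti hhp

end AbsH

section Val

variable (L : Type) [Field L] [NumberField L] [Algebra L (AlgebraicClosure ℚ)]
  (O : ValuationSubring L) [IsDiscreteValuationRing O]
variable (N' q : ℕ) [NeZero N'] [NeZero q] [hq : Fact q.Prime] [CharP (ResidueField O) q]
  (hq2 : ¬ 2 ∣ q) (hqN' : ¬ q ∣ N') {π : O} (hπ : Irreducible π)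

/-- `m59tl_Ratio` at the point `𝔫` of the `λ`-chart, between the branches `P1`, `P2`, with a constant
of `O` (the general-`L` form of `m59t1_RatioAt`). -/
def m59tt_RatioAt (m : ℕ)
    (𝔫 : Ideal ↥(fc_chart ↥O ({lg_lamE (N' * q)} : Set ↥(lg_E L (N' * q))))) (h𝔫 : 𝔫.IsPrime)
    (f : ↥(lg_E L (N' * q))) (c : (↥O)ˣ) : Prop :=
  haveI := (s44ndl_chart_inst O N' q (L := L)).1
  haveI := h𝔫
  m59tl_Ratio
    (Ideal.map (algebraMap ↥(fc_chart ↥O ({lg_lamE (N' * q)} : Set ↥(lg_E L (N' * q))))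
      ↥(ssl_locSub ↥(lg_E L (N' * q)) 𝔫)) 𝔫)
    (Ideal.map (algebraMap ↥(fc_chart ↥O ({lg_lamE (N' * q)} : Set ↥(lg_E L (N' * q))))
      ↥(ssl_locSub ↥(lg_E L (N' * q)) 𝔫))
      (ssm_tp_P (fc_chart ↥O ({lg_lamE (N' * q)} : Set ↥(lg_E L (N' * q))))
        (ssm_gl_V1 O hπ N' q)))
    (Ideal.map (algebraMap ↥(fc_chart ↥O ({lg_lamE (N' * q)} : Set ↥(lg_E L (N' * q))))
      ↥(ssl_locSub ↥(lg_E L (N' * q)) 𝔫))
      (ssm_tp_P (fc_chart ↥O ({lg_lamE (N' * q)} : Set ↥(lg_E L (N' * q))))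
        (ssm_gl_V2 O hπ N' q hq2 hqN')))
    m f
    (Units.map ((algebraMap ↥(fc_chart ↥O ({lg_lamE (N' * q)} : Set ↥(lg_E L (N' * q))))
      ↥(ssl_locSub ↥(lg_E L (N' * q)) 𝔫)).comp
      (algebraMap ↥O ↥(fc_chart ↥O ({lg_lamE (N' * q)} : Set ↥(lg_E L (N' * q)))))).toMonoidHom c)

include hq2 in
/-- `λ - 1` is a unit of every valuation ring `⊇ B1` containing `j(q²)`. -/
theorem m59tt_lam_sub_one (𝒱 : ValuationSubring ↥(lg_E L (N' * q)))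
    (hB : ∀ b : ↥(fc_chart ↥O ({lg_lamE (N' * q)} : Set ↥(lg_E L (N' * q)))),
      (b : ↥(lg_E L (N' * q))) ∈ 𝒱)
    (hj : s44mz_j2E L (N' * q) ∈ 𝒱) :
    (lg_lamE (N' * q) : ↥(lg_E L (N' * q))) - 1 ∉ 𝒱.nonunits := by
  intro hm
  have hlam : (lg_lamE (N' * q) : ↥(lg_E L (N' * q))) ∈ 𝒱 :=
    hB ⟨_, fc_x_mem_chart (A0 := ↥O) _⟩
  have hrel := s44mz_legE L (N' * q)
  -- the right-hand side lies in `𝔪`
  have hR : s44mz_j2E L (N' * q) * (lg_lamE (N' * q) : ↥(lg_E L (N' * q))) ^ 2 *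
      ((lg_lamE (N' * q) : ↥(lg_E L (N' * q))) - 1) ^ 2 ∈ 𝒱.nonunits := by
    have e : s44mz_j2E L (N' * q) * (lg_lamE (N' * q) : ↥(lg_E L (N' * q))) ^ 2 *
        ((lg_lamE (N' * q) : ↥(lg_E L (N' * q))) - 1) ^ 2 =
        ((lg_lamE (N' * q) : ↥(lg_E L (N' * q))) - 1) *
          (s44mz_j2E L (N' * q) * (lg_lamE (N' * q) : ↥(lg_E L (N' * q))) ^ 2 *
            ((lg_lamE (N' * q) : ↥(lg_E L (N' * q))) - 1)) := by ring
    rw [e]
    refine m59tt_mul_mem_nonunits 𝒱 hm ?_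
    exact 𝒱.mul_mem _ _ (𝒱.mul_mem _ _ hj (𝒱.pow_mem hlam 2))
      (ValuationSubring.nonunits_subset hm)
  rw [← hrel] at hR
  -- `w = λ² - λ + 1 ≡ 1`
  have hw : ((lg_lamE (N' * q) : ↥(lg_E L (N' * q))) ^ 2 - lg_lamE (N' * q) + 1) - 1 ∈
      𝒱.nonunits := by
    have e : ((lg_lamE (N' * q) : ↥(lg_E L (N' * q))) ^ 2 - lg_lamE (N' * q) + 1) - 1 =
        ((lg_lamE (N' * q) : ↥(lg_E L (N' * q))) - 1) * lg_lamE (N' * q) := by ring
    rw [e]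
    exact m59tt_mul_mem_nonunits 𝒱 hm hlam
  have hw3 := m59tt_pow_sub_one_mem 𝒱 hw 3
  -- `256` is a unit of `O`
  have h2u : IsUnit (2 : ↥O) := by
    have := ssm_gl_two_ne_zero O q hq2
    rw [← map_ofNat (residue ↥O) 2] at this
    exact (residue_ne_zero_iff_isUnit _).1 this
  have h256u : IsUnit ((2 : ↥O) ^ 8) := h2u.pow 8
  obtain ⟨u, hu⟩ := h256u.exists_right_inv
  have huE : algebraMap ↥O ↥(lg_E L (N' * q)) u ∈ 𝒱 :=
    hB (algebraMap ↥O ↥(fc_chart ↥O ({lg_lamE (N' * q)} : Set ↥(lg_E L (N' * q)))) u)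
  have h256 : (256 : ↥(lg_E L (N' * q))) * algebraMap ↥O ↥(lg_E L (N' * q)) u = 1 := by
    have := congrArg (algebraMap ↥O ↥(lg_E L (N' * q))) hu
    rw [map_mul, map_pow, map_ofNat, map_one] at this
    rw [← this]
    norm_num
  have h256V : (256 : ↥(lg_E L (N' * q))) ∈ 𝒱 := by
    have : (256 : ↥(lg_E L (N' * q))) = ((256 : ℕ) : ↥(lg_E L (N' * q))) := by norm_num
    rw [this]
    exact natCast_mem 𝒱 256
  have h256n : (256 : ↥(lg_E L (N' * q))) ∈ 𝒱.nonunits := by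
    have e : (256 : ↥(lg_E L (N' * q))) =
        256 * ((lg_lamE (N' * q) : ↥(lg_E L (N' * q))) ^ 2 - lg_lamE (N' * q) + 1) ^ 3 -
          (((lg_lamE (N' * q) : ↥(lg_E L (N' * q))) ^ 2 - lg_lamE (N' * q) + 1) ^ 3 - 1) * 256 := by
      ring
    rw [e]
    exact 𝒱.nonunits.sub_mem hR (m59tt_mul_mem_nonunits 𝒱 hw3 h256V)
  have h1 : (1 : ↥(lg_E L (N' * q))) ∈ 𝒱.nonunits := by
    rw [← h256]
    exact m59tt_mul_mem_nonunits 𝒱 h256n huE
  rw [ValuationSubring.mem_nonunits_iff, map_one] at h1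
  exact lt_irrefl _ h1


include hq2 hqN' in
set_option maxHeartbeats 6400000 in
/-- **[TAU-INV], valuation form.** -/
theorem m59tt_tauInv_val (ζN : L) (hζN : IsPrimitiveRoot ζN N') (h2N : 2 ∣ N')
    (𝒱 𝒱' : ValuationSubring ↥(lg_E L (N' * q)))
    (hres : ∀ x : ↥(lg_F L (N' * q)),
      lg_phiE (L := L) (N := N' * q) x ∈ 𝒱 ↔ lg_phiE (L := L) (N := N' * q) x ∈ 𝒱')
    (𝔫 𝔫' : Ideal ↥(fc_chart ↥O ({lg_lamE (N' * q)} : Set ↥(lg_E L (N' * q)))))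
    (h𝔫 : 𝔫.IsPrime) (h𝔫' : 𝔫'.IsPrime)
    (hB : ∀ b : ↥(fc_chart ↥O ({lg_lamE (N' * q)} : Set ↥(lg_E L (N' * q)))),
      (b : ↥(lg_E L (N' * q))) ∈ 𝒱)
    (hB' : ∀ b : ↥(fc_chart ↥O ({lg_lamE (N' * q)} : Set ↥(lg_E L (N' * q)))),
      (b : ↥(lg_E L (N' * q))) ∈ 𝒱')
    (hc𝔫 : ∀ b : ↥(fc_chart ↥O ({lg_lamE (N' * q)} : Set ↥(lg_E L (N' * q)))),
      b ∈ 𝔫 ↔ (b : ↥(lg_E L (N' * q))) ∈ 𝒱.nonunits)
    (hc𝔫' : ∀ b : ↥(fc_chart ↥O ({lg_lamE (N' * q)} : Set ↥(lg_E L (N' * q)))),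
      b ∈ 𝔫' ↔ (b : ↥(lg_E L (N' * q))) ∈ 𝒱'.nonunits)
    (hj' : s44mz_j2E L (N' * q) ∈ 𝒱')
    (h1 : ssm_tp_P (fc_chart ↥O ({lg_lamE (N' * q)} : Set ↥(lg_E L (N' * q))))
      (ssm_gl_V1 O hπ N' q) ≤ 𝔫)
    (h2 : ssm_tp_P (fc_chart ↥O ({lg_lamE (N' * q)} : Set ↥(lg_E L (N' * q))))
      (ssm_gl_V2 O hπ N' q hq2 hqN') ≤ 𝔫)
    (h1' : ssm_tp_P (fc_chart ↥O ({lg_lamE (N' * q)} : Set ↥(lg_E L (N' * q))))
      (ssm_gl_V1 O hπ N' q) ≤ 𝔫')
    (h2' : ssm_tp_P (fc_chart ↥O ({lg_lamE (N' * q)} : Set ↥(lg_E L (N' * q))))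
      (ssm_gl_V2 O hπ N' q hq2 hqN') ≤ 𝔫')
    {p : ℕ} (hp : Odd p) (ζ : L) (hζ : IsPrimitiveRoot ζ p)
    {x0 : ↥(lg_F L (N' * q))} {c : L} {R g' : ↥(lg_E L (N' * q))} (hc : c ≠ 0) (hR : R ≠ 0)
    (hg : g' ≠ 0)
    (heq : lg_phiE (L := L) (N := N' * q) x0 =
      algebraMap L ↥(lg_E L (N' * q)) c * R ^ p * g')
    (hCR : s35_ConstRed O hπ N' q hq2 hqN' g') (e : (↥O)ˣ)
    (h : m59tt_RatioAt L O N' q hq2 hqN' hπ p 𝔫 h𝔫 g' e) :
    m59tt_RatioAt L O N' q hq2 hqN' hπ p 𝔫' h𝔫' g' e := by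
  -- the standing instances
  have hqO : ((q : ℕ) : O) ∈ maximalIdeal O := ssm_fln_q_mem L O q
  have hq2' : q ≠ 2 := ssm_fl_ne_two q hq2
  have hpr := ssm_ll_prime L N' hπ q hqO hq2' hqN' ζN hζN
  haveI := ssm_go_isScalarTower O (lg_E L (N' * q))
  haveI : FiniteDimensional L⟮(lg_lamE (N' * q) : lg_E L (N' * q))⟯ ↥(lg_E L (N' * q)) :=
    lgf_finite L (N' * q)
  have hx : Transcendental L (lg_lamE (L := L) (N' * q)) :=
    lgf_lam_transcendental L (N' * q) two_ne_zero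
  have H := ssm_gl_hyp O hπ N' q hq2 hqN' hpr.1
  have hxA : Transcendental ↥O (lg_lamE (L := L) (N' * q)) := fc_ff_transcendental (L := L) hx
  haveI : IsIntegrallyClosed (Algebra.adjoin ↥O
      ({lg_lamE (N' * q)} : Set ↥(lg_E L (N' * q)))) := fc_ff_isIntegrallyClosed hxA
  haveI : FaithfulSMul (Algebra.adjoin ↥O ({lg_lamE (N' * q)} : Set ↥(lg_E L (N' * q))))
      ↥(lg_E L (N' * q)) :=
    (faithfulSMul_iff_algebraMap_injective _ _).2 Subtype.val_injective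
  have hC1 := ssm_tp_ff_chart (L := L) (A0 := ↥O) (F0 := ↥(lg_E L (N' * q))) hπ hx
  haveI := (s44ndl_chart_inst O N' q (L := L)).1
  haveI := (s44ndl_chart_inst O N' q (L := L)).2.1
  haveI := (s44ndl_chart_inst O N' q (L := L)).2.2
  haveI := h𝔫
  haveI := h𝔫'
  haveI := H.P1_isPrime hC1
  haveI := H.P2_isPrime hC1
  -- the involution
  set τr : ↥(lg_E L (N' * q)) ≃+* ↥(lg_E L (N' * q)) :=
    (m59tt_tau L (N' * q) two_ne_zero).toRingEquiv with hτr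
  have hττ : ∀ x : ↥(lg_E L (N' * q)), τr (τr x) = x := fun x =>
    m59tt_tau_tau (L := L) (N := N' * q) two_ne_zero x
  have hτL : ∀ a : L, τr (algebraMap L ↥(lg_E L (N' * q)) a) =
      algebraMap L ↥(lg_E L (N' * q)) a := fun a =>
    (m59tt_tau L (N' * q) two_ne_zero).commutes a
  have hτO : ∀ a : ↥O, τr (algebraMap ↥O ↥(lg_E L (N' * q)) a) =
      algebraMap ↥O ↥(lg_E L (N' * q)) a := fun a => by
    rw [IsScalarTower.algebraMap_apply ↥O L ↥(lg_E L (N' * q)), hτL]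
  have hτφ : ∀ y : ↥(lg_F L (N' * q)), τr (lg_phiE (L := L) (N := N' * q) y) =
      lg_phiE (L := L) (N := N' * q) y := fun y =>
    m59tt_tau_phiE (L := L) (N := N' * q) two_ne_zero y
  have h2Nq : 2 ∣ N' * q := Dvd.dvd.mul_right h2N q
  have hK : ∀ x : ↥(lg_E L (N' * q)), τr x = x → (x ∈ 𝒱 ↔ x ∈ 𝒱') := by
    intro x hx
    obtain ⟨y, rfl⟩ := m59tt_tau_fixed (k := L) (M := N' * q) two_ne_zero h2Nq x hx
    exact hres y
  rcases m59tt_conj τr hττ 𝒱 𝒱' hK with hEq | hconj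
  · -- the same valuation ring: the same point
    have h𝔫𝔫' : 𝔫' = 𝔫 := by
      ext b
      rw [hc𝔫, hc𝔫', hEq]
    subst h𝔫𝔫'
    exact h
  · have h𝒱 : ∀ x : ↥(lg_E L (N' * q)), x ∈ 𝒱 ↔ τr x ∈ 𝒱' := fun x => by
      rw [hconj, hττ]
    have hV1 : ∀ x : ↥(lg_E L (N' * q)), x ∈ ssm_gl_V1 O hπ N' q ↔
        τr x ∈ ssm_gl_V1 O hπ N' q := fun x => m59tt_tau_V1 O hπ N' q x
    have hV2 : ∀ x : ↥(lg_E L (N' * q)), x ∈ ssm_gl_V2 O hπ N' q hq2 hqN' ↔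
        τr x ∈ ssm_gl_V2 O hπ N' q hq2 hqN' := fun x => m59tt_tau_V2 O hπ N' q hq2 hqN' x
    have hB1 : ∀ b : ↥(fc_chart ↥O ({lg_lamE (N' * q)} : Set ↥(lg_E L (N' * q)))),
        (b : ↥(lg_E L (N' * q))) ∈ ssm_gl_V1 O hπ N' q := fun b => hC1.le H.over1 b.2
    have hB2 : ∀ b : ↥(fc_chart ↥O ({lg_lamE (N' * q)} : Set ↥(lg_E L (N' * q)))),
        (b : ↥(lg_E L (N' * q))) ∈ ssm_gl_V2 O hπ N' q hq2 hqN' := fun b => hC1.le H.over2 b.2
    have hP1 : ∀ b : ↥(fc_chart ↥O ({lg_lamE (N' * q)} : Set ↥(lg_E L (N' * q)))),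
        b ∈ ssm_tp_P (fc_chart ↥O ({lg_lamE (N' * q)} : Set ↥(lg_E L (N' * q))))
          (ssm_gl_V1 O hπ N' q) ↔ (b : ↥(lg_E L (N' * q))) ∈ (ssm_gl_V1 O hπ N' q).nonunits :=
      fun b => ssm_tp_mem_P (fun _ hb => hC1.le H.over1 hb)
    have hP2 : ∀ b : ↥(fc_chart ↥O ({lg_lamE (N' * q)} : Set ↥(lg_E L (N' * q)))),
        b ∈ ssm_tp_P (fc_chart ↥O ({lg_lamE (N' * q)} : Set ↥(lg_E L (N' * q))))
          (ssm_gl_V2 O hπ N' q hq2 hqN') ↔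
          (b : ↥(lg_E L (N' * q))) ∈ (ssm_gl_V2 O hπ N' q hq2 hqN').nonunits :=
      fun b => ssm_tp_mem_P (fun _ hb => hC1.le H.over2 hb)
    -- `τ λ ∈ (B1)_𝔫'`
    have hlam1 := m59tt_lam_sub_one L O N' q hq2 𝒱' hB' hj'
    have hlamB : (lg_lamE (N' * q) : ↥(lg_E L (N' * q))) ∈
        fc_chart ↥O ({lg_lamE (N' * q)} : Set ↥(lg_E L (N' * q))) := fc_x_mem_chart _
    have hlam1B : (lg_lamE (N' * q) : ↥(lg_E L (N' * q))) - 1 ∈
        fc_chart ↥O ({lg_lamE (N' * q)} : Set ↥(lg_E L (N' * q))) :=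
      sub_mem hlamB (one_mem _)
    have hτlam : τr (lg_lamE (N' * q)) ∈ ssl_locSub ↥(lg_E L (N' * q)) 𝔫' :=
      (ssl_mem_loc 𝔫').2 ⟨⟨_, hlamB⟩, ⟨_, hlam1B⟩, fun hm => hlam1 ((hc𝔫' _).1 hm),
        m59tt_tau_lam (k := L) (M := N' * q) two_ne_zero⟩
    have hτB := m59tt_tau_chart_mem τr hτO 𝔫' hτlam
    -- step A: transport
    have stepA := m59tt_ratio_tau τr 𝒱 𝒱' (ssm_gl_V1 O hπ N' q) (ssm_gl_V2 O hπ N' q hq2 hqN')
      h𝒱 hV1 hV2 𝔫 𝔫' _ _ hB hB' hB1 hB2 hc𝔫 hc𝔫' hP1 hP2 h1 h2 h1' h2' hτB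
      (c' := Units.map ((algebraMap ↥(fc_chart ↥O ({lg_lamE (N' * q)} :
        Set ↥(lg_E L (N' * q)))) ↥(ssl_locSub ↥(lg_E L (N' * q)) 𝔫')).comp
        (algebraMap ↥O ↥(fc_chart ↥O ({lg_lamE (N' * q)} :
          Set ↥(lg_E L (N' * q)))))).toMonoidHom e)
      (hτO (e : ↥O)) h
    -- step B: the correction factor
    have hrel : R ^ p * g' = (τr R) ^ p * τr g' := by
      have h3 := congrArg τr heq
      rw [hτφ, map_mul, map_mul, map_pow, hτL, heq] at h3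
      have hc0 : algebraMap L ↥(lg_E L (N' * q)) c ≠ 0 :=
        (map_ne_zero (algebraMap L ↥(lg_E L (N' * q)))).2 hc
      have h4 : algebraMap L ↥(lg_E L (N' * q)) c * (R ^ p * g') =
          algebraMap L ↥(lg_E L (N' * q)) c * ((τr R) ^ p * τr g') := by
        rw [← mul_assoc, ← mul_assoc]
        exact h3
      exact mul_left_cancel₀ hc0 h4
    obtain ⟨k1, k2, hk1, hk2, hg1, hg2⟩ := hCR
    have hζE : IsPrimitiveRoot (algebraMap L ↥(lg_E L (N' * q)) ζ) p :=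
      hζ.map_of_injective (algebraMap L ↥(lg_E L (N' * q))).injective
    have hconst : ∀ (V : ValuationSubring ↥(lg_E L (N' * q)))
        (hBV : ∀ b : ↥(fc_chart ↥O ({lg_lamE (N' * q)} : Set ↥(lg_E L (N' * q)))),
          (b : ↥(lg_E L (N' * q))) ∈ V) (a : ↥O),
        algebraMap L ↥(lg_E L (N' * q)) ((a : ↥O) : L) ∈ V := fun V hBV a =>
      hBV (algebraMap ↥O ↥(fc_chart ↥O ({lg_lamE (N' * q)} : Set ↥(lg_E L (N' * q)))) a)
    have hkey : ∀ (V : ValuationSubring ↥(lg_E L (N' * q)))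
        (hBV : ∀ b : ↥(fc_chart ↥O ({lg_lamE (N' * q)} : Set ↥(lg_E L (N' * q)))),
          (b : ↥(lg_E L (N' * q))) ∈ V)
        (hτV : ∀ x : ↥(lg_E L (N' * q)), x ∈ V ↔ τr x ∈ V) (k : ↥O) (hk : IsUnit k)
        (hgk : g' - algebraMap L ↥(lg_E L (N' * q)) ((k : ↥O) : L) ∈ V.nonunits),
        τr R * R⁻¹ - 1 ∈ V.nonunits ∧ g' = (τr R * R⁻¹) ^ p * τr g' := by
      intro V hBV hτV k hk hgk
      obtain ⟨u, hu⟩ := hk.exists_right_inv
      have hkk : algebraMap L ↥(lg_E L (N' * q)) ((k : ↥O) : L) *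
          algebraMap L ↥(lg_E L (N' * q)) ((u : ↥O) : L) = 1 := by
        rw [← map_mul]
        have : ((k : ↥O) : L) * ((u : ↥O) : L) = 1 := by
          have := congrArg (Subtype.val : ↥O → L) hu
          exact this
        rw [this, map_one]
      exact m59tt_h_one V τr hττ hτV hp hζE (hτL ζ) hR hg (hτL _) hkk (hconst V hBV k)
        (hconst V hBV u) hgk hrel
    obtain ⟨hh1, hfin⟩ := hkey _ hB1 hV1 k1 hk1 hg1
    obtain ⟨hh2, -⟩ := hkey _ hB2 hV2 k2 hk2 hg2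
    -- `h ∈ V_i`, unit
    have hunit : ∀ (V : ValuationSubring ↥(lg_E L (N' * q))),
        τr R * R⁻¹ - 1 ∈ V.nonunits → τr R * R⁻¹ ∈ V ∧ τr R * R⁻¹ ∉ V.nonunits := by
      intro V hm
      constructor
      · have : τr R * R⁻¹ = (τr R * R⁻¹ - 1) + 1 := by ring
        rw [this]
        exact V.add_mem _ _ (ValuationSubring.nonunits_subset hm) V.one_mem
      · intro hm2
        have h3 : (1 : ↥(lg_E L (N' * q))) ∈ V.nonunits := by
          have : (1 : ↥(lg_E L (N' * q))) = τr R * R⁻¹ - (τr R * R⁻¹ - 1) := by ring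
          rw [this]
          exact V.nonunits.sub_mem hm2 hm
        rw [ValuationSubring.mem_nonunits_iff, map_one] at h3
        exact lt_irrefl _ h3
    haveI := s35l_map_isPrime (F0 := ↥(lg_E L (N' * q))) 𝔫' _ h1'
    haveI := s35l_map_isPrime (F0 := ↥(lg_E L (N' * q))) 𝔫' _ h2'
    have m1 := m59tgl_memM_of_nonunits H hC1 𝔫' h1' hh1
    have m2 := m59tgl_memM_of_nonunits H.symm hC1 𝔫' h2' hh2
    have u1 := m59tgl_unitAt_of_unit H hC1 𝔫' h1' (hunit _ hh1).1 (hunit _ hh1).2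
    have u2 := m59tgl_unitAt_of_unit H.symm hC1 𝔫' h2' (hunit _ hh2).1 (hunit _ hh2).2
    have stepB := m59tl_ratio_of_pow
      (𝔫'.map (algebraMap ↥(fc_chart ↥O ({lg_lamE (N' * q)} : Set ↥(lg_E L (N' * q))))
        ↥(ssl_locSub ↥(lg_E L (N' * q)) 𝔫')))
      ((ssm_tp_P (fc_chart ↥O ({lg_lamE (N' * q)} : Set ↥(lg_E L (N' * q))))
        (ssm_gl_V1 O hπ N' q)).map
        (algebraMap ↥(fc_chart ↥O ({lg_lamE (N' * q)} : Set ↥(lg_E L (N' * q))))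
          ↥(ssl_locSub ↥(lg_E L (N' * q)) 𝔫')))
      ((ssm_tp_P (fc_chart ↥O ({lg_lamE (N' * q)} : Set ↥(lg_E L (N' * q))))
        (ssm_gl_V2 O hπ N' q hq2 hqN')).map
        (algebraMap ↥(fc_chart ↥O ({lg_lamE (N' * q)} : Set ↥(lg_E L (N' * q))))
          ↥(ssl_locSub ↥(lg_E L (N' * q)) 𝔫')))
      (m := p) (h := τr R * R⁻¹) (b₁ := 1) (b₂ := 1) u1 u2
      (by rw [Units.val_one, map_one]; exact m1) (by rw [Units.val_one, map_one]; exact m2)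
    have stepC := m59tl_ratio_mul _ _ _ stepB stepA
    rw [← hfin, inv_one, one_mul, one_mul] at stepC
    exact stepC

end Val

end Fermat.Agent.M59

end
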