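/-
M59 / Sink B, leaf 4 [TOR-SURJ], cell [TAU-INV] (helper24; prefix `m59tt_`), part 8:
[TAU-INV] IN THE VOCABULARY OF `Tor/Defs1.lean` (helper7's `m59t1_*`).

* **`m59tt_tauInv`** : two points `𝔫, 𝔫' ⊇ P1 + P2` of the `λ`-chart with the SAME label `Q` (`j̄` finite
  at `Q`): the toric datum of the `g'` of a normal form `φ x0 = c · R ^ p · g'` at `𝔫` is `e` ⟹ it is
  `e` at `𝔫'`.
* `m59tt_ratioAll_of_points` : `m59t1_RatioAll g' c` as soon as every `Q ∈ Sg` has ONE labelled point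
  `𝔫_Q ⊇ P1 + P2` with datum `c Q` (or no labelled point on both components at all).
-/
import Mathlib
import Fermat.Agent.M59.SinkB.Tor.TauInv

set_option autoImplicit false
set_option linter.unusedSectionVars false
set_option linter.unusedVariables false
set_option linter.style.haveILetI false
set_option synthInstance.maxHeartbeats 400000
set_option maxHeartbeats 3200000

noncomputable section

namespace Fermat.Agent.M59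

open Polynomial ModularCurve AlgebraicCurve IntermediateField IsLocalRing
open Fermat.Agent.JT3 Fermat.Agent.SS Fermat.Agent.S35 Fermat.Agent.S24 Fermat.Agent.S44
  Fermat.Agent.S36

local notation "Qb" => AlgebraicClosure ℚ

section T1

variable (A : ValuationSubring Qb) {q : ℕ} [hq : Fact q.Prime] (hA : A.LiesOverPrime q)
  (N' : ℕ) [NeZero N'] [NeZero q] [NeZero (N' * q)] (hq2 : ¬ 2 ∣ q) (hqN' : ¬ q ∣ N')
  (L : IntermediateField ℚ Qb) [NumberField ↥L]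
  [IsDiscreteValuationRing ↥(A.comap (algebraMap ↥L Qb))]
  [CharP (ResidueField ↥(A.comap (algebraMap ↥L Qb))) q]
  {π : ↥(A.comap (algebraMap ↥L Qb))} (hπ : Irreducible π)

/-- **[TAU-INV]**: the toric datum of `g'` is the same at all the points with the same label. -/
theorem m59tt_tauInv (ζN : ↥L) (hζN : IsPrimitiveRoot ζN N') (h2N : 2 ∣ N')
    {p : ℕ} (hp : Odd p) (ζ : ↥L) (hζ : IsPrimitiveRoot ζ p)
    {x0 : ↥(lg_F ↥L (N' * q))} {c : ↥L} {R g' : ↥(lg_E ↥L (N' * q))} (hc : c ≠ 0) (hR : R ≠ 0)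
    (hg : g' ≠ 0)
    (heq : lg_phiE (L := ↥L) (N := N' * q) x0 =
      algebraMap ↥L ↥(lg_E ↥L (N' * q)) c * R ^ p * g')
    (hCR : s35_ConstRed (A.comap (algebraMap ↥L Qb)) hπ N' q hq2 hqN' g')
    (Q : Place (s44e_kA A) ↥(s44e_FF A N'))
    (hjQ : jcr_j (k := s44e_kA A) N' ∈ Q.toValuationSubring)
    (𝔫 𝔫' : Ideal ↥(m59t1_B1 A N' q L)) (h𝔫 : 𝔫.IsPrime) (h𝔫' : 𝔫'.IsPrime)
    (h1 : m59t1_P1 A N' L hπ ≤ 𝔫) (h2 : m59t1_P2 A N' hq2 hqN' L hπ ≤ 𝔫)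
    (h1' : m59t1_P1 A N' L hπ ≤ 𝔫') (h2' : m59t1_P2 A N' hq2 hqN' L hπ ≤ 𝔫')
    (hL : m59t1_Lab A hA N' hq2 hqN' L hπ 𝔫 Q) (hL' : m59t1_Lab A hA N' hq2 hqN' L hπ 𝔫' Q)
    (e : (↥(A.comap (algebraMap ↥L Qb)))ˣ)
    (h : m59t1_RatioAt A N' hq2 hqN' L hπ p 𝔫 h𝔫 g' e) :
    m59t1_RatioAt A N' hq2 hqN' L hπ p 𝔫' h𝔫' g' e := by
  obtain ⟨𝒲, hext, h𝔫eq⟩ := hL
  obtain ⟨𝒲', hext', h𝔫eq'⟩ := hL'
  obtain ⟨-, -, -, hB, -, hmem, -, -⟩ :=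
    s44ndl_centre_A A hA N' hq2 hqN' L hπ ζN hζN Q 𝒲 hext hjQ
  obtain ⟨-, hj2', -, hB', -, hmem', -, -⟩ :=
    s44ndl_centre_A A hA N' hq2 hqN' L hπ ζN hζN Q 𝒲' hext' hjQ
  rw [h𝔫eq] at hmem
  rw [h𝔫eq'] at hmem'
  have hres : ∀ x : ↥(lg_F ↥L (N' * q)),
      lg_phiE (L := ↥L) (N := N' * q) x ∈
          s44ndl_V ↥L (A.comap (algebraMap ↥L Qb)) hπ N' q hq2 hqN' 𝒲 ↔
        lg_phiE (L := ↥L) (N := N' * q) x ∈
          s44ndl_V ↥L (A.comap (algebraMap ↥L Qb)) hπ N' q hq2 hqN' 𝒲' := fun x =>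
    (hext x).trans (hext' x).symm
  exact m59tt_tauInv_val ↥L (A.comap (algebraMap ↥L Qb)) N' q hq2 hqN' hπ ζN hζN h2N
    (s44ndl_V ↥L (A.comap (algebraMap ↥L Qb)) hπ N' q hq2 hqN' 𝒲)
    (s44ndl_V ↥L (A.comap (algebraMap ↥L Qb)) hπ N' q hq2 hqN' 𝒲') hres 𝔫 𝔫' h𝔫 h𝔫'
    (fun b => hB b b.2) (fun b => hB' b b.2) hmem hmem' hj2' h1 h2 h1' h2' hp ζ hζ hc hR hg heq
    hCR e h

/-- **`m59t1_RatioAll` from one labelled point per supersingular place.** -/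
theorem m59tt_ratioAll_of_points (ζN : ↥L) (hζN : IsPrimitiveRoot ζN N') (h2N : 2 ∣ N')
    (hπq : Irreducible ((q : ℕ) : ↥(A.comap (algebraMap ↥L Qb))))
    {p : ℕ} (hp : Odd p) (ζ : ↥L) (hζ : IsPrimitiveRoot ζ p)
    {u : JZero (N' * q)} {x0 : ↥(lg_F ↥L (N' * q))} {c : ↥L} {R g' : ↥(lg_E ↥L (N' * q))}
    (hNF : m59t1_NF A N' hq2 hqN' L hπq p u x0 c R g')
    (d : s44e_Sg A N' q hq.out hqN' → (↥(A.comap (algebraMap ↥L Qb)))ˣ)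
    (hpt : ∀ Q : s44e_Sg A N' q hq.out hqN',
      (∃ (𝔫 : Ideal ↥(m59t1_B1 A N' q L)) (h𝔫 : 𝔫.IsMaximal),
        m59t1_P1 A N' L hπq ≤ 𝔫 ∧ m59t1_P2 A N' hq2 hqN' L hπq ≤ 𝔫 ∧
        m59t1_Lab A hA N' hq2 hqN' L hπq 𝔫 Q.1 ∧
        m59t1_RatioAt A N' hq2 hqN' L hπq p 𝔫 h𝔫.isPrime g' (d Q)) ∨
      ∀ (𝔫 : Ideal ↥(m59t1_B1 A N' q L)), 𝔫.IsMaximal →
        m59t1_P1 A N' L hπq ≤ 𝔫 → m59t1_P2 A N' hq2 hqN' L hπq ≤ 𝔫 →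
        ¬ m59t1_Lab A hA N' hq2 hqN' L hπq 𝔫 Q.1) :
    m59t1_RatioAll A hA N' hq2 hqN' L hπq p g' d := by
  obtain ⟨hc, hR, hg, -, heq, -, hCR⟩ := hNF
  intro 𝔫' h𝔫' h1' h2' Q hL'
  rcases hpt Q with ⟨𝔫, h𝔫, h1, h2, hL, hrat⟩ | hno
  · exact m59tt_tauInv A hA N' hq2 hqN' L hπq ζN hζN h2N hp ζ hζ hc hR hg heq hCR Q.1 Q.2.1
      𝔫 𝔫' h𝔫.isPrime h𝔫'.isPrime h1 h2 h1' h2' hL hL' (d Q) hrat
  · exact absurd hL' (hno 𝔫' h𝔫' h1' h2')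

end T1

end Fermat.Agent.M59

end
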