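/-
M59 / Sink B, leaf [TOR-SURJ]: SEAM 1 OF `Tor/Final.lean` IS CLOSED (helper15).  Prefix `m59tf_`.

`m59tf_tauInv : m59tf_TauInv_stmt` from helper24's `m59tt_tauInv` ([TAU-INV], Tor/TauInvT1.lean), hence
**`m59tf_torSurjPlU_of_cells2 : m59tf_Cells2_stmt → m59g12u_TorSurjPlU_stmt`**: the leaf hangs on the
cells of the level `N' q q` only.
-/
import Mathlib
import Fermat.Agent.M59.SinkB.Tor.Final
import Fermat.Agent.M59.SinkB.Tor.TauInvT1

set_option autoImplicit false
set_option linter.unusedSectionVars false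
set_option linter.unusedVariables false
set_option linter.style.haveILetI false
set_option synthInstance.maxHeartbeats 400000
set_option maxHeartbeats 1000000

noncomputable section

namespace Fermat.Agent.M59

open Fermat.Agent.TW

open Polynomial ModularCurve AlgebraicCurve IntermediateField IsLocalRing
open Fermat.Agent.JT3 Fermat.Agent.SS Fermat.Agent.S35 Fermat.Agent.S24 Fermat.Agent.S44
  Fermat.Agent.S36

local notation "Qb" => AlgebraicClosure ℚ

/-- **[TAU-INV] over the big level** (seam 1 of `Tor/Final.lean`), closed. -/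
theorem m59tf_tauInv : m59tf_TauInv_stmt := by
  intro N' q p _ _ hqF _ _ hpF hp2 hqp hq2 hqN' h4 A hA S
  haveI := (m59tx_star_inst A N' hq2 hqN' S).1
  haveI := S.lev.dvr
  haveI := m59tx_star_charP A hA N' hq2 hqN' S
  have h2N : 2 ∣ N' := Dvd.dvd.trans (by norm_num) h4
  have hodd : Odd p := hpF.out.odd_of_ne_two hp2
  intro u x0 c R g' hNF 𝔫 𝔫' h𝔫 h𝔫' h1 h2 h1' h2' Q hL hL' ε h
  exact m59tt_tauInv A hA N' hq2 hqN' S.L1 S.lev.irr S.zN S.hzN h2N hodd S.zp S.hzp
    hNF.1 hNF.2.1 hNF.2.2.1 hNF.2.2.2.2.1 hNF.2.2.2.2.2.2 Q.1 Q.2.1 𝔫 𝔫' h𝔫.isPrime h𝔫'.isPrime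
    h1 h2 h1' h2' hL hL' ε h

/-- **[TOR-SURJ] (common-level form) from the cells of the level `N' q q`.** -/
theorem m59tf_torSurjPlU_of_cells2 (hC2 : m59tf_Cells2_stmt) : m59g12u_TorSurjPlU_stmt :=
  m59tf_torSurjPlU_of m59tf_tauInv hC2

end Fermat.Agent.M59
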