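/-
M59 / Sink B, leaf 3 [TOR-SURJ], cell (inj1), the DESCENT `E → F` (helper4; chief ruling #5733 (2)).
Prefix `m59tjd_`.

`E = lg_E k N ⊇ φ(F)`, `F = lg_F k N`, `φ = lg_phiE` (`q ↦ q²`), `2 ∣ N`, `2 ≠ 0` in `k`, so `[E : φ(F)] ≤ 2`
(`m59ev_finrank_le_two`) and an odd prime `p` does not divide the degree.

* `m59tjd_desc_abs`  : (abstract) `p ∤ [E : F]`, `algebraMap x = algebraMap c · w^p` in `E` (`c ≠ 0`)
                       ⟹ `x = c · y^p` in `F` (helper23's `s44kv_pth_power_descend`);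
* `m59tjd_desc`      : `lg_phiE x = C c · w^p` in `E` ⟹ `∃ y ∈ F, x = C c · y^p` (same constant `c`);
* `m59tjd_desc_div`  : the (inj1) shape: `lg_phiE x0 = C c · w^p · lg_phiE x0'` ⟹ `x0 = C c · y^p · x0'`.
-/
import Mathlib
import Fermat.Agent.S44.Mono.KummerUnif
import Fermat.Agent.M59.DTwin.Even

set_option autoImplicit false
set_option linter.unusedSectionVars false
set_option linter.unusedVariables false
set_option linter.style.haveILetI false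

noncomputable section

namespace Fermat.Agent.M59

open ModularCurve AlgebraicCurve Fermat.Agent.JT3 Fermat.Agent.SS Fermat.Agent.S44

section Abs

/-- if `p ∤ [E : F]` and `x = c · w^p` in `E` with `x, c ∈ F`, `c ≠ 0`, then `x = c · y^p` in `F`. -/
theorem m59tjd_desc_abs {F E : Type*} [Field F] [Field E] [Algebra F E] [Module.Finite F E]
    {p : ℕ} (hp : p.Prime) (hpn : ¬ p ∣ Module.finrank F E) {x c : F} (hc : c ≠ 0) {w : E}
    (h : algebraMap F E x = algebraMap F E c * w ^ p) : ∃ y : F, x = c * y ^ p := by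
  have hcE : algebraMap F E c ≠ 0 := (_root_.map_ne_zero _).2 hc
  have h' : w ^ p = algebraMap F E (x * c⁻¹) := by
    rw [map_mul, map_inv₀, h]
    field_simp
  obtain ⟨y, hy⟩ := s44kv_pth_power_descend hp hpn h'
  refine ⟨y, ?_⟩
  rw [hy]
  field_simp

end Abs

section Leg

variable {k : Type*} [Field k] (N : ℕ) [NeZero N]

/-- **the descent `E → F` for (inj1)**: `lg_phiE x = C c · w^p` in `E` ⟹ `x = C c · y^p` in `F`. -/
theorem m59tjd_desc (h2 : (2 : k) ≠ 0) (hN2 : 2 ∣ N) {p : ℕ} (hp : p.Prime) (hp2 : p ≠ 2)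
    {x : ↥(lg_F k N)} {c : k} (hc : c ≠ 0) {w : ↥(lg_E k N)}
    (h : lg_phiE (L := k) (N := N) x = algebraMap k ↥(lg_E k N) c * w ^ p) :
    ∃ y : ↥(lg_F k N), x = algebraMap k ↥(lg_F k N) c * y ^ p := by
  letI := algebraAlong (lg_phiE (L := k) (N := N))
  haveI : Module.Finite ↥(lg_F k N) ↥(lg_E k N) := s44rr_finiteAlong N h2
  have hnd : ¬ p ∣ Module.finrank ↥(lg_F k N) ↥(lg_E k N) :=
    (m59ev_not_dvd_finrank (k := k) N hN2 h2 p hp hp2).1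
  have hcF : algebraMap k ↥(lg_F k N) c ≠ 0 := (_root_.map_ne_zero _).2 hc
  refine m59tjd_desc_abs hp hnd hcF (w := w) ?_
  show lg_phiE (L := k) (N := N) x = lg_phiE (L := k) (N := N) (algebraMap k ↥(lg_F k N) c) * w ^ p
  rw [AlgHom.commutes]
  exact h

/-- if moreover `x ≠ 0`, then `y ≠ 0`. -/
theorem m59tjd_desc_ne (h2 : (2 : k) ≠ 0) (hN2 : 2 ∣ N) {p : ℕ} (hp : p.Prime) (hp2 : p ≠ 2)
    {x : ↥(lg_F k N)} (hx : x ≠ 0) {c : k} (hc : c ≠ 0) {w : ↥(lg_E k N)}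
    (h : lg_phiE (L := k) (N := N) x = algebraMap k ↥(lg_E k N) c * w ^ p) :
    ∃ y : ↥(lg_F k N), y ≠ 0 ∧ x = algebraMap k ↥(lg_F k N) c * y ^ p := by
  obtain ⟨y, hy⟩ := m59tjd_desc N h2 hN2 hp hp2 hc h
  refine ⟨y, ?_, hy⟩
  rintro rfl
  rw [zero_pow hp.ne_zero, mul_zero] at hy
  exact hx hy

/-- **the (inj1) shape**: `lg_phiE x0 = C c · w^p · lg_phiE x0'` (`x0' ≠ 0`) ⟹ `x0 = C c · y^p · x0'`. -/
theorem m59tjd_desc_div (h2 : (2 : k) ≠ 0) (hN2 : 2 ∣ N) {p : ℕ} (hp : p.Prime) (hp2 : p ≠ 2)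
    {x0 x0' : ↥(lg_F k N)} (hx0' : x0' ≠ 0) {c : k} (hc : c ≠ 0) {w : ↥(lg_E k N)}
    (h : lg_phiE (L := k) (N := N) x0 =
      algebraMap k ↥(lg_E k N) c * w ^ p * lg_phiE (L := k) (N := N) x0') :
    ∃ y : ↥(lg_F k N), x0 = algebraMap k ↥(lg_F k N) c * y ^ p * x0' := by
  have hφ0 : lg_phiE (L := k) (N := N) x0' ≠ 0 := (_root_.map_ne_zero _).2 hx0'
  have h' : lg_phiE (L := k) (N := N) (x0 * x0'⁻¹) = algebraMap k ↥(lg_E k N) c * w ^ p := by
    rw [map_mul, map_inv₀, h, mul_assoc, mul_inv_cancel₀ hφ0, mul_one]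
  obtain ⟨y, hy⟩ := m59tjd_desc N h2 hN2 hp hp2 hc h'
  refine ⟨y, ?_⟩
  rw [← hy, mul_assoc, inv_mul_cancel₀ hx0', mul_one]

end Leg

end Fermat.Agent.M59
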