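/-
M59 / Sink B, leaf 4 [TOR-SURJ], cell (inj2), THE TAIL (helper3).  Prefix `m59t2_`.

Two normal forms over the same level `L` (vocabulary of `Tor/Defs2.lean`) whose functions `g'`, `g''`
differ by a constant times a `p`-th power represent the SAME class:

* `m59t2_inj_tail_raw` : the statement on the bare equations
  `f = C c₀ r₀ᵖ · bc g1`, `ι g1 = C k Rᵖ g'`, `f' = C c₀' r₀'ᵖ · bc g1'`, `ι g1' = C k' R'ᵖ g''`,
  `g' = C c wᵖ g''`, `Rep z p f`, `Rep z' p f'` ⟹ `z = z'`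
  (bridge `ι g1 = lg_phiE x0`, helper4's descent `m59tjd_desc_div` from `lg_E` to `lg_F` — `p` odd does
  not divide the degree `≤ 2` —, back to `F̄` by `ssm_al_iotaF`, then `s44b_rep_pth`, `s44b_rep_inj`);
* `m59t2_inj_tail`     : the same for two `m59t2_NF`.
-/
import Mathlib
import Fermat.Agent.M59.SinkB.Tor.Defs2
import Fermat.Agent.M59.SinkB.Tor.Inj1Desc

set_option autoImplicit false
set_option linter.unusedSectionVars false
set_option linter.unusedVariables false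
set_option linter.style.haveILetI false
set_option synthInstance.maxHeartbeats 400000
set_option maxHeartbeats 1000000

noncomputable section

namespace Fermat.Agent.M59

open Polynomial ModularCurve AlgebraicCurve IntermediateField IsLocalRing
open Fermat.Agent.JT3 Fermat.Agent.SS Fermat.Agent.S35 Fermat.Agent.S24 Fermat.Agent.S44
  Fermat.Agent.S36 Fermat.Agent.SS2

local notation "Qb" => AlgebraicClosure ℚ

section Raw

variable (L : IntermediateField ℚ Qb) (N : ℕ) [NeZero N]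

/-- **the tail of (inj2), raw form.** -/
theorem m59t2_inj_tail_raw {p : ℕ} (hp : p.Prime) (hp2 : p ≠ 2) (hN2 : 2 ∣ N)
    {z z' : JZero N} {f f' : modularFunctionFieldBar N}
    {g1 g1' : laurentBaseChange L (modularFunctionFieldFull N)} {c₀ c₀' : Qb}
    {r₀ r₀' : modularFunctionFieldBar N} {k k' c : ↥L} {R R' g' g'' w : ↥(lg_E ↥L N)}
    (hrep : s44f_Rep N p z f) (hrep' : s44f_Rep N p z' f')
    (hg1 : g1 ≠ 0) (hg1' : g1' ≠ 0) (hc₀ : c₀ ≠ 0) (hc₀' : c₀' ≠ 0) (hr₀ : r₀ ≠ 0)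
    (hr₀' : r₀' ≠ 0) (hk : k ≠ 0) (hk' : k' ≠ 0) (hR' : R' ≠ 0) (hc : c ≠ 0)
    (hf : f = algebraMap Qb (modularFunctionFieldBar N) c₀ * r₀ ^ p *
      dsc_bcHom L Qb (modularFunctionFieldFull N) g1)
    (hf' : f' = algebraMap Qb (modularFunctionFieldBar N) c₀' * r₀' ^ p *
      dsc_bcHom L Qb (modularFunctionFieldFull N) g1')
    (hι : ss2_dp_iota ↥L N g1 = algebraMap ↥L ↥(lg_E ↥L N) k * R ^ p * g')
    (hι' : ss2_dp_iota ↥L N g1' = algebraMap ↥L ↥(lg_E ↥L N) k' * R' ^ p * g'')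
    (hgg : g' = algebraMap ↥L ↥(lg_E ↥L N) c * w ^ p * g'') : z = z' := by
  have h2 : (2 : ↥L) ≠ 0 := two_ne_zero
  -- the models in the `lg_F` vocabulary
  obtain ⟨x0, hx0⟩ : ∃ x0 : ↥(lg_F ↥L N), (x0 : LaurentSeries ↥L) = (g1 : LaurentSeries ↥L) :=
    ⟨⟨(g1 : LaurentSeries ↥L), ss2_dp_mem_lgF ↥L N g1.2⟩, rfl⟩
  obtain ⟨x0', hx0'⟩ : ∃ x0' : ↥(lg_F ↥L N),
      (x0' : LaurentSeries ↥L) = (g1' : LaurentSeries ↥L) :=
    ⟨⟨(g1' : LaurentSeries ↥L), ss2_dp_mem_lgF ↥L N g1'.2⟩, rfl⟩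
  have hbc : ssm_al_iotaF ↥L N x0 = dsc_bcHom ↥L Qb (modularFunctionFieldFull N) g1 := by
    apply Subtype.ext
    show ssm_al_iota ↥L (x0 : LaurentSeries ↥L) = _
    rw [hx0]
    rfl
  have hbc' : ssm_al_iotaF ↥L N x0' = dsc_bcHom ↥L Qb (modularFunctionFieldFull N) g1' := by
    apply Subtype.ext
    show ssm_al_iota ↥L (x0' : LaurentSeries ↥L) = _
    rw [hx0']
    rfl
  have hιx : ss2_dp_iota ↥L N g1 = lg_phiE (L := ↥L) (N := N) x0 := by
    apply Subtype.ext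
    show qExpand ↥L 2 (g1 : LaurentSeries ↥L) = qExpand ↥L 2 (x0 : LaurentSeries ↥L)
    rw [hx0]
  have hιx' : ss2_dp_iota ↥L N g1' = lg_phiE (L := ↥L) (N := N) x0' := by
    apply Subtype.ext
    show qExpand ↥L 2 (g1' : LaurentSeries ↥L) = qExpand ↥L 2 (x0' : LaurentSeries ↥L)
    rw [hx0']
  have hx0ne : x0 ≠ 0 := by
    intro h0
    apply hg1
    apply Subtype.ext
    rw [← hx0, h0]
    rfl
  have hx0'ne : x0' ≠ 0 := by
    intro h0
    apply hg1'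
    apply Subtype.ext
    rw [← hx0', h0]
    rfl
  -- the relation in `lg_E`
  have hkE : algebraMap ↥L ↥(lg_E ↥L N) k' ≠ 0 := (_root_.map_ne_zero _).2 hk'
  have hR'p : R' ^ p ≠ 0 := pow_ne_zero p hR'
  have hc1 : k * c * k'⁻¹ ≠ 0 := mul_ne_zero (mul_ne_zero hk hc) (inv_ne_zero hk')
  have hrel : lg_phiE (L := ↥L) (N := N) x0 =
      algebraMap ↥L ↥(lg_E ↥L N) (k * c * k'⁻¹) * (R * w * R'⁻¹) ^ p *
        lg_phiE (L := ↥L) (N := N) x0' := by
    rw [← hιx, ← hιx', hι, hι', hgg, map_mul, map_mul, map_inv₀, mul_pow, mul_pow, inv_pow]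
    field_simp
  obtain ⟨y, hy⟩ := m59tjd_desc_div N h2 hN2 hp hp2 hx0'ne hc1 hrel
  have hy0 : y ≠ 0 := by
    rintro rfl
    rw [zero_pow hp.ne_zero, mul_zero, zero_mul] at hy
    exact hx0ne hy
  -- back to `F̄`
  have hyF : ssm_al_iotaF ↥L N y ≠ 0 :=
    (_root_.map_ne_zero_iff _ (ssm_al_iotaF_injective ↥L N)).2 hy0
  obtain ⟨C1, hC1, hbcrel⟩ : ∃ C1 : Qb, C1 ≠ 0 ∧
      dsc_bcHom ↥L Qb (modularFunctionFieldFull N) g1 =
        algebraMap Qb (modularFunctionFieldBar N) C1 *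
          ssm_al_iotaF ↥L N y ^ p * dsc_bcHom ↥L Qb (modularFunctionFieldFull N) g1' := by
    refine ⟨algebraMap ↥L Qb (k * c * k'⁻¹), (_root_.map_ne_zero _).2 hc1, ?_⟩
    rw [← hbc, ← hbc', hy, map_mul, map_mul, map_pow, ssm_al_iotaF_algebraMap]
  -- `f = const · f' · (p-th power)`
  have hc₀'F : algebraMap Qb (modularFunctionFieldBar N) c₀' ≠ 0 :=
    (_root_.map_ne_zero _).2 hc₀'
  have hr₀'p : r₀' ^ p ≠ 0 := pow_ne_zero p hr₀'
  have hcc : c₀ * C1 * c₀'⁻¹ ≠ 0 :=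
    mul_ne_zero (mul_ne_zero hc₀ hC1) (inv_ne_zero hc₀')
  have hhh : r₀ * ssm_al_iotaF ↥L N y * r₀'⁻¹ ≠ 0 :=
    mul_ne_zero (mul_ne_zero hr₀ hyF) (inv_ne_zero hr₀')
  have hff : f = algebraMap Qb (modularFunctionFieldBar N) (c₀ * C1 * c₀'⁻¹) * f' *
        (r₀ * ssm_al_iotaF ↥L N y * r₀'⁻¹) ^ p := by
    rw [hf, hf', hbcrel, map_mul, map_mul, map_inv₀, mul_pow, mul_pow, inv_pow]
    generalize algebraMap Qb (modularFunctionFieldBar N) c₀ = a0
    generalize algebraMap Qb (modularFunctionFieldBar N) C1 = a1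
    generalize algebraMap Qb (modularFunctionFieldBar N) c₀' = a2 at hc₀'F ⊢
    generalize r₀' ^ p = b2 at hr₀'p ⊢
    generalize dsc_bcHom ↥L Qb (modularFunctionFieldFull N) g1' = G
    field_simp
  rw [hff] at hrep
  have hrep2 : s44f_Rep N p z f' := (s44b_rep_pth N hcc hhh).1 hrep
  exact s44b_rep_inj N hp.ne_zero hrep2 hrep'

end Raw

section NF

variable (A : ValuationSubring Qb) {q : ℕ} [hq : Fact q.Prime]
  (N' : ℕ) [NeZero N'] [NeZero q] [NeZero (N' * q)] [NeZero (N' * q * q)]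
  (hq2 : ¬ 2 ∣ q) (hqN' : ¬ q ∣ N')
  (L : IntermediateField ℚ Qb) [NumberField ↥L]
  [IsDiscreteValuationRing ↥(A.comap (algebraMap ↥L Qb))]
  [CharP (ResidueField ↥(A.comap (algebraMap ↥L Qb))) q]
  (hπq : Irreducible ((q : ℕ) : ↥(A.comap (algebraMap ↥L Qb))))

/-- **the tail of (inj2)**: two normal forms over `L` with `g' = C c · wᵖ · g''` represent the same
class. -/
theorem m59t2_inj_tail {p : ℕ} (hp : p.Prime) (hp2 : p ≠ 2) (hN2 : 2 ∣ N')
    {z z' : JZero (N' * q * q)} {f f' : modularFunctionFieldBar (N' * q * q)}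
    {g1 g1' : laurentBaseChange L (modularFunctionFieldFull (N' * q * q))} {c₀ c₀' : Qb}
    {r₀ r₀' : modularFunctionFieldBar (N' * q * q)} {k k' : ↥L}
    {R R' g' g'' : ↥(lg_E ↥L (N' * q * q))}
    (h : m59t2_NF A N' hq2 hqN' L hπq p z f g1 c₀ r₀ k R g')
    (h' : m59t2_NF A N' hq2 hqN' L hπq p z' f' g1' c₀' r₀' k' R' g'')
    {c : ↥L} {w : ↥(lg_E ↥L (N' * q * q))} (hc : c ≠ 0)
    (hgg : g' = algebraMap ↥L ↥(lg_E ↥L (N' * q * q)) c * w ^ p * g'') : z = z' := by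
  obtain ⟨hg1, hc₀, hr₀, hrep, hf, hk, hR, hg', hι, hord, hred⟩ := h
  obtain ⟨hg1', hc₀', hr₀', hrep', hf', hk', hR', hg'', hι', hord', hred'⟩ := h'
  have hN2' : 2 ∣ N' * q * q := Dvd.dvd.mul_right (Dvd.dvd.mul_right hN2 q) q
  exact m59t2_inj_tail_raw L (N' * q * q) hp hp2 hN2' hrep hrep' hg1 hg1' hc₀ hc₀' hr₀ hr₀'
    hk hk' hR' hc hf hf' hι hι' hgg

end NF

end Fermat.Agent.M59
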