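/-
M59 / Sink B, leaf 4 [TOR-SURJ], cell (inj2), THE HEAD (helper6; twin of `Tor/Inj1.lean` at the
level `N' q q`; the tail is helper3's `m59t2_inj_tail`, `Tor/Inj2Tail.lean`).  Prefix `m59tj2_`.

* `m59tj2_quot_pow` : two functions `g`, `g'` on the Legendre cover of level `N' q q` with all orders
  divisible by `m`, constant reductions at `VA`, `VB`, `VC` (`m59sb_ConstRed3`), and toric data
  `(κ₁(𝔫) ε₁, κ₂(𝔫) ε₂)` resp. `(κ₁(𝔫) ε₁', κ₂(𝔫) ε₂')` (the SAME `κ₁`, `κ₂`) at EVERY triple point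
  `𝔫 ⊇ PA + PB + PC`, and one triple point: `g = c · w ^ m · g'` (`m59tl_ratio_div`, `m59t2_hK`,
  `m59t2_glue`);
* **`m59tj2_inj2_core`** : (inj2) for the relation `m59t2_T2` of `Tor/Defs2.lean`, from the totality of
  the two labellings at the triple points (`hlabA`, `hlabB`) and one triple point (`hex`) of ONE third
  valuation `VC`.
-/
import Mathlib
import Fermat.Agent.M59.SinkB.Tor.Inj1
import Fermat.Agent.M59.SinkB.Tor.Glue2T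
import Fermat.Agent.M59.SinkB.Tor.Inj2Tail

set_option autoImplicit false
set_option linter.unusedSectionVars false
set_option linter.unusedVariables false
set_option linter.style.haveILetI false

noncomputable section

namespace Fermat.Agent.M59

open Polynomial ModularCurve AlgebraicCurve IntermediateField IsLocalRing
open Fermat.Agent.JT3 Fermat.Agent.SS Fermat.Agent.S35 Fermat.Agent.S24 Fermat.Agent.S44
  Fermat.Agent.S36 Fermat.Agent.SS2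

local notation "Qb" => AlgebraicClosure ℚ

section Head

variable (A : ValuationSubring Qb) {q : ℕ} [hq : Fact q.Prime] (hA : A.LiesOverPrime q)
  (N' : ℕ) [NeZero N'] [NeZero q] [NeZero (N' * q)] [NeZero (N' * q * q)]
  (hq2 : ¬ 2 ∣ q) (hqN' : ¬ q ∣ N')
  (L : IntermediateField ℚ Qb) [NumberField ↥L]
  [IsDiscreteValuationRing ↥(A.comap (algebraMap ↥L Qb))]
  [CharP (ResidueField ↥(A.comap (algebraMap ↥L Qb))) q]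
  (hπq : Irreducible ((q : ℕ) : ↥(A.comap (algebraMap ↥L Qb))))
  (ζ : ↥L) (hζ : IsPrimitiveRoot ζ N')

include hζ in
set_option synthInstance.maxHeartbeats 400000 in
set_option maxHeartbeats 3200000 in
/-- **the quotient of two functions with the same pair of toric data is a constant times an `m`-th
power**, level `N' q q`. -/
theorem m59tj2_quot_pow {VC : ValuationSubring ↥(lg_E ↥L (N' * q * q))}
    (T3 : s36asm_Third (A.comap (algebraMap ↥L Qb)) hπq N' q hq2 hqN' VC) {m : ℕ}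
    (hqm : ¬ q ∣ m) {g g' : ↥(lg_E ↥L (N' * q * q))} (hg0 : g ≠ 0) (hg'0 : g' ≠ 0)
    (hord : ∀ P : Place ↥L ↥(lg_E ↥L (N' * q * q)), (m : ℤ) ∣ P.ord g)
    (hord' : ∀ P : Place ↥L ↥(lg_E ↥L (N' * q * q)), (m : ℤ) ∣ P.ord g')
    (hcr : m59sb_ConstRed3 (A.comap (algebraMap ↥L Qb)) hπq N' q hq2 hqN' g)
    (hcr' : m59sb_ConstRed3 (A.comap (algebraMap ↥L Qb)) hπq N' q hq2 hqN' g')
    (κ1 κ2 : Ideal ↥(m59t2_B2 A N' q L) → (↥(A.comap (algebraMap ↥L Qb)))ˣ)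
    (ε1 ε1' ε2 ε2' : (↥(A.comap (algebraMap ↥L Qb)))ˣ)
    (hrat : ∀ (𝔫 : Ideal ↥(m59t2_B2 A N' q L)) (h𝔫 : 𝔫.IsMaximal),
      m59t2_PA A N' L hπq ≤ 𝔫 → m59t2_PB A N' hq2 hqN' L hπq ≤ 𝔫 → m59t2_PC A N' L VC ≤ 𝔫 →
      m59t2_RatioCB A N' hq2 hqN' L hπq VC m 𝔫 h𝔫.isPrime g (κ1 𝔫 * ε1) ∧
        m59t2_RatioAC A N' L hπq VC m 𝔫 h𝔫.isPrime g (κ2 𝔫 * ε2))
    (hrat' : ∀ (𝔫 : Ideal ↥(m59t2_B2 A N' q L)) (h𝔫 : 𝔫.IsMaximal),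
      m59t2_PA A N' L hπq ≤ 𝔫 → m59t2_PB A N' hq2 hqN' L hπq ≤ 𝔫 → m59t2_PC A N' L VC ≤ 𝔫 →
      m59t2_RatioCB A N' hq2 hqN' L hπq VC m 𝔫 h𝔫.isPrime g' (κ1 𝔫 * ε1') ∧
        m59t2_RatioAC A N' L hπq VC m 𝔫 h𝔫.isPrime g' (κ2 𝔫 * ε2'))
    (hex : ∃ 𝔫 : Ideal ↥(m59t2_B2 A N' q L), 𝔫.IsMaximal ∧
      m59t2_PA A N' L hπq ≤ 𝔫 ∧ m59t2_PB A N' hq2 hqN' L hπq ≤ 𝔫 ∧ m59t2_PC A N' L VC ≤ 𝔫) :
    ∃ (c : ↥L) (w : ↥(lg_E ↥L (N' * q * q))), c ≠ 0 ∧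
      g = algebraMap ↥L ↥(lg_E ↥L (N' * q * q)) c * w ^ m * g' := by
  obtain ⟨kA, kB, kC, hkA, hkB, hkC, hgA, hgB, hgC⟩ := hcr VC T3
  obtain ⟨kA', kB', kC', hkA', hkB', hkC', hgA', hgB', hgC'⟩ := hcr' VC T3
  have hf0 : g / g' ≠ 0 := div_ne_zero hg0 hg'0
  have hordf : ∀ P : Place ↥L ↥(lg_E ↥L (N' * q * q)), (m : ℤ) ∣ P.ord (g / g') := by
    intro P
    rw [div_eq_mul_inv, P.ord_mul hg0 (inv_ne_zero hg'0), P.ord_inv]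
    exact dvd_add (hord P) ((dvd_neg).2 (hord' P))
  -- the geometry of the chart
  obtain ⟨H, -⟩ := m59ti_pts_leg ↥L (A.comap (algebraMap ↥L Qb)) N' q hq2 hqN' hπq ζ hζ T3
  haveI := ssm_go_isScalarTower (A.comap (algebraMap ↥L Qb)) (lg_E ↥L (N' * q * q))
  haveI : FiniteDimensional (↥L)⟮(lg_lamE (N' * q * q) : lg_E ↥L (N' * q * q))⟯
      ↥(lg_E ↥L (N' * q * q)) := lgf_finite ↥L (N' * q * q)
  haveI := s36cp_chart_isFractionRing (A.comap (algebraMap ↥L Qb)) (L := ↥L) (N' * q * q)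
  have hx : Transcendental ↥L (lg_lamE (L := ↥L) (N' * q * q)) :=
    lgf_lam_transcendental ↥L (N' * q * q) two_ne_zero
  have hxA : Transcendental ↥(A.comap (algebraMap ↥L Qb)) (lg_lamE (L := ↥L) (N' * q * q)) :=
    fc_ff_transcendental (L := ↥L) hx
  haveI : IsIntegrallyClosed (Algebra.adjoin ↥(A.comap (algebraMap ↥L Qb))
      ({lg_lamE (N' * q * q)} : Set ↥(lg_E ↥L (N' * q * q)))) := fc_ff_isIntegrallyClosed hxA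
  haveI : FaithfulSMul (Algebra.adjoin ↥(A.comap (algebraMap ↥L Qb))
      ({lg_lamE (N' * q * q)} : Set ↥(lg_E ↥L (N' * q * q)))) ↥(lg_E ↥L (N' * q * q)) :=
    (faithfulSMul_iff_algebraMap_injective _ _).2 Subtype.val_injective
  have hC : ssm_tp_Chart (algebraMap ↥(A.comap (algebraMap ↥L Qb)) (Algebra.adjoin
      ↥(A.comap (algebraMap ↥L Qb)) ({lg_lamE (N' * q * q)} : Set ↥(lg_E ↥L (N' * q * q))))
      ((q : ℕ) : ↥(A.comap (algebraMap ↥L Qb))))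
      (fc_chart ↥(A.comap (algebraMap ↥L Qb))
        ({lg_lamE (N' * q * q)} : Set ↥(lg_E ↥L (N' * q * q)))) :=
    ssm_tp_ff_chart (L := ↥L) hπq hx
  have hLO : ∀ a : ↥(A.comap (algebraMap ↥L Qb)),
      algebraMap ↥L ↥(lg_E ↥L (N' * q * q)) ((a : ↥(A.comap (algebraMap ↥L Qb))) : ↥L) =
      algebraMap ↥(A.comap (algebraMap ↥L Qb)) ↥(lg_E ↥L (N' * q * q)) a := fun a =>
    (IsScalarTower.algebraMap_apply ↥(A.comap (algebraMap ↥L Qb)) ↥L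
      ↥(lg_E ↥L (N' * q * q)) a).symm
  have hcstA : ∀ a : ↥(A.comap (algebraMap ↥L Qb)),
      algebraMap ↥(A.comap (algebraMap ↥L Qb)) ↥(lg_E ↥L (N' * q * q)) a ∈
        s36i_VA (A.comap (algebraMap ↥L Qb)) hπq (N' * q) q := fun a =>
    H.chart_le hC (0 : Fin 3) ((fc_chart ↥(A.comap (algebraMap ↥L Qb))
      ({lg_lamE (N' * q * q)} : Set ↥(lg_E ↥L (N' * q * q)))).algebraMap_mem a)
  have hcstB : ∀ a : ↥(A.comap (algebraMap ↥L Qb)),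
      algebraMap ↥(A.comap (algebraMap ↥L Qb)) ↥(lg_E ↥L (N' * q * q)) a ∈
        s36i_VB (A.comap (algebraMap ↥L Qb)) hπq N' q hq2 hqN' := fun a =>
    H.chart_le hC (1 : Fin 3) ((fc_chart ↥(A.comap (algebraMap ↥L Qb))
      ({lg_lamE (N' * q * q)} : Set ↥(lg_E ↥L (N' * q * q)))).algebraMap_mem a)
  have hcstC : ∀ a : ↥(A.comap (algebraMap ↥L Qb)),
      algebraMap ↥(A.comap (algebraMap ↥L Qb)) ↥(lg_E ↥L (N' * q * q)) a ∈ VC := fun a =>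
    H.chart_le hC (2 : Fin 3) ((fc_chart ↥(A.comap (algebraMap ↥L Qb))
      ({lg_lamE (N' * q * q)} : Set ↥(lg_E ↥L (N' * q * q)))).algebraMap_mem a)
  -- unit constants are units of the valuation rings
  have key : ∀ (V : ValuationSubring ↥(lg_E ↥L (N' * q * q))),
      (∀ a : ↥(A.comap (algebraMap ↥L Qb)),
        algebraMap ↥(A.comap (algebraMap ↥L Qb)) ↥(lg_E ↥L (N' * q * q)) a ∈ V) →
      ∀ k : ↥(A.comap (algebraMap ↥L Qb)), IsUnit k →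
      algebraMap ↥L ↥(lg_E ↥L (N' * q * q)) ((k : ↥(A.comap (algebraMap ↥L Qb))) : ↥L) ∈ V ∧
      algebraMap ↥L ↥(lg_E ↥L (N' * q * q)) ((k : ↥(A.comap (algebraMap ↥L Qb))) : ↥L) ∉
        V.nonunits := by
    intro V hV k hk
    rw [hLO]
    refine ⟨hV k, fun hn => ?_⟩
    obtain ⟨k', hkk'⟩ := hk.exists_left_inv
    have hmul : algebraMap ↥(A.comap (algebraMap ↥L Qb)) ↥(lg_E ↥L (N' * q * q)) k' *
        algebraMap ↥(A.comap (algebraMap ↥L Qb)) ↥(lg_E ↥L (N' * q * q)) k = 1 := by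
      rw [← map_mul, hkk', map_one]
    have h2 := m59ta_mul_mem V (hV k') hn
    rw [hmul, ValuationSubring.mem_nonunits_iff, map_one] at h2
    exact lt_irrefl _ h2
  have hcoe : ∀ (a b : ↥(A.comap (algebraMap ↥L Qb))) (ha : IsUnit a) (hb : IsUnit b),
      algebraMap ↥L ↥(lg_E ↥L (N' * q * q))
        ((((ha.unit * hb.unit⁻¹ : (↥(A.comap (algebraMap ↥L Qb)))ˣ) :
          ↥(A.comap (algebraMap ↥L Qb)))) : ↥L) =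
        algebraMap ↥L ↥(lg_E ↥L (N' * q * q)) ((a : ↥(A.comap (algebraMap ↥L Qb))) : ↥L) /
          algebraMap ↥L ↥(lg_E ↥L (N' * q * q)) ((b : ↥(A.comap (algebraMap ↥L Qb))) : ↥L) := by
    intro a b ha hb
    have hb0 : algebraMap ↥L ↥(lg_E ↥L (N' * q * q))
        ((b : ↥(A.comap (algebraMap ↥L Qb))) : ↥L) ≠ 0 := by
      rw [Ne, map_eq_zero_iff _ (algebraMap ↥L ↥(lg_E ↥L (N' * q * q))).injective]
      intro h0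
      exact hb.ne_zero (Subtype.ext h0)
    rw [eq_div_iff hb0, ← map_mul]
    congr 1
    have : ((ha.unit * hb.unit⁻¹ : (↥(A.comap (algebraMap ↥L Qb)))ˣ) :
        ↥(A.comap (algebraMap ↥L Qb))) * b = a := by
      rw [Units.val_mul, mul_assoc]
      have : ((hb.unit⁻¹ : (↥(A.comap (algebraMap ↥L Qb)))ˣ) :
          ↥(A.comap (algebraMap ↥L Qb))) * b = 1 := hb.val_inv_mul
      rw [this, mul_one, ha.unit_spec]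
    exact_mod_cast congrArg (fun z : ↥(A.comap (algebraMap ↥L Qb)) => (z : ↥L)) this
  set KA : (↥(A.comap (algebraMap ↥L Qb)))ˣ := hkA.unit * hkA'.unit⁻¹ with hKA
  set KB : (↥(A.comap (algebraMap ↥L Qb)))ˣ := hkB.unit * hkB'.unit⁻¹ with hKB
  set KC : (↥(A.comap (algebraMap ↥L Qb)))ˣ := hkC.unit * hkC'.unit⁻¹ with hKC
  have hfA : g / g' - algebraMap ↥L ↥(lg_E ↥L (N' * q * q))
      ((KA : ↥(A.comap (algebraMap ↥L Qb))) : ↥L) ∈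
      (s36i_VA (A.comap (algebraMap ↥L Qb)) hπq (N' * q) q).nonunits := by
    rw [hKA, hcoe kA kA' hkA hkA']
    exact m59tj_congr_div _ hgA hgA' (key _ hcstA kA hkA).1 (key _ hcstA kA' hkA').1
      (key _ hcstA kA' hkA').2
  have hfB : g / g' - algebraMap ↥L ↥(lg_E ↥L (N' * q * q))
      ((KB : ↥(A.comap (algebraMap ↥L Qb))) : ↥L) ∈
      (s36i_VB (A.comap (algebraMap ↥L Qb)) hπq N' q hq2 hqN').nonunits := by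
    rw [hKB, hcoe kB kB' hkB hkB']
    exact m59tj_congr_div _ hgB hgB' (key _ hcstB kB hkB).1 (key _ hcstB kB' hkB').1
      (key _ hcstB kB' hkB').2
  have hfC : g / g' - algebraMap ↥L ↥(lg_E ↥L (N' * q * q))
      ((KC : ↥(A.comap (algebraMap ↥L Qb))) : ↥L) ∈ VC.nonunits := by
    rw [hKC, hcoe kC kC' hkC hkC']
    exact m59tj_congr_div _ hgC hgC' (key _ hcstC kC hkC).1 (key _ hcstC kC' hkC').1
      (key _ hcstC kC' hkC').2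
  -- the ratios of the quotient
  have hratq : ∀ (𝔫 : Ideal ↥(m59t2_B2 A N' q L)) (h𝔫 : 𝔫.IsMaximal),
      m59t2_PA A N' L hπq ≤ 𝔫 → m59t2_PB A N' hq2 hqN' L hπq ≤ 𝔫 → m59t2_PC A N' L VC ≤ 𝔫 →
      m59t2_RatioCB A N' hq2 hqN' L hπq VC m 𝔫 h𝔫.isPrime (g / g') (ε1 * ε1'⁻¹) ∧
        m59t2_RatioAC A N' L hπq VC m 𝔫 h𝔫.isPrime (g / g') (ε2 * ε2'⁻¹) := by
    intro 𝔫 h𝔫 hPA hPB hPC
    haveI h𝔫p : 𝔫.IsPrime := h𝔫.isPrime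
    haveI hPAp : (m59t2_PA A N' L hπq).IsPrime := H.P_isPrime hC (0 : Fin 3)
    haveI hPBp : (m59t2_PB A N' hq2 hqN' L hπq).IsPrime := H.P_isPrime hC (1 : Fin 3)
    haveI hPCp : (m59t2_PC A N' L VC).IsPrime := H.P_isPrime hC (2 : Fin 3)
    haveI := s35l_map_isPrime (F0 := ↥(lg_E ↥L (N' * q * q))) 𝔫 _ hPA
    haveI := s35l_map_isPrime (F0 := ↥(lg_E ↥L (N' * q * q))) 𝔫 _ hPB
    haveI := s35l_map_isPrime (F0 := ↥(lg_E ↥L (N' * q * q))) 𝔫 _ hPC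
    obtain ⟨r1, r2⟩ := hrat 𝔫 h𝔫 hPA hPB hPC
    obtain ⟨r1', r2'⟩ := hrat' 𝔫 h𝔫 hPA hPB hPC
    have e : ∀ (κ ε ε' : (↥(A.comap (algebraMap ↥L Qb)))ˣ),
        m59tl_cst (F0 := ↥(lg_E ↥L (N' * q * q))) 𝔫 (κ * ε) *
        (m59tl_cst (F0 := ↥(lg_E ↥L (N' * q * q))) 𝔫 (κ * ε'))⁻¹ =
        m59tl_cst (F0 := ↥(lg_E ↥L (N' * q * q))) 𝔫 (ε * ε'⁻¹) := by
      intro κ ε ε'
      rw [← map_inv, ← map_mul]
      congr 1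
      rw [← div_eq_mul_inv, ← div_eq_mul_inv, mul_div_mul_left_eq_div]
    have s1 := m59tl_ratio_div _ _ _ r1 r1'
    have s2 := m59tl_ratio_div _ _ _ r2 r2'
    rw [e] at s1 s2
    exact ⟨s1, s2⟩
  -- `hK` from one triple point
  obtain ⟨𝔫₀, h𝔫₀, hPA₀, hPB₀, hPC₀⟩ := hex
  obtain ⟨hKCB, hKAC⟩ := m59t2_hK A N' hq2 hqN' L hπq ζ hζ T3 m KA KB KC (ε1 * ε1'⁻¹)
    (ε2 * ε2'⁻¹) hfA hfB hfC 𝔫₀ h𝔫₀ hPA₀ hPB₀ hPC₀ (hratq 𝔫₀ h𝔫₀ hPA₀ hPB₀ hPC₀).1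
    (hratq 𝔫₀ h𝔫₀ hPA₀ hPB₀ hPC₀).2
  obtain ⟨c, w, hw0, hcw⟩ := m59t2_glue A N' hq2 hqN' L hπq ζ hζ T3 m hqm hf0 KA KB KC
    (ε1 * ε1'⁻¹) (ε2 * ε2'⁻¹) hKCB hKAC hfA hfB hfC hordf hratq
  refine ⟨c, w, ?_, ?_⟩
  · rintro rfl
    rw [map_zero, zero_mul] at hcw
    exact hf0 hcw
  · rw [← hcw, div_mul_cancel₀ _ hg'0]

include hζ in
set_option synthInstance.maxHeartbeats 400000 in
set_option maxHeartbeats 3200000 in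
/-- **(inj2), core**: a pair of toric data determines the class, level `N' q q`, for ANY chart maps
`aB`, `bB`, given ONE third valuation `VC`, the totality of the two labellings at its triple points
(`hlabA`, `hlabB`) and one triple point (`hex`). -/
theorem m59tj2_inj2_core {p : ℕ} (hp : p.Prime) (hp2 : p ≠ 2) (hqp : q ≠ p) (hN2 : 2 ∣ N')
    (aB bB : ↥(m59t1_B1 A N' q L) →+* ↥(m59t2_B2 A N' q L))
    (ζp : (↥(A.comap (algebraMap ↥L Qb)))ˣ) (Q0 : s44e_Sg A N' q hq.out hqN')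
    {VC : ValuationSubring ↥(lg_E ↥L (N' * q * q))}
    (T3 : s36asm_Third (A.comap (algebraMap ↥L Qb)) hπq N' q hq2 hqN' VC)
    (hlabA : ∀ (𝔫 : Ideal ↥(m59t2_B2 A N' q L)), 𝔫.IsMaximal →
      m59t2_PA A N' L hπq ≤ 𝔫 → m59t2_PB A N' hq2 hqN' L hπq ≤ 𝔫 → m59t2_PC A N' L VC ≤ 𝔫 →
      ∃ Q : s44e_Sg A N' q hq.out hqN', m59t1_Lab A hA N' hq2 hqN' L hπq (𝔫.comap aB) Q.1)
    (hlabB : ∀ (𝔫 : Ideal ↥(m59t2_B2 A N' q L)), 𝔫.IsMaximal →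
      m59t2_PA A N' L hπq ≤ 𝔫 → m59t2_PB A N' hq2 hqN' L hπq ≤ 𝔫 → m59t2_PC A N' L VC ≤ 𝔫 →
      ∃ Q : s44e_Sg A N' q hq.out hqN', m59t1_Lab A hA N' hq2 hqN' L hπq (𝔫.comap bB) Q.1)
    (hex : ∃ 𝔫 : Ideal ↥(m59t2_B2 A N' q L), 𝔫.IsMaximal ∧
      m59t2_PA A N' L hπq ≤ 𝔫 ∧ m59t2_PB A N' hq2 hqN' L hπq ≤ 𝔫 ∧ m59t2_PC A N' L VC ≤ 𝔫)
    {z z' : JZero (N' * q * q)} {ab : m59t1_B A N' hqN' p Q0 × m59t1_B A N' hqN' p Q0}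
    (h : m59t2_T2 A hA N' hq2 hqN' L hπq aB bB p ζp Q0 z ab)
    (h' : m59t2_T2 A hA N' hq2 hqN' L hπq aB bB p ζp Q0 z' ab) : z = z' := by
  classical
  obtain ⟨f, g1, c₀, r₀, k, R, g', hNF, ε1, ε2, hall⟩ := h
  obtain ⟨f', g1', c₀', r₀', k', R', g'', hNF', ε1', ε2', hall'⟩ := h'
  have hqm : ¬ q ∣ p := fun hd => hqp ((Nat.prime_dvd_prime_iff_eq hq.out hp).1 hd)
  -- the common parts of the data
  let κ1 : Ideal ↥(m59t2_B2 A N' q L) → (↥(A.comap (algebraMap ↥L Qb)))ˣ := fun 𝔫 =>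
    if h : 𝔫.IsMaximal ∧ m59t2_PA A N' L hπq ≤ 𝔫 ∧ m59t2_PB A N' hq2 hqN' L hπq ≤ 𝔫 ∧
        m59t2_PC A N' L VC ≤ 𝔫 then
      ζp ^ (m59t1_ext A N' hqN' ab.1 (hlabA 𝔫 h.1 h.2.1 h.2.2.1 h.2.2.2).choose).val
    else 1
  let κ2 : Ideal ↥(m59t2_B2 A N' q L) → (↥(A.comap (algebraMap ↥L Qb)))ˣ := fun 𝔫 =>
    if h : 𝔫.IsMaximal ∧ m59t2_PA A N' L hπq ≤ 𝔫 ∧ m59t2_PB A N' hq2 hqN' L hπq ≤ 𝔫 ∧
        m59t2_PC A N' L VC ≤ 𝔫 then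
      ζp ^ (m59t1_ext A N' hqN' ab.2 (hlabB 𝔫 h.1 h.2.1 h.2.2.1 h.2.2.2).choose).val
    else 1
  have hκ1 : ∀ (𝔫 : Ideal ↥(m59t2_B2 A N' q L)) (h𝔫 : 𝔫.IsMaximal)
      (hPA : m59t2_PA A N' L hπq ≤ 𝔫) (hPB : m59t2_PB A N' hq2 hqN' L hπq ≤ 𝔫)
      (hPC : m59t2_PC A N' L VC ≤ 𝔫),
      κ1 𝔫 = ζp ^ (m59t1_ext A N' hqN' ab.1 (hlabA 𝔫 h𝔫 hPA hPB hPC).choose).val := by
    intro 𝔫 h𝔫 hPA hPB hPC
    exact dif_pos ⟨h𝔫, hPA, hPB, hPC⟩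
  have hκ2 : ∀ (𝔫 : Ideal ↥(m59t2_B2 A N' q L)) (h𝔫 : 𝔫.IsMaximal)
      (hPA : m59t2_PA A N' L hπq ≤ 𝔫) (hPB : m59t2_PB A N' hq2 hqN' L hπq ≤ 𝔫)
      (hPC : m59t2_PC A N' L VC ≤ 𝔫),
      κ2 𝔫 = ζp ^ (m59t1_ext A N' hqN' ab.2 (hlabB 𝔫 h𝔫 hPA hPB hPC).choose).val := by
    intro 𝔫 h𝔫 hPA hPB hPC
    exact dif_pos ⟨h𝔫, hPA, hPB, hPC⟩
  have hr1 : ∀ (𝔫 : Ideal ↥(m59t2_B2 A N' q L)) (h𝔫 : 𝔫.IsMaximal),
      m59t2_PA A N' L hπq ≤ 𝔫 → m59t2_PB A N' hq2 hqN' L hπq ≤ 𝔫 → m59t2_PC A N' L VC ≤ 𝔫 →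
      m59t2_RatioCB A N' hq2 hqN' L hπq VC p 𝔫 h𝔫.isPrime g' (κ1 𝔫 * ε1) ∧
        m59t2_RatioAC A N' L hπq VC p 𝔫 h𝔫.isPrime g' (κ2 𝔫 * ε2) := by
    intro 𝔫 h𝔫 hPA hPB hPC
    rw [hκ1 𝔫 h𝔫 hPA hPB hPC, hκ2 𝔫 h𝔫 hPA hPB hPC]
    exact ⟨(hall VC T3 𝔫 h𝔫 hPA hPB hPC _).1 (hlabA 𝔫 h𝔫 hPA hPB hPC).choose_spec,
      (hall VC T3 𝔫 h𝔫 hPA hPB hPC _).2 (hlabB 𝔫 h𝔫 hPA hPB hPC).choose_spec⟩
  have hr2 : ∀ (𝔫 : Ideal ↥(m59t2_B2 A N' q L)) (h𝔫 : 𝔫.IsMaximal),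
      m59t2_PA A N' L hπq ≤ 𝔫 → m59t2_PB A N' hq2 hqN' L hπq ≤ 𝔫 → m59t2_PC A N' L VC ≤ 𝔫 →
      m59t2_RatioCB A N' hq2 hqN' L hπq VC p 𝔫 h𝔫.isPrime g'' (κ1 𝔫 * ε1') ∧
        m59t2_RatioAC A N' L hπq VC p 𝔫 h𝔫.isPrime g'' (κ2 𝔫 * ε2') := by
    intro 𝔫 h𝔫 hPA hPB hPC
    rw [hκ1 𝔫 h𝔫 hPA hPB hPC, hκ2 𝔫 h𝔫 hPA hPB hPC]
    exact ⟨(hall' VC T3 𝔫 h𝔫 hPA hPB hPC _).1 (hlabA 𝔫 h𝔫 hPA hPB hPC).choose_spec,
      (hall' VC T3 𝔫 h𝔫 hPA hPB hPC _).2 (hlabB 𝔫 h𝔫 hPA hPB hPC).choose_spec⟩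
  obtain ⟨c, w, hc, hgg⟩ := m59tj2_quot_pow A N' hq2 hqN' L hπq ζ hζ T3 hqm
    hNF.2.2.2.2.2.2.2.1 hNF'.2.2.2.2.2.2.2.1 hNF.2.2.2.2.2.2.2.2.2.1 hNF'.2.2.2.2.2.2.2.2.2.1
    hNF.2.2.2.2.2.2.2.2.2.2 hNF'.2.2.2.2.2.2.2.2.2.2 κ1 κ2 ε1 ε1' ε2 ε2' hr1 hr2 hex
  exact m59t2_inj_tail A N' hq2 hqN' L hπq hp hp2 hN2 hNF hNF' hc hgg

end Head

end Fermat.Agent.M59
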