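/-
M59 / Sink B, leaf 4 [TOR-SURJ], cell (inj2), CLOSED FORMS (helper6).  Prefix `m59tj2_`.

* `m59tj2_inj2_of_loc`   : (inj2) for `m59t2_T2 … aB bB` from [PULL-LOC] (`m59tpa_PullLoc_stmt`: the two
  images of a triple point are crossing points), [DICT1] (`m59ls_dict1`, closed) and ONE triple point
  of ONE third valuation;
* `m59tj2_inj2_of_restr` : the same from the ten hypotheses (R3) of [PULL-RESTR] on the chart maps
  (LITERALLY those of helper29's `m59tpa_pull_of_restr`);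
* **`m59tj2_inj2_star`** : the clause `inj2` of `m59tf_Cells2` over the big level
  `S : m59ls_Star N' q p A hq2 hqN'`, in the binder form of helper29's `m59tpa_pull_star`
  (+ `hex`: one triple point).
-/
import Mathlib
import Fermat.Agent.M59.SinkB.Tor.Inj2Head
import Fermat.Agent.M59.SinkB.Tor.PullStar

set_option autoImplicit false
set_option linter.unusedSectionVars false
set_option linter.unusedVariables false
set_option linter.style.haveILetI false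
set_option synthInstance.maxHeartbeats 400000
set_option maxHeartbeats 1000000

noncomputable section

namespace Fermat.Agent.M59

open Polynomial ModularCurve AlgebraicCurve IntermediateField IsLocalRing
open Fermat.Agent.JT3 Fermat.Agent.SS Fermat.Agent.S35 Fermat.Agent.S24 Fermat.Agent.S44
  Fermat.Agent.S36 Fermat.Agent.SS2

local notation "Qb" => AlgebraicClosure ℚ

section All

variable (A : ValuationSubring Qb) {q : ℕ} [hq : Fact q.Prime] (hA : A.LiesOverPrime q)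
  (N' : ℕ) [NeZero N'] [NeZero q] [NeZero (N' * q)] [NeZero (N' * q * q)]
  (hq2 : ¬ 2 ∣ q) (hqN' : ¬ q ∣ N')
  (L : IntermediateField ℚ Qb) [NumberField ↥L]
  [IsDiscreteValuationRing ↥(A.comap (algebraMap ↥L Qb))]
  [CharP (ResidueField ↥(A.comap (algebraMap ↥L Qb))) q]
  (hπq : Irreducible ((q : ℕ) : ↥(A.comap (algebraMap ↥L Qb))))
  (ζN : ↥L) (hζN : IsPrimitiveRoot ζN N')
  (aE bE : ↥(lg_E ↥L (N' * q)) →+* ↥(lg_E ↥L (N' * q * q)))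
  (aB bB : ↥(m59t1_B1 A N' q L) →+* ↥(m59t2_B2 A N' q L))

include hζN in
/-- **(inj2) from [PULL-LOC]** and one triple point. -/
theorem m59tj2_inj2_of_loc {p : ℕ} (hp : p.Prime) (hp2 : p ≠ 2) (hqp : q ≠ p) (hN2 : 2 ∣ N')
    (hloc : m59tpa_PullLoc_stmt A N' hq2 hqN' L hπq aE bE aB bB)
    (ζp : (↥(A.comap (algebraMap ↥L Qb)))ˣ) (Q0 : s44e_Sg A N' q hq.out hqN')
    (hex : ∃ VC : ValuationSubring ↥(lg_E ↥L (N' * q * q)),
      s36asm_Third (A.comap (algebraMap ↥L Qb)) hπq N' q hq2 hqN' VC ∧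
      ∃ 𝔫 : Ideal ↥(m59t2_B2 A N' q L), 𝔫.IsMaximal ∧
        m59t2_PA A N' L hπq ≤ 𝔫 ∧ m59t2_PB A N' hq2 hqN' L hπq ≤ 𝔫 ∧ m59t2_PC A N' L VC ≤ 𝔫)
    {z z' : JZero (N' * q * q)} {ab : m59t1_B A N' hqN' p Q0 × m59t1_B A N' hqN' p Q0}
    (h : m59t2_T2 A hA N' hq2 hqN' L hπq aB bB p ζp Q0 z ab)
    (h' : m59t2_T2 A hA N' hq2 hqN' L hπq aB bB p ζp Q0 z' ab) : z = z' := by
  obtain ⟨VC, T3, hex'⟩ := hex
  refine m59tj2_inj2_core A hA N' hq2 hqN' L hπq ζN hζN hp hp2 hqp hN2 aB bB ζp Q0 T3 ?_ ?_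
    hex' h h'
  · intro 𝔫 h𝔫 hPA hPB hPC
    obtain ⟨ha, hb, h1a, h2a, h1b, h2b, -⟩ := hloc VC T3 𝔫 h𝔫 hPA hPB hPC
    exact m59ls_dict1 A hA N' hq2 hqN' L hπq ζN hζN _ ha h1a h2a
  · intro 𝔫 h𝔫 hPA hPB hPC
    obtain ⟨ha, hb, h1a, h2a, h1b, h2b, -⟩ := hloc VC T3 𝔫 h𝔫 hPA hPB hPC
    exact m59ls_dict1 A hA N' hq2 hqN' L hπq ζN hζN _ hb h1b h2b

include hζN in
/-- **(inj2) from the ten hypotheses (R3) of [PULL-RESTR]** and one triple point. -/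
theorem m59tj2_inj2_of_restr {p : ℕ} (hp : p.Prime) (hp2 : p ≠ 2) (hqp : q ≠ p) (hN2 : 2 ∣ N')
    (haB : ∀ b : ↥(m59t1_B1 A N' q L),
      ((aB b : ↥(m59t2_B2 A N' q L)) : ↥(lg_E ↥L (N' * q * q))) = aE (b : ↥(lg_E ↥L (N' * q))))
    (hbB : ∀ b : ↥(m59t1_B1 A N' q L),
      ((bB b : ↥(m59t2_B2 A N' q L)) : ↥(lg_E ↥L (N' * q * q))) = bE (b : ↥(lg_E ↥L (N' * q))))
    (haE0 : ∀ c : ↥(A.comap (algebraMap ↥L Qb)),
      aE (algebraMap ↥(A.comap (algebraMap ↥L Qb)) ↥(lg_E ↥L (N' * q)) c) =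
        algebraMap ↥(A.comap (algebraMap ↥L Qb)) ↥(lg_E ↥L (N' * q * q)) c)
    (hbE0 : ∀ c : ↥(A.comap (algebraMap ↥L Qb)),
      bE (algebraMap ↥(A.comap (algebraMap ↥L Qb)) ↥(lg_E ↥L (N' * q)) c) =
        algebraMap ↥(A.comap (algebraMap ↥L Qb)) ↥(lg_E ↥L (N' * q * q)) c)
    (hAa : (m59t2_PA A N' L hπq).comap aB = m59t1_P1 A N' L hπq)
    (hBa : (m59t2_PB A N' hq2 hqN' L hπq).comap aB = m59t1_P2 A N' hq2 hqN' L hπq)
    (hCa : ∀ VC : ValuationSubring ↥(lg_E ↥L (N' * q * q)),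
      s36asm_Third (A.comap (algebraMap ↥L Qb)) hπq N' q hq2 hqN' VC →
      (m59t2_PC A N' L VC).comap aB = m59t1_P1 A N' L hπq)
    (hAb : (m59t2_PA A N' L hπq).comap bB = m59t1_P1 A N' L hπq)
    (hBb : (m59t2_PB A N' hq2 hqN' L hπq).comap bB = m59t1_P2 A N' hq2 hqN' L hπq)
    (hCb : ∀ VC : ValuationSubring ↥(lg_E ↥L (N' * q * q)),
      s36asm_Third (A.comap (algebraMap ↥L Qb)) hπq N' q hq2 hqN' VC →
      (m59t2_PC A N' L VC).comap bB = m59t1_P2 A N' hq2 hqN' L hπq)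
    (ζp : (↥(A.comap (algebraMap ↥L Qb)))ˣ) (Q0 : s44e_Sg A N' q hq.out hqN')
    (hex : ∃ VC : ValuationSubring ↥(lg_E ↥L (N' * q * q)),
      s36asm_Third (A.comap (algebraMap ↥L Qb)) hπq N' q hq2 hqN' VC ∧
      ∃ 𝔫 : Ideal ↥(m59t2_B2 A N' q L), 𝔫.IsMaximal ∧
        m59t2_PA A N' L hπq ≤ 𝔫 ∧ m59t2_PB A N' hq2 hqN' L hπq ≤ 𝔫 ∧ m59t2_PC A N' L VC ≤ 𝔫)
    {z z' : JZero (N' * q * q)} {ab : m59t1_B A N' hqN' p Q0 × m59t1_B A N' hqN' p Q0}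
    (h : m59t2_T2 A hA N' hq2 hqN' L hπq aB bB p ζp Q0 z ab)
    (h' : m59t2_T2 A hA N' hq2 hqN' L hπq aB bB p ζp Q0 z' ab) : z = z' :=
  m59tj2_inj2_of_loc A hA N' hq2 hqN' L hπq ζN hζN aE bE aB bB hp hp2 hqp hN2
    (m59tpa_pullLoc_of A N' hq2 hqN' L hπq ζN hζN aE bE aB bB haB hbB haE0 hbE0 hAa hBa hCa
      hAb hBb hCb) ζp Q0 hex h h'

end All

section Star

variable (A : ValuationSubring Qb) {q : ℕ} [hq : Fact q.Prime] (hA : A.LiesOverPrime q)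
  (N' : ℕ) [NeZero N'] [NeZero q] [NeZero (N' * q)] [NeZero (N' * q * q)] (hq2 : ¬ 2 ∣ q)
  (hqN' : ¬ q ∣ N') {p : ℕ} [hp : Fact p.Prime]

include hA in
/-- **the clause `inj2` of `m59tf_Cells2` over the big level**, from (R3) and one triple point
(binder form of helper29's `m59tpa_pull_star`). -/
theorem m59tj2_inj2_star (hp2 : p ≠ 2) (hqp : q ≠ p) (hN2 : 2 ∣ N')
    (S : m59ls_Star N' q p A hq2 hqN') :
    haveI := (m59tx_star_inst A N' hq2 hqN' S).1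
    haveI := S.lev.dvr
    haveI := m59tx_star_charP A hA N' hq2 hqN' S
    ∀ (aE bE : ↥(lg_E ↥S.L1 (N' * q)) →+* ↥(lg_E ↥S.L1 (N' * q * q)))
      (aB bB : ↥(m59t1_B1 A N' q S.L1) →+* ↥(m59t2_B2 A N' q S.L1))
      (haB : ∀ b : ↥(m59t1_B1 A N' q S.L1),
        ((aB b : ↥(m59t2_B2 A N' q S.L1)) : ↥(lg_E ↥S.L1 (N' * q * q))) =
          aE (b : ↥(lg_E ↥S.L1 (N' * q))))
      (hbB : ∀ b : ↥(m59t1_B1 A N' q S.L1),
        ((bB b : ↥(m59t2_B2 A N' q S.L1)) : ↥(lg_E ↥S.L1 (N' * q * q))) =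
          bE (b : ↥(lg_E ↥S.L1 (N' * q))))
      (haE0 : ∀ c : ↥(A.comap (algebraMap ↥S.L1 Qb)),
        aE (algebraMap ↥(A.comap (algebraMap ↥S.L1 Qb)) ↥(lg_E ↥S.L1 (N' * q)) c) =
          algebraMap ↥(A.comap (algebraMap ↥S.L1 Qb)) ↥(lg_E ↥S.L1 (N' * q * q)) c)
      (hbE0 : ∀ c : ↥(A.comap (algebraMap ↥S.L1 Qb)),
        bE (algebraMap ↥(A.comap (algebraMap ↥S.L1 Qb)) ↥(lg_E ↥S.L1 (N' * q)) c) =
          algebraMap ↥(A.comap (algebraMap ↥S.L1 Qb)) ↥(lg_E ↥S.L1 (N' * q * q)) c)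
      (hAa : (m59t2_PA A N' S.L1 S.lev.irr).comap aB = m59t1_P1 A N' S.L1 S.lev.irr)
      (hBa : (m59t2_PB A N' hq2 hqN' S.L1 S.lev.irr).comap aB =
        m59t1_P2 A N' hq2 hqN' S.L1 S.lev.irr)
      (hCa : ∀ VC : ValuationSubring ↥(lg_E ↥S.L1 (N' * q * q)),
        s36asm_Third (A.comap (algebraMap ↥S.L1 Qb)) S.lev.irr N' q hq2 hqN' VC →
        (m59t2_PC A N' S.L1 VC).comap aB = m59t1_P1 A N' S.L1 S.lev.irr)
      (hAb : (m59t2_PA A N' S.L1 S.lev.irr).comap bB = m59t1_P1 A N' S.L1 S.lev.irr)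
      (hBb : (m59t2_PB A N' hq2 hqN' S.L1 S.lev.irr).comap bB =
        m59t1_P2 A N' hq2 hqN' S.L1 S.lev.irr)
      (hCb : ∀ VC : ValuationSubring ↥(lg_E ↥S.L1 (N' * q * q)),
        s36asm_Third (A.comap (algebraMap ↥S.L1 Qb)) S.lev.irr N' q hq2 hqN' VC →
        (m59t2_PC A N' S.L1 VC).comap bB = m59t1_P2 A N' hq2 hqN' S.L1 S.lev.irr)
      (hex : ∃ VC : ValuationSubring ↥(lg_E ↥S.L1 (N' * q * q)),
        s36asm_Third (A.comap (algebraMap ↥S.L1 Qb)) S.lev.irr N' q hq2 hqN' VC ∧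
        ∃ 𝔫 : Ideal ↥(m59t2_B2 A N' q S.L1), 𝔫.IsMaximal ∧
          m59t2_PA A N' S.L1 S.lev.irr ≤ 𝔫 ∧ m59t2_PB A N' hq2 hqN' S.L1 S.lev.irr ≤ 𝔫 ∧
          m59t2_PC A N' S.L1 VC ≤ 𝔫)
      (ζ : (↥(A.comap (algebraMap ↥S.L1 Qb)))ˣ) (Q0 : s44e_Sg A N' q hq.out hqN'),
      ∀ z ∈ m59g12u_TorL A N' q hq2 hqN' S.L1 p 1,
        ∀ z' ∈ m59g12u_TorL A N' q hq2 hqN' S.L1 p 1, ∀ c,
          m59t2_T2 A hA N' hq2 hqN' S.L1 S.lev.irr aB bB p ζ Q0 z c →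
          m59t2_T2 A hA N' hq2 hqN' S.L1 S.lev.irr aB bB p ζ Q0 z' c → z = z' := by
  haveI := (m59tx_star_inst A N' hq2 hqN' S).1
  haveI := S.lev.dvr
  haveI := m59tx_star_charP A hA N' hq2 hqN' S
  intro aE bE aB bB haB hbB haE0 hbE0 hAa hBa hCa hAb hBb hCb hex ζ Q0 z _ z' _ c h h'
  exact m59tj2_inj2_of_restr A hA N' hq2 hqN' S.L1 S.lev.irr S.zN S.hzN aE bE aB bB hp.out hp2
    hqp hN2 haB hbB haE0 hbE0 hAa hBa hCa hAb hBb hCb ζ Q0 hex h h'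

end Star

end Fermat.Agent.M59
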