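/-
M59 / Sink B, leaf 4 [TOR-SURJ], cell [PULL-RESTR] (helper28).  Prefix `m59tpr_`.

THE RESTRICTION DICTIONARY OF THE TWO DEGENERACY MAPS `α, β : X₀(N' q q) → X₀(N' q)` ON THE LEGENDRE
TOWER `E₁ = lg_E L (N' q) ⟶ E₂ = lg_E L (N' q q)`:

* `m59tpr_aE` : `E₁ →+* E₂`, the inclusion (`α^*`);  `m59tpr_bE` : `E₁ →+* E₂`, `f(X) ↦ f(X^q)` (`β^*`);
* `m59tpr_W2_aE : W₂ (aE y) = bE (W₁ y)`, `m59tpr_W2_bE : W₂ (bE y) = aE (W₁ y)`;
* (R1) `VA.comap aE = V1`, `VB.comap aE = V2`, `VC.comap aE = V1`;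
* (R2) `VA.comap bE = V1`, `VB.comap bE = V2`, `VC.comap bE = V2`
  (the components `(A, B, C)` lie over `(1, 2, 1)` under `α` and over `(1, 2, 2)` under `β`);
  nonunits forms `m59tpr_*_nonunits`;
* (R3) see `PullRestrB.lean`: the chart maps `a_B, b_B : B₁ →+* B₂` and the comaps of the vertical
  primes.
-/
import Mathlib
import Fermat.Agent.S36.Tri.PtTriLeg
import Fermat.Agent.S36.Model.Cusps2

set_option autoImplicit false
set_option linter.unusedSectionVars false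
set_option linter.unusedVariables false
set_option linter.style.haveILetI false

noncomputable section

open ModularCurve AlgebraicCurve IntermediateField IsLocalRing
open Fermat.Agent.JT3 Fermat.Agent.SS Fermat.Agent.S35 Fermat.Agent.S36

namespace Fermat.Agent.M59

section Abs

variable {F1 F2 : Type*} [Field F1] [Field F2]

/-- membership in the maximal ideal of a pulled-back valuation ring (any ring hom of fields). -/
theorem m59tpr_mem_comap_nonunits (j : F1 →+* F2) (V : ValuationSubring F2) (z : F1) :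
    z ∈ (V.comap j).nonunits ↔ j z ∈ V.nonunits := by
  rw [ValuationSubring.mem_nonunits_iff_or, ValuationSubring.mem_nonunits_iff_or,
    ValuationSubring.mem_comap, map_inv₀, map_eq_zero]

/-- nonunits form of a comap identity. -/
theorem m59tpr_nonunits_of_comap (j : F1 →+* F2) {V : ValuationSubring F2}
    {V' : ValuationSubring F1} (h : V.comap j = V') (z : F1) :
    j z ∈ V.nonunits ↔ z ∈ V'.nonunits := by
  rw [← m59tpr_mem_comap_nonunits, h]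

end Abs

section Leg

variable {L : Type*} [Field L] [CharZero L] [Algebra L (AlgebraicClosure ℚ)]
  (O : ValuationSubring L) [IsDiscreteValuationRing O] {π : O} (hπ : Irreducible π)
variable (N' q : ℕ) [NeZero N'] [NeZero q] [hq : Fact q.Prime] [CharP (ResidueField O) q]
  (hq2 : ¬ 2 ∣ q) (hqN' : ¬ q ∣ N')

variable (L) in
/-- `α^* : E₁ = lg_E L (N' q) →+* E₂ = lg_E L (N' q q)`, the inclusion. -/
def m59tpr_aE : ↥(lg_E L (N' * q)) →+* ↥(lg_E L (N' * q * q)) :=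
  (IntermediateField.inclusion (ssm_al_E_le L (N' * q) q)).toRingHom

variable (L) in
/-- `β^* : E₁ →+* E₂`, `f(X) ↦ f(X^q)`. -/
def m59tpr_bE : ↥(lg_E L (N' * q)) →+* ↥(lg_E L (N' * q * q)) :=
  (s36mc_beta L (N' * q) q hq2 : ↥(lg_E L (N' * q)) →+* ↥(lg_E L (N' * q * q)))

theorem m59tpr_coe_aE (y : ↥(lg_E L (N' * q))) :
    ((m59tpr_aE L N' q y : ↥(lg_E L (N' * q * q))) : LaurentSeries L) = (y : LaurentSeries L) :=
  ssm_gi_coe_algebraMap (ssm_al_E_le L (N' * q) q) y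

theorem m59tpr_coe_bE (y : ↥(lg_E L (N' * q))) :
    ((m59tpr_bE L N' q hq2 y : ↥(lg_E L (N' * q * q))) : LaurentSeries L) =
      qExpand L q (y : LaurentSeries L) := s36mc_coe_beta L (N' * q) q hq2 y

/-- `aE` is the `algebraMap` of main's `ssm_gi_algebra`. -/
theorem m59tpr_aE_eq_algebraMap (y : ↥(lg_E L (N' * q))) :
    letI := ssm_gi_algebra (ssm_al_E_le L (N' * q) q)
    m59tpr_aE L N' q y = algebraMap ↥(lg_E L (N' * q)) ↥(lg_E L (N' * q * q)) y := rfl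

theorem m59tpr_aE_eq_inclusion (y : ↥(lg_E L (N' * q))) :
    m59tpr_aE L N' q y = IntermediateField.inclusion (ssm_al_E_le L (N' * q) q) y := rfl

theorem m59tpr_aE_injective : Function.Injective (m59tpr_aE L N' q) :=
  (m59tpr_aE L N' q).injective

theorem m59tpr_bE_injective : Function.Injective (m59tpr_bE L N' q hq2) :=
  (m59tpr_bE L N' q hq2).injective

/-- constants. -/
theorem m59tpr_aE_algebraMap (c : L) :
    m59tpr_aE L N' q (algebraMap L ↥(lg_E L (N' * q)) c) =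
      algebraMap L ↥(lg_E L (N' * q * q)) c :=
  (IntermediateField.inclusion (ssm_al_E_le L (N' * q) q)).commutes c

theorem m59tpr_bE_algebraMap (c : L) :
    m59tpr_bE L N' q hq2 (algebraMap L ↥(lg_E L (N' * q)) c) =
      algebraMap L ↥(lg_E L (N' * q * q)) c :=
  (s36mc_beta L (N' * q) q hq2).commutes c

/-- `aE λ = λ`. -/
theorem m59tpr_aE_lam : m59tpr_aE L N' q (lg_lamE (N' * q)) = lg_lamE (N' * q * q) :=
  Subtype.ext (m59tpr_coe_aE N' q _)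

/-- `bE λ = λ(X^q)` (as an element of `E₂`) `= aE (λ(X^q))`. -/
theorem m59tpr_bE_lam :
    m59tpr_bE L N' q hq2 (lg_lamE (N' * q)) = m59tpr_aE L N' q (s36i_lam1 L N' q hq2) :=
  Subtype.ext (by rw [m59tpr_coe_bE, m59tpr_coe_aE]; rfl)

/-- **`W₂ ∘ α^* = β^* ∘ W₁`.** -/
theorem m59tpr_W2_aE (y : ↥(lg_E L (N' * q))) :
    s36i_W2 L N' q hq2 hqN' (m59tpr_aE L N' q y) =
      m59tpr_bE L N' q hq2 (ssm_gl_W L N' q hq2 hqN' y) := by
  apply Subtype.ext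
  rw [m59tpr_coe_bE]
  exact s36w_coe_WE_alpha L N' q hq.out hq2 hqN' y (ssm_al_E_le L (N' * q) q y.2)

/-- **`W₂ ∘ β^* = α^* ∘ W₁`.** -/
theorem m59tpr_W2_bE (y : ↥(lg_E L (N' * q))) :
    s36i_W2 L N' q hq2 hqN' (m59tpr_bE L N' q hq2 y) =
      m59tpr_aE L N' q (ssm_gl_W L N' q hq2 hqN' y) := by
  apply Subtype.ext
  rw [m59tpr_coe_aE]
  exact s36w_coe_WE_beta L N' q hq.out hq2 hqN' y
    (ssm_al_E_beta_le L (N' * q) q hq2 ⟨(y : LaurentSeries L), y.2, rfl⟩)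

/-- `W₁` is an involution. -/
theorem m59tpr_W1_W1 (y : ↥(lg_E L (N' * q))) :
    ssm_gl_W L N' q hq2 hqN' (ssm_gl_W L N' q hq2 hqN' y) = y :=
  ssm_al_WE_WE L N' q hq.out hq2 hqN' y

/-! ### (R1): restriction along `α^*` -/

/-- **(R1a)** `VA ∩ E₁ = V1` along `α^*`. -/
theorem m59tpr_VA_comap_aE :
    (s36i_VA O hπ (N' * q) q).comap (m59tpr_aE L N' q) = ssm_gl_V1 O hπ N' q := by
  ext y
  rw [ValuationSubring.mem_comap]
  exact s36tpl_rA O hπ N' q y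

/-- **(R1b)** `VB ∩ E₁ = V2` along `α^*`. -/
theorem m59tpr_VB_comap_aE :
    (s36i_VB O hπ N' q hq2 hqN').comap (m59tpr_aE L N' q) = ssm_gl_V2 O hπ N' q hq2 hqN' := by
  ext y
  rw [ValuationSubring.mem_comap]
  exact s36tpl_rB O hπ N' q hq2 hqN' y

/-- **(R1c)** `VC ∩ E₁ = V1` along `α^*` (the component `C` lies over the component `1`). -/
theorem m59tpr_VC_comap_aE {VC : ValuationSubring ↥(lg_E L (N' * q * q))}
    (T3 : s36asm_Third O hπ N' q hq2 hqN' VC) :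
    VC.comap (m59tpr_aE L N' q) = ssm_gl_V1 O hπ N' q := by
  obtain ⟨rC, -⟩ := s36tpl_third_facts O hπ N' q hq2 hqN' T3
  ext y
  rw [ValuationSubring.mem_comap]
  exact rC y

/-- `VC` is `W₂`-stable. -/
theorem m59tpr_VC_comap_W2 {VC : ValuationSubring ↥(lg_E L (N' * q * q))}
    (T3 : s36asm_Third O hπ N' q hq2 hqN' VC) :
    VC.comap (s36i_W2 L N' q hq2 hqN' :
      ↥(lg_E L (N' * q * q)) →+* ↥(lg_E L (N' * q * q))) = VC :=
  (s36tpl_third_facts O hπ N' q hq2 hqN' T3).2.2.2.2.2.2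

/-! ### (R2): restriction along `β^*` -/

include hqN' in
/-- **(R2a)** `VA ∩ β^* E₁ = V1`. -/
theorem m59tpr_VA_comap_bE :
    (s36i_VA O hπ (N' * q) q).comap (m59tpr_bE L N' q hq2) = ssm_gl_V1 O hπ N' q := by
  ext y
  rw [ValuationSubring.mem_comap]
  -- `bE y ∈ VA ↔ W₂ (W₂ (bE y)) ∈ VA ↔ W₂ (bE y) ∈ VB ↔ aE (W₁ y) ∈ VB ↔ W₁ y ∈ V2 ↔ y ∈ V1`
  have h1 : m59tpr_bE L N' q hq2 y ∈ s36i_VA O hπ (N' * q) q ↔
      s36i_W2 L N' q hq2 hqN' (m59tpr_bE L N' q hq2 y) ∈ s36i_VB O hπ N' q hq2 hqN' := by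
    rw [ValuationSubring.mem_comap]
    show _ ↔ s36i_W2 L N' q hq2 hqN' (s36i_W2 L N' q hq2 hqN' _) ∈ _
    rw [s36tpl_W2_W2]
  rw [h1, m59tpr_W2_bE]
  have h2 := s36tpl_rB O hπ N' q hq2 hqN' (ssm_gl_W L N' q hq2 hqN' y)
  rw [← m59tpr_aE_eq_algebraMap] at h2
  rw [h2, ValuationSubring.mem_comap]
  show ssm_gl_W L N' q hq2 hqN' (ssm_gl_W L N' q hq2 hqN' y) ∈ _ ↔ _
  rw [m59tpr_W1_W1]

/-- **(R2b)** `VB ∩ β^* E₁ = V2`. -/
theorem m59tpr_VB_comap_bE :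
    (s36i_VB O hπ N' q hq2 hqN').comap (m59tpr_bE L N' q hq2) =
      ssm_gl_V2 O hπ N' q hq2 hqN' := by
  ext y
  rw [ValuationSubring.mem_comap, ValuationSubring.mem_comap]
  show s36i_W2 L N' q hq2 hqN' (m59tpr_bE L N' q hq2 y) ∈ _ ↔ _
  rw [m59tpr_W2_bE]
  have h2 := s36tpl_rA O hπ N' q (ssm_gl_W L N' q hq2 hqN' y)
  rw [← m59tpr_aE_eq_algebraMap] at h2
  rw [h2, ValuationSubring.mem_comap]
  rfl

/-- **(R2c)** `VC ∩ β^* E₁ = V2` (the component `C` lies over the component `2` under `β`). -/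
theorem m59tpr_VC_comap_bE {VC : ValuationSubring ↥(lg_E L (N' * q * q))}
    (T3 : s36asm_Third O hπ N' q hq2 hqN' VC) :
    VC.comap (m59tpr_bE L N' q hq2) = ssm_gl_V2 O hπ N' q hq2 hqN' := by
  ext y
  rw [ValuationSubring.mem_comap]
  have hW : m59tpr_bE L N' q hq2 y ∈ VC ↔
      s36i_W2 L N' q hq2 hqN' (m59tpr_bE L N' q hq2 y) ∈ VC := by
    conv_lhs => rw [← m59tpr_VC_comap_W2 O hπ N' q hq2 hqN' T3]
    rw [ValuationSubring.mem_comap]
    rfl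
  rw [hW, m59tpr_W2_bE]
  have h2 : m59tpr_aE L N' q (ssm_gl_W L N' q hq2 hqN' y) ∈ VC ↔
      ssm_gl_W L N' q hq2 hqN' y ∈ ssm_gl_V1 O hπ N' q := by
    rw [← m59tpr_VC_comap_aE O hπ N' q hq2 hqN' T3, ValuationSubring.mem_comap]
  rw [h2, ValuationSubring.mem_comap]
  rfl

/-! ### nonunits forms -/

theorem m59tpr_VA_aE_nonunits (y : ↥(lg_E L (N' * q))) :
    m59tpr_aE L N' q y ∈ (s36i_VA O hπ (N' * q) q).nonunits ↔
      y ∈ (ssm_gl_V1 O hπ N' q).nonunits :=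
  m59tpr_nonunits_of_comap _ (m59tpr_VA_comap_aE O hπ N' q) y

theorem m59tpr_VB_aE_nonunits (y : ↥(lg_E L (N' * q))) :
    m59tpr_aE L N' q y ∈ (s36i_VB O hπ N' q hq2 hqN').nonunits ↔
      y ∈ (ssm_gl_V2 O hπ N' q hq2 hqN').nonunits :=
  m59tpr_nonunits_of_comap _ (m59tpr_VB_comap_aE O hπ N' q hq2 hqN') y

theorem m59tpr_VC_aE_nonunits {VC : ValuationSubring ↥(lg_E L (N' * q * q))}
    (T3 : s36asm_Third O hπ N' q hq2 hqN' VC) (y : ↥(lg_E L (N' * q))) :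
    m59tpr_aE L N' q y ∈ VC.nonunits ↔ y ∈ (ssm_gl_V1 O hπ N' q).nonunits :=
  m59tpr_nonunits_of_comap _ (m59tpr_VC_comap_aE O hπ N' q hq2 hqN' T3) y

include hqN' in
theorem m59tpr_VA_bE_nonunits (y : ↥(lg_E L (N' * q))) :
    m59tpr_bE L N' q hq2 y ∈ (s36i_VA O hπ (N' * q) q).nonunits ↔
      y ∈ (ssm_gl_V1 O hπ N' q).nonunits :=
  m59tpr_nonunits_of_comap _ (m59tpr_VA_comap_bE O hπ N' q hq2 hqN') y

theorem m59tpr_VB_bE_nonunits (y : ↥(lg_E L (N' * q))) :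
    m59tpr_bE L N' q hq2 y ∈ (s36i_VB O hπ N' q hq2 hqN').nonunits ↔
      y ∈ (ssm_gl_V2 O hπ N' q hq2 hqN').nonunits :=
  m59tpr_nonunits_of_comap _ (m59tpr_VB_comap_bE O hπ N' q hq2 hqN') y

theorem m59tpr_VC_bE_nonunits {VC : ValuationSubring ↥(lg_E L (N' * q * q))}
    (T3 : s36asm_Third O hπ N' q hq2 hqN' VC) (y : ↥(lg_E L (N' * q))) :
    m59tpr_bE L N' q hq2 y ∈ VC.nonunits ↔ y ∈ (ssm_gl_V2 O hπ N' q hq2 hqN').nonunits :=
  m59tpr_nonunits_of_comap _ (m59tpr_VC_comap_bE O hπ N' q hq2 hqN' T3) y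

end Leg

end Fermat.Agent.M59
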