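/-
M59 / Sink B, leaf 4 [TOR-SURJ], cell (pull), CLOSED FOR ANY CHART MAPS OVER `α^*`, `β^*` (helper29).
Prefix `m59tpa_`.

`aE := m59tpr_aE`, `bE := m59tpr_bE` the two degeneracy maps `E₁ →+* E₂` of helper28's
`Tor/PullRestr.lean`.  For ANY two ring homomorphisms `aB bB : B₁ →+* B₂` of the `λ`-charts which
restrict them (`haB : (aB b : E₂) = aE b`, `hbB : (bB b : E₂) = bE b`):

* `m59tpa_six` : the six comap identities (R3) of the vertical primes (`m59tpc_comap_P` of helper4 at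
  the six restriction facts (R1), (R2) of helper28);
* **`m59tpa_pull_closed`** : the clause (pull) of `m59tf_Cells2` over the big level `S`, with NO other
  hypothesis ([PULL-NF] = helper1's `m59tpn_pullNF_stmt`, [PULL-LOC] = `m59tpa_pullLoc_of`).
-/
import Mathlib
import Fermat.Agent.M59.SinkB.Tor.PullStar
import Fermat.Agent.M59.SinkB.Tor.PullNFStmt
import Fermat.Agent.M59.SinkB.Tor.PullRestr
import Fermat.Agent.M59.SinkB.Tor.PullChart

set_option autoImplicit false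
set_option linter.unusedSectionVars false
set_option linter.unusedVariables false
set_option linter.style.haveILetI false
set_option synthInstance.maxHeartbeats 400000
set_option maxHeartbeats 1000000

noncomputable section

namespace Fermat.Agent.M59

open Polynomial ModularCurve AlgebraicCurve IntermediateField IsLocalRing
open Fermat.Agent.JT3 Fermat.Agent.SS Fermat.Agent.S35 Fermat.Agent.S24 Fermat.Agent.S44
  Fermat.Agent.S36 Fermat.Agent.SS2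

local notation "Qb" => AlgebraicClosure ℚ

section Six

variable (A : ValuationSubring Qb) {q : ℕ} [hq : Fact q.Prime] (hA : A.LiesOverPrime q)
  (N' : ℕ) [NeZero N'] [NeZero q] [NeZero (N' * q)] [NeZero (N' * q * q)]
  (hq2 : ¬ 2 ∣ q) (hqN' : ¬ q ∣ N')
  (L : IntermediateField ℚ Qb) [NumberField ↥L]
  [IsDiscreteValuationRing ↥(A.comap (algebraMap ↥L Qb))]
  [CharP (ResidueField ↥(A.comap (algebraMap ↥L Qb))) q]
  (hπq : Irreducible ((q : ℕ) : ↥(A.comap (algebraMap ↥L Qb))))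
  (ζN : ↥L) (hζN : IsPrimitiveRoot ζN N')
  (aB bB : ↥(m59t1_B1 A N' q L) →+* ↥(m59t2_B2 A N' q L))

/-- `α^*`, `β^*` fix the constants of `O`. -/
theorem m59tpa_aE_const (c : ↥(A.comap (algebraMap ↥L Qb))) :
    m59tpr_aE ↥L N' q (algebraMap ↥(A.comap (algebraMap ↥L Qb)) ↥(lg_E ↥L (N' * q)) c) =
      algebraMap ↥(A.comap (algebraMap ↥L Qb)) ↥(lg_E ↥L (N' * q * q)) c :=
  m59tpr_aE_algebraMap N' q (c : ↥L)

theorem m59tpa_bE_const (c : ↥(A.comap (algebraMap ↥L Qb))) :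
    m59tpr_bE ↥L N' q hq2 (algebraMap ↥(A.comap (algebraMap ↥L Qb)) ↥(lg_E ↥L (N' * q)) c) =
      algebraMap ↥(A.comap (algebraMap ↥L Qb)) ↥(lg_E ↥L (N' * q * q)) c :=
  m59tpr_bE_algebraMap N' q hq2 (c : ↥L)

include hζN in
set_option maxHeartbeats 4000000 in
/-- the chart of level `N' q q` lies in the three vertical valuation rings. -/
theorem m59tpa_B2_le {VC : ValuationSubring ↥(lg_E ↥L (N' * q * q))}
    (T3 : s36asm_Third (A.comap (algebraMap ↥L Qb)) hπq N' q hq2 hqN' VC) :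
    (∀ b ∈ m59t2_B2 A N' q L, b ∈ s36i_VA (A.comap (algebraMap ↥L Qb)) hπq (N' * q) q) ∧
    (∀ b ∈ m59t2_B2 A N' q L, b ∈ s36i_VB (A.comap (algebraMap ↥L Qb)) hπq N' q hq2 hqN') ∧
    (∀ b ∈ m59t2_B2 A N' q L, b ∈ VC) := by
  obtain ⟨H, -⟩ := m59ti_pts_leg ↥L (A.comap (algebraMap ↥L Qb)) N' q hq2 hqN' hπq ζN hζN T3
  haveI := ssm_go_isScalarTower (A.comap (algebraMap ↥L Qb)) (lg_E ↥L (N' * q * q))
  haveI : FiniteDimensional (↥L)⟮(lg_lamE (N' * q * q) : lg_E ↥L (N' * q * q))⟯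
      ↥(lg_E ↥L (N' * q * q)) := lgf_finite ↥L (N' * q * q)
  have hx : Transcendental ↥L (lg_lamE (L := ↥L) (N' * q * q)) :=
    lgf_lam_transcendental ↥L (N' * q * q) two_ne_zero
  have hxA : Transcendental ↥(A.comap (algebraMap ↥L Qb)) (lg_lamE (L := ↥L) (N' * q * q)) :=
    fc_ff_transcendental (L := ↥L) hx
  haveI : IsIntegrallyClosed (Algebra.adjoin ↥(A.comap (algebraMap ↥L Qb))
      ({lg_lamE (N' * q * q)} : Set ↥(lg_E ↥L (N' * q * q)))) := fc_ff_isIntegrallyClosed hxA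
  haveI : FaithfulSMul (Algebra.adjoin ↥(A.comap (algebraMap ↥L Qb))
      ({lg_lamE (N' * q * q)} : Set ↥(lg_E ↥L (N' * q * q)))) ↥(lg_E ↥L (N' * q * q)) :=
    (faithfulSMul_iff_algebraMap_injective _ _).2 Subtype.val_injective
  have hC : ssm_tp_Chart (algebraMap ↥(A.comap (algebraMap ↥L Qb))
      (Algebra.adjoin ↥(A.comap (algebraMap ↥L Qb))
        ({lg_lamE (N' * q * q)} : Set ↥(lg_E ↥L (N' * q * q))))
      ((q : ℕ) : ↥(A.comap (algebraMap ↥L Qb))))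
      (fc_chart ↥(A.comap (algebraMap ↥L Qb))
        ({lg_lamE (N' * q * q)} : Set ↥(lg_E ↥L (N' * q * q)))) :=
    ssm_tp_ff_chart (L := ↥L) hπq hx
  exact ⟨fun _ hb => hC.le (H.ovr (0 : Fin 3)) hb, fun _ hb => hC.le (H.ovr (1 : Fin 3)) hb,
    fun _ hb => hC.le (H.ovr (2 : Fin 3)) hb⟩

include hζN in
/-- **the six comap identities (R3)** for ANY chart maps over `α^*`, `β^*` (given ONE third
valuation, to have the chart inside `VA`, `VB`). -/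
theorem m59tpa_six
    (haB : ∀ b : ↥(m59t1_B1 A N' q L),
      ((aB b : ↥(m59t2_B2 A N' q L)) : ↥(lg_E ↥L (N' * q * q))) =
        m59tpr_aE ↥L N' q (b : ↥(lg_E ↥L (N' * q))))
    (hbB : ∀ b : ↥(m59t1_B1 A N' q L),
      ((bB b : ↥(m59t2_B2 A N' q L)) : ↥(lg_E ↥L (N' * q * q))) =
        m59tpr_bE ↥L N' q hq2 (b : ↥(lg_E ↥L (N' * q))))
    (hT3 : ∃ VC : ValuationSubring ↥(lg_E ↥L (N' * q * q)),
      s36asm_Third (A.comap (algebraMap ↥L Qb)) hπq N' q hq2 hqN' VC) :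
    (m59t2_PA A N' L hπq).comap aB = m59t1_P1 A N' L hπq ∧
    (m59t2_PB A N' hq2 hqN' L hπq).comap aB = m59t1_P2 A N' hq2 hqN' L hπq ∧
    (∀ VC : ValuationSubring ↥(lg_E ↥L (N' * q * q)),
      s36asm_Third (A.comap (algebraMap ↥L Qb)) hπq N' q hq2 hqN' VC →
      (m59t2_PC A N' L VC).comap aB = m59t1_P1 A N' L hπq) ∧
    (m59t2_PA A N' L hπq).comap bB = m59t1_P1 A N' L hπq ∧
    (m59t2_PB A N' hq2 hqN' L hπq).comap bB = m59t1_P2 A N' hq2 hqN' L hπq ∧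
    (∀ VC : ValuationSubring ↥(lg_E ↥L (N' * q * q)),
      s36asm_Third (A.comap (algebraMap ↥L Qb)) hπq N' q hq2 hqN' VC →
      (m59t2_PC A N' L VC).comap bB = m59t1_P2 A N' hq2 hqN' L hπq) := by
  obtain ⟨VC0, T30⟩ := hT3
  obtain ⟨hleA, hleB, -⟩ := m59tpa_B2_le A N' hq2 hqN' L hπq ζN hζN T30
  refine ⟨?_, ?_, ?_, ?_, ?_, ?_⟩
  · exact m59tpc_comap_P (m59t1_B1 A N' q L) (m59t2_B2 A N' q L) (m59tpr_aE ↥L N' q) aB haB _ _
      (m59tpr_VA_comap_aE (A.comap (algebraMap ↥L Qb)) hπq N' q) hleA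
  · exact m59tpc_comap_P (m59t1_B1 A N' q L) (m59t2_B2 A N' q L) (m59tpr_aE ↥L N' q) aB haB _ _
      (m59tpr_VB_comap_aE (A.comap (algebraMap ↥L Qb)) hπq N' q hq2 hqN') hleB
  · intro VC T3
    exact m59tpc_comap_P (m59t1_B1 A N' q L) (m59t2_B2 A N' q L) (m59tpr_aE ↥L N' q) aB haB _ _
      (m59tpr_VC_comap_aE (A.comap (algebraMap ↥L Qb)) hπq N' q hq2 hqN' T3)
      (m59tpa_B2_le A N' hq2 hqN' L hπq ζN hζN T3).2.2
  · exact m59tpc_comap_P (m59t1_B1 A N' q L) (m59t2_B2 A N' q L) (m59tpr_bE ↥L N' q hq2) bB hbB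
      _ _ (m59tpr_VA_comap_bE (A.comap (algebraMap ↥L Qb)) hπq N' q hq2 hqN') hleA
  · exact m59tpc_comap_P (m59t1_B1 A N' q L) (m59t2_B2 A N' q L) (m59tpr_bE ↥L N' q hq2) bB hbB
      _ _ (m59tpr_VB_comap_bE (A.comap (algebraMap ↥L Qb)) hπq N' q hq2 hqN') hleB
  · intro VC T3
    exact m59tpc_comap_P (m59t1_B1 A N' q L) (m59t2_B2 A N' q L) (m59tpr_bE ↥L N' q hq2) bB hbB
      _ _ (m59tpr_VC_comap_bE (A.comap (algebraMap ↥L Qb)) hπq N' q hq2 hqN' T3)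
      (m59tpa_B2_le A N' hq2 hqN' L hπq ζN hζN T3).2.2

end Six

section Star

variable (A : ValuationSubring Qb) {q : ℕ} [hq : Fact q.Prime] (hA : A.LiesOverPrime q)
  (N' : ℕ) [NeZero N'] [NeZero q] [NeZero (N' * q)] [NeZero (N' * q * q)] (hq2 : ¬ 2 ∣ q)
  (hqN' : ¬ q ∣ N') {p : ℕ} [hp : Fact p.Prime]

include hA in
/-- **the clause (pull) of `m59tf_Cells2` over the big level, for ANY chart maps `aB bB` over
`α^* = m59tpr_aE`, `β^* = m59tpr_bE`**: no other hypothesis. -/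
theorem m59tpa_pull_closed (S : m59ls_Star N' q p A hq2 hqN') :
    haveI := (m59tx_star_inst A N' hq2 hqN' S).1
    haveI := S.lev.dvr
    haveI := m59tx_star_charP A hA N' hq2 hqN' S
    ∀ (aB bB : ↥(m59t1_B1 A N' q S.L1) →+* ↥(m59t2_B2 A N' q S.L1))
      (haB : ∀ b : ↥(m59t1_B1 A N' q S.L1),
        ((aB b : ↥(m59t2_B2 A N' q S.L1)) : ↥(lg_E ↥S.L1 (N' * q * q))) =
          m59tpr_aE ↥S.L1 N' q (b : ↥(lg_E ↥S.L1 (N' * q))))
      (hbB : ∀ b : ↥(m59t1_B1 A N' q S.L1),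
        ((bB b : ↥(m59t2_B2 A N' q S.L1)) : ↥(lg_E ↥S.L1 (N' * q * q))) =
          m59tpr_bE ↥S.L1 N' q hq2 (b : ↥(lg_E ↥S.L1 (N' * q))))
      (ζ : (↥(A.comap (algebraMap ↥S.L1 Qb)))ˣ) (Q0 : s44e_Sg A N' q hq.out hqN'),
      ∀ u ∈ m59tc_D1 N' q p A, ∀ v ∈ m59tc_D1 N' q p A,
        ∀ a b : m59t1_B A N' hqN' p Q0,
        m59t1_T1 A hA N' hq2 hqN' S.L1 S.lev.irr p ζ Q0 u a →
        m59t1_T1 A hA N' hq2 hqN' S.L1 S.lev.irr p ζ Q0 v b →
        m59pl_pa (N' * q) q u + m59pl_pb (N' * q) q v ∈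
            m59g12u_TorL A N' q hq2 hqN' S.L1 p 1 ∧
          m59t2_T2 A hA N' hq2 hqN' S.L1 S.lev.irr aB bB p ζ Q0
            (m59pl_pa (N' * q) q u + m59pl_pb (N' * q) q v) (a, b) := by
  haveI := (m59tx_star_inst A N' hq2 hqN' S).1
  haveI := S.lev.dvr
  haveI := m59tx_star_charP A hA N' hq2 hqN' S
  intro aB bB haB hbB ζ Q0
  have hT3 : ∃ VC : ValuationSubring ↥(lg_E ↥S.L1 (N' * q * q)),
      s36asm_Third (A.comap (algebraMap ↥S.L1 Qb)) S.lev.irr N' q hq2 hqN' VC :=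
    s36asm_third_exists (A.comap (algebraMap ↥S.L1 Qb)) S.lev.irr N' q hq2 hqN' 1 isUnit_one
      (mul_one _).symm
  obtain ⟨hAa, hBa, hCa, hAb, hBb, hCb⟩ :=
    m59tpa_six A N' hq2 hqN' S.L1 S.lev.irr S.zN S.hzN aB bB haB hbB hT3
  have hNF : m59tpa_PullNF_stmt A N' hq2 hqN' S.L1 S.lev.irr (m59tpr_aE ↥S.L1 N' q)
      (m59tpr_bE ↥S.L1 N' q hq2) p :=
    m59tpn_pullNF_stmt A N' hq2 hqN' S.L1 S.lev.irr _ _
      (m59tpr_coe_aE N' q) (m59tpr_coe_bE N' q hq2)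
      (m59tpr_VA_comap_aE (A.comap (algebraMap ↥S.L1 Qb)) S.lev.irr N' q)
      (m59tpr_VB_comap_aE (A.comap (algebraMap ↥S.L1 Qb)) S.lev.irr N' q hq2 hqN')
      (m59tpr_VA_comap_bE (A.comap (algebraMap ↥S.L1 Qb)) S.lev.irr N' q hq2 hqN')
      (m59tpr_VB_comap_bE (A.comap (algebraMap ↥S.L1 Qb)) S.lev.irr N' q hq2 hqN')
      (fun VC T3 => m59tpr_VC_comap_aE (A.comap (algebraMap ↥S.L1 Qb)) S.lev.irr N' q hq2 hqN' T3)
      (fun VC T3 => m59tpr_VC_comap_bE (A.comap (algebraMap ↥S.L1 Qb)) S.lev.irr N' q hq2 hqN' T3)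
      p
  exact m59tpa_pull_of_restr A hA N' hq2 hqN' S.L1 S.lev.irr S.zN S.hzN _ _ aB bB hNF
    haB hbB (m59tpa_aE_const A N' S.L1) (m59tpa_bE_const A N' hq2 S.L1)
    hAa hBa hCa hAb hBb hCb ζ Q0

end Star

end Fermat.Agent.M59
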