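/-
M59 / Sink B, leaf 4 [TOR-SURJ], cell (inj2), CLOSED FOR ANY CHART MAPS OVER `α^*`, `β^*` (helper6).
Prefix `m59tj2_`.

`aE := m59tpr_aE`, `bE := m59tpr_bE` the two degeneracy maps `E₁ →+* E₂` of helper28's
`Tor/PullRestr.lean`.  For ANY two ring homomorphisms `aB bB : B₁ →+* B₂` of the `λ`-charts which
restrict them (`haB`, `hbB`, LITERALLY the binders of helper29's `m59tpa_pull_closed`):

* **`m59tj2_inj2_closed`** : the clause (inj2) of `m59tf_Cells2` over the big level `S`, from ONE triple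
  point of ONE third valuation (`hex` = [TRI-EX]); the six comap identities (R3) are helper29's
  `m59tpa_six`.
-/
import Mathlib
import Fermat.Agent.M59.SinkB.Tor.Inj2All
import Fermat.Agent.M59.SinkB.Tor.PullClosed

set_option autoImplicit false
set_option linter.unusedSectionVars false
set_option linter.unusedVariables false
set_option linter.style.haveILetI false
set_option synthInstance.maxHeartbeats 400000
set_option maxHeartbeats 1000000

noncomputable section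

namespace Fermat.Agent.M59

open Polynomial ModularCurve AlgebraicCurve IntermediateField IsLocalRing
open Fermat.Agent.JT3 Fermat.Agent.SS Fermat.Agent.S35 Fermat.Agent.S24 Fermat.Agent.S44
  Fermat.Agent.S36 Fermat.Agent.SS2

local notation "Qb" => AlgebraicClosure ℚ

section Star

variable (A : ValuationSubring Qb) {q : ℕ} [hq : Fact q.Prime] (hA : A.LiesOverPrime q)
  (N' : ℕ) [NeZero N'] [NeZero q] [NeZero (N' * q)] [NeZero (N' * q * q)] (hq2 : ¬ 2 ∣ q)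
  (hqN' : ¬ q ∣ N') {p : ℕ} [hp : Fact p.Prime]

include hA in
/-- **the clause (inj2) of `m59tf_Cells2` over the big level, for ANY chart maps `aB bB` over
`α^* = m59tpr_aE`, `β^* = m59tpr_bE`**, from one triple point. -/
theorem m59tj2_inj2_closed (hp2 : p ≠ 2) (hqp : q ≠ p) (hN2 : 2 ∣ N')
    (S : m59ls_Star N' q p A hq2 hqN') :
    haveI := (m59tx_star_inst A N' hq2 hqN' S).1
    haveI := S.lev.dvr
    haveI := m59tx_star_charP A hA N' hq2 hqN' S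
    ∀ (aB bB : ↥(m59t1_B1 A N' q S.L1) →+* ↥(m59t2_B2 A N' q S.L1))
      (haB : ∀ b : ↥(m59t1_B1 A N' q S.L1),
        ((aB b : ↥(m59t2_B2 A N' q S.L1)) : ↥(lg_E ↥S.L1 (N' * q * q))) =
          m59tpr_aE ↥S.L1 N' q (b : ↥(lg_E ↥S.L1 (N' * q))))
      (hbB : ∀ b : ↥(m59t1_B1 A N' q S.L1),
        ((bB b : ↥(m59t2_B2 A N' q S.L1)) : ↥(lg_E ↥S.L1 (N' * q * q))) =
          m59tpr_bE ↥S.L1 N' q hq2 (b : ↥(lg_E ↥S.L1 (N' * q))))
      (hex : ∃ VC : ValuationSubring ↥(lg_E ↥S.L1 (N' * q * q)),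
        s36asm_Third (A.comap (algebraMap ↥S.L1 Qb)) S.lev.irr N' q hq2 hqN' VC ∧
        ∃ 𝔫 : Ideal ↥(m59t2_B2 A N' q S.L1), 𝔫.IsMaximal ∧
          m59t2_PA A N' S.L1 S.lev.irr ≤ 𝔫 ∧ m59t2_PB A N' hq2 hqN' S.L1 S.lev.irr ≤ 𝔫 ∧
          m59t2_PC A N' S.L1 VC ≤ 𝔫)
      (ζ : (↥(A.comap (algebraMap ↥S.L1 Qb)))ˣ) (Q0 : s44e_Sg A N' q hq.out hqN'),
      ∀ z ∈ m59g12u_TorL A N' q hq2 hqN' S.L1 p 1,
        ∀ z' ∈ m59g12u_TorL A N' q hq2 hqN' S.L1 p 1, ∀ c,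
          m59t2_T2 A hA N' hq2 hqN' S.L1 S.lev.irr aB bB p ζ Q0 z c →
          m59t2_T2 A hA N' hq2 hqN' S.L1 S.lev.irr aB bB p ζ Q0 z' c → z = z' := by
  haveI := (m59tx_star_inst A N' hq2 hqN' S).1
  haveI := S.lev.dvr
  haveI := m59tx_star_charP A hA N' hq2 hqN' S
  intro aB bB haB hbB hex ζ Q0
  have hT3 : ∃ VC : ValuationSubring ↥(lg_E ↥S.L1 (N' * q * q)),
      s36asm_Third (A.comap (algebraMap ↥S.L1 Qb)) S.lev.irr N' q hq2 hqN' VC :=
    ⟨hex.choose, hex.choose_spec.1⟩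
  obtain ⟨hAa, hBa, hCa, hAb, hBb, hCb⟩ :=
    m59tpa_six A N' hq2 hqN' S.L1 S.lev.irr S.zN S.hzN aB bB haB hbB hT3
  exact m59tj2_inj2_star A hA N' hq2 hqN' hp2 hqp hN2 S (m59tpr_aE ↥S.L1 N' q)
    (m59tpr_bE ↥S.L1 N' q hq2) aB bB haB hbB (m59tpa_aE_const A N' S.L1)
    (m59tpa_bE_const A N' hq2 S.L1) hAa hBa hCa hAb hBb hCb hex ζ Q0

end Star

end Fermat.Agent.M59
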