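/-
M59 / Sink B, leaf 4 [TOR-SURJ], THE SEAM `m59tf_Cells2_stmt` FROM ITS LAST TWO INPUTS (helper15).
Prefix `m59tf_`.

(pull) and (inj2) are closed over the big level for any chart maps over `α^*`, `β^*` (helper29's
`m59tpa_pull_closed`, helper6's `m59tj2_inj2_closed`); THE pair is `m59tf_aB S`, `m59tf_bB S`
(Tor/FinalPull.lean).  What is left of `m59tf_Cells2_stmt`:

* `m59tf_TriEx_stmt` : [TRI-EX], ONE triple point of ONE third valuation ring over the big level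
  (the `hex` of `m59tj2_inj2_closed`);
* `m59tf_Ex2_stmt`   : the clause (ex2) over the big level, for any chart maps over `α^*`, `β^*`.

**`m59tf_cells2_of : m59tf_TriEx_stmt → m59tf_Ex2_stmt → m59tf_Cells2_stmt`**, hence
`m59tf_torSurjPlU_of_ex2 : m59tf_TriEx_stmt → m59tf_Ex2_stmt → m59g12u_TorSurjPlU_stmt`.
-/
import Mathlib
import Fermat.Agent.M59.SinkB.Tor.FinalTau
import Fermat.Agent.M59.SinkB.Tor.FinalPull
import Fermat.Agent.M59.SinkB.Tor.PullClosed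
import Fermat.Agent.M59.SinkB.Tor.Inj2Closed

set_option autoImplicit false
set_option linter.unusedSectionVars false
set_option linter.unusedVariables false
set_option linter.style.haveILetI false
set_option synthInstance.maxHeartbeats 400000
set_option maxHeartbeats 1000000

noncomputable section

namespace Fermat.Agent.M59

open Polynomial ModularCurve AlgebraicCurve IntermediateField IsLocalRing
open Fermat.Agent.JT3 Fermat.Agent.SS Fermat.Agent.S35 Fermat.Agent.S24 Fermat.Agent.S44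
  Fermat.Agent.S36 Fermat.Agent.SS2

local notation "Qb" => AlgebraicClosure ℚ

section Seams

variable (A : ValuationSubring Qb) {q : ℕ} [hq : Fact q.Prime] (hA : A.LiesOverPrime q)
  (N' : ℕ) [NeZero N'] [NeZero q] [NeZero (N' * q)] [NeZero (N' * q * q)] (hq2 : ¬ 2 ∣ q)
  (hqN' : ¬ q ∣ N') {p : ℕ} [hp : Fact p.Prime]

/-- **[TRI-EX] over the big level**: one triple point of one third valuation ring. -/
def m59tf_TriEx (S : m59ls_Star N' q p A hq2 hqN') : Prop :=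
  haveI := (m59tx_star_inst A N' hq2 hqN' S).1
  haveI := S.lev.dvr
  ∃ VC : ValuationSubring ↥(lg_E ↥S.L1 (N' * q * q)),
    s36asm_Third (A.comap (algebraMap ↥S.L1 Qb)) S.lev.irr N' q hq2 hqN' VC ∧
    ∃ 𝔫 : Ideal ↥(m59t2_B2 A N' q S.L1), 𝔫.IsMaximal ∧
      m59t2_PA A N' S.L1 S.lev.irr ≤ 𝔫 ∧ m59t2_PB A N' hq2 hqN' S.L1 S.lev.irr ≤ 𝔫 ∧
      m59t2_PC A N' S.L1 VC ≤ 𝔫

/-- **the clause (ex2) over the big level**, for any chart maps over `α^*`, `β^*`. -/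
def m59tf_Ex2 (S : m59ls_Star N' q p A hq2 hqN')
    (ζ : (↥(A.comap (algebraMap ↥S.L1 Qb)))ˣ) (Q0 : s44e_Sg A N' q hq.out hqN') : Prop :=
  haveI := (m59tx_star_inst A N' hq2 hqN' S).1
  haveI := S.lev.dvr
  haveI := m59tx_star_charP A hA N' hq2 hqN' S
  ∀ (aB bB : ↥(m59t1_B1 A N' q S.L1) →+* ↥(m59t2_B2 A N' q S.L1))
    (haB : ∀ b : ↥(m59t1_B1 A N' q S.L1),
      ((aB b : ↥(m59t2_B2 A N' q S.L1)) : ↥(lg_E ↥S.L1 (N' * q * q))) =
        m59tpr_aE ↥S.L1 N' q (b : ↥(lg_E ↥S.L1 (N' * q))))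
    (hbB : ∀ b : ↥(m59t1_B1 A N' q S.L1),
      ((bB b : ↥(m59t2_B2 A N' q S.L1)) : ↥(lg_E ↥S.L1 (N' * q * q))) =
        m59tpr_bE ↥S.L1 N' q hq2 (b : ↥(lg_E ↥S.L1 (N' * q)))),
    ∀ z ∈ m59g12u_TorL A N' q hq2 hqN' S.L1 p 1,
      ∃ c, m59t2_T2 A hA N' hq2 hqN' S.L1 S.lev.irr aB bB p ζ Q0 z c

end Seams

/-- **[TRI-EX]** as a seam. -/
def m59tf_TriEx_stmt : Prop :=
  ∀ (N' q p : ℕ) [NeZero N'] [NeZero q] [Fact q.Prime] [NeZero (N' * q)] [NeZero (N' * q * q)]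
    [Fact p.Prime],
    p ≠ 2 → q ≠ p → ∀ (hq2 : ¬ 2 ∣ q) (hqN' : ¬ q ∣ N'), 4 ∣ N' →
    ∀ (A : ValuationSubring Qb) (hA : A.LiesOverPrime q) (S : m59ls_Star N' q p A hq2 hqN'),
      m59tf_TriEx A N' hq2 hqN' S

/-- **(ex2)** as a seam. -/
def m59tf_Ex2_stmt : Prop :=
  ∀ (N' q p : ℕ) [NeZero N'] [NeZero q] [Fact q.Prime] [NeZero (N' * q)] [NeZero (N' * q * q)]
    [Fact p.Prime],
    p ≠ 2 → q ≠ p → ∀ (hq2 : ¬ 2 ∣ q) (hqN' : ¬ q ∣ N'), 4 ∣ N' →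
    ∀ (A : ValuationSubring Qb) (hA : A.LiesOverPrime q) (S : m59ls_Star N' q p A hq2 hqN')
      (ζ : (↥(A.comap (algebraMap ↥S.L1 Qb)))ˣ),
      IsPrimitiveRoot (ζ : ↥(A.comap (algebraMap ↥S.L1 Qb))) p →
      ∀ Q0 : s44e_Sg A N' q (Fact.out : q.Prime) hqN', m59tf_Ex2 A hA N' hq2 hqN' S ζ Q0

/-- **the seam `m59tf_Cells2_stmt` from [TRI-EX] and (ex2).** -/
theorem m59tf_cells2_of (hTri : m59tf_TriEx_stmt) (hEx2 : m59tf_Ex2_stmt) : m59tf_Cells2_stmt := by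
  intro N' q p _ _ hqF _ _ hpF hp2 hqp hq2 hqN' h4 A hA S ζ hζ Q0
  have hN2 : 2 ∣ N' := Dvd.dvd.trans (by norm_num) h4
  have hex := hTri N' q p hp2 hqp hq2 hqN' h4 A hA S
  have hex2 := hEx2 N' q p hp2 hqp hq2 hqN' h4 A hA S ζ hζ Q0
  unfold m59tf_Cells2
  unfold m59tf_TriEx at hex
  unfold m59tf_Ex2 at hex2
  exact ⟨m59tf_aB A N' hq2 hqN' S, m59tf_bB A hA N' hq2 hqN' S,
    m59tpa_pull_closed A hA N' hq2 hqN' S _ _ (m59tf_haB A N' hq2 hqN' S)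
      (m59tf_hbB A hA N' hq2 hqN' S) ζ Q0,
    hex2 _ _ (m59tf_haB A N' hq2 hqN' S) (m59tf_hbB A hA N' hq2 hqN' S),
    m59tj2_inj2_closed A hA N' hq2 hqN' hp2 hqp hN2 S _ _ (m59tf_haB A N' hq2 hqN' S)
      (m59tf_hbB A hA N' hq2 hqN' S) hex ζ Q0⟩

/-- **the leaf [TOR-SURJ] from [TRI-EX] and (ex2).** -/
theorem m59tf_torSurjPlU_of_ex2 (hTri : m59tf_TriEx_stmt) (hEx2 : m59tf_Ex2_stmt) :
    m59g12u_TorSurjPlU_stmt :=
  m59tf_torSurjPlU_of_cells2 (m59tf_cells2_of hTri hEx2)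

end Fermat.Agent.M59
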