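/-
M59 / Sink B, leaf 3 [TOR-SURJ], THE SEAM `m59tf_Ex2_stmt` FROM [TAU-INV2] (helper23).
Prefix `m59tx2a_`.

* `m59tx2a_TauInv2_stmt` : [TAU-INV2] over the big level, as a seam, in the convention of helper15's
  `Tor/FinalCells2.lean`: for ANY chart maps `aB bB : B1 →+* B2` over `α^* = m59tpr_aE`,
  `β^* = m59tpr_bE` (binders `haB`, `hbB` verbatim those of `m59tf_Ex2`), the statement
  `m59tx2a_TauInv2 A hA N' hq2 hqN' S aB bB` of `Tor/Ex2AsmStar.lean`;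
* **`m59tx2a_ex2_stmt_of : m59tx2a_TauInv2_stmt → m59tf_Ex2_stmt`** (one call of `m59tx2a_ex2_star`);
* `m59tx2a_torSurjPlU_of : m59tf_TriEx_stmt → m59tx2a_TauInv2_stmt → m59g12u_TorSurjPlU_stmt`.
-/
import Mathlib
import Fermat.Agent.M59.SinkB.Tor.Ex2AsmStar
import Fermat.Agent.M59.SinkB.Tor.FinalCells2

set_option autoImplicit false
set_option linter.unusedSectionVars false
set_option linter.unusedVariables false
set_option linter.style.haveILetI false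
set_option synthInstance.maxHeartbeats 400000
set_option maxHeartbeats 3200000

noncomputable section

namespace Fermat.Agent.M59

open Fermat.Agent.TW

open Polynomial ModularCurve AlgebraicCurve IntermediateField IsLocalRing
open Fermat.Agent.JT3 Fermat.Agent.SS Fermat.Agent.S35 Fermat.Agent.S24 Fermat.Agent.S44
  Fermat.Agent.S36 Fermat.Agent.SS2

local notation "Qb" => AlgebraicClosure ℚ

section Seams

variable (A : ValuationSubring Qb) {q : ℕ} [hq : Fact q.Prime] (hA : A.LiesOverPrime q)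
  (N' : ℕ) [NeZero N'] [NeZero q] [NeZero (N' * q)] [NeZero (N' * q * q)] (hq2 : ¬ 2 ∣ q)
  (hqN' : ¬ q ∣ N') {p : ℕ} [hp : Fact p.Prime]

/-- **[TAU-INV2] over the big level**, for any chart maps over `α^*`, `β^*`. -/
def m59tx2a_TauInv2All (S : m59ls_Star N' q p A hq2 hqN') : Prop :=
  haveI := (m59tx_star_inst A N' hq2 hqN' S).1
  haveI := S.lev.dvr
  haveI := m59tx_star_charP A hA N' hq2 hqN' S
  ∀ (aB bB : ↥(m59t1_B1 A N' q S.L1) →+* ↥(m59t2_B2 A N' q S.L1))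
    (haB : ∀ b : ↥(m59t1_B1 A N' q S.L1),
      ((aB b : ↥(m59t2_B2 A N' q S.L1)) : ↥(lg_E ↥S.L1 (N' * q * q))) =
        m59tpr_aE ↥S.L1 N' q (b : ↥(lg_E ↥S.L1 (N' * q))))
    (hbB : ∀ b : ↥(m59t1_B1 A N' q S.L1),
      ((bB b : ↥(m59t2_B2 A N' q S.L1)) : ↥(lg_E ↥S.L1 (N' * q * q))) =
        m59tpr_bE ↥S.L1 N' q hq2 (b : ↥(lg_E ↥S.L1 (N' * q)))),
    m59tx2a_TauInv2 A hA N' hq2 hqN' S aB bB

end Seams

/-- **[TAU-INV2]** as a seam. -/
def m59tx2a_TauInv2_stmt : Prop :=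
  ∀ (N' q p : ℕ) [NeZero N'] [NeZero q] [Fact q.Prime] [NeZero (N' * q)] [NeZero (N' * q * q)]
    [Fact p.Prime],
    p ≠ 2 → q ≠ p → ∀ (hq2 : ¬ 2 ∣ q) (hqN' : ¬ q ∣ N'), 4 ∣ N' →
    ∀ (A : ValuationSubring Qb) (hA : A.LiesOverPrime q) (S : m59ls_Star N' q p A hq2 hqN'),
      m59tx2a_TauInv2All A hA N' hq2 hqN' S

/-- **the seam `m59tf_Ex2_stmt` from [TAU-INV2].** -/
theorem m59tx2a_ex2_stmt_of (hTau : m59tx2a_TauInv2_stmt) : m59tf_Ex2_stmt := by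
  intro N' q p _ _ hqF _ _ hpF hp2 hqp hq2 hqN' h4 A hA S ζ hζ Q0
  have h := hTau N' q p hp2 hqp hq2 hqN' h4 A hA S
  unfold m59tf_Ex2
  unfold m59tx2a_TauInv2All at h
  intro aB bB haB hbB
  exact m59tx2a_ex2_star A hA N' hq2 hqN' S aB bB ζ hζ Q0 (h aB bB haB hbB)

/-- **the leaf [TOR-SURJ] from [TRI-EX] and [TAU-INV2].** -/
theorem m59tx2a_torSurjPlU_of (hTri : m59tf_TriEx_stmt) (hTau : m59tx2a_TauInv2_stmt) :
    m59g12u_TorSurjPlU_stmt :=
  m59tf_torSurjPlU_of_ex2 hTri (m59tx2a_ex2_stmt_of hTau)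

end Fermat.Agent.M59
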