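/-
M59 / Sink B, leaf 3 [TOR-SURJ], cell (ex2), THE ASSEMBLY AGAINST `Defs2.lean` (helper5; the
level-`N' q q` twin of `Tor/Ex1.lean`).  Prefix `m59tx2p_`.

Context of `Defs2.lean`: `A` over `q` odd, `q ∤ N'`, `L ⊆ ℚ̄` a number field (the big level `L*`),
`O = A ∩ L` a discrete valuation ring with uniformiser `q`; `aB bB : B1 →+* B2` ARBITRARY.

* `m59tx2p_third_unique` : the third valuation is unique (`s36t3_Third.only`, `.ne`);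
* **`m59tx2p_T2_of_nf`** : a normal form `m59t2_NF … p z f g1 c₀ r₀ k R g'` +
  (hEx)   at every triple point the two data of `g'` are constants `cCB, cAC ∈ Oˣ` with
          `q ∣ cCB ^ p · kB - kC`, `q ∣ cAC ^ p · kC - kA`                      [helper1, `Tor/Ex2Const`],
  (hCB), (hAC)   the constants only matter modulo `q`                          [helper1, `Tor/Ex2Const`],
  (hTauCB), (hTauAC)   two triple points whose images along `aB` (resp. `bB`) are labelled by the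
          same supersingular place carry the same `(C,B)`- (resp. `(A,C)`-) datum     [TAU-INV2]
  ⟹ `∃ c, m59t2_T2 … aB bB p ζ Q0 z c`   (two calls of `m59tx_assemble`).
-/
import Mathlib
import Fermat.Agent.M59.SinkB.Tor.Ex1Abs
import Fermat.Agent.M59.SinkB.Tor.Defs2

set_option autoImplicit false
set_option linter.unusedSectionVars false
set_option linter.unusedVariables false
set_option linter.style.haveILetI false
set_option synthInstance.maxHeartbeats 400000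
set_option maxHeartbeats 3200000

noncomputable section

namespace Fermat.Agent.M59

open Polynomial ModularCurve AlgebraicCurve IntermediateField IsLocalRing
open Fermat.Agent.JT3 Fermat.Agent.SS Fermat.Agent.S35 Fermat.Agent.S24 Fermat.Agent.S44
  Fermat.Agent.S36 Fermat.Agent.SS2

local notation "Qb" => AlgebraicClosure ℚ

section Uniq

variable {L : Type*} [Field L] [CharZero L] [Algebra L (AlgebraicClosure ℚ)]
  (O : ValuationSubring L) [IsDiscreteValuationRing O] {π : O} (hπ : Irreducible π)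
variable (N' q : ℕ) [NeZero N'] [NeZero q] [hq : Fact q.Prime] [CharP (ResidueField O) q]
  (hq2 : ¬ 2 ∣ q) (hqN' : ¬ q ∣ N')

/-- **the third valuation is unique.** -/
theorem m59tx2p_third_unique {VC VC' : ValuationSubring ↥(lg_E L (N' * q * q))}
    (T : s36asm_Third O hπ N' q hq2 hqN' VC) (T' : s36asm_Third O hπ N' q hq2 hqN' VC') :
    VC' = VC := by
  letI := ssm_gi_algebra (ssm_al_E_le L (N' * q) q)
  letI := ssm_gi_algebraV (ssm_al_E_le L (N' * q) q) (ssm_gl_V1 O hπ N' q)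
  haveI := ssm_gi_isScalarTower (ssm_al_E_le L (N' * q) q) (ssm_gl_V1 O hπ N' q)
  have T1 : s36t3_Third ↥(lg_E L (N' * q)) ↥(ssm_gl_V1 O hπ N' q) q (s36at_leg_piF O hπ N' q)
      (s36asm_z (L := L) N' q hq2 hqN') (s36i_VA O hπ (N' * q) q) VC := T
  have T2 : s36t3_Third ↥(lg_E L (N' * q)) ↥(ssm_gl_V1 O hπ N' q) q (s36at_leg_piF O hπ N' q)
      (s36asm_z (L := L) N' q hq2 hqN') (s36i_VA O hπ (N' * q) q) VC' := T'
  exact (T1.only VC' T2.overC).resolve_left T2.ne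

end Uniq

section Asm

variable (A : ValuationSubring Qb) {q : ℕ} [hq : Fact q.Prime] (hA : A.LiesOverPrime q)
  (N' : ℕ) [NeZero N'] [NeZero q] [NeZero (N' * q)] [NeZero (N' * q * q)]
  (hq2 : ¬ 2 ∣ q) (hqN' : ¬ q ∣ N')
  (L : IntermediateField ℚ Qb) [NumberField ↥L]
  [IsDiscreteValuationRing ↥(A.comap (algebraMap ↥L Qb))]
  [CharP (ResidueField ↥(A.comap (algebraMap ↥L Qb))) q]
  (hπq : Irreducible ((q : ℕ) : ↥(A.comap (algebraMap ↥L Qb))))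

/-- **(ex2), assembly**: a normal form of `z` over `L`, the constants at the triple points (hEx, hCB,
hAC) and [TAU-INV2] for its `g'` (hTauCB, hTauAC) give a toric datum of `z`. -/
theorem m59tx2p_T2_of_nf {p : ℕ} (hp : 0 < p) (ζ : (↥(A.comap (algebraMap ↥L Qb)))ˣ)
    (hζ : IsPrimitiveRoot (ζ : ↥(A.comap (algebraMap ↥L Qb))) p)
    (Q0 : s44e_Sg A N' q hq.out hqN')
    (aB bB : ↥(m59t1_B1 A N' q L) →+* ↥(m59t2_B2 A N' q L))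
    {z : JZero (N' * q * q)} {f : modularFunctionFieldBar (N' * q * q)}
    {g1 : laurentBaseChange L (modularFunctionFieldFull (N' * q * q))} {c₀ : Qb}
    {r₀ : modularFunctionFieldBar (N' * q * q)} {k : ↥L} {R g' : ↥(lg_E ↥L (N' * q * q))}
    (hNF : m59t2_NF A N' hq2 hqN' L hπq p z f g1 c₀ r₀ k R g')
    {VC : ValuationSubring ↥(lg_E ↥L (N' * q * q))}
    (T0 : s36asm_Third (A.comap (algebraMap ↥L Qb)) hπq N' q hq2 hqN' VC)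
    (hEx : ∀ kA kB kC : (↥(A.comap (algebraMap ↥L Qb)))ˣ,
      g' - algebraMap ↥L ↥(lg_E ↥L (N' * q * q))
          ((kA : ↥(A.comap (algebraMap ↥L Qb))) : ↥L) ∈
        (s36i_VA (A.comap (algebraMap ↥L Qb)) hπq (N' * q) q).nonunits →
      g' - algebraMap ↥L ↥(lg_E ↥L (N' * q * q))
          ((kB : ↥(A.comap (algebraMap ↥L Qb))) : ↥L) ∈
        (s36i_VB (A.comap (algebraMap ↥L Qb)) hπq N' q hq2 hqN').nonunits →
      g' - algebraMap ↥L ↥(lg_E ↥L (N' * q * q))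
          ((kC : ↥(A.comap (algebraMap ↥L Qb))) : ↥L) ∈ VC.nonunits →
      ∀ (𝔫 : Ideal ↥(m59t2_B2 A N' q L)) (h𝔫 : 𝔫.IsMaximal),
        m59t2_PA A N' L hπq ≤ 𝔫 → m59t2_PB A N' hq2 hqN' L hπq ≤ 𝔫 → m59t2_PC A N' L VC ≤ 𝔫 →
        ∃ cCB cAC : (↥(A.comap (algebraMap ↥L Qb)))ˣ,
          m59t2_RatioCB A N' hq2 hqN' L hπq VC p 𝔫 h𝔫.isPrime g' cCB ∧
          ((q : ℕ) : ↥(A.comap (algebraMap ↥L Qb))) ∣
            (cCB : ↥(A.comap (algebraMap ↥L Qb))) ^ p * (kB : ↥(A.comap (algebraMap ↥L Qb))) -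
              (kC : ↥(A.comap (algebraMap ↥L Qb))) ∧
          m59t2_RatioAC A N' L hπq VC p 𝔫 h𝔫.isPrime g' cAC ∧
          ((q : ℕ) : ↥(A.comap (algebraMap ↥L Qb))) ∣
            (cAC : ↥(A.comap (algebraMap ↥L Qb))) ^ p * (kC : ↥(A.comap (algebraMap ↥L Qb))) -
              (kA : ↥(A.comap (algebraMap ↥L Qb))))
    (hCB : ∀ (𝔫 : Ideal ↥(m59t2_B2 A N' q L)) (h𝔫 : 𝔫.IsMaximal),
      m59t2_PA A N' L hπq ≤ 𝔫 → m59t2_PB A N' hq2 hqN' L hπq ≤ 𝔫 → m59t2_PC A N' L VC ≤ 𝔫 →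
      ∀ c c' : (↥(A.comap (algebraMap ↥L Qb)))ˣ,
        m59t2_RatioCB A N' hq2 hqN' L hπq VC p 𝔫 h𝔫.isPrime g' c →
        ((q : ℕ) : ↥(A.comap (algebraMap ↥L Qb))) ∣
          (c : ↥(A.comap (algebraMap ↥L Qb))) - (c' : ↥(A.comap (algebraMap ↥L Qb))) →
        m59t2_RatioCB A N' hq2 hqN' L hπq VC p 𝔫 h𝔫.isPrime g' c')
    (hAC : ∀ (𝔫 : Ideal ↥(m59t2_B2 A N' q L)) (h𝔫 : 𝔫.IsMaximal),
      m59t2_PA A N' L hπq ≤ 𝔫 → m59t2_PB A N' hq2 hqN' L hπq ≤ 𝔫 → m59t2_PC A N' L VC ≤ 𝔫 →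
      ∀ c c' : (↥(A.comap (algebraMap ↥L Qb)))ˣ,
        m59t2_RatioAC A N' L hπq VC p 𝔫 h𝔫.isPrime g' c →
        ((q : ℕ) : ↥(A.comap (algebraMap ↥L Qb))) ∣
          (c : ↥(A.comap (algebraMap ↥L Qb))) - (c' : ↥(A.comap (algebraMap ↥L Qb))) →
        m59t2_RatioAC A N' L hπq VC p 𝔫 h𝔫.isPrime g' c')
    (hTauCB : ∀ (𝔫 𝔫' : Ideal ↥(m59t2_B2 A N' q L)) (h𝔫 : 𝔫.IsMaximal) (h𝔫' : 𝔫'.IsMaximal),
      m59t2_PA A N' L hπq ≤ 𝔫 → m59t2_PB A N' hq2 hqN' L hπq ≤ 𝔫 → m59t2_PC A N' L VC ≤ 𝔫 →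
      m59t2_PA A N' L hπq ≤ 𝔫' → m59t2_PB A N' hq2 hqN' L hπq ≤ 𝔫' → m59t2_PC A N' L VC ≤ 𝔫' →
      ∀ Q : s44e_Sg A N' q hq.out hqN',
        m59t1_Lab A hA N' hq2 hqN' L hπq (𝔫.comap aB) Q.1 →
        m59t1_Lab A hA N' hq2 hqN' L hπq (𝔫'.comap aB) Q.1 →
        ∀ ε : (↥(A.comap (algebraMap ↥L Qb)))ˣ,
          m59t2_RatioCB A N' hq2 hqN' L hπq VC p 𝔫 h𝔫.isPrime g' ε →
          m59t2_RatioCB A N' hq2 hqN' L hπq VC p 𝔫' h𝔫'.isPrime g' ε)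
    (hTauAC : ∀ (𝔫 𝔫' : Ideal ↥(m59t2_B2 A N' q L)) (h𝔫 : 𝔫.IsMaximal) (h𝔫' : 𝔫'.IsMaximal),
      m59t2_PA A N' L hπq ≤ 𝔫 → m59t2_PB A N' hq2 hqN' L hπq ≤ 𝔫 → m59t2_PC A N' L VC ≤ 𝔫 →
      m59t2_PA A N' L hπq ≤ 𝔫' → m59t2_PB A N' hq2 hqN' L hπq ≤ 𝔫' → m59t2_PC A N' L VC ≤ 𝔫' →
      ∀ Q : s44e_Sg A N' q hq.out hqN',
        m59t1_Lab A hA N' hq2 hqN' L hπq (𝔫.comap bB) Q.1 →
        m59t1_Lab A hA N' hq2 hqN' L hπq (𝔫'.comap bB) Q.1 →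
        ∀ ε : (↥(A.comap (algebraMap ↥L Qb)))ˣ,
          m59t2_RatioAC A N' L hπq VC p 𝔫 h𝔫.isPrime g' ε →
          m59t2_RatioAC A N' L hπq VC p 𝔫' h𝔫'.isPrime g' ε) :
    ∃ c : m59t1_B A N' hqN' p Q0 × m59t1_B A N' hqN' p Q0,
      m59t2_T2 A hA N' hq2 hqN' L hπq aB bB p ζ Q0 z c := by
  classical
  have hNF' := hNF
  obtain ⟨hg1, hc₀, hr₀, hrep, hf, hk, hR, hg', hι, hord, hred⟩ := hNF
  obtain ⟨kA, kB, kC, hkA, hkB, hkC, hfA, hfB, hfC⟩ := hred VC T0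
  obtain ⟨kA, rfl⟩ := hkA
  obtain ⟨kB, rfl⟩ := hkB
  obtain ⟨kC, rfl⟩ := hkC
  have hEx' := hEx kA kB kC hfA hfB hfC
  -- the `(C, B)`-data along `aB`
  obtain ⟨e1, ε1, he1, hall1⟩ := m59tx_assemble (O := ↥(A.comap (algebraMap ↥L Qb))) hπq.prime hp
    ζ hζ (kC : ↥(A.comap (algebraMap ↥L Qb))) kB
    (Sg := s44e_Sg A N' q hq.out hqN')
    (Pt := {𝔫 : Ideal ↥(m59t2_B2 A N' q L) // 𝔫.IsMaximal ∧ m59t2_PA A N' L hπq ≤ 𝔫 ∧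
      m59t2_PB A N' hq2 hqN' L hπq ≤ 𝔫 ∧ m59t2_PC A N' L VC ≤ 𝔫}) Q0
    (fun P Q => m59t1_Lab A hA N' hq2 hqN' L hπq (P.1.comap aB) Q.1)
    (fun P c0 => m59t2_RatioCB A N' hq2 hqN' L hπq VC p P.1 P.2.1.isPrime g' c0)
    (fun P => by
      obtain ⟨cCB, cAC, h1, h2, -, -⟩ := hEx' P.1 P.2.1 P.2.2.1 P.2.2.2.1 P.2.2.2.2
      exact ⟨cCB, h1, h2⟩)
    (fun P c0 c0' h hcc => hCB P.1 P.2.1 P.2.2.1 P.2.2.2.1 P.2.2.2.2 c0 c0' h hcc)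
    (fun P P' Q hPQ hP'Q ε h => hTauCB P.1 P'.1 P.2.1 P'.2.1 P.2.2.1 P.2.2.2.1 P.2.2.2.2
      P'.2.2.1 P'.2.2.2.1 P'.2.2.2.2 Q hPQ hP'Q ε h)
  -- the `(A, C)`-data along `bB`
  obtain ⟨e2, ε2, he2, hall2⟩ := m59tx_assemble (O := ↥(A.comap (algebraMap ↥L Qb))) hπq.prime hp
    ζ hζ (kA : ↥(A.comap (algebraMap ↥L Qb))) kC
    (Sg := s44e_Sg A N' q hq.out hqN')
    (Pt := {𝔫 : Ideal ↥(m59t2_B2 A N' q L) // 𝔫.IsMaximal ∧ m59t2_PA A N' L hπq ≤ 𝔫 ∧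
      m59t2_PB A N' hq2 hqN' L hπq ≤ 𝔫 ∧ m59t2_PC A N' L VC ≤ 𝔫}) Q0
    (fun P Q => m59t1_Lab A hA N' hq2 hqN' L hπq (P.1.comap bB) Q.1)
    (fun P c0 => m59t2_RatioAC A N' L hπq VC p P.1 P.2.1.isPrime g' c0)
    (fun P => by
      obtain ⟨cCB, cAC, -, -, h1, h2⟩ := hEx' P.1 P.2.1 P.2.2.1 P.2.2.2.1 P.2.2.2.2
      exact ⟨cAC, h1, h2⟩)
    (fun P c0 c0' h hcc => hAC P.1 P.2.1 P.2.2.1 P.2.2.2.1 P.2.2.2.2 c0 c0' h hcc)
    (fun P P' Q hPQ hP'Q ε h => hTauAC P.1 P'.1 P.2.1 P'.2.1 P.2.2.1 P.2.2.2.1 P.2.2.2.2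
      P'.2.2.1 P'.2.2.2.1 P'.2.2.2.2 Q hPQ hP'Q ε h)
  have hext : ∀ (e : s44e_Sg A N' q hq.out hqN' → ZMod p), e Q0 = 0 →
      ∀ Q, m59t1_ext A N' hqN'
        (fun Q : {Q : s44e_Sg A N' q hq.out hqN' // Q ≠ Q0} => e Q.1) Q = e Q := by
    intro e he0 Q
    unfold m59t1_ext
    by_cases hQ : Q = Q0
    · rw [dif_pos hQ, hQ, he0]
    · rw [dif_neg hQ]
  refine ⟨(fun Q => e1 Q.1, fun Q => e2 Q.1), f, g1, c₀, r₀, k, R, g', hNF', ε1, ε2, ?_⟩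
  intro VC' T' 𝔫 h𝔫 hPA hPB hPC Q
  have hVC : VC' = VC := m59tx2p_third_unique (A.comap (algebraMap ↥L Qb)) hπq N' q hq2 hqN' T0 T'
  subst hVC
  refine ⟨fun hLab => ?_, fun hLab => ?_⟩
  · beta_reduce
    rw [hext e1 he1]
    exact hall1 ⟨𝔫, h𝔫, hPA, hPB, hPC⟩ Q hLab
  · beta_reduce
    rw [hext e2 he2]
    exact hall2 ⟨𝔫, h𝔫, hPA, hPB, hPC⟩ Q hLab

end Asm

end Fermat.Agent.M59
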