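/-
M59 / Sink B, leaf 3 [TOR-SURJ], THE CLAUSE `ex2` OF `m59tf_Cells2` (helper5; the level-`N' q q` twin
of `Tor/Ex1Star.lean`).  Prefix `m59tx2p_`.

* `m59tx2p_ex2_of` : over a level `L`: every `z ∈ m59g12u_TorL A N' q hq2 hqN' L p 1` has a toric datum
  `m59t2_T2 … aB bB p ζ Q0 z c` (ARBITRARY chart maps `aB bB`), from
  (hEx, hCB, hAC) the constants at the triple points [helper1, `Tor/Ex2Const`] and
  (hTauCB, hTauAC) [TAU-INV2] [helper24, `Tor/TauInv2`], all five in hypothesis form;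
* **`m59tx2p_ex2_star_of`** : the same over the big level `S : m59ls_Star N' q p A hq2 hqN'`, with the
  instances introduced literally as in `m59tx_ex1_star` / `m59tf_Cells2`.
-/
import Mathlib
import Fermat.Agent.M59.SinkB.Tor.Ex2Pack
import Fermat.Agent.M59.SinkB.Tor.Ex1Star
import Fermat.Agent.M59.SinkB.G12.WireCU

set_option autoImplicit false
set_option linter.unusedSectionVars false
set_option linter.unusedVariables false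
set_option linter.style.haveILetI false
set_option synthInstance.maxHeartbeats 400000
set_option maxHeartbeats 3200000

noncomputable section

namespace Fermat.Agent.M59

open Fermat.Agent.TW

open Polynomial ModularCurve AlgebraicCurve IntermediateField IsLocalRing
open Fermat.Agent.JT3 Fermat.Agent.SS Fermat.Agent.S35 Fermat.Agent.S24 Fermat.Agent.S44
  Fermat.Agent.S36 Fermat.Agent.SS2

local notation "Qb" => AlgebraicClosure ℚ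

section Seams

variable (A : ValuationSubring Qb) {q : ℕ} [hq : Fact q.Prime] (hA : A.LiesOverPrime q)
  (N' : ℕ) [NeZero N'] [NeZero q] [NeZero (N' * q)] [NeZero (N' * q * q)]
  (hq2 : ¬ 2 ∣ q) (hqN' : ¬ q ∣ N')
  (L : IntermediateField ℚ Qb) [NumberField ↥L]
  [IsDiscreteValuationRing ↥(A.comap (algebraMap ↥L Qb))]
  [CharP (ResidueField ↥(A.comap (algebraMap ↥L Qb))) q]
  (hπq : Irreducible ((q : ℕ) : ↥(A.comap (algebraMap ↥L Qb))))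

/-- **the constants at the triple points** (helper1's `Tor/Ex2Const`, as a seam): the two toric data
of a function with constant reductions `kA, kB, kC` at a triple point are constants of `Oˣ`. -/
def m59tx2p_Ex (p : ℕ) : Prop :=
  ∀ (g' : ↥(lg_E ↥L (N' * q * q))), g' ≠ 0 →
    (∀ v : Place ↥L ↥(lg_E ↥L (N' * q * q)), (p : ℤ) ∣ v.ord g') →
    ∀ (VC : ValuationSubring ↥(lg_E ↥L (N' * q * q))),
      s36asm_Third (A.comap (algebraMap ↥L Qb)) hπq N' q hq2 hqN' VC →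
    ∀ kA kB kC : (↥(A.comap (algebraMap ↥L Qb)))ˣ,
      g' - algebraMap ↥L ↥(lg_E ↥L (N' * q * q))
          ((kA : ↥(A.comap (algebraMap ↥L Qb))) : ↥L) ∈
        (s36i_VA (A.comap (algebraMap ↥L Qb)) hπq (N' * q) q).nonunits →
      g' - algebraMap ↥L ↥(lg_E ↥L (N' * q * q))
          ((kB : ↥(A.comap (algebraMap ↥L Qb))) : ↥L) ∈
        (s36i_VB (A.comap (algebraMap ↥L Qb)) hπq N' q hq2 hqN').nonunits →
      g' - algebraMap ↥L ↥(lg_E ↥L (N' * q * q))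
          ((kC : ↥(A.comap (algebraMap ↥L Qb))) : ↥L) ∈ VC.nonunits →
      ∀ (𝔫 : Ideal ↥(m59t2_B2 A N' q L)) (h𝔫 : 𝔫.IsMaximal),
        m59t2_PA A N' L hπq ≤ 𝔫 → m59t2_PB A N' hq2 hqN' L hπq ≤ 𝔫 → m59t2_PC A N' L VC ≤ 𝔫 →
        ∃ cCB cAC : (↥(A.comap (algebraMap ↥L Qb)))ˣ,
          m59t2_RatioCB A N' hq2 hqN' L hπq VC p 𝔫 h𝔫.isPrime g' cCB ∧
          ((q : ℕ) : ↥(A.comap (algebraMap ↥L Qb))) ∣
            (cCB : ↥(A.comap (algebraMap ↥L Qb))) ^ p * (kB : ↥(A.comap (algebraMap ↥L Qb))) -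
              (kC : ↥(A.comap (algebraMap ↥L Qb))) ∧
          m59t2_RatioAC A N' L hπq VC p 𝔫 h𝔫.isPrime g' cAC ∧
          ((q : ℕ) : ↥(A.comap (algebraMap ↥L Qb))) ∣
            (cAC : ↥(A.comap (algebraMap ↥L Qb))) ^ p * (kC : ↥(A.comap (algebraMap ↥L Qb))) -
              (kA : ↥(A.comap (algebraMap ↥L Qb)))

/-- **the constants only matter modulo `q`** (helper1's `Tor/Ex2Const`, as a seam). -/
def m59tx2p_Congr (p : ℕ) : Prop :=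
  ∀ (g' : ↥(lg_E ↥L (N' * q * q))) (VC : ValuationSubring ↥(lg_E ↥L (N' * q * q))),
    s36asm_Third (A.comap (algebraMap ↥L Qb)) hπq N' q hq2 hqN' VC →
    ∀ (𝔫 : Ideal ↥(m59t2_B2 A N' q L)) (h𝔫 : 𝔫.IsMaximal),
      m59t2_PA A N' L hπq ≤ 𝔫 → m59t2_PB A N' hq2 hqN' L hπq ≤ 𝔫 → m59t2_PC A N' L VC ≤ 𝔫 →
      ∀ c c' : (↥(A.comap (algebraMap ↥L Qb)))ˣ,
        ((q : ℕ) : ↥(A.comap (algebraMap ↥L Qb))) ∣
          (c : ↥(A.comap (algebraMap ↥L Qb))) - (c' : ↥(A.comap (algebraMap ↥L Qb))) →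
        (m59t2_RatioCB A N' hq2 hqN' L hπq VC p 𝔫 h𝔫.isPrime g' c →
          m59t2_RatioCB A N' hq2 hqN' L hπq VC p 𝔫 h𝔫.isPrime g' c') ∧
        (m59t2_RatioAC A N' L hπq VC p 𝔫 h𝔫.isPrime g' c →
          m59t2_RatioAC A N' L hπq VC p 𝔫 h𝔫.isPrime g' c')

/-- **[TAU-INV2]** (helper24's `Tor/TauInv2`, as a seam): for the `g'` of a normal form, two triple
points whose images along `aB` (resp. `bB`) carry the same label carry the same `(C,B)`-datum (resp.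
`(A,C)`-datum). -/
def m59tx2p_TauInv2 (aB bB : ↥(m59t1_B1 A N' q L) →+* ↥(m59t2_B2 A N' q L)) (p : ℕ) : Prop :=
  ∀ (z : JZero (N' * q * q)) (f : modularFunctionFieldBar (N' * q * q))
    (g1 : laurentBaseChange L (modularFunctionFieldFull (N' * q * q))) (c₀ : Qb)
    (r₀ : modularFunctionFieldBar (N' * q * q)) (k : ↥L) (R g' : ↥(lg_E ↥L (N' * q * q))),
    m59t2_NF A N' hq2 hqN' L hπq p z f g1 c₀ r₀ k R g' →
    ∀ (VC : ValuationSubring ↥(lg_E ↥L (N' * q * q))),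
      s36asm_Third (A.comap (algebraMap ↥L Qb)) hπq N' q hq2 hqN' VC →
    ∀ (𝔫 𝔫' : Ideal ↥(m59t2_B2 A N' q L)) (h𝔫 : 𝔫.IsMaximal) (h𝔫' : 𝔫'.IsMaximal),
      m59t2_PA A N' L hπq ≤ 𝔫 → m59t2_PB A N' hq2 hqN' L hπq ≤ 𝔫 → m59t2_PC A N' L VC ≤ 𝔫 →
      m59t2_PA A N' L hπq ≤ 𝔫' → m59t2_PB A N' hq2 hqN' L hπq ≤ 𝔫' → m59t2_PC A N' L VC ≤ 𝔫' →
      ∀ (Q : s44e_Sg A N' q hq.out hqN') (ε : (↥(A.comap (algebraMap ↥L Qb)))ˣ),
        (m59t1_Lab A hA N' hq2 hqN' L hπq (𝔫.comap aB) Q.1 →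
          m59t1_Lab A hA N' hq2 hqN' L hπq (𝔫'.comap aB) Q.1 →
          m59t2_RatioCB A N' hq2 hqN' L hπq VC p 𝔫 h𝔫.isPrime g' ε →
          m59t2_RatioCB A N' hq2 hqN' L hπq VC p 𝔫' h𝔫'.isPrime g' ε) ∧
        (m59t1_Lab A hA N' hq2 hqN' L hπq (𝔫.comap bB) Q.1 →
          m59t1_Lab A hA N' hq2 hqN' L hπq (𝔫'.comap bB) Q.1 →
          m59t2_RatioAC A N' L hπq VC p 𝔫 h𝔫.isPrime g' ε →
          m59t2_RatioAC A N' L hπq VC p 𝔫' h𝔫'.isPrime g' ε)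

/-- **the clause `ex2` over a level `L`** from the three seams. -/
theorem m59tx2p_ex2_of {p : ℕ} (hp : 0 < p) (ζ : (↥(A.comap (algebraMap ↥L Qb)))ˣ)
    (hζ : IsPrimitiveRoot (ζ : ↥(A.comap (algebraMap ↥L Qb))) p)
    (Q0 : s44e_Sg A N' q hq.out hqN')
    (aB bB : ↥(m59t1_B1 A N' q L) →+* ↥(m59t2_B2 A N' q L))
    (hEx : m59tx2p_Ex A N' hq2 hqN' L hπq p) (hCongr : m59tx2p_Congr A N' hq2 hqN' L hπq p)
    (hTau : m59tx2p_TauInv2 A hA N' hq2 hqN' L hπq aB bB p) :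
    ∀ z ∈ m59g12u_TorL A N' q hq2 hqN' L p 1,
      ∃ c : m59t1_B A N' hqN' p Q0 × m59t1_B A N' hqN' p Q0,
        m59t2_T2 A hA N' hq2 hqN' L hπq aB bB p ζ Q0 z c := by
  intro z hz
  obtain ⟨-, -, f, hrep, hnf⟩ := hz
  rw [pow_one] at hrep hnf
  obtain ⟨g1, c₀, r₀, k, R, g', hNF⟩ := m59t2_nf_of_NFOver A N' hq2 hqN' L hπq hrep hnf
  obtain ⟨VC, T0⟩ := s36asm_third_exists (A.comap (algebraMap ↥L Qb)) hπq N' q hq2 hqN' 1
    isUnit_one (mul_one _).symm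
  have hg'0 : g' ≠ 0 := hNF.2.2.2.2.2.2.2.1
  have hord : ∀ v : Place ↥L ↥(lg_E ↥L (N' * q * q)), (p : ℤ) ∣ v.ord g' :=
    hNF.2.2.2.2.2.2.2.2.2.1
  refine m59tx2p_T2_of_nf A hA N' hq2 hqN' L hπq hp ζ hζ Q0 aB bB hNF T0
    (fun kA kB kC hfA hfB hfC 𝔫 h𝔫 hPA hPB hPC =>
      hEx g' hg'0 hord VC T0 kA kB kC hfA hfB hfC 𝔫 h𝔫 hPA hPB hPC)
    (fun 𝔫 h𝔫 hPA hPB hPC c c' h hcc => (hCongr g' VC T0 𝔫 h𝔫 hPA hPB hPC c c' hcc).1 h)
    (fun 𝔫 h𝔫 hPA hPB hPC c c' h hcc => (hCongr g' VC T0 𝔫 h𝔫 hPA hPB hPC c c' hcc).2 h)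
    (fun 𝔫 𝔫' h𝔫 h𝔫' hPA hPB hPC hPA' hPB' hPC' Q hL hL' ε h =>
      (hTau z f g1 c₀ r₀ k R g' hNF VC T0 𝔫 𝔫' h𝔫 h𝔫' hPA hPB hPC hPA' hPB' hPC' Q ε).1 hL hL' h)
    (fun 𝔫 𝔫' h𝔫 h𝔫' hPA hPB hPC hPA' hPB' hPC' Q hL hL' ε h =>
      (hTau z f g1 c₀ r₀ k R g' hNF VC T0 𝔫 𝔫' h𝔫 h𝔫' hPA hPB hPC hPA' hPB' hPC' Q ε).2 hL hL' h)

end Seams

section Star

variable (A : ValuationSubring Qb) {q : ℕ} [hq : Fact q.Prime] (hA : A.LiesOverPrime q)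
  (N' : ℕ) [NeZero N'] [NeZero q] [NeZero (N' * q)] [NeZero (N' * q * q)] (hq2 : ¬ 2 ∣ q)
  (hqN' : ¬ q ∣ N') {p : ℕ} [hp : Fact p.Prime]

include hA in
/-- **the clause `ex2` of `m59tf_Cells2` over the big level**, from the three seams over `S.L1`
(ARBITRARY chart maps `aB bB`). -/
theorem m59tx2p_ex2_star_of (S : m59ls_Star N' q p A hq2 hqN') :
    haveI := (m59tx_star_inst A N' hq2 hqN' S).1
    haveI := S.lev.dvr
    haveI := m59tx_star_charP A hA N' hq2 hqN' S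
    ∀ (aB bB : ↥(m59t1_B1 A N' q S.L1) →+* ↥(m59t2_B2 A N' q S.L1))
      (ζ : (↥(A.comap (algebraMap ↥S.L1 Qb)))ˣ)
      (hζ : IsPrimitiveRoot (ζ : ↥(A.comap (algebraMap ↥S.L1 Qb))) p)
      (Q0 : s44e_Sg A N' q hq.out hqN')
      (hEx : m59tx2p_Ex A N' hq2 hqN' S.L1 S.lev.irr p)
      (hCongr : m59tx2p_Congr A N' hq2 hqN' S.L1 S.lev.irr p)
      (hTau : m59tx2p_TauInv2 A hA N' hq2 hqN' S.L1 S.lev.irr aB bB p),
      ∀ z ∈ m59g12u_TorL A N' q hq2 hqN' S.L1 p 1,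
        ∃ c, m59t2_T2 A hA N' hq2 hqN' S.L1 S.lev.irr aB bB p ζ Q0 z c := by
  haveI := (m59tx_star_inst A N' hq2 hqN' S).1
  haveI := S.lev.dvr
  haveI := m59tx_star_charP A hA N' hq2 hqN' S
  intro aB bB ζ hζ Q0 hEx hCongr hTau
  exact m59tx2p_ex2_of A hA N' hq2 hqN' S.L1 S.lev.irr hp.out.pos ζ hζ Q0 aB bB hEx hCongr hTau

end Star

end Fermat.Agent.M59
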