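/-
M59 / Sink B, leaf 4 [TOR-SURJ], THE SEAM [TRI-EX] OF Tor/FinalCells2.lean IS CLOSED (helper15).
Prefix `m59tf_`.

* `m59tf_triEx : m59tf_TriEx_stmt` (helper6's `m59tj2_hex` over the big level);
* **`m59tf_cells2_of_ex2 : m59tf_Ex2_stmt → m59tf_Cells2_stmt`**,
  **`m59tf_torSurjPlU_of_ex2' : m59tf_Ex2_stmt → m59g12u_TorSurjPlU_stmt`**: the leaf hangs on the
  clause (ex2) only.
-/
import Mathlib
import Fermat.Agent.M59.SinkB.Tor.FinalCells2
import Fermat.Agent.M59.SinkB.Tor.TriPt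

set_option autoImplicit false
set_option linter.unusedSectionVars false
set_option linter.unusedVariables false
set_option linter.style.haveILetI false
set_option synthInstance.maxHeartbeats 400000
set_option maxHeartbeats 1000000

noncomputable section

namespace Fermat.Agent.M59

open Polynomial ModularCurve AlgebraicCurve IntermediateField IsLocalRing
open Fermat.Agent.JT3 Fermat.Agent.SS Fermat.Agent.S35 Fermat.Agent.S24 Fermat.Agent.S44
  Fermat.Agent.S36 Fermat.Agent.SS2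

local notation "Qb" => AlgebraicClosure ℚ

/-- **[TRI-EX] over the big level.** -/
theorem m59tf_triEx : m59tf_TriEx_stmt := by
  intro N' q p _ _ hqF _ _ hpF hp2 hqp hq2 hqN' h4 A hA S
  unfold m59tf_TriEx
  haveI := (m59tx_star_inst A N' hq2 hqN' S).1
  haveI := S.lev.dvr
  haveI := m59tx_star_charP A hA N' hq2 hqN' S
  obtain ⟨Q0⟩ : Nonempty (s44e_Sg A N' q hqF.out hqN') :=
    m59tcm_nonempty_Sg A hA N' hqN' hq2 h4
  exact m59tj2_hex A hA N' hq2 hqN' S.L1 S.lev.irr S.zN S.hzN Q0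

/-- **the seam `m59tf_Cells2_stmt` from (ex2).** -/
theorem m59tf_cells2_of_ex2 (hEx2 : m59tf_Ex2_stmt) : m59tf_Cells2_stmt :=
  m59tf_cells2_of m59tf_triEx hEx2

/-- **the leaf [TOR-SURJ] from (ex2).** -/
theorem m59tf_torSurjPlU_of_ex2' (hEx2 : m59tf_Ex2_stmt) : m59g12u_TorSurjPlU_stmt :=
  m59tf_torSurjPlU_of_cells2 (m59tf_cells2_of_ex2 hEx2)

end Fermat.Agent.M59
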