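/-
M59 / Sink B, leaf 4 [TOR-SURJ], THE LEAF FROM [TAU-INV2] ALONE (helper15).  Prefix `m59tf_`.

helper23's `m59tx2a_ex2_star` (Tor/Ex2AsmStar.lean) gives the clause (ex2) over the big level from
[TAU-INV2] (`m59tx2a_TauInv2`).  Hence the whole leaf hangs on ONE seam:

* `m59tf_TauInv2_stmt` : [TAU-INV2] over the big level, for any chart maps over `α^*`, `β^*`
  (`haB`, `hbB` = the binders of `m59tpa_pull_closed`);
* `m59tf_ex2_of_tauInv2 : m59tf_TauInv2_stmt → m59tf_Ex2_stmt`;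
* **`m59tf_cells2_of_tauInv2 : m59tf_TauInv2_stmt → m59tf_Cells2_stmt`**,
  **`m59tf_torSurjPlU_of_tauInv2 : m59tf_TauInv2_stmt → m59g12u_TorSurjPlU_stmt`**.
-/
import Mathlib
import Fermat.Agent.M59.SinkB.Tor.FinalTri
import Fermat.Agent.M59.SinkB.Tor.Ex2AsmStar

set_option autoImplicit false
set_option linter.unusedSectionVars false
set_option linter.unusedVariables false
set_option linter.style.haveILetI false
set_option synthInstance.maxHeartbeats 400000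
set_option maxHeartbeats 1000000

noncomputable section

namespace Fermat.Agent.M59

open Polynomial ModularCurve AlgebraicCurve IntermediateField IsLocalRing
open Fermat.Agent.JT3 Fermat.Agent.SS Fermat.Agent.S35 Fermat.Agent.S24 Fermat.Agent.S44
  Fermat.Agent.S36 Fermat.Agent.SS2

local notation "Qb" => AlgebraicClosure ℚ

section Seams

variable (A : ValuationSubring Qb) {q : ℕ} [hq : Fact q.Prime] (hA : A.LiesOverPrime q)
  (N' : ℕ) [NeZero N'] [NeZero q] [NeZero (N' * q)] [NeZero (N' * q * q)] (hq2 : ¬ 2 ∣ q)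
  (hqN' : ¬ q ∣ N') {p : ℕ} [hp : Fact p.Prime]

/-- **[TAU-INV2] over the big level**, for any chart maps over `α^*`, `β^*`. -/
def m59tf_TauInv2 (S : m59ls_Star N' q p A hq2 hqN') : Prop :=
  haveI := (m59tx_star_inst A N' hq2 hqN' S).1
  haveI := S.lev.dvr
  haveI := m59tx_star_charP A hA N' hq2 hqN' S
  ∀ (aB bB : ↥(m59t1_B1 A N' q S.L1) →+* ↥(m59t2_B2 A N' q S.L1))
    (haB : ∀ b : ↥(m59t1_B1 A N' q S.L1),
      ((aB b : ↥(m59t2_B2 A N' q S.L1)) : ↥(lg_E ↥S.L1 (N' * q * q))) =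
        m59tpr_aE ↥S.L1 N' q (b : ↥(lg_E ↥S.L1 (N' * q))))
    (hbB : ∀ b : ↥(m59t1_B1 A N' q S.L1),
      ((bB b : ↥(m59t2_B2 A N' q S.L1)) : ↥(lg_E ↥S.L1 (N' * q * q))) =
        m59tpr_bE ↥S.L1 N' q hq2 (b : ↥(lg_E ↥S.L1 (N' * q)))),
    m59tx2a_TauInv2 A hA N' hq2 hqN' S aB bB

end Seams

/-- **[TAU-INV2]** as a seam. -/
def m59tf_TauInv2_stmt : Prop :=
  ∀ (N' q p : ℕ) [NeZero N'] [NeZero q] [Fact q.Prime] [NeZero (N' * q)] [NeZero (N' * q * q)]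
    [Fact p.Prime],
    p ≠ 2 → q ≠ p → ∀ (hq2 : ¬ 2 ∣ q) (hqN' : ¬ q ∣ N'), 4 ∣ N' →
    ∀ (A : ValuationSubring Qb) (hA : A.LiesOverPrime q) (S : m59ls_Star N' q p A hq2 hqN'),
      m59tf_TauInv2 A hA N' hq2 hqN' S

/-- **(ex2) from [TAU-INV2].** -/
theorem m59tf_ex2_of_tauInv2 (hT : m59tf_TauInv2_stmt) : m59tf_Ex2_stmt := by
  intro N' q p _ _ hqF _ _ hpF hp2 hqp hq2 hqN' h4 A hA S ζ hζ Q0
  have hT' := hT N' q p hp2 hqp hq2 hqN' h4 A hA S
  unfold m59tf_Ex2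
  unfold m59tf_TauInv2 at hT'
  intro aB bB haB hbB
  exact m59tx2a_ex2_star A hA N' hq2 hqN' S aB bB ζ hζ Q0 (hT' aB bB haB hbB)

/-- **the seam `m59tf_Cells2_stmt` from [TAU-INV2].** -/
theorem m59tf_cells2_of_tauInv2 (hT : m59tf_TauInv2_stmt) : m59tf_Cells2_stmt :=
  m59tf_cells2_of_ex2 (m59tf_ex2_of_tauInv2 hT)

/-- **the leaf [TOR-SURJ] from [TAU-INV2].** -/
theorem m59tf_torSurjPlU_of_tauInv2 (hT : m59tf_TauInv2_stmt) : m59g12u_TorSurjPlU_stmt :=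
  m59tf_torSurjPlU_of_cells2 (m59tf_cells2_of_tauInv2 hT)

end Fermat.Agent.M59
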