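/-
M59 / Sink B, leaf 4 [TOR-SURJ], THE LEAF IS CLOSED (helper15, leaf owner).  Prefix `m59tf_`.

* `m59tf_tauInv2 : m59tf_TauInv2_stmt` (helper5's `m59tx2p_tauInv2`, Tor/TauInv2Comp.lean);
* **`m59tf_cells2 : m59tf_Cells2_stmt`** : (pull) + (ex2) + (inj2) over the big level, NO hypothesis;
* **`m59tf_torSurjPlU : m59g12u_TorSurjPlU_stmt`** : THE LEAF [TOR-SURJ] of Sink B, NO hypothesis.
-/
import Mathlib
import Fermat.Agent.M59.SinkB.Tor.FinalEx2
import Fermat.Agent.M59.SinkB.Tor.TauInv2Comp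

set_option autoImplicit false

noncomputable section

namespace Fermat.Agent.M59

/-- **[TAU-INV2] over the big level.** -/
theorem m59tf_tauInv2 : m59tf_TauInv2_stmt := m59tx2p_tauInv2

/-- **(pull) + (ex2) + (inj2) over the big level**: the seam of Tor/Final.lean is closed. -/
theorem m59tf_cells2 : m59tf_Cells2_stmt := m59tf_cells2_of_tauInv2 m59tf_tauInv2

/-- **THE LEAF [TOR-SURJ]** (helper29's `m59g12u_TorSurjPlU_stmt`, G12/WireCU.lean). -/
theorem m59tf_torSurjPlU : m59g12u_TorSurjPlU_stmt := m59tf_torSurjPlU_of_tauInv2 m59tf_tauInv2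

end Fermat.Agent.M59
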