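/-
M59 / Sink B, leaf 4 [TOR-SURJ], cell [GLUE2] IN THE VOCABULARY OF `Tor/Defs2.lean` (helper3).
Prefix `m59t2_`.

Context of `Tor/Defs1.lean`/`Tor/Defs2.lean` (`A`, `L ⊆ ℚ̄` the big level, `O = A ∩ L`, uniformiser
`q`), `ζ ∈ L` a primitive `N'`-th root of unity, `VC` with `s36asm_Third`:

* `m59t2_glue`  : `f ≡ kA, kB, kC` at `VA, VB, VC`, `p ∣` all orders (`q ∤ m`), `q ∣ kC - kB cCBᵐ`,
  `q ∣ kA - kC cACᵐ`, `m59t2_RatioCB … f cCB ∧ m59t2_RatioAC … f cAC` at EVERY triple point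
  ⟹ `f = c · gᵐ` (`m59ti_glue_ratio_leg`);
* `m59t2_hK`    : the two divisibilities from ONE triple point (`m59ti_leg_hK`).
-/
import Mathlib
import Fermat.Agent.M59.SinkB.Tor.Defs2
import Fermat.Agent.M59.SinkB.Tor.GlueRatio

set_option autoImplicit false
set_option linter.unusedSectionVars false
set_option linter.unusedVariables false
set_option linter.style.haveILetI false
set_option synthInstance.maxHeartbeats 400000
set_option maxHeartbeats 1000000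

noncomputable section

namespace Fermat.Agent.M59

open Polynomial ModularCurve AlgebraicCurve IntermediateField IsLocalRing
open Fermat.Agent.JT3 Fermat.Agent.SS Fermat.Agent.S35 Fermat.Agent.S24 Fermat.Agent.S44
  Fermat.Agent.S36 Fermat.Agent.SS2

local notation "Qb" => AlgebraicClosure ℚ

section Glue

variable (A : ValuationSubring Qb) {q : ℕ} [hq : Fact q.Prime] (hA : A.LiesOverPrime q)
  (N' : ℕ) [NeZero N'] [NeZero q] [NeZero (N' * q)] [NeZero (N' * q * q)]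
  (hq2 : ¬ 2 ∣ q) (hqN' : ¬ q ∣ N')
  (L : IntermediateField ℚ Qb) [NumberField ↥L]
  [IsDiscreteValuationRing ↥(A.comap (algebraMap ↥L Qb))]
  [CharP (ResidueField ↥(A.comap (algebraMap ↥L Qb))) q]
  (hπq : Irreducible ((q : ℕ) : ↥(A.comap (algebraMap ↥L Qb))))
  (ζ : ↥L) (hζ : IsPrimitiveRoot ζ N')

include hζ in
/-- **[GLUE2] in the vocabulary of Defs2.** -/
theorem m59t2_glue {VC : ValuationSubring ↥(lg_E ↥L (N' * q * q))}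
    (T3 : s36asm_Third (A.comap (algebraMap ↥L Qb)) hπq N' q hq2 hqN' VC) (m : ℕ)
    (hqm : ¬ q ∣ m) {f : ↥(lg_E ↥L (N' * q * q))} (hf0 : f ≠ 0)
    (kA kB kC cCB cAC : (↥(A.comap (algebraMap ↥L Qb)))ˣ)
    (hKCB : ((q : ℕ) : ↥(A.comap (algebraMap ↥L Qb))) ∣
      (kC : ↥(A.comap (algebraMap ↥L Qb))) - (kB : ↥(A.comap (algebraMap ↥L Qb))) *
        (cCB : ↥(A.comap (algebraMap ↥L Qb))) ^ m)
    (hKAC : ((q : ℕ) : ↥(A.comap (algebraMap ↥L Qb))) ∣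
      (kA : ↥(A.comap (algebraMap ↥L Qb))) - (kC : ↥(A.comap (algebraMap ↥L Qb))) *
        (cAC : ↥(A.comap (algebraMap ↥L Qb))) ^ m)
    (hfA : f - algebraMap ↥L ↥(lg_E ↥L (N' * q * q))
        ((kA : ↥(A.comap (algebraMap ↥L Qb))) : ↥L) ∈
      (s36i_VA (A.comap (algebraMap ↥L Qb)) hπq (N' * q) q).nonunits)
    (hfB : f - algebraMap ↥L ↥(lg_E ↥L (N' * q * q))
        ((kB : ↥(A.comap (algebraMap ↥L Qb))) : ↥L) ∈
      (s36i_VB (A.comap (algebraMap ↥L Qb)) hπq N' q hq2 hqN').nonunits)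
    (hfC : f - algebraMap ↥L ↥(lg_E ↥L (N' * q * q))
        ((kC : ↥(A.comap (algebraMap ↥L Qb))) : ↥L) ∈ VC.nonunits)
    (hord : ∀ P : Place ↥L ↥(lg_E ↥L (N' * q * q)), (m : ℤ) ∣ P.ord f)
    (hrat : ∀ (𝔫 : Ideal ↥(m59t2_B2 A N' q L)) (h𝔫 : 𝔫.IsMaximal),
      m59t2_PA A N' L hπq ≤ 𝔫 → m59t2_PB A N' hq2 hqN' L hπq ≤ 𝔫 → m59t2_PC A N' L VC ≤ 𝔫 →
      m59t2_RatioCB A N' hq2 hqN' L hπq VC m 𝔫 h𝔫.isPrime f cCB ∧
        m59t2_RatioAC A N' L hπq VC m 𝔫 h𝔫.isPrime f cAC) :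
    ∃ (c : ↥L) (g : ↥(lg_E ↥L (N' * q * q))), g ≠ 0 ∧
      f = algebraMap ↥L ↥(lg_E ↥L (N' * q * q)) c * g ^ m :=
  m59ti_glue_ratio_leg ↥L (A.comap (algebraMap ↥L Qb)) N' q hq2 hqN' hπq ζ hζ T3 m hqm hf0
    kA kB kC cCB cAC hKCB hKAC hfA hfB hfC hord
    (fun 𝔫 h𝔫 _ hPA hPB hPC => hrat 𝔫 h𝔫 hPA hPB hPC)

include hζ in
/-- **the hypotheses `hKCB`, `hKAC` of `m59t2_glue` from ONE triple point.** -/
theorem m59t2_hK {VC : ValuationSubring ↥(lg_E ↥L (N' * q * q))}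
    (T3 : s36asm_Third (A.comap (algebraMap ↥L Qb)) hπq N' q hq2 hqN' VC) (m : ℕ)
    {f : ↥(lg_E ↥L (N' * q * q))}
    (kA kB kC cCB cAC : (↥(A.comap (algebraMap ↥L Qb)))ˣ)
    (hfA : f - algebraMap ↥L ↥(lg_E ↥L (N' * q * q))
        ((kA : ↥(A.comap (algebraMap ↥L Qb))) : ↥L) ∈
      (s36i_VA (A.comap (algebraMap ↥L Qb)) hπq (N' * q) q).nonunits)
    (hfB : f - algebraMap ↥L ↥(lg_E ↥L (N' * q * q))
        ((kB : ↥(A.comap (algebraMap ↥L Qb))) : ↥L) ∈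
      (s36i_VB (A.comap (algebraMap ↥L Qb)) hπq N' q hq2 hqN').nonunits)
    (hfC : f - algebraMap ↥L ↥(lg_E ↥L (N' * q * q))
        ((kC : ↥(A.comap (algebraMap ↥L Qb))) : ↥L) ∈ VC.nonunits)
    (𝔫 : Ideal ↥(m59t2_B2 A N' q L)) (h𝔫 : 𝔫.IsMaximal)
    (hPA : m59t2_PA A N' L hπq ≤ 𝔫) (hPB : m59t2_PB A N' hq2 hqN' L hπq ≤ 𝔫)
    (hPC : m59t2_PC A N' L VC ≤ 𝔫)
    (hCB : m59t2_RatioCB A N' hq2 hqN' L hπq VC m 𝔫 h𝔫.isPrime f cCB)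
    (hAC : m59t2_RatioAC A N' L hπq VC m 𝔫 h𝔫.isPrime f cAC) :
    ((q : ℕ) : ↥(A.comap (algebraMap ↥L Qb))) ∣
      (kC : ↥(A.comap (algebraMap ↥L Qb))) - (kB : ↥(A.comap (algebraMap ↥L Qb))) *
        (cCB : ↥(A.comap (algebraMap ↥L Qb))) ^ m ∧
    ((q : ℕ) : ↥(A.comap (algebraMap ↥L Qb))) ∣
      (kA : ↥(A.comap (algebraMap ↥L Qb))) - (kC : ↥(A.comap (algebraMap ↥L Qb))) *
        (cAC : ↥(A.comap (algebraMap ↥L Qb))) ^ m :=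
  m59ti_leg_hK ↥L (A.comap (algebraMap ↥L Qb)) N' q hq2 hqN' hπq ζ hζ T3 m kA kB kC cCB cAC
    hfA hfB hfC 𝔫 h𝔫 hPA hPB hPC ⟨hCB, hAC⟩

end Glue

end Fermat.Agent.M59
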