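/-
M59 / Sink B, leaf 4 [TOR-SURJ], THE FIELD `inj1` OF `m59tc_Data` / `m59tc_DataU` OVER THE BIG LEVEL
(helper6).  Prefix `m59tj_`.

* `m59tj_natCast_unit` : a prime `p` different from the residue characteristic `q` is a unit of a
  local ring `O` with `CharP (ResidueField O) q`;
* **`m59tj_inj1_star`** : (inj1) over the big level `S : m59ls_Star N' q p A hq2 hqN'` (helper29), in
  the same binder form as helper5's `m59tx_ex1_star`: the instances, `ζ_{N'}` and the Frobenius
  lift come from `S`; NO hypothesis left.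
-/
import Mathlib
import Fermat.Agent.M59.SinkB.Tor.Inj1All
import Fermat.Agent.M59.SinkB.Tor.Ex1Star

set_option autoImplicit false
set_option linter.unusedSectionVars false
set_option linter.unusedVariables false
set_option linter.style.haveILetI false
set_option synthInstance.maxHeartbeats 400000
set_option maxHeartbeats 3200000

noncomputable section

namespace Fermat.Agent.M59

open Fermat.Agent.TW

open Polynomial ModularCurve AlgebraicCurve IntermediateField IsLocalRing
open Fermat.Agent.JT3 Fermat.Agent.SS Fermat.Agent.S35 Fermat.Agent.S24 Fermat.Agent.S44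
  Fermat.Agent.S36

local notation "Qb" => AlgebraicClosure ℚ

/-- a prime different from the residue characteristic is a unit. -/
theorem m59tj_natCast_unit {O : Type*} [CommRing O] [IsLocalRing O] {q p : ℕ}
    [CharP (ResidueField O) q] (hq : q.Prime) (hp : p.Prime) (hqp : q ≠ p) :
    IsUnit ((p : ℕ) : O) := by
  by_contra hnu
  have hmem : ((p : ℕ) : O) ∈ maximalIdeal O := (mem_maximalIdeal _).2 hnu
  have h0 : ((p : ℕ) : ResidueField O) = 0 := by
    have := (IsLocalRing.residue_eq_zero_iff ((p : ℕ) : O)).2 hmem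
    rwa [map_natCast] at this
  have hdvd : q ∣ p := (CharP.cast_eq_zero_iff (ResidueField O) q p).1 h0
  exact hqp ((Nat.prime_dvd_prime_iff_eq hq hp).1 hdvd)

section Star

variable (A : ValuationSubring Qb) {q : ℕ} [hq : Fact q.Prime] (hA : A.LiesOverPrime q)
  (N' : ℕ) [NeZero N'] [NeZero q] [NeZero (N' * q)] [NeZero (N' * q * q)] (hq2 : ¬ 2 ∣ q)
  (hqN' : ¬ q ∣ N') {p : ℕ} [hp : Fact p.Prime]

include hA in
/-- **the field `inj1` of `m59tc_Data` / `m59tc_DataU` over the big level**: no hypothesis. -/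
theorem m59tj_inj1_star (hp2 : p ≠ 2) (hqp : q ≠ p) (S : m59ls_Star N' q p A hq2 hqN') :
    haveI := (m59tx_star_inst A N' hq2 hqN' S).1
    haveI := S.lev.dvr
    haveI := m59tx_star_charP A hA N' hq2 hqN' S
    ∀ (ζ : (↥(A.comap (algebraMap ↥S.L1 Qb)))ˣ) (Q0 : s44e_Sg A N' q hq.out hqN')
      (u : JZero (N' * q)) (u' : JZero (N' * q)) (a : m59t1_B A N' hqN' p Q0),
      m59t1_T1 A hA N' hq2 hqN' S.L1 S.lev.irr p ζ Q0 u a →
      m59t1_T1 A hA N' hq2 hqN' S.L1 S.lev.irr p ζ Q0 u' a → u = u' := by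
  haveI := (m59tx_star_inst A N' hq2 hqN' S).1
  haveI := S.lev.dvr
  haveI := m59tx_star_charP A hA N' hq2 hqN' S
  intro ζ Q0 u u' a h h'
  obtain ⟨φ, hφ⟩ := fex_exists_isFrobeniusAt hq.out A hA
  have hodd : Odd p := hp.out.odd_of_ne_two hp2
  have hm : IsUnit ((p : ℕ) : ↥(A.comap (algebraMap ↥S.L1 Qb))) :=
    m59tj_natCast_unit hq.out hp.out hqp
  exact m59tj_inj1_closed A hA N' hq2 hqN' S.L1 S.lev.irr S.zN S.hzN
    (S.lev.res φ hφ.mem_decompositionSubgroup).toRingEquiv (S.lev.frobAt φ hφ) hodd hm ζ Q0 h h'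

end Star

end Fermat.Agent.M59
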