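/-
M59 / Sink B, leaf 4 [TOR-SURJ], cell [TAU-INV] (helper24; prefix `m59tt_`), part 2:
THE FIXED FIELD OF THE DECK INVOLUTION.

* `m59tt_tau_lam`   : `τ λ · (λ - 1) = λ`;
* `m59tt_tau_fixed` : for EVEN `M`, `τ z = z ⟹ z ∈ φ(F_M)` (`E = φ(F_M)(λ)`, `λ` quadratic over
  `φ(F_M)`: `m59ev_lam_minpoly_le`, `s44rr_hgen`; `z = φ(a) λ + φ(b)` and `τ λ ≠ λ`).
-/
import Mathlib
import Fermat.Agent.M59.SinkB.Tor.TauDef
import Fermat.Agent.M59.DTwin.Even

set_option autoImplicit false
set_option linter.unusedSectionVars false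
set_option linter.unusedVariables false
set_option linter.style.haveILetI false
set_option synthInstance.maxHeartbeats 200000
set_option maxHeartbeats 800000

noncomputable section

namespace Fermat.Agent.M59

open Polynomial ModularCurve IntermediateField AlgebraicCurve
open Fermat.Agent.S28 Fermat.Agent.JT3 Fermat.Agent.SS Fermat.Agent.S44

section Fix

variable {k : Type*} [Field k] (M : ℕ) [NeZero M]

/-- `τ₀ t₄ = -16 - t₄`. -/
theorem m59tt_tau0_t4_eq (h2 : (2 : k) ≠ 0) : m59tt_tau0 k (hm_t4 k) = -16 - hm_t4 k := by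
  rcases m59tt_tau0_t4 k with h | h
  · exfalso
    -- then `τ₀ λ = λ`
    have h16 := ssm_f4_sixteen_ne_zero (L := k) h2
    have hl := hm_lam_mul k
    have hl' := congrArg (m59tt_tau0 k) hl
    rw [map_mul, map_add, map_ofNat, h] at hl'
    have hne : hm_t4 k + 16 ≠ 0 := by
      intro h0
      rw [h0, mul_zero] at hl
      exact h16 hl.symm
    have heq : m59tt_tau0 k (hm_lam k) = hm_lam k :=
      mul_right_cancel₀ hne (hl'.trans hl.symm)
    haveI : NeZero (1 : ℕ) := ⟨one_ne_zero⟩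
    exact m59tt_tau_lam_ne (L := k) (N := 1) h2 (Subtype.ext heq)
  · exact h

/-- `τ₀ λ · (λ - 1) = λ` in Laurent series. -/
theorem m59tt_tau0_lam (h2 : (2 : k) ≠ 0) :
    m59tt_tau0 k (hm_lam k) * (hm_lam k - 1) = hm_lam k := by
  have h16 := ssm_f4_sixteen_ne_zero (L := k) h2
  have hl := hm_lam_mul k
  have hl' := congrArg (m59tt_tau0 k) hl
  rw [map_mul, map_add, map_ofNat, m59tt_tau0_t4_eq h2] at hl'
  have e : (16 : LaurentSeries k) * (m59tt_tau0 k (hm_lam k) * (hm_lam k - 1)) =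
      16 * hm_lam k := by
    linear_combination (m59tt_tau0 k (hm_lam k)) * hl + (hm_lam k) * hl'
  exact mul_left_cancel₀ h16 e

variable {M}

/-- `τ λ · (λ - 1) = λ`. -/
theorem m59tt_tau_lam (h2 : (2 : k) ≠ 0) :
    m59tt_tau k M h2 (lg_lamE M) * ((lg_lamE M : lg_E k M) - 1) = lg_lamE M :=
  Subtype.ext (m59tt_tau0_lam h2)

/-- `E = φ(F_M) + φ(F_M) λ` for even `M`. -/
theorem m59tt_repr (hM : 2 ∣ M) (z : lg_E k M) :
    ∃ a b : lg_F k M, lg_phiE (L := k) (N := M) a * lg_lamE M +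
      lg_phiE (L := k) (N := M) b = z := by
  letI := algebraAlong (lg_phiE (L := k) (N := M))
  obtain ⟨hint, hle⟩ := m59ev_lam_minpoly_le (k := k) M hM
  have hgen := s44rr_hgen (k := k) M
  have hz1 : z ∈ (IntermediateField.adjoin (lg_F k M) {(lg_lamE M : lg_E k M)}).toSubalgebra := by
    show z ∈ IntermediateField.adjoin (lg_F k M) {(lg_lamE M : lg_E k M)}
    rw [hgen]
    exact IntermediateField.mem_top
  rw [IntermediateField.adjoin_simple_toSubalgebra_of_isAlgebraic hint.isAlgebraic,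
    Algebra.adjoin_singleton_eq_range_aeval] at hz1
  obtain ⟨p, hp⟩ := hz1
  set m := minpoly (lg_F k M) (lg_lamE M : lg_E k M) with hm
  have hmon : m.Monic := minpoly.monic hint
  have hroot : aeval (lg_lamE M : lg_E k M) m = 0 := minpoly.aeval _ _
  have hr : aeval (lg_lamE M : lg_E k M) (p %ₘ m) = z := by
    rw [aeval_modByMonic_eq_self_of_root hroot]
    exact hp
  have hdeg : (p %ₘ m).natDegree ≤ 1 := by
    by_cases hm1 : m = 1
    · rw [hm1, modByMonic_one, natDegree_zero]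
      exact Nat.zero_le _
    · have := natDegree_modByMonic_lt p hmon hm1
      omega
  rw [eq_X_add_C_of_natDegree_le_one hdeg] at hr
  refine ⟨(p %ₘ m).coeff 1, (p %ₘ m).coeff 0, ?_⟩
  rw [Polynomial.aeval_def, eval₂_add, eval₂_mul, eval₂_C, eval₂_X, eval₂_C] at hr
  exact hr

/-- **the fixed field of `τ` is `φ(F_M)`** for even `M`. -/
theorem m59tt_tau_fixed (h2 : (2 : k) ≠ 0) (hM : 2 ∣ M) (z : lg_E k M)
    (hz : m59tt_tau k M h2 z = z) : ∃ y : lg_F k M, lg_phiE (L := k) (N := M) y = z := by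
  obtain ⟨a, b, hr⟩ := m59tt_repr hM z
  -- apply `τ`
  have hτz : lg_phiE (L := k) (N := M) a * m59tt_tau k M h2 (lg_lamE M) +
      lg_phiE (L := k) (N := M) b = z := by
    have := congrArg (m59tt_tau k M h2) hr
    rw [map_add, map_mul, m59tt_tau_phiE, m59tt_tau_phiE, hz] at this
    exact this
  have h0 : lg_phiE (L := k) (N := M) a *
      (m59tt_tau k M h2 (lg_lamE M) - lg_lamE M) = 0 := by
    rw [mul_sub]
    linear_combination hτz - hr
  rcases mul_eq_zero.1 h0 with h | h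
  · refine ⟨b, ?_⟩
    rw [← hr, h, zero_mul, zero_add]
  · exact absurd (sub_eq_zero.1 h) (m59tt_tau_lam_ne h2)

end Fix

end Fermat.Agent.M59

end
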