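/-
M59 / Sink B, leaf 4 [TOR-SURJ], LEVEL `N' q q`, cell [LAB-CONJ2] (helper7).  Prefix `m59tq_`.

THE VALUATION INPUT OF [TAU-INV2] IN THE VOCABULARY OF `T2` (Tor/Defs2.lean).  `T2` labels a point `𝔫`
of the chart `B2` of level `N' q q` through the crossing point `𝔫.comap φB` of `B1` (`φB = aB` or
`bB`, a PARAMETER here, with its field map `φE`).  Two points `𝔫, 𝔫'` of `B2` whose images carry the
SAME label `Q ∈ Sg` are equal, or they are the centres of two valuation rings `𝒱₂`, `𝒱₂' = τ₂ 𝒱₂` of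
`E2` exchanged by the deck involution `τ₂ = m59tt_tau` of level `N' q q`:

**`m59tq_lab_conj2`** : `m59t1_Lab (𝔫.comap φB) Q → m59t1_Lab (𝔫'.comap φB) Q → 𝔫' = 𝔫 ∨ ∃ 𝒱₂ 𝒱₂',
  (∀ x, x ∈ 𝒱₂ ↔ τ₂ x ∈ 𝒱₂') ∧ B2 ⊆ 𝒱₂ ∧ B2 ⊆ 𝒱₂' ∧ (b ∈ 𝔫 ↔ b ∈ 𝔪(𝒱₂)) ∧ (b ∈ 𝔫' ↔ b ∈ 𝔪(𝒱₂')) ∧
  φE (λ - 1) ∉ 𝔪(𝒱₂')` — literally the hypotheses `h𝒱 hB hB' h𝔫 h𝔫'` of helper24's `m59tt_ratio_tau`
  (Tor/TauRatio.lean) and, through `τ λ (λ - 1) = λ`, of `m59tt_tau_chart_mem`.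

Hypotheses taken from the context: `hφB` (the chart map is the restriction of `φE`), `hint` (it is
integral), `hτ` (`τ₂ ∘ φE = φE ∘ τ₁`: for `aE` by definition, for `bE = (X ↦ X^q)` because `q` is odd),
and [UNIQ2] `huniq` (a point of `B2` over a crossing point of `B1` is the only one: on main as
`s36tl11_huniq` for `aB`, `s36tri_leg_unique_W` for the mirror).
-/
import Mathlib
import Fermat.Agent.M59.SinkB.Tor.LiftLab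
import Fermat.Agent.M59.SinkB.Tor.Defs2
import Fermat.Agent.M59.SinkB.Tor.TauFix
import Fermat.Agent.M59.SinkB.Tor.TauInv
import Fermat.Agent.M59.Mazur.Val.ValConj

set_option autoImplicit false
set_option linter.unusedSectionVars false
set_option linter.unusedVariables false
set_option linter.style.haveILetI false
set_option synthInstance.maxHeartbeats 400000
set_option maxHeartbeats 3200000

noncomputable section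

namespace Fermat.Agent.M59

open Polynomial ModularCurve AlgebraicCurve IntermediateField IsLocalRing
open Fermat.Agent.JT3 Fermat.Agent.SS Fermat.Agent.S35 Fermat.Agent.S24 Fermat.Agent.S44
  Fermat.Agent.S36

local notation "Qb" => AlgebraicClosure ℚ

section LabConj

variable (A : ValuationSubring Qb) {q : ℕ} [hq : Fact q.Prime] (hA : A.LiesOverPrime q)
  (N' : ℕ) [NeZero N'] [NeZero q] [NeZero (N' * q)] [NeZero (N' * q * q)]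
  (hq2 : ¬ 2 ∣ q) (hqN' : ¬ q ∣ N')
  (L : IntermediateField ℚ Qb) [NumberField ↥L]
  [IsDiscreteValuationRing ↥(A.comap (algebraMap ↥L Qb))]
  [CharP (ResidueField ↥(A.comap (algebraMap ↥L Qb))) q]
  {π : ↥(A.comap (algebraMap ↥L Qb))} (hπ : Irreducible π)
  (ζ : ↥L) (hζ : IsPrimitiveRoot ζ N') (h2 : (2 : ↥L) ≠ 0) (h2N : 2 ∣ N')

include hζ h2N in
/-- **[LAB-CONJ2]**: two points of `B2` whose images in `B1` carry the same label are equal or are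
the centres of two `τ₂`-conjugate valuation rings of `E2`. -/
theorem m59tq_lab_conj2
    (φE : ↥(lg_E ↥L (N' * q)) →+* ↥(lg_E ↥L (N' * q * q)))
    (φB : ↥(m59t1_B1 A N' q L) →+* ↥(m59t2_B2 A N' q L))
    (hφB : ∀ b : ↥(m59t1_B1 A N' q L),
      ((φB b : ↥(m59t2_B2 A N' q L)) : ↥(lg_E ↥L (N' * q * q))) = φE (b : ↥(lg_E ↥L (N' * q))))
    (hint : φB.IsIntegral)
    (hτ : ∀ y : ↥(lg_E ↥L (N' * q)),
      m59tt_tau ↥L (N' * q * q) h2 (φE y) = φE (m59tt_tau ↥L (N' * q) h2 y))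
    (huniq : ∀ 𝔪 𝔪' : Ideal ↥(m59t2_B2 A N' q L), 𝔪.IsMaximal → 𝔪'.IsMaximal →
      m59t1_P1 A N' L hπ ≤ 𝔪.comap φB → m59t1_P2 A N' hq2 hqN' L hπ ≤ 𝔪.comap φB →
      𝔪'.comap φB = 𝔪.comap φB → 𝔪' = 𝔪)
    (𝔫 𝔫' : Ideal ↥(m59t2_B2 A N' q L)) (h𝔫 : 𝔫.IsMaximal) (h𝔫' : 𝔫'.IsMaximal)
    (Q : s44e_Sg A N' q hq.out hqN')
    (hL : m59t1_Lab A hA N' hq2 hqN' L hπ (𝔫.comap φB) Q.1)
    (hL' : m59t1_Lab A hA N' hq2 hqN' L hπ (𝔫'.comap φB) Q.1) :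
    𝔫' = 𝔫 ∨ ∃ 𝒱₂ 𝒱₂' : ValuationSubring ↥(lg_E ↥L (N' * q * q)),
      (∀ x : ↥(lg_E ↥L (N' * q * q)),
        x ∈ 𝒱₂ ↔ (m59tt_tau ↥L (N' * q * q) h2).toRingEquiv x ∈ 𝒱₂') ∧
      (∀ b : ↥(m59t2_B2 A N' q L), (b : ↥(lg_E ↥L (N' * q * q))) ∈ 𝒱₂) ∧
      (∀ b : ↥(m59t2_B2 A N' q L), (b : ↥(lg_E ↥L (N' * q * q))) ∈ 𝒱₂') ∧
      (∀ b : ↥(m59t2_B2 A N' q L), b ∈ 𝔫 ↔ (b : ↥(lg_E ↥L (N' * q * q))) ∈ 𝒱₂.nonunits) ∧
      (∀ b : ↥(m59t2_B2 A N' q L), b ∈ 𝔫' ↔ (b : ↥(lg_E ↥L (N' * q * q))) ∈ 𝒱₂'.nonunits) ∧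
      φE ((lg_lamE (N' * q) : ↥(lg_E ↥L (N' * q))) - 1) ∉ 𝒱₂'.nonunits := by
  obtain ⟨𝒲, hext, e𝔫⟩ := hL
  obtain ⟨𝒲', hext', e𝔫'⟩ := hL'
  have hj := Q.2.1
  obtain ⟨-, hjE, -, hB𝒱, hmax, -, -, hP1⟩ :=
    s44ndl_centre_A A hA N' hq2 hqN' L hπ ζ hζ Q.1 𝒲 hext hj
  obtain ⟨-, hjE', -, hB𝒱', hmax', -, -, hP1'⟩ :=
    s44ndl_centre_A A hA N' hq2 hqN' L hπ ζ hζ Q.1 𝒲' hext' hj
  have hP2 := (s44ndl_node_A A hA N' hq2 hqN' L hπ ζ hζ Q.1 𝒲 hext Q.2 hmax).1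
  set 𝒱 := s44ndl_V ↥L (A.comap (algebraMap ↥L Qb)) hπ N' q hq2 hqN' 𝒲 with h𝒱
  set 𝒱' := s44ndl_V ↥L (A.comap (algebraMap ↥L Qb)) hπ N' q hq2 hqN' 𝒲' with h𝒱'
  -- the centres
  have ec : ssm_tp_P (m59t1_B1 A N' q L) 𝒱 = 𝔫.comap φB := e𝔫
  have ec' : ssm_tp_P (m59t1_B1 A N' q L) 𝒱' = 𝔫'.comap φB := e𝔫'
  -- the two rings agree on the `τ₁`-fixed elements
  have hN2 : 2 ∣ N' * q := Dvd.dvd.mul_right h2N q
  have hagree : ∀ z : ↥(lg_E ↥L (N' * q)),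
      (m59tt_tau ↥L (N' * q) h2).toRingEquiv z = z → (z ∈ 𝒱 ↔ z ∈ 𝒱') := by
    intro z hz
    obtain ⟨x, rfl⟩ := m59tt_tau_fixed (k := ↥L) (M := N' * q) h2 hN2 z hz
    exact (hext x).trans (hext' x).symm
  rcases m59mz_valConj_comap (m59tt_tau ↥L (N' * q) h2).toRingEquiv
    (fun z => m59tt_tau_tau h2 z) 𝒱 𝒱' hagree with hVV | hVV
  · -- the same ring: the same point
    left
    refine huniq 𝔫 𝔫' h𝔫 h𝔫' ?_ ?_ ?_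
    · rw [← ec]; exact hP1
    · rw [← ec]; exact hP2
    · rw [← ec, ← ec', hVV]
  · right
    -- the lift of `𝒱` centred at `𝔫`
    obtain ⟨𝒱₂, h1, h2', h3⟩ := m59tq_lift_at φB φE hφB hint 𝒱 hB𝒱 hmax 𝔫
      (fun 𝔪 h𝔪 hc => huniq 𝔫 𝔪 h𝔫 h𝔪 (by rw [← ec]; exact hP1) (by rw [← ec]; exact hP2)
        (by rw [hc, ec]))
    -- its conjugate is centred at `𝔫'`
    have hP1'' : m59t1_P1 A N' L hπ ≤ 𝔫'.comap φB := by rw [← ec']; exact hP1'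
    have hP2' := (s44ndl_node_A A hA N' hq2 hqN' L hπ ζ hζ Q.1 𝒲' hext' Q.2 hmax').1
    have hP2'' : m59t1_P2 A N' hq2 hqN' L hπ ≤ 𝔫'.comap φB := by rw [← ec']; exact hP2'
    obtain ⟨c1, c2, c3⟩ := m59tq_conj_at φB φE hφB hint
      (m59tt_tau ↥L (N' * q) h2).toRingEquiv (m59tt_tau ↥L (N' * q * q) h2).toRingEquiv hτ
      𝒱 𝒱₂ h1 (by rw [← hVV]; exact hB𝒱') (by rw [← hVV]; exact hmax') 𝔫'
      (fun 𝔪 h𝔪 hc => huniq 𝔫' 𝔪 h𝔫' h𝔪 hP1'' hP2'' (by rw [hc, ← hVV, ec']))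
    refine ⟨𝒱₂, 𝒱₂.comap ((m59tt_tau ↥L (N' * q * q) h2).toRingEquiv :
      ↥(lg_E ↥L (N' * q * q)) →+* ↥(lg_E ↥L (N' * q * q))), ?_, fun b => h2' _ b.2,
      fun b => c2 _ b.2, ?_, ?_, ?_⟩
    · intro x
      rw [ValuationSubring.mem_comap]
      show x ∈ 𝒱₂ ↔ m59tt_tau ↥L (N' * q * q) h2 (m59tt_tau ↥L (N' * q * q) h2 x) ∈ 𝒱₂
      rw [m59tt_tau_tau]
    · intro b
      rw [← h3, ssm_tp_mem_P h2']
    · intro b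
      rw [← c3, ssm_tp_mem_P c2]
    · -- `λ - 1` is a unit of `𝒱'`, hence of the conjugate of the lift
      rw [s36tri_nonunits_iff φE c1, ← hVV]
      exact m59tt_lam_sub_one ↥L (A.comap (algebraMap ↥L Qb)) N' q hq2 𝒱'
        (fun b => hB𝒱' _ b.2) hjE'

end LabConj

end Fermat.Agent.M59
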