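/-
M59 / Sink B, leaf 3 [TOR-SURJ], cell [PULL-RESTR] (R3) (helper4, second seat per chief #5799; prefix
`m59tpc_`): THE TWO CHART MAPS `aB bB : B₁ →+* B₂` OF THE LEGENDRE TOWER `N' q ⊂ N' q q` AND THE SIX
COMAP IDENTITIES OF THE VERTICAL PRIMES.

`E₁ = lg_E L (N' q) ⊆ E₂ = lg_E L (N' q q)`, `B₁ = fc_chart O {λ} ⊆ E₁`, `B₂ = fc_chart O {λ} ⊆ E₂`,
`W₁ = ssm_gl_W`, `W₂ = s36i_W2`, `aE = m59tpr_aE`, `bE = m59tpr_bE` (helper28, `PullRestr.lean`).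

* `m59tpc_aB O N' q := s36cb_phiA O (N' q) q` (the restriction of the inclusion);
* `m59tpc_bB O N' q hq2 hqN' hW1 hW2 := W₂ ∘ aB ∘ W₁` on the charts (`hW1`, `hW2` : the charts are
  `W`-stable), the restriction of `X ↦ X^q`;
* `_coe`, `_coe_series`, `_coe_of` (against ANY `aE`/`bE` pinned on series), `_coe_aE`/`_coe_bE`,
  `_injective`, `_isIntegral`, `_algebraMap`;
* the six identities `m59tpc_PAa … m59tpc_PCb` : `(ssm_tp_P B₂ V).comap aB/bB = ssm_tp_P B₁ V'`;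
* `m59tpc_exists_chartMaps` : [NF2-CTX] (number field, `π = q`, `ζ_{N'}`), everything at once, no
  hypothesis left, in the literal shape of the hypotheses of `m59tpa_pull_of_restr`.
-/
import Mathlib
import Fermat.Agent.M59.SinkB.Tor.PullChart
import Fermat.Agent.M59.SinkB.Tor.PullRestr

set_option autoImplicit false
set_option linter.unusedSectionVars false
set_option linter.unusedVariables false
set_option linter.style.haveILetI false
set_option synthInstance.maxHeartbeats 400000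
set_option maxHeartbeats 1000000

noncomputable section

namespace Fermat.Agent.M59

open ModularCurve IntermediateField IsLocalRing
open Fermat.Agent.JT3 Fermat.Agent.SS Fermat.Agent.S36

section Leg

variable {L : Type*} [Field L] [CharZero L] [Algebra L (AlgebraicClosure ℚ)]
  (O : ValuationSubring L) [IsDiscreteValuationRing O] {π : O} (hπ : Irreducible π)
variable (N' q : ℕ) [NeZero N'] [NeZero q] [hq : Fact q.Prime] [CharP (ResidueField O) q]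
  (hq2 : ¬ 2 ∣ q) (hqN' : ¬ q ∣ N')

/-! ### the `α`-side chart map -/

/-- **the `α`-side chart map** `B₁ →+* B₂` (the restriction of `E₁ ⊆ E₂`). -/
def m59tpc_aB :
    ↥(fc_chart ↥O ({lg_lamE (N' * q)} : Set ↥(lg_E L (N' * q)))) →+*
      ↥(fc_chart ↥O ({lg_lamE (N' * q * q)} : Set ↥(lg_E L (N' * q * q)))) :=
  s36cb_phiA O (N' * q) q

theorem m59tpc_aB_coe (b : ↥(fc_chart ↥O ({lg_lamE (N' * q)} : Set ↥(lg_E L (N' * q))))) :
    ((m59tpc_aB O N' q b : ↥(fc_chart ↥O ({lg_lamE (N' * q * q)} : Set ↥(lg_E L (N' * q * q))))) :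
      ↥(lg_E L (N' * q * q))) =
      IntermediateField.inclusion (ssm_al_E_le L (N' * q) q) (b : ↥(lg_E L (N' * q))) :=
  s36cb_phiA_coe O (N' * q) q b

theorem m59tpc_aB_coe_series
    (b : ↥(fc_chart ↥O ({lg_lamE (N' * q)} : Set ↥(lg_E L (N' * q))))) :
    (((m59tpc_aB O N' q b : ↥(fc_chart ↥O ({lg_lamE (N' * q * q)} :
      Set ↥(lg_E L (N' * q * q))))) : ↥(lg_E L (N' * q * q))) : LaurentSeries L) =
      ((b : ↥(lg_E L (N' * q))) : LaurentSeries L) := by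
  rw [m59tpc_aB_coe]
  exact IntermediateField.coe_inclusion _ _

/-- `aB` is the restriction of ANY `aE` which is the identity on series. -/
theorem m59tpc_aB_coe_of (aE : ↥(lg_E L (N' * q)) →+* ↥(lg_E L (N' * q * q)))
    (haE : ∀ x : ↥(lg_E L (N' * q)),
      ((aE x : ↥(lg_E L (N' * q * q))) : LaurentSeries L) = (x : LaurentSeries L))
    (b : ↥(fc_chart ↥O ({lg_lamE (N' * q)} : Set ↥(lg_E L (N' * q))))) :
    ((m59tpc_aB O N' q b : ↥(fc_chart ↥O ({lg_lamE (N' * q * q)} : Set ↥(lg_E L (N' * q * q))))) :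
      ↥(lg_E L (N' * q * q))) = aE (b : ↥(lg_E L (N' * q))) :=
  Subtype.ext ((m59tpc_aB_coe_series O N' q b).trans (haE _).symm)

/-- `aB` is the restriction of helper28's `m59tpr_aE`. -/
theorem m59tpc_aB_coe_aE (b : ↥(fc_chart ↥O ({lg_lamE (N' * q)} : Set ↥(lg_E L (N' * q))))) :
    ((m59tpc_aB O N' q b : ↥(fc_chart ↥O ({lg_lamE (N' * q * q)} : Set ↥(lg_E L (N' * q * q))))) :
      ↥(lg_E L (N' * q * q))) = m59tpr_aE L N' q (b : ↥(lg_E L (N' * q))) :=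
  m59tpc_aB_coe_of O N' q (m59tpr_aE L N' q) (m59tpr_coe_aE N' q) b

theorem m59tpc_aB_injective : Function.Injective (m59tpc_aB O N' q) :=
  s36cb_phiA_injective O (N' * q) q

theorem m59tpc_aB_isIntegral : (m59tpc_aB O N' q).IsIntegral :=
  s36cb_phiA_isIntegral O (N' * q) q

theorem m59tpc_aB_algebraMap (a : ↥O) :
    m59tpc_aB O N' q
        (algebraMap ↥O ↥(fc_chart ↥O ({lg_lamE (N' * q)} : Set ↥(lg_E L (N' * q)))) a) =
      algebraMap ↥O ↥(fc_chart ↥O ({lg_lamE (N' * q * q)} : Set ↥(lg_E L (N' * q * q)))) a :=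
  s36cb_phiA_algebraMap O (N' * q) q a

theorem m59tpc_aB_lam :
    m59tpc_aB O N' q ⟨lg_lamE (N' * q), fc_x_mem_chart _⟩ =
      ⟨lg_lamE (N' * q * q), fc_x_mem_chart _⟩ :=
  s36cb_phiA_lam O (N' * q) q

/-! ### the `β`-side chart map -/

/-- `W₂ (ι (W₁ y)) = y(X^q)` on series. -/
theorem m59tpc_W2_incl_W1 (y : ↥(lg_E L (N' * q))) :
    ((s36i_W2 L N' q hq2 hqN' (IntermediateField.inclusion (ssm_al_E_le L (N' * q) q)
      (ssm_gl_W L N' q hq2 hqN' y)) : ↥(lg_E L (N' * q * q))) : LaurentSeries L) =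
      qExpand L q (y : LaurentSeries L) := by
  have h : ((ssm_gl_W L N' q hq2 hqN' y : ↥(lg_E L (N' * q))) : LaurentSeries L) ∈
      lg_E L (N' * q * q) := ssm_al_E_le L (N' * q) q (Subtype.mem _)
  have e : IntermediateField.inclusion (ssm_al_E_le L (N' * q) q)
      (ssm_gl_W L N' q hq2 hqN' y) =
      ⟨((ssm_gl_W L N' q hq2 hqN' y : ↥(lg_E L (N' * q))) : LaurentSeries L), h⟩ :=
    Subtype.ext (IntermediateField.coe_inclusion _ _)
  rw [e]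
  have e2 := s36w_coe_WE_alpha L N' q hq.out hq2 hqN' (ssm_gl_W L N' q hq2 hqN' y) h
  have e3 : ssm_al_WE L N' q hq.out hq2 hqN' (ssm_gl_W L N' q hq2 hqN' y) = y :=
    ssm_al_WE_WE L N' q hq.out hq2 hqN' y
  rw [e3] at e2
  exact e2

/-- **the `β`-side chart map** `B₁ →+* B₂`, `bB = W₂ ∘ aB ∘ W₁` (the restriction of `X ↦ X^q`),
for `W`-stable charts. -/
def m59tpc_bB
    (hW1 : ∀ b ∈ fc_chart ↥O ({lg_lamE (N' * q)} : Set ↥(lg_E L (N' * q))),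
      ssm_gl_W L N' q hq2 hqN' b ∈ fc_chart ↥O ({lg_lamE (N' * q)} : Set ↥(lg_E L (N' * q))))
    (hW2 : ∀ b ∈ fc_chart ↥O ({lg_lamE (N' * q * q)} : Set ↥(lg_E L (N' * q * q))),
      s36i_W2 L N' q hq2 hqN' b ∈
        fc_chart ↥O ({lg_lamE (N' * q * q)} : Set ↥(lg_E L (N' * q * q)))) :
    ↥(fc_chart ↥O ({lg_lamE (N' * q)} : Set ↥(lg_E L (N' * q)))) →+*
      ↥(fc_chart ↥O ({lg_lamE (N' * q * q)} : Set ↥(lg_E L (N' * q * q)))) :=
  s36cb_mirror (s36i_W2 L N' q hq2 hqN') (s36tpl_W2_W2 N' q hq2 hqN') hW2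
    ((m59tpc_aB O N' q).comp
      ((ssm_inf_equiv (ssm_gl_W L N' q hq2 hqN') (ssm_al_WE_WE L N' q hq.out hq2 hqN')
        (fc_chart ↥O ({lg_lamE (N' * q)} : Set ↥(lg_E L (N' * q)))) hW1 :
        ↥(fc_chart ↥O ({lg_lamE (N' * q)} : Set ↥(lg_E L (N' * q)))) ≃+*
          ↥(fc_chart ↥O ({lg_lamE (N' * q)} : Set ↥(lg_E L (N' * q))))) :
        ↥(fc_chart ↥O ({lg_lamE (N' * q)} : Set ↥(lg_E L (N' * q)))) →+*
          ↥(fc_chart ↥O ({lg_lamE (N' * q)} : Set ↥(lg_E L (N' * q))))))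

variable
    (hW1 : ∀ b ∈ fc_chart ↥O ({lg_lamE (N' * q)} : Set ↥(lg_E L (N' * q))),
      ssm_gl_W L N' q hq2 hqN' b ∈ fc_chart ↥O ({lg_lamE (N' * q)} : Set ↥(lg_E L (N' * q))))
    (hW2 : ∀ b ∈ fc_chart ↥O ({lg_lamE (N' * q * q)} : Set ↥(lg_E L (N' * q * q))),
      s36i_W2 L N' q hq2 hqN' b ∈
        fc_chart ↥O ({lg_lamE (N' * q * q)} : Set ↥(lg_E L (N' * q * q))))

theorem m59tpc_bB_coe (b : ↥(fc_chart ↥O ({lg_lamE (N' * q)} : Set ↥(lg_E L (N' * q))))) :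
    ((m59tpc_bB O N' q hq2 hqN' hW1 hW2 b :
      ↥(fc_chart ↥O ({lg_lamE (N' * q * q)} : Set ↥(lg_E L (N' * q * q))))) :
      ↥(lg_E L (N' * q * q))) =
      s36i_W2 L N' q hq2 hqN' (IntermediateField.inclusion (ssm_al_E_le L (N' * q) q)
        (ssm_gl_W L N' q hq2 hqN' (b : ↥(lg_E L (N' * q))))) := by
  unfold m59tpc_bB
  rw [s36cb_mirror_coe, RingHom.comp_apply, m59tpc_aB_coe, RingHom.coe_coe, ssm_inf_equiv_coe]

theorem m59tpc_bB_coe_series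
    (b : ↥(fc_chart ↥O ({lg_lamE (N' * q)} : Set ↥(lg_E L (N' * q))))) :
    (((m59tpc_bB O N' q hq2 hqN' hW1 hW2 b :
      ↥(fc_chart ↥O ({lg_lamE (N' * q * q)} : Set ↥(lg_E L (N' * q * q))))) :
      ↥(lg_E L (N' * q * q))) : LaurentSeries L) =
      qExpand L q ((b : ↥(lg_E L (N' * q))) : LaurentSeries L) := by
  rw [m59tpc_bB_coe]
  exact m59tpc_W2_incl_W1 N' q hq2 hqN' _

/-- `bB` is the restriction of ANY `bE` which is `X ↦ X^q` on series. -/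
theorem m59tpc_bB_coe_of (bE : ↥(lg_E L (N' * q)) →+* ↥(lg_E L (N' * q * q)))
    (hbE : ∀ x : ↥(lg_E L (N' * q)),
      ((bE x : ↥(lg_E L (N' * q * q))) : LaurentSeries L) = qExpand L q (x : LaurentSeries L))
    (b : ↥(fc_chart ↥O ({lg_lamE (N' * q)} : Set ↥(lg_E L (N' * q))))) :
    ((m59tpc_bB O N' q hq2 hqN' hW1 hW2 b :
      ↥(fc_chart ↥O ({lg_lamE (N' * q * q)} : Set ↥(lg_E L (N' * q * q))))) :
      ↥(lg_E L (N' * q * q))) = bE (b : ↥(lg_E L (N' * q))) :=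
  Subtype.ext ((m59tpc_bB_coe_series O N' q hq2 hqN' hW1 hW2 b).trans (hbE _).symm)

/-- `bB` is the restriction of helper28's `m59tpr_bE`. -/
theorem m59tpc_bB_coe_bE (b : ↥(fc_chart ↥O ({lg_lamE (N' * q)} : Set ↥(lg_E L (N' * q))))) :
    ((m59tpc_bB O N' q hq2 hqN' hW1 hW2 b :
      ↥(fc_chart ↥O ({lg_lamE (N' * q * q)} : Set ↥(lg_E L (N' * q * q))))) :
      ↥(lg_E L (N' * q * q))) = m59tpr_bE L N' q hq2 (b : ↥(lg_E L (N' * q))) :=
  m59tpc_bB_coe_of O N' q hq2 hqN' hW1 hW2 (m59tpr_bE L N' q hq2) (m59tpr_coe_bE N' q hq2) b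

theorem m59tpc_bB_injective : Function.Injective (m59tpc_bB O N' q hq2 hqN' hW1 hW2) := by
  intro a b hab
  have h1 := m59tpc_bB_coe_series O N' q hq2 hqN' hW1 hW2 a
  have h2 := m59tpc_bB_coe_series O N' q hq2 hqN' hW1 hW2 b
  rw [hab] at h1
  exact Subtype.ext (Subtype.ext (qExpand_injective q (h1.symm.trans h2)))

theorem m59tpc_bB_isIntegral : (m59tpc_bB O N' q hq2 hqN' hW1 hW2).IsIntegral := by
  unfold m59tpc_bB
  refine s36cb_mirror_isIntegral _ _ _ _ ?_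
  exact RingHom.IsIntegral.trans _ _
    (RingHom.isIntegral_of_surjective _ (ssm_inf_equiv _ _ _ hW1).surjective)
    (m59tpc_aB_isIntegral O N' q)

theorem m59tpc_bB_algebraMap (a : ↥O) :
    m59tpc_bB O N' q hq2 hqN' hW1 hW2
        (algebraMap ↥O ↥(fc_chart ↥O ({lg_lamE (N' * q)} : Set ↥(lg_E L (N' * q)))) a) =
      algebraMap ↥O ↥(fc_chart ↥O ({lg_lamE (N' * q * q)} : Set ↥(lg_E L (N' * q * q)))) a := by
  have e1 : (ssm_inf_equiv (ssm_gl_W L N' q hq2 hqN') (ssm_al_WE_WE L N' q hq.out hq2 hqN')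
      (fc_chart ↥O ({lg_lamE (N' * q)} : Set ↥(lg_E L (N' * q)))) hW1)
      (algebraMap ↥O ↥(fc_chart ↥O ({lg_lamE (N' * q)} : Set ↥(lg_E L (N' * q)))) a) =
      algebraMap ↥O ↥(fc_chart ↥O ({lg_lamE (N' * q)} : Set ↥(lg_E L (N' * q)))) a :=
    Subtype.ext (ssm_si_W_algebraMap O N' q hq2 hqN' a)
  have e2 : (ssm_inf_equiv (s36i_W2 L N' q hq2 hqN') (s36tpl_W2_W2 N' q hq2 hqN')
      (fc_chart ↥O ({lg_lamE (N' * q * q)} : Set ↥(lg_E L (N' * q * q)))) hW2)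
      (algebraMap ↥O ↥(fc_chart ↥O ({lg_lamE (N' * q * q)} : Set ↥(lg_E L (N' * q * q)))) a) =
      algebraMap ↥O ↥(fc_chart ↥O ({lg_lamE (N' * q * q)} : Set ↥(lg_E L (N' * q * q)))) a :=
    Subtype.ext (s36cp_W2_algebraMap O N' q hq2 hqN' a)
  unfold m59tpc_bB
  rw [s36cb_mirror_apply, RingHom.comp_apply, RingHom.coe_coe, e1, m59tpc_aB_algebraMap, e2]

/-! ### the six comap identities -/

/-- the chart `B₂` lies in the three vertical valuation rings. -/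
theorem m59tpc_le2
    (hprime : Prime (algebraMap ↥O (fc_chart ↥O ({lg_lamE N'} : Set ↥(lg_E L N'))) π))
    {VC : ValuationSubring ↥(lg_E L (N' * q * q))} (T3 : s36asm_Third O hπ N' q hq2 hqN' VC) :
    (∀ b ∈ fc_chart ↥O ({lg_lamE (N' * q * q)} : Set ↥(lg_E L (N' * q * q))),
      b ∈ s36i_VA O hπ (N' * q) q) ∧
    (∀ b ∈ fc_chart ↥O ({lg_lamE (N' * q * q)} : Set ↥(lg_E L (N' * q * q))),
      b ∈ s36i_VB O hπ N' q hq2 hqN') ∧
    (∀ b ∈ fc_chart ↥O ({lg_lamE (N' * q * q)} : Set ↥(lg_E L (N' * q * q))), b ∈ VC) := by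
  obtain ⟨-, H, -⟩ := s36asm_all_of_third O hπ N' q hq2 hqN' hprime T3
  haveI := ssm_go_isScalarTower O (lg_E L (N' * q * q))
  have hx : Transcendental L (lg_lamE (L := L) (N' * q * q)) :=
    lgf_lam_transcendental L (N' * q * q) two_ne_zero
  have hxA : Transcendental ↥O (lg_lamE (L := L) (N' * q * q)) :=
    fc_ff_transcendental (L := L) hx
  haveI : IsIntegrallyClosed (Algebra.adjoin ↥O
      ({lg_lamE (N' * q * q)} : Set ↥(lg_E L (N' * q * q)))) := fc_ff_isIntegrallyClosed hxA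
  haveI : FaithfulSMul (Algebra.adjoin ↥O
      ({lg_lamE (N' * q * q)} : Set ↥(lg_E L (N' * q * q)))) ↥(lg_E L (N' * q * q)) :=
    (faithfulSMul_iff_algebraMap_injective _ _).2 Subtype.val_injective
  have hC : ssm_tp_Chart (algebraMap ↥O (Algebra.adjoin ↥O
      ({lg_lamE (N' * q * q)} : Set ↥(lg_E L (N' * q * q)))) π)
      (fc_chart ↥O ({lg_lamE (N' * q * q)} : Set ↥(lg_E L (N' * q * q)))) :=
    ssm_tp_ff_chart (L := L) hπ hx
  exact ⟨fun b hb => H.chart_le hC (0 : Fin 3) hb, fun b hb => H.chart_le hC (1 : Fin 3) hb,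
    fun b hb => H.chart_le hC (2 : Fin 3) hb⟩

variable (hprime : Prime (algebraMap ↥O (fc_chart ↥O ({lg_lamE N'} : Set ↥(lg_E L N'))) π))
  {VC : ValuationSubring ↥(lg_E L (N' * q * q))} (T3 : s36asm_Third O hπ N' q hq2 hqN' VC)

include hprime T3 in
/-- (hAa) `PA ∩ B₁ = P₁` along `aB`. -/
theorem m59tpc_PAa :
    (ssm_tp_P (fc_chart ↥O ({lg_lamE (N' * q * q)} : Set ↥(lg_E L (N' * q * q))))
      (s36i_VA O hπ (N' * q) q)).comap (m59tpc_aB O N' q) =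
    ssm_tp_P (fc_chart ↥O ({lg_lamE (N' * q)} : Set ↥(lg_E L (N' * q))))
      (ssm_gl_V1 O hπ N' q) :=
  m59tpc_comap_P _ _ (m59tpr_aE L N' q) (m59tpc_aB O N' q) (m59tpc_aB_coe_aE O N' q) _ _
    (m59tpr_VA_comap_aE O hπ N' q) (m59tpc_le2 O hπ N' q hq2 hqN' hprime T3).1

include hprime T3 in
/-- (hBa) `PB ∩ B₁ = P₂` along `aB`. -/
theorem m59tpc_PBa :
    (ssm_tp_P (fc_chart ↥O ({lg_lamE (N' * q * q)} : Set ↥(lg_E L (N' * q * q))))
      (s36i_VB O hπ N' q hq2 hqN')).comap (m59tpc_aB O N' q) =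
    ssm_tp_P (fc_chart ↥O ({lg_lamE (N' * q)} : Set ↥(lg_E L (N' * q))))
      (ssm_gl_V2 O hπ N' q hq2 hqN') :=
  m59tpc_comap_P _ _ (m59tpr_aE L N' q) (m59tpc_aB O N' q) (m59tpc_aB_coe_aE O N' q) _ _
    (m59tpr_VB_comap_aE O hπ N' q hq2 hqN') (m59tpc_le2 O hπ N' q hq2 hqN' hprime T3).2.1

include hprime T3 in
/-- (hCa) `PC ∩ B₁ = P₁` along `aB`. -/
theorem m59tpc_PCa :
    (ssm_tp_P (fc_chart ↥O ({lg_lamE (N' * q * q)} : Set ↥(lg_E L (N' * q * q)))) VC).comap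
      (m59tpc_aB O N' q) =
    ssm_tp_P (fc_chart ↥O ({lg_lamE (N' * q)} : Set ↥(lg_E L (N' * q))))
      (ssm_gl_V1 O hπ N' q) :=
  m59tpc_comap_P _ _ (m59tpr_aE L N' q) (m59tpc_aB O N' q) (m59tpc_aB_coe_aE O N' q) _ _
    (m59tpr_VC_comap_aE O hπ N' q hq2 hqN' T3) (m59tpc_le2 O hπ N' q hq2 hqN' hprime T3).2.2

include hprime T3 in
/-- (hAb) `PA ∩ B₁ = P₁` along `bB`. -/
theorem m59tpc_PAb :
    (ssm_tp_P (fc_chart ↥O ({lg_lamE (N' * q * q)} : Set ↥(lg_E L (N' * q * q))))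
      (s36i_VA O hπ (N' * q) q)).comap (m59tpc_bB O N' q hq2 hqN' hW1 hW2) =
    ssm_tp_P (fc_chart ↥O ({lg_lamE (N' * q)} : Set ↥(lg_E L (N' * q))))
      (ssm_gl_V1 O hπ N' q) :=
  m59tpc_comap_P _ _ (m59tpr_bE L N' q hq2) (m59tpc_bB O N' q hq2 hqN' hW1 hW2)
    (m59tpc_bB_coe_bE O N' q hq2 hqN' hW1 hW2) _ _
    (m59tpr_VA_comap_bE O hπ N' q hq2 hqN') (m59tpc_le2 O hπ N' q hq2 hqN' hprime T3).1

include hprime T3 in
/-- (hBb) `PB ∩ B₁ = P₂` along `bB`. -/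
theorem m59tpc_PBb :
    (ssm_tp_P (fc_chart ↥O ({lg_lamE (N' * q * q)} : Set ↥(lg_E L (N' * q * q))))
      (s36i_VB O hπ N' q hq2 hqN')).comap (m59tpc_bB O N' q hq2 hqN' hW1 hW2) =
    ssm_tp_P (fc_chart ↥O ({lg_lamE (N' * q)} : Set ↥(lg_E L (N' * q))))
      (ssm_gl_V2 O hπ N' q hq2 hqN') :=
  m59tpc_comap_P _ _ (m59tpr_bE L N' q hq2) (m59tpc_bB O N' q hq2 hqN' hW1 hW2)
    (m59tpc_bB_coe_bE O N' q hq2 hqN' hW1 hW2) _ _
    (m59tpr_VB_comap_bE O hπ N' q hq2 hqN') (m59tpc_le2 O hπ N' q hq2 hqN' hprime T3).2.1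

include hprime T3 in
/-- (hCb) `PC ∩ B₁ = P₂` along `bB`. -/
theorem m59tpc_PCb :
    (ssm_tp_P (fc_chart ↥O ({lg_lamE (N' * q * q)} : Set ↥(lg_E L (N' * q * q)))) VC).comap
      (m59tpc_bB O N' q hq2 hqN' hW1 hW2) =
    ssm_tp_P (fc_chart ↥O ({lg_lamE (N' * q)} : Set ↥(lg_E L (N' * q))))
      (ssm_gl_V2 O hπ N' q hq2 hqN') :=
  m59tpc_comap_P _ _ (m59tpr_bE L N' q hq2) (m59tpc_bB O N' q hq2 hqN' hW1 hW2)
    (m59tpc_bB_coe_bE O N' q hq2 hqN' hW1 hW2) _ _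
    (m59tpr_VC_comap_bE O hπ N' q hq2 hqN' T3) (m59tpc_le2 O hπ N' q hq2 hqN' hprime T3).2.2

/-- `aE`, `bE` fix the constants of `O`. -/
theorem m59tpc_aE_algebraMapO (c : ↥O) :
    m59tpr_aE L N' q (algebraMap ↥O ↥(lg_E L (N' * q)) c) =
      algebraMap ↥O ↥(lg_E L (N' * q * q)) c :=
  m59tpr_aE_algebraMap N' q (c : L)

theorem m59tpc_bE_algebraMapO (c : ↥O) :
    m59tpr_bE L N' q hq2 (algebraMap ↥O ↥(lg_E L (N' * q)) c) =
      algebraMap ↥O ↥(lg_E L (N' * q * q)) c :=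
  m59tpr_bE_algebraMap N' q hq2 (c : L)


end Leg

section NF

variable (L : Type) [Field L] [NumberField L] [Algebra L (AlgebraicClosure ℚ)]
  (O : ValuationSubring L) [IsDiscreteValuationRing O]
variable (N' q : ℕ) [NeZero N'] [NeZero q] [hq : Fact q.Prime] [CharP (ResidueField O) q]
  (hq2 : ¬ 2 ∣ q) (hqN' : ¬ q ∣ N') (hπ : Irreducible ((q : ℕ) : ↥O))
  (ζ : L) (hζ : IsPrimitiveRoot ζ N')

include hζ in
/-- **[PULL-RESTR] (R3), [NF2-CTX], everything at once**: chart maps `aB bB : B₁ →+* B₂` restricting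
`aE = m59tpr_aE` (the inclusion) and `bE = m59tpr_bE` (`X ↦ X^q`), injective, integral, `O`-linear,
with the six comap identities of the vertical primes (the literal hypotheses `haB hbB hAa hBa hCa hAb
hBb hCb` of `m59tpa_pull_of_restr`; `haE0 hbE0` are `m59tpc_aE_algebraMapO`, `m59tpc_bE_algebraMapO`). -/
theorem m59tpc_exists_chartMaps :
    ∃ aB bB : ↥(fc_chart ↥O ({lg_lamE (N' * q)} : Set ↥(lg_E L (N' * q)))) →+*
        ↥(fc_chart ↥O ({lg_lamE (N' * q * q)} : Set ↥(lg_E L (N' * q * q)))),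
      (∀ b, ((aB b : ↥(fc_chart ↥O ({lg_lamE (N' * q * q)} : Set ↥(lg_E L (N' * q * q))))) :
        ↥(lg_E L (N' * q * q))) = m59tpr_aE L N' q (b : ↥(lg_E L (N' * q)))) ∧
      (∀ b, ((bB b : ↥(fc_chart ↥O ({lg_lamE (N' * q * q)} : Set ↥(lg_E L (N' * q * q))))) :
        ↥(lg_E L (N' * q * q))) = m59tpr_bE L N' q hq2 (b : ↥(lg_E L (N' * q)))) ∧
      Function.Injective aB ∧ aB.IsIntegral ∧ Function.Injective bB ∧ bB.IsIntegral ∧
      (∀ c : ↥O, aB (algebraMap ↥O _ c) = algebraMap ↥O _ c) ∧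
      (∀ c : ↥O, bB (algebraMap ↥O _ c) = algebraMap ↥O _ c) ∧
      (ssm_tp_P (fc_chart ↥O ({lg_lamE (N' * q * q)} : Set ↥(lg_E L (N' * q * q))))
        (s36i_VA O hπ (N' * q) q)).comap aB =
        ssm_tp_P (fc_chart ↥O ({lg_lamE (N' * q)} : Set ↥(lg_E L (N' * q))))
          (ssm_gl_V1 O hπ N' q) ∧
      (ssm_tp_P (fc_chart ↥O ({lg_lamE (N' * q * q)} : Set ↥(lg_E L (N' * q * q))))
        (s36i_VB O hπ N' q hq2 hqN')).comap aB =
        ssm_tp_P (fc_chart ↥O ({lg_lamE (N' * q)} : Set ↥(lg_E L (N' * q))))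
          (ssm_gl_V2 O hπ N' q hq2 hqN') ∧
      (∀ VC : ValuationSubring ↥(lg_E L (N' * q * q)), s36asm_Third O hπ N' q hq2 hqN' VC →
        (ssm_tp_P (fc_chart ↥O ({lg_lamE (N' * q * q)} : Set ↥(lg_E L (N' * q * q))))
          VC).comap aB =
        ssm_tp_P (fc_chart ↥O ({lg_lamE (N' * q)} : Set ↥(lg_E L (N' * q))))
          (ssm_gl_V1 O hπ N' q)) ∧
      (ssm_tp_P (fc_chart ↥O ({lg_lamE (N' * q * q)} : Set ↥(lg_E L (N' * q * q))))
        (s36i_VA O hπ (N' * q) q)).comap bB =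
        ssm_tp_P (fc_chart ↥O ({lg_lamE (N' * q)} : Set ↥(lg_E L (N' * q))))
          (ssm_gl_V1 O hπ N' q) ∧
      (ssm_tp_P (fc_chart ↥O ({lg_lamE (N' * q * q)} : Set ↥(lg_E L (N' * q * q))))
        (s36i_VB O hπ N' q hq2 hqN')).comap bB =
        ssm_tp_P (fc_chart ↥O ({lg_lamE (N' * q)} : Set ↥(lg_E L (N' * q))))
          (ssm_gl_V2 O hπ N' q hq2 hqN') ∧
      (∀ VC : ValuationSubring ↥(lg_E L (N' * q * q)), s36asm_Third O hπ N' q hq2 hqN' VC →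
        (ssm_tp_P (fc_chart ↥O ({lg_lamE (N' * q * q)} : Set ↥(lg_E L (N' * q * q))))
          VC).comap bB =
        ssm_tp_P (fc_chart ↥O ({lg_lamE (N' * q)} : Set ↥(lg_E L (N' * q))))
          (ssm_gl_V2 O hπ N' q hq2 hqN')) := by
  have hprime := s36tl11_hprime L O N' q hq2 hqN' hπ ζ hζ
  obtain ⟨VC0, T30⟩ := s36asm_third_exists O hπ N' q hq2 hqN' 1 isUnit_one (mul_one _).symm
  have hW1 := (s36cb_hWB O hπ N' q hq2 hqN' hprime).1
  have hW2 := (s36asm_all_of_third O hπ N' q hq2 hqN' hprime T30).1.1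
  exact ⟨m59tpc_aB O N' q, m59tpc_bB O N' q hq2 hqN' hW1 hW2,
    m59tpc_aB_coe_aE O N' q, m59tpc_bB_coe_bE O N' q hq2 hqN' hW1 hW2,
    m59tpc_aB_injective O N' q, m59tpc_aB_isIntegral O N' q,
    m59tpc_bB_injective O N' q hq2 hqN' hW1 hW2, m59tpc_bB_isIntegral O N' q hq2 hqN' hW1 hW2,
    m59tpc_aB_algebraMap O N' q, m59tpc_bB_algebraMap O N' q hq2 hqN' hW1 hW2,
    m59tpc_PAa O hπ N' q hq2 hqN' hprime T30, m59tpc_PBa O hπ N' q hq2 hqN' hprime T30,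
    fun VC T3 => m59tpc_PCa O hπ N' q hq2 hqN' hprime T3,
    m59tpc_PAb O hπ N' q hq2 hqN' hW1 hW2 hprime T30,
    m59tpc_PBb O hπ N' q hq2 hqN' hW1 hW2 hprime T30,
    fun VC T3 => m59tpc_PCb O hπ N' q hq2 hqN' hW1 hW2 hprime T3⟩

end NF

end Fermat.Agent.M59

end
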