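/-
M59 / Sink B, leaf 4 [TOR-SURJ], cell (pull) / [PULL-LOC] (helper11; prefix `m59tpl_`).

**Transport of the toric data (`m59tl_Ratio`, `Tor/Local.lean`) from the charts of level `N' q` to the
chart of level `N' q q`** along the two degeneracy maps, in GENERIC form (the instance is obtained by
feeding the chart maps `a_B`, `b_B` and the six restriction identities of `Tor/PullRestr.lean`).

Setting: `A0` a base ring, `B₁ ⊆ F₁`, `B₂ ⊆ F₂` two `A0`-subalgebras of fields with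
`IsFractionRing` (the charts `fc_chart O {λ}` of the two levels), `φ : F₁ →+* F₂` a map of function
fields, `ι : B₁ →+* B₂` the induced map of charts (`hι : (ι b : F₂) = φ b`); `𝔫` a prime of `B₂`
(a triple point), `𝔫₁` a prime of `B₁` with `h1 : 𝔫.comap ι = 𝔫₁` (the crossing point under it; the
orientation is the one of the consumers, who plug `𝔫₁ := s44ndl_n … 𝒲`).

* `m59tpl_map_le_comap`, `m59tpl_comap_map` : for localisations `R₁ = (B₁)_{𝔫₁}`, `R₂ = (B₂)_𝔫` and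
  `ρ : R₁ → R₂` over `ι`: `ρ⁻¹ (P R₂) = P₁ R₁` for a prime `P ≤ 𝔫` with `ι⁻¹ P = P₁`;
* `m59tpl_psi` : the map of local rings `ψ : ssl_locSub F₁ 𝔫₁ →+* ssl_locSub F₂ 𝔫` induced by `φ`,
  with `m59tpl_psi_coe`, `m59tpl_psi_algebraMap`, and **`m59tpl_psi_cst`** : `ψ` is the identity on
  the constants, `Units.map ψ (m59tl_cst 𝔫₁ c) = m59tl_cst 𝔫 c` (`φ` an `A0`-map);
* **`m59tpl_ratio_over`** : branches `P, P'` of `𝔫` over the branches `P₁, P₂` of `𝔫₁`: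
  `Ratio (𝔫₁ R₁) (P₁ R₁) (P₂ R₁) m g c → Ratio (𝔫 R₂) (P R₂) (P' R₂) m (φ g) (ψ c)`;
* **`m59tpl_ratio_one`**  : two branches `P, P'` of `𝔫` over the SAME branch `P₁`: ratio one;
* **`m59tpl_pull`** : the product form with two maps `(φa, ιa)`, `(φb, ιb)` and three branches
  `PA, PB, PC` upstairs (`PA, PC ↦ P₁`, `PB ↦ P₂` under `ιa`; `PA ↦ P₁`, `PB, PC ↦ P₂` under `ιb`):
  if `gu` has the constant datum `cu` at `𝔫a` and `gv` the constant datum `cv` at `𝔫b`, then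
  `φa gu * φb gv` has the datum `cu` between `(PC, PB)` and the datum `cv` between `(PA, PC)`.
-/
import Mathlib
import Fermat.Agent.M59.SinkB.Tor.Xfer
import Fermat.Agent.M59.SinkB.Tor.Glue1

set_option autoImplicit false
set_option linter.unusedSectionVars false
set_option linter.unusedVariables false
set_option linter.style.haveILetI false

namespace Fermat.Agent.M59

open Fermat.Agent.SS Fermat.Agent.S36

section Loc

variable {B₁ B₂ : Type*} [CommRing B₁] [CommRing B₂] (ι : B₁ →+* B₂)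
  (𝔫 : Ideal B₂) [h𝔫 : 𝔫.IsPrime] (𝔫₁ : Ideal B₁) [h𝔫₁ : 𝔫₁.IsPrime] (h1 : 𝔫.comap ι = 𝔫₁)
  {R₁ R₂ : Type*} [CommRing R₁] [CommRing R₂] [Algebra B₁ R₁] [Algebra B₂ R₂]
  [IsLocalization.AtPrime R₁ 𝔫₁] [IsLocalization.AtPrime R₂ 𝔫]
  (ρ : R₁ →+* R₂) (hρ : ∀ b : B₁, ρ (algebraMap B₁ R₁ b) = algebraMap B₂ R₂ (ι b))

include hρ in
/-- the extension downstairs goes into the extension upstairs -/
theorem m59tpl_map_le_comap (P : Ideal B₂) (P₁ : Ideal B₁) (hP : P₁ ≤ P.comap ι) :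
    P₁.map (algebraMap B₁ R₁) ≤ (P.map (algebraMap B₂ R₂)).comap ρ := by
  rw [Ideal.map_le_iff_le_comap]
  intro b hb
  rw [Ideal.mem_comap, Ideal.mem_comap, hρ]
  exact Ideal.mem_map_of_mem _ (Ideal.mem_comap.1 (hP hb))

include h1 hρ in
/-- **the branch upstairs lies over the branch downstairs**: `ρ⁻¹ (P R₂) = P₁ R₁` for a prime
`P ≤ 𝔫` of `B₂` with `ι⁻¹ P = P₁`. -/
theorem m59tpl_comap_map (P : Ideal B₂) [hP : P.IsPrime] (hP𝔫 : P ≤ 𝔫) (P₁ : Ideal B₁)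
    (hP₁ : P.comap ι = P₁) :
    (P.map (algebraMap B₂ R₂)).comap ρ = P₁.map (algebraMap B₁ R₁) := by
  refine le_antisymm ?_ (m59tpl_map_le_comap ι ρ hρ P P₁ hP₁.ge)
  intro x hx
  rw [Ideal.mem_comap] at hx
  obtain ⟨⟨a, s⟩, hxs⟩ := IsLocalization.surj 𝔫₁.primeCompl x
  simp only at hxs
  -- `ι a ∈ P`
  have h2 : algebraMap B₂ R₂ (ι a) ∈ P.map (algebraMap B₂ R₂) := by
    rw [← hρ, ← hxs, map_mul]
    exact Ideal.mul_mem_right _ _ hx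
  have hdisj : Disjoint (𝔫.primeCompl : Set B₂) (P : Set B₂) := by
    rw [Set.disjoint_left]
    intro y hy hyP
    exact hy (hP𝔫 hyP)
  have h3 : ι a ∈ P := by
    have := IsLocalization.comap_map_of_isPrime_disjoint 𝔫.primeCompl R₂ hP hdisj
    rw [← this]
    exact Ideal.mem_comap.2 h2
  have hs : IsUnit (algebraMap B₁ R₁ (s : B₁)) := IsLocalization.map_units R₁ s
  obtain ⟨u, hu⟩ := hs
  have hx' : x = algebraMap B₁ R₁ a * ((u⁻¹ : R₁ˣ) : R₁) := by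
    rw [← hxs, ← hu, mul_assoc, Units.mul_inv, mul_one]
  rw [hx']
  refine Ideal.mul_mem_right _ _ (Ideal.mem_map_of_mem _ ?_)
  rw [← hP₁]
  exact Ideal.mem_comap.2 h3

end Loc

section Chart

universe v w

variable {A0 : Type*} [CommRing A0] {F₁ : Type v} {F₂ : Type w} [Field F₁] [Field F₂]
  [Algebra A0 F₁] [Algebra A0 F₂] {B₁ : Subalgebra A0 F₁} {B₂ : Subalgebra A0 F₂}
  [IsFractionRing B₁ F₁] [IsFractionRing B₂ F₂]
  (φ : F₁ →+* F₂) (ι : B₁ →+* B₂) (hι : ∀ b : B₁, ((ι b : B₂) : F₂) = φ (b : F₁))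
  (𝔫 : Ideal B₂) [h𝔫 : 𝔫.IsPrime] (𝔫₁ : Ideal B₁) [h𝔫₁ : 𝔫₁.IsPrime] (h1 : 𝔫.comap ι = 𝔫₁)

include hι h1 in
/-- `φ` maps the local ring of the lower point into the local ring of the upper point -/
theorem m59tpl_mem_locSub {z : F₁} (hz : z ∈ ssl_locSub F₁ 𝔫₁) : φ z ∈ ssl_locSub F₂ 𝔫 := by
  rw [ssl_mem_locSub] at hz ⊢
  obtain ⟨a, s, hs, e⟩ := hz
  refine ⟨ι a, ι s, fun h => hs (h1 ▸ Ideal.mem_comap.2 h), ?_⟩
  have e' := congrArg φ e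
  rw [map_mul] at e'
  show φ z * ((ι s : B₂) : F₂) = ((ι a : B₂) : F₂)
  rw [hι, hι]
  exact e'

/-- **the map of local rings** `ψ : (B₁)_{𝔫₁} → (B₂)_𝔫` induced by `φ`. -/
noncomputable def m59tpl_psi : ssl_locSub F₁ 𝔫₁ →+* ssl_locSub F₂ 𝔫 :=
  (φ.comp (ssl_locSub F₁ 𝔫₁).toSubring.subtype).codRestrict (ssl_locSub F₂ 𝔫).toSubring
    (fun z => m59tpl_mem_locSub φ ι hι 𝔫 𝔫₁ h1 z.2)

theorem m59tpl_psi_coe (z : ssl_locSub F₁ 𝔫₁) :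
    ((m59tpl_psi φ ι hι 𝔫 𝔫₁ h1 z : ssl_locSub F₂ 𝔫) : F₂) = φ (z : F₁) := rfl

theorem m59tpl_psi_algebraMap (b : B₁) :
    m59tpl_psi φ ι hι 𝔫 𝔫₁ h1 (algebraMap B₁ (ssl_locSub F₁ 𝔫₁) b) =
      algebraMap B₂ (ssl_locSub F₂ 𝔫) (ι b) :=
  Subtype.ext (hι b).symm

/-- **`ψ` is the identity on the constants** (in use: the constants `ζ ^ a · ε` of the toric
data). -/
theorem m59tpl_psi_cst (hφ0 : ∀ c : A0, φ (algebraMap A0 F₁ c) = algebraMap A0 F₂ c) (c : A0ˣ) :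
    Units.map (m59tpl_psi φ ι hι 𝔫 𝔫₁ h1 : ssl_locSub F₁ 𝔫₁ →* ssl_locSub F₂ 𝔫)
      (m59tl_cst (F0 := F₁) 𝔫₁ c) = m59tl_cst (F0 := F₂) 𝔫 c := by
  apply Units.ext
  apply Subtype.ext
  show φ (algebraMap A0 F₁ (c : A0)) = algebraMap A0 F₂ (c : A0)
  exact hφ0 _

/-- the branch upstairs is a prime of the local ring -/
theorem m59tpl_map_isPrime (P : Ideal B₂) [hP : P.IsPrime] (hP𝔫 : P ≤ 𝔫) :
    (P.map (algebraMap B₂ (ssl_locSub F₂ 𝔫))).IsPrime := by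
  have hdisj : Disjoint (𝔫.primeCompl : Set B₂) (P : Set B₂) := by
    rw [Set.disjoint_left]
    intro y hy hyP
    exact hy (hP𝔫 hyP)
  exact IsLocalization.isPrime_of_isPrime_disjoint 𝔫.primeCompl (ssl_locSub F₂ 𝔫) P hP hdisj

/-- **[PULL-LOC], branches over two branches**: a toric datum of `g` at the lower point `𝔫₁`
between the branches `P₁`, `P₂` is a toric datum of `φ g` at the upper point `𝔫` between branches
`P`, `P'` over them. -/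
theorem m59tpl_ratio_over (P P' : Ideal B₂) [P.IsPrime] [P'.IsPrime] (hP : P ≤ 𝔫) (hP' : P' ≤ 𝔫)
    (P₁ P₂ : Ideal B₁) (hP₁ : P.comap ι = P₁) (hP₂ : P'.comap ι = P₂)
    {m : ℕ} {g : F₁} {c : (ssl_locSub F₁ 𝔫₁)ˣ}
    (h : m59tl_Ratio (𝔫₁.map (algebraMap B₁ (ssl_locSub F₁ 𝔫₁)))
      (P₁.map (algebraMap B₁ (ssl_locSub F₁ 𝔫₁))) (P₂.map (algebraMap B₁ (ssl_locSub F₁ 𝔫₁)))
      m g c) :
    m59tl_Ratio (𝔫.map (algebraMap B₂ (ssl_locSub F₂ 𝔫)))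
      (P.map (algebraMap B₂ (ssl_locSub F₂ 𝔫))) (P'.map (algebraMap B₂ (ssl_locSub F₂ 𝔫)))
      m (φ g)
      (Units.map (m59tpl_psi φ ι hι 𝔫 𝔫₁ h1 : ssl_locSub F₁ 𝔫₁ →* ssl_locSub F₂ 𝔫) c) := by
  have e1 := m59tpl_comap_map ι 𝔫 𝔫₁ h1 (m59tpl_psi φ ι hι 𝔫 𝔫₁ h1)
    (m59tpl_psi_algebraMap φ ι hι 𝔫 𝔫₁ h1) P hP P₁ hP₁
  have e2 := m59tpl_comap_map ι 𝔫 𝔫₁ h1 (m59tpl_psi φ ι hι 𝔫 𝔫₁ h1)
    (m59tpl_psi_algebraMap φ ι hι 𝔫 𝔫₁ h1) P' hP' P₂ hP₂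
  have e0 := m59tpl_map_le_comap ι (m59tpl_psi φ ι hι 𝔫 𝔫₁ h1)
    (m59tpl_psi_algebraMap φ ι hι 𝔫 𝔫₁ h1) 𝔫 𝔫₁ h1.ge
  exact m59tl_ratio_map (m59tpl_psi φ ι hι 𝔫 𝔫₁ h1) φ (fun x => rfl)
    (fun x hx => Ideal.mem_comap.1 (e0 hx))
    (fun x hx => e1 ▸ Ideal.mem_comap.2 hx) (fun x hx => Ideal.mem_comap.1 (e1 ▸ hx))
    (fun x hx => e2 ▸ Ideal.mem_comap.2 hx) (fun x hx => Ideal.mem_comap.1 (e2 ▸ hx)) h

include hι h1 in
/-- **[PULL-LOC], two branches over the same branch**: ratio one. -/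
theorem m59tpl_ratio_one (P P' : Ideal B₂) [P.IsPrime] [P'.IsPrime] (hP : P ≤ 𝔫) (hP' : P' ≤ 𝔫)
    (P₁ P₂ : Ideal B₁) (hP₁ : P.comap ι = P₁) (hP₂ : P'.comap ι = P₁)
    {m : ℕ} {g : F₁} {c : (ssl_locSub F₁ 𝔫₁)ˣ}
    (h : m59tl_Ratio (𝔫₁.map (algebraMap B₁ (ssl_locSub F₁ 𝔫₁)))
      (P₁.map (algebraMap B₁ (ssl_locSub F₁ 𝔫₁))) (P₂.map (algebraMap B₁ (ssl_locSub F₁ 𝔫₁)))
      m g c) :
    m59tl_Ratio (𝔫.map (algebraMap B₂ (ssl_locSub F₂ 𝔫)))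
      (P.map (algebraMap B₂ (ssl_locSub F₂ 𝔫))) (P'.map (algebraMap B₂ (ssl_locSub F₂ 𝔫)))
      m (φ g) 1 := by
  have e1 := m59tpl_comap_map ι 𝔫 𝔫₁ h1 (m59tpl_psi φ ι hι 𝔫 𝔫₁ h1)
    (m59tpl_psi_algebraMap φ ι hι 𝔫 𝔫₁ h1) P hP P₁ hP₁
  have e2 := m59tpl_comap_map ι 𝔫 𝔫₁ h1 (m59tpl_psi φ ι hι 𝔫 𝔫₁ h1)
    (m59tpl_psi_algebraMap φ ι hι 𝔫 𝔫₁ h1) P' hP' P₁ hP₂
  exact m59tl_ratio_same (m59tpl_psi φ ι hι 𝔫 𝔫₁ h1) φ
    (fun x hx => e1 ▸ Ideal.mem_comap.2 hx) (fun x hx => Ideal.mem_comap.1 (e1 ▸ hx))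
    (fun x hx => e2 ▸ Ideal.mem_comap.2 hx) (fun x hx => Ideal.mem_comap.1 (e2 ▸ hx))
    (fun x => rfl) h

include h1 in
/-- the crossing point downstairs contains the branches downstairs -/
theorem m59tpl_le_of_comap (P : Ideal B₂) (hP : P ≤ 𝔫) (P₁ : Ideal B₁) (hP₁ : P.comap ι = P₁) :
    P₁ ≤ 𝔫₁ := by
  rw [← hP₁, ← h1]
  exact Ideal.comap_mono hP

end Chart

section Same2

variable {R₁ : Type*} [CommRing R₁] [IsDomain R₁] {F₁ : Type*} [Field F₁] [Algebra R₁ F₁]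
  [IsFractionRing R₁ F₁]
variable {R₂ : Type*} [CommRing R₂] [IsDomain R₂] {F₂ : Type*} [Field F₂] [Algebra R₂ F₂]
  [IsFractionRing R₂ F₂]
variable (ψ : R₁ →+* R₂) (φ : F₁ →+* F₂)

/-- two branches over the SECOND branch have ratio one (the twin of `m59tl_ratio_same`). -/
theorem m59tpl_ratio_same2 {𝔪 𝔮₁ 𝔮₂ : Ideal R₁} {𝔪' 𝔮₁' 𝔮₂' : Ideal R₂}
    (h1 : ∀ x : R₁, ψ x ∈ 𝔮₁' → x ∈ 𝔮₂) (h1' : ∀ x : R₁, x ∈ 𝔮₂ → ψ x ∈ 𝔮₁')
    (h2 : ∀ x : R₁, ψ x ∈ 𝔮₂' → x ∈ 𝔮₂) (h2' : ∀ x : R₁, x ∈ 𝔮₂ → ψ x ∈ 𝔮₂')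
    (hφψ : ∀ x : R₁, φ (algebraMap R₁ F₁ x) = algebraMap R₂ F₂ (ψ x))
    {m : ℕ} {f : F₁} {c : R₁ˣ} (h : m59tl_Ratio 𝔪 𝔮₁ 𝔮₂ m f c) :
    m59tl_Ratio 𝔪' 𝔮₁' 𝔮₂' m (φ f) 1 := by
  obtain ⟨ω, g, a₁, a₂, hf, hu1, hu2, hm1, hm2, hr⟩ := h
  refine ⟨Units.map (ψ : R₁ →* R₂) ω, φ g, Units.map (ψ : R₁ →* R₂) a₂,
    Units.map (ψ : R₁ →* R₂) a₂, ?_, m59tl_unitAt_map ψ φ hφψ h1 hu2,
    m59tl_unitAt_map ψ φ hφψ h2 hu2, ?_, ?_, ?_⟩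
  · rw [hf, map_mul, map_pow, hφψ]
    rfl
  · have := m59tl_memM_map ψ φ hφψ h1 h1' hm2
    rw [map_sub, hφψ] at this
    exact this
  · have := m59tl_memM_map ψ φ hφψ h2 h2' hm2
    rw [map_sub, hφψ] at this
    exact this
  · rw [Units.val_one, one_mul, sub_self]
    exact 𝔪'.zero_mem

end Same2

section Pull

universe v w

variable {A0 : Type*} [CommRing A0] {F₁ : Type v} {F₂ : Type w} [Field F₁] [Field F₂]
  [Algebra A0 F₁] [Algebra A0 F₂] {B₁ : Subalgebra A0 F₁} {B₂ : Subalgebra A0 F₂}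
  [IsFractionRing B₁ F₁] [IsFractionRing B₂ F₂]
  (φ : F₁ →+* F₂) (ι : B₁ →+* B₂) (hι : ∀ b : B₁, ((ι b : B₂) : F₂) = φ (b : F₁))
  (𝔫 : Ideal B₂) [h𝔫 : 𝔫.IsPrime] (𝔫₁ : Ideal B₁) [h𝔫₁ : 𝔫₁.IsPrime] (h1 : 𝔫.comap ι = 𝔫₁)

include hι h1 in
/-- **[PULL-LOC], two branches over the second branch**: ratio one. -/
theorem m59tpl_ratio_one2 (P P' : Ideal B₂) [P.IsPrime] [P'.IsPrime] (hP : P ≤ 𝔫) (hP' : P' ≤ 𝔫)
    (P₁ P₂ : Ideal B₁) (hP₁ : P.comap ι = P₂) (hP₂ : P'.comap ι = P₂)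
    {m : ℕ} {g : F₁} {c : (ssl_locSub F₁ 𝔫₁)ˣ}
    (h : m59tl_Ratio (𝔫₁.map (algebraMap B₁ (ssl_locSub F₁ 𝔫₁)))
      (P₁.map (algebraMap B₁ (ssl_locSub F₁ 𝔫₁))) (P₂.map (algebraMap B₁ (ssl_locSub F₁ 𝔫₁)))
      m g c) :
    m59tl_Ratio (𝔫.map (algebraMap B₂ (ssl_locSub F₂ 𝔫)))
      (P.map (algebraMap B₂ (ssl_locSub F₂ 𝔫))) (P'.map (algebraMap B₂ (ssl_locSub F₂ 𝔫)))
      m (φ g) 1 := by
  have e1 := m59tpl_comap_map ι 𝔫 𝔫₁ h1 (m59tpl_psi φ ι hι 𝔫 𝔫₁ h1)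
    (m59tpl_psi_algebraMap φ ι hι 𝔫 𝔫₁ h1) P hP P₂ hP₁
  have e2 := m59tpl_comap_map ι 𝔫 𝔫₁ h1 (m59tpl_psi φ ι hι 𝔫 𝔫₁ h1)
    (m59tpl_psi_algebraMap φ ι hι 𝔫 𝔫₁ h1) P' hP' P₂ hP₂
  exact m59tpl_ratio_same2 (m59tpl_psi φ ι hι 𝔫 𝔫₁ h1) φ
    (fun x hx => e1 ▸ Ideal.mem_comap.2 hx) (fun x hx => Ideal.mem_comap.1 (e1 ▸ hx))
    (fun x hx => e2 ▸ Ideal.mem_comap.2 hx) (fun x hx => Ideal.mem_comap.1 (e2 ▸ hx))
    (fun x => rfl) h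

end Pull

section PullTwo

universe v w

variable {A0 : Type*} [CommRing A0] {F₁ : Type v} {F₂ : Type w} [Field F₁] [Field F₂]
  [Algebra A0 F₁] [Algebra A0 F₂] {B₁ : Subalgebra A0 F₁} {B₂ : Subalgebra A0 F₂}
  [IsFractionRing B₁ F₁] [IsFractionRing B₂ F₂]
  (φa φb : F₁ →+* F₂) (ιa ιb : B₁ →+* B₂)
  (hιa : ∀ b : B₁, ((ιa b : B₂) : F₂) = φa (b : F₁))
  (hιb : ∀ b : B₁, ((ιb b : B₂) : F₂) = φb (b : F₁))
  (hφa0 : ∀ c : A0, φa (algebraMap A0 F₁ c) = algebraMap A0 F₂ c)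
  (hφb0 : ∀ c : A0, φb (algebraMap A0 F₁ c) = algebraMap A0 F₂ c)
  (P₁ P₂ : Ideal B₁) (PA PB PC : Ideal B₂) [hPA : PA.IsPrime] [hPB : PB.IsPrime]
  [hPC : PC.IsPrime]
  (hAa : PA.comap ιa = P₁) (hBa : PB.comap ιa = P₂) (hCa : PC.comap ιa = P₁)
  (hAb : PA.comap ιb = P₁) (hBb : PB.comap ιb = P₂) (hCb : PC.comap ιb = P₂)
  (𝔫 : Ideal B₂) [h𝔫 : 𝔫.IsPrime] (hA : PA ≤ 𝔫) (hB : PB ≤ 𝔫) (hC : PC ≤ 𝔫)
  (𝔫a 𝔫b : Ideal B₁) [h𝔫a : 𝔫a.IsPrime] [h𝔫b : 𝔫b.IsPrime]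
  (ha : 𝔫.comap ιa = 𝔫a) (hb : 𝔫.comap ιb = 𝔫b)

include hιa hιb hφa0 hCa hBa hCb hBb hB hC ha hb in
/-- **[PULL-LOC], the product form, branches `(PC, PB)`.**  `(PC, PB)` lie over `(P₁, P₂)` under
`ιa` and both over `P₂` under `ιb`: if `gu` has the constant toric datum `cu` at `𝔫a = ιa⁻¹ 𝔫` and
`gv` has SOME toric datum at `𝔫b = ιb⁻¹ 𝔫`, then `φa gu * φb gv` has the datum `cu` between
`(PC, PB)` at `𝔫`. -/
theorem m59tpl_pull_CB {m : ℕ} {gu gv : F₁} {cu : A0ˣ} {c' : (ssl_locSub F₁ 𝔫b)ˣ}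
    (hu : m59tl_Ratio (𝔫a.map (algebraMap B₁ (ssl_locSub F₁ 𝔫a)))
      (P₁.map (algebraMap B₁ (ssl_locSub F₁ 𝔫a))) (P₂.map (algebraMap B₁ (ssl_locSub F₁ 𝔫a)))
      m gu (m59tl_cst (F0 := F₁) 𝔫a cu))
    (hv : m59tl_Ratio (𝔫b.map (algebraMap B₁ (ssl_locSub F₁ 𝔫b)))
      (P₁.map (algebraMap B₁ (ssl_locSub F₁ 𝔫b))) (P₂.map (algebraMap B₁ (ssl_locSub F₁ 𝔫b)))
      m gv c') :
    m59tl_Ratio (𝔫.map (algebraMap B₂ (ssl_locSub F₂ 𝔫)))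
      (PC.map (algebraMap B₂ (ssl_locSub F₂ 𝔫))) (PB.map (algebraMap B₂ (ssl_locSub F₂ 𝔫)))
      m (φa gu * φb gv) (m59tl_cst (F0 := F₂) 𝔫 cu) := by
  haveI iB := m59tpl_map_isPrime (F₂ := F₂) 𝔫 PB hB
  haveI iC := m59tpl_map_isPrime (F₂ := F₂) 𝔫 PC hC
  have k1 := m59tpl_ratio_over φa ιa hιa 𝔫 𝔫a ha PC PB hC hB P₁ P₂ hCa hBa hu
  rw [m59tpl_psi_cst φa ιa hιa 𝔫 𝔫a ha hφa0] at k1
  have k2 := m59tpl_ratio_one2 φb ιb hιb 𝔫 𝔫b hb PC PB hC hB P₁ P₂ hCb hBb hv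
  have k := m59tl_ratio_mul _ _ _ k1 k2
  rwa [mul_one] at k

include hιa hιb hφb0 hAa hCa hAb hCb hA hC ha hb in
/-- **[PULL-LOC], the product form, branches `(PA, PC)`.**  `(PA, PC)` lie both over `P₁` under
`ιa` and over `(P₁, P₂)` under `ιb`: if `gu` has SOME toric datum at `𝔫a = ιa⁻¹ 𝔫` and `gv` has the
constant toric datum `cv` at `𝔫b = ιb⁻¹ 𝔫`, then `φa gu * φb gv` has the datum `cv` between
`(PA, PC)` at `𝔫`. -/
theorem m59tpl_pull_AC {m : ℕ} {gu gv : F₁} {cv : A0ˣ} {c' : (ssl_locSub F₁ 𝔫a)ˣ}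
    (hu : m59tl_Ratio (𝔫a.map (algebraMap B₁ (ssl_locSub F₁ 𝔫a)))
      (P₁.map (algebraMap B₁ (ssl_locSub F₁ 𝔫a))) (P₂.map (algebraMap B₁ (ssl_locSub F₁ 𝔫a)))
      m gu c')
    (hv : m59tl_Ratio (𝔫b.map (algebraMap B₁ (ssl_locSub F₁ 𝔫b)))
      (P₁.map (algebraMap B₁ (ssl_locSub F₁ 𝔫b))) (P₂.map (algebraMap B₁ (ssl_locSub F₁ 𝔫b)))
      m gv (m59tl_cst (F0 := F₁) 𝔫b cv)) :
    m59tl_Ratio (𝔫.map (algebraMap B₂ (ssl_locSub F₂ 𝔫)))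
      (PA.map (algebraMap B₂ (ssl_locSub F₂ 𝔫))) (PC.map (algebraMap B₂ (ssl_locSub F₂ 𝔫)))
      m (φa gu * φb gv) (m59tl_cst (F0 := F₂) 𝔫 cv) := by
  haveI iA := m59tpl_map_isPrime (F₂ := F₂) 𝔫 PA hA
  haveI iC := m59tpl_map_isPrime (F₂ := F₂) 𝔫 PC hC
  have k1 := m59tpl_ratio_one φa ιa hιa 𝔫 𝔫a ha PA PC hA hC P₁ P₂ hAa hCa hu
  have k2 := m59tpl_ratio_over φb ιb hιb 𝔫 𝔫b hb PA PC hA hC P₁ P₂ hAb hCb hv
  rw [m59tpl_psi_cst φb ιb hιb 𝔫 𝔫b hb hφb0] at k2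
  have k := m59tl_ratio_mul _ _ _ k1 k2
  rwa [one_mul] at k

include hιa hιb hφa0 hφb0 hAa hBa hCa hAb hBb hCb hA hB hC ha hb in
/-- **[PULL-LOC], the product form.**  Upstairs three branches `PA, PB, PC` through the point `𝔫`;
under `ιa` they lie over `(P₁, P₂, P₁)`, under `ιb` over `(P₁, P₂, P₂)`.  If `gu` has the constant
toric datum `cu` at the point `𝔫a = ιa⁻¹ 𝔫` and `gv` the constant toric datum `cv` at the point
`𝔫b = ιb⁻¹ 𝔫` (both between `P₁` and `P₂`), then `φa gu * φb gv` has the datum `cu` between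
`(PC, PB)` and the datum `cv` between `(PA, PC)` at `𝔫`. -/
theorem m59tpl_pull {m : ℕ} {gu gv : F₁} {cu cv : A0ˣ}
    (hu : m59tl_Ratio (𝔫a.map (algebraMap B₁ (ssl_locSub F₁ 𝔫a)))
      (P₁.map (algebraMap B₁ (ssl_locSub F₁ 𝔫a))) (P₂.map (algebraMap B₁ (ssl_locSub F₁ 𝔫a)))
      m gu (m59tl_cst (F0 := F₁) 𝔫a cu))
    (hv : m59tl_Ratio (𝔫b.map (algebraMap B₁ (ssl_locSub F₁ 𝔫b)))
      (P₁.map (algebraMap B₁ (ssl_locSub F₁ 𝔫b))) (P₂.map (algebraMap B₁ (ssl_locSub F₁ 𝔫b)))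
      m gv (m59tl_cst (F0 := F₁) 𝔫b cv)) :
    m59tl_Ratio (𝔫.map (algebraMap B₂ (ssl_locSub F₂ 𝔫)))
        (PC.map (algebraMap B₂ (ssl_locSub F₂ 𝔫))) (PB.map (algebraMap B₂ (ssl_locSub F₂ 𝔫)))
        m (φa gu * φb gv) (m59tl_cst (F0 := F₂) 𝔫 cu) ∧
      m59tl_Ratio (𝔫.map (algebraMap B₂ (ssl_locSub F₂ 𝔫)))
        (PA.map (algebraMap B₂ (ssl_locSub F₂ 𝔫))) (PC.map (algebraMap B₂ (ssl_locSub F₂ 𝔫)))
        m (φa gu * φb gv) (m59tl_cst (F0 := F₂) 𝔫 cv) :=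
  ⟨m59tpl_pull_CB φa φb ιa ιb hιa hιb hφa0 P₁ P₂ PB PC hBa hCa hBb hCb 𝔫 hB hC 𝔫a 𝔫b ha hb hu hv,
    m59tpl_pull_AC φa φb ιa ιb hιa hιb hφb0 P₁ P₂ PA PC hAa hCa hAb hCb 𝔫 hA hC 𝔫a 𝔫b ha hb hu hv⟩

end PullTwo

section Max

open Polynomial

/-- Zariski's lemma in one variable, integral form: a field `S` integral over the image of `k[X]`
(`k` a field) is integral over `k`. -/
theorem m59tpl_zariski {k : Type*} [Field k] {S : Type*} [Field S] (f : k[X] →+* S)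
    (hf : f.IsIntegral) : (f.comp C).IsIntegral := by
  haveI : (RingHom.ker f).IsMaximal := by
    rw [RingHom.ker_eq_comap_bot]
    haveI : (⊥ : Ideal S).IsMaximal := Ideal.bot_isMaximal
    exact Ideal.isMaximal_comap_of_isIntegral_of_isMaximal' f hf ⊥
  let g : k[X] ⧸ (RingHom.ker f) →+* S := Ideal.Quotient.lift (RingHom.ker f) f fun _ h => h
  have hfg : g.comp (Ideal.Quotient.mk (RingHom.ker f)) = f := ringHom_ext' rfl rfl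
  have hg : g.IsIntegral := by
    have h' : (g.comp (Ideal.Quotient.mk (RingHom.ker f))).IsIntegral := hfg.symm ▸ hf
    exact RingHom.IsIntegral.tower_top _ _ h'
  rw [← hfg, RingHom.comp_assoc]
  exact (quotient_mk_comp_C_isIntegral_of_isJacobsonRing (RingHom.ker f)).trans _ g hg

variable {A0 : Type*} [CommRing A0] {B : Type*} [CommRing B] [Algebra A0 B]

/-- integrality over `A0[x]` as integrality of the evaluation map `A0[X] → B`. -/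
theorem m59tpl_aeval_isIntegral [Nontrivial B] (x : B)
    (hint : ∀ b : B, IsIntegral (Algebra.adjoin A0 ({x} : Set B)) b) :
    ((aeval x : A0[X] →ₐ[A0] B) : A0[X] →+* B).IsIntegral := by
  intro b
  obtain ⟨P, hP, hPb⟩ := hint b
  have hmem : ∀ p : A0[X], (aeval x : A0[X] →ₐ[A0] B) p ∈ Algebra.adjoin A0 ({x} : Set B) := by
    intro p
    rw [Algebra.adjoin_singleton_eq_range_aeval]
    exact ⟨p, rfl⟩
  let σ : A0[X] →+* Algebra.adjoin A0 ({x} : Set B) :=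
    ((aeval x : A0[X] →ₐ[A0] B) : A0[X] →+* B).codRestrict
      (Algebra.adjoin A0 ({x} : Set B)).toSubring hmem
  have hσ : Function.Surjective σ := by
    rintro ⟨r, hr⟩
    rw [Algebra.adjoin_singleton_eq_range_aeval] at hr
    obtain ⟨p, hp⟩ := hr
    exact ⟨p, Subtype.ext hp⟩
  haveI : Nontrivial (Algebra.adjoin A0 ({x} : Set B)) := inferInstance
  have hl : P ∈ Polynomial.lifts σ := by
    rw [Polynomial.mem_lifts]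
    exact Polynomial.map_surjective σ hσ P
  obtain ⟨Q, hQ, -, hQm⟩ := Polynomial.lifts_and_degree_eq_and_monic hl hP
  refine ⟨Q, hQm, ?_⟩
  have e : (algebraMap (Algebra.adjoin A0 ({x} : Set B)) B).comp σ =
      ((aeval x : A0[X] →ₐ[A0] B) : A0[X] →+* B) := by
    ext <;> rfl
  rw [← e, ← Polynomial.eval₂_map, hQ]
  exact hPb

/-- the generic form: `q : A0 → k` and `r : B → S` surjections onto fields, `r ∘ algebraMap`
killing the kernel of `q`, `B` integral over `A0[x]` ⟹ `S` is integral over `A0`. -/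
theorem m59tpl_quot_isIntegral_gen [Nontrivial B] {k : Type*} [Field k] {S : Type*} [Field S]
    (q : A0 →+* k) (hq : Function.Surjective q) (r : B →+* S) (hr : Function.Surjective r)
    (hker : ∀ a : A0, q a = 0 → r (algebraMap A0 B a) = 0) (x : B)
    (hint : ∀ b : B, IsIntegral (Algebra.adjoin A0 ({x} : Set B)) b) :
    (r.comp (algebraMap A0 B)).IsIntegral := by
  let gbar : k →+* S := RingHom.liftOfSurjective q hq
    ⟨r.comp (algebraMap A0 B), fun a ha => hker a ha⟩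
  have hgbar : ∀ a : A0, gbar (q a) = r (algebraMap A0 B a) := fun a =>
    RingHom.liftOfRightInverse_comp_apply _ _ _ _ a
  let f : k[X] →+* S := eval₂RingHom gbar (r x)
  let mp : A0[X] →+* k[X] := mapRingHom q
  have hcomp : f.comp mp = r.comp ((aeval x : A0[X] →ₐ[A0] B) : A0[X] →+* B) := by
    apply Polynomial.ringHom_ext
    · intro a
      simp [f, mp, hgbar]
    · simp [f, mp]
  have hf : f.IsIntegral := by
    have k1 : (r.comp ((aeval x : A0[X] →ₐ[A0] B) : A0[X] →+* B)).IsIntegral :=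
      RingHom.IsIntegral.trans _ _ (m59tpl_aeval_isIntegral x hint)
        (RingHom.isIntegral_of_surjective _ hr)
    rw [← hcomp] at k1
    exact RingHom.IsIntegral.tower_top mp f k1
  have k3 : (f.comp C).IsIntegral := m59tpl_zariski f hf
  have k4 : r.comp (algebraMap A0 B) = (f.comp C).comp q := by
    ext a
    simp [f, hgbar]
  rw [k4]
  exact RingHom.IsIntegral.trans _ _ (RingHom.isIntegral_of_surjective _ hq) k3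

/-- **the residue field at a closed point of the special fibre of a chart is integral over the
base** (Zariski's lemma): `B` integral over `A0[x]`, `(π)` maximal in `A0`, `π ∈ 𝔫` maximal. -/
theorem m59tpl_quot_isIntegral (π : A0) (hπ : (Ideal.span {π} : Ideal A0).IsMaximal) (x : B)
    (hint : ∀ b : B, IsIntegral (Algebra.adjoin A0 ({x} : Set B)) b)
    (𝔫 : Ideal B) [h𝔫 : 𝔫.IsMaximal] (hπ𝔫 : algebraMap A0 B π ∈ 𝔫) :
    ((Ideal.Quotient.mk 𝔫).comp (algebraMap A0 B)).IsIntegral := by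
  haveI : Nontrivial B :=
    ⟨⟨0, 1, fun h => h𝔫.ne_top ((Ideal.eq_top_iff_one _).2 (h ▸ 𝔫.zero_mem))⟩⟩
  letI : Field (B ⧸ 𝔫) := Ideal.Quotient.field 𝔫
  letI : Field (A0 ⧸ (Ideal.span {π} : Ideal A0)) := Ideal.Quotient.field _
  refine m59tpl_quot_isIntegral_gen (Ideal.Quotient.mk (Ideal.span {π} : Ideal A0))
    Ideal.Quotient.mk_surjective (Ideal.Quotient.mk 𝔫) Ideal.Quotient.mk_surjective ?_ x hint
  intro a ha
  rw [Ideal.Quotient.eq_zero_iff_mem] at ha ⊢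
  obtain ⟨c, rfl⟩ := Ideal.mem_span_singleton'.1 ha
  rw [map_mul]
  exact 𝔫.mul_mem_left _ hπ𝔫

/-- **[PULL-LOC] (i): the point under a closed point of the special fibre is closed**, for ANY map
`ι : B₁ → B` of `A0`-algebras into a chart `B` (integral over `A0[x]`). -/
theorem m59tpl_comap_isMaximal {B₁ : Type*} [CommRing B₁] [Algebra A0 B₁] (ι : B₁ →+* B)
    (hι0 : ∀ a : A0, ι (algebraMap A0 B₁ a) = algebraMap A0 B a)
    (π : A0) (hπ : (Ideal.span {π} : Ideal A0).IsMaximal) (x : B)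
    (hint : ∀ b : B, IsIntegral (Algebra.adjoin A0 ({x} : Set B)) b)
    (𝔫 : Ideal B) [h𝔫 : 𝔫.IsMaximal] (hπ𝔫 : algebraMap A0 B π ∈ 𝔫) :
    (𝔫.comap ι).IsMaximal := by
  have h0 := m59tpl_quot_isIntegral π hπ x hint 𝔫 hπ𝔫
  have h1 : ((Ideal.Quotient.mk 𝔫).comp ι).IsIntegral := by
    have e : ((Ideal.Quotient.mk 𝔫).comp ι).comp (algebraMap A0 B₁) =
        (Ideal.Quotient.mk 𝔫).comp (algebraMap A0 B) := by
      ext a
      simp [hι0]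
    exact RingHom.IsIntegral.tower_top (algebraMap A0 B₁) _ (e ▸ h0)
  haveI : (⊥ : Ideal (B ⧸ 𝔫)).IsMaximal := (Ideal.bot_quotient_isMaximal_iff 𝔫).2 h𝔫
  have h2 := Ideal.isMaximal_comap_of_isIntegral_of_isMaximal' _ h1 (⊥ : Ideal (B ⧸ 𝔫))
  have e2 : (⊥ : Ideal (B ⧸ 𝔫)).comap ((Ideal.Quotient.mk 𝔫).comp ι) = 𝔫.comap ι := by
    rw [← Ideal.comap_comap, ← RingHom.ker_eq_comap_bot, Ideal.mk_ker]
  rwa [e2] at h2

end Max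

end Fermat.Agent.M59
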