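/-
M59 / Sink B, leaf 4 [TOR-SURJ], cell (pull) / [PULL-LOC], THE INSTANCE IN THE VOCABULARY OF
`Tor/Defs1.lean`, `Tor/Defs2.lean` (helper11; prefix `m59tpl_`).

Context = the context of `Defs2` (`A`, `q`, `N'`, `L`, `O = A ∩ L`, `hπq`), the two maps of function
fields `aE bE : E1 →+* E2` and of charts `aB bB : B1 →+* B2` (PARAMETERS, as in `m59t2_RatioAll`; in
use the inclusion and `X ↦ X^q`, `Tor/PullRestr.lean`), the six restriction identities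
`PA, PC ↦ P1`, `PB ↦ P2` (along `aB`), `PA ↦ P1`, `PB, PC ↦ P2` (along `bB`).

* `m59tpl_triple_comap` : the image in `B1` (along an `O`-map of charts) of a closed point of the
  special fibre of `B2` is a closed point;
* **`m59tpl_ratioAll`** : `m59t1_RatioAll m gu cu → m59t1_RatioAll m gv cv →
  m59t2_RatioAll aB bB m (aE gu * bE gv) cu cv`  (the toric half of (pull)); the labels of the SECOND
  image point come from `hlab` (= `m59ls_dict1`: every crossing point is labelled).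
-/
import Mathlib
import Fermat.Agent.M59.SinkB.Tor.PullLoc
import Fermat.Agent.M59.SinkB.Tor.Defs2
import Fermat.Agent.SS.Model.NodeCross
import Fermat.Agent.S36.Model.AsmLegLastT

set_option autoImplicit false
set_option linter.unusedSectionVars false
set_option linter.unusedVariables false
set_option linter.style.haveILetI false
set_option synthInstance.maxHeartbeats 400000
set_option maxHeartbeats 1000000

noncomputable section

namespace Fermat.Agent.M59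

open Polynomial ModularCurve AlgebraicCurve IntermediateField IsLocalRing
open Fermat.Agent.JT3 Fermat.Agent.SS Fermat.Agent.S35 Fermat.Agent.S24 Fermat.Agent.S44
  Fermat.Agent.S36 Fermat.Agent.SS2

local notation "Qb" => AlgebraicClosure ℚ

section Leg

variable (L : Type) [Field L] [NumberField L] [Algebra L (AlgebraicClosure ℚ)]
  (O : ValuationSubring L) [IsDiscreteValuationRing O]
variable (N' q : ℕ) [NeZero N'] [NeZero q] [hq : Fact q.Prime] [CharP (ResidueField O) q]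
  (hq2 : ¬ 2 ∣ q) (hqN' : ¬ q ∣ N') (hπ : Irreducible ((q : ℕ) : ↥O))
  (ζ : L) (hζ : IsPrimitiveRoot ζ N')

include hζ in
set_option synthInstance.maxHeartbeats 400000 in
set_option maxHeartbeats 3200000 in
/-- **the three vertical primes of the chart of level `N' q q` are primes, and contain `q`**
([NF2-CTX]; from the three-valuation package `s36tp_Hyp` of `s36asm_all_of_third`). -/
theorem m59tpl_leg_primes {VC : ValuationSubring ↥(lg_E L (N' * q * q))}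
    (T3 : s36asm_Third O hπ N' q hq2 hqN' VC) :
    (ssm_tp_P (fc_chart ↥O ({lg_lamE (N' * q * q)} : Set ↥(lg_E L (N' * q * q))))
        (s36i_VA O hπ (N' * q) q)).IsPrime ∧
      (ssm_tp_P (fc_chart ↥O ({lg_lamE (N' * q * q)} : Set ↥(lg_E L (N' * q * q))))
        (s36i_VB O hπ N' q hq2 hqN')).IsPrime ∧
      (ssm_tp_P (fc_chart ↥O ({lg_lamE (N' * q * q)} : Set ↥(lg_E L (N' * q * q)))) VC).IsPrime ∧
      algebraMap ↥O (fc_chart ↥O ({lg_lamE (N' * q * q)} : Set ↥(lg_E L (N' * q * q))))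
          ((q : ℕ) : ↥O) ∈
        ssm_tp_P (fc_chart ↥O ({lg_lamE (N' * q * q)} : Set ↥(lg_E L (N' * q * q))))
          (s36i_VA O hπ (N' * q) q) := by
  have hqO : ((q : ℕ) : O) ∈ maximalIdeal O := ssm_fln_q_mem L O q
  have hq2' : q ≠ 2 := ssm_fl_ne_two q hq2
  have hp := ssm_ll_prime L N' hπ q hqO hq2' hqN' ζ hζ
  obtain ⟨-, H3, -⟩ := s36asm_all_of_third O hπ N' q hq2 hqN' hp.1 T3
  haveI := ssm_go_isScalarTower O (lg_E L (N' * q * q))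
  have hx : Transcendental L (lg_lamE (L := L) (N' * q * q)) :=
    lgf_lam_transcendental L (N' * q * q) two_ne_zero
  have hxA : Transcendental ↥O (lg_lamE (L := L) (N' * q * q)) :=
    fc_ff_transcendental (L := L) hx
  haveI : IsIntegrallyClosed
      (Algebra.adjoin ↥O ({lg_lamE (N' * q * q)} : Set ↥(lg_E L (N' * q * q)))) :=
    fc_ff_isIntegrallyClosed hxA
  haveI : FaithfulSMul (Algebra.adjoin ↥O ({lg_lamE (N' * q * q)} : Set ↥(lg_E L (N' * q * q))))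
      ↥(lg_E L (N' * q * q)) :=
    (faithfulSMul_iff_algebraMap_injective _ _).2 Subtype.val_injective
  have hC : ssm_tp_Chart
      (algebraMap ↥O (Algebra.adjoin ↥O ({lg_lamE (N' * q * q)} : Set ↥(lg_E L (N' * q * q))))
        ((q : ℕ) : ↥O))
      (fc_chart ↥O ({lg_lamE (N' * q * q)} : Set ↥(lg_E L (N' * q * q)))) :=
    ssm_tp_ff_chart (L := L) hπ hx
  exact ⟨H3.P_isPrime hC 0, H3.P_isPrime hC 1, H3.P_isPrime hC 2, H3.pi_mem_P hC _ rfl 0⟩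

end Leg

section Inst

variable (A : ValuationSubring Qb) {q : ℕ} [hq : Fact q.Prime] (hA : A.LiesOverPrime q)
  (N' : ℕ) [NeZero N'] [NeZero q] [NeZero (N' * q)] [NeZero (N' * q * q)]
  (hq2 : ¬ 2 ∣ q) (hqN' : ¬ q ∣ N')
  (L : IntermediateField ℚ Qb) [NumberField ↥L]
  [IsDiscreteValuationRing ↥(A.comap (algebraMap ↥L Qb))]
  [CharP (ResidueField ↥(A.comap (algebraMap ↥L Qb))) q]
  (hπq : Irreducible ((q : ℕ) : ↥(A.comap (algebraMap ↥L Qb))))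

include hπq in
/-- **the image in `B1` of a closed point of the special fibre of `B2` is a closed point**, along any
map of charts which is the identity on `O`. -/
theorem m59tpl_triple_comap (ι : ↥(m59t1_B1 A N' q L) →+* ↥(m59t2_B2 A N' q L))
    (hι0 : ∀ c : ↥(A.comap (algebraMap ↥L Qb)),
      ι (algebraMap ↥(A.comap (algebraMap ↥L Qb)) ↥(m59t1_B1 A N' q L) c) =
        algebraMap ↥(A.comap (algebraMap ↥L Qb)) ↥(m59t2_B2 A N' q L) c)
    (𝔫 : Ideal ↥(m59t2_B2 A N' q L)) (h𝔫 : 𝔫.IsMaximal)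
    (hq𝔫 : algebraMap ↥(A.comap (algebraMap ↥L Qb)) ↥(m59t2_B2 A N' q L)
      ((q : ℕ) : ↥(A.comap (algebraMap ↥L Qb))) ∈ 𝔫) :
    (𝔫.comap ι).IsMaximal := by
  haveI := h𝔫
  have hmax : (Ideal.span {((q : ℕ) : ↥(A.comap (algebraMap ↥L Qb)))} :
      Ideal ↥(A.comap (algebraMap ↥L Qb))).IsMaximal :=
    PrincipalIdealRing.isMaximal_of_irreducible hπq
  exact m59tpl_comap_isMaximal ι hι0 _ hmax
    (⟨lg_lamE (N' * q * q), fc_x_mem_chart _⟩ : ↥(m59t2_B2 A N' q L))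
    (ssm_nx_chart_isIntegral (A0 := ↥(A.comap (algebraMap ↥L Qb))) (lg_lamE (N' * q * q))) 𝔫 hq𝔫

include hπq in
/-- **the toric half of (pull)**: if `gu` has the toric data `cu` and `gv` the toric data `cv` at the
labelled crossing points of level `N' q`, then `aE gu * bE gv` has the toric data `(cu, cv)` at the
triple points of level `N' q q` (labels read through `aB`, resp. `bB`). -/
theorem m59tpl_ratioAll
    (aE bE : ↥(lg_E ↥L (N' * q)) →+* ↥(lg_E ↥L (N' * q * q)))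
    (aB bB : ↥(m59t1_B1 A N' q L) →+* ↥(m59t2_B2 A N' q L))
    (haB : ∀ b : ↥(m59t1_B1 A N' q L),
      ((aB b : ↥(m59t2_B2 A N' q L)) : ↥(lg_E ↥L (N' * q * q))) = aE (b : ↥(lg_E ↥L (N' * q))))
    (hbB : ∀ b : ↥(m59t1_B1 A N' q L),
      ((bB b : ↥(m59t2_B2 A N' q L)) : ↥(lg_E ↥L (N' * q * q))) = bE (b : ↥(lg_E ↥L (N' * q))))
    (haE0 : ∀ c : ↥(A.comap (algebraMap ↥L Qb)),
      aE (algebraMap ↥(A.comap (algebraMap ↥L Qb)) ↥(lg_E ↥L (N' * q)) c) =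
        algebraMap ↥(A.comap (algebraMap ↥L Qb)) ↥(lg_E ↥L (N' * q * q)) c)
    (hbE0 : ∀ c : ↥(A.comap (algebraMap ↥L Qb)),
      bE (algebraMap ↥(A.comap (algebraMap ↥L Qb)) ↥(lg_E ↥L (N' * q)) c) =
        algebraMap ↥(A.comap (algebraMap ↥L Qb)) ↥(lg_E ↥L (N' * q * q)) c)
    (hqA : algebraMap ↥(A.comap (algebraMap ↥L Qb)) ↥(m59t2_B2 A N' q L)
      ((q : ℕ) : ↥(A.comap (algebraMap ↥L Qb))) ∈ m59t2_PA A N' L hπq)
    (hPAp : (m59t2_PA A N' L hπq).IsPrime) (hPBp : (m59t2_PB A N' hq2 hqN' L hπq).IsPrime)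
    (hPCp : ∀ VC : ValuationSubring ↥(lg_E ↥L (N' * q * q)),
      s36asm_Third (A.comap (algebraMap ↥L Qb)) hπq N' q hq2 hqN' VC →
        (m59t2_PC A N' L VC).IsPrime)
    (hAa : (m59t2_PA A N' L hπq).comap aB = m59t1_P1 A N' L hπq)
    (hBa : (m59t2_PB A N' hq2 hqN' L hπq).comap aB = m59t1_P2 A N' hq2 hqN' L hπq)
    (hCa : ∀ VC : ValuationSubring ↥(lg_E ↥L (N' * q * q)),
      s36asm_Third (A.comap (algebraMap ↥L Qb)) hπq N' q hq2 hqN' VC →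
        (m59t2_PC A N' L VC).comap aB = m59t1_P1 A N' L hπq)
    (hAb : (m59t2_PA A N' L hπq).comap bB = m59t1_P1 A N' L hπq)
    (hBb : (m59t2_PB A N' hq2 hqN' L hπq).comap bB = m59t1_P2 A N' hq2 hqN' L hπq)
    (hCb : ∀ VC : ValuationSubring ↥(lg_E ↥L (N' * q * q)),
      s36asm_Third (A.comap (algebraMap ↥L Qb)) hπq N' q hq2 hqN' VC →
        (m59t2_PC A N' L VC).comap bB = m59t1_P2 A N' hq2 hqN' L hπq)
    (hlab : ∀ (𝔫₁ : Ideal ↥(m59t1_B1 A N' q L)) (h𝔫₁ : 𝔫₁.IsMaximal),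
      m59t1_P1 A N' L hπq ≤ 𝔫₁ → m59t1_P2 A N' hq2 hqN' L hπq ≤ 𝔫₁ →
        ∃ Q : s44e_Sg A N' q hq.out hqN', m59t1_Lab A hA N' hq2 hqN' L hπq 𝔫₁ Q.1)
    {m : ℕ} {gu gv : ↥(lg_E ↥L (N' * q))}
    {cu cv : s44e_Sg A N' q hq.out hqN' → (↥(A.comap (algebraMap ↥L Qb)))ˣ}
    (hu : m59t1_RatioAll A hA N' hq2 hqN' L hπq m gu cu)
    (hv : m59t1_RatioAll A hA N' hq2 hqN' L hπq m gv cv) :
    m59t2_RatioAll A hA N' hq2 hqN' L hπq aB bB m (aE gu * bE gv) cu cv := by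
  intro VC T3 𝔫 h𝔫 hPA hPB hPC Q
  haveI i1 := (s44ndl_chart_inst (A.comap (algebraMap ↥L Qb)) N' q (L := ↥L)).1
  haveI i2 := s36cp_chart_isFractionRing (A.comap (algebraMap ↥L Qb)) (L := ↥L) (N' * q * q)
  haveI h𝔫p := h𝔫.isPrime
  haveI := hPAp
  haveI := hPBp
  haveI := hPCp VC T3
  -- the two image points are crossing points
  have hι0 : ∀ (ι : ↥(m59t1_B1 A N' q L) →+* ↥(m59t2_B2 A N' q L))
      (φ : ↥(lg_E ↥L (N' * q)) →+* ↥(lg_E ↥L (N' * q * q)))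
      (hι : ∀ b : ↥(m59t1_B1 A N' q L),
        ((ι b : ↥(m59t2_B2 A N' q L)) : ↥(lg_E ↥L (N' * q * q))) = φ (b : ↥(lg_E ↥L (N' * q))))
      (hφ0 : ∀ c : ↥(A.comap (algebraMap ↥L Qb)),
        φ (algebraMap ↥(A.comap (algebraMap ↥L Qb)) ↥(lg_E ↥L (N' * q)) c) =
          algebraMap ↥(A.comap (algebraMap ↥L Qb)) ↥(lg_E ↥L (N' * q * q)) c)
      (c : ↥(A.comap (algebraMap ↥L Qb))),
      ι (algebraMap ↥(A.comap (algebraMap ↥L Qb)) ↥(m59t1_B1 A N' q L) c) =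
        algebraMap ↥(A.comap (algebraMap ↥L Qb)) ↥(m59t2_B2 A N' q L) c := by
    intro ι φ hι hφ0 c
    apply Subtype.ext
    rw [hι]
    exact hφ0 c
  have hq𝔫 := hPA hqA
  have hmaxa : (𝔫.comap aB).IsMaximal :=
    m59tpl_triple_comap A N' L hπq aB (hι0 aB aE haB haE0) 𝔫 h𝔫 hq𝔫
  have hmaxb : (𝔫.comap bB).IsMaximal :=
    m59tpl_triple_comap A N' L hπq bB (hι0 bB bE hbB hbE0) 𝔫 h𝔫 hq𝔫
  haveI hpa := hmaxa.isPrime
  haveI hpb := hmaxb.isPrime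
  have h1a : m59t1_P1 A N' L hπq ≤ 𝔫.comap aB :=
    m59tpl_le_of_comap aB 𝔫 (𝔫.comap aB) rfl _ hPA _ hAa
  have h2a : m59t1_P2 A N' hq2 hqN' L hπq ≤ 𝔫.comap aB :=
    m59tpl_le_of_comap aB 𝔫 (𝔫.comap aB) rfl _ hPB _ hBa
  have h1b : m59t1_P1 A N' L hπq ≤ 𝔫.comap bB :=
    m59tpl_le_of_comap bB 𝔫 (𝔫.comap bB) rfl _ hPA _ hAb
  have h2b : m59t1_P2 A N' hq2 hqN' L hπq ≤ 𝔫.comap bB :=
    m59tpl_le_of_comap bB 𝔫 (𝔫.comap bB) rfl _ hPB _ hBb
  constructor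
  · intro hQ
    -- the datum of `gu` at the labelled point `𝔫 ∩ B1` (along `aB`), SOME datum of `gv` at the other
    have ku := hu (𝔫.comap aB) hmaxa h1a h2a Q hQ
    obtain ⟨Q', hQ'⟩ := hlab (𝔫.comap bB) hmaxb h1b h2b
    have kv := hv (𝔫.comap bB) hmaxb h1b h2b Q' hQ'
    exact m59tpl_pull_CB aE bE aB bB haB hbB haE0 (m59t1_P1 A N' L hπq)
      (m59t1_P2 A N' hq2 hqN' L hπq) (m59t2_PB A N' hq2 hqN' L hπq) (m59t2_PC A N' L VC)
      hBa (hCa VC T3) hBb (hCb VC T3) 𝔫 hPB hPC (𝔫.comap aB) (𝔫.comap bB) rfl rfl ku kv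
  · intro hQ
    obtain ⟨Q', hQ'⟩ := hlab (𝔫.comap aB) hmaxa h1a h2a
    have ku := hu (𝔫.comap aB) hmaxa h1a h2a Q' hQ'
    have kv := hv (𝔫.comap bB) hmaxb h1b h2b Q hQ
    exact m59tpl_pull_AC aE bE aB bB haB hbB hbE0 (m59t1_P1 A N' L hπq)
      (m59t1_P2 A N' hq2 hqN' L hπq) (m59t2_PA A N' L hπq) (m59t2_PC A N' L VC)
      hAa (hCa VC T3) hAb (hCb VC T3) 𝔫 hPA hPC (𝔫.comap aB) (𝔫.comap bB) rfl rfl ku kv

include hπq in
/-- **the toric half of (pull)**, with the primality of `PA, PB, PC` and `q ∈ PA` discharged from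
[NF2-CTX] (`ζ` a primitive `N'`-th root of `1` in `L`). -/
theorem m59tpl_ratioAll_nf (ζ : ↥L) (hζ : IsPrimitiveRoot ζ N')
    (aE bE : ↥(lg_E ↥L (N' * q)) →+* ↥(lg_E ↥L (N' * q * q)))
    (aB bB : ↥(m59t1_B1 A N' q L) →+* ↥(m59t2_B2 A N' q L))
    (haB : ∀ b : ↥(m59t1_B1 A N' q L),
      ((aB b : ↥(m59t2_B2 A N' q L)) : ↥(lg_E ↥L (N' * q * q))) = aE (b : ↥(lg_E ↥L (N' * q))))
    (hbB : ∀ b : ↥(m59t1_B1 A N' q L),
      ((bB b : ↥(m59t2_B2 A N' q L)) : ↥(lg_E ↥L (N' * q * q))) = bE (b : ↥(lg_E ↥L (N' * q))))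
    (haE0 : ∀ c : ↥(A.comap (algebraMap ↥L Qb)),
      aE (algebraMap ↥(A.comap (algebraMap ↥L Qb)) ↥(lg_E ↥L (N' * q)) c) =
        algebraMap ↥(A.comap (algebraMap ↥L Qb)) ↥(lg_E ↥L (N' * q * q)) c)
    (hbE0 : ∀ c : ↥(A.comap (algebraMap ↥L Qb)),
      bE (algebraMap ↥(A.comap (algebraMap ↥L Qb)) ↥(lg_E ↥L (N' * q)) c) =
        algebraMap ↥(A.comap (algebraMap ↥L Qb)) ↥(lg_E ↥L (N' * q * q)) c)
    (hT3 : ∃ VC : ValuationSubring ↥(lg_E ↥L (N' * q * q)),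
      s36asm_Third (A.comap (algebraMap ↥L Qb)) hπq N' q hq2 hqN' VC)
    (hAa : (m59t2_PA A N' L hπq).comap aB = m59t1_P1 A N' L hπq)
    (hBa : (m59t2_PB A N' hq2 hqN' L hπq).comap aB = m59t1_P2 A N' hq2 hqN' L hπq)
    (hCa : ∀ VC : ValuationSubring ↥(lg_E ↥L (N' * q * q)),
      s36asm_Third (A.comap (algebraMap ↥L Qb)) hπq N' q hq2 hqN' VC →
        (m59t2_PC A N' L VC).comap aB = m59t1_P1 A N' L hπq)
    (hAb : (m59t2_PA A N' L hπq).comap bB = m59t1_P1 A N' L hπq)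
    (hBb : (m59t2_PB A N' hq2 hqN' L hπq).comap bB = m59t1_P2 A N' hq2 hqN' L hπq)
    (hCb : ∀ VC : ValuationSubring ↥(lg_E ↥L (N' * q * q)),
      s36asm_Third (A.comap (algebraMap ↥L Qb)) hπq N' q hq2 hqN' VC →
        (m59t2_PC A N' L VC).comap bB = m59t1_P2 A N' hq2 hqN' L hπq)
    (hlab : ∀ (𝔫₁ : Ideal ↥(m59t1_B1 A N' q L)) (h𝔫₁ : 𝔫₁.IsMaximal),
      m59t1_P1 A N' L hπq ≤ 𝔫₁ → m59t1_P2 A N' hq2 hqN' L hπq ≤ 𝔫₁ →
        ∃ Q : s44e_Sg A N' q hq.out hqN', m59t1_Lab A hA N' hq2 hqN' L hπq 𝔫₁ Q.1)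
    {m : ℕ} {gu gv : ↥(lg_E ↥L (N' * q))}
    {cu cv : s44e_Sg A N' q hq.out hqN' → (↥(A.comap (algebraMap ↥L Qb)))ˣ}
    (hu : m59t1_RatioAll A hA N' hq2 hqN' L hπq m gu cu)
    (hv : m59t1_RatioAll A hA N' hq2 hqN' L hπq m gv cv) :
    m59t2_RatioAll A hA N' hq2 hqN' L hπq aB bB m (aE gu * bE gv) cu cv := by
  obtain ⟨VC0, T0⟩ := hT3
  have h0 := m59tpl_leg_primes ↥L (A.comap (algebraMap ↥L Qb)) N' q hq2 hqN' hπq ζ hζ T0
  exact m59tpl_ratioAll A hA N' hq2 hqN' L hπq aE bE aB bB haB hbB haE0 hbE0 h0.2.2.2 h0.1 h0.2.1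
    (fun VC T3 =>
      (m59tpl_leg_primes ↥L (A.comap (algebraMap ↥L Qb)) N' q hq2 hqN' hπq ζ hζ T3).2.2.1)
    hAa hBa hCa hAb hBb hCb hlab hu hv

end Inst

end Fermat.Agent.M59
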