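/-
M59 / Sink B, leaf 3 [TOR-SURJ], level `N' q q` (helper5; prefix `m59tprb_`).

**The involution `τ = (X ↦ -X)` commutes with the two degeneracy maps `aE, bE : E₁ → E₂`**
(`E₁ = lg_E L (N' q)`, `E₂ = lg_E L (N' q q)`, `q` odd), as equalities of elements and of ring homs;
and `bE = W₂ ∘ aE ∘ W₁` as an equality of ring homs.

The maps are ARBITRARY ring homs pinned on series:
`haE : ∀ y, ((aE y : E₂) : L((X))) = (y : L((X)))`,
`hbE : ∀ y, ((bE y : E₂) : L((X))) = qExpand L q (y : L((X)))`.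
-/
import Mathlib
import Fermat.Agent.S36.Tri.PtTriLeg
import Fermat.Agent.M59.SinkB.Tor.TauGauss

set_option autoImplicit false
set_option linter.unusedSectionVars false
set_option linter.unusedVariables false
set_option linter.style.haveILetI false

noncomputable section

open ModularCurve IntermediateField IsLocalRing
open Fermat.Agent.JT3 Fermat.Agent.SS Fermat.Agent.S35 Fermat.Agent.S36

namespace Fermat.Agent.M59

section Tau

variable {L : Type*} [Field L] [CharZero L] [Algebra L (AlgebraicClosure ℚ)]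
variable (N' q : ℕ) [NeZero N'] [NeZero q] [hq : Fact q.Prime]
  (hq2 : ¬ 2 ∣ q) (hqN' : ¬ q ∣ N') (h2 : (2 : L) ≠ 0)

variable (aE bE : ↥(lg_E L (N' * q)) →+* ↥(lg_E L (N' * q * q)))
  (haE : ∀ y : ↥(lg_E L (N' * q)),
    ((aE y : ↥(lg_E L (N' * q * q))) : LaurentSeries L) = (y : LaurentSeries L))
  (hbE : ∀ y : ↥(lg_E L (N' * q)),
    ((bE y : ↥(lg_E L (N' * q * q))) : LaurentSeries L) = qExpand L q (y : LaurentSeries L))

include haE in
/-- **`τ₂ ∘ aE = aE ∘ τ₁`**. -/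
theorem m59tprb_tau_a (y : ↥(lg_E L (N' * q))) :
    m59tt_tau L (N' * q * q) h2 (aE y) = aE (m59tt_tau L (N' * q) h2 y) := by
  apply Subtype.ext
  rw [m59tt_tau_coe, haE, haE, m59tt_tau_coe]

include hbE hq2 in
/-- **`τ₂ ∘ bE = bE ∘ τ₁`** (`(-X)^q = -X^q`, `q` odd). -/
theorem m59tprb_tau_b (y : ↥(lg_E L (N' * q))) :
    m59tt_tau L (N' * q * q) h2 (bE y) = bE (m59tt_tau L (N' * q) h2 y) := by
  apply Subtype.ext
  rw [m59tt_tau_coe, hbE, hbE, m59tt_tau_coe, m59tv_tau0_qExpand q hq2]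

include haE in
/-- `τ₂ ∘ aE = aE ∘ τ₁` as ring homs. -/
theorem m59tprb_tau_comp_a :
    (((m59tt_tau L (N' * q * q) h2).toRingEquiv :
        ↥(lg_E L (N' * q * q)) ≃+* ↥(lg_E L (N' * q * q))) :
        ↥(lg_E L (N' * q * q)) →+* ↥(lg_E L (N' * q * q))).comp aE =
      aE.comp (((m59tt_tau L (N' * q) h2).toRingEquiv :
        ↥(lg_E L (N' * q)) ≃+* ↥(lg_E L (N' * q))) :
        ↥(lg_E L (N' * q)) →+* ↥(lg_E L (N' * q))) :=
  RingHom.ext fun y => m59tprb_tau_a N' q h2 aE haE y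

include hbE hq2 in
/-- `τ₂ ∘ bE = bE ∘ τ₁` as ring homs. -/
theorem m59tprb_tau_comp_b :
    (((m59tt_tau L (N' * q * q) h2).toRingEquiv :
        ↥(lg_E L (N' * q * q)) ≃+* ↥(lg_E L (N' * q * q))) :
        ↥(lg_E L (N' * q * q)) →+* ↥(lg_E L (N' * q * q))).comp bE =
      bE.comp (((m59tt_tau L (N' * q) h2).toRingEquiv :
        ↥(lg_E L (N' * q)) ≃+* ↥(lg_E L (N' * q))) :
        ↥(lg_E L (N' * q)) →+* ↥(lg_E L (N' * q))) :=
  RingHom.ext fun y => m59tprb_tau_b N' q hq2 h2 bE hbE y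

include haE hbE in
/-- **`W₂ ∘ bE = aE ∘ W₁`**. -/
theorem m59tprb_W2_b (y : ↥(lg_E L (N' * q))) :
    s36i_W2 L N' q hq2 hqN' (bE y) = aE (ssm_gl_W L N' q hq2 hqN' y) := by
  have hmem : qExpand L q (y : LaurentSeries L) ∈ lg_E L (N' * q * q) := by
    rw [← hbE y]; exact (bE y).2
  have e : bE y = ⟨qExpand L q (y : LaurentSeries L), hmem⟩ := Subtype.ext (hbE y)
  apply Subtype.ext
  rw [e, haE]
  exact s36w_coe_WE_beta L N' q hq.out hq2 hqN' y hmem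

include haE hbE in
/-- **`bE = W₂ ∘ aE ∘ W₁`**. -/
theorem m59tprb_b_eq (y : ↥(lg_E L (N' * q))) :
    bE y = s36i_W2 L N' q hq2 hqN' (aE (ssm_gl_W L N' q hq2 hqN' y)) := by
  rw [← m59tprb_W2_b N' q hq2 hqN' aE bE haE hbE y]
  exact (s36w_WE_WE L N' q hq.out hq2 hqN' (bE y)).symm

include haE hbE in
/-- `bE = W₂ ∘ aE ∘ W₁` as ring homs. -/
theorem m59tprb_b_eq_comp :
    bE = ((s36i_W2 L N' q hq2 hqN' :
        ↥(lg_E L (N' * q * q)) ≃+* ↥(lg_E L (N' * q * q))) :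
        ↥(lg_E L (N' * q * q)) →+* ↥(lg_E L (N' * q * q))).comp
      (aE.comp ((ssm_gl_W L N' q hq2 hqN' : ↥(lg_E L (N' * q)) ≃+* ↥(lg_E L (N' * q))) :
        ↥(lg_E L (N' * q)) →+* ↥(lg_E L (N' * q)))) :=
  RingHom.ext fun y => m59tprb_b_eq N' q hq2 hqN' aE bE haE hbE y

include haE hbE in
/-- `aE = W₂ ∘ bE ∘ W₁` (the mirror identity). -/
theorem m59tprb_a_eq (y : ↥(lg_E L (N' * q))) :
    aE y = s36i_W2 L N' q hq2 hqN' (bE (ssm_gl_W L N' q hq2 hqN' y)) := by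
  rw [m59tprb_W2_b N' q hq2 hqN' aE bE haE hbE]
  congr 1
  exact (ssm_al_WE_WE L N' q hq.out hq2 hqN' y).symm

end Tau

end Fermat.Agent.M59
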