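/-
M59 / Sink B, leaf 4 [TOR-SURJ], LEVEL `N' q q`: cell **[UNIQ2]**, A TRIPLE POINT IS THE ONLY POINT
OVER ITS IMAGE AT LEVEL `N' q` (helper2).  Prefix `m59tu2_`.

Context = [NF2-CTX] (`L` a number field with `ζ_{N'}`, `O` a DVR of `L` with uniformiser `q` odd,
`q ∤ N'`) + a third valuation `VC` (`s36asm_Third`).  `B₁ ⊆ E₁ = lg_E L (N' q)`,
`B₂ ⊆ E₂ = lg_E L (N' q q)` the `λ`-charts, `𝔫` a maximal ideal of `B₂` containing `q` and two of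
`PA, PB, PC` (a triple point).

The datum `T2` of `Tor/Defs2` labels a triple point `𝔫` through the crossing points `𝔫.comap aB`,
`𝔫.comap bB` of `B₁` (`aB`, `bB : B₁ → B₂` the chart maps of the two degeneracy maps).  To compare the
toric data at two triple points with the same label one needs:

* `m59tu2_unique_abs` : abstract form: `(B₂)_𝔫 = B₂ · (B₁ ∖ 𝔫 ∩ B₁)⁻¹` ⟹ `𝔫` is the only maximal ideal
                        of `B₂` over `𝔫 ∩ B₁`;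
* `m59tu2_tri_pack`   : at a triple point: `PA, PB, PC ≤ 𝔫` and the representation `hrepr` of
                        `s36tnh_two_side` along `E₁ ⊆ E₂`;
* **`m59tu2_unique_a`** : `𝔫'.comap aB = 𝔫.comap aB ⟹ 𝔫' = 𝔫` (`aB` any ring hom inducing `E₁ ⊆ E₂`);
* **`m59tu2_unique_b`** : `𝔫'.comap bB = 𝔫.comap bB ⟹ 𝔫' = 𝔫` (`bB` any ring hom inducing
                        `y ↦ y(X^q)`), by transport along `W₂`: `W₂ (α y) = β (W₁ y)`.
-/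
import Mathlib
import Fermat.Agent.M59.SinkB.Tor.Rat2

set_option autoImplicit false
set_option linter.unusedSectionVars false
set_option linter.unusedVariables false
set_option linter.style.haveILetI false

noncomputable section

namespace Fermat.Agent.M59

open Fermat.Agent.SS Fermat.Agent.JT3 Fermat.Agent.S35 Fermat.Agent.S36 IsLocalRing AlgebraicCurve
  IntermediateField ModularCurve

universe v1 v2

section AbsU

variable {A0 : Type*} [CommRing A0]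
  {F1 : Type v1} {F2 : Type v2} [Field F1] [Field F2] [Algebra A0 F1] [Algebra A0 F2]
  {B1 : Subalgebra A0 F1} {B2 : Subalgebra A0 F2}
  [IsFractionRing B2 F2] [IsNoetherianRing B2] [IsIntegrallyClosed B2]
  (ι : B1 →+* B2) (𝔫 : Ideal B2) [h𝔫 : 𝔫.IsPrime]

/-- **[UNIQ2], abstract form**: if `(B₂)_𝔫 = B₂ · (B₁ ∖ 𝔫 ∩ B₁)⁻¹` (`hrepr`), then `𝔫` is the only
maximal ideal of `B₂` over `𝔫 ∩ B₁`. -/
theorem m59tu2_unique_abs
    (hrepr : ∀ y : F2, y ∈ ssl_locSub F2 𝔫 → ∃ (s : B1) (b' : B2), s ∉ 𝔫.comap ι ∧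
      algebraMap B2 F2 (ι s) * y = algebraMap B2 F2 b')
    (𝔫' : Ideal B2) (h𝔫' : 𝔫'.IsMaximal) (h : 𝔫'.comap ι = 𝔫.comap ι) : 𝔫' = 𝔫 := by
  have hle : 𝔫' ≤ 𝔫 := by
    intro x hx
    by_contra hxn
    have hx0 : (x : F2) ≠ 0 := by
      intro h0
      apply hxn
      have : x = 0 := Subtype.ext h0
      rw [this]
      exact 𝔫.zero_mem
    have hinv : (x : F2)⁻¹ ∈ ssl_locSub F2 𝔫 :=
      (ssl_mem_loc 𝔫).2 ⟨1, x, hxn, by rw [inv_mul_cancel₀ hx0]; rfl⟩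
    obtain ⟨s, b', hs, hb'⟩ := hrepr _ hinv
    apply hs
    rw [← h, Ideal.mem_comap]
    have e : ι s = b' * x := by
      apply IsFractionRing.injective B2 F2
      rw [map_mul, ← hb']
      show _ = algebraMap B2 F2 (ι s) * (x : F2)⁻¹ * (x : F2)
      rw [mul_assoc, inv_mul_cancel₀ hx0, mul_one]
    rw [e]
    exact 𝔫'.mul_mem_left _ hx
  exact h𝔫'.eq_of_le h𝔫.ne_top hle

end AbsU

section InstU

variable (L : Type) [Field L] [NumberField L] [Algebra L (AlgebraicClosure ℚ)]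
  (O : ValuationSubring L) [IsDiscreteValuationRing O]
variable (N' q : ℕ) [NeZero N'] [NeZero q] [hq : Fact q.Prime] [CharP (ResidueField O) q]
  (hq2 : ¬ 2 ∣ q) (hqN' : ¬ q ∣ N') (hπ : Irreducible ((q : ℕ) : ↥O))
  (ζ : L) (hζ : IsPrimitiveRoot ζ N')

include hζ in
set_option synthInstance.maxHeartbeats 400000 in
set_option maxHeartbeats 6400000 in
/-- **the triple-point package**: at a maximal ideal `𝔫 ∋ q` of `B₂` containing two of `PA, PB, PC`,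
all of `PA`, `PB`, `PC` lie in `𝔫`, and `(B₂)_𝔫 = B₂ · (B₁ ∖ 𝔫 ∩ B₁)⁻¹` along `E₁ ⊆ E₂`. -/
theorem m59tu2_tri_pack {VC : ValuationSubring ↥(lg_E L (N' * q * q))}
    (T3 : s36asm_Third O hπ N' q hq2 hqN' VC)
    (𝔫 : Ideal (fc_chart ↥O ({lg_lamE (N' * q * q)} : Set ↥(lg_E L (N' * q * q)))))
    (h𝔫 : 𝔫.IsMaximal)
    (hπ𝔫 : algebraMap ↥O (fc_chart ↥O ({lg_lamE (N' * q * q)} : Set ↥(lg_E L (N' * q * q))))
      ((q : ℕ) : ↥O) ∈ 𝔫)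
    (htwo : (ssm_tp_P (fc_chart ↥O ({lg_lamE (N' * q * q)} : Set ↥(lg_E L (N' * q * q))))
          (s36i_VA O hπ (N' * q) q) ≤ 𝔫 ∧
        ssm_tp_P (fc_chart ↥O ({lg_lamE (N' * q * q)} : Set ↥(lg_E L (N' * q * q))))
          (s36i_VB O hπ N' q hq2 hqN') ≤ 𝔫) ∨
      (ssm_tp_P (fc_chart ↥O ({lg_lamE (N' * q * q)} : Set ↥(lg_E L (N' * q * q))))
          (s36i_VA O hπ (N' * q) q) ≤ 𝔫 ∧
        ssm_tp_P (fc_chart ↥O ({lg_lamE (N' * q * q)} : Set ↥(lg_E L (N' * q * q)))) VC ≤ 𝔫) ∨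
      (ssm_tp_P (fc_chart ↥O ({lg_lamE (N' * q * q)} : Set ↥(lg_E L (N' * q * q))))
          (s36i_VB O hπ N' q hq2 hqN') ≤ 𝔫 ∧
        ssm_tp_P (fc_chart ↥O ({lg_lamE (N' * q * q)} : Set ↥(lg_E L (N' * q * q)))) VC ≤ 𝔫)) :
    ssm_tp_P (fc_chart ↥O ({lg_lamE (N' * q * q)} : Set ↥(lg_E L (N' * q * q)))) (s36i_VA O hπ (N' * q) q) ≤ 𝔫 ∧
    ssm_tp_P (fc_chart ↥O ({lg_lamE (N' * q * q)} : Set ↥(lg_E L (N' * q * q)))) (s36i_VB O hπ N' q hq2 hqN') ≤ 𝔫 ∧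
    ssm_tp_P (fc_chart ↥O ({lg_lamE (N' * q * q)} : Set ↥(lg_E L (N' * q * q)))) VC ≤ 𝔫 ∧
    (haveI := s36cp_chart_isFractionRing O (L := L) (N' * q * q)
     haveI := h𝔫.isPrime
     ∀ y : ↥(lg_E L (N' * q * q)), y ∈ ssl_locSub ↥(lg_E L (N' * q * q)) 𝔫 →
      ∃ (s : (fc_chart ↥O ({lg_lamE (N' * q)} : Set ↥(lg_E L (N' * q))))) (b' : (fc_chart ↥O ({lg_lamE (N' * q * q)} : Set ↥(lg_E L (N' * q * q))))),
        s ∉ 𝔫.comap (s36tn_leg_iota O N' q) ∧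
        algebraMap (fc_chart ↥O ({lg_lamE (N' * q * q)} : Set ↥(lg_E L (N' * q * q)))) ↥(lg_E L (N' * q * q)) (s36tn_leg_iota O N' q s) * y =
          algebraMap (fc_chart ↥O ({lg_lamE (N' * q * q)} : Set ↥(lg_E L (N' * q * q)))) ↥(lg_E L (N' * q * q)) b') := by
  letI := ssm_gi_algebra (ssm_al_E_le L (N' * q) q)
  letI := ssm_gi_algebra (ssm_al_E_beta_le L (N' * q) q hq2)
  haveI := ssm_go_isScalarTower O (lg_E L (N' * q))
  haveI := ssm_go_isScalarTower O (lg_E L (N' * q * q))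
  haveI := lgf_finite L (N' * q)
  haveI := lgf_finite L (N' * q * q)
  have hx1 : Transcendental L (lg_lamE (L := L) (N' * q)) :=
    lgf_lam_transcendental L (N' * q) two_ne_zero
  have hx2 : Transcendental L (lg_lamE (L := L) (N' * q * q)) :=
    lgf_lam_transcendental L (N' * q * q) two_ne_zero
  haveI : IsNoetherianRing ↥(fc_chart ↥O ({lg_lamE (N' * q)} : Set ↥(lg_E L (N' * q)))) :=
    ssm_ths_chart_isNoetherianRing (A0 := ↥O) (L := L) hx1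
  haveI : IsIntegrallyClosed ↥(fc_chart ↥O ({lg_lamE (N' * q)} : Set ↥(lg_E L (N' * q)))) :=
    ssm_ths_chart_isIntegrallyClosed (A0 := ↥O) (L := L) _
  haveI := s36tn_chart_isFractionRing O (N' * q)
  haveI : IsNoetherianRing
      ↥(fc_chart ↥O ({lg_lamE (N' * q * q)} : Set ↥(lg_E L (N' * q * q)))) :=
    ssm_ths_chart_isNoetherianRing (A0 := ↥O) (L := L) hx2
  haveI : IsIntegrallyClosed
      ↥(fc_chart ↥O ({lg_lamE (N' * q * q)} : Set ↥(lg_E L (N' * q * q)))) :=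
    ssm_ths_chart_isIntegrallyClosed (A0 := ↥O) (L := L) _
  haveI := s36cp_chart_isFractionRing O (N' * q * q)
  have hxA : Transcendental ↥O (lg_lamE (L := L) (N' * q * q)) :=
    fc_ff_transcendental (L := L) hx2
  haveI : IsIntegrallyClosed (Algebra.adjoin ↥O
      ({lg_lamE (N' * q * q)} : Set ↥(lg_E L (N' * q * q)))) := fc_ff_isIntegrallyClosed hxA
  haveI : FaithfulSMul (Algebra.adjoin ↥O
      ({lg_lamE (N' * q * q)} : Set ↥(lg_E L (N' * q * q)))) ↥(lg_E L (N' * q * q)) :=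
    (faithfulSMul_iff_algebraMap_injective _ _).2 Subtype.val_injective
  have hxA1 : Transcendental ↥O (lg_lamE (L := L) (N' * q)) :=
    fc_ff_transcendental (L := L) hx1
  haveI : IsIntegrallyClosed (Algebra.adjoin ↥O
      ({lg_lamE (N' * q)} : Set ↥(lg_E L (N' * q)))) := fc_ff_isIntegrallyClosed hxA1
  haveI : FaithfulSMul (Algebra.adjoin ↥O
      ({lg_lamE (N' * q)} : Set ↥(lg_E L (N' * q)))) ↥(lg_E L (N' * q)) :=
    (faithfulSMul_iff_algebraMap_injective _ _).2 Subtype.val_injective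
  -- the level `N' q` package
  have hqO : ((q : ℕ) : O) ∈ maximalIdeal O := ssm_fln_q_mem L O q
  have hq2' : q ≠ 2 := ssm_fl_ne_two q hq2
  have hp := ssm_ll_prime L N' hπ q hqO hq2' hqN' ζ hζ
  have H1 := ssm_gl_hyp O hπ N' q hq2 hqN' hp.1
  have hC1 := ssm_tp_ff_chart (A0 := ↥O) (L := L) hπ hx1
  have hC2 := ssm_tp_ff_chart (A0 := ↥O) (L := L) hπ hx2
  obtain ⟨⟨hWB1, hWB2⟩, H3, -⟩ := s36asm_all_of_third O hπ N' q hq2 hqN' hp.1 T3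
  -- the third valuation
  obtain ⟨rC, resA, resC, hz, hzC, hram, hV2⟩ := s36tpl_third_facts O hπ N' q hq2 hqN' T3
  -- the components `A`, `B` are smooth
  obtain ⟨hsmA, hsmB, -, -⟩ := s36cp_nf_comp L O hπ N' q hq2 hqN' ζ hζ hWB1 hWB2
  haveI h𝔫p : 𝔫.IsPrime := h𝔫.isPrime
  -- the triple point clause
  have hT1 := s36asm_ptsT1_leg L O N' q hq2 hqN' hπ ζ hζ T3 𝔫 h𝔫 hπ𝔫 htwo
  obtain ⟨hufd, a, b0, c0, ha, hb, hc, hassoc, hab, hac, hbc, hcA, hcB, hcC, hN1u, hN2u, hsA1,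
    hsC1, hsB2, hsC2⟩ := hT1
  haveI := ssl_loc_isLocalRing (F0 := ↥(lg_E L (N' * q * q))) 𝔫
  have hcomapmap : (𝔫.map (algebraMap
      (fc_chart ↥O ({lg_lamE (N' * q * q)} : Set ↥(lg_E L (N' * q * q))))
      (ssl_locSub ↥(lg_E L (N' * q * q)) 𝔫))).comap (algebraMap
      (fc_chart ↥O ({lg_lamE (N' * q * q)} : Set ↥(lg_E L (N' * q * q))))
      (ssl_locSub ↥(lg_E L (N' * q * q)) 𝔫)) = 𝔫 := by
    rw [IsLocalization.AtPrime.map_eq_maximalIdeal 𝔫 (ssl_locSub ↥(lg_E L (N' * q * q)) 𝔫)]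
    exact IsLocalization.AtPrime.under_maximalIdeal (ssl_locSub ↥(lg_E L (N' * q * q)) 𝔫) 𝔫
  have hPA : ssm_tp_P (fc_chart ↥O ({lg_lamE (N' * q * q)} : Set ↥(lg_E L (N' * q * q))))
      (s36i_VA O hπ (N' * q) q) ≤ 𝔫 := by
    have h1 : Ideal.span {a} ≤ 𝔫.map (algebraMap
        (fc_chart ↥O ({lg_lamE (N' * q * q)} : Set ↥(lg_E L (N' * q * q))))
        (ssl_locSub ↥(lg_E L (N' * q * q)) 𝔫)) := by
      rw [hab]; exact Ideal.span_mono (by simp)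
    have h2 := Ideal.comap_mono (f := algebraMap
        (fc_chart ↥O ({lg_lamE (N' * q * q)} : Set ↥(lg_E L (N' * q * q))))
        (ssl_locSub ↥(lg_E L (N' * q * q)) 𝔫)) h1
    rw [hcA, hcomapmap] at h2
    exact h2
  have hPB : ssm_tp_P (fc_chart ↥O ({lg_lamE (N' * q * q)} : Set ↥(lg_E L (N' * q * q))))
      (s36i_VB O hπ N' q hq2 hqN') ≤ 𝔫 := by
    have h1 : Ideal.span {b0} ≤ 𝔫.map (algebraMap
        (fc_chart ↥O ({lg_lamE (N' * q * q)} : Set ↥(lg_E L (N' * q * q))))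
        (ssl_locSub ↥(lg_E L (N' * q * q)) 𝔫)) := by
      rw [hab]; exact Ideal.span_mono (by simp)
    have h2 := Ideal.comap_mono (f := algebraMap
        (fc_chart ↥O ({lg_lamE (N' * q * q)} : Set ↥(lg_E L (N' * q * q))))
        (ssl_locSub ↥(lg_E L (N' * q * q)) 𝔫)) h1
    rw [hcB, hcomapmap] at h2
    exact h2
  -- one side of the triple point: `hrepr`
  have hall1 : ∀ i : Fin 3, i = 0 ∨ i = 1 ∨ i = 2 := by decide
  have h02 : (0 : Fin 3) ≠ 2 := by decide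
  have leF : ∀ x ∈ fc_chart ↥O ({lg_lamE (N' * q)} : Set ↥(lg_E L (N' * q))),
      x ∈ ssm_gl_V1 O hπ N' q := fun x hx => hC1.le H1.over1 hx
  have leV : ∀ x ∈ fc_chart ↥O ({lg_lamE (N' * q)} : Set ↥(lg_E L (N' * q))),
      x ∈ ssm_gl_V2 O hπ N' q hq2 hqN' := fun x hx => hC1.le H1.over2 hx
  obtain ⟨-, hrepr, -, -⟩ := s36tnh_two_side H3 hC2 0 1 2 hall1 h02 rfl rfl hq.out.two_le
    (s36tn_leg_iota O N' q)
    (algebraMap ↥(lg_E L (N' * q)) ↥(lg_E L (N' * q * q)))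
    (fun x => rfl) (s36tn_leg_iota_isIntegral O N' q)
    (ssm_gl_V1 O hπ N' q) (ssm_gl_V2 O hπ N' q hq2 hqN') leF leV
    (s36tpl_rA O hπ N' q) (s36tpl_rB O hπ N' q hq2 hqN') rC
    (algebraMap ↥O (fc_chart ↥O ({lg_lamE (N' * q)} : Set ↥(lg_E L (N' * q)))) ((q : ℕ) : ↥O))
    rfl
    (fun 𝔫1 h𝔫1 h1 h2 => @s36tn_leg_node L _ _ _ O _ N' q _ _ hq _ hq2 hqN' hπ ζ hζ 𝔫1 h𝔫1 h1 h2)
    (fun r hr => (H1.mem_V2_iff hC1).1 hr)
    ⟨s36i_lam2 L N' q hq2 - lg_lamE (N' * q * q),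
      Subalgebra.sub_mem _ (s36tpl_lam2_mem_chart O N' q hq2 hqN' hWB1) (fc_x_mem_chart _)⟩
    hz hzC hram (s36tpl_hins O hπ N' q hq2 hqN') hsmB 𝔫 h𝔫 hPB (Or.inl hPA)
  have hPC : ssm_tp_P (fc_chart ↥O ({lg_lamE (N' * q * q)} : Set ↥(lg_E L (N' * q * q)))) VC ≤ 𝔫 := by
    have h1 : Ideal.span {c0} ≤ 𝔫.map (algebraMap
        (fc_chart ↥O ({lg_lamE (N' * q * q)} : Set ↥(lg_E L (N' * q * q))))
        (ssl_locSub ↥(lg_E L (N' * q * q)) 𝔫)) := by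
      rw [hac]; exact Ideal.span_mono (by simp)
    have h2 := Ideal.comap_mono (f := algebraMap
        (fc_chart ↥O ({lg_lamE (N' * q * q)} : Set ↥(lg_E L (N' * q * q))))
        (ssl_locSub ↥(lg_E L (N' * q * q)) 𝔫)) h1
    rw [hcC, hcomapmap] at h2
    exact h2
  exact ⟨hPA, hPB, hPC, hrepr⟩

include hζ in
set_option synthInstance.maxHeartbeats 400000 in
set_option maxHeartbeats 3200000 in
/-- **[UNIQ2] along `α`**: a triple point `𝔫` of `B₂` is the only maximal ideal of `B₂` with the same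
comap along the chart map `aB : B₁ → B₂` induced by `E₁ ⊆ E₂`. -/
theorem m59tu2_unique_a {VC : ValuationSubring ↥(lg_E L (N' * q * q))}
    (T3 : s36asm_Third O hπ N' q hq2 hqN' VC)
    (aB : ↥(fc_chart ↥O ({lg_lamE (N' * q)} : Set ↥(lg_E L (N' * q)))) →+* ↥(fc_chart ↥O ({lg_lamE (N' * q * q)} : Set ↥(lg_E L (N' * q * q)))))
    (haB : ∀ b : ↥(fc_chart ↥O ({lg_lamE (N' * q)} : Set ↥(lg_E L (N' * q)))), ((aB b : ↥(fc_chart ↥O ({lg_lamE (N' * q * q)} : Set ↥(lg_E L (N' * q * q))))) : ↥(lg_E L (N' * q * q))) =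
      IntermediateField.inclusion (ssm_al_E_le L (N' * q) q) (b : ↥(lg_E L (N' * q))))
    (𝔫 : Ideal (fc_chart ↥O ({lg_lamE (N' * q * q)} : Set ↥(lg_E L (N' * q * q)))))
    (h𝔫 : 𝔫.IsMaximal)
    (hπ𝔫 : algebraMap ↥O (fc_chart ↥O ({lg_lamE (N' * q * q)} : Set ↥(lg_E L (N' * q * q))))
      ((q : ℕ) : ↥O) ∈ 𝔫)
    (htwo : (ssm_tp_P (fc_chart ↥O ({lg_lamE (N' * q * q)} : Set ↥(lg_E L (N' * q * q))))
          (s36i_VA O hπ (N' * q) q) ≤ 𝔫 ∧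
        ssm_tp_P (fc_chart ↥O ({lg_lamE (N' * q * q)} : Set ↥(lg_E L (N' * q * q))))
          (s36i_VB O hπ N' q hq2 hqN') ≤ 𝔫) ∨
      (ssm_tp_P (fc_chart ↥O ({lg_lamE (N' * q * q)} : Set ↥(lg_E L (N' * q * q))))
          (s36i_VA O hπ (N' * q) q) ≤ 𝔫 ∧
        ssm_tp_P (fc_chart ↥O ({lg_lamE (N' * q * q)} : Set ↥(lg_E L (N' * q * q)))) VC ≤ 𝔫) ∨
      (ssm_tp_P (fc_chart ↥O ({lg_lamE (N' * q * q)} : Set ↥(lg_E L (N' * q * q))))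
          (s36i_VB O hπ N' q hq2 hqN') ≤ 𝔫 ∧
        ssm_tp_P (fc_chart ↥O ({lg_lamE (N' * q * q)} : Set ↥(lg_E L (N' * q * q)))) VC ≤ 𝔫))
    (𝔫' : Ideal (fc_chart ↥O ({lg_lamE (N' * q * q)} : Set ↥(lg_E L (N' * q * q))))) (h𝔫' : 𝔫'.IsMaximal)
    (h : 𝔫'.comap aB = 𝔫.comap aB) : 𝔫' = 𝔫 := by
  have e : aB = s36tn_leg_iota O N' q :=
    RingHom.ext fun b => Subtype.ext (by rw [haB, s36tn_leg_iota_coe])
  subst e
  haveI := ssm_go_isScalarTower O (lg_E L (N' * q * q))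
  haveI := lgf_finite L (N' * q * q)
  have hx2 : Transcendental L (lg_lamE (L := L) (N' * q * q)) :=
    lgf_lam_transcendental L (N' * q * q) two_ne_zero
  haveI : IsNoetherianRing
      ↥(fc_chart ↥O ({lg_lamE (N' * q * q)} : Set ↥(lg_E L (N' * q * q)))) :=
    ssm_ths_chart_isNoetherianRing (A0 := ↥O) (L := L) hx2
  haveI : IsIntegrallyClosed
      ↥(fc_chart ↥O ({lg_lamE (N' * q * q)} : Set ↥(lg_E L (N' * q * q)))) :=
    ssm_ths_chart_isIntegrallyClosed (A0 := ↥O) (L := L) _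
  haveI := s36cp_chart_isFractionRing O (L := L) (N' * q * q)
  haveI := h𝔫.isPrime
  obtain ⟨-, -, -, hrepr⟩ := m59tu2_tri_pack L O N' q hq2 hqN' hπ ζ hζ T3 𝔫 h𝔫 hπ𝔫 htwo
  exact m59tu2_unique_abs (s36tn_leg_iota O N' q) 𝔫 hrepr 𝔫' h𝔫' h

include hζ in
set_option synthInstance.maxHeartbeats 400000 in
set_option maxHeartbeats 3200000 in
/-- **[UNIQ2] along `β`**: a triple point `𝔫` of `B₂` is the only maximal ideal of `B₂` with the same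
comap along the chart map `bB : B₁ → B₂` induced by `y ↦ y(X^q)`. -/
theorem m59tu2_unique_b {VC : ValuationSubring ↥(lg_E L (N' * q * q))}
    (T3 : s36asm_Third O hπ N' q hq2 hqN' VC)
    (bB : ↥(fc_chart ↥O ({lg_lamE (N' * q)} : Set ↥(lg_E L (N' * q)))) →+* ↥(fc_chart ↥O ({lg_lamE (N' * q * q)} : Set ↥(lg_E L (N' * q * q)))))
    (hbB : ∀ b : ↥(fc_chart ↥O ({lg_lamE (N' * q)} : Set ↥(lg_E L (N' * q)))), (((bB b : ↥(fc_chart ↥O ({lg_lamE (N' * q * q)} : Set ↥(lg_E L (N' * q * q))))) : ↥(lg_E L (N' * q * q))) : LaurentSeries L) =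
      qExpand L q (((b : ↥(fc_chart ↥O ({lg_lamE (N' * q)} : Set ↥(lg_E L (N' * q))))) : ↥(lg_E L (N' * q))) : LaurentSeries L))
    (𝔫 : Ideal (fc_chart ↥O ({lg_lamE (N' * q * q)} : Set ↥(lg_E L (N' * q * q)))))
    (h𝔫 : 𝔫.IsMaximal)
    (hπ𝔫 : algebraMap ↥O (fc_chart ↥O ({lg_lamE (N' * q * q)} : Set ↥(lg_E L (N' * q * q))))
      ((q : ℕ) : ↥O) ∈ 𝔫)
    (htwo : (ssm_tp_P (fc_chart ↥O ({lg_lamE (N' * q * q)} : Set ↥(lg_E L (N' * q * q))))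
          (s36i_VA O hπ (N' * q) q) ≤ 𝔫 ∧
        ssm_tp_P (fc_chart ↥O ({lg_lamE (N' * q * q)} : Set ↥(lg_E L (N' * q * q))))
          (s36i_VB O hπ N' q hq2 hqN') ≤ 𝔫) ∨
      (ssm_tp_P (fc_chart ↥O ({lg_lamE (N' * q * q)} : Set ↥(lg_E L (N' * q * q))))
          (s36i_VA O hπ (N' * q) q) ≤ 𝔫 ∧
        ssm_tp_P (fc_chart ↥O ({lg_lamE (N' * q * q)} : Set ↥(lg_E L (N' * q * q)))) VC ≤ 𝔫) ∨
      (ssm_tp_P (fc_chart ↥O ({lg_lamE (N' * q * q)} : Set ↥(lg_E L (N' * q * q))))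
          (s36i_VB O hπ N' q hq2 hqN') ≤ 𝔫 ∧
        ssm_tp_P (fc_chart ↥O ({lg_lamE (N' * q * q)} : Set ↥(lg_E L (N' * q * q)))) VC ≤ 𝔫))
    (𝔫' : Ideal (fc_chart ↥O ({lg_lamE (N' * q * q)} : Set ↥(lg_E L (N' * q * q))))) (h𝔫' : 𝔫'.IsMaximal)
    (h : 𝔫'.comap bB = 𝔫.comap bB) : 𝔫' = 𝔫 := by
  letI := ssm_gi_algebra (ssm_al_E_le L (N' * q) q)
  letI := ssm_gi_algebra (ssm_al_E_beta_le L (N' * q) q hq2)
  haveI := ssm_go_isScalarTower O (lg_E L (N' * q * q))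
  haveI := lgf_finite L (N' * q * q)
  have hx2 : Transcendental L (lg_lamE (L := L) (N' * q * q)) :=
    lgf_lam_transcendental L (N' * q * q) two_ne_zero
  haveI : IsNoetherianRing
      ↥(fc_chart ↥O ({lg_lamE (N' * q * q)} : Set ↥(lg_E L (N' * q * q)))) :=
    ssm_ths_chart_isNoetherianRing (A0 := ↥O) (L := L) hx2
  haveI : IsIntegrallyClosed
      ↥(fc_chart ↥O ({lg_lamE (N' * q * q)} : Set ↥(lg_E L (N' * q * q)))) :=
    ssm_ths_chart_isIntegrallyClosed (A0 := ↥O) (L := L) _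
  haveI := s36cp_chart_isFractionRing O (L := L) (N' * q * q)
  haveI := ssm_go_isScalarTower O (lg_E L (N' * q))
  haveI := lgf_finite L (N' * q)
  have hxA : Transcendental ↥O (lg_lamE (L := L) (N' * q * q)) :=
    fc_ff_transcendental (L := L) hx2
  haveI : IsIntegrallyClosed (Algebra.adjoin ↥O
      ({lg_lamE (N' * q * q)} : Set ↥(lg_E L (N' * q * q)))) := fc_ff_isIntegrallyClosed hxA
  haveI : FaithfulSMul (Algebra.adjoin ↥O
      ({lg_lamE (N' * q * q)} : Set ↥(lg_E L (N' * q * q)))) ↥(lg_E L (N' * q * q)) :=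
    (faithfulSMul_iff_algebraMap_injective _ _).2 Subtype.val_injective
  have hqO : ((q : ℕ) : O) ∈ maximalIdeal O := ssm_fln_q_mem L O q
  have hq2' : q ≠ 2 := ssm_fl_ne_two q hq2
  have hp := ssm_ll_prime L N' hπ q hqO hq2' hqN' ζ hζ
  have hC2 := ssm_tp_ff_chart (A0 := ↥O) (L := L) hπ hx2
  obtain ⟨⟨hWB1, hWB2⟩, H3, -⟩ := s36asm_all_of_third O hπ N' q hq2 hqN' hp.1 T3
  have hWB := s36tpl_W2_mem_chart O N' q hq2 hqN' hWB1
  have hWA : ∀ a : ↥O, ssm_gl_W L N' q hq2 hqN' (algebraMap ↥O ↥(lg_E L (N' * q)) a) =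
      algebraMap ↥O ↥(lg_E L (N' * q)) a := fun a =>
    (ssm_al_WE L N' q hq.out hq2 hqN').commutes (a : L)
  have hW1B := (ssm_i1_W_charts (ssm_gl_W L N' q hq2 hqN') hWA rfl
    (ssm_fl_facts O hπ N' q hq2 hqN' hp.1)).1
  haveI h𝔫p := h𝔫.isPrime
  obtain ⟨hPA, hPB, hPC, -⟩ := m59tu2_tri_pack L O N' q hq2 hqN' hπ ζ hζ T3 𝔫 h𝔫 hπ𝔫 htwo
  -- the restriction of `W₂` to the chart
  set W2B : ↥(fc_chart ↥O ({lg_lamE (N' * q * q)} : Set ↥(lg_E L (N' * q * q)))) ≃+* ↥(fc_chart ↥O ({lg_lamE (N' * q * q)} : Set ↥(lg_E L (N' * q * q)))) :=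
    s35ti_restrict (s36i_W2 L N' q hq2 hqN') (fc_chart ↥O ({lg_lamE (N' * q * q)} : Set ↥(lg_E L (N' * q * q)))) hWB with hW2B
  have hW2coe : ∀ x : ↥(fc_chart ↥O ({lg_lamE (N' * q * q)} : Set ↥(lg_E L (N' * q * q)))), ((W2B x : ↥(fc_chart ↥O ({lg_lamE (N' * q * q)} : Set ↥(lg_E L (N' * q * q))))) : ↥(lg_E L (N' * q * q))) =
      s36i_W2 L N' q hq2 hqN' (x : ↥(lg_E L (N' * q * q))) := fun x => rfl
  -- `W₂ (α b) = β (W₁ b)`
  have key : ∀ b : ↥(fc_chart ↥O ({lg_lamE (N' * q)} : Set ↥(lg_E L (N' * q)))), W2B (s36tn_leg_iota O N' q b) =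
      bB ⟨ssm_gl_W L N' q hq2 hqN' (b : ↥(lg_E L (N' * q))), hW1B _ b.2⟩ := by
    intro b
    apply Subtype.ext
    apply Subtype.ext
    rw [hbB, hW2coe]
    have h1 := s36tpl_w0 N' q hq2 hqN' (L := L) (b : ↥(lg_E L (N' * q)))
    have h2 : ((s36tn_leg_iota O N' q b : ↥(fc_chart ↥O ({lg_lamE (N' * q * q)} : Set ↥(lg_E L (N' * q * q))))) : ↥(lg_E L (N' * q * q))) =
        algebraMap ↥(lg_E L (N' * q)) ↥(lg_E L (N' * q * q)) (b : ↥(lg_E L (N' * q))) := rfl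
    rw [h2, ← h1, ssm_gi_coe_algebraMap, s36i_coe_w0]
  -- the comaps along `W₂`
  have hmemA : ∀ x : ↥(fc_chart ↥O ({lg_lamE (N' * q * q)} : Set ↥(lg_E L (N' * q * q)))), x ∈ ssm_tp_P (fc_chart ↥O ({lg_lamE (N' * q * q)} : Set ↥(lg_E L (N' * q * q)))) (s36i_VA O hπ (N' * q) q) ↔
      (x : ↥(lg_E L (N' * q * q))) ∈ (s36i_VA O hπ (N' * q) q).nonunits := fun x => H3.mem_P hC2 0
  have hmemB : ∀ x : ↥(fc_chart ↥O ({lg_lamE (N' * q * q)} : Set ↥(lg_E L (N' * q * q)))), x ∈ ssm_tp_P (fc_chart ↥O ({lg_lamE (N' * q * q)} : Set ↥(lg_E L (N' * q * q)))) (s36i_VB O hπ N' q hq2 hqN') ↔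
      s36i_W2 L N' q hq2 hqN' (x : ↥(lg_E L (N' * q * q))) ∈ (s36i_VA O hπ (N' * q) q).nonunits := fun x =>
    (H3.mem_P hC2 1).trans (s36tn_mem_comap_nonunits (s36i_W2 L N' q hq2 hqN') _ _)
  have hπW : W2B (algebraMap ↥O (fc_chart ↥O ({lg_lamE (N' * q * q)} : Set ↥(lg_E L (N' * q * q)))) ((q : ℕ) : ↥O)) =
      algebraMap ↥O (fc_chart ↥O ({lg_lamE (N' * q * q)} : Set ↥(lg_E L (N' * q * q)))) ((q : ℕ) : ↥O) :=
    Subtype.ext (s36cp_W2_algebraMap O N' q hq2 hqN' _)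
  have htri : ∀ 𝔪 : Ideal (fc_chart ↥O ({lg_lamE (N' * q * q)} : Set ↥(lg_E L (N' * q * q)))),
      ssm_tp_P (fc_chart ↥O ({lg_lamE (N' * q * q)} : Set ↥(lg_E L (N' * q * q)))) (s36i_VA O hπ (N' * q) q) ≤ 𝔪 →
      ssm_tp_P (fc_chart ↥O ({lg_lamE (N' * q * q)} : Set ↥(lg_E L (N' * q * q)))) (s36i_VB O hπ N' q hq2 hqN') ≤ 𝔪 →
      ssm_tp_P (fc_chart ↥O ({lg_lamE (N' * q * q)} : Set ↥(lg_E L (N' * q * q)))) (s36i_VA O hπ (N' * q) q) ≤ 𝔪.comap (W2B : ↥(fc_chart ↥O ({lg_lamE (N' * q * q)} : Set ↥(lg_E L (N' * q * q)))) →+* ↥(fc_chart ↥O ({lg_lamE (N' * q * q)} : Set ↥(lg_E L (N' * q * q))))) ∧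
      ssm_tp_P (fc_chart ↥O ({lg_lamE (N' * q * q)} : Set ↥(lg_E L (N' * q * q)))) (s36i_VB O hπ N' q hq2 hqN') ≤ 𝔪.comap (W2B : ↥(fc_chart ↥O ({lg_lamE (N' * q * q)} : Set ↥(lg_E L (N' * q * q)))) →+* ↥(fc_chart ↥O ({lg_lamE (N' * q * q)} : Set ↥(lg_E L (N' * q * q))))) := by
    intro 𝔪 hA hB
    refine ⟨fun x hx => ?_, fun x hx => ?_⟩
    · rw [Ideal.mem_comap]
      apply hB
      show W2B x ∈ _
      rw [hmemB, hW2coe, s36tpl_W2_W2]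
      exact (hmemA x).1 hx
    · rw [Ideal.mem_comap]
      apply hA
      show W2B x ∈ _
      rw [hmemA, hW2coe]
      exact (hmemB x).1 hx
  obtain ⟨hA𝔪, hB𝔪⟩ := htri 𝔫 hPA hPB
  have h𝔪max : (𝔫.comap (W2B : ↥(fc_chart ↥O ({lg_lamE (N' * q * q)} : Set ↥(lg_E L (N' * q * q)))) →+* ↥(fc_chart ↥O ({lg_lamE (N' * q * q)} : Set ↥(lg_E L (N' * q * q)))))).IsMaximal :=
    Ideal.comap_isMaximal_of_surjective _ W2B.surjective
  have h𝔪'max : (𝔫'.comap (W2B : ↥(fc_chart ↥O ({lg_lamE (N' * q * q)} : Set ↥(lg_E L (N' * q * q)))) →+* ↥(fc_chart ↥O ({lg_lamE (N' * q * q)} : Set ↥(lg_E L (N' * q * q)))))).IsMaximal :=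
    Ideal.comap_isMaximal_of_surjective _ W2B.surjective
  have hπ𝔪 : algebraMap ↥O (fc_chart ↥O ({lg_lamE (N' * q * q)} : Set ↥(lg_E L (N' * q * q)))) ((q : ℕ) : ↥O) ∈ 𝔫.comap (W2B : ↥(fc_chart ↥O ({lg_lamE (N' * q * q)} : Set ↥(lg_E L (N' * q * q)))) →+* ↥(fc_chart ↥O ({lg_lamE (N' * q * q)} : Set ↥(lg_E L (N' * q * q))))) := by
    rw [Ideal.mem_comap]
    show W2B _ ∈ 𝔫
    rw [hπW]
    exact hπ𝔫
  have hc : ∀ (I : Ideal (fc_chart ↥O ({lg_lamE (N' * q * q)} : Set ↥(lg_E L (N' * q * q))))) (b : ↥(fc_chart ↥O ({lg_lamE (N' * q)} : Set ↥(lg_E L (N' * q))))),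
      b ∈ (I.comap (W2B : ↥(fc_chart ↥O ({lg_lamE (N' * q * q)} : Set ↥(lg_E L (N' * q * q)))) →+* ↥(fc_chart ↥O ({lg_lamE (N' * q * q)} : Set ↥(lg_E L (N' * q * q)))))).comap (s36tn_leg_iota O N' q) ↔
        (⟨ssm_gl_W L N' q hq2 hqN' (b : ↥(lg_E L (N' * q))), hW1B _ b.2⟩ : ↥(fc_chart ↥O ({lg_lamE (N' * q)} : Set ↥(lg_E L (N' * q))))) ∈ I.comap bB := by
    intro I b
    rw [Ideal.mem_comap, Ideal.mem_comap, Ideal.mem_comap]
    show W2B _ ∈ I ↔ _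
    rw [key]
  have hcomap : (𝔫'.comap (W2B : ↥(fc_chart ↥O ({lg_lamE (N' * q * q)} : Set ↥(lg_E L (N' * q * q)))) →+* ↥(fc_chart ↥O ({lg_lamE (N' * q * q)} : Set ↥(lg_E L (N' * q * q)))))).comap (s36tn_leg_iota O N' q) =
      (𝔫.comap (W2B : ↥(fc_chart ↥O ({lg_lamE (N' * q * q)} : Set ↥(lg_E L (N' * q * q)))) →+* ↥(fc_chart ↥O ({lg_lamE (N' * q * q)} : Set ↥(lg_E L (N' * q * q)))))).comap (s36tn_leg_iota O N' q) := by
    ext b
    rw [hc, hc, h]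
  have hmm := m59tu2_unique_a L O N' q hq2 hqN' hπ ζ hζ T3 (s36tn_leg_iota O N' q)
    (fun b => s36tn_leg_iota_coe O N' q b) _ h𝔪max hπ𝔪 (Or.inl ⟨hA𝔪, hB𝔪⟩) _ h𝔪'max hcomap
  exact Ideal.comap_injective_of_surjective (W2B : ↥(fc_chart ↥O ({lg_lamE (N' * q * q)} : Set ↥(lg_E L (N' * q * q)))) →+* ↥(fc_chart ↥O ({lg_lamE (N' * q * q)} : Set ↥(lg_E L (N' * q * q))))) W2B.surjective hmm

end InstU

end Fermat.Agent.M59
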