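/-
M59 / Sink B, leaf 4 [TOR-SURJ], LEVEL `N' q q`, cell [LAB-CONJ2], THE CLOSED PLUGS FOR `aB` AND `bB` (helper7).
Prefix `m59tq_`.

`Tor/LabConj2.lean` proves [LAB-CONJ2] for a PARAMETER chart map `φB : B1 →+* B2` over a field map
`φE`, with hypotheses `hint` (integrality), `hτ` (`τ₂ ∘ φE = φE ∘ τ₁`) and `huniq` ([UNIQ2]).  Here:

* `m59tq_lab_conj2_at` : the same statement with [UNIQ2] only AT the two given points;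
* `m59tq_val_unit_of_frob` : in a valuation ring with `q ∈ 𝔪`, `a - b ^ q ∈ 𝔪` and `a - 1` a unit
  ⟹ `(b - 1)⁻¹` integral (the seventh clause on the `b`-side);
* **`m59tq_lab_conj2_a`** : `φB = aB` ANY chart map over `m59tpr_aE` (the inclusion `E1 ⊆ E2`), `𝔫`, `𝔫'`
  two maximal ideals of `B2` containing `PA`, `PB` (triple points) whose comaps along `aB` carry the
  same label `Q`: `𝔫' = 𝔫`, or `𝔫`, `𝔫'` are the centres of `τ₂`-conjugate valuation rings `𝒱₂`, `𝒱₂'`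
  of `E2` containing `B2`, **and `(λ₂ - 1)⁻¹ ∈ 𝒱₂'`** (the hypothesis `hlam` of helper16's
  `m59mz_ratioCB_tau2` / `m59mz_ratioAC_tau2`);
* **`m59tq_lab_conj2_b`** : the same for `φB = bB` ANY chart map over `m59tpr_bE` (`X ↦ X^q`); the
  seventh clause from the Frobenius congruence `λ(X^q) ≡ λ₂^q` on the component `A`
  (`s36t3_leg_bA1`) at the triple point.

No hypothesis left except the context [NF2-CTX] (`ζ_{N'} ∈ L`, `2 ∣ N'`) and ONE third valuation.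
[UNIQ2] = helper2's `m59tu2_unique_a/_b`, `hτ` = helper5's `m59tprb_tau_a/_b`, integrality = helper4's
`m59tpc_exists_chartMaps`.
-/
import Mathlib
import Fermat.Agent.M59.SinkB.Tor.LabConj2
import Fermat.Agent.M59.SinkB.Tor.Uniq2
import Fermat.Agent.M59.SinkB.Tor.PullTau
import Fermat.Agent.M59.SinkB.Tor.PullChart2
import Fermat.Agent.M59.SinkB.Tor.PullLocT

set_option autoImplicit false
set_option linter.unusedSectionVars false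
set_option linter.unusedVariables false
set_option linter.style.haveILetI false
set_option synthInstance.maxHeartbeats 400000
set_option maxHeartbeats 3200000

noncomputable section

namespace Fermat.Agent.M59

open Polynomial ModularCurve AlgebraicCurve IntermediateField IsLocalRing
open Fermat.Agent.JT3 Fermat.Agent.SS Fermat.Agent.S35 Fermat.Agent.S24 Fermat.Agent.S44
  Fermat.Agent.S36

local notation "Qb" => AlgebraicClosure ℚ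

section Val

variable {F : Type*} [Field F]

/-- the nonunits of a valuation subring are closed under subtraction. -/
theorem m59tq_nonunits_sub (W : ValuationSubring F) {a b : F} (ha : a ∈ W.nonunits)
    (hb : b ∈ W.nonunits) : a - b ∈ W.nonunits := by
  rw [ValuationSubring.mem_nonunits_iff] at ha hb ⊢
  exact lt_of_le_of_lt (Valuation.map_sub _ _ _) (max_lt ha hb)

/-- the nonunits of a valuation subring are closed under positive powers. -/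
theorem m59tq_nonunits_pow (W : ValuationSubring F) {a : F} (ha : a ∈ W.nonunits) {n : ℕ}
    (hn : n ≠ 0) : a ^ n ∈ W.nonunits := by
  obtain ⟨k, rfl⟩ := Nat.exists_eq_succ_of_ne_zero hn
  rw [pow_succ]
  rw [ValuationSubring.mem_nonunits_iff] at ha ⊢
  rw [map_mul]
  have h1 : W.valuation (a ^ k) ≤ 1 :=
    (ValuationSubring.valuation_le_one_iff W _).2 (pow_mem (W.nonunits_subset ha) k)
  calc W.valuation (a ^ k) * W.valuation a ≤ 1 * W.valuation a := mul_le_mul_left h1 _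
    _ = W.valuation a := one_mul _
    _ < 1 := ha

/-- an integral element which is not a nonunit has an integral inverse. -/
theorem m59tq_inv_mem_of_not_nonunits (W : ValuationSubring F) {a : F}
    (ha : a ∉ W.nonunits) : a⁻¹ ∈ W := by
  rw [ValuationSubring.mem_nonunits_iff_or] at ha
  by_contra h
  exact ha (Or.inr h)

/-- **the seventh clause, abstractly**: `q ∈ 𝔪(W)`, `a ≡ b ^ q` modulo `𝔪(W)` and `a - 1` a unit of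
`W` ⟹ `b - 1` is a unit of `W`. -/
theorem m59tq_val_unit_of_frob (W : ValuationSubring F) {q : ℕ} (hq : q.Prime)
    (hqW : (q : F) ∈ W.nonunits) {a b : F} (ha : a ∈ W) (hb : b ∈ W)
    (h : a - b ^ q ∈ W.nonunits) (hu : a - 1 ∉ W.nonunits) : (b - 1)⁻¹ ∈ W := by
  apply m59tq_inv_mem_of_not_nonunits
  intro hb1
  apply hu
  have h1 := ssm_i1_frob_sub_one W hq hqW ha hb h
  have h2 := m59tq_nonunits_pow W hb1 hq.ne_zero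
  have h3 : a - 1 = ((a - 1) - (b - 1) ^ q) - (0 - (b - 1) ^ q) := by ring
  rw [h3]
  refine m59tq_nonunits_sub W h1 ?_
  rw [zero_sub]
  rw [ValuationSubring.mem_nonunits_iff] at h2 ⊢
  rwa [Valuation.map_neg]

end Val

section LabConj

variable (A : ValuationSubring Qb) {q : ℕ} [hq : Fact q.Prime] (hA : A.LiesOverPrime q)
  (N' : ℕ) [NeZero N'] [NeZero q] [NeZero (N' * q)] [NeZero (N' * q * q)]
  (hq2 : ¬ 2 ∣ q) (hqN' : ¬ q ∣ N')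
  (L : IntermediateField ℚ Qb) [NumberField ↥L]
  [IsDiscreteValuationRing ↥(A.comap (algebraMap ↥L Qb))]
  [CharP (ResidueField ↥(A.comap (algebraMap ↥L Qb))) q]
  {π : ↥(A.comap (algebraMap ↥L Qb))} (hπ : Irreducible π)
  (ζ : ↥L) (hζ : IsPrimitiveRoot ζ N') (h2 : (2 : ↥L) ≠ 0) (h2N : 2 ∣ N')

include hζ h2N in
/-- **[LAB-CONJ2], uniqueness only at the two given points.** -/
theorem m59tq_lab_conj2_at
    (φE : ↥(lg_E ↥L (N' * q)) →+* ↥(lg_E ↥L (N' * q * q)))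
    (φB : ↥(m59t1_B1 A N' q L) →+* ↥(m59t2_B2 A N' q L))
    (hφB : ∀ b : ↥(m59t1_B1 A N' q L),
      ((φB b : ↥(m59t2_B2 A N' q L)) : ↥(lg_E ↥L (N' * q * q))) = φE (b : ↥(lg_E ↥L (N' * q))))
    (hint : φB.IsIntegral)
    (hτ : ∀ y : ↥(lg_E ↥L (N' * q)),
      m59tt_tau ↥L (N' * q * q) h2 (φE y) = φE (m59tt_tau ↥L (N' * q) h2 y))
    (𝔫 𝔫' : Ideal ↥(m59t2_B2 A N' q L)) (h𝔫 : 𝔫.IsMaximal) (h𝔫' : 𝔫'.IsMaximal)
    (huniq : ∀ 𝔪' : Ideal ↥(m59t2_B2 A N' q L), 𝔪'.IsMaximal →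
      𝔪'.comap φB = 𝔫.comap φB → 𝔪' = 𝔫)
    (huniq' : ∀ 𝔪' : Ideal ↥(m59t2_B2 A N' q L), 𝔪'.IsMaximal →
      𝔪'.comap φB = 𝔫'.comap φB → 𝔪' = 𝔫')
    (Q : s44e_Sg A N' q hq.out hqN')
    (hL : m59t1_Lab A hA N' hq2 hqN' L hπ (𝔫.comap φB) Q.1)
    (hL' : m59t1_Lab A hA N' hq2 hqN' L hπ (𝔫'.comap φB) Q.1) :
    𝔫' = 𝔫 ∨ ∃ 𝒱₂ 𝒱₂' : ValuationSubring ↥(lg_E ↥L (N' * q * q)),
      (∀ x : ↥(lg_E ↥L (N' * q * q)),
        x ∈ 𝒱₂ ↔ (m59tt_tau ↥L (N' * q * q) h2).toRingEquiv x ∈ 𝒱₂') ∧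
      (∀ b : ↥(m59t2_B2 A N' q L), (b : ↥(lg_E ↥L (N' * q * q))) ∈ 𝒱₂) ∧
      (∀ b : ↥(m59t2_B2 A N' q L), (b : ↥(lg_E ↥L (N' * q * q))) ∈ 𝒱₂') ∧
      (∀ b : ↥(m59t2_B2 A N' q L), b ∈ 𝔫 ↔ (b : ↥(lg_E ↥L (N' * q * q))) ∈ 𝒱₂.nonunits) ∧
      (∀ b : ↥(m59t2_B2 A N' q L), b ∈ 𝔫' ↔ (b : ↥(lg_E ↥L (N' * q * q))) ∈ 𝒱₂'.nonunits) ∧
      φE ((lg_lamE (N' * q) : ↥(lg_E ↥L (N' * q))) - 1) ∉ 𝒱₂'.nonunits := by
  obtain ⟨𝒲, hext, e𝔫⟩ := hL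
  obtain ⟨𝒲', hext', e𝔫'⟩ := hL'
  have hj := Q.2.1
  obtain ⟨-, hjE, -, hB𝒱, hmax, -, -, hP1⟩ :=
    s44ndl_centre_A A hA N' hq2 hqN' L hπ ζ hζ Q.1 𝒲 hext hj
  obtain ⟨-, hjE', -, hB𝒱', hmax', -, -, hP1'⟩ :=
    s44ndl_centre_A A hA N' hq2 hqN' L hπ ζ hζ Q.1 𝒲' hext' hj
  set 𝒱 := s44ndl_V ↥L (A.comap (algebraMap ↥L Qb)) hπ N' q hq2 hqN' 𝒲 with h𝒱
  set 𝒱' := s44ndl_V ↥L (A.comap (algebraMap ↥L Qb)) hπ N' q hq2 hqN' 𝒲' with h𝒱'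
  -- the centres
  have ec : ssm_tp_P (m59t1_B1 A N' q L) 𝒱 = 𝔫.comap φB := e𝔫
  have ec' : ssm_tp_P (m59t1_B1 A N' q L) 𝒱' = 𝔫'.comap φB := e𝔫'
  -- the two rings agree on the `τ₁`-fixed elements
  have hN2 : 2 ∣ N' * q := Dvd.dvd.mul_right h2N q
  have hagree : ∀ z : ↥(lg_E ↥L (N' * q)),
      (m59tt_tau ↥L (N' * q) h2).toRingEquiv z = z → (z ∈ 𝒱 ↔ z ∈ 𝒱') := by
    intro z hz
    obtain ⟨x, rfl⟩ := m59tt_tau_fixed (k := ↥L) (M := N' * q) h2 hN2 z hz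
    exact (hext x).trans (hext' x).symm
  rcases m59mz_valConj_comap (m59tt_tau ↥L (N' * q) h2).toRingEquiv
    (fun z => m59tt_tau_tau h2 z) 𝒱 𝒱' hagree with hVV | hVV
  · -- the same ring: the same point
    left
    refine huniq 𝔫' h𝔫' ?_
    rw [← ec, ← ec', hVV]
  · right
    -- the lift of `𝒱` centred at `𝔫`
    obtain ⟨𝒱₂, h1, h2', h3⟩ := m59tq_lift_at φB φE hφB hint 𝒱 hB𝒱 hmax 𝔫
      (fun 𝔪 h𝔪 hc => huniq 𝔪 h𝔪 (by rw [hc, ec]))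
    -- its conjugate is centred at `𝔫'`
    obtain ⟨c1, c2, c3⟩ := m59tq_conj_at φB φE hφB hint
      (m59tt_tau ↥L (N' * q) h2).toRingEquiv (m59tt_tau ↥L (N' * q * q) h2).toRingEquiv hτ
      𝒱 𝒱₂ h1 (by rw [← hVV]; exact hB𝒱') (by rw [← hVV]; exact hmax') 𝔫'
      (fun 𝔪 h𝔪 hc => huniq' 𝔪 h𝔪 (by rw [hc, ← hVV, ec']))
    refine ⟨𝒱₂, 𝒱₂.comap ((m59tt_tau ↥L (N' * q * q) h2).toRingEquiv :
      ↥(lg_E ↥L (N' * q * q)) →+* ↥(lg_E ↥L (N' * q * q))), ?_, fun b => h2' _ b.2,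
      fun b => c2 _ b.2, ?_, ?_, ?_⟩
    · intro x
      rw [ValuationSubring.mem_comap]
      show x ∈ 𝒱₂ ↔ m59tt_tau ↥L (N' * q * q) h2 (m59tt_tau ↥L (N' * q * q) h2 x) ∈ 𝒱₂
      rw [m59tt_tau_tau]
    · intro b
      rw [← h3, ssm_tp_mem_P h2']
    · intro b
      rw [← c3, ssm_tp_mem_P c2]
    · -- `λ - 1` is a unit of `𝒱'`, hence of the conjugate of the lift
      rw [s36tri_nonunits_iff φE c1, ← hVV]
      exact m59tt_lam_sub_one ↥L (A.comap (algebraMap ↥L Qb)) N' q hq2 𝒱'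
        (fun b => hB𝒱' _ b.2) hjE'

end LabConj

section AB

variable (A : ValuationSubring Qb) {q : ℕ} [hq : Fact q.Prime] (hA : A.LiesOverPrime q)
  (N' : ℕ) [NeZero N'] [NeZero q] [NeZero (N' * q)] [NeZero (N' * q * q)]
  (hq2 : ¬ 2 ∣ q) (hqN' : ¬ q ∣ N')
  (L : IntermediateField ℚ Qb) [NumberField ↥L]
  [IsDiscreteValuationRing ↥(A.comap (algebraMap ↥L Qb))]
  [CharP (ResidueField ↥(A.comap (algebraMap ↥L Qb))) q]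
  (hπq : Irreducible ((q : ℕ) : ↥(A.comap (algebraMap ↥L Qb))))
  (ζN : ↥L) (hζN : IsPrimitiveRoot ζN N') (h2 : (2 : ↥L) ≠ 0) (h2N : 2 ∣ N')

include hq2 hqN' hπq hζN in
/-- any chart map over `α^*` is integral. -/
theorem m59tq_aB_isIntegral (aB : ↥(m59t1_B1 A N' q L) →+* ↥(m59t2_B2 A N' q L))
    (haB : ∀ b : ↥(m59t1_B1 A N' q L),
      ((aB b : ↥(m59t2_B2 A N' q L)) : ↥(lg_E ↥L (N' * q * q))) =
        m59tpr_aE ↥L N' q (b : ↥(lg_E ↥L (N' * q)))) : aB.IsIntegral := by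
  obtain ⟨aB0, bB0, ha0, hb0, -, hinta, -, hintb, -⟩ :=
    m59tpc_exists_chartMaps ↥L (A.comap (algebraMap ↥L Qb)) N' q hq2 hqN' hπq ζN hζN
  have e : aB = aB0 := RingHom.ext fun b => Subtype.ext ((haB b).trans (ha0 b).symm)
  rw [e]
  exact hinta

include hqN' hπq hζN in
/-- any chart map over `β^*` is integral. -/
theorem m59tq_bB_isIntegral (bB : ↥(m59t1_B1 A N' q L) →+* ↥(m59t2_B2 A N' q L))
    (hbB : ∀ b : ↥(m59t1_B1 A N' q L),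
      ((bB b : ↥(m59t2_B2 A N' q L)) : ↥(lg_E ↥L (N' * q * q))) =
        m59tpr_bE ↥L N' q hq2 (b : ↥(lg_E ↥L (N' * q)))) : bB.IsIntegral := by
  obtain ⟨aB0, bB0, ha0, hb0, -, hinta, -, hintb, -⟩ :=
    m59tpc_exists_chartMaps ↥L (A.comap (algebraMap ↥L Qb)) N' q hq2 hqN' hπq ζN hζN
  have e : bB = bB0 := RingHom.ext fun b => Subtype.ext ((hbB b).trans (hb0 b).symm)
  rw [e]
  exact hintb

include hζN h2N in
/-- **[LAB-CONJ2], `a`-side, closed.** -/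
theorem m59tq_lab_conj2_a
    (aB : ↥(m59t1_B1 A N' q L) →+* ↥(m59t2_B2 A N' q L))
    (haB : ∀ b : ↥(m59t1_B1 A N' q L),
      ((aB b : ↥(m59t2_B2 A N' q L)) : ↥(lg_E ↥L (N' * q * q))) =
        m59tpr_aE ↥L N' q (b : ↥(lg_E ↥L (N' * q))))
    {VC : ValuationSubring ↥(lg_E ↥L (N' * q * q))}
    (T3 : s36asm_Third (A.comap (algebraMap ↥L Qb)) hπq N' q hq2 hqN' VC)
    (𝔫 𝔫' : Ideal ↥(m59t2_B2 A N' q L)) (h𝔫 : 𝔫.IsMaximal) (h𝔫' : 𝔫'.IsMaximal)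
    (hA𝔫 : m59t2_PA A N' L hπq ≤ 𝔫) (hB𝔫 : m59t2_PB A N' hq2 hqN' L hπq ≤ 𝔫)
    (hA𝔫' : m59t2_PA A N' L hπq ≤ 𝔫') (hB𝔫' : m59t2_PB A N' hq2 hqN' L hπq ≤ 𝔫')
    (Q : s44e_Sg A N' q hq.out hqN')
    (hL : m59t1_Lab A hA N' hq2 hqN' L hπq (𝔫.comap aB) Q.1)
    (hL' : m59t1_Lab A hA N' hq2 hqN' L hπq (𝔫'.comap aB) Q.1) :
    𝔫' = 𝔫 ∨ ∃ 𝒱₂ 𝒱₂' : ValuationSubring ↥(lg_E ↥L (N' * q * q)),
      (∀ x : ↥(lg_E ↥L (N' * q * q)),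
        x ∈ 𝒱₂ ↔ (m59tt_tau ↥L (N' * q * q) h2).toRingEquiv x ∈ 𝒱₂') ∧
      (∀ b : ↥(m59t2_B2 A N' q L), (b : ↥(lg_E ↥L (N' * q * q))) ∈ 𝒱₂) ∧
      (∀ b : ↥(m59t2_B2 A N' q L), (b : ↥(lg_E ↥L (N' * q * q))) ∈ 𝒱₂') ∧
      (∀ b : ↥(m59t2_B2 A N' q L), b ∈ 𝔫 ↔ (b : ↥(lg_E ↥L (N' * q * q))) ∈ 𝒱₂.nonunits) ∧
      (∀ b : ↥(m59t2_B2 A N' q L), b ∈ 𝔫' ↔ (b : ↥(lg_E ↥L (N' * q * q))) ∈ 𝒱₂'.nonunits) ∧
      ((lg_lamE (N' * q * q) : ↥(lg_E ↥L (N' * q * q))) - 1)⁻¹ ∈ 𝒱₂' := by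
  have hq𝔫 := (m59tpl_leg_primes ↥L (A.comap (algebraMap ↥L Qb)) N' q hq2 hqN' hπq ζN hζN
    T3).2.2.2
  have hu := m59tu2_unique_a ↥L (A.comap (algebraMap ↥L Qb)) N' q hq2 hqN' hπq ζN hζN T3 aB
    (fun b => haB b) 𝔫 h𝔫 (hA𝔫 hq𝔫) (Or.inl ⟨hA𝔫, hB𝔫⟩)
  have hu' := m59tu2_unique_a ↥L (A.comap (algebraMap ↥L Qb)) N' q hq2 hqN' hπq ζN hζN T3 aB
    (fun b => haB b) 𝔫' h𝔫' (hA𝔫' hq𝔫) (Or.inl ⟨hA𝔫', hB𝔫'⟩)
  rcases m59tq_lab_conj2_at A hA N' hq2 hqN' L hπq ζN hζN h2 h2N (m59tpr_aE ↥L N' q) aB haB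
    (m59tq_aB_isIntegral A N' hq2 hqN' L hπq ζN hζN aB haB)
    (fun y => m59tprb_tau_a N' q h2 _ (m59tpr_coe_aE N' q) y) 𝔫 𝔫' h𝔫 h𝔫' hu hu' Q hL hL'
    with h | ⟨𝒱₂, 𝒱₂', h1, h2', h3, h4, h5, h6⟩
  · exact Or.inl h
  · refine Or.inr ⟨𝒱₂, 𝒱₂', h1, h2', h3, h4, h5, ?_⟩
    rw [map_sub, map_one, m59tpr_aE_lam] at h6
    exact m59tq_inv_mem_of_not_nonunits _ h6

include hζN h2N in
/-- **[LAB-CONJ2], `b`-side, closed.** -/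
theorem m59tq_lab_conj2_b
    (bB : ↥(m59t1_B1 A N' q L) →+* ↥(m59t2_B2 A N' q L))
    (hbB : ∀ b : ↥(m59t1_B1 A N' q L),
      ((bB b : ↥(m59t2_B2 A N' q L)) : ↥(lg_E ↥L (N' * q * q))) =
        m59tpr_bE ↥L N' q hq2 (b : ↥(lg_E ↥L (N' * q))))
    {VC : ValuationSubring ↥(lg_E ↥L (N' * q * q))}
    (T3 : s36asm_Third (A.comap (algebraMap ↥L Qb)) hπq N' q hq2 hqN' VC)
    (𝔫 𝔫' : Ideal ↥(m59t2_B2 A N' q L)) (h𝔫 : 𝔫.IsMaximal) (h𝔫' : 𝔫'.IsMaximal)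
    (hA𝔫 : m59t2_PA A N' L hπq ≤ 𝔫) (hB𝔫 : m59t2_PB A N' hq2 hqN' L hπq ≤ 𝔫)
    (hA𝔫' : m59t2_PA A N' L hπq ≤ 𝔫') (hB𝔫' : m59t2_PB A N' hq2 hqN' L hπq ≤ 𝔫')
    (Q : s44e_Sg A N' q hq.out hqN')
    (hL : m59t1_Lab A hA N' hq2 hqN' L hπq (𝔫.comap bB) Q.1)
    (hL' : m59t1_Lab A hA N' hq2 hqN' L hπq (𝔫'.comap bB) Q.1) :
    𝔫' = 𝔫 ∨ ∃ 𝒱₂ 𝒱₂' : ValuationSubring ↥(lg_E ↥L (N' * q * q)),
      (∀ x : ↥(lg_E ↥L (N' * q * q)),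
        x ∈ 𝒱₂ ↔ (m59tt_tau ↥L (N' * q * q) h2).toRingEquiv x ∈ 𝒱₂') ∧
      (∀ b : ↥(m59t2_B2 A N' q L), (b : ↥(lg_E ↥L (N' * q * q))) ∈ 𝒱₂) ∧
      (∀ b : ↥(m59t2_B2 A N' q L), (b : ↥(lg_E ↥L (N' * q * q))) ∈ 𝒱₂') ∧
      (∀ b : ↥(m59t2_B2 A N' q L), b ∈ 𝔫 ↔ (b : ↥(lg_E ↥L (N' * q * q))) ∈ 𝒱₂.nonunits) ∧
      (∀ b : ↥(m59t2_B2 A N' q L), b ∈ 𝔫' ↔ (b : ↥(lg_E ↥L (N' * q * q))) ∈ 𝒱₂'.nonunits) ∧
      ((lg_lamE (N' * q * q) : ↥(lg_E ↥L (N' * q * q))) - 1)⁻¹ ∈ 𝒱₂' := by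
  have hq𝔫 := (m59tpl_leg_primes ↥L (A.comap (algebraMap ↥L Qb)) N' q hq2 hqN' hπq ζN hζN
    T3).2.2.2
  have hbB' : ∀ b : ↥(m59t1_B1 A N' q L),
      (((bB b : ↥(m59t2_B2 A N' q L)) : ↥(lg_E ↥L (N' * q * q))) : LaurentSeries ↥L) =
        qExpand ↥L q ((b : ↥(lg_E ↥L (N' * q))) : LaurentSeries ↥L) := by
    intro b
    rw [hbB, m59tpr_coe_bE]
  have hu := m59tu2_unique_b ↥L (A.comap (algebraMap ↥L Qb)) N' q hq2 hqN' hπq ζN hζN T3 bB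
    hbB' 𝔫 h𝔫 (hA𝔫 hq𝔫) (Or.inl ⟨hA𝔫, hB𝔫⟩)
  have hu' := m59tu2_unique_b ↥L (A.comap (algebraMap ↥L Qb)) N' q hq2 hqN' hπq ζN hζN T3 bB
    hbB' 𝔫' h𝔫' (hA𝔫' hq𝔫) (Or.inl ⟨hA𝔫', hB𝔫'⟩)
  rcases m59tq_lab_conj2_at A hA N' hq2 hqN' L hπq ζN hζN h2 h2N (m59tpr_bE ↥L N' q hq2) bB hbB
    (m59tq_bB_isIntegral A N' hq2 hqN' L hπq ζN hζN bB hbB)
    (fun y => m59tprb_tau_b N' q hq2 h2 _ (m59tpr_coe_bE N' q hq2) y) 𝔫 𝔫' h𝔫 h𝔫' hu hu' Q hL hL'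
    with h | ⟨𝒱₂, 𝒱₂', h1, h2', h3, h4, h5, h6⟩
  · exact Or.inl h
  · refine Or.inr ⟨𝒱₂, 𝒱₂', h1, h2', h3, h4, h5, ?_⟩
    -- `β^* λ = λ(X^q)`
    have hlam1 : m59tpr_bE ↥L N' q hq2 (lg_lamE (N' * q)) = s36t3_lam1 ↥L N' q hq2 :=
      Subtype.ext (by rw [m59tpr_coe_bE]; rfl)
    rw [map_sub, map_one, hlam1] at h6
    obtain ⟨hleA, -, -⟩ := m59tpc_le2 (A.comap (algebraMap ↥L Qb)) hπq N' q hq2 hqN'
      (s36tl11_hprime ↥L (A.comap (algebraMap ↥L Qb)) N' q hq2 hqN' hπq ζN hζN) T3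
    set l1 : ↥(m59t2_B2 A N' q L) := bB ⟨lg_lamE (N' * q), fc_x_mem_chart _⟩ with hl1
    have hl1c : (l1 : ↥(lg_E ↥L (N' * q * q))) = s36t3_lam1 ↥L N' q hq2 := by
      rw [hl1, hbB]
      exact hlam1
    set l2 : ↥(m59t2_B2 A N' q L) := ⟨lg_lamE (N' * q * q), fc_x_mem_chart _⟩ with hl2
    have hx : l1 - l2 ^ q ∈ 𝔫' := by
      apply hA𝔫'
      rw [ssm_tp_mem_P hleA]
      have e : ((l1 - l2 ^ q : ↥(m59t2_B2 A N' q L)) : ↥(lg_E ↥L (N' * q * q))) =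
          s36t3_lam1 ↥L N' q hq2 - lg_lamE (N' * q * q) ^ q := by
        rw [← hl1c]
        rfl
      rw [e]
      exact s36t3_leg_bA1 (A.comap (algebraMap ↥L Qb)) hπq N' q hq2
    have hxW : s36t3_lam1 ↥L N' q hq2 - lg_lamE (N' * q * q) ^ q ∈ 𝒱₂'.nonunits := by
      have := (h5 _).1 hx
      rw [← hl1c]
      exact this
    have hqW : ((q : ℕ) : ↥(lg_E ↥L (N' * q * q))) ∈ 𝒱₂'.nonunits := by
      have := (h5 _).1 (hA𝔫' hq𝔫)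
      have e : ((algebraMap ↥(A.comap (algebraMap ↥L Qb)) ↥(m59t2_B2 A N' q L)
          ((q : ℕ) : ↥(A.comap (algebraMap ↥L Qb))) : ↥(m59t2_B2 A N' q L)) :
          ↥(lg_E ↥L (N' * q * q))) = ((q : ℕ) : ↥(lg_E ↥L (N' * q * q))) := by
        rw [map_natCast]
        rfl
      rw [← e]
      exact this
    have hl1W : s36t3_lam1 ↥L N' q hq2 ∈ 𝒱₂' := by
      rw [← hl1c]
      exact h3 l1
    exact m59tq_val_unit_of_frob 𝒱₂' hq.out hqW hl1W (h3 l2) hxW h6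

end AB

end Fermat.Agent.M59
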