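/-
M59 / Sink B, leaf 4 [TOR-SURJ], block [FIN-Z], cell [FP-LANG] = (ii) (helper2; cut: helper7 finding
5636, rulings helper15 5654 / chief 5655).  Prefix `m59tla_`.  Imports Mathlib only.

LANG'S LEMMA, FIXED-VECTOR FORM.  `k` algebraically closed, `Q ≥ 2` with `(Q : k) = 0` (a power
`q ^ e`, `e ≥ 1`, of the characteristic), `V ≠ 0` finite-dimensional, `G : V → V` additive,
INJECTIVE, with `G (c • x) = c ^ Q • G x`.  Then `G` has a nonzero fixed vector.

Proof (no algebraicity of `k` over the prime field is used): `v_i = G^i v_0`, minimal `m` with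
`v_m = ∑_{i<m} a_i v_i`; `a_0 ≠ 0` by injectivity and minimality; `w = ∑ x_j v_j` is fixed iff
`x_0 = a_0 s`, `x_{j+1} = x_j ^ Q + a_{j+1} s`, `s = x_{m-1} ^ Q`: ONE additive polynomial equation
`R(s) = 0`, `R = X_{m-1} ^ Q - X`, of degree `Q ^ m ≥ 2` with `R' = -1`, `R(0) = 0`; `R / X` has a
root, which is not `0` because `(R / X)(0) = R'(0) = -1`.

* `m59tla_X`, `m59tla_X_deg`, `m59tla_exists_root` : the polynomial part;
* `m59tla_fixed_of_rel` : the fixed vector from a cyclic relation;
* **`m59tla_fixed`**     : the lemma;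
* `m59tla_fixed_charP`  : the same with `Q = q ^ e`, `CharP k q`, `q` prime, `e ≥ 1`;
* **`m59tla_fixed_sub`** : CONSUMER FORM for Riemann–Roch spaces: `W ≠ ⊥` a finite-dimensional
  `k`-subspace of ANY `k`-module `M` (e.g. `L(E)` inside the function field), `G : M →+ M`
  `Q`-semilinear, `G W ⊆ W`, `G` injective on `W` ⟹ `∃ w ∈ W, w ≠ 0 ∧ G w = w`.
-/
import Mathlib

set_option autoImplicit false
set_option linter.style.haveILetI false

namespace Fermat.Agent.M59

open Polynomial

section Poly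

variable {k : Type*} [Field k]

/-- the additive polynomials of the recursion `x₀ = a₀ s`, `x_{j+1} = x_j ^ Q + a_{j+1} s`. -/
noncomputable def m59tla_X (Q : ℕ) (a : ℕ → k) : ℕ → k[X]
  | 0 => C (a 0) * X
  | j + 1 => (m59tla_X Q a j) ^ Q + C (a (j + 1)) * X

theorem m59tla_X_zero (Q : ℕ) (a : ℕ → k) : m59tla_X Q a 0 = C (a 0) * X := rfl

theorem m59tla_X_succ (Q : ℕ) (a : ℕ → k) (j : ℕ) :
    m59tla_X Q a (j + 1) = (m59tla_X Q a j) ^ Q + C (a (j + 1)) * X := rfl

theorem m59tla_X_eval_zero {Q : ℕ} (hQ : Q ≠ 0) (a : ℕ → k) (j : ℕ) :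
    (m59tla_X Q a j).eval 0 = 0 := by
  induction j with
  | zero => simp [m59tla_X_zero]
  | succ j ih => simp [m59tla_X_succ, ih, hQ]

theorem m59tla_X_deg {Q : ℕ} (hQ : 2 ≤ Q) (a : ℕ → k) (ha : a 0 ≠ 0) (j : ℕ) :
    (m59tla_X Q a j).natDegree = Q ^ j ∧ (m59tla_X Q a j) ≠ 0 := by
  induction j with
  | zero =>
    rw [m59tla_X_zero, pow_zero]
    exact ⟨natDegree_C_mul_X _ ha, fun h => by
      have := congrArg natDegree h
      rw [natDegree_C_mul_X _ ha, natDegree_zero] at this
      exact one_ne_zero this⟩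
  | succ j ih =>
    obtain ⟨hd, hne⟩ := ih
    have h1 : ((m59tla_X Q a j) ^ Q).natDegree = Q ^ (j + 1) := by
      rw [natDegree_pow, hd, pow_succ, mul_comm]
    have h2 : (C (a (j + 1)) * X : k[X]).natDegree < ((m59tla_X Q a j) ^ Q).natDegree := by
      rw [h1]
      calc (C (a (j + 1)) * X : k[X]).natDegree ≤ (X : k[X]).natDegree := natDegree_C_mul_le _ _
        _ = 1 := natDegree_X
        _ < 2 := by norm_num
        _ ≤ Q := hQ
        _ = Q ^ 1 := (pow_one Q).symm
        _ ≤ Q ^ (j + 1) := Nat.pow_le_pow_right (by omega) (by omega)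
    have h3 : (m59tla_X Q a (j + 1)).natDegree = Q ^ (j + 1) := by
      rw [m59tla_X_succ, natDegree_add_eq_left_of_natDegree_lt h2, h1]
    refine ⟨h3, fun h => ?_⟩
    rw [h, natDegree_zero] at h3
    exact (pow_ne_zero _ (by omega : Q ≠ 0)) h3.symm

/-- **the additive equation has a nonzero solution**: `s ≠ 0` with `x_{m-1}(s) ^ Q = s`. -/
theorem m59tla_exists_root [IsAlgClosed k] {Q : ℕ} (hQ : 2 ≤ Q) (hQ0 : (Q : k) = 0)
    (a : ℕ → k) (ha : a 0 ≠ 0) (j : ℕ) :
    ∃ s : k, s ≠ 0 ∧ ((m59tla_X Q a j).eval s) ^ Q = s := by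
  have hQne : Q ≠ 0 := by omega
  set R : k[X] := (m59tla_X Q a j) ^ Q - X with hR
  have hR0 : R.eval 0 = 0 := by
    rw [hR, eval_sub, eval_pow, m59tla_X_eval_zero hQne, zero_pow hQne, eval_X, sub_zero]
  have hdvd : X ∣ R := by
    rw [X_dvd_iff, coeff_zero_eq_eval_zero]; exact hR0
  obtain ⟨R1, hR1⟩ := hdvd
  -- the derivative of `R` is `-1`
  have hder : derivative R = -1 := by
    rw [hR, derivative_sub, derivative_X, derivative_pow]
    have : (C (Q : k) : k[X]) = 0 := by rw [hQ0, C_0]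
    rw [this, zero_mul, zero_mul, zero_sub]
  have hR1_0 : R1.eval 0 = -1 := by
    have h := congrArg (fun p : k[X] => (derivative p).eval 0) hR1
    simp only [derivative_mul, derivative_X, one_mul, eval_add, eval_mul, eval_X, zero_mul,
      add_zero] at h
    rw [hder] at h
    simpa using h.symm
  -- the degree of `R1`
  obtain ⟨hd, hne⟩ := m59tla_X_deg hQ a ha j
  have hRd : R.natDegree = Q ^ (j + 1) := by
    have h1 : ((m59tla_X Q a j) ^ Q).natDegree = Q ^ (j + 1) := by
      rw [natDegree_pow, hd, pow_succ, mul_comm]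
    have h2 : (X : k[X]).natDegree < ((m59tla_X Q a j) ^ Q).natDegree := by
      rw [h1, natDegree_X]
      calc 1 < 2 := by norm_num
        _ ≤ Q := hQ
        _ = Q ^ 1 := (pow_one Q).symm
        _ ≤ Q ^ (j + 1) := Nat.pow_le_pow_right (by omega) (by omega)
    rw [hR, natDegree_sub_eq_left_of_natDegree_lt h2, h1]
  have hR1ne : R1 ≠ 0 := by
    rintro rfl
    rw [eval_zero] at hR1_0
    exact (by norm_num : (0 : k) ≠ -1) hR1_0
  have hR1d : R1.natDegree + 1 = Q ^ (j + 1) := by
    rw [← hRd, hR1, natDegree_X_mul hR1ne]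
  have hdeg : R1.degree ≠ 0 := by
    rw [degree_eq_natDegree hR1ne]
    have : 2 ≤ Q ^ (j + 1) := by
      calc 2 ≤ Q := hQ
        _ = Q ^ 1 := (pow_one Q).symm
        _ ≤ Q ^ (j + 1) := Nat.pow_le_pow_right (by omega) (by omega)
    have h3 : R1.natDegree ≠ 0 := by omega
    exact_mod_cast h3
  obtain ⟨s, hs⟩ := IsAlgClosed.exists_root R1 hdeg
  refine ⟨s, ?_, ?_⟩
  · rintro rfl
    rw [IsRoot.def, hR1_0] at hs
    exact (by norm_num : (-1 : k) ≠ 0) hs
  · have h4 : R.eval s = 0 := by rw [hR1, eval_mul, hs.eq_zero, mul_zero]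
    rw [hR, eval_sub, eval_pow, eval_X] at h4
    exact sub_eq_zero.1 h4

end Poly

section Fixed

variable {k : Type*} [Field k] {V : Type*} [AddCommGroup V] [Module k V]

/-- **the fixed vector from a cyclic relation**: `v_{i+1} = G v_i`, `v_m = ∑_{i<m} a_i v_i` with
`a_0 ≠ 0`, `(v_i)_{i<m}` independent, `m ≥ 1` ⟹ `G` has a nonzero fixed vector. -/
theorem m59tla_fixed_of_rel [IsAlgClosed k] {Q : ℕ} (hQ : 2 ≤ Q) (hQ0 : (Q : k) = 0)
    (G : V →+ V) (hG : ∀ (c : k) (x : V), G (c • x) = c ^ Q • G x)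
    (v : ℕ → V) (hv : ∀ i, v (i + 1) = G (v i)) (m' : ℕ) (a : ℕ → k) (ha : a 0 ≠ 0)
    (hrel : v (m' + 1) = ∑ i ∈ Finset.range (m' + 1), a i • v i)
    (hind : LinearIndependent k (fun i : Fin (m' + 1) => v i)) :
    ∃ w : V, w ≠ 0 ∧ G w = w := by
  obtain ⟨s, hs0, hs⟩ := m59tla_exists_root hQ hQ0 a ha m'
  set x : ℕ → k := fun j => (m59tla_X Q a j).eval s with hx
  have hx0 : x 0 = a 0 * s := by simp [hx, m59tla_X_zero]
  have hxs : ∀ j, x (j + 1) = x j ^ Q + a (j + 1) * s := fun j => by
    simp [hx, m59tla_X_succ]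
  have hxm : x m' ^ Q = s := hs
  refine ⟨∑ j ∈ Finset.range (m' + 1), x j • v j, ?_, ?_⟩
  · intro h0
    rw [Finset.sum_range] at h0
    have := (Fintype.linearIndependent_iff.1 hind) (fun i : Fin (m' + 1) => x i) h0
      (Fin.last m')
    simp only [Fin.val_last] at this
    apply hs0
    rw [← hxm, this, zero_pow (by omega)]
  · rw [map_sum]
    have e1 : ∀ j ∈ Finset.range (m' + 1), G (x j • v j) = x j ^ Q • v (j + 1) := by
      intro j _
      rw [hG, hv]
    rw [Finset.sum_congr rfl e1, Finset.sum_range_succ, hxm, hrel,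
      Finset.sum_range_succ' (fun i => a i • v i), Finset.sum_range_succ' (fun j => x j • v j),
      smul_add, Finset.smul_sum, ← add_assoc, ← Finset.sum_add_distrib]
    congr 1
    · refine Finset.sum_congr rfl fun j _ => ?_
      rw [hxs, add_smul, smul_smul, mul_comm s]
    · rw [hx0, smul_smul, mul_comm s]

/-- **Lang's lemma (fixed vector form)**: an injective `Frob^e`-semilinear endomorphism of a nonzero
finite-dimensional vector space over an algebraically closed field has a nonzero fixed vector. -/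
theorem m59tla_fixed [IsAlgClosed k] [FiniteDimensional k V] [Nontrivial V] {Q : ℕ} (hQ : 2 ≤ Q)
    (hQ0 : (Q : k) = 0) (G : V →+ V) (hG : ∀ (c : k) (x : V), G (c • x) = c ^ Q • G x)
    (hinj : Function.Injective G) : ∃ w : V, w ≠ 0 ∧ G w = w := by
  obtain ⟨v0, hv0⟩ := exists_ne (0 : V)
  set v : ℕ → V := fun i => (⇑G)^[i] v0 with hvdef
  have hv : ∀ i, v (i + 1) = G (v i) := fun i => Function.iterate_succ_apply' _ _ _
  -- the minimal dependent initial segment
  have hex : ∃ j, ¬ LinearIndependent k (fun i : Fin (j + 1) => v i) := by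
    refine ⟨Module.finrank k V, fun h => ?_⟩
    have := h.fintype_card_le_finrank
    rw [Fintype.card_fin] at this
    omega
  classical
  set m := Nat.find hex with hm
  have hdep : ¬ LinearIndependent k (fun i : Fin (m + 1) => v i) := Nat.find_spec hex
  have hindm : LinearIndependent k (fun i : Fin m => v i) := by
    rcases Nat.eq_zero_or_pos m with h0 | hpos
    · rw [h0]; exact linearIndependent_empty_type
    · obtain ⟨m', hm'⟩ := Nat.exists_eq_succ_of_ne_zero hpos.ne'
      have := Nat.find_min hex (m := m') (by omega)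
      rw [not_not] at this
      rw [hm']; exact this
  -- `v m` is a combination of the previous ones
  have hmem : v m ∈ Submodule.span k (Set.range (fun i : Fin m => v i)) := by
    by_contra hnot
    apply hdep
    have := (linearIndependent_finSnoc (K := k) (v := fun i : Fin m => v i) (x := v m)).2
      ⟨hindm, hnot⟩
    convert this using 1
    funext i
    refine Fin.lastCases ?_ (fun i => ?_) i
    · simp
    · simp
  obtain ⟨c, hc⟩ := (Submodule.mem_span_range_iff_exists_fun k).1 hmem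
  -- `m ≥ 1`
  obtain ⟨m', hm'⟩ : ∃ m', m = m' + 1 := by
    rcases Nat.eq_zero_or_pos m with h0 | hpos
    · exfalso
      apply hdep
      rw [h0]
      show LinearIndependent k (fun i : Fin 1 => v i)
      have : (fun i : Fin 1 => v i) = fun _ => v0 := by
        funext i
        have h1 : i = 0 := Subsingleton.elim _ _
        rw [h1]
        rfl
      rw [this]
      exact LinearIndependent.of_subsingleton (0 : Fin 1) hv0
    · exact Nat.exists_eq_succ_of_ne_zero hpos.ne'
  set a : ℕ → k := fun i => if h : i < m then c ⟨i, h⟩ else 0 with hadef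
  have hrel : v (m' + 1) = ∑ i ∈ Finset.range (m' + 1), a i • v i := by
    rw [← hm', ← hc, Finset.sum_range]
    refine Finset.sum_congr rfl fun i _ => ?_
    simp [hadef, i.2]
  have hind' : LinearIndependent k (fun i : Fin (m' + 1) => v i) := by
    rw [← hm']; exact hindm
  -- `a 0 ≠ 0`
  have ha0 : a 0 ≠ 0 := by
    intro h0
    have hQpos : 0 < Q := by omega
    choose b hb using fun i : ℕ => IsAlgClosed.exists_pow_nat_eq (a i) hQpos
    have h1 : v (m' + 1) = G (∑ i ∈ Finset.range m', b (i + 1) • v i) := by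
      rw [hrel, Finset.sum_range_succ' (fun i => a i • v i), h0, zero_smul, add_zero, map_sum]
      refine Finset.sum_congr rfl fun i _ => ?_
      rw [hG, hb, hv]
    rw [hv] at h1
    have h2 := hinj h1
    have h3 : v m' ∈ Submodule.span k (Set.range (fun i : Fin m' => v i)) := by
      rw [h2, Finset.sum_range]
      exact Submodule.sum_mem _ fun i _ =>
        Submodule.smul_mem _ _ (Submodule.subset_span ⟨i, rfl⟩)
    have h4 : LinearIndependent k (Fin.snoc (fun i : Fin m' => v i) (v m') : Fin (m' + 1) → V) := by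
      convert hind' using 1
      funext i
      refine Fin.lastCases ?_ (fun i => ?_) i
      · simp
      · simp
    exact ((linearIndependent_finSnoc (K := k)).1 h4).2 h3
  exact m59tla_fixed_of_rel hQ hQ0 G hG v hv m' a ha0 hrel hind'

/-- `Q = q ^ e`, `e ≥ 1`, `q` the (prime) characteristic. -/
theorem m59tla_fixed_charP [IsAlgClosed k] [FiniteDimensional k V] [Nontrivial V] (q : ℕ)
    [hq : Fact q.Prime] [CharP k q] {e : ℕ} (he : 1 ≤ e) (G : V →+ V)
    (hG : ∀ (c : k) (x : V), G (c • x) = c ^ (q ^ e) • G x) (hinj : Function.Injective G) :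
    ∃ w : V, w ≠ 0 ∧ G w = w := by
  have h2 : 2 ≤ q ^ e := by
    calc 2 ≤ q := hq.out.two_le
      _ = q ^ 1 := (pow_one q).symm
      _ ≤ q ^ e := Nat.pow_le_pow_right hq.out.pos he
  have h0 : ((q ^ e : ℕ) : k) = 0 := by
    obtain ⟨e', rfl⟩ := Nat.exists_eq_succ_of_ne_zero (by omega : e ≠ 0)
    rw [Nat.cast_pow, pow_succ, CharP.cast_eq_zero k q, mul_zero]
  exact m59tla_fixed h2 h0 G hG hinj

/-- **CONSUMER FORM**: a `G`-stable finite-dimensional subspace `W ≠ ⊥` of any `k`-module, `G`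
`Q`-semilinear and injective on `W`, contains a nonzero `G`-fixed vector. -/
theorem m59tla_fixed_sub [IsAlgClosed k] {Q : ℕ} (hQ : 2 ≤ Q) (hQ0 : (Q : k) = 0)
    (W : Submodule k V) [FiniteDimensional k W] (hW : W ≠ ⊥) (G : V →+ V)
    (hG : ∀ (c : k) (x : V), G (c • x) = c ^ Q • G x)
    (hinj : ∀ w ∈ W, G w = 0 → w = 0) (hGW : ∀ w ∈ W, G w ∈ W) :
    ∃ w ∈ W, w ≠ 0 ∧ G w = w := by
  haveI : Nontrivial W := Submodule.nontrivial_iff_ne_bot.2 hW
  let G' : W →+ W :=
    { toFun := fun w => ⟨G w, hGW w w.2⟩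
      map_zero' := Subtype.ext (map_zero G)
      map_add' := fun a b => Subtype.ext (map_add G (a : V) (b : V)) }
  have hG' : ∀ (c : k) (x : W), G' (c • x) = c ^ Q • G' x := fun c x => Subtype.ext (hG c x)
  have hinj' : Function.Injective G' := by
    rw [injective_iff_map_eq_zero]
    intro w hw
    have : G (w : V) = 0 := congrArg Subtype.val hw
    exact Subtype.ext (hinj w w.2 this)
  obtain ⟨w, hw0, hw⟩ := m59tla_fixed hQ hQ0 G' hG' hinj'
  exact ⟨w, w.2, fun h => hw0 (Subtype.ext h), congrArg Subtype.val hw⟩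

end Fixed

end Fermat.Agent.M59
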