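/-
M59 / Sink B, leaf 4 [TOR-SURJ], LEVEL `N' q q`, cell [LIFT-LAB] (helper7).  Prefix `m59tq_`.

`T2` (Tor/Defs2.lean) labels a triple point `𝔫` of the chart `B2` through the crossing point
`𝔫.comap aB` of `B1`, where the label is a valuation ring `𝒱₁` of `E1` centred at that point.  To run
the deck-involution argument at level `N' q q` one needs valuation rings of `E2` centred AT `𝔫`.

GENERIC (Mathlib + `ssm_tp_P`):
* `m59tq_exists_ext`   : every valuation subring of `F1` is the restriction along `j : F1 →+* F2` of a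
                         valuation subring of `F2` (Chevalley + domination);
* `m59tq_chart_le`     : a valuation subring of `F2` containing `ι B1` contains `B2` (`ι` integral);
* `m59tq_lift`         : `𝒱₁ ⊇ B1` ⟹ `∃ 𝒱₂`, `𝒱₂ ∩ F1 = 𝒱₁`, `B2 ⊆ 𝒱₂`, the centre of `𝒱₂` on `B2` lies
                         over the centre of `𝒱₁` on `B1`, and it is maximal if the latter is;
* `m59tq_lift_at`      : if moreover `𝔫` is THE ONLY maximal ideal of `B2` over the centre of `𝒱₁`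
                         ([UNIQ2]), the centre of `𝒱₂` is `𝔫`;
* `m59tq_conj_at`      : the conjugate `𝒱₂.comap τ₂` (`τ₂ ∘ j = j ∘ τ₁`) restricts to `𝒱₁.comap τ₁`;
                         if `B1 ⊆ 𝒱₁.comap τ₁` with centre `𝔫₁'` and `𝔫'` is the only maximal ideal of
                         `B2` over `𝔫₁'`, then `B2 ⊆ 𝒱₂.comap τ₂` with centre `𝔫'`.
-/
import Mathlib
import Fermat.Agent.SS.Model.TwoPrimes
import Fermat.Agent.S36.Tri.InstVal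

set_option autoImplicit false
set_option linter.unusedSectionVars false
set_option linter.unusedVariables false
set_option linter.style.haveILetI false

namespace Fermat.Agent.M59

open Fermat.Agent.SS Fermat.Agent.S36

section Ext

variable {F1 F2 : Type*} [Field F1] [Field F2] (j : F1 →+* F2)

/-- **extension of valuation rings**: every valuation subring of `F1` is the restriction along `j`
of a valuation subring of `F2`. -/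
theorem m59tq_exists_ext (𝒱₁ : ValuationSubring F1) :
    ∃ 𝒱₂ : ValuationSubring F2, ∀ y : F1, j y ∈ 𝒱₂ ↔ y ∈ 𝒱₁ := by
  obtain ⟨𝒱₂, h, hloc⟩ := IsLocalRing.exists_factor_valuationRing (j.comp 𝒱₁.subtype)
  refine ⟨𝒱₂, fun y => ⟨fun hy => ?_, fun hy => h ⟨y, hy⟩⟩⟩
  by_contra hy1
  have hy0 : y ≠ 0 := fun h0 => hy1 (h0 ▸ 𝒱₁.zero_mem)
  have hyi : y⁻¹ ∈ 𝒱₁ := (𝒱₁.mem_or_inv_mem y).resolve_left hy1
  have hu : IsUnit ((j.comp 𝒱₁.subtype).codRestrict 𝒱₂.toSubring h ⟨y⁻¹, hyi⟩) := by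
    refine IsUnit.of_mul_eq_one (⟨j y, hy⟩ : ↥𝒱₂.toSubring) ?_
    apply Subtype.ext
    show j y⁻¹ * j y = 1
    rw [← map_mul, inv_mul_cancel₀ hy0, map_one]
  have hu' : IsUnit (⟨y⁻¹, hyi⟩ : ↥𝒱₁) := hloc.map_nonunit _ hu
  obtain ⟨z, hz⟩ := hu'.exists_right_inv
  have hz' : y⁻¹ * (z : F1) = 1 := congrArg (fun t : ↥𝒱₁ => (t : F1)) hz
  have hzy : (z : F1) = y := by
    have := congrArg (fun t => y * t) hz'
    simp only [← mul_assoc, mul_inv_cancel₀ hy0, one_mul, mul_one] at this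
    exact this
  exact hy1 (hzy ▸ z.2)

end Ext

section Chart

variable {A0 : Type*} [CommRing A0] {F1 F2 : Type*} [Field F1] [Field F2] [Algebra A0 F1]
  [Algebra A0 F2] {B1 : Subalgebra A0 F1} {B2 : Subalgebra A0 F2}
  (ι : B1 →+* B2) (j : F1 →+* F2)
  (hcomm : ∀ x : B1, ((ι x : B2) : F2) = j (x : F1)) (hint : ι.IsIntegral)

include hcomm hint in
/-- a valuation subring of `F2` containing the image of `B1` contains `B2`. -/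
theorem m59tq_chart_le (𝒱₂ : ValuationSubring F2) (h1 : ∀ x : B1, j (x : F1) ∈ 𝒱₂) (b : B2) :
    (b : F2) ∈ 𝒱₂ := by
  obtain ⟨P, hP, hP0⟩ := hint b
  let g : B1 →+* ↥𝒱₂ :=
    { toFun := fun x => ⟨j (x : F1), h1 x⟩
      map_one' := Subtype.ext (by simp)
      map_mul' := fun x y => Subtype.ext (by simp)
      map_zero' := Subtype.ext (by simp)
      map_add' := fun x y => Subtype.ext (by simp) }
  have hgi : (algebraMap ↥𝒱₂ F2).comp g = (B2.val : ↥B2 →+* F2).comp ι := by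
    ext x
    exact (hcomm x).symm
  have hI : IsIntegral ↥𝒱₂ (b : F2) := by
    refine ⟨P.map g, hP.map g, ?_⟩
    rw [Polynomial.eval₂_map, hgi]
    have := congrArg (B2.val : ↥B2 →+* F2) hP0
    rw [Polynomial.hom_eval₂, map_zero] at this
    exact this
  obtain ⟨y, hy⟩ := IsIntegrallyClosed.isIntegral_iff.1 hI
  rw [← hy]
  exact y.2

include hcomm hint in
/-- **the lift**: a valuation subring `𝒱₁ ⊇ B1` of `F1` is the restriction of a valuation subring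
`𝒱₂ ⊇ B2` of `F2` whose centre on `B2` lies over the centre of `𝒱₁` on `B1`. -/
theorem m59tq_lift (𝒱₁ : ValuationSubring F1) (hB1 : ∀ x ∈ B1, x ∈ 𝒱₁) :
    ∃ 𝒱₂ : ValuationSubring F2, (∀ y : F1, j y ∈ 𝒱₂ ↔ y ∈ 𝒱₁) ∧ (∀ b ∈ B2, b ∈ 𝒱₂) ∧
      (ssm_tp_P B2 𝒱₂).IsPrime ∧ (ssm_tp_P B2 𝒱₂).comap ι = ssm_tp_P B1 𝒱₁ ∧
      ((ssm_tp_P B1 𝒱₁).IsMaximal → (ssm_tp_P B2 𝒱₂).IsMaximal) := by
  obtain ⟨𝒱₂, h𝒱₂⟩ := m59tq_exists_ext j 𝒱₁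
  have hB2 : ∀ b ∈ B2, b ∈ 𝒱₂ := fun b hb =>
    m59tq_chart_le ι j hcomm hint 𝒱₂ (fun x => (h𝒱₂ _).2 (hB1 _ x.2)) ⟨b, hb⟩
  haveI hp : (ssm_tp_P B2 𝒱₂).IsPrime := ssm_tp_P_isPrime hB2
  have hc : (ssm_tp_P B2 𝒱₂).comap ι = ssm_tp_P B1 𝒱₁ := by
    ext x
    rw [Ideal.mem_comap, ssm_tp_mem_P hB2, ssm_tp_mem_P hB1, hcomm, s36tri_nonunits_iff j h𝒱₂]
  refine ⟨𝒱₂, h𝒱₂, hB2, hp, hc, fun hmax => ?_⟩
  refine Ideal.isMaximal_of_isIntegral_of_isMaximal_comap' ι hint (ssm_tp_P B2 𝒱₂) ?_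
  rw [hc]
  exact hmax

include hcomm hint in
/-- **the lift with prescribed centre**: if `𝔫` is the only maximal ideal of `B2` over the (maximal)
centre of `𝒱₁` on `B1`, the lift `𝒱₂` is centred at `𝔫`. -/
theorem m59tq_lift_at (𝒱₁ : ValuationSubring F1) (hB1 : ∀ x ∈ B1, x ∈ 𝒱₁)
    (hmax : (ssm_tp_P B1 𝒱₁).IsMaximal) (𝔫 : Ideal B2)
    (huniq : ∀ 𝔫' : Ideal B2, 𝔫'.IsMaximal → 𝔫'.comap ι = ssm_tp_P B1 𝒱₁ → 𝔫' = 𝔫) :
    ∃ 𝒱₂ : ValuationSubring F2, (∀ y : F1, j y ∈ 𝒱₂ ↔ y ∈ 𝒱₁) ∧ (∀ b ∈ B2, b ∈ 𝒱₂) ∧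
      ssm_tp_P B2 𝒱₂ = 𝔫 := by
  obtain ⟨𝒱₂, h1, h2, -, h4, h5⟩ := m59tq_lift ι j hcomm hint 𝒱₁ hB1
  exact ⟨𝒱₂, h1, h2, huniq _ (h5 hmax) h4⟩

include hcomm hint in
/-- **the conjugate of the lift**: `τ₂ ∘ j = j ∘ τ₁`.  The conjugate `𝒱₂.comap τ₂` of a lift `𝒱₂` of
`𝒱₁` restricts to `𝒱₁.comap τ₁`; if this ring contains `B1`, has a maximal centre on `B1` and `𝔫'`
is the only maximal ideal of `B2` over that centre, then `𝒱₂.comap τ₂ ⊇ B2` is centred at `𝔫'`. -/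
theorem m59tq_conj_at (τ₁ : F1 ≃+* F1) (τ₂ : F2 ≃+* F2) (hτ : ∀ y : F1, τ₂ (j y) = j (τ₁ y))
    (𝒱₁ : ValuationSubring F1) (𝒱₂ : ValuationSubring F2) (h𝒱 : ∀ y : F1, j y ∈ 𝒱₂ ↔ y ∈ 𝒱₁)
    (hB1 : ∀ x ∈ B1, x ∈ 𝒱₁.comap (τ₁ : F1 →+* F1))
    (hmax : (ssm_tp_P B1 (𝒱₁.comap (τ₁ : F1 →+* F1))).IsMaximal) (𝔫' : Ideal B2)
    (huniq : ∀ 𝔫'' : Ideal B2, 𝔫''.IsMaximal →
      𝔫''.comap ι = ssm_tp_P B1 (𝒱₁.comap (τ₁ : F1 →+* F1)) → 𝔫'' = 𝔫') :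
    (∀ y : F1, j y ∈ 𝒱₂.comap (τ₂ : F2 →+* F2) ↔ y ∈ 𝒱₁.comap (τ₁ : F1 →+* F1)) ∧
      (∀ b ∈ B2, b ∈ 𝒱₂.comap (τ₂ : F2 →+* F2)) ∧
      ssm_tp_P B2 (𝒱₂.comap (τ₂ : F2 →+* F2)) = 𝔫' := by
  have h1 : ∀ y : F1, j y ∈ 𝒱₂.comap (τ₂ : F2 →+* F2) ↔ y ∈ 𝒱₁.comap (τ₁ : F1 →+* F1) := by
    intro y
    rw [ValuationSubring.mem_comap, ValuationSubring.mem_comap]
    show τ₂ (j y) ∈ 𝒱₂ ↔ τ₁ y ∈ 𝒱₁
    rw [hτ, h𝒱]
  have hB2 : ∀ b ∈ B2, b ∈ 𝒱₂.comap (τ₂ : F2 →+* F2) := fun b hb =>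
    m59tq_chart_le ι j hcomm hint _ (fun x => (h1 _).2 (hB1 _ x.2)) ⟨b, hb⟩
  haveI hp : (ssm_tp_P B2 (𝒱₂.comap (τ₂ : F2 →+* F2))).IsPrime := ssm_tp_P_isPrime hB2
  have hc : (ssm_tp_P B2 (𝒱₂.comap (τ₂ : F2 →+* F2))).comap ι =
      ssm_tp_P B1 (𝒱₁.comap (τ₁ : F1 →+* F1)) := by
    ext x
    rw [Ideal.mem_comap, ssm_tp_mem_P hB2, ssm_tp_mem_P hB1, hcomm, s36tri_nonunits_iff j h1]
  refine ⟨h1, hB2, huniq _ ?_ hc⟩
  refine Ideal.isMaximal_of_isIntegral_of_isMaximal_comap' ι hint _ ?_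
  rw [hc]
  exact hmax

end Chart

end Fermat.Agent.M59
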