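/-
M59 / Sink B, leaf 4 [TOR-SURJ], cell [PULL-RESTR], part (R3) (helper28).  Prefix `m59tpr_`.

THE TWO DEGENERACY MAPS ON THE CHARTS `B₁ = fc_chart O {λ} ⊆ E₁ = lg_E L (N' q)`,
`B₂ = fc_chart O {λ} ⊆ E₂ = lg_E L (N' q q)` AND THE COMAPS OF THE VERTICAL PRIMES.

* `m59tpr_map_chart` : a ring hom of fields over `A0` mapping the coordinates of a chart into a chart
  maps the chart into the chart (abstract; twin of main's `ssm_i1_W_chart`);
* `m59tpr_aE_mem_chart`, `m59tpr_bE_mem_chart` (the latter from `λ(X^q) ∈ B₁`);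
* [NF context: `L` a number field, `π = q`, `ζ_{N'} ∈ L`] `m59tpr_lam1_mem_chart : λ(X^q) ∈ B₁`;
  the chart maps `m59tpr_aB`, `m59tpr_bB : ↥B₁ →+* ↥B₂` with `m59tpr_coe_aB/_bB`,
  `m59tpr_aB_eq_iota` (`a_B` is main's `s36tn_leg_iota`), compatibility with `algebraMap O`;
* the six identities (`P_V := ssm_tp_P B V`):
    `P_A.comap a_B = P_1`, `P_B.comap a_B = P_2`, `P_C.comap a_B = P_1`,
    `P_A.comap b_B = P_1`, `P_B.comap b_B = P_2`, `P_C.comap b_B = P_2`.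
-/
import Mathlib
import Fermat.Agent.M59.SinkB.Tor.PullRestr
import Fermat.Agent.S36.Model.AsmLegLast
import Fermat.Agent.SS.Model.FinalLeg

set_option autoImplicit false
set_option linter.unusedSectionVars false
set_option linter.unusedVariables false
set_option linter.style.haveILetI false

noncomputable section

open ModularCurve AlgebraicCurve IntermediateField IsLocalRing
open Fermat.Agent.JT3 Fermat.Agent.SS Fermat.Agent.S35 Fermat.Agent.S36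

namespace Fermat.Agent.M59

section Abs

universe v

variable {A0 : Type*} [CommRing A0] {F1 F2 : Type v} [Field F1] [Field F2] [Algebra A0 F1]
  [Algebra A0 F2]

/-- **a ring hom over `A0` maps a chart into a chart** as soon as it maps the coordinates into it. -/
theorem m59tpr_map_chart (f : F1 →+* F2)
    (hfA : ∀ a : A0, f (algebraMap A0 F1 a) = algebraMap A0 F2 a)
    (S : Set F1) (S' : Set F2) (hS : ∀ s ∈ S, f s ∈ fc_chart A0 S') {b : F1}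
    (hb : b ∈ fc_chart A0 S) : f b ∈ fc_chart A0 S' := by
  have hR : ∀ r ∈ Algebra.adjoin A0 S, f r ∈ fc_chart A0 S' := by
    intro r hr
    induction hr using Algebra.adjoin_induction with
    | mem y hy => exact hS y hy
    | algebraMap a => rw [hfA]; exact (fc_chart A0 S').algebraMap_mem a
    | add y z _ _ hy hz => rw [map_add]; exact (fc_chart A0 S').add_mem hy hz
    | mul y z _ _ hy hz => rw [map_mul]; exact (fc_chart A0 S').mul_mem hy hz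
  let φ : Algebra.adjoin A0 S →+* integralClosure (Algebra.adjoin A0 S') F2 :=
    (f.comp (algebraMap (Algebra.adjoin A0 S) F1)).codRestrict
      (integralClosure (Algebra.adjoin A0 S') F2).toSubring (fun r => hR r r.2)
  have hφ : (algebraMap (integralClosure (Algebra.adjoin A0 S') F2) F2).comp φ =
      f.comp (algebraMap (Algebra.adjoin A0 S) F1) := by
    ext r; rfl
  rw [fc_mem_chart] at hb ⊢
  have h1 : IsIntegral (integralClosure (Algebra.adjoin A0 S') F2) (f b) :=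
    IsIntegral.map_of_comp_eq φ f hφ hb
  exact isIntegral_trans _ h1

end Abs

section Leg

variable {L : Type*} [Field L] [CharZero L] [Algebra L (AlgebraicClosure ℚ)]
  (O : ValuationSubring L) [IsDiscreteValuationRing O]
variable (N' q : ℕ) [NeZero N'] [NeZero q] [hq : Fact q.Prime] (hq2 : ¬ 2 ∣ q)

theorem m59tpr_aE_algebraMapO (a : ↥O) :
    m59tpr_aE L N' q (algebraMap ↥O ↥(lg_E L (N' * q)) a) =
      algebraMap ↥O ↥(lg_E L (N' * q * q)) a :=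
  m59tpr_aE_algebraMap N' q ((a : L))

theorem m59tpr_bE_algebraMapO (a : ↥O) :
    m59tpr_bE L N' q hq2 (algebraMap ↥O ↥(lg_E L (N' * q)) a) =
      algebraMap ↥O ↥(lg_E L (N' * q * q)) a :=
  m59tpr_bE_algebraMap N' q hq2 ((a : L))

/-- `α^*` maps the chart `B₁` into the chart `B₂`. -/
theorem m59tpr_aE_mem_chart {b : ↥(lg_E L (N' * q))}
    (hb : b ∈ fc_chart ↥O ({lg_lamE (N' * q)} : Set ↥(lg_E L (N' * q)))) :
    m59tpr_aE L N' q b ∈
      fc_chart ↥O ({lg_lamE (N' * q * q)} : Set ↥(lg_E L (N' * q * q))) := by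
  refine m59tpr_map_chart (m59tpr_aE L N' q) (m59tpr_aE_algebraMapO O N' q) _ _ ?_ hb
  intro s hs
  rw [Set.mem_singleton_iff.1 hs, m59tpr_aE_lam]
  exact fc_x_mem_chart _

/-- `β^*` maps the chart `B₁` into the chart `B₂`, as soon as `λ(X^q) ∈ B₁`. -/
theorem m59tpr_bE_mem_chart
    (hlam : s36i_lam1 L N' q hq2 ∈ fc_chart ↥O ({lg_lamE (N' * q)} : Set ↥(lg_E L (N' * q))))
    {b : ↥(lg_E L (N' * q))}
    (hb : b ∈ fc_chart ↥O ({lg_lamE (N' * q)} : Set ↥(lg_E L (N' * q)))) :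
    m59tpr_bE L N' q hq2 b ∈
      fc_chart ↥O ({lg_lamE (N' * q * q)} : Set ↥(lg_E L (N' * q * q))) := by
  refine m59tpr_map_chart (m59tpr_bE L N' q hq2) (m59tpr_bE_algebraMapO O N' q hq2) _ _ ?_ hb
  intro s hs
  rw [Set.mem_singleton_iff.1 hs, m59tpr_bE_lam]
  exact m59tpr_aE_mem_chart O N' q hlam

end Leg

section NFq

variable (L : Type) [Field L] [NumberField L] [Algebra L (AlgebraicClosure ℚ)]
  (O : ValuationSubring L) [IsDiscreteValuationRing O]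
variable (N' q : ℕ) [NeZero N'] [NeZero q] [hq : Fact q.Prime] [CharP (ResidueField O) q]
  (hq2 : ¬ 2 ∣ q) (hqN' : ¬ q ∣ N') (hπ : Irreducible ((q : ℕ) : ↥O))
  (ζ : L) (hζ : IsPrimitiveRoot ζ N')

include hqN' hπ hζ in
/-- **`λ(X^q) ∈ B₁`** (the integrality package [I1] of the level `N' q`). -/
theorem m59tpr_lam1_mem_chart :
    s36i_lam1 L N' q hq2 ∈ fc_chart ↥O ({lg_lamE (N' * q)} : Set ↥(lg_E L (N' * q))) := by
  have hp := ssm_ll_prime L N' hπ q (ssm_fln_q_mem L O q) (ssm_fl_ne_two q hq2) hqN' ζ hζ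
  have F := ssm_fl_facts O hπ N' q hq2 hqN' hp.1
  have h := F.lamq_mem
  rw [ssm_fl_W_lam] at h
  exact h

/-- **the chart map `a_B : B₁ →+* B₂`** induced by `α^*` (the inclusion). -/
def m59tpr_aB :
    ↥(fc_chart ↥O ({lg_lamE (N' * q)} : Set ↥(lg_E L (N' * q)))) →+*
      ↥(fc_chart ↥O ({lg_lamE (N' * q * q)} : Set ↥(lg_E L (N' * q * q)))) :=
  ((m59tpr_aE L N' q).comp
    (algebraMap ↥(fc_chart ↥O ({lg_lamE (N' * q)} : Set ↥(lg_E L (N' * q))))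
      ↥(lg_E L (N' * q)))).codRestrict
    (fc_chart ↥O ({lg_lamE (N' * q * q)} : Set ↥(lg_E L (N' * q * q))))
    (fun b => m59tpr_aE_mem_chart O N' q b.2)

theorem m59tpr_coe_aB (b : ↥(fc_chart ↥O ({lg_lamE (N' * q)} : Set ↥(lg_E L (N' * q))))) :
    ((m59tpr_aB L O N' q b :
      ↥(fc_chart ↥O ({lg_lamE (N' * q * q)} : Set ↥(lg_E L (N' * q * q))))) :
        ↥(lg_E L (N' * q * q))) = m59tpr_aE L N' q (b : ↥(lg_E L (N' * q))) := rfl

include hqN' hπ hζ in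
/-- `β^*` maps `B₁` into `B₂` (NF context). -/
theorem m59tpr_bE_mem_chart_nf {b : ↥(lg_E L (N' * q))}
    (hb : b ∈ fc_chart ↥O ({lg_lamE (N' * q)} : Set ↥(lg_E L (N' * q)))) :
    m59tpr_bE L N' q hq2 b ∈
      fc_chart ↥O ({lg_lamE (N' * q * q)} : Set ↥(lg_E L (N' * q * q))) :=
  m59tpr_bE_mem_chart O N' q hq2 (m59tpr_lam1_mem_chart L O N' q hq2 hqN' hπ ζ hζ) hb

/-- **the chart map `b_B : B₁ →+* B₂`** induced by `β^*` (`f(X) ↦ f(X^q)`). -/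
def m59tpr_bB :
    ↥(fc_chart ↥O ({lg_lamE (N' * q)} : Set ↥(lg_E L (N' * q)))) →+*
      ↥(fc_chart ↥O ({lg_lamE (N' * q * q)} : Set ↥(lg_E L (N' * q * q)))) :=
  ((m59tpr_bE L N' q hq2).comp
    (algebraMap ↥(fc_chart ↥O ({lg_lamE (N' * q)} : Set ↥(lg_E L (N' * q))))
      ↥(lg_E L (N' * q)))).codRestrict
    (fc_chart ↥O ({lg_lamE (N' * q * q)} : Set ↥(lg_E L (N' * q * q))))
    (fun b => m59tpr_bE_mem_chart_nf L O N' q hq2 hqN' hπ ζ hζ b.2)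

theorem m59tpr_coe_bB (b : ↥(fc_chart ↥O ({lg_lamE (N' * q)} : Set ↥(lg_E L (N' * q))))) :
    ((m59tpr_bB L O N' q hq2 hqN' hπ ζ hζ b :
      ↥(fc_chart ↥O ({lg_lamE (N' * q * q)} : Set ↥(lg_E L (N' * q * q))))) :
        ↥(lg_E L (N' * q * q))) = m59tpr_bE L N' q hq2 (b : ↥(lg_E L (N' * q))) := rfl

/-- `a_B` is main's `s36tn_leg_iota`. -/
theorem m59tpr_aB_eq_iota : m59tpr_aB L O N' q = s36tn_leg_iota O N' q := by
  refine RingHom.ext fun b => Subtype.ext ?_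
  rw [m59tpr_coe_aB, s36tn_leg_iota_coe]
  rfl

theorem m59tpr_aB_algebraMap (a : ↥O) :
    m59tpr_aB L O N' q
        (algebraMap ↥O (fc_chart ↥O ({lg_lamE (N' * q)} : Set ↥(lg_E L (N' * q)))) a) =
      algebraMap ↥O (fc_chart ↥O ({lg_lamE (N' * q * q)} : Set ↥(lg_E L (N' * q * q)))) a := by
  apply Subtype.ext
  rw [m59tpr_coe_aB]
  exact m59tpr_aE_algebraMapO O N' q a

theorem m59tpr_bB_algebraMap (a : ↥O) :
    m59tpr_bB L O N' q hq2 hqN' hπ ζ hζ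
        (algebraMap ↥O (fc_chart ↥O ({lg_lamE (N' * q)} : Set ↥(lg_E L (N' * q)))) a) =
      algebraMap ↥O (fc_chart ↥O ({lg_lamE (N' * q * q)} : Set ↥(lg_E L (N' * q * q)))) a := by
  apply Subtype.ext
  rw [m59tpr_coe_bB]
  exact m59tpr_bE_algebraMapO O N' q hq2 a

theorem m59tpr_aB_injective : Function.Injective (m59tpr_aB L O N' q) := by
  intro a b hab
  have h := congrArg (fun x : ↥(fc_chart ↥O ({lg_lamE (N' * q * q)} :
    Set ↥(lg_E L (N' * q * q)))) => (x : ↥(lg_E L (N' * q * q)))) hab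
  simp only [m59tpr_coe_aB] at h
  exact Subtype.ext (m59tpr_aE_injective N' q h)

theorem m59tpr_bB_injective : Function.Injective (m59tpr_bB L O N' q hq2 hqN' hπ ζ hζ) := by
  intro a b hab
  have h := congrArg (fun x : ↥(fc_chart ↥O ({lg_lamE (N' * q * q)} :
    Set ↥(lg_E L (N' * q * q)))) => (x : ↥(lg_E L (N' * q * q)))) hab
  simp only [m59tpr_coe_bB] at h
  exact Subtype.ext (m59tpr_bE_injective N' q hq2 h)

/-! ### the charts lie in the vertical valuation rings -/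

include hqN' hζ in
set_option synthInstance.maxHeartbeats 400000 in
set_option maxHeartbeats 1600000 in
/-- `B₁ ⊆ V1` and `B₁ ⊆ V2`. -/
theorem m59tpr_chart1_le :
    (∀ b ∈ fc_chart ↥O ({lg_lamE (N' * q)} : Set ↥(lg_E L (N' * q))),
      b ∈ ssm_gl_V1 O hπ N' q) ∧
    (∀ b ∈ fc_chart ↥O ({lg_lamE (N' * q)} : Set ↥(lg_E L (N' * q))),
      b ∈ ssm_gl_V2 O hπ N' q hq2 hqN') := by
  haveI := ssm_go_isScalarTower O (lg_E L (N' * q))
  haveI := lgf_finite L (N' * q)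
  have hx1 : Transcendental L (lg_lamE (L := L) (N' * q)) :=
    lgf_lam_transcendental L (N' * q) two_ne_zero
  have hxA1 : Transcendental ↥O (lg_lamE (L := L) (N' * q)) :=
    fc_ff_transcendental (L := L) hx1
  haveI : IsIntegrallyClosed (Algebra.adjoin ↥O
      ({lg_lamE (N' * q)} : Set ↥(lg_E L (N' * q)))) := fc_ff_isIntegrallyClosed hxA1
  haveI : FaithfulSMul (Algebra.adjoin ↥O
      ({lg_lamE (N' * q)} : Set ↥(lg_E L (N' * q)))) ↥(lg_E L (N' * q)) :=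
    (faithfulSMul_iff_algebraMap_injective _ _).2 Subtype.val_injective
  have hp := ssm_ll_prime L N' hπ q (ssm_fln_q_mem L O q) (ssm_fl_ne_two q hq2) hqN' ζ hζ
  have H1 := ssm_gl_hyp O hπ N' q hq2 hqN' hp.1
  have hC1 := ssm_tp_ff_chart (A0 := ↥O) (L := L) hπ hx1
  exact ⟨fun x hx => hC1.le H1.over1 hx, fun x hx => hC1.le H1.over2 hx⟩

include hζ in
set_option synthInstance.maxHeartbeats 400000 in
set_option maxHeartbeats 1600000 in
/-- `B₂ ⊆ VA`, `B₂ ⊆ VB`, `B₂ ⊆ VC`. -/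
theorem m59tpr_chart2_le {VC : ValuationSubring ↥(lg_E L (N' * q * q))}
    (T3 : s36asm_Third O hπ N' q hq2 hqN' VC) :
    (∀ b ∈ fc_chart ↥O ({lg_lamE (N' * q * q)} : Set ↥(lg_E L (N' * q * q))),
      b ∈ s36i_VA O hπ (N' * q) q) ∧
    (∀ b ∈ fc_chart ↥O ({lg_lamE (N' * q * q)} : Set ↥(lg_E L (N' * q * q))),
      b ∈ s36i_VB O hπ N' q hq2 hqN') ∧
    (∀ b ∈ fc_chart ↥O ({lg_lamE (N' * q * q)} : Set ↥(lg_E L (N' * q * q))), b ∈ VC) := by
  haveI := ssm_go_isScalarTower O (lg_E L (N' * q * q))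
  haveI := lgf_finite L (N' * q * q)
  have hx2 : Transcendental L (lg_lamE (L := L) (N' * q * q)) :=
    lgf_lam_transcendental L (N' * q * q) two_ne_zero
  have hxA : Transcendental ↥O (lg_lamE (L := L) (N' * q * q)) :=
    fc_ff_transcendental (L := L) hx2
  haveI : IsIntegrallyClosed (Algebra.adjoin ↥O
      ({lg_lamE (N' * q * q)} : Set ↥(lg_E L (N' * q * q)))) := fc_ff_isIntegrallyClosed hxA
  haveI : FaithfulSMul (Algebra.adjoin ↥O
      ({lg_lamE (N' * q * q)} : Set ↥(lg_E L (N' * q * q)))) ↥(lg_E L (N' * q * q)) :=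
    (faithfulSMul_iff_algebraMap_injective _ _).2 Subtype.val_injective
  have hp := ssm_ll_prime L N' hπ q (ssm_fln_q_mem L O q) (ssm_fl_ne_two q hq2) hqN' ζ hζ
  obtain ⟨-, H3, -⟩ := s36asm_all_of_third O hπ N' q hq2 hqN' hp.1 T3
  have hC2 := ssm_tp_ff_chart (A0 := ↥O) (L := L) hπ hx2
  exact ⟨fun x hx => hC2.le (H3.ovr 0) hx, fun x hx => hC2.le (H3.ovr 1) hx,
    fun x hx => hC2.le (H3.ovr 2) hx⟩

/-! ### (R3): the comaps of the vertical primes -/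

include hζ in
/-- **`P_A ∩ B₁ = P_1` along `a_B`.** -/
theorem m59tpr_PA_comap_aB {VC : ValuationSubring ↥(lg_E L (N' * q * q))}
    (T3 : s36asm_Third O hπ N' q hq2 hqN' VC) :
    (ssm_tp_P (fc_chart ↥O ({lg_lamE (N' * q * q)} : Set ↥(lg_E L (N' * q * q)))) (s36i_VA O hπ (N' * q) q)).comap (m59tpr_aB L O N' q) =
      ssm_tp_P (fc_chart ↥O ({lg_lamE (N' * q)} : Set ↥(lg_E L (N' * q)))) (ssm_gl_V1 O hπ N' q) :=
  s36tn_comap_P (m59tpr_aB L O N' q) (m59tpr_aE L N' q) (m59tpr_coe_aB L O N' q)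
    (m59tpr_chart1_le L O N' q hq2 hqN' hπ ζ hζ).1
    (m59tpr_chart2_le L O N' q hq2 hqN' hπ ζ hζ T3).1
    (m59tpr_VA_aE_nonunits O hπ N' q)

include hζ in
/-- **`P_B ∩ B₁ = P_2` along `a_B`.** -/
theorem m59tpr_PB_comap_aB {VC : ValuationSubring ↥(lg_E L (N' * q * q))}
    (T3 : s36asm_Third O hπ N' q hq2 hqN' VC) :
    (ssm_tp_P (fc_chart ↥O ({lg_lamE (N' * q * q)} : Set ↥(lg_E L (N' * q * q)))) (s36i_VB O hπ N' q hq2 hqN')).comap (m59tpr_aB L O N' q) =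
      ssm_tp_P (fc_chart ↥O ({lg_lamE (N' * q)} : Set ↥(lg_E L (N' * q)))) (ssm_gl_V2 O hπ N' q hq2 hqN') :=
  s36tn_comap_P (m59tpr_aB L O N' q) (m59tpr_aE L N' q) (m59tpr_coe_aB L O N' q)
    (m59tpr_chart1_le L O N' q hq2 hqN' hπ ζ hζ).2
    (m59tpr_chart2_le L O N' q hq2 hqN' hπ ζ hζ T3).2.1
    (m59tpr_VB_aE_nonunits O hπ N' q hq2 hqN')

include hζ in
/-- **`P_C ∩ B₁ = P_1` along `a_B`.** -/
theorem m59tpr_PC_comap_aB {VC : ValuationSubring ↥(lg_E L (N' * q * q))}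
    (T3 : s36asm_Third O hπ N' q hq2 hqN' VC) :
    (ssm_tp_P (fc_chart ↥O ({lg_lamE (N' * q * q)} : Set ↥(lg_E L (N' * q * q)))) VC).comap (m59tpr_aB L O N' q) =
      ssm_tp_P (fc_chart ↥O ({lg_lamE (N' * q)} : Set ↥(lg_E L (N' * q)))) (ssm_gl_V1 O hπ N' q) :=
  s36tn_comap_P (m59tpr_aB L O N' q) (m59tpr_aE L N' q) (m59tpr_coe_aB L O N' q)
    (m59tpr_chart1_le L O N' q hq2 hqN' hπ ζ hζ).1
    (m59tpr_chart2_le L O N' q hq2 hqN' hπ ζ hζ T3).2.2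
    (m59tpr_VC_aE_nonunits O hπ N' q hq2 hqN' T3)

/-- **`P_A ∩ β^* B₁ = P_1` along `b_B`.** -/
theorem m59tpr_PA_comap_bB {VC : ValuationSubring ↥(lg_E L (N' * q * q))}
    (T3 : s36asm_Third O hπ N' q hq2 hqN' VC) :
    (ssm_tp_P (fc_chart ↥O ({lg_lamE (N' * q * q)} : Set ↥(lg_E L (N' * q * q)))) (s36i_VA O hπ (N' * q) q)).comap
        (m59tpr_bB L O N' q hq2 hqN' hπ ζ hζ) =
      ssm_tp_P (fc_chart ↥O ({lg_lamE (N' * q)} : Set ↥(lg_E L (N' * q)))) (ssm_gl_V1 O hπ N' q) :=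
  s36tn_comap_P (m59tpr_bB L O N' q hq2 hqN' hπ ζ hζ) (m59tpr_bE L N' q hq2)
    (m59tpr_coe_bB L O N' q hq2 hqN' hπ ζ hζ)
    (m59tpr_chart1_le L O N' q hq2 hqN' hπ ζ hζ).1
    (m59tpr_chart2_le L O N' q hq2 hqN' hπ ζ hζ T3).1
    (m59tpr_VA_bE_nonunits O hπ N' q hq2 hqN')

/-- **`P_B ∩ β^* B₁ = P_2` along `b_B`.** -/
theorem m59tpr_PB_comap_bB {VC : ValuationSubring ↥(lg_E L (N' * q * q))}
    (T3 : s36asm_Third O hπ N' q hq2 hqN' VC) :
    (ssm_tp_P (fc_chart ↥O ({lg_lamE (N' * q * q)} : Set ↥(lg_E L (N' * q * q)))) (s36i_VB O hπ N' q hq2 hqN')).comap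
        (m59tpr_bB L O N' q hq2 hqN' hπ ζ hζ) =
      ssm_tp_P (fc_chart ↥O ({lg_lamE (N' * q)} : Set ↥(lg_E L (N' * q)))) (ssm_gl_V2 O hπ N' q hq2 hqN') :=
  s36tn_comap_P (m59tpr_bB L O N' q hq2 hqN' hπ ζ hζ) (m59tpr_bE L N' q hq2)
    (m59tpr_coe_bB L O N' q hq2 hqN' hπ ζ hζ)
    (m59tpr_chart1_le L O N' q hq2 hqN' hπ ζ hζ).2
    (m59tpr_chart2_le L O N' q hq2 hqN' hπ ζ hζ T3).2.1
    (m59tpr_VB_bE_nonunits O hπ N' q hq2 hqN')

/-- **`P_C ∩ β^* B₁ = P_2` along `b_B`.** -/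
theorem m59tpr_PC_comap_bB {VC : ValuationSubring ↥(lg_E L (N' * q * q))}
    (T3 : s36asm_Third O hπ N' q hq2 hqN' VC) :
    (ssm_tp_P (fc_chart ↥O ({lg_lamE (N' * q * q)} : Set ↥(lg_E L (N' * q * q)))) VC).comap (m59tpr_bB L O N' q hq2 hqN' hπ ζ hζ) =
      ssm_tp_P (fc_chart ↥O ({lg_lamE (N' * q)} : Set ↥(lg_E L (N' * q)))) (ssm_gl_V2 O hπ N' q hq2 hqN') :=
  s36tn_comap_P (m59tpr_bB L O N' q hq2 hqN' hπ ζ hζ) (m59tpr_bE L N' q hq2)
    (m59tpr_coe_bB L O N' q hq2 hqN' hπ ζ hζ)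
    (m59tpr_chart1_le L O N' q hq2 hqN' hπ ζ hζ).2
    (m59tpr_chart2_le L O N' q hq2 hqN' hπ ζ hζ T3).2.2
    (m59tpr_VC_bE_nonunits O hπ N' q hq2 hqN' T3)

/-! ### integrality of the chart maps, and the comap of a closed point -/

theorem m59tpr_aB_isIntegral : (m59tpr_aB L O N' q).IsIntegral := by
  rw [m59tpr_aB_eq_iota]
  exact s36tn_leg_iota_isIntegral O N' q

include hqN' hπ hζ in
/-- the chart `B₁` is `W₁`-stable. -/
theorem m59tpr_W1_mem_chart (z : ↥(lg_E L (N' * q))) :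
    ssm_gl_W L N' q hq2 hqN' z ∈ (fc_chart ↥O ({lg_lamE (N' * q)} : Set ↥(lg_E L (N' * q)))) ↔ z ∈ (fc_chart ↥O ({lg_lamE (N' * q)} : Set ↥(lg_E L (N' * q)))) := by
  have hp := ssm_ll_prime L N' hπ q (ssm_fln_q_mem L O q) (ssm_fl_ne_two q hq2) hqN' ζ hζ
  have F := ssm_fl_facts O hπ N' q hq2 hqN' hp.1
  have hWO : ∀ a : ↥O, ssm_gl_W L N' q hq2 hqN' (algebraMap ↥O ↥(lg_E L (N' * q)) a) =
      algebraMap ↥O ↥(lg_E L (N' * q)) a :=
    fun a => (ssm_al_WE L N' q hq.out hq2 hqN').commutes (a : L)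
  obtain ⟨hWB, -, -⟩ := ssm_i1_W_charts (ssm_gl_W L N' q hq2 hqN') hWO rfl F
  constructor
  · intro h
    have := hWB _ h
    rwa [m59tpr_W1_W1] at this
  · exact hWB z

include hζ in
/-- the chart `B₂` is `W₂`-stable. -/
theorem m59tpr_W2_mem_chart {VC : ValuationSubring ↥(lg_E L (N' * q * q))}
    (T3 : s36asm_Third O hπ N' q hq2 hqN' VC) (z : ↥(lg_E L (N' * q * q))) :
    s36i_W2 L N' q hq2 hqN' z ∈ (fc_chart ↥O ({lg_lamE (N' * q * q)} : Set ↥(lg_E L (N' * q * q)))) ↔ z ∈ (fc_chart ↥O ({lg_lamE (N' * q * q)} : Set ↥(lg_E L (N' * q * q)))) := by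
  have hp := ssm_ll_prime L N' hπ q (ssm_fln_q_mem L O q) (ssm_fl_ne_two q hq2) hqN' ζ hζ
  obtain ⟨⟨hWB1, -⟩, -, -⟩ := s36asm_all_of_third O hπ N' q hq2 hqN' hp.1 T3
  exact s36tpl_W2_mem_chart O N' q hq2 hqN' hWB1 z

/-- **`b_B = W₂|_{B₂} ∘ a_B ∘ W₁|_{B₁}`.** -/
theorem m59tpr_bB_eq {VC : ValuationSubring ↥(lg_E L (N' * q * q))}
    (T3 : s36asm_Third O hπ N' q hq2 hqN' VC) :
    m59tpr_bB L O N' q hq2 hqN' hπ ζ hζ =
      (((s35ti_restrict (s36i_W2 L N' q hq2 hqN') (fc_chart ↥O ({lg_lamE (N' * q * q)} : Set ↥(lg_E L (N' * q * q))))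
          (m59tpr_W2_mem_chart L O N' q hq2 hqN' hπ ζ hζ T3) : (fc_chart ↥O ({lg_lamE (N' * q * q)} : Set ↥(lg_E L (N' * q * q)))) ≃+* (fc_chart ↥O ({lg_lamE (N' * q * q)} : Set ↥(lg_E L (N' * q * q))))) :
          (fc_chart ↥O ({lg_lamE (N' * q * q)} : Set ↥(lg_E L (N' * q * q)))) →+* (fc_chart ↥O ({lg_lamE (N' * q * q)} : Set ↥(lg_E L (N' * q * q))))).comp (m59tpr_aB L O N' q)).comp
        ((s35ti_restrict (ssm_gl_W L N' q hq2 hqN') (fc_chart ↥O ({lg_lamE (N' * q)} : Set ↥(lg_E L (N' * q))))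
          (m59tpr_W1_mem_chart L O N' q hq2 hqN' hπ ζ hζ) : (fc_chart ↥O ({lg_lamE (N' * q)} : Set ↥(lg_E L (N' * q)))) ≃+* (fc_chart ↥O ({lg_lamE (N' * q)} : Set ↥(lg_E L (N' * q))))) :
          (fc_chart ↥O ({lg_lamE (N' * q)} : Set ↥(lg_E L (N' * q)))) →+* (fc_chart ↥O ({lg_lamE (N' * q)} : Set ↥(lg_E L (N' * q))))) := by
  refine RingHom.ext fun b => Subtype.ext ?_
  rw [m59tpr_coe_bB]
  show _ = s36i_W2 L N' q hq2 hqN' (m59tpr_aE L N' q (ssm_gl_W L N' q hq2 hqN' _))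
  rw [m59tpr_W2_aE, m59tpr_W1_W1]

theorem m59tpr_bB_isIntegral {VC : ValuationSubring ↥(lg_E L (N' * q * q))}
    (T3 : s36asm_Third O hπ N' q hq2 hqN' VC) :
    (m59tpr_bB L O N' q hq2 hqN' hπ ζ hζ).IsIntegral := by
  rw [m59tpr_bB_eq L O N' q hq2 hqN' hπ ζ hζ T3]
  refine RingHom.IsIntegral.trans _ _
    (RingHom.isIntegral_of_surjective _ (s35ti_restrict _ _ _).surjective) ?_
  exact RingHom.IsIntegral.trans _ _ (m59tpr_aB_isIntegral L O N' q)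
    (RingHom.isIntegral_of_surjective _ (s35ti_restrict _ _ _).surjective)

/-- the comap of a closed point of `B₂` along `a_B` is a closed point of `B₁`. -/
theorem m59tpr_comap_aB_isMaximal (𝔫 : Ideal (fc_chart ↥O ({lg_lamE (N' * q * q)} : Set ↥(lg_E L (N' * q * q))))) (h𝔫 : 𝔫.IsMaximal) :
    (𝔫.comap (m59tpr_aB L O N' q)).IsMaximal :=
  Ideal.isMaximal_comap_of_isIntegral_of_isMaximal' _ (m59tpr_aB_isIntegral L O N' q) 𝔫

/-- the comap of a closed point of `B₂` along `b_B` is a closed point of `B₁`. -/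
theorem m59tpr_comap_bB_isMaximal {VC : ValuationSubring ↥(lg_E L (N' * q * q))}
    (T3 : s36asm_Third O hπ N' q hq2 hqN' VC) (𝔫 : Ideal (fc_chart ↥O ({lg_lamE (N' * q * q)} : Set ↥(lg_E L (N' * q * q))))) (h𝔫 : 𝔫.IsMaximal) :
    (𝔫.comap (m59tpr_bB L O N' q hq2 hqN' hπ ζ hζ)).IsMaximal :=
  Ideal.isMaximal_comap_of_isIntegral_of_isMaximal' _
    (m59tpr_bB_isIntegral L O N' q hq2 hqN' hπ ζ hζ T3) 𝔫

end NFq

end Fermat.Agent.M59
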