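/-
M59 / Sink B, leaf 3 [TOR-SURJ], cell [PULL-RESTR] (R3), BRIDGE (helper4; prefix `m59tpc_`):
THE TWO PAIRS OF CHART MAPS ON MAIN ARE EQUAL.

`m59tpc_aB`, `m59tpc_bB` (`PullChart2.lean`, helper4: `s36cb_phiA`, resp. `W₂ ∘ aB ∘ W₁`) and
`m59tpr_aB`, `m59tpr_bB` (`PullRestrB.lean`, helper28: `codRestrict` of `aE`, `bE`) have the same
coercions to `E₂`, hence are equal; a statement about one pair is a statement about the other.
-/
import Mathlib
import Fermat.Agent.M59.SinkB.Tor.PullChart2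
import Fermat.Agent.M59.SinkB.Tor.PullRestrB

set_option autoImplicit false
set_option linter.unusedSectionVars false
set_option linter.unusedVariables false
set_option linter.style.haveILetI false
set_option synthInstance.maxHeartbeats 400000
set_option maxHeartbeats 1000000

noncomputable section

namespace Fermat.Agent.M59

open ModularCurve IntermediateField IsLocalRing
open Fermat.Agent.JT3 Fermat.Agent.SS Fermat.Agent.S36

section NF

variable (L : Type) [Field L] [NumberField L] [Algebra L (AlgebraicClosure ℚ)]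
  (O : ValuationSubring L) [IsDiscreteValuationRing O]
variable (N' q : ℕ) [NeZero N'] [NeZero q] [hq : Fact q.Prime] [CharP (ResidueField O) q]
  (hq2 : ¬ 2 ∣ q) (hqN' : ¬ q ∣ N') (hπ : Irreducible ((q : ℕ) : ↥O))
  (ζ : L) (hζ : IsPrimitiveRoot ζ N')

/-- the two `α`-side chart maps on main are equal. -/
theorem m59tpc_aB_eq_tpr : m59tpc_aB O N' q = m59tpr_aB L O N' q :=
  RingHom.ext fun b => Subtype.ext
    ((m59tpc_aB_coe_aE O N' q b).trans (m59tpr_coe_aB L O N' q b).symm)

/-- the two `β`-side chart maps on main are equal. -/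
theorem m59tpc_bB_eq_tpr
    (hW1 : ∀ b ∈ fc_chart ↥O ({lg_lamE (N' * q)} : Set ↥(lg_E L (N' * q))),
      ssm_gl_W L N' q hq2 hqN' b ∈ fc_chart ↥O ({lg_lamE (N' * q)} : Set ↥(lg_E L (N' * q))))
    (hW2 : ∀ b ∈ fc_chart ↥O ({lg_lamE (N' * q * q)} : Set ↥(lg_E L (N' * q * q))),
      s36i_W2 L N' q hq2 hqN' b ∈
        fc_chart ↥O ({lg_lamE (N' * q * q)} : Set ↥(lg_E L (N' * q * q)))) :
    m59tpc_bB O N' q hq2 hqN' hW1 hW2 = m59tpr_bB L O N' q hq2 hqN' hπ ζ hζ :=
  RingHom.ext fun b => Subtype.ext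
    ((m59tpc_bB_coe_bE O N' q hq2 hqN' hW1 hW2 b).trans
      (m59tpr_coe_bB L O N' q hq2 hqN' hπ ζ hζ b).symm)

end NF

end Fermat.Agent.M59

end
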