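/-
M59 / Sink B, leaf 4 [TOR-SURJ], LEVEL `N' q`: THE QUOTIENT OF TWO NORMAL FORMS WITH THE SAME TORIC
DATUM (helper7).  Prefix `m59t1_`.

* `m59t1_ratioAt_cst`   : `m59t1_RatioAt 𝔫 f c` IS `m59tl_Ratio (𝔫R) (P1 R) (P2 R) m f (m59tl_cst 𝔫 c)`
                          (the coercion of constants of `Tor/Glue1.lean`), by `Iff.rfl`;
* `m59t1_ratioAt_div`   : quotients;
* **`m59t1_ratio_quot`**: [DICT1] + `RatioAll f c` + `RatioAll f' c'` + `c Q * (c' Q)⁻¹ = η` for all `Q`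
                          ⟹ the ratio of `f / f'` is `m59tl_cst 𝔫 η` at EVERY crossing point (the
                          hypothesis `hrat` of `m59tgl_leg`);
* `m59t1_T1_quot`       : the same for two toric data `m59t1_T1 u a`, `m59t1_T1 u' a` with the SAME `a`.
-/
import Mathlib
import Fermat.Agent.M59.SinkB.Tor.NF1
import Fermat.Agent.M59.SinkB.Tor.Glue1Leg

set_option autoImplicit false
set_option linter.unusedSectionVars false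
set_option linter.unusedVariables false
set_option linter.style.haveILetI false
set_option synthInstance.maxHeartbeats 400000
set_option maxHeartbeats 1000000

noncomputable section

namespace Fermat.Agent.M59

open Polynomial ModularCurve AlgebraicCurve IntermediateField IsLocalRing
open Fermat.Agent.JT3 Fermat.Agent.SS Fermat.Agent.S35 Fermat.Agent.S24 Fermat.Agent.S44
  Fermat.Agent.S36

local notation "Qb" => AlgebraicClosure ℚ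

universe v

section Gen

variable {A0 : Type*} [CommRing A0] {F0 : Type v} [Field F0] [Algebra A0 F0]
variable {B : Subalgebra A0 F0} [IsFractionRing B F0]

/-- quotients of toric data with constants from the base ring, generic chart. -/
theorem m59t1_ratio_div_cst (𝔫 : Ideal B) [h𝔫 : 𝔫.IsPrime] (P1 P2 : Ideal B) [P1.IsPrime]
    [P2.IsPrime] (hP1 : P1 ≤ 𝔫) (hP2 : P2 ≤ 𝔫) {m : ℕ} {f f' : F0} {c c' : A0ˣ}
    (h : m59tl_Ratio (𝔫.map (algebraMap B (ssl_locSub F0 𝔫)))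
      (P1.map (algebraMap B (ssl_locSub F0 𝔫))) (P2.map (algebraMap B (ssl_locSub F0 𝔫)))
      m f (m59tl_cst (F0 := F0) 𝔫 c))
    (h' : m59tl_Ratio (𝔫.map (algebraMap B (ssl_locSub F0 𝔫)))
      (P1.map (algebraMap B (ssl_locSub F0 𝔫))) (P2.map (algebraMap B (ssl_locSub F0 𝔫)))
      m f' (m59tl_cst (F0 := F0) 𝔫 c')) :
    m59tl_Ratio (𝔫.map (algebraMap B (ssl_locSub F0 𝔫)))
      (P1.map (algebraMap B (ssl_locSub F0 𝔫))) (P2.map (algebraMap B (ssl_locSub F0 𝔫)))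
      m (f / f') (m59tl_cst (F0 := F0) 𝔫 (c * c'⁻¹)) := by
  haveI := s35l_map_isPrime (F0 := F0) 𝔫 P1 hP1
  haveI := s35l_map_isPrime (F0 := F0) 𝔫 P2 hP2
  have e : m59tl_cst (F0 := F0) 𝔫 (c * c'⁻¹) =
      m59tl_cst (F0 := F0) 𝔫 c * (m59tl_cst (F0 := F0) 𝔫 c')⁻¹ :=
    ((m59tl_cst (F0 := F0) 𝔫).map_mul c c'⁻¹).trans
      (congrArg (m59tl_cst (F0 := F0) 𝔫 c * ·) ((m59tl_cst (F0 := F0) 𝔫).map_inv c'))
  rw [e]
  exact m59tl_ratio_div _ _ _ h h'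

end Gen

section Quot

variable (A : ValuationSubring Qb) {q : ℕ} [hq : Fact q.Prime] (hA : A.LiesOverPrime q)
  (N' : ℕ) [NeZero N'] [NeZero q] [NeZero (N' * q)] (hq2 : ¬ 2 ∣ q) (hqN' : ¬ q ∣ N')
  (L : IntermediateField ℚ Qb) [NumberField ↥L]
  [IsDiscreteValuationRing ↥(A.comap (algebraMap ↥L Qb))]
  [CharP (ResidueField ↥(A.comap (algebraMap ↥L Qb))) q]
  {π : ↥(A.comap (algebraMap ↥L Qb))} (hπ : Irreducible π)

/-- `m59t1_RatioAt` is `m59tl_Ratio` with the constant `m59tl_cst 𝔫 c`. -/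
theorem m59t1_ratioAt_cst (m : ℕ) (𝔫 : Ideal ↥(m59t1_B1 A N' q L)) (h𝔫 : 𝔫.IsPrime)
    (f : ↥(lg_E ↥L (N' * q))) (c : (↥(A.comap (algebraMap ↥L Qb)))ˣ) :
    m59t1_RatioAt A N' hq2 hqN' L hπ m 𝔫 h𝔫 f c ↔
      (haveI := (s44ndl_chart_inst (A.comap (algebraMap ↥L Qb)) N' q (L := ↥L)).1
       haveI := h𝔫
       m59tl_Ratio
        (Ideal.map (algebraMap ↥(m59t1_B1 A N' q L) ↥(ssl_locSub ↥(lg_E ↥L (N' * q)) 𝔫)) 𝔫)
        (Ideal.map (algebraMap ↥(m59t1_B1 A N' q L) ↥(ssl_locSub ↥(lg_E ↥L (N' * q)) 𝔫))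
          (m59t1_P1 A N' L hπ))
        (Ideal.map (algebraMap ↥(m59t1_B1 A N' q L) ↥(ssl_locSub ↥(lg_E ↥L (N' * q)) 𝔫))
          (m59t1_P2 A N' hq2 hqN' L hπ))
        m f (m59tl_cst (F0 := ↥(lg_E ↥L (N' * q))) 𝔫 c)) :=
  Iff.rfl

variable (ζ : ↥L) (hζ : IsPrimitiveRoot ζ N')

include hζ in
/-- quotients of toric data at a crossing point. -/
theorem m59t1_ratioAt_div {m : ℕ} (𝔫 : Ideal ↥(m59t1_B1 A N' q L)) (h𝔫 : 𝔫.IsPrime)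
    (hP1 : m59t1_P1 A N' L hπ ≤ 𝔫) (hP2 : m59t1_P2 A N' hq2 hqN' L hπ ≤ 𝔫)
    {f f' : ↥(lg_E ↥L (N' * q))} {c c' : (↥(A.comap (algebraMap ↥L Qb)))ˣ}
    (h : m59t1_RatioAt A N' hq2 hqN' L hπ m 𝔫 h𝔫 f c)
    (h' : m59t1_RatioAt A N' hq2 hqN' L hπ m 𝔫 h𝔫 f' c') :
    m59t1_RatioAt A N' hq2 hqN' L hπ m 𝔫 h𝔫 (f / f') (c * c'⁻¹) := by
  have hqO : ((q : ℕ) : ↥(A.comap (algebraMap ↥L Qb))) ∈
      maximalIdeal ↥(A.comap (algebraMap ↥L Qb)) :=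
    ssm_fln_q_mem ↥L (A.comap (algebraMap ↥L Qb)) q
  have hq2' : q ≠ 2 := ssm_fl_ne_two q hq2
  have hp := ssm_ll_prime ↥L N' hπ q hqO hq2' hqN' ζ hζ
  have hx : Transcendental ↥L (lg_lamE (L := ↥L) (N' * q)) :=
    lgf_lam_transcendental ↥L (N' * q) two_ne_zero
  have H := ssm_gl_hyp (A.comap (algebraMap ↥L Qb)) hπ N' q hq2 hqN' hp.1
  have hxA : Transcendental ↥(A.comap (algebraMap ↥L Qb)) (lg_lamE (L := ↥L) (N' * q)) :=
    fc_ff_transcendental (L := ↥L) hx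
  haveI : IsIntegrallyClosed (Algebra.adjoin ↥(A.comap (algebraMap ↥L Qb))
      ({lg_lamE (N' * q)} : Set ↥(lg_E ↥L (N' * q)))) := fc_ff_isIntegrallyClosed hxA
  haveI : FaithfulSMul (Algebra.adjoin ↥(A.comap (algebraMap ↥L Qb))
      ({lg_lamE (N' * q)} : Set ↥(lg_E ↥L (N' * q)))) ↥(lg_E ↥L (N' * q)) :=
    (faithfulSMul_iff_algebraMap_injective _ _).2 Subtype.val_injective
  have hC1 := ssm_tp_ff_chart (L := ↥L) (A0 := ↥(A.comap (algebraMap ↥L Qb)))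
    (F0 := ↥(lg_E ↥L (N' * q))) hπ hx
  haveI := (s44ndl_chart_inst (A.comap (algebraMap ↥L Qb)) N' q (L := ↥L)).1
  haveI := h𝔫
  haveI := H.P1_isPrime hC1
  haveI := H.P2_isPrime hC1
  exact m59t1_ratio_div_cst (F0 := ↥(lg_E ↥L (N' * q))) 𝔫 (m59t1_P1 A N' L hπ)
    (m59t1_P2 A N' hq2 hqN' L hπ) hP1 hP2 h h'

include hζ in
/-- **[DICT1] + two families of toric data with constant quotient ⟹ the quotient has the same toric
datum at EVERY crossing point** (the hypothesis `hrat` of `m59tgl_leg`, through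
`m59t1_ratioAt_cst`). -/
theorem m59t1_ratio_quot (hD : m59t1_Dict1 A hA N' hq2 hqN' L hπ) {m : ℕ}
    {f f' : ↥(lg_E ↥L (N' * q))}
    {c c' : s44e_Sg A N' q hq.out hqN' → (↥(A.comap (algebraMap ↥L Qb)))ˣ}
    {η : (↥(A.comap (algebraMap ↥L Qb)))ˣ} (hη : ∀ Q, c Q * (c' Q)⁻¹ = η)
    (h : m59t1_RatioAll A hA N' hq2 hqN' L hπ m f c)
    (h' : m59t1_RatioAll A hA N' hq2 hqN' L hπ m f' c')
    (𝔫 : Ideal ↥(m59t1_B1 A N' q L)) (h𝔫 : 𝔫.IsMaximal)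
    (hP1 : m59t1_P1 A N' L hπ ≤ 𝔫) (hP2 : m59t1_P2 A N' hq2 hqN' L hπ ≤ 𝔫) :
    m59t1_RatioAt A N' hq2 hqN' L hπ m 𝔫 h𝔫.isPrime (f / f') η := by
  obtain ⟨Q, hQ⟩ := hD 𝔫 h𝔫 hP1 hP2
  have key := m59t1_ratioAt_div A N' hq2 hqN' L hπ ζ hζ 𝔫 h𝔫.isPrime hP1 hP2
    (h 𝔫 h𝔫 hP1 hP2 Q hQ) (h' 𝔫 h𝔫 hP1 hP2 Q hQ)
  rwa [hη Q] at key

include hζ in
/-- **two toric data with the SAME `a`**: the quotient of the two normal forms has the constant toric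
datum `ε * ε'⁻¹` at every crossing point. -/
theorem m59t1_T1_quot (hπq : Irreducible ((q : ℕ) : ↥(A.comap (algebraMap ↥L Qb))))
    (hD : m59t1_Dict1 A hA N' hq2 hqN' L hπq) {p : ℕ}
    (ζp : (↥(A.comap (algebraMap ↥L Qb)))ˣ) (Q0 : s44e_Sg A N' q hq.out hqN')
    {u u' : JZero (N' * q)} {a : m59t1_B A N' hqN' p Q0}
    (h : m59t1_T1 A hA N' hq2 hqN' L hπq p ζp Q0 u a)
    (h' : m59t1_T1 A hA N' hq2 hqN' L hπq p ζp Q0 u' a) :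
    ∃ (x0 : ↥(lg_F ↥L (N' * q))) (c : ↥L) (R g : ↥(lg_E ↥L (N' * q)))
      (x0' : ↥(lg_F ↥L (N' * q))) (c' : ↥L) (R' g' : ↥(lg_E ↥L (N' * q)))
      (η : (↥(A.comap (algebraMap ↥L Qb)))ˣ),
      m59t1_NF A N' hq2 hqN' L hπq p u x0 c R g ∧
      m59t1_NF A N' hq2 hqN' L hπq p u' x0' c' R' g' ∧
      ∀ (𝔫 : Ideal ↥(m59t1_B1 A N' q L)) (h𝔫 : 𝔫.IsMaximal),
        m59t1_P1 A N' L hπq ≤ 𝔫 → m59t1_P2 A N' hq2 hqN' L hπq ≤ 𝔫 →
        m59t1_RatioAt A N' hq2 hqN' L hπq p 𝔫 h𝔫.isPrime (g / g') η := by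
  obtain ⟨x0, c, R, g, hNF, ε, hε⟩ := h
  obtain ⟨x0', c', R', g', hNF', ε', hε'⟩ := h'
  refine ⟨x0, c, R, g, x0', c', R', g', ε * ε'⁻¹, hNF, hNF', fun 𝔫 h𝔫 hP1 hP2 => ?_⟩
  refine m59t1_ratio_quot A hA N' hq2 hqN' L hπq ζ hζ hD (fun Q => ?_) hε hε' 𝔫 h𝔫 hP1 hP2
  rw [mul_inv, mul_mul_mul_comm, mul_inv_cancel, one_mul]

end Quot

end Fermat.Agent.M59
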