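/-
M59 / Sink B, leaf 3 [TOR-SURJ], cell [TAU-INV2], step [TAU-BACK2] (helper2).  Prefix `m59tb2_`.

THE LEVEL-`N' q q` TWIN OF (6b) `m59tx_leg_tau_back` (helper5, `Tor/Ex1Tau.lean`).

* `m59tb2_ratio_of_pow_one`    : chart form, at a triple point (`s36g_PtTri`): `f' = hᵐ f` with
  `h ≡ 1` at `V i` and at `V j` ⟹ the toric data of `f'` and of `f` between the branches `i`, `j`
  agree;
* `m59tb2_ratio_of_pow_one_ff` : the same for the chart `fc_chart A0 {y}` of a function field with a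
  three-component model `s36tp_Hyp`;
* `m59tb2_leg_tau_back`        : Legendre tower at level `N' q q`: for a normal form
  `y = k · Rᵖ · g'` with `τ₂ y = y` and constant reductions of `g'` at `VA`, `VB`, `VC`, the toric
  data of `τ₂ g'` and of `g'` agree at every triple point, for every pair of branches.
-/
import Mathlib
import Fermat.Agent.M59.SinkB.Tor.Ex2Leg
import Fermat.Agent.M59.SinkB.Tor.Ex1TauAbs
import Fermat.Agent.M59.SinkB.Tor.TauGauss2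
import Fermat.Agent.M59.SinkB.Tor.Defs2

set_option autoImplicit false
set_option linter.unusedSectionVars false
set_option linter.unusedVariables false
set_option linter.style.haveILetI false

noncomputable section

namespace Fermat.Agent.M59

open Fermat.Agent.SS Fermat.Agent.JT3 Fermat.Agent.S35 Fermat.Agent.S36 IsLocalRing AlgebraicCurve
  IntermediateField ModularCurve Polynomial
open Fermat.Agent.S24 Fermat.Agent.S44 Fermat.Agent.SS2

local notation "Qb" => AlgebraicClosure ℚ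

universe v

section ChartPt

variable {A0 : Type*} [CommRing A0] {F0 : Type v} [Field F0] [Algebra A0 F0]
variable {B : Subalgebra A0 F0} [IsFractionRing B F0] [IsNoetherianRing B] [IsIntegrallyClosed B]

/-- **`f' = hᵐ f`, `h ≡ 1` at two components: same toric datum between the two branches at a triple
point**, chart form. -/
theorem m59tb2_ratio_of_pow_one (π : A0) {p : ℕ} (V : Fin 3 → ValuationSubring F0)
    (P : Fin 3 → Ideal B)
    (hBV : ∀ i (b : B), (b : F0) ∈ V i)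
    (hP : ∀ i (b : B), b ∈ P i ↔ (b : F0) ∈ (V i).nonunits)
    (hV : ∀ i, ∀ z ∈ V i, ∃ t : B, t ∉ P i ∧ (t : F0) * z ∈ B)
    {N1 N2 : F0 →* F0} {K1 K2 : Subfield F0}
    (𝔫 : Ideal B) [h𝔫 : 𝔫.IsPrime]
    (hpt : s36g_PtTri π p N1 N2 K1 K2 B (P 0) (P 1) (P 2) 𝔫) {m : ℕ}
    {f f' h : F0} (hff' : f' = h ^ m * f) (i j : Fin 3)
    (hi : h - 1 ∈ (V i).nonunits) (hj : h - 1 ∈ (V j).nonunits)
    (c0 : (ssl_locSub F0 𝔫)ˣ)
    (r1 : m59tl_Ratio (𝔫.map (algebraMap B (ssl_locSub F0 𝔫)))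
        ((P i).map (algebraMap B (ssl_locSub F0 𝔫)))
        ((P j).map (algebraMap B (ssl_locSub F0 𝔫))) m f' c0) :
    m59tl_Ratio (𝔫.map (algebraMap B (ssl_locSub F0 𝔫)))
        ((P i).map (algebraMap B (ssl_locSub F0 𝔫)))
        ((P j).map (algebraMap B (ssl_locSub F0 𝔫))) m f c0 := by
  obtain ⟨hufd, a, b, c, ha, hb, hc, hassoc, hab, hac, hbc, hcA, hcB, hcC, -, -, -, -, -, -⟩ := hpt
  -- the links
  have lA : s36g_Link (F := F0) a (V 0) :=
    s36g_link_of_comap 𝔫 (V 0) (P 0) (hBV 0) (hP 0) (hV 0) a ha hcA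
  have lB : s36g_Link (F := F0) b (V 1) :=
    s36g_link_of_comap 𝔫 (V 1) (P 1) (hBV 1) (hP 1) (hV 1) b hb hcB
  have lC : s36g_Link (F := F0) c (V 2) :=
    s36g_link_of_comap 𝔫 (V 2) (P 2) (hBV 2) (hP 2) (hV 2) c hc hcC
  set u : Fin 3 → ssl_locSub F0 𝔫 := ![a, b, c] with hudef
  have hu : ∀ j, Prime (u j) := s36g_forall_fin3 ha hb hc
  have hlink : ∀ j, s36g_Link (F := F0) (u j) (V j) := s36g_forall_fin3 lA lB lC
  have hcomap : ∀ j, (Ideal.span {u j}).comap (algebraMap B (ssl_locSub F0 𝔫)) = P j :=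
    s36g_forall_fin3 hcA hcB hcC
  have hmap : ∀ j, (P j).map (algebraMap B (ssl_locSub F0 𝔫)) = Ideal.span {u j} := by
    intro j
    rw [← hcomap j]
    exact IsLocalization.map_under 𝔫.primeCompl (ssl_locSub F0 𝔫) _
  have hprime : ∀ j, (Ideal.span {u j}).IsPrime := fun j =>
    (Ideal.span_singleton_prime (hu j).ne_zero).2 (hu j)
  rw [hmap i, hmap j] at r1 ⊢
  haveI := hprime i
  haveI := hprime j
  have hm1 : ∀ l, h - 1 ∈ (V l).nonunits →
      s36g_MemM (Ideal.span {u l})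
        (h - algebraMap (ssl_locSub F0 𝔫) F0 (((1 : (ssl_locSub F0 𝔫)ˣ) : ssl_locSub F0 𝔫))) := by
    intro l hl
    rw [Units.val_one, map_one]
    exact (hlink l).memM_iff.2 hl
  have hun : ∀ l, h - 1 ∈ (V l).nonunits → ssl_UnitAt F0 (Ideal.span {u l}) h := by
    intro l hl
    haveI := hprime l
    refine s36g_unitAt_of_memM_sub (Ideal.span {u l}) (a := 1)
      (fun h1 => (hprime l).ne_top ((Ideal.eq_top_iff_one _).2 h1)) ?_
    rw [map_one]
    exact (hlink l).memM_iff.2 hl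
  have hh0 : h ≠ 0 := ssl_unitAt_ne_zero (Ideal.span {u i}) (hun i hi)
  have r2 : m59tl_Ratio (𝔫.map (algebraMap B (ssl_locSub F0 𝔫))) (Ideal.span {u i})
      (Ideal.span {u j}) m (h ^ m)
      ((1 : (ssl_locSub F0 𝔫)ˣ) * (1 : (ssl_locSub F0 𝔫)ˣ)⁻¹) :=
    m59tl_ratio_of_pow _ _ _ (hun i hi) (hun j hj) (hm1 i hi) (hm1 j hj)
  have r3 := m59tl_ratio_div _ _ _ r1 r2
  have e1 : f' / h ^ m = f := by
    rw [hff']
    field_simp
  have e2 : c0 * ((1 : (ssl_locSub F0 𝔫)ˣ) * (1 : (ssl_locSub F0 𝔫)ˣ)⁻¹)⁻¹ = c0 := by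
    rw [inv_one, mul_one, inv_one, mul_one]
  rw [e1, e2] at r3
  exact r3

end ChartPt

section FF

variable {A0 L : Type*} {F0 : Type v} [CommRing A0] [IsDomain A0] [IsDiscreteValuationRing A0]
  [Field L] [Field F0] [Algebra A0 L] [IsFractionRing A0 L] [CharZero L] [Algebra L F0]
  [Algebra A0 F0] [IsScalarTower A0 L F0]

set_option synthInstance.maxHeartbeats 200000 in
set_option maxHeartbeats 1600000 in
/-- **`f' = hᵐ f`, `h ≡ 1` at two components: same toric datum between the two branches at a triple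
point** of the chart `fc_chart A0 {y}` of a function field with a three-component model. -/
theorem m59tb2_ratio_of_pow_one_ff {π : A0} (hπ : Irreducible π) {y : F0}
    (hy : Transcendental L y)
    [FiniteDimensional L⟮y⟯ F0] [IsFractionRing ↥(fc_chart A0 ({y} : Set F0)) F0]
    {p : ℕ} {V : Fin 3 → ValuationSubring F0} {e : Fin 3 → ℕ}
    (H : s36tp_Hyp (algebraMap A0 (Algebra.adjoin A0 ({y} : Set F0)) π) V e)
    {N1 N2 : F0 →* F0} {K1 K2 : Subfield F0}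
    {m : ℕ} {f f' h : F0} (hff' : f' = h ^ m * f) (i j : Fin 3)
    (hi : h - 1 ∈ (V i).nonunits) (hj : h - 1 ∈ (V j).nonunits)
    (𝔫 : Ideal (fc_chart A0 ({y} : Set F0))) (h𝔫 : 𝔫.IsMaximal)
    (hpt : haveI := h𝔫.isPrime
      s36g_PtTri π p N1 N2 K1 K2 (fc_chart A0 ({y} : Set F0))
        (ssm_tp_P (fc_chart A0 ({y} : Set F0)) (V 0)) (ssm_tp_P (fc_chart A0 ({y} : Set F0)) (V 1))
        (ssm_tp_P (fc_chart A0 ({y} : Set F0)) (V 2)) 𝔫) :
    haveI := h𝔫.isPrime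
    ∀ c0 : (ssl_locSub F0 𝔫)ˣ,
      m59tl_Ratio (𝔫.map (algebraMap (fc_chart A0 ({y} : Set F0)) (ssl_locSub F0 𝔫)))
        ((ssm_tp_P (fc_chart A0 ({y} : Set F0)) (V i)).map
          (algebraMap (fc_chart A0 ({y} : Set F0)) (ssl_locSub F0 𝔫)))
        ((ssm_tp_P (fc_chart A0 ({y} : Set F0)) (V j)).map
          (algebraMap (fc_chart A0 ({y} : Set F0)) (ssl_locSub F0 𝔫))) m f' c0 →
      m59tl_Ratio (𝔫.map (algebraMap (fc_chart A0 ({y} : Set F0)) (ssl_locSub F0 𝔫)))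
        ((ssm_tp_P (fc_chart A0 ({y} : Set F0)) (V i)).map
          (algebraMap (fc_chart A0 ({y} : Set F0)) (ssl_locSub F0 𝔫)))
        ((ssm_tp_P (fc_chart A0 ({y} : Set F0)) (V j)).map
          (algebraMap (fc_chart A0 ({y} : Set F0)) (ssl_locSub F0 𝔫))) m f c0 := by
  haveI h𝔫p : 𝔫.IsPrime := h𝔫.isPrime
  haveI hno := ssm_ths_chart_isNoetherianRing (A0 := A0) (L := L) hy
  haveI hic := ssm_ths_chart_isIntegrallyClosed (A0 := A0) (L := L) y
  have hyA : Transcendental A0 y := fc_ff_transcendental (L := L) hy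
  haveI : IsIntegrallyClosed (Algebra.adjoin A0 ({y} : Set F0)) := fc_ff_isIntegrallyClosed hyA
  haveI : FaithfulSMul (Algebra.adjoin A0 ({y} : Set F0)) F0 :=
    (faithfulSMul_iff_algebraMap_injective _ _).2 Subtype.val_injective
  have hC : ssm_tp_Chart (algebraMap A0 (Algebra.adjoin A0 ({y} : Set F0)) π)
      (fc_chart A0 ({y} : Set F0)) := ssm_tp_ff_chart (L := L) hπ hy
  set P : Fin 3 → Ideal (fc_chart A0 ({y} : Set F0)) :=
    fun i => ssm_tp_P (fc_chart A0 ({y} : Set F0)) (V i) with hPdef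
  have hBV : ∀ i (b : fc_chart A0 ({y} : Set F0)), (b : F0) ∈ V i :=
    fun i b => H.chart_le hC i b.2
  have hP : ∀ i (b : fc_chart A0 ({y} : Set F0)), b ∈ P i ↔ (b : F0) ∈ (V i).nonunits :=
    fun i b => H.mem_P hC i
  have hV : ∀ i, ∀ z ∈ V i, ∃ t : fc_chart A0 ({y} : Set F0), t ∉ P i ∧
      (t : F0) * z ∈ fc_chart A0 ({y} : Set F0) := fun i z hz => (H.mem_V_iff hC i).1 hz
  intro c0 r1
  exact m59tb2_ratio_of_pow_one π V P hBV hP hV 𝔫 hpt hff' i j hi hj c0 r1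

end FF

section Leg

variable (L : Type) [Field L] [NumberField L] [Algebra L (AlgebraicClosure ℚ)]
  (O : ValuationSubring L) [IsDiscreteValuationRing O]
variable (N' q : ℕ) [NeZero N'] [NeZero q] [hq : Fact q.Prime] [CharP (ResidueField O) q]
  (hq2 : ¬ 2 ∣ q) (hqN' : ¬ q ∣ N') (hπ : Irreducible ((q : ℕ) : ↥O))
  (ζ : L) (hζ : IsPrimitiveRoot ζ N')

include hζ in
set_option synthInstance.maxHeartbeats 400000 in
set_option maxHeartbeats 3200000 in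
/-- **[TAU-BACK2]**: for a normal form `y = k · Rᵖ · g'` at level `N' q q` with `τ₂ y = y` and
constant reductions of `g'` at `VA`, `VB`, `VC`, the toric data of `τ₂ g'` and of `g'` agree at
every triple point, for every pair of branches. -/
theorem m59tb2_leg_tau_back {VC : ValuationSubring ↥(lg_E L (N' * q * q))}
    (T3 : s36asm_Third O hπ N' q hq2 hqN' VC) (h2 : (2 : L) ≠ 0) {p : ℕ} (hp : p.Prime)
    (hp2 : p ≠ 2) (hpO : IsUnit ((p : ℕ) : ↥O)) {ζp : L} (hζp : IsPrimitiveRoot ζp p)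
    {y R g' : ↥(lg_E L (N' * q * q))} {k : L} (hk0 : k ≠ 0) (hR0 : R ≠ 0)
    (hfix : m59tt_tau L (N' * q * q) h2 y = y)
    (hy : y = algebraMap L ↥(lg_E L (N' * q * q)) k * R ^ p * g')
    (kk : Fin 3 → (↥O)ˣ)
    (hfk : ∀ j, g' - algebraMap L ↥(lg_E L (N' * q * q)) (((kk j : (↥O)ˣ) : ↥O) : L) ∈
      ((![s36i_VA O hπ (N' * q) q, s36i_VB O hπ N' q hq2 hqN', VC] :
        Fin 3 → ValuationSubring ↥(lg_E L (N' * q * q))) j).nonunits)
    (𝔫 : Ideal (fc_chart ↥O ({lg_lamE (N' * q * q)} : Set ↥(lg_E L (N' * q * q)))))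
    (h𝔫 : 𝔫.IsMaximal)
    (hπ𝔫 : algebraMap ↥O (fc_chart ↥O ({lg_lamE (N' * q * q)} : Set ↥(lg_E L (N' * q * q))))
      ((q : ℕ) : ↥O) ∈ 𝔫)
    (htwo : (ssm_tp_P (fc_chart ↥O ({lg_lamE (N' * q * q)} : Set ↥(lg_E L (N' * q * q))))
          (s36i_VA O hπ (N' * q) q) ≤ 𝔫 ∧
        ssm_tp_P (fc_chart ↥O ({lg_lamE (N' * q * q)} : Set ↥(lg_E L (N' * q * q))))
          (s36i_VB O hπ N' q hq2 hqN') ≤ 𝔫) ∨
      (ssm_tp_P (fc_chart ↥O ({lg_lamE (N' * q * q)} : Set ↥(lg_E L (N' * q * q))))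
          (s36i_VA O hπ (N' * q) q) ≤ 𝔫 ∧
        ssm_tp_P (fc_chart ↥O ({lg_lamE (N' * q * q)} : Set ↥(lg_E L (N' * q * q)))) VC ≤ 𝔫) ∨
      (ssm_tp_P (fc_chart ↥O ({lg_lamE (N' * q * q)} : Set ↥(lg_E L (N' * q * q))))
          (s36i_VB O hπ N' q hq2 hqN') ≤ 𝔫 ∧
        ssm_tp_P (fc_chart ↥O ({lg_lamE (N' * q * q)} : Set ↥(lg_E L (N' * q * q)))) VC ≤ 𝔫))
    (i j : Fin 3) :
    haveI := s36cp_chart_isFractionRing O (N' * q * q)
    haveI := h𝔫.isPrime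
    ∀ c0 : (ssl_locSub ↥(lg_E L (N' * q * q)) 𝔫)ˣ,
      m59tl_Ratio
        (𝔫.map (algebraMap (fc_chart ↥O ({lg_lamE (N' * q * q)} : Set ↥(lg_E L (N' * q * q))))
          (ssl_locSub ↥(lg_E L (N' * q * q)) 𝔫)))
        ((ssm_tp_P (fc_chart ↥O ({lg_lamE (N' * q * q)} : Set ↥(lg_E L (N' * q * q))))
          ((![s36i_VA O hπ (N' * q) q, s36i_VB O hπ N' q hq2 hqN', VC] :
            Fin 3 → ValuationSubring ↥(lg_E L (N' * q * q))) i)).map
          (algebraMap (fc_chart ↥O ({lg_lamE (N' * q * q)} : Set ↥(lg_E L (N' * q * q))))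
            (ssl_locSub ↥(lg_E L (N' * q * q)) 𝔫)))
        ((ssm_tp_P (fc_chart ↥O ({lg_lamE (N' * q * q)} : Set ↥(lg_E L (N' * q * q))))
          ((![s36i_VA O hπ (N' * q) q, s36i_VB O hπ N' q hq2 hqN', VC] :
            Fin 3 → ValuationSubring ↥(lg_E L (N' * q * q))) j)).map
          (algebraMap (fc_chart ↥O ({lg_lamE (N' * q * q)} : Set ↥(lg_E L (N' * q * q))))
            (ssl_locSub ↥(lg_E L (N' * q * q)) 𝔫))) p
        (m59tt_tau L (N' * q * q) h2 g') c0 →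
      m59tl_Ratio
        (𝔫.map (algebraMap (fc_chart ↥O ({lg_lamE (N' * q * q)} : Set ↥(lg_E L (N' * q * q))))
          (ssl_locSub ↥(lg_E L (N' * q * q)) 𝔫)))
        ((ssm_tp_P (fc_chart ↥O ({lg_lamE (N' * q * q)} : Set ↥(lg_E L (N' * q * q))))
          ((![s36i_VA O hπ (N' * q) q, s36i_VB O hπ N' q hq2 hqN', VC] :
            Fin 3 → ValuationSubring ↥(lg_E L (N' * q * q))) i)).map
          (algebraMap (fc_chart ↥O ({lg_lamE (N' * q * q)} : Set ↥(lg_E L (N' * q * q))))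
            (ssl_locSub ↥(lg_E L (N' * q * q)) 𝔫)))
        ((ssm_tp_P (fc_chart ↥O ({lg_lamE (N' * q * q)} : Set ↥(lg_E L (N' * q * q))))
          ((![s36i_VA O hπ (N' * q) q, s36i_VB O hπ N' q hq2 hqN', VC] :
            Fin 3 → ValuationSubring ↥(lg_E L (N' * q * q))) j)).map
          (algebraMap (fc_chart ↥O ({lg_lamE (N' * q * q)} : Set ↥(lg_E L (N' * q * q))))
            (ssl_locSub ↥(lg_E L (N' * q * q)) 𝔫))) p g' c0 := by
  have hqO : ((q : ℕ) : O) ∈ maximalIdeal O := ssm_fln_q_mem L O q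
  have hq2' : q ≠ 2 := ssm_fl_ne_two q hq2
  have hpr := ssm_ll_prime L N' hπ q hqO hq2' hqN' ζ hζ
  obtain ⟨-, H3, -⟩ := s36asm_all_of_third O hπ N' q hq2 hqN' hpr.1 T3
  have hT1 := s36asm_ptsT1_leg L O N' q hq2 hqN' hπ ζ hζ T3 𝔫 h𝔫 hπ𝔫 htwo
  haveI := ssm_go_isScalarTower O (lg_E L (N' * q * q))
  haveI : FiniteDimensional L⟮(lg_lamE (N' * q * q) : lg_E L (N' * q * q))⟯
      ↥(lg_E L (N' * q * q)) := lgf_finite L (N' * q * q)
  have hx : Transcendental L (lg_lamE (L := L) (N' * q * q)) :=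
    lgf_lam_transcendental L (N' * q * q) two_ne_zero
  haveI := s36cp_chart_isFractionRing O (N' * q * q)
  have hxA : Transcendental ↥O (lg_lamE (L := L) (N' * q * q)) :=
    fc_ff_transcendental (L := L) hx
  haveI : IsIntegrallyClosed (Algebra.adjoin ↥O
      ({lg_lamE (N' * q * q)} : Set ↥(lg_E L (N' * q * q)))) := fc_ff_isIntegrallyClosed hxA
  haveI : FaithfulSMul (Algebra.adjoin ↥O
      ({lg_lamE (N' * q * q)} : Set ↥(lg_E L (N' * q * q)))) ↥(lg_E L (N' * q * q)) :=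
    (faithfulSMul_iff_algebraMap_injective _ _).2 Subtype.val_injective
  have hC1 := ssm_tp_ff_chart (L := L) (A0 := ↥O) (F0 := ↥(lg_E L (N' * q * q))) hπ hx
  -- constants lie in the valuation rings
  have hcst : ∀ (l : Fin 3) (a : ↥O), algebraMap ↥O ↥(lg_E L (N' * q * q)) a ∈
      (![s36i_VA O hπ (N' * q) q, s36i_VB O hπ N' q hq2 hqN', VC] :
        Fin 3 → ValuationSubring ↥(lg_E L (N' * q * q))) l := fun l a =>
    H3.chart_le hC1 l (Subalgebra.algebraMap_mem _ a)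
  have hcoe : ∀ a : ↥O, algebraMap L ↥(lg_E L (N' * q * q)) (a : L) =
      algebraMap ↥O ↥(lg_E L (N' * q * q)) a := fun a =>
    (IsScalarTower.algebraMap_apply ↥O L ↥(lg_E L (N' * q * q)) a).symm
  -- the involution
  set τ : ↥(lg_E L (N' * q * q)) ≃+* ↥(lg_E L (N' * q * q)) :=
    (m59tt_tau L (N' * q * q) h2).toRingEquiv with hτ
  have hτapp : ∀ z, τ z = m59tt_tau L (N' * q * q) h2 z := fun z => rfl
  have hτ2 : ∀ z, τ (τ z) = z := fun z => m59tt_tau_tau h2 z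
  have hτC : ∀ a : L, τ (algebraMap L ↥(lg_E L (N' * q * q)) a) =
      algebraMap L ↥(lg_E L (N' * q * q)) a :=
    fun a => (m59tt_tau L (N' * q * q) h2).commutes a
  have hτV : ∀ (l : Fin 3) (z : ↥(lg_E L (N' * q * q))),
      τ z ∈ (![s36i_VA O hπ (N' * q) q, s36i_VB O hπ N' q hq2 hqN', VC] :
        Fin 3 → ValuationSubring ↥(lg_E L (N' * q * q))) l ↔
      z ∈ (![s36i_VA O hπ (N' * q) q, s36i_VB O hπ N' q hq2 hqN', VC] :
        Fin 3 → ValuationSubring ↥(lg_E L (N' * q * q))) l := by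
    intro l z
    fin_cases l
    · exact m59tv2_tau_mem_VA O hπ N' q h2 z
    · exact m59tv2_tau_mem_VB O hπ N' q hq2 hqN' h2 z
    · exact m59tv2_tau_mem_VC O hπ N' q hq2 hqN' h2 T3 z
  -- the relation `τ g' = (R / τ R) ^ p * g'`
  have hτR0 : τ R ≠ 0 := fun h0 => hR0 ((EmbeddingLike.map_eq_zero_iff).1 h0)
  have hcE : algebraMap L ↥(lg_E L (N' * q * q)) k ≠ 0 := by
    rw [Ne, map_eq_zero]
    exact hk0
  have hrel : τ g' = (R / τ R) ^ p * g' := by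
    have h1 := congrArg τ hy
    rw [hτapp y, hfix, map_mul, map_mul, map_pow, hτC, hy] at h1
    have h3 : R ^ p * g' = τ R ^ p * τ g' := mul_left_cancel₀ hcE (by
      rw [← mul_assoc, ← mul_assoc]; exact h1)
    rw [div_pow, div_mul_eq_mul_div, eq_div_iff (pow_ne_zero p hτR0), mul_comm (τ g') (τ R ^ p)]
    exact h3.symm
  -- roots of unity and `p`
  have hζE : IsPrimitiveRoot (algebraMap L ↥(lg_E L (N' * q * q)) ζp) p :=
    hζp.map_of_injective (algebraMap L ↥(lg_E L (N' * q * q))).injective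
  obtain ⟨up, hup⟩ := hpO
  have hpcoe : ((p : ℕ) : ↥(lg_E L (N' * q * q))) =
      algebraMap ↥O ↥(lg_E L (N' * q * q)) (up : ↥O) := by
    rw [hup, map_natCast]
  have hunit : ∀ (V : ValuationSubring ↥(lg_E L (N' * q * q))),
      (∀ a : ↥O, algebraMap ↥O ↥(lg_E L (N' * q * q)) a ∈ V) → ∀ u : (↥O)ˣ,
      algebraMap ↥O ↥(lg_E L (N' * q * q)) (u : ↥O) ≠ 0 ∧
        (algebraMap ↥O ↥(lg_E L (N' * q * q)) (u : ↥O))⁻¹ ∈ V ∧
        algebraMap ↥O ↥(lg_E L (N' * q * q)) (u : ↥O) ∉ V.nonunits := by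
    intro V hV u
    have h1 : algebraMap ↥O ↥(lg_E L (N' * q * q)) (u : ↥O) *
        algebraMap ↥O ↥(lg_E L (N' * q * q)) ((u⁻¹ : (↥O)ˣ) : ↥O) = 1 := by
      rw [← map_mul, ← Units.val_mul, mul_inv_cancel, Units.val_one, map_one]
    have h0 : algebraMap ↥O ↥(lg_E L (N' * q * q)) (u : ↥O) ≠ 0 := left_ne_zero_of_mul_eq_one h1
    have hinv : (algebraMap ↥O ↥(lg_E L (N' * q * q)) (u : ↥O))⁻¹ =
        algebraMap ↥O ↥(lg_E L (N' * q * q)) ((u⁻¹ : (↥O)ˣ) : ↥O) :=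
      (eq_inv_of_mul_eq_one_right h1).symm
    refine ⟨h0, hinv ▸ hV _, ?_⟩
    rw [ValuationSubring.mem_nonunits_iff_or]
    push Not
    exact ⟨h0, hinv ▸ hV _⟩
  -- `h ≡ 1` at the three components
  have hh : ∀ l : Fin 3, R / τ R - 1 ∈
      ((![s36i_VA O hπ (N' * q) q, s36i_VB O hπ N' q hq2 hqN', VC] :
        Fin 3 → ValuationSubring ↥(lg_E L (N' * q * q))) l).nonunits := by
    intro l
    obtain ⟨a0, a1, a2⟩ := hunit _ (hcst l) (kk l)
    refine m59tx_quot_congr_one _ τ (hτV l) hτ2 hp hp2 hζE (hτC ζp)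
      (hpcoe ▸ (hunit _ (hcst l) up).2.2)
      (k := algebraMap ↥O ↥(lg_E L (N' * q * q)) (kk l : ↥O)) a0 a1 ?_ ?_ hR0 hrel
    · rw [← hcoe]
      exact hτC _
    · rw [← hcoe]
      exact hfk l
  exact m59tb2_ratio_of_pow_one_ff (L := L) hπ hx H3 hrel i j (hh i) (hh j) 𝔫 h𝔫 hT1

end Leg

section T2

variable (A : ValuationSubring Qb) {q : ℕ} [hq : Fact q.Prime] (hA : A.LiesOverPrime q)
  (N' : ℕ) [NeZero N'] [NeZero q] [NeZero (N' * q)] [NeZero (N' * q * q)]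
  (hq2 : ¬ 2 ∣ q) (hqN' : ¬ q ∣ N')
  (L : IntermediateField ℚ Qb) [NumberField ↥L]
  [IsDiscreteValuationRing ↥(A.comap (algebraMap ↥L Qb))]
  [CharP (ResidueField ↥(A.comap (algebraMap ↥L Qb))) q]
  (hπq : Irreducible ((q : ℕ) : ↥(A.comap (algebraMap ↥L Qb))))
  (ζ : ↥L) (hζ : IsPrimitiveRoot ζ N')

/-- `ι g1` is fixed by the deck involution `τ` (it is a series in `X²`). -/
theorem m59tb2_tau_iota (M : ℕ) [NeZero M] (K : Type*) [Field K] [CharZero K]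
    [Algebra K (AlgebraicClosure ℚ)] (h2 : (2 : K) ≠ 0)
    (g1 : laurentBaseChange K (modularFunctionFieldFull M)) :
    m59tt_tau K M h2 (ss2_dp_iota K M g1) = ss2_dp_iota K M g1 :=
  Subtype.ext (m59tt_tau0_expand_two K (g1 : LaurentSeries K))

include hζ in
set_option synthInstance.maxHeartbeats 400000 in
set_option maxHeartbeats 3200000 in
/-- **[TAU-BACK2] in the vocabulary of Defs2**: for `g'` of a normal form `m59t2_NF`, the
`(C, B)`- and `(A, C)`-toric data of `τ₂ g'` at a triple point are toric data of `g'`. -/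
theorem m59tb2_ratio_tau_back (h2 : (2 : ↥L) ≠ 0) {p : ℕ} (hp : p.Prime) (hp2 : p ≠ 2)
    (hpO : IsUnit ((p : ℕ) : ↥(A.comap (algebraMap ↥L Qb)))) {ζp : ↥L}
    (hζp : IsPrimitiveRoot ζp p)
    {z : JZero (N' * q * q)} {f : modularFunctionFieldBar (N' * q * q)}
    {g1 : laurentBaseChange L (modularFunctionFieldFull (N' * q * q))} {c₀ : Qb}
    {r₀ : modularFunctionFieldBar (N' * q * q)} {k : ↥L} {R g' : ↥(lg_E ↥L (N' * q * q))}
    (hNF : m59t2_NF A N' hq2 hqN' L hπq p z f g1 c₀ r₀ k R g')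
    {VC : ValuationSubring ↥(lg_E ↥L (N' * q * q))}
    (T3 : s36asm_Third (A.comap (algebraMap ↥L Qb)) hπq N' q hq2 hqN' VC)
    (𝔫 : Ideal ↥(m59t2_B2 A N' q L)) (h𝔫 : 𝔫.IsMaximal)
    (hPA : m59t2_PA A N' L hπq ≤ 𝔫) (hPB : m59t2_PB A N' hq2 hqN' L hπq ≤ 𝔫)
    (hPC : m59t2_PC A N' L VC ≤ 𝔫) (ε : (↥(A.comap (algebraMap ↥L Qb)))ˣ) :
    (m59t2_RatioCB A N' hq2 hqN' L hπq VC p 𝔫 h𝔫.isPrime
        (m59tt_tau ↥L (N' * q * q) h2 g') ε →
      m59t2_RatioCB A N' hq2 hqN' L hπq VC p 𝔫 h𝔫.isPrime g' ε) ∧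
    (m59t2_RatioAC A N' L hπq VC p 𝔫 h𝔫.isPrime (m59tt_tau ↥L (N' * q * q) h2 g') ε →
      m59t2_RatioAC A N' L hπq VC p 𝔫 h𝔫.isPrime g' ε) := by
  obtain ⟨hg1, hc₀, hr₀, hrep, hf, hk, hR, hg', hι, hord, hred⟩ := hNF
  obtain ⟨kA, kB, kC, hkA, hkB, hkC, hfA, hfB, hfC⟩ := hred VC T3
  have hqO : ((q : ℕ) : ↥(A.comap (algebraMap ↥L Qb))) ∈
      maximalIdeal ↥(A.comap (algebraMap ↥L Qb)) :=
    ssm_fln_q_mem ↥L (A.comap (algebraMap ↥L Qb)) q
  have hq2' : q ≠ 2 := ssm_fl_ne_two q hq2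
  have hpr := ssm_ll_prime ↥L N' hπq q hqO hq2' hqN' ζ hζ
  obtain ⟨-, H3, -⟩ := s36asm_all_of_third (A.comap (algebraMap ↥L Qb)) hπq N' q hq2 hqN' hpr.1 T3
  haveI := ssm_go_isScalarTower (A.comap (algebraMap ↥L Qb)) (lg_E ↥L (N' * q * q))
  haveI : FiniteDimensional (↥L)⟮(lg_lamE (N' * q * q) : lg_E ↥L (N' * q * q))⟯
      ↥(lg_E ↥L (N' * q * q)) := lgf_finite ↥L (N' * q * q)
  have hx : Transcendental ↥L (lg_lamE (L := ↥L) (N' * q * q)) :=
    lgf_lam_transcendental ↥L (N' * q * q) two_ne_zero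
  have hxA : Transcendental ↥(A.comap (algebraMap ↥L Qb)) (lg_lamE (L := ↥L) (N' * q * q)) :=
    fc_ff_transcendental (L := ↥L) hx
  haveI : IsIntegrallyClosed (Algebra.adjoin ↥(A.comap (algebraMap ↥L Qb))
      ({lg_lamE (N' * q * q)} : Set ↥(lg_E ↥L (N' * q * q)))) := fc_ff_isIntegrallyClosed hxA
  haveI : FaithfulSMul (Algebra.adjoin ↥(A.comap (algebraMap ↥L Qb))
      ({lg_lamE (N' * q * q)} : Set ↥(lg_E ↥L (N' * q * q)))) ↥(lg_E ↥L (N' * q * q)) :=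
    (faithfulSMul_iff_algebraMap_injective _ _).2 Subtype.val_injective
  have hC := ssm_tp_ff_chart (L := ↥L) (A0 := ↥(A.comap (algebraMap ↥L Qb)))
    (F0 := ↥(lg_E ↥L (N' * q * q))) hπq hx
  have hπ𝔫 : algebraMap ↥(A.comap (algebraMap ↥L Qb)) ↥(m59t2_B2 A N' q L)
      ((q : ℕ) : ↥(A.comap (algebraMap ↥L Qb))) ∈ 𝔫 :=
    hPA (H3.pi_mem_P hC _ rfl (0 : Fin 3))
  have hfk : ∀ j, g' - algebraMap ↥L ↥(lg_E ↥L (N' * q * q))
      ((((![hkA.unit, hkB.unit, hkC.unit] : Fin 3 → (↥(A.comap (algebraMap ↥L Qb)))ˣ) j :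
        (↥(A.comap (algebraMap ↥L Qb)))ˣ) : ↥(A.comap (algebraMap ↥L Qb))) : ↥L) ∈
      ((![s36i_VA (A.comap (algebraMap ↥L Qb)) hπq (N' * q) q,
          s36i_VB (A.comap (algebraMap ↥L Qb)) hπq N' q hq2 hqN', VC] :
        Fin 3 → ValuationSubring ↥(lg_E ↥L (N' * q * q))) j).nonunits := by
    intro j
    fin_cases j
    · exact hfA
    · exact hfB
    · exact hfC
  have key := fun i j => m59tb2_leg_tau_back ↥L (A.comap (algebraMap ↥L Qb)) N' q hq2 hqN' hπq ζ hζ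
    T3 h2 hp hp2 hpO hζp hk hR (m59tb2_tau_iota (N' * q * q) ↥L h2 g1) hι
    ![hkA.unit, hkB.unit, hkC.unit] hfk 𝔫 h𝔫 hπ𝔫 (Or.inl ⟨hPA, hPB⟩) i j
  refine ⟨fun h => ?_, fun h => ?_⟩
  · exact key 2 1 _ h
  · exact key 0 2 _ h

end T2

end Fermat.Agent.M59
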