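/-
M59 / Sink B, leaf 4 [TOR-SURJ], LEVEL `N' q q`, cell [TAU-INV2] (helper24; prefix `m59tt_`).

`E2 = lg_E L (N' q q)`, `B2 = fc_chart O {λ}`, `VA, VB, VC` the three vertical valuations (`VC` with
`s36asm_Third`), `τ₂ = m59tt_tau L (N' q q)` the deck involution of `E2 / φ(F2)`.

* `m59tt_tau_back2` : STEP (6) AT LEVEL `N' q q`.  For a normal form `φ x0 = c · R ^ p · g'`, `g'` with
  unit constant reductions at `VA, VB, VC`, `p` odd, `ζ_p ∈ L`: at every point `𝔫 ⊇ P_i + P_j` of `B2`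
  the toric datum of `g'` between the branches `P_i`, `P_j` is the one of `τ₂ g'`
  (`g' = h ^ p · τ₂ g'`, `h = τ₂ R / R ≡ 1` at `VA, VB, VC`: `m59tt_h_one`).
* `m59tt_tauInv2_val_CB`, `m59tt_tauInv2_val_AC` : [TAU-INV2] in valuation form: `𝔫, 𝔫'` the centres on
  `B2` of two `τ₂`-conjugate valuation rings: `RatioCB 𝔫 g' ε → RatioCB 𝔫' g' ε` (same for `RatioAC`).
-/
import Mathlib
import Fermat.Agent.M59.SinkB.Tor.TauInv
import Fermat.Agent.M59.SinkB.Tor.GlueRatio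
import Fermat.Agent.M59.SinkB.Tor.TauGauss2
import Fermat.Agent.M59.SinkB.Tor.Defs2
import Fermat.Agent.M59.Mazur.Val.RatioConjLeg2

set_option autoImplicit false
set_option linter.unusedSectionVars false
set_option linter.unusedVariables false
set_option linter.style.haveILetI false
set_option synthInstance.maxHeartbeats 400000
set_option maxHeartbeats 3200000

noncomputable section

namespace Fermat.Agent.M59

open Polynomial ModularCurve AlgebraicCurve IntermediateField IsLocalRing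
open Fermat.Agent.JT3 Fermat.Agent.SS Fermat.Agent.S35 Fermat.Agent.S24 Fermat.Agent.S44
  Fermat.Agent.S36 Fermat.Agent.SS2

local notation "Qb" => AlgebraicClosure ℚ

section Back2

variable (L : Type) [Field L] [NumberField L] [Algebra L (AlgebraicClosure ℚ)]
  (O : ValuationSubring L) [IsDiscreteValuationRing O]
variable (N' q : ℕ) [NeZero N'] [NeZero q] [hq : Fact q.Prime] [CharP (ResidueField O) q]
  (hq2 : ¬ 2 ∣ q) (hqN' : ¬ q ∣ N') (hπ : Irreducible ((q : ℕ) : ↥O))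
  (ζ : L) (hζ : IsPrimitiveRoot ζ N')

include hζ in
set_option maxHeartbeats 6400000 in
/-- **step (6) at level `N' q q`**: the toric datum of `g'` between two branches at a point is the one
of `τ₂ g'`. -/
theorem m59tt_tau_back2 {VC : ValuationSubring ↥(lg_E L (N' * q * q))}
    (T3 : s36asm_Third O hπ N' q hq2 hqN' VC) (h2 : (2 : L) ≠ 0)
    {p : ℕ} (hp : Odd p) (ζp : L) (hζp : IsPrimitiveRoot ζp p)
    {y : ↥(lg_E L (N' * q * q))} {c : L} {R g' : ↥(lg_E L (N' * q * q))}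
    (hc : c ≠ 0) (hR : R ≠ 0) (hg : g' ≠ 0)
    (hfix : m59tt_tau L (N' * q * q) h2 y = y)
    (heq : y = algebraMap L ↥(lg_E L (N' * q * q)) c * R ^ p * g')
    (k : Fin 3 → ↥O) (hk : ∀ i, IsUnit (k i))
    (hgk : ∀ i, g' - algebraMap L ↥(lg_E L (N' * q * q)) ((k i : ↥O) : L) ∈
      ((![s36i_VA O hπ (N' * q) q, s36i_VB O hπ N' q hq2 hqN', VC] :
        Fin 3 → ValuationSubring ↥(lg_E L (N' * q * q))) i).nonunits)
    (i j : Fin 3)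
    (𝔫 : Ideal ↥(fc_chart ↥O ({lg_lamE (N' * q * q)} : Set ↥(lg_E L (N' * q * q)))))
    (h𝔫 : 𝔫.IsPrime)
    (hi : ssm_tp_P (fc_chart ↥O ({lg_lamE (N' * q * q)} : Set ↥(lg_E L (N' * q * q))))
      ((![s36i_VA O hπ (N' * q) q, s36i_VB O hπ N' q hq2 hqN', VC] :
        Fin 3 → ValuationSubring ↥(lg_E L (N' * q * q))) i) ≤ 𝔫)
    (hj : ssm_tp_P (fc_chart ↥O ({lg_lamE (N' * q * q)} : Set ↥(lg_E L (N' * q * q))))
      ((![s36i_VA O hπ (N' * q) q, s36i_VB O hπ N' q hq2 hqN', VC] :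
        Fin 3 → ValuationSubring ↥(lg_E L (N' * q * q))) j) ≤ 𝔫) :
    haveI := s36cp_chart_isFractionRing O (L := L) (N' * q * q)
    haveI := h𝔫
    ∀ c0 : (ssl_locSub ↥(lg_E L (N' * q * q)) 𝔫)ˣ,
      m59tl_Ratio
        (𝔫.map (algebraMap ↥(fc_chart ↥O ({lg_lamE (N' * q * q)} : Set ↥(lg_E L (N' * q * q))))
          ↥(ssl_locSub ↥(lg_E L (N' * q * q)) 𝔫)))
        ((ssm_tp_P (fc_chart ↥O ({lg_lamE (N' * q * q)} : Set ↥(lg_E L (N' * q * q))))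
          ((![s36i_VA O hπ (N' * q) q, s36i_VB O hπ N' q hq2 hqN', VC] :
            Fin 3 → ValuationSubring ↥(lg_E L (N' * q * q))) i)).map
          (algebraMap ↥(fc_chart ↥O ({lg_lamE (N' * q * q)} : Set ↥(lg_E L (N' * q * q))))
            ↥(ssl_locSub ↥(lg_E L (N' * q * q)) 𝔫)))
        ((ssm_tp_P (fc_chart ↥O ({lg_lamE (N' * q * q)} : Set ↥(lg_E L (N' * q * q))))
          ((![s36i_VA O hπ (N' * q) q, s36i_VB O hπ N' q hq2 hqN', VC] :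
            Fin 3 → ValuationSubring ↥(lg_E L (N' * q * q))) j)).map
          (algebraMap ↥(fc_chart ↥O ({lg_lamE (N' * q * q)} : Set ↥(lg_E L (N' * q * q))))
            ↥(ssl_locSub ↥(lg_E L (N' * q * q)) 𝔫)))
        p (m59tt_tau L (N' * q * q) h2 g') c0 →
      m59tl_Ratio
        (𝔫.map (algebraMap ↥(fc_chart ↥O ({lg_lamE (N' * q * q)} : Set ↥(lg_E L (N' * q * q))))
          ↥(ssl_locSub ↥(lg_E L (N' * q * q)) 𝔫)))
        ((ssm_tp_P (fc_chart ↥O ({lg_lamE (N' * q * q)} : Set ↥(lg_E L (N' * q * q))))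
          ((![s36i_VA O hπ (N' * q) q, s36i_VB O hπ N' q hq2 hqN', VC] :
            Fin 3 → ValuationSubring ↥(lg_E L (N' * q * q))) i)).map
          (algebraMap ↥(fc_chart ↥O ({lg_lamE (N' * q * q)} : Set ↥(lg_E L (N' * q * q))))
            ↥(ssl_locSub ↥(lg_E L (N' * q * q)) 𝔫)))
        ((ssm_tp_P (fc_chart ↥O ({lg_lamE (N' * q * q)} : Set ↥(lg_E L (N' * q * q))))
          ((![s36i_VA O hπ (N' * q) q, s36i_VB O hπ N' q hq2 hqN', VC] :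
            Fin 3 → ValuationSubring ↥(lg_E L (N' * q * q))) j)).map
          (algebraMap ↥(fc_chart ↥O ({lg_lamE (N' * q * q)} : Set ↥(lg_E L (N' * q * q))))
            ↥(ssl_locSub ↥(lg_E L (N' * q * q)) 𝔫)))
        p g' c0 := by
  obtain ⟨H, -⟩ := m59ti_pts_leg L O N' q hq2 hqN' hπ ζ hζ T3
  haveI := ssm_go_isScalarTower O (lg_E L (N' * q * q))
  haveI : FiniteDimensional L⟮(lg_lamE (N' * q * q) : lg_E L (N' * q * q))⟯
      ↥(lg_E L (N' * q * q)) := lgf_finite L (N' * q * q)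
  haveI := s36cp_chart_isFractionRing O (L := L) (N' * q * q)
  have hx : Transcendental L (lg_lamE (L := L) (N' * q * q)) :=
    lgf_lam_transcendental L (N' * q * q) two_ne_zero
  have hxA : Transcendental ↥O (lg_lamE (L := L) (N' * q * q)) :=
    fc_ff_transcendental (L := L) hx
  haveI : IsIntegrallyClosed (Algebra.adjoin ↥O
      ({lg_lamE (N' * q * q)} : Set ↥(lg_E L (N' * q * q)))) := fc_ff_isIntegrallyClosed hxA
  haveI : FaithfulSMul (Algebra.adjoin ↥O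
      ({lg_lamE (N' * q * q)} : Set ↥(lg_E L (N' * q * q)))) ↥(lg_E L (N' * q * q)) :=
    (faithfulSMul_iff_algebraMap_injective _ _).2 Subtype.val_injective
  have hC : ssm_tp_Chart (algebraMap ↥O (Algebra.adjoin ↥O
      ({lg_lamE (N' * q * q)} : Set ↥(lg_E L (N' * q * q)))) ((q : ℕ) : ↥O))
      (fc_chart ↥O ({lg_lamE (N' * q * q)} : Set ↥(lg_E L (N' * q * q)))) :=
    ssm_tp_ff_chart (L := L) hπ hx
  haveI := h𝔫
  haveI := H.P_isPrime hC i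
  haveI := H.P_isPrime hC j
  -- the involution
  set τr : ↥(lg_E L (N' * q * q)) ≃+* ↥(lg_E L (N' * q * q)) :=
    (m59tt_tau L (N' * q * q) h2).toRingEquiv with hτr
  have hττ : ∀ x : ↥(lg_E L (N' * q * q)), τr (τr x) = x := fun x =>
    m59tt_tau_tau (L := L) (N := N' * q * q) h2 x
  have hτL : ∀ a : L, τr (algebraMap L ↥(lg_E L (N' * q * q)) a) =
      algebraMap L ↥(lg_E L (N' * q * q)) a := fun a =>
    (m59tt_tau L (N' * q * q) h2).commutes a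
  -- the three valuation rings are `τ₂`-stable
  have hτV : ∀ (l : Fin 3) (x : ↥(lg_E L (N' * q * q))),
      x ∈ (![s36i_VA O hπ (N' * q) q, s36i_VB O hπ N' q hq2 hqN', VC] :
        Fin 3 → ValuationSubring ↥(lg_E L (N' * q * q))) l ↔
      τr x ∈ (![s36i_VA O hπ (N' * q) q, s36i_VB O hπ N' q hq2 hqN', VC] :
        Fin 3 → ValuationSubring ↥(lg_E L (N' * q * q))) l := by
    refine s36g_forall_fin3 ?_ ?_ ?_
    · exact fun x => (m59tv2_tau_mem_VA O hπ N' q h2 x).symm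
    · exact fun x => (m59tv2_tau_mem_VB O hπ N' q hq2 hqN' h2 x).symm
    · exact fun x => (m59tv2_tau_mem_VC O hπ N' q hq2 hqN' h2 T3 x).symm
  have hBV : ∀ (l : Fin 3) (a : ↥O), algebraMap L ↥(lg_E L (N' * q * q)) ((a : ↥O) : L) ∈
      (![s36i_VA O hπ (N' * q) q, s36i_VB O hπ N' q hq2 hqN', VC] :
        Fin 3 → ValuationSubring ↥(lg_E L (N' * q * q))) l := fun l a => by
    have e : algebraMap L ↥(lg_E L (N' * q * q)) ((a : ↥O) : L) =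
        algebraMap ↥O ↥(lg_E L (N' * q * q)) a :=
      (IsScalarTower.algebraMap_apply ↥O L ↥(lg_E L (N' * q * q)) a).symm
    rw [e]
    exact H.chart_le hC l ((fc_chart ↥O
      ({lg_lamE (N' * q * q)} : Set ↥(lg_E L (N' * q * q)))).algebraMap_mem a)
  -- the relation
  have hrel : R ^ p * g' = (τr R) ^ p * τr g' := by
    have h3 := congrArg τr heq
    have hfix' : τr y = y := hfix
    rw [hfix', map_mul, map_mul, map_pow, hτL, heq] at h3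
    have hc0 : algebraMap L ↥(lg_E L (N' * q * q)) c ≠ 0 :=
      (map_ne_zero (algebraMap L ↥(lg_E L (N' * q * q)))).2 hc
    have h4 : algebraMap L ↥(lg_E L (N' * q * q)) c * (R ^ p * g') =
        algebraMap L ↥(lg_E L (N' * q * q)) c * ((τr R) ^ p * τr g') := by
      rw [← mul_assoc, ← mul_assoc]
      exact h3
    exact mul_left_cancel₀ hc0 h4
  have hζE : IsPrimitiveRoot (algebraMap L ↥(lg_E L (N' * q * q)) ζp) p :=
    hζp.map_of_injective (algebraMap L ↥(lg_E L (N' * q * q))).injective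
  have hkey : ∀ l : Fin 3,
      τr R * R⁻¹ - 1 ∈ ((![s36i_VA O hπ (N' * q) q, s36i_VB O hπ N' q hq2 hqN', VC] :
        Fin 3 → ValuationSubring ↥(lg_E L (N' * q * q))) l).nonunits ∧
      g' = (τr R * R⁻¹) ^ p * τr g' := by
    intro l
    obtain ⟨u, hu⟩ := (hk l).exists_right_inv
    have hkk : algebraMap L ↥(lg_E L (N' * q * q)) ((k l : ↥O) : L) *
        algebraMap L ↥(lg_E L (N' * q * q)) ((u : ↥O) : L) = 1 := by
      rw [← map_mul]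
      have : ((k l : ↥O) : L) * ((u : ↥O) : L) = 1 := by
        have := congrArg (Subtype.val : ↥O → L) hu
        exact this
      rw [this, map_one]
    exact m59tt_h_one _ τr hττ (hτV l) hp hζE (hτL ζp) hR hg (hτL _) hkk (hBV l (k l))
      (hBV l u) (hgk l) hrel
  obtain ⟨hhi, hfin⟩ := hkey i
  obtain ⟨hhj, -⟩ := hkey j
  have hunit : ∀ (V : ValuationSubring ↥(lg_E L (N' * q * q))),
      τr R * R⁻¹ - 1 ∈ V.nonunits → τr R * R⁻¹ ∈ V ∧ τr R * R⁻¹ ∉ V.nonunits := by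
    intro V hm
    constructor
    · have : τr R * R⁻¹ = (τr R * R⁻¹ - 1) + 1 := by ring
      rw [this]
      exact V.add_mem _ _ (ValuationSubring.nonunits_subset hm) V.one_mem
    · intro hm2
      have h3 : (1 : ↥(lg_E L (N' * q * q))) ∈ V.nonunits := by
        have : (1 : ↥(lg_E L (N' * q * q))) = τr R * R⁻¹ - (τr R * R⁻¹ - 1) := by ring
        rw [this]
        exact V.nonunits.sub_mem hm2 hm
      rw [ValuationSubring.mem_nonunits_iff, map_one] at h3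
      exact lt_irrefl _ h3
  haveI := s35l_map_isPrime (F0 := ↥(lg_E L (N' * q * q))) 𝔫 _ hi
  haveI := s35l_map_isPrime (F0 := ↥(lg_E L (N' * q * q))) 𝔫 _ hj
  have m1 := m59ti_memM_of_nonunits H hC i 𝔫 hi hhi
  have m2 := m59ti_memM_of_nonunits H hC j 𝔫 hj hhj
  have u1 := m59ti_unitAt_of_unit H hC i 𝔫 hi (hunit _ hhi).1 (hunit _ hhi).2
  have u2 := m59ti_unitAt_of_unit H hC j 𝔫 hj (hunit _ hhj).1 (hunit _ hhj).2
  intro c0 hrat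
  have stepB := m59tl_ratio_of_pow
    (𝔫.map (algebraMap ↥(fc_chart ↥O ({lg_lamE (N' * q * q)} : Set ↥(lg_E L (N' * q * q))))
      ↥(ssl_locSub ↥(lg_E L (N' * q * q)) 𝔫)))
    ((ssm_tp_P (fc_chart ↥O ({lg_lamE (N' * q * q)} : Set ↥(lg_E L (N' * q * q))))
      ((![s36i_VA O hπ (N' * q) q, s36i_VB O hπ N' q hq2 hqN', VC] :
        Fin 3 → ValuationSubring ↥(lg_E L (N' * q * q))) i)).map
      (algebraMap ↥(fc_chart ↥O ({lg_lamE (N' * q * q)} : Set ↥(lg_E L (N' * q * q))))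
        ↥(ssl_locSub ↥(lg_E L (N' * q * q)) 𝔫)))
    ((ssm_tp_P (fc_chart ↥O ({lg_lamE (N' * q * q)} : Set ↥(lg_E L (N' * q * q))))
      ((![s36i_VA O hπ (N' * q) q, s36i_VB O hπ N' q hq2 hqN', VC] :
        Fin 3 → ValuationSubring ↥(lg_E L (N' * q * q))) j)).map
      (algebraMap ↥(fc_chart ↥O ({lg_lamE (N' * q * q)} : Set ↥(lg_E L (N' * q * q))))
        ↥(ssl_locSub ↥(lg_E L (N' * q * q)) 𝔫)))
    (m := p) (h := τr R * R⁻¹) (b₁ := 1) (b₂ := 1) u1 u2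
    (by rw [Units.val_one, map_one]; exact m1) (by rw [Units.val_one, map_one]; exact m2)
  have stepC := m59tl_ratio_mul _ _ _ stepB hrat
  rw [inv_one, one_mul, one_mul] at stepC
  have hfin' : (τr R * R⁻¹) ^ p * (m59tt_tau L (N' * q * q) h2) g' = g' := hfin.symm
  rw [hfin'] at stepC
  exact stepC

end Back2

section Iota

/-- `τ` fixes the image of `ι = (X ↦ X²)`. -/
theorem m59tt_tau_iota {L : Type*} [Field L] [Algebra ℚ L] (N : ℕ) [NeZero N] (h2 : (2 : L) ≠ 0)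
    (g1 : laurentBaseChange L (modularFunctionFieldFull N)) :
    m59tt_tau L N h2 (ss2_dp_iota L N g1) = ss2_dp_iota L N g1 :=
  Subtype.ext (m59tt_tau0_expand_two L (g1 : LaurentSeries L))

end Iota

section T2

variable (A : ValuationSubring Qb) {q : ℕ} [hq : Fact q.Prime] (hA : A.LiesOverPrime q)
  (N' : ℕ) [NeZero N'] [NeZero q] [NeZero (N' * q)] [NeZero (N' * q * q)]
  (hq2 : ¬ 2 ∣ q) (hqN' : ¬ q ∣ N')
  (L : IntermediateField ℚ Qb) [NumberField ↥L]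
  [IsDiscreteValuationRing ↥(A.comap (algebraMap ↥L Qb))]
  [CharP (ResidueField ↥(A.comap (algebraMap ↥L Qb))) q]
  (hπq : Irreducible ((q : ℕ) : ↥(A.comap (algebraMap ↥L Qb))))

/-- **[TAU-INV2], valuation form, the `(C, B)`-datum**: `𝔫, 𝔫'` the centres on `B2` of two
`τ₂`-conjugate valuation rings, `λ - 1` a unit at `𝔫'`. -/
theorem m59tt_tauInv2_val_CB (ζN : ↥L) (hζN : IsPrimitiveRoot ζN N') (h2 : (2 : ↥L) ≠ 0)
    {p : ℕ} (hp : Odd p) (ζ : ↥L) (hζ : IsPrimitiveRoot ζ p)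
    {z : JZero (N' * q * q)} {f : modularFunctionFieldBar (N' * q * q)}
    {g1 : laurentBaseChange L (modularFunctionFieldFull (N' * q * q))} {c₀ : Qb}
    {r₀ : modularFunctionFieldBar (N' * q * q)} {k : ↥L} {R g' : ↥(lg_E ↥L (N' * q * q))}
    (hNF : m59t2_NF A N' hq2 hqN' L hπq p z f g1 c₀ r₀ k R g')
    {VC : ValuationSubring ↥(lg_E ↥L (N' * q * q))}
    (T3 : s36asm_Third (A.comap (algebraMap ↥L Qb)) hπq N' q hq2 hqN' VC)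
    (𝒱 𝒱' : ValuationSubring ↥(lg_E ↥L (N' * q * q)))
    (h𝒱 : ∀ x : ↥(lg_E ↥L (N' * q * q)),
      x ∈ 𝒱 ↔ (m59tt_tau ↥L (N' * q * q) h2).toRingEquiv x ∈ 𝒱')
    (hB : ∀ b : ↥(m59t2_B2 A N' q L), (b : ↥(lg_E ↥L (N' * q * q))) ∈ 𝒱)
    (hB' : ∀ b : ↥(m59t2_B2 A N' q L), (b : ↥(lg_E ↥L (N' * q * q))) ∈ 𝒱')
    (𝔫 𝔫' : Ideal ↥(m59t2_B2 A N' q L)) (h𝔫 : 𝔫.IsPrime) (h𝔫' : 𝔫'.IsPrime)
    (hc𝔫 : ∀ b : ↥(m59t2_B2 A N' q L), b ∈ 𝔫 ↔ (b : ↥(lg_E ↥L (N' * q * q))) ∈ 𝒱.nonunits)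
    (hc𝔫' : ∀ b : ↥(m59t2_B2 A N' q L), b ∈ 𝔫' ↔ (b : ↥(lg_E ↥L (N' * q * q))) ∈ 𝒱'.nonunits)
    (hlam : ((lg_lamE (N' * q * q) : ↥(lg_E ↥L (N' * q * q))) - 1)⁻¹ ∈ 𝒱')
    (hC𝔫 : m59t2_PC A N' L VC ≤ 𝔫) (hB𝔫 : m59t2_PB A N' hq2 hqN' L hπq ≤ 𝔫)
    (hC𝔫' : m59t2_PC A N' L VC ≤ 𝔫') (hB𝔫' : m59t2_PB A N' hq2 hqN' L hπq ≤ 𝔫')
    (ε : (↥(A.comap (algebraMap ↥L Qb)))ˣ)
    (h : m59t2_RatioCB A N' hq2 hqN' L hπq VC p 𝔫 h𝔫 g' ε) :
    m59t2_RatioCB A N' hq2 hqN' L hπq VC p 𝔫' h𝔫' g' ε := by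
  obtain ⟨-, -, -, -, -, hk, hR, hg, hι, -, hred⟩ := hNF
  obtain ⟨kA, kB, kC, hkA, hkB, hkC, hgA, hgB, hgC⟩ := hred VC T3
  have hB𝒱 : ∀ b ∈ m59t2_B2 A N' q L, b ∈ 𝒱 := fun b hb => hB ⟨b, hb⟩
  have hB𝒱' : ∀ b ∈ m59t2_B2 A N' q L, b ∈ 𝒱' := fun b hb => hB' ⟨b, hb⟩
  have e𝔫 : 𝔫 = ssm_tp_P (m59t2_B2 A N' q L) 𝒱 :=
    Ideal.ext fun b => (hc𝔫 b).trans (ssm_tp_mem_P hB𝒱).symm
  have e𝔫' : 𝔫' = ssm_tp_P (m59t2_B2 A N' q L) 𝒱' :=
    Ideal.ext fun b => (hc𝔫' b).trans (ssm_tp_mem_P hB𝒱').symm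
  have stepA := m59mz_ratioCB_tau2 A N' hq2 hqN' L hπq h2 ζN hζN 𝒱 𝒱' hB𝒱 hB𝒱'
    (fun z => (h𝒱 z).symm) 𝔫 𝔫' h𝔫 h𝔫' e𝔫 e𝔫' T3 hlam p hC𝔫 hB𝔫 hC𝔫' hB𝔫' g' ε h
  unfold m59t2_RatioCB at stepA ⊢
  exact m59tt_tau_back2 ↥L (A.comap (algebraMap ↥L Qb)) N' q hq2 hqN' hπq ζN hζN T3 h2 hp ζ hζ
    hk hR hg (m59tt_tau_iota (N' * q * q) h2 g1) hι ![kA, kB, kC]
    (s36g_forall_fin3 hkA hkB hkC) (s36g_forall_fin3 hgA hgB hgC) 2 1 𝔫' h𝔫' hC𝔫' hB𝔫' _ stepA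

/-- **[TAU-INV2], valuation form, the `(A, C)`-datum.** -/
theorem m59tt_tauInv2_val_AC (ζN : ↥L) (hζN : IsPrimitiveRoot ζN N') (h2 : (2 : ↥L) ≠ 0)
    {p : ℕ} (hp : Odd p) (ζ : ↥L) (hζ : IsPrimitiveRoot ζ p)
    {z : JZero (N' * q * q)} {f : modularFunctionFieldBar (N' * q * q)}
    {g1 : laurentBaseChange L (modularFunctionFieldFull (N' * q * q))} {c₀ : Qb}
    {r₀ : modularFunctionFieldBar (N' * q * q)} {k : ↥L} {R g' : ↥(lg_E ↥L (N' * q * q))}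
    (hNF : m59t2_NF A N' hq2 hqN' L hπq p z f g1 c₀ r₀ k R g')
    {VC : ValuationSubring ↥(lg_E ↥L (N' * q * q))}
    (T3 : s36asm_Third (A.comap (algebraMap ↥L Qb)) hπq N' q hq2 hqN' VC)
    (𝒱 𝒱' : ValuationSubring ↥(lg_E ↥L (N' * q * q)))
    (h𝒱 : ∀ x : ↥(lg_E ↥L (N' * q * q)),
      x ∈ 𝒱 ↔ (m59tt_tau ↥L (N' * q * q) h2).toRingEquiv x ∈ 𝒱')
    (hB : ∀ b : ↥(m59t2_B2 A N' q L), (b : ↥(lg_E ↥L (N' * q * q))) ∈ 𝒱)
    (hB' : ∀ b : ↥(m59t2_B2 A N' q L), (b : ↥(lg_E ↥L (N' * q * q))) ∈ 𝒱')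
    (𝔫 𝔫' : Ideal ↥(m59t2_B2 A N' q L)) (h𝔫 : 𝔫.IsPrime) (h𝔫' : 𝔫'.IsPrime)
    (hc𝔫 : ∀ b : ↥(m59t2_B2 A N' q L), b ∈ 𝔫 ↔ (b : ↥(lg_E ↥L (N' * q * q))) ∈ 𝒱.nonunits)
    (hc𝔫' : ∀ b : ↥(m59t2_B2 A N' q L), b ∈ 𝔫' ↔ (b : ↥(lg_E ↥L (N' * q * q))) ∈ 𝒱'.nonunits)
    (hlam : ((lg_lamE (N' * q * q) : ↥(lg_E ↥L (N' * q * q))) - 1)⁻¹ ∈ 𝒱')
    (hA𝔫 : m59t2_PA A N' L hπq ≤ 𝔫) (hC𝔫 : m59t2_PC A N' L VC ≤ 𝔫)
    (hA𝔫' : m59t2_PA A N' L hπq ≤ 𝔫') (hC𝔫' : m59t2_PC A N' L VC ≤ 𝔫')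
    (ε : (↥(A.comap (algebraMap ↥L Qb)))ˣ)
    (h : m59t2_RatioAC A N' L hπq VC p 𝔫 h𝔫 g' ε) :
    m59t2_RatioAC A N' L hπq VC p 𝔫' h𝔫' g' ε := by
  obtain ⟨-, -, -, -, -, hk, hR, hg, hι, -, hred⟩ := hNF
  obtain ⟨kA, kB, kC, hkA, hkB, hkC, hgA, hgB, hgC⟩ := hred VC T3
  have hB𝒱 : ∀ b ∈ m59t2_B2 A N' q L, b ∈ 𝒱 := fun b hb => hB ⟨b, hb⟩
  have hB𝒱' : ∀ b ∈ m59t2_B2 A N' q L, b ∈ 𝒱' := fun b hb => hB' ⟨b, hb⟩
  have e𝔫 : 𝔫 = ssm_tp_P (m59t2_B2 A N' q L) 𝒱 :=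
    Ideal.ext fun b => (hc𝔫 b).trans (ssm_tp_mem_P hB𝒱).symm
  have e𝔫' : 𝔫' = ssm_tp_P (m59t2_B2 A N' q L) 𝒱' :=
    Ideal.ext fun b => (hc𝔫' b).trans (ssm_tp_mem_P hB𝒱').symm
  have stepA := m59mz_ratioAC_tau2 A N' hq2 hqN' L hπq h2 ζN hζN 𝒱 𝒱' hB𝒱 hB𝒱'
    (fun z => (h𝒱 z).symm) 𝔫 𝔫' h𝔫 h𝔫' e𝔫 e𝔫' T3 hlam p hA𝔫 hC𝔫 hA𝔫' hC𝔫' g' ε h
  unfold m59t2_RatioAC at stepA ⊢
  exact m59tt_tau_back2 ↥L (A.comap (algebraMap ↥L Qb)) N' q hq2 hqN' hπq ζN hζN T3 h2 hp ζ hζ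
    hk hR hg (m59tt_tau_iota (N' * q * q) h2 g1) hι ![kA, kB, kC]
    (s36g_forall_fin3 hkA hkB hkC) (s36g_forall_fin3 hgA hgB hgC) 0 2 𝔫' h𝔫' hA𝔫' hC𝔫' _ stepA

end T2

end Fermat.Agent.M59

end
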