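/-
M59 / Sink B, leaf 4 [TOR-SURJ], LEVEL `N' q q`, cell [TAU-INV2] (helper24; prefix `m59tt_`), THE PLUG.

* `m59tt_tauInvA`, `m59tt_tauInvB` : the two halves `m59tx2a_TauInvA`, `m59tx2a_TauInvB` of [TAU-INV2]
  (Tor/Ex2Asm.lean, helper23) for the `g'` of an `m59t2_NF`, any chart maps over `α^*`, `β^*`
  (helper7's `m59tq_lab_conj2_a/_b` + `m59tt_tauInv2_val_CB/_AC`);
* **`m59tt_tauInv2 : m59tf_TauInv2_stmt`** : THE SEAM OF `Tor/FinalEx2.lean` (helper15), no hypothesis;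
* `m59tt_cells2 : m59tf_Cells2_stmt`, `m59tt_torSurjPlU : m59g12u_TorSurjPlU_stmt`.
-/
import Mathlib
import Fermat.Agent.M59.SinkB.Tor.TauInv2
import Fermat.Agent.M59.SinkB.Tor.LabConj2AB
import Fermat.Agent.M59.SinkB.Tor.FinalEx2

set_option autoImplicit false
set_option linter.unusedSectionVars false
set_option linter.unusedVariables false
set_option linter.style.haveILetI false
set_option synthInstance.maxHeartbeats 400000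
set_option maxHeartbeats 3200000

noncomputable section

namespace Fermat.Agent.M59

open Fermat.Agent.TW

open Polynomial ModularCurve AlgebraicCurve IntermediateField IsLocalRing
open Fermat.Agent.JT3 Fermat.Agent.SS Fermat.Agent.S35 Fermat.Agent.S24 Fermat.Agent.S44
  Fermat.Agent.S36 Fermat.Agent.SS2

local notation "Qb" => AlgebraicClosure ℚ

section Halves

variable (A : ValuationSubring Qb) {q : ℕ} [hq : Fact q.Prime] (hA : A.LiesOverPrime q)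
  (N' : ℕ) [NeZero N'] [NeZero q] [NeZero (N' * q)] [NeZero (N' * q * q)]
  (hq2 : ¬ 2 ∣ q) (hqN' : ¬ q ∣ N')
  (L : IntermediateField ℚ Qb) [NumberField ↥L]
  [IsDiscreteValuationRing ↥(A.comap (algebraMap ↥L Qb))]
  [CharP (ResidueField ↥(A.comap (algebraMap ↥L Qb))) q]
  (hπq : Irreducible ((q : ℕ) : ↥(A.comap (algebraMap ↥L Qb))))

/-- **[TAU-INV2], the `(C, B)`-half**: two triple points with the same `aB`-label carry the same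
`(C, B)`-datum of the `g'` of a normal form. -/
theorem m59tt_tauInvA (ζN : ↥L) (hζN : IsPrimitiveRoot ζN N') (h2N : 2 ∣ N')
    {p : ℕ} (hp : Odd p) (ζ : ↥L) (hζ : IsPrimitiveRoot ζ p)
    (aB : ↥(m59t1_B1 A N' q L) →+* ↥(m59t2_B2 A N' q L))
    (haB : ∀ b : ↥(m59t1_B1 A N' q L),
      ((aB b : ↥(m59t2_B2 A N' q L)) : ↥(lg_E ↥L (N' * q * q))) =
        m59tpr_aE ↥L N' q (b : ↥(lg_E ↥L (N' * q))))
    {z : JZero (N' * q * q)} {f : modularFunctionFieldBar (N' * q * q)}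
    {g1 : laurentBaseChange L (modularFunctionFieldFull (N' * q * q))} {c₀ : Qb}
    {r₀ : modularFunctionFieldBar (N' * q * q)} {k : ↥L} {R g' : ↥(lg_E ↥L (N' * q * q))}
    (hNF : m59t2_NF A N' hq2 hqN' L hπq p z f g1 c₀ r₀ k R g') :
    m59tx2a_TauInvA A hA N' hq2 hqN' L hπq aB p g' := by
  intro VC T3 𝔫 𝔫' h𝔫 h𝔫' hA𝔫 hB𝔫 hC𝔫 hA𝔫' hB𝔫' hC𝔫' Q hL hL' ε h
  rcases m59tq_lab_conj2_a A hA N' hq2 hqN' L hπq ζN hζN two_ne_zero h2N aB haB T3 𝔫 𝔫' h𝔫 h𝔫'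
    hA𝔫 hB𝔫 hA𝔫' hB𝔫' Q hL hL' with he | ⟨𝒱₂, 𝒱₂', h1, h2, h3, h4, h5, h6⟩
  · subst he
    exact h
  · exact m59tt_tauInv2_val_CB A N' hq2 hqN' L hπq ζN hζN two_ne_zero hp ζ hζ hNF T3 𝒱₂ 𝒱₂'
      h1 h2 h3 𝔫 𝔫' h𝔫.isPrime h𝔫'.isPrime h4 h5 h6 hC𝔫 hB𝔫 hC𝔫' hB𝔫' ε h

/-- **[TAU-INV2], the `(A, C)`-half**: two triple points with the same `bB`-label carry the same
`(A, C)`-datum of the `g'` of a normal form. -/
theorem m59tt_tauInvB (ζN : ↥L) (hζN : IsPrimitiveRoot ζN N') (h2N : 2 ∣ N')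
    {p : ℕ} (hp : Odd p) (ζ : ↥L) (hζ : IsPrimitiveRoot ζ p)
    (bB : ↥(m59t1_B1 A N' q L) →+* ↥(m59t2_B2 A N' q L))
    (hbB : ∀ b : ↥(m59t1_B1 A N' q L),
      ((bB b : ↥(m59t2_B2 A N' q L)) : ↥(lg_E ↥L (N' * q * q))) =
        m59tpr_bE ↥L N' q hq2 (b : ↥(lg_E ↥L (N' * q))))
    {z : JZero (N' * q * q)} {f : modularFunctionFieldBar (N' * q * q)}
    {g1 : laurentBaseChange L (modularFunctionFieldFull (N' * q * q))} {c₀ : Qb}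
    {r₀ : modularFunctionFieldBar (N' * q * q)} {k : ↥L} {R g' : ↥(lg_E ↥L (N' * q * q))}
    (hNF : m59t2_NF A N' hq2 hqN' L hπq p z f g1 c₀ r₀ k R g') :
    m59tx2a_TauInvB A hA N' hq2 hqN' L hπq bB p g' := by
  intro VC T3 𝔫 𝔫' h𝔫 h𝔫' hA𝔫 hB𝔫 hC𝔫 hA𝔫' hB𝔫' hC𝔫' Q hL hL' ε h
  rcases m59tq_lab_conj2_b A hA N' hq2 hqN' L hπq ζN hζN two_ne_zero h2N bB hbB T3 𝔫 𝔫' h𝔫 h𝔫'
    hA𝔫 hB𝔫 hA𝔫' hB𝔫' Q hL hL' with he | ⟨𝒱₂, 𝒱₂', h1, h2, h3, h4, h5, h6⟩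
  · subst he
    exact h
  · exact m59tt_tauInv2_val_AC A N' hq2 hqN' L hπq ζN hζN two_ne_zero hp ζ hζ hNF T3 𝒱₂ 𝒱₂'
      h1 h2 h3 𝔫 𝔫' h𝔫.isPrime h𝔫'.isPrime h4 h5 h6 hA𝔫 hC𝔫 hA𝔫' hC𝔫' ε h

end Halves

section Star

variable (A : ValuationSubring Qb) {q : ℕ} [hq : Fact q.Prime] (hA : A.LiesOverPrime q)
  (N' : ℕ) [NeZero N'] [NeZero q] [NeZero (N' * q)] [NeZero (N' * q * q)] (hq2 : ¬ 2 ∣ q)
  (hqN' : ¬ q ∣ N') {p : ℕ} [hp : Fact p.Prime]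

/-- **[TAU-INV2] over the big level**, for any chart maps over `α^*`, `β^*`. -/
theorem m59tt_tauInv2_star (hp2 : p ≠ 2) (h4 : 4 ∣ N') (S : m59ls_Star N' q p A hq2 hqN') :
    m59tf_TauInv2 A hA N' hq2 hqN' S := by
  haveI := (m59tx_star_inst A N' hq2 hqN' S).1
  haveI := S.lev.dvr
  haveI := m59tx_star_charP A hA N' hq2 hqN' S
  have h2N : 2 ∣ N' := Dvd.dvd.trans (by norm_num) h4
  have hodd : Odd p := hp.out.odd_of_ne_two hp2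
  intro aB bB haB hbB z f g1 c₀ r₀ k R g' hNF
  exact ⟨m59tt_tauInvA A hA N' hq2 hqN' S.L1 S.lev.irr S.zN S.hzN h2N hodd S.zp S.hzp aB haB hNF,
    m59tt_tauInvB A hA N' hq2 hqN' S.L1 S.lev.irr S.zN S.hzN h2N hodd S.zp S.hzp bB hbB hNF⟩

end Star

/-- **[TAU-INV2]**: the seam of `Tor/FinalEx2.lean`. -/
theorem m59tt_tauInv2 : m59tf_TauInv2_stmt := by
  intro N' q p _ _ hqF _ _ hpF hp2 hqp hq2 hqN' h4 A hA S
  exact m59tt_tauInv2_star A hA N' hq2 hqN' hp2 h4 S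

/-- **the seam `m59tf_Cells2_stmt`**, closed. -/
theorem m59tt_cells2 : m59tf_Cells2_stmt := m59tf_cells2_of_tauInv2 m59tt_tauInv2

/-- **the leaf [TOR-SURJ]** (`m59g12u_TorSurjPlU_stmt`), closed. -/
theorem m59tt_torSurjPlU : m59g12u_TorSurjPlU_stmt := m59tf_torSurjPlU_of_tauInv2 m59tt_tauInv2

end Fermat.Agent.M59

end
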