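/-
M59 / Sink B, leaf 3 [TOR-SURJ], level `N' q q`: **[TAU-INV2] BY COMPOSITION** (helper5; prefix
`m59tx2p_`).

[TAU-INV2] in helper23's shape `m59tx2a_TauInvA/B` (Tor/Ex2Asm.lean) is the composition of three
theorems on main:

* helper7's `m59tq_lab_conj2_a/_b` (Tor/LabConj2AB.lean): two triple points with the same `aB`-label
  (resp. `bB`-label) are equal or are the centres of `τ₂`-conjugate valuation rings `𝒱₂`, `𝒱₂'`
  with `(λ₂ - 1)⁻¹ ∈ 𝒱₂'`;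
* helper16's `m59mz_ratioCB_tau2/_ratioAC_tau2` (Mazur/Val/RatioConjLeg2.lean): the toric datum at
  `𝔫` of `f` is the toric datum at `𝔫'` of `τ₂ f`;
* helper2's `m59tb2_ratio_tau_back` (Tor/TauBack2.lean): for the `g'` of a normal form, a toric
  datum of `τ₂ g'` at a triple point is a toric datum of `g'`.

* `m59tx2p_tauInvA`, `m59tx2p_tauInvB` : over any level `L` (Defs2 context + `ζ_{N'}`, `2 ∣ N'`,
  `p` an odd prime, `p ∈ Oˣ`, `ζ_p ∈ L`);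
* **`m59tx2p_tauInv2 : m59tf_TauInv2_stmt`** : the seam of Tor/FinalEx2.lean over the big level.
-/
import Mathlib
import Fermat.Agent.M59.SinkB.Tor.LabConj2AB
import Fermat.Agent.M59.Mazur.Val.RatioConjLeg2
import Fermat.Agent.M59.SinkB.Tor.TauBack2
import Fermat.Agent.M59.SinkB.Tor.Ex2Asm
import Fermat.Agent.M59.SinkB.Tor.FinalEx2

set_option autoImplicit false
set_option linter.unusedSectionVars false
set_option linter.unusedVariables false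
set_option linter.style.haveILetI false
set_option synthInstance.maxHeartbeats 400000
set_option maxHeartbeats 3200000

noncomputable section

namespace Fermat.Agent.M59

open Polynomial ModularCurve AlgebraicCurve IntermediateField IsLocalRing
open Fermat.Agent.JT3 Fermat.Agent.SS Fermat.Agent.S35 Fermat.Agent.S24 Fermat.Agent.S44
  Fermat.Agent.S36 Fermat.Agent.SS2

local notation "Qb" => AlgebraicClosure ℚ

section Comp

variable (A : ValuationSubring Qb) {q : ℕ} [hq : Fact q.Prime] (hA : A.LiesOverPrime q)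
  (N' : ℕ) [NeZero N'] [NeZero q] [NeZero (N' * q)] [NeZero (N' * q * q)]
  (hq2 : ¬ 2 ∣ q) (hqN' : ¬ q ∣ N')
  (L : IntermediateField ℚ Qb) [NumberField ↥L]
  [IsDiscreteValuationRing ↥(A.comap (algebraMap ↥L Qb))]
  [CharP (ResidueField ↥(A.comap (algebraMap ↥L Qb))) q]
  (hπq : Irreducible ((q : ℕ) : ↥(A.comap (algebraMap ↥L Qb))))
  (ζN : ↥L) (hζN : IsPrimitiveRoot ζN N') (h2N : 2 ∣ N')

include hζN h2N in
/-- **[TAU-INV2], `(C, B)`-half.** -/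
theorem m59tx2p_tauInvA {p : ℕ} (hp : p.Prime) (hp2 : p ≠ 2)
    (hpO : IsUnit ((p : ℕ) : ↥(A.comap (algebraMap ↥L Qb)))) {ζp : ↥L}
    (hζp : IsPrimitiveRoot ζp p)
    (aB : ↥(m59t1_B1 A N' q L) →+* ↥(m59t2_B2 A N' q L))
    (haB : ∀ b : ↥(m59t1_B1 A N' q L),
      ((aB b : ↥(m59t2_B2 A N' q L)) : ↥(lg_E ↥L (N' * q * q))) =
        m59tpr_aE ↥L N' q (b : ↥(lg_E ↥L (N' * q))))
    {z : JZero (N' * q * q)} {f : modularFunctionFieldBar (N' * q * q)}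
    {g1 : laurentBaseChange L (modularFunctionFieldFull (N' * q * q))} {c₀ : Qb}
    {r₀ : modularFunctionFieldBar (N' * q * q)} {k : ↥L} {R g' : ↥(lg_E ↥L (N' * q * q))}
    (hNF : m59t2_NF A N' hq2 hqN' L hπq p z f g1 c₀ r₀ k R g') :
    m59tx2a_TauInvA A hA N' hq2 hqN' L hπq aB p g' := by
  have h2 : (2 : ↥L) ≠ 0 := two_ne_zero
  intro VC T3 𝔫 𝔫' h𝔫 h𝔫' hPA hPB hPC hPA' hPB' hPC' Q hL hL' ε hR
  rcases m59tq_lab_conj2_a A hA N' hq2 hqN' L hπq ζN hζN h2 h2N aB haB T3 𝔫 𝔫' h𝔫 h𝔫'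
    hPA hPB hPA' hPB' Q hL hL' with h | ⟨𝒱, 𝒱', hτ, hB, hB', hc, hc', hlam⟩
  · subst h
    exact hR
  · have e𝔫 : 𝔫 = ssm_tp_P (m59t2_B2 A N' q L) 𝒱 :=
      Ideal.ext fun b => (hc b).trans (ssm_tp_mem_P (fun b hb => hB ⟨b, hb⟩)).symm
    have e𝔫' : 𝔫' = ssm_tp_P (m59t2_B2 A N' q L) 𝒱' :=
      Ideal.ext fun b => (hc' b).trans (ssm_tp_mem_P (fun b hb => hB' ⟨b, hb⟩)).symm
    have h1 := m59mz_ratioCB_tau2 A N' hq2 hqN' L hπq h2 ζN hζN 𝒱 𝒱'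
      (fun b hb => hB ⟨b, hb⟩) (fun b hb => hB' ⟨b, hb⟩) (fun z => (hτ z).symm) 𝔫 𝔫'
      h𝔫.isPrime h𝔫'.isPrime e𝔫 e𝔫' T3 hlam p hPC hPB hPC' hPB' g' ε hR
    exact (m59tb2_ratio_tau_back A N' hq2 hqN' L hπq ζN hζN h2 hp hp2 hpO hζp hNF T3 𝔫' h𝔫'
      hPA' hPB' hPC' ε).1 h1

include hζN h2N in
/-- **[TAU-INV2], `(A, C)`-half.** -/
theorem m59tx2p_tauInvB {p : ℕ} (hp : p.Prime) (hp2 : p ≠ 2)
    (hpO : IsUnit ((p : ℕ) : ↥(A.comap (algebraMap ↥L Qb)))) {ζp : ↥L}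
    (hζp : IsPrimitiveRoot ζp p)
    (bB : ↥(m59t1_B1 A N' q L) →+* ↥(m59t2_B2 A N' q L))
    (hbB : ∀ b : ↥(m59t1_B1 A N' q L),
      ((bB b : ↥(m59t2_B2 A N' q L)) : ↥(lg_E ↥L (N' * q * q))) =
        m59tpr_bE ↥L N' q hq2 (b : ↥(lg_E ↥L (N' * q))))
    {z : JZero (N' * q * q)} {f : modularFunctionFieldBar (N' * q * q)}
    {g1 : laurentBaseChange L (modularFunctionFieldFull (N' * q * q))} {c₀ : Qb}
    {r₀ : modularFunctionFieldBar (N' * q * q)} {k : ↥L} {R g' : ↥(lg_E ↥L (N' * q * q))}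
    (hNF : m59t2_NF A N' hq2 hqN' L hπq p z f g1 c₀ r₀ k R g') :
    m59tx2a_TauInvB A hA N' hq2 hqN' L hπq bB p g' := by
  have h2 : (2 : ↥L) ≠ 0 := two_ne_zero
  intro VC T3 𝔫 𝔫' h𝔫 h𝔫' hPA hPB hPC hPA' hPB' hPC' Q hL hL' ε hR
  rcases m59tq_lab_conj2_b A hA N' hq2 hqN' L hπq ζN hζN h2 h2N bB hbB T3 𝔫 𝔫' h𝔫 h𝔫'
    hPA hPB hPA' hPB' Q hL hL' with h | ⟨𝒱, 𝒱', hτ, hB, hB', hc, hc', hlam⟩
  · subst h
    exact hR
  · have e𝔫 : 𝔫 = ssm_tp_P (m59t2_B2 A N' q L) 𝒱 :=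
      Ideal.ext fun b => (hc b).trans (ssm_tp_mem_P (fun b hb => hB ⟨b, hb⟩)).symm
    have e𝔫' : 𝔫' = ssm_tp_P (m59t2_B2 A N' q L) 𝒱' :=
      Ideal.ext fun b => (hc' b).trans (ssm_tp_mem_P (fun b hb => hB' ⟨b, hb⟩)).symm
    have h1 := m59mz_ratioAC_tau2 A N' hq2 hqN' L hπq h2 ζN hζN 𝒱 𝒱'
      (fun b hb => hB ⟨b, hb⟩) (fun b hb => hB' ⟨b, hb⟩) (fun z => (hτ z).symm) 𝔫 𝔫'
      h𝔫.isPrime h𝔫'.isPrime e𝔫 e𝔫' T3 hlam p hPA hPC hPA' hPC' g' ε hR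
    exact (m59tb2_ratio_tau_back A N' hq2 hqN' L hπq ζN hζN h2 hp hp2 hpO hζp hNF T3 𝔫' h𝔫'
      hPA' hPB' hPC' ε).2 h1

end Comp

/-- **[TAU-INV2] over the big level: the seam `m59tf_TauInv2_stmt` of Tor/FinalEx2.lean.** -/
theorem m59tx2p_tauInv2 : m59tf_TauInv2_stmt := by
  intro N' q p _ _ hqF _ _ hpF hp2 hqp hq2 hqN' h4 A hA S
  unfold m59tf_TauInv2
  haveI := (m59tx_star_inst A N' hq2 hqN' S).1
  haveI := S.lev.dvr
  haveI := m59tx_star_charP A hA N' hq2 hqN' S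
  intro aB bB haB hbB
  unfold m59tx2a_TauInv2
  intro z f g1 c₀ r₀ k R g' hNF
  have h2N : 2 ∣ N' := dvd_trans (by norm_num) h4
  exact ⟨m59tx2p_tauInvA A hA N' hq2 hqN' S.L1 S.lev.irr S.zN S.hzN h2N hpF.out hp2
      (m59tf_isUnit_p A hA hpF.out hqp S.L1) S.hzp aB haB hNF,
    m59tx2p_tauInvB A hA N' hq2 hqN' S.L1 S.lev.irr S.zN S.hzN h2N hpF.out hp2
      (m59tf_isUnit_p A hA hpF.out hqp S.L1) S.hzp bB hbB hNF⟩

end Fermat.Agent.M59
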