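/-
M59 / Sink B, leaf 4 [TOR-SURJ], cell [TAU-INV] (helper24; prefix `m59tt_`), part 9: THE PLUG.

* `m59tt_hTau`     : the hypothesis `hTau` of helper5's `m59tx_ex1_closed` / `m59tx_ex1_star`, from
  `m59tt_tauInv`;
* **`m59tt_ex1_star`** : THE FIELD `ex1` OF `m59tc_Data` OVER THE BIG LEVEL `S : m59ls_Star`, with NO
  hypothesis left.
-/
import Mathlib
import Fermat.Agent.M59.SinkB.Tor.TauInvT1
import Fermat.Agent.M59.SinkB.Tor.Ex1Star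

set_option autoImplicit false
set_option linter.unusedSectionVars false
set_option linter.unusedVariables false
set_option linter.style.haveILetI false
set_option synthInstance.maxHeartbeats 400000
set_option maxHeartbeats 3200000

noncomputable section

namespace Fermat.Agent.M59

open Fermat.Agent.TW

open Polynomial ModularCurve AlgebraicCurve IntermediateField IsLocalRing
open Fermat.Agent.JT3 Fermat.Agent.SS Fermat.Agent.S35 Fermat.Agent.S24 Fermat.Agent.S44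
  Fermat.Agent.S36

local notation "Qb" => AlgebraicClosure ℚ

section Plug

variable (A : ValuationSubring Qb) {q : ℕ} [hq : Fact q.Prime] (hA : A.LiesOverPrime q)
  (N' : ℕ) [NeZero N'] [NeZero q] [NeZero (N' * q)] (hq2 : ¬ 2 ∣ q) (hqN' : ¬ q ∣ N')
  (L : IntermediateField ℚ Qb) [NumberField ↥L]
  [IsDiscreteValuationRing ↥(A.comap (algebraMap ↥L Qb))]
  [CharP (ResidueField ↥(A.comap (algebraMap ↥L Qb))) q]
  (hπq : Irreducible ((q : ℕ) : ↥(A.comap (algebraMap ↥L Qb))))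

/-- **the hypothesis `hTau` of `m59tx_ex1_closed`.** -/
theorem m59tt_hTau (ζN : ↥L) (hζN : IsPrimitiveRoot ζN N') (h2N : 2 ∣ N') {p : ℕ} (hp : Odd p)
    (ζ : ↥L) (hζ : IsPrimitiveRoot ζ p) :
    ∀ (u : JZero (N' * q)) (x0 : ↥(lg_F ↥L (N' * q))) (c : ↥L)
      (R g' : ↥(lg_E ↥L (N' * q))), m59t1_NF A N' hq2 hqN' L hπq p u x0 c R g' →
      ∀ (𝔫 𝔫' : Ideal ↥(m59t1_B1 A N' q L)) (h𝔫 : 𝔫.IsMaximal) (h𝔫' : 𝔫'.IsMaximal),
      m59t1_P1 A N' L hπq ≤ 𝔫 → m59t1_P2 A N' hq2 hqN' L hπq ≤ 𝔫 →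
      m59t1_P1 A N' L hπq ≤ 𝔫' → m59t1_P2 A N' hq2 hqN' L hπq ≤ 𝔫' →
      ∀ Q : s44e_Sg A N' q hq.out hqN', m59t1_Lab A hA N' hq2 hqN' L hπq 𝔫 Q.1 →
        m59t1_Lab A hA N' hq2 hqN' L hπq 𝔫' Q.1 →
        ∀ ε : (↥(A.comap (algebraMap ↥L Qb)))ˣ,
          m59t1_RatioAt A N' hq2 hqN' L hπq p 𝔫 h𝔫.isPrime g' ε →
          m59t1_RatioAt A N' hq2 hqN' L hπq p 𝔫' h𝔫'.isPrime g' ε := by
  intro u x0 c R g' hNF 𝔫 𝔫' h𝔫 h𝔫' h1 h2 h1' h2' Q hL hL' ε h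
  obtain ⟨hc, hR, hg, -, heq, -, hCR⟩ := hNF
  exact m59tt_tauInv A hA N' hq2 hqN' L hπq ζN hζN h2N hp ζ hζ hc hR hg heq hCR Q.1 Q.2.1
    𝔫 𝔫' h𝔫.isPrime h𝔫'.isPrime h1 h2 h1' h2' hL hL' ε h

end Plug

section Star

variable (A : ValuationSubring Qb) {q : ℕ} [hq : Fact q.Prime] (hA : A.LiesOverPrime q)
  (N' : ℕ) [NeZero N'] [NeZero q] [NeZero (N' * q)] [NeZero (N' * q * q)] (hq2 : ¬ 2 ∣ q)
  (hqN' : ¬ q ∣ N') {p : ℕ} [hp : Fact p.Prime]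

include hA in
/-- **the field `ex1` of `m59tc_Data` over the big level, closed.** -/
theorem m59tt_ex1_star (hp2 : p ≠ 2) (hqp : q ≠ p) (h4 : 4 ∣ N')
    (S : m59ls_Star N' q p A hq2 hqN') :
    haveI := (m59tx_star_inst A N' hq2 hqN' S).1
    haveI := S.lev.dvr
    haveI := m59tx_star_charP A hA N' hq2 hqN' S
    ∀ (ζ : (↥(A.comap (algebraMap ↥S.L1 Qb)))ˣ)
      (hζ : IsPrimitiveRoot (ζ : ↥(A.comap (algebraMap ↥S.L1 Qb))) p)
      (Q0 : s44e_Sg A N' q hq.out hqN'),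
      ∀ u ∈ m59tc_D1 N' q p A,
        ∃ a : m59t1_B A N' hqN' p Q0,
          m59t1_T1 A hA N' hq2 hqN' S.L1 S.lev.irr p ζ Q0 u a := by
  haveI := (m59tx_star_inst A N' hq2 hqN' S).1
  haveI := S.lev.dvr
  haveI := m59tx_star_charP A hA N' hq2 hqN' S
  intro ζ hζ Q0
  have h2N : 2 ∣ N' := Dvd.dvd.trans (by norm_num) h4
  have hodd : Odd p := hp.out.odd_of_ne_two hp2
  exact m59tx_ex1_star A hA N' hq2 hqN' hp2 hqp h4 S ζ hζ Q0
    (m59tt_hTau A hA N' hq2 hqN' S.L1 S.lev.irr S.zN S.hzN h2N hodd S.zp S.hzp)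

end Star

end Fermat.Agent.M59

end
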