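/-
M59 / Sink B, leaf 4 [TOR-SURJ], cell [TRI-EX] (helper3).  Prefix `m59t2_`.

THE TRIPLE POINTS OVER A CROSSING POINT.  `ι : B1 →+* B2` an injective integral ring homomorphism of
domains, `B1` integrally closed (in use: the chart map `aB` from the `λ`-chart of level `N' q` to the
`λ`-chart of level `N' q q`).  `PA PB PC` the vertical primes of `B2`, `P1 P2` those of `B1`,
`PA ∩ B1 = PC ∩ B1 = P1`, `PB ∩ B1 = P2`.

* `m59t2_exists_over`   : every maximal ideal of `B1` is the contraction of a maximal ideal of `B2`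
  (lying over);
* `m59t2_going_down`    : going down (Mathlib's `Algebra.HasGoingDown` for integral extensions of a
  normal domain);
* `m59t2_two_of_cross`  : if `𝔫 ∩ B1` is a crossing point (`⊇ P1 + P2`) then two of `PA, PB, PC`
  pass through `𝔫` (the hypothesis `htwo` of `s36asm_PtsT1`).
-/
import Mathlib

set_option autoImplicit false
set_option linter.unusedSectionVars false
set_option linter.unusedVariables false
set_option linter.style.haveILetI false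

namespace Fermat.Agent.M59

section Generic

variable {B1 B2 : Type*} [CommRing B1] [CommRing B2] [IsDomain B2]

/-- lying over for maximal ideals along an injective integral ring homomorphism. -/
theorem m59t2_exists_over (ι : B1 →+* B2) (hinj : Function.Injective ι) (hint : ι.IsIntegral)
    (𝔫1 : Ideal B1) [h1 : 𝔫1.IsMaximal] :
    ∃ 𝔫 : Ideal B2, 𝔫.IsMaximal ∧ 𝔫.comap ι = 𝔫1 := by
  letI : Algebra B1 B2 := ι.toAlgebra
  haveI : Algebra.IsIntegral B1 B2 := ⟨fun x => hint x⟩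
  have hker : RingHom.ker (algebraMap B1 B2) ≤ 𝔫1 := by
    have : RingHom.ker (algebraMap B1 B2) = ⊥ := (RingHom.injective_iff_ker_eq_bot _).1 hinj
    rw [this]
    exact bot_le
  exact Ideal.exists_ideal_over_maximal_of_isIntegral 𝔫1 hker

/-- going down along an injective integral ring homomorphism out of a normal domain. -/
theorem m59t2_going_down [IsIntegrallyClosed B1] (ι : B1 →+* B2)
    (hinj : Function.Injective ι) (hint : ι.IsIntegral)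
    (𝔫 : Ideal B2) [h𝔫 : 𝔫.IsPrime] (P : Ideal B1) [hP : P.IsPrime] (h : P ≤ 𝔫.comap ι) :
    ∃ 𝔭 : Ideal B2, 𝔭 ≤ 𝔫 ∧ 𝔭.IsPrime ∧ 𝔭.comap ι = P := by
  letI : Algebra B1 B2 := ι.toAlgebra
  haveI : Algebra.IsIntegral B1 B2 := ⟨fun x => hint x⟩
  haveI : FaithfulSMul B1 B2 := (faithfulSMul_iff_algebraMap_injective B1 B2).2 hinj
  haveI : (𝔫.under B1).IsPrime := Ideal.comap_isPrime _ _
  obtain ⟨𝔭, h𝔭le, h𝔭p, h𝔭o⟩ := Ideal.exists_ideal_le_liesOver_of_le (p := P) (q := 𝔫.under B1) 𝔫 h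
  exact ⟨𝔭, h𝔭le, h𝔭p, h𝔭o.over.symm⟩

/-- **two components pass through every point over a crossing point.** -/
theorem m59t2_two_of_cross [IsIntegrallyClosed B1] (ι : B1 →+* B2)
    (hinj : Function.Injective ι) (hint : ι.IsIntegral)
    (ϖ1 : B1) (PA PB PC : Ideal B2) (P1 P2 : Ideal B1) [hP1 : P1.IsPrime] [hP2 : P2.IsPrime]
    (hϖ1 : ϖ1 ∈ P1) (hϖ2 : ϖ1 ∈ P2)
    (hPle : ∀ Q : Ideal B2, Q.IsPrime → ι ϖ1 ∈ Q → PA ≤ Q ∨ PB ≤ Q ∨ PC ≤ Q)
    (hA : PA.comap ι = P1) (hB : PB.comap ι = P2) (hC : PC.comap ι = P1)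
    (h12 : ¬ P1 ≤ P2) (h21 : ¬ P2 ≤ P1)
    (𝔫 : Ideal B2) [h𝔫 : 𝔫.IsPrime] (h1 : P1 ≤ 𝔫.comap ι) (h2 : P2 ≤ 𝔫.comap ι) :
    (PA ≤ 𝔫 ∧ PB ≤ 𝔫) ∨ (PA ≤ 𝔫 ∧ PC ≤ 𝔫) ∨ (PB ≤ 𝔫 ∧ PC ≤ 𝔫) := by
  -- the component over `P2`
  have hBle : PB ≤ 𝔫 := by
    obtain ⟨𝔭, h𝔭le, h𝔭p, h𝔭c⟩ := m59t2_going_down ι hinj hint 𝔫 P2 h2
    have hϖ𝔭 : ι ϖ1 ∈ 𝔭 := by
      have : ϖ1 ∈ 𝔭.comap ι := by rw [h𝔭c]; exact hϖ2
      exact this
    rcases hPle 𝔭 h𝔭p hϖ𝔭 with h | h | h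
    · exfalso
      apply h12
      rw [← hA, ← h𝔭c]
      exact Ideal.comap_mono h
    · exact h.trans h𝔭le
    · exfalso
      apply h12
      rw [← hC, ← h𝔭c]
      exact Ideal.comap_mono h
  -- a component over `P1`
  obtain ⟨𝔭, h𝔭le, h𝔭p, h𝔭c⟩ := m59t2_going_down ι hinj hint 𝔫 P1 h1
  have hϖ𝔭 : ι ϖ1 ∈ 𝔭 := by
    have : ϖ1 ∈ 𝔭.comap ι := by rw [h𝔭c]; exact hϖ1
    exact this
  rcases hPle 𝔭 h𝔭p hϖ𝔭 with h | h | h
  · exact Or.inl ⟨h.trans h𝔭le, hBle⟩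
  · exfalso
    apply h21
    rw [← hB, ← h𝔭c]
    exact Ideal.comap_mono h
  · exact Or.inr (Or.inr ⟨hBle, h.trans h𝔭le⟩)

end Generic

end Fermat.Agent.M59
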