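/-
M59 / Sink B, leaf 4 [TOR-SURJ], cell [TRI-EX], LEGENDRE INSTANCE (helper3).  Prefix `m59t2_`.

Context of `Tor/Defs2.lean` (`A`, `L ⊆ ℚ̄` the big level, `O = A ∩ L`, uniformiser `q`), `ζ ∈ L` a
primitive `N'`-th root of unity, `VC` with `s36asm_Third`, and a chart map `aB : B1 →+* B2`
(PARAMETER; in use the restriction of `E1 ⊆ E2`) which is injective, integral, `O`-linear and
contracts `PA, PB, PC` to `P1, P2, P1`:

* `m59t2_le_of_ptTri`  : the three components pass through a point with `s36g_PtTri`;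
* `m59t2_tri_of_cross` : a maximal ideal `𝔫` of `B2` whose contraction is a crossing point of `B1`
  is a TRIPLE point (`PA, PB, PC ≤ 𝔫`): going down gives two components (`m59t2_two_of_cross`), the
  closed clause `s36asm_ptsT1_leg` gives `s36g_PtTri`;
* `m59t2_exists_tri`   : over every crossing point of `B1` there is a triple point of `B2`.
-/
import Mathlib
import Fermat.Agent.M59.SinkB.Tor.TriEx
import Fermat.Agent.M59.SinkB.Tor.Defs2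
import Fermat.Agent.M59.SinkB.Tor.GlueLeg

set_option autoImplicit false
set_option linter.unusedSectionVars false
set_option linter.unusedVariables false
set_option linter.style.haveILetI false
set_option synthInstance.maxHeartbeats 400000
set_option maxHeartbeats 1000000

noncomputable section

namespace Fermat.Agent.M59

open Polynomial ModularCurve AlgebraicCurve IntermediateField IsLocalRing
open Fermat.Agent.JT3 Fermat.Agent.SS Fermat.Agent.S35 Fermat.Agent.S24 Fermat.Agent.S44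
  Fermat.Agent.S36 Fermat.Agent.SS2

local notation "Qb" => AlgebraicClosure ℚ

universe v

section PtTri

variable {A0 : Type*} [CommRing A0] {F0 : Type v} [Field F0] [Algebra A0 F0]
variable {B : Subalgebra A0 F0} [IsFractionRing B F0] [IsNoetherianRing B] [IsIntegrallyClosed B]

/-- the three components pass through a triple point. -/
theorem m59t2_le_of_ptTri {π : A0} {p : ℕ} {N1 N2 : F0 →* F0} {K1 K2 : Subfield F0}
    {PA PB PC : Ideal B} (𝔫 : Ideal B) [h𝔫 : 𝔫.IsPrime]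
    (hpt : s36g_PtTri π p N1 N2 K1 K2 B PA PB PC 𝔫) : PA ≤ 𝔫 ∧ PB ≤ 𝔫 ∧ PC ≤ 𝔫 := by
  obtain ⟨-, a, b, c, ha, hb, hc, -, -, -, -, hcA, hcB, hcC, -⟩ := hpt
  have hne : ∀ {t : ssl_locSub F0 𝔫}, Prime t → Ideal.span {t} ≠ ⊤ := fun ht =>
    ((Ideal.span_singleton_prime ht.ne_zero).2 ht).ne_top
  refine ⟨?_, ?_, ?_⟩
  · rw [← hcA]; exact m59ti_comap_le 𝔫 _ (hne ha)
  · rw [← hcB]; exact m59ti_comap_le 𝔫 _ (hne hb)
  · rw [← hcC]; exact m59ti_comap_le 𝔫 _ (hne hc)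

end PtTri

section NFq

variable (L : Type) [Field L] [NumberField L] [Algebra L (AlgebraicClosure ℚ)]
  (O : ValuationSubring L) [IsDiscreteValuationRing O]
variable (N' q : ℕ) [NeZero N'] [NeZero q] [hq : Fact q.Prime] [CharP (ResidueField O) q]
  (hq2 : ¬ 2 ∣ q) (hqN' : ¬ q ∣ N') (hπ : Irreducible ((q : ℕ) : ↥O))
  (ζ : L) (hζ : IsPrimitiveRoot ζ N')

include hζ in
set_option synthInstance.maxHeartbeats 400000 in
/-- two components through a point force the third ([NF2-CTX], closed clause (T1)). -/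
theorem m59ti_tri_of_two {VC : ValuationSubring ↥(lg_E L (N' * q * q))}
    (T3 : s36asm_Third O hπ N' q hq2 hqN' VC)
    (𝔫 : Ideal (fc_chart ↥O ({lg_lamE (N' * q * q)} : Set ↥(lg_E L (N' * q * q)))))
    (h𝔫 : 𝔫.IsMaximal)
    (hq𝔫 : algebraMap ↥O (fc_chart ↥O ({lg_lamE (N' * q * q)} : Set ↥(lg_E L (N' * q * q))))
      ((q : ℕ) : ↥O) ∈ 𝔫)
    (htwo : (ssm_tp_P (fc_chart ↥O ({lg_lamE (N' * q * q)} : Set ↥(lg_E L (N' * q * q))))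
          (s36i_VA O hπ (N' * q) q) ≤ 𝔫 ∧
        ssm_tp_P (fc_chart ↥O ({lg_lamE (N' * q * q)} : Set ↥(lg_E L (N' * q * q))))
          (s36i_VB O hπ N' q hq2 hqN') ≤ 𝔫) ∨
      (ssm_tp_P (fc_chart ↥O ({lg_lamE (N' * q * q)} : Set ↥(lg_E L (N' * q * q))))
          (s36i_VA O hπ (N' * q) q) ≤ 𝔫 ∧
        ssm_tp_P (fc_chart ↥O ({lg_lamE (N' * q * q)} : Set ↥(lg_E L (N' * q * q)))) VC ≤ 𝔫) ∨
      (ssm_tp_P (fc_chart ↥O ({lg_lamE (N' * q * q)} : Set ↥(lg_E L (N' * q * q))))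
          (s36i_VB O hπ N' q hq2 hqN') ≤ 𝔫 ∧
        ssm_tp_P (fc_chart ↥O ({lg_lamE (N' * q * q)} : Set ↥(lg_E L (N' * q * q)))) VC ≤ 𝔫)) :
    ssm_tp_P (fc_chart ↥O ({lg_lamE (N' * q * q)} : Set ↥(lg_E L (N' * q * q))))
        (s36i_VA O hπ (N' * q) q) ≤ 𝔫 ∧
      ssm_tp_P (fc_chart ↥O ({lg_lamE (N' * q * q)} : Set ↥(lg_E L (N' * q * q))))
        (s36i_VB O hπ N' q hq2 hqN') ≤ 𝔫 ∧
      ssm_tp_P (fc_chart ↥O ({lg_lamE (N' * q * q)} : Set ↥(lg_E L (N' * q * q)))) VC ≤ 𝔫 := by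
  haveI h𝔫p : 𝔫.IsPrime := h𝔫.isPrime
  haveI := ssm_go_isScalarTower O (lg_E L (N' * q * q))
  haveI : FiniteDimensional L⟮(lg_lamE (N' * q * q) : lg_E L (N' * q * q))⟯
      ↥(lg_E L (N' * q * q)) := lgf_finite L (N' * q * q)
  haveI := s36cp_chart_isFractionRing O (L := L) (N' * q * q)
  have hx : Transcendental L (lg_lamE (L := L) (N' * q * q)) :=
    lgf_lam_transcendental L (N' * q * q) two_ne_zero
  haveI := ssm_ths_chart_isNoetherianRing (A0 := ↥O) (L := L) hx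
  haveI := ssm_ths_chart_isIntegrallyClosed (A0 := ↥O) (L := L)
    (lg_lamE (N' * q * q) : ↥(lg_E L (N' * q * q)))
  have hpt := s36asm_ptsT1_leg L O N' q hq2 hqN' hπ ζ hζ T3 𝔫 h𝔫 hq𝔫 htwo
  obtain ⟨-, a, b, c, ha, hb, hc, -, -, -, -, hcA, hcB, hcC, -⟩ := hpt
  have hne : ∀ {t : ssl_locSub ↥(lg_E L (N' * q * q)) 𝔫}, Prime t → Ideal.span {t} ≠ ⊤ :=
    fun ht => ((Ideal.span_singleton_prime ht.ne_zero).2 ht).ne_top
  refine ⟨?_, ?_, ?_⟩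
  · rw [← hcA]; exact m59ti_comap_le 𝔫 _ (hne ha)
  · rw [← hcB]; exact m59ti_comap_le 𝔫 _ (hne hb)
  · rw [← hcC]; exact m59ti_comap_le 𝔫 _ (hne hc)

end NFq

section Leg

variable (A : ValuationSubring Qb) {q : ℕ} [hq : Fact q.Prime]
  (N' : ℕ) [NeZero N'] [NeZero q] [NeZero (N' * q)] [NeZero (N' * q * q)]
  (hq2 : ¬ 2 ∣ q) (hqN' : ¬ q ∣ N')
  (L : IntermediateField ℚ Qb) [NumberField ↥L]
  [IsDiscreteValuationRing ↥(A.comap (algebraMap ↥L Qb))]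
  [CharP (ResidueField ↥(A.comap (algebraMap ↥L Qb))) q]
  (hπq : Irreducible ((q : ℕ) : ↥(A.comap (algebraMap ↥L Qb))))
  (ζ : ↥L) (hζ : IsPrimitiveRoot ζ N')

include hζ in
/-- level `N' q`: `P1`, `P2` are incomparable primes containing `q`. -/
theorem m59t2_cross_data :
    (m59t1_P1 (q := q) A N' L hπq).IsPrime ∧ (m59t1_P2 A N' hq2 hqN' L hπq).IsPrime ∧
    algebraMap ↥(A.comap (algebraMap ↥L Qb)) ↥(m59t1_B1 A N' q L)
      ((q : ℕ) : ↥(A.comap (algebraMap ↥L Qb))) ∈ m59t1_P1 (q := q) A N' L hπq ∧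
    algebraMap ↥(A.comap (algebraMap ↥L Qb)) ↥(m59t1_B1 A N' q L)
      ((q : ℕ) : ↥(A.comap (algebraMap ↥L Qb))) ∈ m59t1_P2 A N' hq2 hqN' L hπq ∧
    ¬ m59t1_P1 (q := q) A N' L hπq ≤ m59t1_P2 A N' hq2 hqN' L hπq ∧
    ¬ m59t1_P2 A N' hq2 hqN' L hπq ≤ m59t1_P1 (q := q) A N' L hπq ∧
    IsIntegrallyClosed ↥(m59t1_B1 A N' q L) := by
  have hqO : ((q : ℕ) : ↥(A.comap (algebraMap ↥L Qb))) ∈
      maximalIdeal ↥(A.comap (algebraMap ↥L Qb)) :=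
    ssm_fln_q_mem ↥L (A.comap (algebraMap ↥L Qb)) q
  have hq2' : q ≠ 2 := ssm_fl_ne_two q hq2
  have hp := ssm_ll_prime ↥L N' hπq q hqO hq2' hqN' ζ hζ
  haveI := ssm_go_isScalarTower (A.comap (algebraMap ↥L Qb)) (lg_E ↥L (N' * q))
  haveI : FiniteDimensional (↥L)⟮(lg_lamE (N' * q) : lg_E ↥L (N' * q))⟯ ↥(lg_E ↥L (N' * q)) :=
    lgf_finite ↥L (N' * q)
  have hx1 : Transcendental ↥L (lg_lamE (L := ↥L) (N' * q)) :=
    lgf_lam_transcendental ↥L (N' * q) two_ne_zero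
  have hx1A : Transcendental ↥(A.comap (algebraMap ↥L Qb)) (lg_lamE (L := ↥L) (N' * q)) :=
    fc_ff_transcendental (L := ↥L) hx1
  haveI : IsIntegrallyClosed (Algebra.adjoin ↥(A.comap (algebraMap ↥L Qb))
      ({lg_lamE (N' * q)} : Set ↥(lg_E ↥L (N' * q)))) := fc_ff_isIntegrallyClosed hx1A
  haveI : FaithfulSMul (Algebra.adjoin ↥(A.comap (algebraMap ↥L Qb))
      ({lg_lamE (N' * q)} : Set ↥(lg_E ↥L (N' * q)))) ↥(lg_E ↥L (N' * q)) :=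
    (faithfulSMul_iff_algebraMap_injective _ _).2 Subtype.val_injective
  have H1 := ssm_gl_hyp (A.comap (algebraMap ↥L Qb)) hπq N' q hq2 hqN' hp.1
  have hC1 := ssm_tp_ff_chart (L := ↥L) (A0 := ↥(A.comap (algebraMap ↥L Qb)))
    (F0 := ↥(lg_E ↥L (N' * q))) hπq hx1
  have hinf := H1.P_inf hC1 (algebraMap ↥(A.comap (algebraMap ↥L Qb)) ↥(m59t1_B1 A N' q L)
    ((q : ℕ) : ↥(A.comap (algebraMap ↥L Qb)))) rfl
  have hϖmem : algebraMap ↥(A.comap (algebraMap ↥L Qb)) ↥(m59t1_B1 A N' q L)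
      ((q : ℕ) : ↥(A.comap (algebraMap ↥L Qb))) ∈
      m59t1_P1 (q := q) A N' L hπq ⊓ m59t1_P2 A N' hq2 hqN' L hπq := by
    rw [← hinf]
    exact Ideal.subset_span rfl
  exact ⟨H1.P1_isPrime hC1, H1.P2_isPrime hC1, hϖmem.1, hϖmem.2, H1.P_not_le12 hC1,
    H1.P_not_le21 hC1, ssm_ths_chart_isIntegrallyClosed (A0 := ↥(A.comap (algebraMap ↥L Qb)))
      (L := ↥L) (lg_lamE (N' * q) : ↥(lg_E ↥L (N' * q)))⟩

include hζ in
/-- level `N' q q`: a prime of `B2` containing `q` contains one of `PA`, `PB`, `PC`. -/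
theorem m59t2_vert_cases {VC : ValuationSubring ↥(lg_E ↥L (N' * q * q))}
    (T3 : s36asm_Third (A.comap (algebraMap ↥L Qb)) hπq N' q hq2 hqN' VC)
    (Q : Ideal ↥(m59t2_B2 A N' q L)) (hQ : Q.IsPrime)
    (hqQ : algebraMap ↥(A.comap (algebraMap ↥L Qb)) ↥(m59t2_B2 A N' q L)
      ((q : ℕ) : ↥(A.comap (algebraMap ↥L Qb))) ∈ Q) :
    m59t2_PA (q := q) A N' L hπq ≤ Q ∨ m59t2_PB A N' hq2 hqN' L hπq ≤ Q ∨
      m59t2_PC (q := q) A N' L VC ≤ Q := by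
  obtain ⟨H, P⟩ := m59ti_pts_leg ↥L (A.comap (algebraMap ↥L Qb)) N' q hq2 hqN' hπq ζ hζ T3
  haveI := ssm_go_isScalarTower (A.comap (algebraMap ↥L Qb)) (lg_E ↥L (N' * q * q))
  haveI : FiniteDimensional (↥L)⟮(lg_lamE (N' * q * q) : lg_E ↥L (N' * q * q))⟯
      ↥(lg_E ↥L (N' * q * q)) := lgf_finite ↥L (N' * q * q)
  have hx : Transcendental ↥L (lg_lamE (L := ↥L) (N' * q * q)) :=
    lgf_lam_transcendental ↥L (N' * q * q) two_ne_zero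
  have hxA : Transcendental ↥(A.comap (algebraMap ↥L Qb)) (lg_lamE (L := ↥L) (N' * q * q)) :=
    fc_ff_transcendental (L := ↥L) hx
  haveI : IsIntegrallyClosed (Algebra.adjoin ↥(A.comap (algebraMap ↥L Qb))
      ({lg_lamE (N' * q * q)} : Set ↥(lg_E ↥L (N' * q * q)))) := fc_ff_isIntegrallyClosed hxA
  haveI : FaithfulSMul (Algebra.adjoin ↥(A.comap (algebraMap ↥L Qb))
      ({lg_lamE (N' * q * q)} : Set ↥(lg_E ↥L (N' * q * q)))) ↥(lg_E ↥L (N' * q * q)) :=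
    (faithfulSMul_iff_algebraMap_injective _ _).2 Subtype.val_injective
  have hC2 : ssm_tp_Chart (algebraMap ↥(A.comap (algebraMap ↥L Qb))
      (Algebra.adjoin ↥(A.comap (algebraMap ↥L Qb))
        ({lg_lamE (N' * q * q)} : Set ↥(lg_E ↥L (N' * q * q))))
      ((q : ℕ) : ↥(A.comap (algebraMap ↥L Qb)))) (m59t2_B2 A N' q L) :=
    ssm_tp_ff_chart (L := ↥L) hπq hx
  haveI := hQ
  obtain ⟨i, hi⟩ := H.P_le_of_mem hC2 _ rfl Q hqQ
  revert hi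
  refine Fin.cases ?_ (fun j => Fin.cases ?_ (fun k => Fin.cases ?_ (fun l => l.elim0) k) j) i
  · exact fun hi => Or.inl hi
  · exact fun hi => Or.inr (Or.inl hi)
  · exact fun hi => Or.inr (Or.inr hi)

include hζ in
/-- two components through a point of `B2` force the third (Defs2 vocabulary). -/
theorem m59t2_tri_of_two {VC : ValuationSubring ↥(lg_E ↥L (N' * q * q))}
    (T3 : s36asm_Third (A.comap (algebraMap ↥L Qb)) hπq N' q hq2 hqN' VC)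
    (𝔫 : Ideal ↥(m59t2_B2 A N' q L)) (h𝔫 : 𝔫.IsMaximal)
    (hq𝔫 : algebraMap ↥(A.comap (algebraMap ↥L Qb)) ↥(m59t2_B2 A N' q L)
      ((q : ℕ) : ↥(A.comap (algebraMap ↥L Qb))) ∈ 𝔫)
    (htwo : (m59t2_PA (q := q) A N' L hπq ≤ 𝔫 ∧ m59t2_PB A N' hq2 hqN' L hπq ≤ 𝔫) ∨
      (m59t2_PA (q := q) A N' L hπq ≤ 𝔫 ∧ m59t2_PC (q := q) A N' L VC ≤ 𝔫) ∨
      (m59t2_PB A N' hq2 hqN' L hπq ≤ 𝔫 ∧ m59t2_PC (q := q) A N' L VC ≤ 𝔫)) :
    m59t2_PA (q := q) A N' L hπq ≤ 𝔫 ∧ m59t2_PB A N' hq2 hqN' L hπq ≤ 𝔫 ∧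
      m59t2_PC (q := q) A N' L VC ≤ 𝔫 :=
  m59ti_tri_of_two ↥L (A.comap (algebraMap ↥L Qb)) N' q hq2 hqN' hπq ζ hζ T3 𝔫 h𝔫 hq𝔫 htwo

include hζ in
/-- **a point of `B2` over a crossing point of `B1` is a triple point.** -/
theorem m59t2_tri_of_cross {VC : ValuationSubring ↥(lg_E ↥L (N' * q * q))}
    (T3 : s36asm_Third (A.comap (algebraMap ↥L Qb)) hπq N' q hq2 hqN' VC)
    (aB : ↥(m59t1_B1 A N' q L) →+* ↥(m59t2_B2 A N' q L))
    (hinj : Function.Injective aB) (hint : aB.IsIntegral)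
    (haO : ∀ c : ↥(A.comap (algebraMap ↥L Qb)),
      aB (algebraMap ↥(A.comap (algebraMap ↥L Qb)) ↥(m59t1_B1 A N' q L) c) =
        algebraMap ↥(A.comap (algebraMap ↥L Qb)) ↥(m59t2_B2 A N' q L) c)
    (hA : (m59t2_PA (q := q) A N' L hπq).comap aB = m59t1_P1 (q := q) A N' L hπq)
    (hB : (m59t2_PB A N' hq2 hqN' L hπq).comap aB = m59t1_P2 A N' hq2 hqN' L hπq)
    (hC : (m59t2_PC (q := q) A N' L VC).comap aB = m59t1_P1 (q := q) A N' L hπq)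
    (𝔫 : Ideal ↥(m59t2_B2 A N' q L)) (h𝔫 : 𝔫.IsMaximal)
    (h1 : m59t1_P1 (q := q) A N' L hπq ≤ 𝔫.comap aB)
    (h2 : m59t1_P2 A N' hq2 hqN' L hπq ≤ 𝔫.comap aB) :
    m59t2_PA (q := q) A N' L hπq ≤ 𝔫 ∧ m59t2_PB A N' hq2 hqN' L hπq ≤ 𝔫 ∧
      m59t2_PC (q := q) A N' L VC ≤ 𝔫 := by
  haveI h𝔫p : 𝔫.IsPrime := h𝔫.isPrime
  obtain ⟨iP1, iP2, hϖ1, hϖ2, h12, h21, iIC⟩ := m59t2_cross_data A N' hq2 hqN' L hπq ζ hζ
  haveI := iP1
  haveI := iP2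
  haveI := iIC
  have hPle : ∀ Q : Ideal ↥(m59t2_B2 A N' q L), Q.IsPrime →
      aB (algebraMap ↥(A.comap (algebraMap ↥L Qb)) ↥(m59t1_B1 A N' q L)
        ((q : ℕ) : ↥(A.comap (algebraMap ↥L Qb)))) ∈ Q →
      m59t2_PA (q := q) A N' L hπq ≤ Q ∨ m59t2_PB A N' hq2 hqN' L hπq ≤ Q ∨
        m59t2_PC (q := q) A N' L VC ≤ Q := by
    intro Q hQ hϖQ
    rw [haO] at hϖQ
    exact m59t2_vert_cases A N' hq2 hqN' L hπq ζ hζ T3 Q hQ hϖQ
  haveI : IsDomain ↥(m59t2_B2 A N' q L) := inferInstance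
  have htwo : (m59t2_PA (q := q) A N' L hπq ≤ 𝔫 ∧ m59t2_PB A N' hq2 hqN' L hπq ≤ 𝔫) ∨
      (m59t2_PA (q := q) A N' L hπq ≤ 𝔫 ∧ m59t2_PC (q := q) A N' L VC ≤ 𝔫) ∨
      (m59t2_PB A N' hq2 hqN' L hπq ≤ 𝔫 ∧ m59t2_PC (q := q) A N' L VC ≤ 𝔫) :=
    m59t2_two_of_cross (B1 := ↥(m59t1_B1 A N' q L)) (B2 := ↥(m59t2_B2 A N' q L)) aB hinj hint
      (algebraMap ↥(A.comap (algebraMap ↥L Qb)) ↥(m59t1_B1 A N' q L)
        ((q : ℕ) : ↥(A.comap (algebraMap ↥L Qb))))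
      (m59t2_PA (q := q) A N' L hπq)
      (m59t2_PB A N' hq2 hqN' L hπq) (m59t2_PC (q := q) A N' L VC)
      (m59t1_P1 (q := q) A N' L hπq)
      (m59t1_P2 A N' hq2 hqN' L hπq) hϖ1 hϖ2 hPle hA hB hC h12 h21 𝔫 h1 h2
  have hq𝔫 : algebraMap ↥(A.comap (algebraMap ↥L Qb)) ↥(m59t2_B2 A N' q L)
      ((q : ℕ) : ↥(A.comap (algebraMap ↥L Qb))) ∈ 𝔫 := by
    have h3 := Ideal.mem_comap.1 (h1 hϖ1)
    rw [haO] at h3
    exact h3
  exact m59t2_tri_of_two A N' hq2 hqN' L hπq ζ hζ T3 𝔫 h𝔫 hq𝔫 htwo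

include hζ in
/-- **over every crossing point of `B1` there is a triple point of `B2`.** -/
theorem m59t2_exists_tri {VC : ValuationSubring ↥(lg_E ↥L (N' * q * q))}
    (T3 : s36asm_Third (A.comap (algebraMap ↥L Qb)) hπq N' q hq2 hqN' VC)
    (aB : ↥(m59t1_B1 A N' q L) →+* ↥(m59t2_B2 A N' q L))
    (hinj : Function.Injective aB) (hint : aB.IsIntegral)
    (haO : ∀ c : ↥(A.comap (algebraMap ↥L Qb)),
      aB (algebraMap ↥(A.comap (algebraMap ↥L Qb)) ↥(m59t1_B1 A N' q L) c) =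
        algebraMap ↥(A.comap (algebraMap ↥L Qb)) ↥(m59t2_B2 A N' q L) c)
    (hA : (m59t2_PA (q := q) A N' L hπq).comap aB = m59t1_P1 (q := q) A N' L hπq)
    (hB : (m59t2_PB A N' hq2 hqN' L hπq).comap aB = m59t1_P2 A N' hq2 hqN' L hπq)
    (hC : (m59t2_PC (q := q) A N' L VC).comap aB = m59t1_P1 (q := q) A N' L hπq)
    (𝔫1 : Ideal ↥(m59t1_B1 A N' q L)) (h𝔫1 : 𝔫1.IsMaximal)
    (h1 : m59t1_P1 (q := q) A N' L hπq ≤ 𝔫1) (h2 : m59t1_P2 A N' hq2 hqN' L hπq ≤ 𝔫1) :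
    ∃ 𝔫 : Ideal ↥(m59t2_B2 A N' q L), 𝔫.IsMaximal ∧ 𝔫.comap aB = 𝔫1 ∧
      m59t2_PA (q := q) A N' L hπq ≤ 𝔫 ∧ m59t2_PB A N' hq2 hqN' L hπq ≤ 𝔫 ∧
        m59t2_PC (q := q) A N' L VC ≤ 𝔫 := by
  haveI := h𝔫1
  obtain ⟨𝔫, h𝔫, hc⟩ := m59t2_exists_over aB hinj hint 𝔫1
  refine ⟨𝔫, h𝔫, hc, ?_⟩
  exact m59t2_tri_of_cross A N' hq2 hqN' L hπq ζ hζ T3 aB hinj hint haO hA hB hC 𝔫 h𝔫
    (hc ▸ h1) (hc ▸ h2)

end Leg

end Fermat.Agent.M59
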