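/-
M59 / Sink B, leaf 4 [TOR-SURJ], THE EXISTENCE OF A TRIPLE POINT (helper6; the hypothesis `hex` of
`Tor/Inj2Head.lean` / `Tor/Inj2Closed.lean`; fallback twin of helper3's [TRI-EX], by lying-over +
the uniqueness of the point of `B₂` over a crossing point of `B₁`, no going-down).
Prefix `m59tj2_`.

* `m59tj2_triple_over` : ([NF2-CTX] + `T3`) over every crossing point `𝔫₁ ⊇ P1 + P2` of the chart `B₁`
  there is a triple point `𝔫 ⊇ PA + PB + PC` of the chart `B₂` with `𝔫 ∩ B₁ = 𝔫₁` (along the inclusion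
  `m59tpr_aB`): lying-over on the components `A` and `B` (`ssm_cp_exists`), the two points coincide
  (`s36tri_huniq_of_third`), and two components force the third (`m59tu2_tri_pack`);
* **`m59tj2_hex`** : in the vocabulary of `Tor/Defs2.lean`, LITERALLY the hypothesis `hex` of
  `m59tj2_inj2_of_loc` / `m59tj2_inj2_star` / `m59tj2_inj2_closed`: ONE third valuation with ONE
  triple point (over the crossing point `m59tj_exists_node … Q0`);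
* **`m59tj2_inj2_final`** : the clause (inj2) of `m59tf_Cells2` over the big level for ANY chart maps
  over `m59tpr_aE`, `m59tpr_bE`: NO hypothesis left.
-/
import Mathlib
import Fermat.Agent.M59.SinkB.Tor.Inj2Closed
import Fermat.Agent.M59.SinkB.Tor.Inj1All
import Fermat.Agent.M59.SinkB.Tor.Uniq2
import Fermat.Agent.M59.SinkB.Tor.PullRestrB
import Fermat.Agent.M59.SinkB.Tor.PullLocT
import Fermat.Agent.S36.Tri.LegDataClosed

set_option autoImplicit false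
set_option linter.unusedSectionVars false
set_option linter.unusedVariables false
set_option linter.style.haveILetI false
set_option synthInstance.maxHeartbeats 400000
set_option maxHeartbeats 1000000

noncomputable section

namespace Fermat.Agent.M59

open Polynomial ModularCurve AlgebraicCurve IntermediateField IsLocalRing
open Fermat.Agent.JT3 Fermat.Agent.SS Fermat.Agent.S35 Fermat.Agent.S24 Fermat.Agent.S44
  Fermat.Agent.S36 Fermat.Agent.SS2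

local notation "Qb" => AlgebraicClosure ℚ

section NFq

variable (L : Type) [Field L] [NumberField L] [Algebra L (AlgebraicClosure ℚ)]
  (O : ValuationSubring L) [IsDiscreteValuationRing O]
variable (N' q : ℕ) [NeZero N'] [NeZero q] [hq : Fact q.Prime] [CharP (ResidueField O) q]
  (hq2 : ¬ 2 ∣ q) (hqN' : ¬ q ∣ N') (hπ : Irreducible ((q : ℕ) : ↥O))
  (ζ : L) (hζ : IsPrimitiveRoot ζ N')

include hζ in
set_option maxHeartbeats 3200000 in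
/-- **over every crossing point of `B₁` there is a triple point of `B₂`.** -/
theorem m59tj2_triple_over {VC : ValuationSubring ↥(lg_E L (N' * q * q))}
    (T3 : s36asm_Third O hπ N' q hq2 hqN' VC)
    (𝔫1 : Ideal ↥(fc_chart ↥O ({lg_lamE (N' * q)} : Set ↥(lg_E L (N' * q)))))
    (h𝔫1 : 𝔫1.IsMaximal)
    (hP1 : ssm_tp_P (fc_chart ↥O ({lg_lamE (N' * q)} : Set ↥(lg_E L (N' * q))))
      (ssm_gl_V1 O hπ N' q) ≤ 𝔫1)
    (hP2 : ssm_tp_P (fc_chart ↥O ({lg_lamE (N' * q)} : Set ↥(lg_E L (N' * q))))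
      (ssm_gl_V2 O hπ N' q hq2 hqN') ≤ 𝔫1) :
    ∃ 𝔫 : Ideal ↥(fc_chart ↥O ({lg_lamE (N' * q * q)} : Set ↥(lg_E L (N' * q * q)))),
      𝔫.IsMaximal ∧
      ssm_tp_P (fc_chart ↥O ({lg_lamE (N' * q * q)} : Set ↥(lg_E L (N' * q * q))))
        (s36i_VA O hπ (N' * q) q) ≤ 𝔫 ∧
      ssm_tp_P (fc_chart ↥O ({lg_lamE (N' * q * q)} : Set ↥(lg_E L (N' * q * q))))
        (s36i_VB O hπ N' q hq2 hqN') ≤ 𝔫 ∧
      ssm_tp_P (fc_chart ↥O ({lg_lamE (N' * q * q)} : Set ↥(lg_E L (N' * q * q)))) VC ≤ 𝔫 ∧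
      𝔫.comap (m59tpr_aB L O N' q) = 𝔫1 := by
  haveI := h𝔫1.isPrime
  have hint := m59tpr_aB_isIntegral L O N' q
  have hcA := m59tpr_PA_comap_aB L O N' q hq2 hqN' hπ ζ hζ T3
  have hcB := m59tpr_PB_comap_aB L O N' q hq2 hqN' hπ ζ hζ T3
  obtain ⟨𝔫A, hleA, hpA, hcompA⟩ := ssm_cp_exists (m59tpr_aB L O N' q) hint
    (ssm_tp_P (fc_chart ↥O ({lg_lamE (N' * q * q)} : Set ↥(lg_E L (N' * q * q))))
      (s36i_VA O hπ (N' * q) q)) 𝔫1 (hcA.symm ▸ hP1)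
  obtain ⟨𝔫B, hleB, hpB, hcompB⟩ := ssm_cp_exists (m59tpr_aB L O N' q) hint
    (ssm_tp_P (fc_chart ↥O ({lg_lamE (N' * q * q)} : Set ↥(lg_E L (N' * q * q))))
      (s36i_VB O hπ N' q hq2 hqN')) 𝔫1 (hcB.symm ▸ hP2)
  have hmaxA : 𝔫A.IsMaximal :=
    ssm_cp_isMaximal_of_comap (m59tpr_aB L O N' q) hint 𝔫A (hcompA.symm ▸ h𝔫1)
  have hmaxB : 𝔫B.IsMaximal :=
    ssm_cp_isMaximal_of_comap (m59tpr_aB L O N' q) hint 𝔫B (hcompB.symm ▸ h𝔫1)
  have hcompA' : 𝔫A.comap (s36tn_leg_iota O N' q) = 𝔫1 := by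
    rw [← m59tpr_aB_eq_iota]; exact hcompA
  have hcompB' : 𝔫B.comap (s36tn_leg_iota O N' q) = 𝔫1 := by
    rw [← m59tpr_aB_eq_iota]; exact hcompB
  have e : 𝔫B = 𝔫A := s36tri_huniq_of_third L O N' q hq2 hqN' hπ ζ hζ T3 𝔫A 𝔫B hmaxA hmaxB
    (hcompA'.symm ▸ hP1) (hcompA'.symm ▸ hP2) (hcompB'.trans hcompA'.symm)
  have hleB' : ssm_tp_P (fc_chart ↥O ({lg_lamE (N' * q * q)} : Set ↥(lg_E L (N' * q * q))))
      (s36i_VB O hπ N' q hq2 hqN') ≤ 𝔫A := e ▸ hleB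
  have hq𝔫 : algebraMap ↥O (fc_chart ↥O ({lg_lamE (N' * q * q)} : Set ↥(lg_E L (N' * q * q))))
      ((q : ℕ) : ↥O) ∈ 𝔫A :=
    hleA (m59tpl_leg_primes L O N' q hq2 hqN' hπ ζ hζ T3).2.2.2
  obtain ⟨h1, h2, h3, -⟩ := m59tu2_tri_pack L O N' q hq2 hqN' hπ ζ hζ T3 𝔫A hmaxA hq𝔫
    (Or.inl ⟨hleA, hleB'⟩)
  exact ⟨𝔫A, hmaxA, h1, h2, h3, hcompA⟩

end NFq

section Hex

variable (A : ValuationSubring Qb) {q : ℕ} [hq : Fact q.Prime] (hA : A.LiesOverPrime q)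
  (N' : ℕ) [NeZero N'] [NeZero q] [NeZero (N' * q)] [NeZero (N' * q * q)]
  (hq2 : ¬ 2 ∣ q) (hqN' : ¬ q ∣ N')
  (L : IntermediateField ℚ Qb) [NumberField ↥L]
  [IsDiscreteValuationRing ↥(A.comap (algebraMap ↥L Qb))]
  [CharP (ResidueField ↥(A.comap (algebraMap ↥L Qb))) q]
  (hπq : Irreducible ((q : ℕ) : ↥(A.comap (algebraMap ↥L Qb))))
  (ζN : ↥L) (hζN : IsPrimitiveRoot ζN N')

include hA hζN in
set_option maxHeartbeats 3200000 in
/-- **[TRI-EX] in the literal shape `hex`**: one third valuation with one triple point (it lies over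
a crossing point of `B₁` labelled by `Q0`). -/
theorem m59tj2_hex (Q0 : s44e_Sg A N' q hq.out hqN') :
    ∃ VC : ValuationSubring ↥(lg_E ↥L (N' * q * q)),
      s36asm_Third (A.comap (algebraMap ↥L Qb)) hπq N' q hq2 hqN' VC ∧
      ∃ 𝔫 : Ideal ↥(m59t2_B2 A N' q L), 𝔫.IsMaximal ∧
        m59t2_PA A N' L hπq ≤ 𝔫 ∧ m59t2_PB A N' hq2 hqN' L hπq ≤ 𝔫 ∧
        m59t2_PC A N' L VC ≤ 𝔫 := by
  obtain ⟨VC, T3⟩ := s36asm_third_exists (A.comap (algebraMap ↥L Qb)) hπq N' q hq2 hqN' 1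
    isUnit_one (mul_one _).symm
  obtain ⟨𝔫1, h𝔫1, hP1, hP2, -⟩ := m59tj_exists_node A hA N' hq2 hqN' L hπq ζN hζN Q0
  obtain ⟨𝔫, h𝔫, hPA, hPB, hPC, -⟩ := m59tj2_triple_over ↥L (A.comap (algebraMap ↥L Qb)) N' q
    hq2 hqN' hπq ζN hζN T3 𝔫1 h𝔫1 hP1 hP2
  exact ⟨VC, T3, 𝔫, h𝔫, hPA, hPB, hPC⟩

end Hex

section Star

variable (A : ValuationSubring Qb) {q : ℕ} [hq : Fact q.Prime] (hA : A.LiesOverPrime q)
  (N' : ℕ) [NeZero N'] [NeZero q] [NeZero (N' * q)] [NeZero (N' * q * q)] (hq2 : ¬ 2 ∣ q)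
  (hqN' : ¬ q ∣ N') {p : ℕ} [hp : Fact p.Prime]

include hA in
/-- **the clause (inj2) of `m59tf_Cells2` over the big level, for ANY chart maps `aB bB` over
`α^* = m59tpr_aE`, `β^* = m59tpr_bE`**: NO hypothesis left. -/
theorem m59tj2_inj2_final (hp2 : p ≠ 2) (hqp : q ≠ p) (hN2 : 2 ∣ N')
    (S : m59ls_Star N' q p A hq2 hqN') :
    haveI := (m59tx_star_inst A N' hq2 hqN' S).1
    haveI := S.lev.dvr
    haveI := m59tx_star_charP A hA N' hq2 hqN' S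
    ∀ (aB bB : ↥(m59t1_B1 A N' q S.L1) →+* ↥(m59t2_B2 A N' q S.L1))
      (haB : ∀ b : ↥(m59t1_B1 A N' q S.L1),
        ((aB b : ↥(m59t2_B2 A N' q S.L1)) : ↥(lg_E ↥S.L1 (N' * q * q))) =
          m59tpr_aE ↥S.L1 N' q (b : ↥(lg_E ↥S.L1 (N' * q))))
      (hbB : ∀ b : ↥(m59t1_B1 A N' q S.L1),
        ((bB b : ↥(m59t2_B2 A N' q S.L1)) : ↥(lg_E ↥S.L1 (N' * q * q))) =
          m59tpr_bE ↥S.L1 N' q hq2 (b : ↥(lg_E ↥S.L1 (N' * q))))
      (ζ : (↥(A.comap (algebraMap ↥S.L1 Qb)))ˣ) (Q0 : s44e_Sg A N' q hq.out hqN'),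
      ∀ z ∈ m59g12u_TorL A N' q hq2 hqN' S.L1 p 1,
        ∀ z' ∈ m59g12u_TorL A N' q hq2 hqN' S.L1 p 1, ∀ c,
          m59t2_T2 A hA N' hq2 hqN' S.L1 S.lev.irr aB bB p ζ Q0 z c →
          m59t2_T2 A hA N' hq2 hqN' S.L1 S.lev.irr aB bB p ζ Q0 z' c → z = z' := by
  haveI := (m59tx_star_inst A N' hq2 hqN' S).1
  haveI := S.lev.dvr
  haveI := m59tx_star_charP A hA N' hq2 hqN' S
  intro aB bB haB hbB ζ Q0
  exact m59tj2_inj2_closed A hA N' hq2 hqN' hp2 hqp hN2 S aB bB haB hbB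
    (m59tj2_hex A hA N' hq2 hqN' S.L1 S.lev.irr S.zN S.hzN Q0) ζ Q0

end Star

end Fermat.Agent.M59
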